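import Mathlib
import Fermat.Agent.Lib.CFT.RamBridge

/-!
# S36, descent layer, piece (U): the inertia field is unramified

`s36v_unram` : let `P` be a valuation subring of `ℚ̄` over the prime `q` and `K₀ ⊆ ℚ̄` a number
field fixed pointwise by the inertia group `P.inertiaSubgroupIn ℚ`.  Then `q` generates the maximal
ideal of the valuation ring `P ∩ K₀`: every nonunit of `P ∩ K₀` is `q` times an element of
`P ∩ K₀`.

Route: `L` = normal closure of `K₀`, `𝔓` = centre of `P` on `𝓞 L`.  Every element of the inertia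
group of `𝔓` in `Gal(L/ℚ)` lifts to `P.inertiaSubgroupIn ℚ` (`cfg_exists_lifts_inertia`), hence
fixes `K₀`; so the inertia groups of `𝔓` in `Gal(L/ℚ)` and in `Gal(L/K₀)` have the same
cardinality, `e(𝔓|q) = e(𝔓|𝔭₀)` (`Ideal.card_inertia_eq_ramificationIdxIn`) and by multiplicativity
`e(𝔭₀|q) = 1` (`s36v_ramIdx_one`).  Unfolding the definition of the ramification index, the maximal
ideal of the localisation of `𝓞 K₀` at `𝔭₀` is generated by `𝔭₀ ∩ 𝓞 ℚ`, i.e. by `q`
(`s36v_div_of_ramIdx_one`).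
-/

set_option autoImplicit false

namespace Fermat.Agent.Lib.S36

open NumberField
open scoped Pointwise
open Fermat.Agent.Lib.CFT Fermat.Agent.Lib.Frey

section ram

variable {K L : Type*} [Field K] [NumberField K] [Field L] [NumberField L] [Algebra K L]
  [IsGalois ℚ L]

/-- If the inertia group of `Q` in `Gal(L/ℚ)` fixes `K` pointwise, then the prime of `K` below `Q`
is unramified over `ℚ`. -/
theorem s36v_ramIdx_one (Q : Ideal (𝓞 L)) [Q.IsPrime]
    (h : ∀ τ : L ≃ₐ[ℚ] L, (∀ y : 𝓞 L, τ • y - y ∈ Q) →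
      ∀ x : K, τ (algebraMap K L x) = algebraMap K L x) :
    (Q.under (𝓞 K)).ramificationIdx (𝓞 ℚ) = 1 := by
  have hgal : IsGalois K L := IsGalois.tower_top_of_isGalois ℚ K L
  have hlo1 : Q.LiesOver (Q.under (𝓞 ℚ)) := ⟨rfl⟩
  have hlo2 : Q.LiesOver (Q.under (𝓞 K)) := ⟨rfl⟩
  have hpr : (Q.under (𝓞 K)).IsPrime := inferInstance
  have e1 : Nat.card (Q.inertia (L ≃ₐ[ℚ] L)) = Q.ramificationIdx (𝓞 ℚ) := by
    rw [Ideal.card_inertia_eq_ramificationIdxIn (G := L ≃ₐ[ℚ] L) (Q.under (𝓞 ℚ)) Q,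
      Ideal.ramificationIdxIn_eq_ramificationIdx (Q.under (𝓞 ℚ)) Q (L ≃ₐ[ℚ] L)]
  have e2 : Nat.card (Q.inertia (L ≃ₐ[K] L)) = Q.ramificationIdx (𝓞 K) := by
    rw [Ideal.card_inertia_eq_ramificationIdxIn (G := L ≃ₐ[K] L) (Q.under (𝓞 K)) Q,
      Ideal.ramificationIdxIn_eq_ramificationIdx (Q.under (𝓞 K)) Q (L ≃ₐ[K] L)]
  have e3 : Nat.card (Q.inertia (L ≃ₐ[K] L)) = Nat.card (Q.inertia (L ≃ₐ[ℚ] L)) := by
    refine Nat.card_congr (Equiv.ofBijective
      (fun σ => ⟨(σ : L ≃ₐ[K] L).restrictScalars ℚ, ?_⟩) ⟨?_, ?_⟩)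
    · rw [AddSubgroup.mem_inertia]
      intro x
      exact AddSubgroup.mem_inertia.mp σ.2 x
    · intro σ σ' hσ
      have h1 : (σ : L ≃ₐ[K] L).restrictScalars ℚ = (σ' : L ≃ₐ[K] L).restrictScalars ℚ :=
        congrArg Subtype.val hσ
      apply Subtype.ext
      ext x
      exact DFunLike.congr_fun h1 x
    · intro τ
      have hτ := h τ.1 (fun y => AddSubgroup.mem_inertia.mp τ.2 y)
      let σ : L ≃ₐ[K] L := { (τ.1 : L ≃ₐ[ℚ] L) with commutes' := hτ }
      refine ⟨⟨σ, ?_⟩, ?_⟩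
      · rw [AddSubgroup.mem_inertia]
        intro x
        exact AddSubgroup.mem_inertia.mp τ.2 x
      · apply Subtype.ext
        ext x
        rfl
  have e4 := Ideal.ramificationIdx_tower (R := 𝓞 ℚ) (S := 𝓞 K) (T := 𝓞 L) (Q.under (𝓞 K)) Q
  have e5 : 0 < Q.ramificationIdx (𝓞 K) := Ideal.ramificationIdx_pos Q (𝓞 K)
  rw [← e1, ← e3, e2] at e4
  have e6 : (Q.under (𝓞 K)).ramificationIdx (𝓞 ℚ) * Q.ramificationIdx (𝓞 K)
      = 1 * Q.ramificationIdx (𝓞 K) := by rw [one_mul]; exact e4.symm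
  exact Nat.eq_of_mul_eq_mul_right e5 e6

end ram


section val

variable {K : Type*} [Field K] [NumberField K] (A : ValuationSubring K)

/-- If the centre of `A` on `𝓞 K` is unramified over `ℚ`, the prime `q` generates the maximal
ideal of `A`. -/
theorem s36v_div_of_ramIdx_one {q : ℕ} (hq : q.Prime) (hA : (q : K) ∈ A.nonunits)
    (he : (cfg_center A).ramificationIdx (𝓞 ℚ) = 1) :
    ∀ a ∈ A.nonunits, ∃ b ∈ A, a = (q : K) * b := by
  have h𝔭 : (cfg_center A).IsPrime := cfg_center_isPrime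
  have hmax : ((cfg_center A).under (𝓞 ℚ)).map
      (algebraMap (𝓞 ℚ) (Localization.AtPrime (cfg_center A)))
        = IsLocalRing.maximalIdeal (Localization.AtPrime (cfg_center A)) := by
    rw [Ideal.ramificationIdx_def, ENat.toNat_eq_iff_eq_natCast, Nat.cast_one,
      Module.length_eq_one_iff, isSimpleModule_iff_isCoatom, ← Ideal.isMaximal_def,
      IsLocalRing.isMaximal_iff] at he
    exact he
  -- the map from the localisation to `K`
  have hg : ∀ y : (cfg_center A).primeCompl, IsUnit (algebraMap (𝓞 K) K y) := by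
    intro y
    refine IsUnit.mk0 _ ?_
    intro h0
    have h1 : (y : 𝓞 K) = 0 := by
      apply RingOfIntegers.coe_injective
      rw [map_zero]
      exact h0
    exact y.2 (h1 ▸ (cfg_center A).zero_mem)
  let φ : Localization.AtPrime (cfg_center A) →+* K :=
    IsLocalization.lift (M := (cfg_center A).primeCompl) hg
  have hφ : ∀ x : 𝓞 K, φ (algebraMap (𝓞 K) (Localization.AtPrime (cfg_center A)) x)
      = algebraMap (𝓞 K) K x := fun x => IsLocalization.lift_eq hg x
  have hφA : ∀ x : Localization.AtPrime (cfg_center A), φ x ∈ A := by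
    intro x
    obtain ⟨a, s, rfl⟩ := IsLocalization.exists_mk'_eq (cfg_center A).primeCompl x
    have h1 : algebraMap (𝓞 K) K a = algebraMap (𝓞 K) K s * φ (IsLocalization.mk' _ a s) :=
      (IsLocalization.lift_mk'_spec _ _ _ _).mp rfl
    have hs : A.valuation (algebraMap (𝓞 K) K s) = 1 := cfg_not_mem_center_iff_val.mp s.2
    have ha : A.valuation (algebraMap (𝓞 K) K a) ≤ 1 :=
      (A.valuation_le_one_iff _).mpr (cfg_coe_mem A a)
    rw [h1, map_mul, hs, one_mul] at ha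
    exact (A.valuation_le_one_iff _).mp ha
  have hgen : ∀ x ∈ ((cfg_center A).under (𝓞 ℚ)).map
      (algebraMap (𝓞 ℚ) (Localization.AtPrime (cfg_center A))),
      ∃ b ∈ A, φ x = (q : K) * b := by
    intro x hx
    rw [Ideal.map] at hx
    induction hx using Submodule.span_induction with
    | mem x hx =>
      obtain ⟨n, hn, rfl⟩ := hx
      have hn' : algebraMap (𝓞 K) K (algebraMap (𝓞 ℚ) (𝓞 K) n) ∈ A.nonunits := hn
      obtain ⟨m, rfl⟩ := Rat.ringOfIntegersEquiv.symm.surjective n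
      have hm : algebraMap (𝓞 K) K (algebraMap (𝓞 ℚ) (𝓞 K) (Rat.ringOfIntegersEquiv.symm m))
          = (m : K) := by
        have : Rat.ringOfIntegersEquiv.symm m = (m : 𝓞 ℚ) := by
          simp
        rw [this, map_intCast, map_intCast]
      rw [IsScalarTower.algebraMap_apply (𝓞 ℚ) (𝓞 K) (Localization.AtPrime (cfg_center A)),
        hφ, hm]
      rw [hm] at hn'
      have hdvd : (q : ℤ) ∣ m := by
        by_contra hnd
        have h1 := ford_val_intCast_of_not_dvd hq hA hnd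
        have h2 := A.mem_nonunits_iff.mp hn'
        rw [h1] at h2
        exact lt_irrefl _ h2
      obtain ⟨d, rfl⟩ := hdvd
      exact ⟨(d : K), intCast_mem A d, by push_cast; ring⟩
    | zero => exact ⟨0, A.zero_mem, by rw [map_zero, mul_zero]⟩
    | add x y _ _ hx hy =>
      obtain ⟨b, hb, hxb⟩ := hx
      obtain ⟨c, hc, hyc⟩ := hy
      exact ⟨b + c, A.add_mem _ _ hb hc, by rw [map_add, hxb, hyc, mul_add]⟩
    | smul r x _ hx =>
      obtain ⟨b, hb, hxb⟩ := hx
      refine ⟨φ r * b, A.mul_mem _ _ (hφA r) hb, ?_⟩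
      rw [smul_eq_mul, map_mul, hxb]
      ring
  intro a ha
  have haA : a ∈ A := A.nonunits_le ha
  obtain ⟨a', s, hs, has⟩ := cfg_exists_eq_div hq hA haA
  have hsv : A.valuation (algebraMap (𝓞 K) K s) = 1 := cfg_not_mem_center_iff_val.mp hs
  have ha' : a' ∈ cfg_center A := by
    rw [cfg_mem_center_iff_val, ← has, map_mul, hsv, mul_one]
    exact A.mem_nonunits_iff.mp ha
  have h1 : algebraMap (𝓞 K) (Localization.AtPrime (cfg_center A)) a'
      ∈ IsLocalRing.maximalIdeal (Localization.AtPrime (cfg_center A)) :=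
    (IsLocalization.AtPrime.to_map_mem_maximal_iff _ (cfg_center A) a').mpr ha'
  rw [← hmax] at h1
  obtain ⟨b, hb, hb'⟩ := hgen _ h1
  rw [hφ, ← has] at hb'
  have hs0 : algebraMap (𝓞 K) K s ≠ 0 := by
    intro h0
    rw [h0, map_zero] at hsv
    exact zero_ne_one hsv
  refine ⟨b * (algebraMap (𝓞 K) K s)⁻¹, ?_, ?_⟩
  · rw [← A.valuation_le_one_iff, map_mul, map_inv₀, hsv, inv_one, mul_one]
    exact (A.valuation_le_one_iff _).mpr hb
  · field_simp
    exact hb'

end val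


theorem s36v_mem_nonunits_comap {L₀ L : Type*} [Field L₀] [Field L] (φ : L₀ →+* L)
    (A : ValuationSubring L) (x : L₀) : x ∈ (A.comap φ).nonunits ↔ φ x ∈ A.nonunits := by
  rw [ValuationSubring.mem_nonunits_iff_or, ValuationSubring.mem_nonunits_iff_or,
    ValuationSubring.mem_comap, map_inv₀, map_eq_zero]

section main

local notation "Ω" => AlgebraicClosure ℚ

theorem s36v_unram (P : ValuationSubring (AlgebraicClosure ℚ)) (q : ℕ) (hq : q.Prime)
    (hP : P.LiesOverPrime q) (K₀ : IntermediateField ℚ (AlgebraicClosure ℚ))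
    [FiniteDimensional ℚ ↥K₀]
    (hfix : ∀ σ ∈ P.inertiaSubgroupIn ℚ, ∀ a ∈ K₀, σ a = a) :
    ∀ a ∈ (P.comap (algebraMap ↥K₀ (AlgebraicClosure ℚ))).nonunits,
      ∃ b ∈ P.comap (algebraMap ↥K₀ (AlgebraicClosure ℚ)), a = (q : ↥K₀) * b := by
  have hgalΩ : IsGalois ℚ Ω := cfg_isGalois_QBar
  have hnf : NumberField ↥K₀ := ⟨⟩
  -- the normal closure
  let L : IntermediateField ℚ Ω := IntermediateField.normalClosure ℚ ↥K₀ Ω
  have hLfin : FiniteDimensional ℚ ↥L := inferInstance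
  have hLnf : NumberField ↥L := ⟨⟩
  have hnormΩ : Normal ℚ Ω := hgalΩ.to_normal
  have hLnorm : Normal ℚ ↥L := normalClosure.normal ℚ ↥K₀ Ω
  have hLgal : IsGalois ℚ ↥L := ⟨⟩
  have hPq : (q : Ω) ∈ P.nonunits := hP
  have hQmax : (cfg_center P).IsMaximal := cfg_center_isMaximal hq hPq
  have hlo : (cfg_center P).LiesOver ((cfg_center P).under (𝓞 ↥L)) := ⟨rfl⟩
  have hram : (((cfg_center P).under (𝓞 ↥L)).under (𝓞 ↥K₀)).ramificationIdx (𝓞 ℚ) = 1 := by
    refine s36v_ramIdx_one (K := ↥K₀) (L := ↥L) ((cfg_center P).under (𝓞 ↥L)) ?_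
    intro τ hτ x
    obtain ⟨σ, hσ, -, hσI⟩ := cfg_exists_lifts_inertia ((cfg_center P).under (𝓞 ↥L))
      (cfg_center P) τ hτ
    have hσin : σ ∈ P.inertiaSubgroupIn ℚ := by
      refine cfg_mem_inertiaSubgroupIn_of_integral hq hPq σ ?_
      intro b hb
      obtain ⟨b', rfl⟩ : ∃ b' : 𝓞 Ω, algebraMap (𝓞 Ω) Ω b' = b :=
        (IsIntegralClosure.isIntegral_iff (A := 𝓞 Ω)).mp hb
      exact hσI b'
    have h1 := hfix σ hσin (x : Ω) x.2
    have h2 := hσ (algebraMap ↥K₀ ↥L x)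
    apply (algebraMap ↥L Ω).injective
    rw [← h2]
    exact h1
  have hA₀q : ((q : ℕ) : ↥K₀) ∈ (P.comap (algebraMap ↥K₀ Ω)).nonunits := by
    rw [s36v_mem_nonunits_comap, map_natCast]
    exact hPq
  have hcen : cfg_center (P.comap (algebraMap ↥K₀ Ω))
      = ((cfg_center P).under (𝓞 ↥L)).under (𝓞 ↥K₀) := by
    ext b
    rw [cfg_mem_center_iff, s36v_mem_nonunits_comap, Ideal.under_def, Ideal.mem_comap,
      Ideal.under_def, Ideal.mem_comap, cfg_mem_center_iff]
    rfl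
  rw [← hcen] at hram
  exact s36v_div_of_ramIdx_one _ hq hA₀q hram

end main

end Fermat.Agent.Lib.S36
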