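/-
S36 project, package (L2) (helper9), part 1: THE FULL FRICKE INVOLUTION `w_N` of
`F̄(N) = Q̄(j(q^d) : d ∣ N)`, `j(q^d) ↦ j(q^(N/d))`, and its interplay with the degeneracy maps
`α, β : F̄(N) → F̄(N ℓ)` (arbitrary `N, ℓ`):  `w_{Nℓ} ∘ α = β ∘ w_N`, `w_{Nℓ} ∘ β = α ∘ w_N`.
Consequently `[F̄(N ℓ) : β F̄(N)] = [F̄(N ℓ) : α F̄(N)]`, and `ψ(N) · [F̄(N') : F̄(N)] = ψ(N')` for
`N ∣ N'`; in particular both degrees are `ℓ` for a prime `ℓ ∣ N`.
-/
import Fermat.Agent.Lib.S37.WAtkin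
import Fermat.Agent.Lib.S37.LLevel

set_option autoImplicit false
set_option linter.unusedSectionVars false
set_option linter.style.haveILetI false

noncomputable section

namespace Fermat.Agent.Lib.S36

open ModularCurve AlgebraicCurve IntermediateField Fermat.Agent.Lib.FF Fermat.Agent.Lib.S18
  Fermat.Agent.Lib.S28 Fermat.Agent.Lib.S37

local notation "Kb" => AlgebraicClosure ℚ

section Fricke

variable (N : ℕ) [NeZero N]

/-- **The Fricke involution** `w_N` of `F̄(N)` over `Q̄`: `j(q^d) ↦ j(q^(N/d))`. -/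
def s36m_fricke : ffi_F N ≃ₐ[Kb] ffi_F N :=
  s37w_substEquiv N (s28w_co N) (s28w_frickeH N) (s28w_jd_frickeH N) (s28w_co_co N)

theorem s36m_fricke_fricke (x : ffi_F N) : s36m_fricke N (s36m_fricke N x) = x :=
  s37w_substEquiv_substEquiv _ _ _ _ _ x

theorem s36m_fricke_gen (d : s28w_Idx N) (x : ffi_F N)
    (hx : (x : LaurentSeries Kb) = s37w_gen N d) :
    ((s36m_fricke N x : ffi_F N) : LaurentSeries Kb) = s37w_gen N (s28w_co N d) :=
  s37w_substEquiv_gen _ _ _ _ _ d x hx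

variable (ℓ : ℕ) [NeZero ℓ]

/-- **`w_{Nℓ} ∘ α = β ∘ w_N`.** -/
theorem s36m_fricke_alpha (y : ffi_F N) :
    s36m_fricke (N * ℓ) (heckeAlphaBar Kb N ℓ y) = heckeBetaBar Kb N ℓ (s36m_fricke N y) := by
  have key : ((s36m_fricke (N * ℓ) : ffi_F (N * ℓ) →ₐ[Kb] ffi_F (N * ℓ)).comp
      (heckeAlphaBar Kb N ℓ)) =
      (heckeBetaBar Kb N ℓ).comp (s36m_fricke N : ffi_F N →ₐ[Kb] ffi_F N) := by
    refine s37w_algHom_ext N _ _ fun d x hx => ?_
    apply Subtype.ext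
    let D : s28w_Idx (N * ℓ) := ⟨d.1, d.2.trans (dvd_mul_right N ℓ)⟩
    have h1 : ((heckeAlphaBar Kb N ℓ x : ffi_F (N * ℓ)) : LaurentSeries Kb) =
        s37w_gen (N * ℓ) D := by
      rw [coe_heckeAlphaBar, hx]; rfl
    rw [AlgHom.comp_apply, AlgHom.comp_apply]
    show ((s36m_fricke (N * ℓ) (heckeAlphaBar Kb N ℓ x) : ffi_F (N * ℓ)) : LaurentSeries Kb) =
      ((heckeBetaBar Kb N ℓ (s36m_fricke N x) : ffi_F (N * ℓ)) : LaurentSeries Kb)
    rw [s36m_fricke_gen (N * ℓ) D _ h1, coe_heckeBetaBar, s36m_fricke_gen N d x hx,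
      s37w_gen_qExpand, s37w_gen]
    have h2 : (s28w_co (N * ℓ) D).1 = (s28w_co N d).1 * ℓ := by
      show N * ℓ / d.1 = N / d.1 * ℓ
      exact (Nat.div_mul_right_comm d.2 ℓ).symm
    exact congrArg _ (qExpand_congr h2 jq)
  exact AlgHom.congr_fun key y

/-- **`w_{Nℓ} ∘ β = α ∘ w_N`.** -/
theorem s36m_fricke_beta (y : ffi_F N) :
    s36m_fricke (N * ℓ) (heckeBetaBar Kb N ℓ y) = heckeAlphaBar Kb N ℓ (s36m_fricke N y) := by
  have h := s36m_fricke_alpha N ℓ (s36m_fricke N y)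
  rw [s36m_fricke_fricke] at h
  rw [← h, s36m_fricke_fricke]

/-- `[F̄(N ℓ) : β F̄(N)] = [F̄(N ℓ) : α F̄(N)]`. -/
theorem s36m_finrank_beta_eq_alpha :
    finrankAlong Kb (heckeBetaBar Kb N ℓ) = finrankAlong Kb (heckeAlphaBar Kb N ℓ) :=
  @Algebra.finrank_eq_of_equiv_equiv (ffi_F N) (ffi_F (N * ℓ)) _ _
    (algebraAlong (heckeBetaBar Kb N ℓ)) (ffi_F N) (ffi_F (N * ℓ)) _ _
    (algebraAlong (heckeAlphaBar Kb N ℓ))
    (s36m_fricke N).toRingEquiv (s36m_fricke (N * ℓ)).toRingEquiv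
    (RingHom.ext fun y => (s36m_fricke_beta N ℓ y).symm)

end Fricke

section Degree

variable {N N' : ℕ} [NeZero N] [NeZero N'] (h : N ∣ N')

/-- `ψ(N) · [F̄(N') : F̄(N)] = ψ(N')`. -/
theorem s36m_psi_mul_finrank_incl :
    dedekindPsi N * finrankAlong Kb (s37l_incl N N' h) = dedekindPsi N' := by
  have hle : modularFunctionFieldBar N ≤ modularFunctionFieldBar N' := s18l_bar_mono h
  have hj : (AlgebraicClosure ℚ)⟮ffd_jSeries⟯ ≤ modularFunctionFieldBar N := by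
    rw [IntermediateField.adjoin_simple_le_iff]
    exact ffd_jSeries_mem N
  have hmul := IntermediateField.relfinrank_mul_relfinrank hj hle
  rw [s18l_relfinrank_j N, s18l_relfinrank_j N'] at hmul
  have h1 := IntermediateField.relfinrank_eq_finrank_of_le hle
  let _ := algebraAlong (s37l_incl N N' h)
  let e : ↥(modularFunctionFieldBar N') ≃ₗ[↥(modularFunctionFieldBar N)]
      ↥(IntermediateField.extendScalars hle) :=
    { toFun := fun x => ⟨x.1, x.2⟩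
      invFun := fun x => ⟨x.1, x.2⟩
      map_add' := fun _ _ => rfl
      map_smul' := fun a x => by
        apply Subtype.ext
        rfl
      left_inv := fun _ => rfl
      right_inv := fun _ => rfl }
  show dedekindPsi N * Module.finrank ↥(modularFunctionFieldBar N) ↥(modularFunctionFieldBar N')
    = dedekindPsi N'
  rw [e.finrank_eq, ← h1, hmul]

end Degree

section PrimeDvd

variable (N ℓ : ℕ) [NeZero N] [NeZero ℓ]

/-- `ψ(N ℓ) = ℓ ψ(N)` for a prime `ℓ ∣ N`. -/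
theorem s36m_psi_mul_prime_of_dvd (hℓ : ℓ.Prime) (hℓN : ℓ ∣ N) :
    dedekindPsi (N * ℓ) = dedekindPsi N * ℓ := by
  obtain ⟨e, m, hm, hN⟩ := Nat.exists_eq_pow_mul_and_not_dvd (NeZero.ne N) ℓ hℓ.ne_one
  have he : 0 < e := by
    rcases Nat.eq_zero_or_pos e with h0 | h0
    · exfalso
      rw [h0, pow_zero, one_mul] at hN
      exact hm (hN ▸ hℓN)
    · exact h0
  obtain ⟨e', rfl⟩ : ∃ e', e = e' + 1 := ⟨e - 1, by omega⟩
  have hcop : Nat.Coprime (ℓ ^ (e' + 1)) m :=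
    Nat.Coprime.pow_left (e' + 1) ((Nat.Prime.coprime_iff_not_dvd hℓ).mpr hm)
  have hcop' : Nat.Coprime (ℓ ^ (e' + 1 + 1)) m :=
    Nat.Coprime.pow_left (e' + 1 + 1) ((Nat.Prime.coprime_iff_not_dvd hℓ).mpr hm)
  have hNℓ : N * ℓ = ℓ ^ (e' + 1 + 1) * m := by rw [hN, pow_succ (ℓ) (e' + 1)]; ring
  have hp1 := Fermat.Agent.Lib.RR.Cosets.dedekindPsi_prime_pow hℓ (k := e' + 1) (by omega)
  have hp2 := Fermat.Agent.Lib.RR.Cosets.dedekindPsi_prime_pow hℓ (k := e' + 1 + 1) (by omega)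
  rw [Nat.add_sub_cancel] at hp1 hp2
  rw [hNℓ, hN, Fermat.Agent.Lib.RR.Cosets.dedekindPsi_mul hcop,
    Fermat.Agent.Lib.RR.Cosets.dedekindPsi_mul hcop', hp1, hp2]
  ring

/-- **`[F̄(N ℓ) : α F̄(N)] = ℓ`** for a prime `ℓ ∣ N`. -/
theorem s36m_finrank_alpha_of_dvd (hℓ : ℓ.Prime) (hℓN : ℓ ∣ N) :
    finrankAlong Kb (heckeAlphaBar Kb N ℓ) = ℓ := by
  have h1 := s36m_psi_mul_finrank_incl (dvd_mul_right N ℓ)
  rw [s36m_psi_mul_prime_of_dvd N ℓ hℓ hℓN] at h1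
  exact Nat.eq_of_mul_eq_mul_left (s18l_dedekindPsi_pos N) h1

/-- **`[F̄(N ℓ) : β F̄(N)] = ℓ`** for a prime `ℓ ∣ N`. -/
theorem s36m_finrank_beta_of_dvd (hℓ : ℓ.Prime) (hℓN : ℓ ∣ N) :
    finrankAlong Kb (heckeBetaBar Kb N ℓ) = ℓ := by
  rw [s36m_finrank_beta_eq_alpha, s36m_finrank_alpha_of_dvd N ℓ hℓ hℓN]

/-- `[F̄(N ℓ) : F̄(N)] = ℓ + 1` for a prime `ℓ ∤ N` (level inclusion form). -/
theorem s36m_finrank_alpha_of_not_dvd (hℓ : ℓ.Prime) (hℓN : ¬ ℓ ∣ N) :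
    finrankAlong Kb (heckeAlphaBar Kb N ℓ) = ℓ + 1 :=
  s37w_finrank_alpha N ℓ hℓ hℓN

end PrimeDvd

end Fermat.Agent.Lib.S36
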