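/-
S36 project, package (L2) (helper9), part 2: LINEAR INDEPENDENCE BY LAURENT ORDERS.

* `s36p_indep_pow_over_qExpand` : `1, J, …, J^{n-1}` are linearly independent over `κ((T^n))` as
  soon as `ord J` is prime to `n`;
* `s36p_indep_beta`  : for `x ∈ F̄(N q)` whose `q`-expansion has order prime to `q`, the powers
  `x^i`, `i < q`, are linearly independent over `β F̄(N)` (`β f = f(T^q)`);
* `s36p_indep_alpha` : for `x ∈ F̄(N q)` such that the `q`-expansion of `w_{Nq} x` has order prime
  to `q`, the powers `x^i`, `i < q`, are linearly independent over `α F̄(N) = F̄(N)` (apply the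
  Fricke involution: `w_{Nq} ∘ α = β ∘ w_N`);
* the generators `s36p_jd N d hd = j(q^d) ∈ F̄(N)` (`d ∣ N`), their orders and their images under
  the Fricke involution.
-/
import Fermat.Agent.Lib.S34.XKron
import Fermat.Agent.Lib.S18.TSepJ
import Fermat.Agent.Lib.S36.MFricke

set_option autoImplicit false
set_option linter.unusedSectionVars false
set_option linter.style.haveILetI false

noncomputable section

namespace Fermat.Agent.Lib.S36

open ModularCurve AlgebraicCurve HahnSeries Fermat.Agent.Lib.FF Fermat.Agent.Lib.S18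
  Fermat.Agent.Lib.S28 Fermat.Agent.Lib.S34 Fermat.Agent.Lib.S37

local notation "Kb" => AlgebraicClosure ℚ

section Series

variable {κ : Type*} [Field κ]

/-- `1, J, …, J^{n-1}` are linearly independent over `κ((T^n))` when `ord J` is prime to `n`. -/
theorem s36p_indep_pow_over_qExpand (n : ℕ) [NeZero n] (J : LaurentSeries κ) (hJ0 : J ≠ 0)
    (hcop : IsCoprime J.order (n : ℤ))
    (a : ℕ → LaurentSeries κ) (hsum : ∑ i ∈ Finset.range n, qExpand κ n (a i) * J ^ i = 0) :
    ∀ i ∈ Finset.range n, a i = 0 := by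
  have hord : ∀ i, a i ≠ 0 →
      (qExpand κ n (a i) * J ^ i).order = (n : ℤ) * (a i).order + i * J.order := by
    intro i hai
    have h1 : qExpand κ n (a i) ≠ 0 := fun h => hai (qExpand_injective n (by rw [h, map_zero]))
    rw [HahnSeries.order_mul h1 (pow_ne_zero i hJ0), s34x_order_qExpand n hai,
      HahnSeries.order_pow]
    simp only [nsmul_eq_mul]
  have key := s34x_eq_zero_of_order_inj (Finset.range n)
    (fun i => qExpand κ n (a i) * J ^ i) ?_ hsum
  · intro i hi
    have := key i hi
    rcases mul_eq_zero.mp this with h | h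
    · exact qExpand_injective n (by rw [h, map_zero])
    · exact absurd h (pow_ne_zero i hJ0)
  · intro i hi j hj hxi hxj he
    have hai : a i ≠ 0 := fun h => hxi (by simp only [h, map_zero, zero_mul])
    have haj : a j ≠ 0 := fun h => hxj (by simp only [h, map_zero, zero_mul])
    have he' : (qExpand κ n (a i) * J ^ i).order = (qExpand κ n (a j) * J ^ j).order := he
    rw [hord i hai, hord j haj] at he'
    have hi' := Finset.mem_range.mp hi
    have hj' := Finset.mem_range.mp hj
    have hdvd0 : (n : ℤ) ∣ J.order * ((i : ℤ) - j) :=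
      ⟨(a j).order - (a i).order, by linear_combination he'⟩
    have hdvd : (n : ℤ) ∣ (i : ℤ) - j := hcop.symm.dvd_of_dvd_mul_left hdvd0
    clear he
    have habs : |(i : ℤ) - j| < n := by
      rw [abs_lt]
      constructor <;> omega
    have := Int.eq_zero_of_abs_lt_dvd hdvd habs
    omega

/-- the order of `j(q^d)` over any field of coefficients containing `ℚ`. -/
theorem s36p_order_coeffEmb_jd (L : Type*) [Field L] [Algebra ℚ L] (d : ℕ) [NeZero d] :
    (coeffEmb L (qExpand ℚ d jq)).order = -(d : ℤ) := by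
  have hjq : jq.order = -1 := s18t_order_jqModC ℚ
  have hjq0 : jq ≠ 0 := by
    intro h
    rw [h, HahnSeries.order_zero] at hjq
    omega
  show (coeffMap (algebraMap ℚ L) (qExpand ℚ d jq)).order = _
  rw [s34x_order_coeffMap, s34x_order_qExpand d hjq0, hjq]
  ring

end Series

section Beta

variable (N q : ℕ) [NeZero N] [NeZero q]

/-- **independence over `β F̄(N)`**: if the `q`-expansion of `x ∈ F̄(N q)` has order prime to `q`,
then `1, x, …, x^{q-1}` are linearly independent over `β F̄(N)`. -/
theorem s36p_indep_beta (x : ffi_F (N * q)) (hx0 : x ≠ 0)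
    (hcop : IsCoprime ((x : LaurentSeries Kb)).order (q : ℤ))
    (c : Fin q → ffi_F N) (h : ∑ i : Fin q, heckeBetaBar Kb N q (c i) * x ^ (i : ℕ) = 0) :
    c = 0 := by
  classical
  let a : ℕ → LaurentSeries Kb := fun i =>
    if hi : i < q then ((c ⟨i, hi⟩ : ffi_F N) : LaurentSeries Kb) else 0
  have hx0' : (x : LaurentSeries Kb) ≠ 0 := fun h0 => hx0 (Subtype.ext h0)
  have h1 := congrArg (fun y : ffi_F (N * q) => (y : LaurentSeries Kb)) h
  simp only [AddSubmonoidClass.coe_finsetSum, MulMemClass.coe_mul, ZeroMemClass.coe_zero,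
    SubmonoidClass.coe_pow, coe_heckeBetaBar] at h1
  have hsum : ∑ i ∈ Finset.range q, qExpand Kb q (a i) * (x : LaurentSeries Kb) ^ i = 0 := by
    rw [← Fin.sum_univ_eq_sum_range (fun i => qExpand Kb q (a i) * (x : LaurentSeries Kb) ^ i) q,
      ← h1]
    refine Finset.sum_congr rfl fun i _ => ?_
    simp only [a, dif_pos i.2]
  have key := s36p_indep_pow_over_qExpand q (x : LaurentSeries Kb) hx0' hcop a hsum
  funext i
  have := key i (Finset.mem_range.mpr i.2)
  simp only [a, dif_pos i.2] at this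
  exact Subtype.ext this

/-- **independence over `α F̄(N)`**: if the `q`-expansion of `w_{Nq} x` has order prime to `q`,
then `1, x, …, x^{q-1}` are linearly independent over `α F̄(N) = F̄(N)`. -/
theorem s36p_indep_alpha (x : ffi_F (N * q)) (hx0 : x ≠ 0)
    (hcop : IsCoprime ((s36m_fricke (N * q) x : ffi_F (N * q)) : LaurentSeries Kb).order (q : ℤ))
    (c : Fin q → ffi_F N) (h : ∑ i : Fin q, heckeAlphaBar Kb N q (c i) * x ^ (i : ℕ) = 0) :
    c = 0 := by
  have h1 := congrArg (s36m_fricke (N * q)) h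
  rw [map_sum, map_zero] at h1
  have h2 : ∑ i : Fin q, heckeBetaBar Kb N q (s36m_fricke N (c i)) *
      (s36m_fricke (N * q) x) ^ (i : ℕ) = 0 := by
    rw [← h1]
    refine Finset.sum_congr rfl fun i _ => ?_
    rw [map_mul, map_pow, s36m_fricke_alpha]
  have hx0' : s36m_fricke (N * q) x ≠ 0 := fun h0 =>
    hx0 ((s36m_fricke (N * q)).injective (by rw [h0, map_zero]))
  have key := s36p_indep_beta N q (s36m_fricke (N * q) x) hx0' hcop
    (fun i => s36m_fricke N (c i)) h2
  funext i
  have := congrFun key i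
  exact (s36m_fricke N).injective (by rw [this]; simp)

end Beta

section Generators

variable (N : ℕ) [NeZero N]

/-- the generator `j(q^d) ∈ F̄(N)`, `d ∣ N`. -/
def s36p_jd (d : ℕ) [NeZero d] (hd : d ∣ N) : ffi_F N :=
  ⟨coeffEmb Kb (qExpand ℚ d jq), coeffEmb_mem_laurentBaseChange Kb (jqd_mem_full N hd)⟩

theorem s36p_jd_coe (d : ℕ) [NeZero d] (hd : d ∣ N) :
    ((s36p_jd N d hd : ffi_F N) : LaurentSeries Kb) = coeffEmb Kb (qExpand ℚ d jq) := rfl

theorem s36p_jd_ne_zero (d : ℕ) [NeZero d] (hd : d ∣ N) : s36p_jd N d hd ≠ 0 := by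
  intro h
  have h1 := congrArg (fun y : ffi_F N => (y : LaurentSeries Kb).order) h
  simp only [s36p_jd_coe, ZeroMemClass.coe_zero, HahnSeries.order_zero,
    s36p_order_coeffEmb_jd] at h1
  have := NeZero.ne d
  omega

theorem s36p_order_jd (d : ℕ) [NeZero d] (hd : d ∣ N) :
    ((s36p_jd N d hd : ffi_F N) : LaurentSeries Kb).order = -(d : ℤ) := by
  rw [s36p_jd_coe, s36p_order_coeffEmb_jd]

/-- the Fricke involution on the generators: `w_N j(q^d) = j(q^(N/d))`. -/
theorem s36p_fricke_jd (d : ℕ) [NeZero d] (hd : d ∣ N) :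
    ((s36m_fricke N (s36p_jd N d hd) : ffi_F N) : LaurentSeries Kb) =
      s37w_gen N (s28w_co N ⟨d, hd⟩) :=
  s36m_fricke_gen N ⟨d, hd⟩ (s36p_jd N d hd) rfl

theorem s36p_order_fricke_jd (d : ℕ) [NeZero d] (hd : d ∣ N) :
    ((s36m_fricke N (s36p_jd N d hd) : ffi_F N) : LaurentSeries Kb).order = -((N / d : ℕ) : ℤ) := by
  rw [s36p_fricke_jd, s37w_gen]
  exact s36p_order_coeffEmb_jd Kb (s28w_co N ⟨d, hd⟩).1

end Generators

end Fermat.Agent.Lib.S36
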