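/-
S36 project (helper1, for helper4's layer (R-q)), [CT] "CUSP TYPES".

For a place `v` of `F̄(M q)` (`q` prime, `q ∤ M`) at which `j` has a pole, `j_q := β j` has a pole
as well and the two pole orders `a = -ord_v j`, `b = -ord_v j_q` satisfy `b ≤ q a` and `a ≤ q b`:

  `s36u_cusp_type : q * ord_v j ≤ ord_v j_q ∧ q * ord_v j_q ≤ ord_v j`.

Method (no Newton polygon): the modular equation `Φ(X, Y) = X^(q+1) + ∑_{i ≤ q} c_i(Y) X^i` of
`s28m_modEq` satisfies the TRIVIAL bounds `deg c_i ≤ q (q + 1 - i)` (all roots of `Φ(X, J(t^q))` have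
`t`-order `≥ -q²`, and `ord c(J(t^q)) = -q deg c`); hence for `u = 1/j` in the valuation ring `O_v`,
`Z = j_q u^q` satisfies a monic equation over `O_v`, so `Z ∈ O_v`.  The symmetric relation
`Φ(j, j_q) = 0` (apply the Atkin–Lehner involution `s37w_al`) gives the rest.
-/
import Fermat.Agent.Lib.S28.MFinal
import Fermat.Agent.Lib.S37.WAtkin
import Fermat.Agent.Lib.FF.FFBasicPlace

set_option autoImplicit false
set_option linter.unusedSectionVars false

namespace Fermat.Agent.Lib.S36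

open Polynomial ModularCurve AlgebraicCurve Fermat.Agent.Lib.FF Fermat.Agent.Lib.S28
  Fermat.Agent.Lib.S37

noncomputable section

/-! ### Abstract lemmas -/

section Abstract

/-- coefficients of a product of linear factors whose roots have valuation `≤ s`. -/
theorem s36u_cusp_coeff_prod_le {R Γ : Type*} [CommRing R] [Nontrivial R]
    [LinearOrderedCommGroupWithZero Γ] (v : Valuation R Γ) (s : Γ) {ι : Type*} (r : ι → R)
    (S : Finset ι) (hr : ∀ k ∈ S, v (r k) ≤ s) :
    ∀ i : ℕ, i ≤ S.card → v ((∏ k ∈ S, (X - C (r k))).coeff i) ≤ s ^ (S.card - i) := by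
  classical
  induction S using Finset.induction_on with
  | empty =>
    intro i hi
    have hi0 : i = 0 := by simpa using hi
    subst hi0
    simp
  | insert a S ha ih =>
    intro i hi
    have hrS : ∀ k ∈ S, v (r k) ≤ s := fun k hk => hr k (Finset.mem_insert_of_mem hk)
    have hra : v (r a) ≤ s := hr a (Finset.mem_insert_self a S)
    have ih' := ih hrS
    rw [Finset.prod_insert ha, Finset.card_insert_of_notMem ha] at *
    set P := ∏ k ∈ S, (X - C (r k)) with hP
    have hdeg : P.natDegree ≤ S.card := by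
      refine (natDegree_prod_le _ _).trans (le_of_eq ?_)
      calc ∑ k ∈ S, (X - C (r k)).natDegree = ∑ k ∈ S, 1 :=
            Finset.sum_congr rfl fun k _ => natDegree_X_sub_C (r k)
        _ = S.card := by simp
    rcases Nat.eq_zero_or_pos i with h0 | hpos
    · subst h0
      rw [mul_coeff_zero, coeff_sub, coeff_X_zero, coeff_C_zero, zero_sub, neg_mul,
        Valuation.map_neg, Valuation.map_mul, Nat.sub_zero, pow_succ']
      exact mul_le_mul' hra (by simpa using ih' 0 (Nat.zero_le _))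
    · obtain ⟨j, rfl⟩ : ∃ j, i = j + 1 := ⟨i - 1, by omega⟩
      have hj : j ≤ S.card := by omega
      have hco : ((X - C (r a)) * P).coeff (j + 1) = P.coeff j - r a * P.coeff (j + 1) := by
        rw [sub_mul, coeff_sub, coeff_X_mul, coeff_C_mul]
      rw [hco]
      refine le_trans (Valuation.map_sub v _ _) (max_le ?_ ?_)
      · have := ih' j hj
        rwa [show S.card + 1 - (j + 1) = S.card - j by omega]
      · rcases Nat.lt_or_ge j S.card with hlt | hge
        · rw [Valuation.map_mul]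
          have h1 := ih' (j + 1) hlt
          have h2 : S.card + 1 - (j + 1) = (S.card - (j + 1)) + 1 := by omega
          rw [h2, pow_succ']
          exact mul_le_mul' hra h1
        · have : P.coeff (j + 1) = 0 := coeff_eq_zero_of_natDegree_lt (by omega)
          rw [this, mul_zero, Valuation.map_zero]
          exact zero_le'

/-- a root of a monic relation with coefficients in a valuation ring lies in the ring. -/
theorem s36u_cusp_mem_of_monic_rel {F : Type*} [Field F] (A : ValuationSubring F) (n : ℕ)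
    (b : ℕ → F) (hb : ∀ i < n, b i ∈ A) (Z : F)
    (h : Z ^ n + ∑ i ∈ Finset.range n, b i * Z ^ i = 0) : Z ∈ A := by
  by_contra hZ
  have hv : 1 < A.valuation Z := by
    rw [← not_le, A.valuation_le_one_iff]
    exact hZ
  have hZn : Z ^ n = -∑ i ∈ Finset.range n, b i * Z ^ i := eq_neg_of_add_eq_zero_left h
  have h0 : A.valuation Z ^ n ≠ 0 := pow_ne_zero _ (ne_of_gt (lt_trans zero_lt_one hv))
  have hlt : A.valuation (∑ i ∈ Finset.range n, b i * Z ^ i) < A.valuation Z ^ n := by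
    refine Valuation.map_sum_lt _ h0 fun i hi => ?_
    have hi' : i < n := Finset.mem_range.mp hi
    rw [Valuation.map_mul, Valuation.map_pow]
    have h1 : A.valuation (b i) ≤ 1 := (A.valuation_le_one_iff _).mpr (hb i hi')
    have h2 : A.valuation Z ^ i < A.valuation Z ^ n := pow_lt_pow_right₀ hv hi'
    calc A.valuation (b i) * A.valuation Z ^ i ≤ 1 * A.valuation Z ^ i :=
          mul_le_mul' h1 le_rfl
      _ = A.valuation Z ^ i := one_mul _
      _ < A.valuation Z ^ n := h2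
  have : A.valuation (Z ^ n) = A.valuation Z ^ n := Valuation.map_pow _ _ _
  rw [hZn, Valuation.map_neg] at this
  exact (ne_of_lt hlt) this

/-- `(aeval y c) * u ^ m ∈ A` for `c` of degree `≤ m`, `u = y⁻¹ ∈ A`, constants in `A`. -/
theorem s36u_cusp_aeval_mul_pow_mem {K F : Type*} [Field K] [Field F] [Algebra K F]
    (A : ValuationSubring F) (hA : ∀ a : K, algebraMap K F a ∈ A) (y : F) (hy0 : y ≠ 0)
    (hy : y⁻¹ ∈ A) (c : K[X]) (m : ℕ) (hc : c.natDegree ≤ m) :
    aeval y c * y⁻¹ ^ m ∈ A := by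
  rw [aeval_eq_sum_range, Finset.sum_mul]
  refine sum_mem fun k hk => ?_
  have hk' : k ≤ m := (Nat.lt_succ_iff.mp (Finset.mem_range.mp hk)).trans hc
  have h1 : y ^ k * y⁻¹ ^ m = y⁻¹ ^ (m - k) := by
    have hm : m = (m - k) + k := (Nat.sub_add_cancel hk').symm
    conv_lhs => rw [hm, pow_add, mul_comm (y⁻¹ ^ (m - k)), ← mul_assoc, ← mul_pow,
      mul_inv_cancel₀ hy0, one_pow, one_mul]
  rw [Algebra.smul_def, mul_assoc, h1]
  exact A.mul_mem _ _ (hA _) (pow_mem hy _)

/-- **integrality from a relation with bounded coefficient degrees**: if `Φ(x, y) = 0` with `Φ`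
monic in the first variable of degree `n` and `deg_Y (coeff_i Φ) ≤ e (n - i)`, then at a valuation
ring `A ∋ y⁻¹` (containing the constants) one has `x y⁻ᵉ ∈ A`. -/
theorem s36u_cusp_integral {K F : Type*} [Field K] [Field F] [Algebra K F]
    (A : ValuationSubring F) (hA : ∀ a : K, algebraMap K F a ∈ A)
    (Φ : Polynomial (Polynomial K)) (hm : Φ.Monic) (e : ℕ)
    (hdeg : ∀ i ≤ Φ.natDegree, (Φ.coeff i).natDegree ≤ e * (Φ.natDegree - i))
    (x y : F) (hy0 : y ≠ 0) (hy : y⁻¹ ∈ A)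
    (h : Φ.eval₂ (aeval y : K[X] →ₐ[K] F).toRingHom x = 0) : x * y⁻¹ ^ e ∈ A := by
  set n := Φ.natDegree with hn
  refine s36u_cusp_mem_of_monic_rel A n
    (fun i => aeval y (Φ.coeff i) * y⁻¹ ^ (e * (n - i)))
    (fun i hi => s36u_cusp_aeval_mul_pow_mem A hA y hy0 hy _ _ (hdeg i hi.le)) _ ?_
  have key : ∀ i ≤ n, aeval y (Φ.coeff i) * y⁻¹ ^ (e * (n - i)) * (x * y⁻¹ ^ e) ^ i =
      y⁻¹ ^ (e * n) * (aeval y (Φ.coeff i) * x ^ i) := by
    intro i hi
    have h1 : e * n = e * (n - i) + e * i := by rw [← mul_add, Nat.sub_add_cancel hi]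
    rw [mul_pow, ← pow_mul, h1, pow_add]
    ring
  rw [eval₂_eq_sum_range] at h
  have h2 : y⁻¹ ^ (e * n) *
      ∑ i ∈ Finset.range (n + 1), (aeval y : K[X] →ₐ[K] F).toRingHom (Φ.coeff i) * x ^ i = 0 := by
    rw [h, mul_zero]
  rw [Finset.mul_sum, Finset.sum_range_succ] at h2
  have hlast : y⁻¹ ^ (e * n) * ((aeval y : K[X] →ₐ[K] F).toRingHom (Φ.coeff n) * x ^ n) =
      (x * y⁻¹ ^ e) ^ n := by
    have : Φ.coeff n = 1 := hm.coeff_natDegree
    rw [this, map_one, one_mul, mul_pow, ← pow_mul]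
    ring
  rw [hlast] at h2
  rw [← h2, add_comm]
  congr 1
  refine Finset.sum_congr rfl fun i hi => ?_
  exact key i (Finset.mem_range.mp hi).le

end Abstract

/-! ### Laurent series: the trivial degree bounds for the modular equation -/

section Laurent

variable (k : Type*) [Field k]

theorem s36u_cusp_val_le_of_coeff (f : LaurentSeries k) (N : ℕ)
    (h : ∀ m : ℤ, m < -(N : ℤ) → f.coeff m = 0) :
    (Valued.v f : WithZero (Multiplicative ℤ)) ≤ WithZero.exp (N : ℤ) := by
  have h1 := (LaurentSeries.valuation_le_iff_coeff_lt_eq_zero k (D := -(N : ℤ)) (f := f)).mpr h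
  rwa [neg_neg] at h1

theorem s36u_cusp_coeff_of_val_le (f : LaurentSeries k) (N : ℕ)
    (h : (Valued.v f : WithZero (Multiplicative ℤ)) ≤ WithZero.exp (N : ℤ)) (m : ℤ)
    (hm : m < -(N : ℤ)) : f.coeff m = 0 := by
  have h1 : (Valued.v f : WithZero (Multiplicative ℤ)) ≤ WithZero.exp (-(-(N : ℤ))) := by
    rwa [neg_neg]
  exact (LaurentSeries.valuation_le_iff_coeff_lt_eq_zero k).mp h1 m hm

/-- `J(t^n)` has order `≥ -n`. -/
theorem s36u_cusp_val_qExpand_j (n : ℕ) [NeZero n] :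
    (Valued.v (qExpand k n (jqModC k)) : WithZero (Multiplicative ℤ)) ≤ WithZero.exp (n : ℤ) := by
  refine s36u_cusp_val_le_of_coeff k _ n fun m hm => ?_
  by_cases hd : (n : ℤ) ∣ m
  · obtain ⟨m', rfl⟩ := hd
    rw [qExpand_coeff_mul]
    have hn : (0 : ℤ) < n := by exact_mod_cast Nat.pos_of_ne_zero (NeZero.ne n)
    have hm' : m' < -((1 : ℕ) : ℤ) := by
      by_contra hcon
      rw [not_lt] at hcon
      have : (n : ℤ) * (-((1 : ℕ) : ℤ)) ≤ (n : ℤ) * m' := mul_le_mul_of_nonneg_left hcon hn.le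
      simp only [Nat.cast_one, mul_neg, mul_one] at this
      omega
    have h1 := coeff_jqModC_pow_of_lt k (b := 1) hm'
    rwa [pow_one] at h1
  · exact qExpand_coeff_of_not_dvd n _ hd

/-- `J(u t)` has order `≥ -1`. -/
theorem s36u_cusp_val_twist_j (u : kˣ) :
    (Valued.v (s28c_twist u (jqModC k)) : WithZero (Multiplicative ℤ)) ≤
      WithZero.exp ((1 : ℕ) : ℤ) := by
  refine s36u_cusp_val_le_of_coeff k _ 1 fun m hm => ?_
  rw [s28c_twist_coeff]
  have h1 := coeff_jqModC_pow_of_lt k (b := 1) hm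
  rw [pow_one] at h1
  rw [h1, mul_zero]

/-- the coefficient of `c(J(t^q))` at `-q deg c` is the leading coefficient of `c`. -/
theorem s36u_cusp_coeff_aeval (q : ℕ) [NeZero q] (c : k[X]) :
    (aeval (qExpand k q (jqModC k)) c).coeff (-((q * c.natDegree : ℕ) : ℤ)) = c.leadingCoeff := by
  set n := c.natDegree with hn
  have hidx : (-((q * n : ℕ) : ℤ)) = (q : ℤ) * (-(n : ℤ)) := by push_cast; ring
  rw [aeval_def, eval₂_eq_sum_range, HahnSeries.coeff_sum, Finset.sum_eq_single n]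
  · rw [ModularCurve.algebraMap_laurentSeries_eq_single, HahnSeries.coeff_single_zero_mul,
      ← map_pow, hidx, qExpand_coeff_mul, coeff_jqModC_pow_self, mul_one]
    rfl
  · intro i hi hin
    have hilt : i < n := lt_of_le_of_ne (Nat.lt_succ_iff.mp (Finset.mem_range.mp hi)) hin
    rw [ModularCurve.algebraMap_laurentSeries_eq_single, HahnSeries.coeff_single_zero_mul,
      ← map_pow, hidx, qExpand_coeff_mul, coeff_jqModC_pow_of_lt k (by omega), mul_zero]
  · intro hn'
    exact absurd (Finset.self_mem_range_succ n) hn'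

/-- if `c(J(t^q))` has order `≥ -N` then `q deg c ≤ N`. -/
theorem s36u_cusp_natDegree_le_of_val (q : ℕ) [NeZero q] (c : k[X]) (hc : c ≠ 0) (N : ℕ)
    (h : (Valued.v (aeval (qExpand k q (jqModC k)) c) : WithZero (Multiplicative ℤ)) ≤
      WithZero.exp (N : ℤ)) : q * c.natDegree ≤ N := by
  by_contra hcon
  rw [not_le] at hcon
  have h1 := s36u_cusp_coeff_of_val_le k _ N h (-((q * c.natDegree : ℕ) : ℤ)) (by
    have : (N : ℤ) < ((q * c.natDegree : ℕ) : ℤ) := by exact_mod_cast hcon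
    omega)
  rw [s36u_cusp_coeff_aeval] at h1
  exact hc (leadingCoeff_eq_zero.mp h1)

end Laurent

/-! ### The modular equation: degree bounds and the relation -/

section ModEq

local notation "Kb" => AlgebraicClosure ℚ

/-- the trivial degree bounds for the coefficients of the modular equation. -/
theorem s36u_modEq_coeff_natDegree_le (k : Type*) [Field k] (q : ℕ) [hq : Fact q.Prime]
    (ζ : kˣ) (Φ : Polynomial (Polynomial k))
    (hΦ : Φ.map (Polynomial.aeval (qExpand k q (jqModC k))).toRingHom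
        = (X - C (qExpand k (q * q) (jqModC k))) *
          ∏ b ∈ Finset.range q, (X - C (s28c_twist (ζ ^ b) (jqModC k))))
    (i : ℕ) (hi : i ≤ q + 1) : (Φ.coeff i).natDegree ≤ q * (q + 1 - i) := by
  classical
  have hqpos : 0 < q := hq.out.pos
  by_cases hc : Φ.coeff i = 0
  · rw [hc, natDegree_zero]; exact Nat.zero_le _
  set r : ℕ → LaurentSeries k := fun b =>
    if b < q then s28c_twist (ζ ^ b) (jqModC k) else qExpand k (q * q) (jqModC k) with hr
  have hprod : (X - C (qExpand k (q * q) (jqModC k))) *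
          ∏ b ∈ Finset.range q, (X - C (s28c_twist (ζ ^ b) (jqModC k))) =
      ∏ b ∈ Finset.range (q + 1), (X - C (r b)) := by
    rw [Finset.prod_range_succ, mul_comm]
    congr 1
    · refine Finset.prod_congr rfl fun b hb => ?_
      have hb' : b < q := Finset.mem_range.mp hb
      simp only [hr, if_pos hb']
    · simp only [hr, if_neg (lt_irrefl q)]
  have hqq : ((1 : ℕ) : ℤ) ≤ ((q * q : ℕ) : ℤ) := by
    exact_mod_cast Nat.mul_pos hqpos hqpos
  have hrv : ∀ b ∈ Finset.range (q + 1),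
      (Valued.v (r b) : WithZero (Multiplicative ℤ)) ≤ WithZero.exp ((q * q : ℕ) : ℤ) := by
    intro b _
    by_cases hb : b < q
    · simp only [hr, if_pos hb]
      exact (s36u_cusp_val_twist_j k (ζ ^ b)).trans (WithZero.exp_le_exp.mpr hqq)
    · simp only [hr, if_neg hb]
      exact s36u_cusp_val_qExpand_j k (q * q)
  have h1 := s36u_cusp_coeff_prod_le (Valued.v : Valuation (LaurentSeries k) (WithZero (Multiplicative ℤ)))
    (WithZero.exp ((q * q : ℕ) : ℤ)) r (Finset.range (q + 1)) hrv i (by simpa using hi)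
  rw [← hprod, ← hΦ, coeff_map, Finset.card_range, ← WithZero.exp_nsmul] at h1
  have h2 : ((q + 1 - i) • ((q * q : ℕ) : ℤ)) = (((q + 1 - i) * (q * q) : ℕ) : ℤ) := by
    rw [nsmul_eq_mul]; push_cast; ring
  rw [h2] at h1
  have h3 := s36u_cusp_natDegree_le_of_val k q (Φ.coeff i) hc _ h1
  have h4 : q * (Φ.coeff i).natDegree ≤ q * (q * (q + 1 - i)) := by
    calc q * (Φ.coeff i).natDegree ≤ (q + 1 - i) * (q * q) := h3
      _ = q * (q * (q + 1 - i)) := by ring
  exact Nat.le_of_mul_le_mul_left h4 hqpos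


/-- `qExpand ∘ aeval f = aeval (qExpand f)`. -/
theorem s36u_modEq_qExpand_comp (k : Type*) [Field k] (n : ℕ) [NeZero n] (f : LaurentSeries k) :
    (qExpand k n).comp (aeval f : k[X] →ₐ[k] LaurentSeries k).toRingHom =
      (aeval (qExpand k n f) : k[X] →ₐ[k] LaurentSeries k).toRingHom := by
  refine Polynomial.ringHom_ext (fun a => ?_) ?_
  · simp only [RingHom.comp_apply, AlgHom.toRingHom_eq_coe, RingHom.coe_coe, aeval_C]
    rw [ModularCurve.algebraMap_laurentSeries_eq_single, qExpand_single, mul_zero]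
  · simp only [RingHom.comp_apply, AlgHom.toRingHom_eq_coe, RingHom.coe_coe, aeval_X]

/-- the modular relation `Φ(J(t^q), J(t)) = 0`. -/
theorem s36u_modEq_rel (k : Type*) [Field k] (q : ℕ) [hq : Fact q.Prime]
    (ζ : kˣ) (Φ : Polynomial (Polynomial k))
    (hΦ : Φ.map (Polynomial.aeval (qExpand k q (jqModC k))).toRingHom
        = (X - C (qExpand k (q * q) (jqModC k))) *
          ∏ b ∈ Finset.range q, (X - C (s28c_twist (ζ ^ b) (jqModC k)))) :
    Φ.eval₂ (aeval (jqModC k) : k[X] →ₐ[k] LaurentSeries k).toRingHom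
      (qExpand k q (jqModC k)) = 0 := by
  have h1 : Φ.eval₂ (aeval (qExpand k q (jqModC k)) : k[X] →ₐ[k] LaurentSeries k).toRingHom
      (qExpand k (q * q) (jqModC k)) = 0 := by
    rw [eval₂_eq_eval_map, hΦ, eval_mul, eval_sub, eval_X, eval_C, sub_self, zero_mul]
  apply qExpand_injective (R := k) q
  rw [map_zero, Polynomial.hom_eval₂, s36u_modEq_qExpand_comp, qExpand_qExpand]
  exact h1

/-- the modular equation with its trivial degree bounds, over a field with enough roots of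
unity. -/
theorem s36u_modEq_exists (k : Type*) [Field k] (q : ℕ) [hq : Fact q.Prime] (ζ : kˣ)
    (hζ : IsPrimitiveRoot (ζ : k) q) :
    ∃ Φ : Polynomial (Polynomial k), Φ.Monic ∧ Φ.natDegree = q + 1 ∧
      (∀ i ≤ q + 1, (Φ.coeff i).natDegree ≤ q * (q + 1 - i)) ∧
      Φ.eval₂ (aeval (jqModC k) : k[X] →ₐ[k] LaurentSeries k).toRingHom
        (qExpand k q (jqModC k)) = 0 := by
  obtain ⟨Φ, hm, hd, hΦ⟩ := s28m_modEq q k ζ hζ
  exact ⟨Φ, hm, hd, fun i hi => s36u_modEq_coeff_natDegree_le k q ζ Φ hΦ i hi,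
    s36u_modEq_rel k q ζ Φ hΦ⟩

theorem s36u_cusp_jSeries_eq : ffd_jSeries = jqModC Kb := by
  rw [ffd_jSeries, coeffEmb, ← jqModC_rat, coeffMap_jqModC]


/-- the modular relation `Φ(j_q, j) = 0` in `F̄(M q)` with the trivial degree bounds. -/
theorem s36u_cusp_rel (M q : ℕ) [NeZero M] [NeZero q] (hq : q.Prime) :
    ∃ Φ : Polynomial (Polynomial Kb), Φ.Monic ∧ Φ.natDegree = q + 1 ∧
      (∀ i ≤ q + 1, (Φ.coeff i).natDegree ≤ q * (q + 1 - i)) ∧
      Φ.eval₂ (aeval (ffd_jBar (M * q)) : Kb[X] →ₐ[Kb] ffi_F (M * q)).toRingHom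
        (heckeBetaBar Kb M q (ffd_jBar M)) = 0 := by
  have : Fact q.Prime := ⟨hq⟩
  obtain ⟨ζ0, hζ0⟩ := HasEnoughRootsOfUnity.exists_primitiveRoot Kb q
  have hζ0ne : ζ0 ≠ 0 := hζ0.ne_zero (NeZero.ne q)
  set ζ : Kbˣ := Units.mk0 ζ0 hζ0ne with hζdef
  have hζ : IsPrimitiveRoot (ζ : Kb) q := by rw [hζdef, Units.val_mk0]; exact hζ0
  obtain ⟨Φ, hm, hd, hdeg, hrel⟩ := s36u_modEq_exists Kb q ζ hζ
  refine ⟨Φ, hm, hd, hdeg, ?_⟩
  set ι : ffi_F (M * q) →ₐ[Kb] LaurentSeries Kb := (modularFunctionFieldBar (M * q)).val with hι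
  have hinj : Function.Injective ι := Subtype.val_injective
  apply hinj
  rw [map_zero]
  have hcomp : (ι : ffi_F (M * q) →+* LaurentSeries Kb).comp
      (aeval (ffd_jBar (M * q)) : Kb[X] →ₐ[Kb] ffi_F (M * q)).toRingHom =
      (aeval (jqModC Kb) : Kb[X] →ₐ[Kb] LaurentSeries Kb).toRingHom := by
    refine Polynomial.ringHom_ext (fun a => ?_) ?_
    · simp only [RingHom.comp_apply, AlgHom.toRingHom_eq_coe, RingHom.coe_coe, aeval_C]
      exact ι.commutes a
    · simp only [RingHom.comp_apply, AlgHom.toRingHom_eq_coe, RingHom.coe_coe, aeval_X]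
      rw [← s36u_cusp_jSeries_eq]
      rfl
  have hx : ι (heckeBetaBar Kb M q (ffd_jBar M)) = qExpand Kb q (jqModC Kb) := by
    rw [← s36u_cusp_jSeries_eq]
    exact coe_heckeBetaBar M q (ffd_jBar M)
  have := Polynomial.hom_eval₂ Φ (aeval (ffd_jBar (M * q)) : Kb[X] →ₐ[Kb] ffi_F (M * q)).toRingHom
    (ι : ffi_F (M * q) →+* LaurentSeries Kb) (heckeBetaBar Kb M q (ffd_jBar M))
  rw [hcomp] at this
  refine Eq.trans this ?_
  rw [show (ι : ffi_F (M * q) →+* LaurentSeries Kb) (heckeBetaBar Kb M q (ffd_jBar M)) =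
    qExpand Kb q (jqModC Kb) from hx]
  exact hrel


/-- `aeval x c ∈ A` for `x ∈ A`, constants in `A`. -/
theorem s36u_cusp_aeval_mem {K F : Type*} [Field K] [Field F] [Algebra K F]
    (A : ValuationSubring F) (hA : ∀ a : K, algebraMap K F a ∈ A) (x : F) (hx : x ∈ A)
    (c : K[X]) : aeval x c ∈ A := by
  rw [aeval_eq_sum_range]
  refine sum_mem fun k _ => ?_
  rw [Algebra.smul_def]
  exact A.mul_mem _ _ (hA _) (pow_mem hx _)

/-- **the abstract cusp-type estimate**: from the two symmetric relations `Φ(x, y) = 0 = Φ(y, x)`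
with `Φ` monic of degree `q + 1` in the first variable and `deg_Y coeff_i ≤ q (q + 1 - i)`: at a
pole of `y`, `q ord y ≤ ord x` and `q ord x ≤ ord y`. -/
theorem s36u_cusp_type_of_rel {K F : Type*} [Field K] [Field F] [Algebra K F] (v : Place K F)
    (Φ : Polynomial (Polynomial K)) (hm : Φ.Monic) (q : ℕ) (hd : Φ.natDegree = q + 1)
    (hdeg : ∀ i ≤ q + 1, (Φ.coeff i).natDegree ≤ q * (q + 1 - i))
    (x y : F) (hx0 : x ≠ 0)
    (h1 : Φ.eval₂ (aeval y : K[X] →ₐ[K] F).toRingHom x = 0)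
    (h2 : Φ.eval₂ (aeval x : K[X] →ₐ[K] F).toRingHom y = 0)
    (hv : v.ord y < 0) :
    (q : ℤ) * v.ord y ≤ v.ord x ∧ (q : ℤ) * v.ord x ≤ v.ord y := by
  set A := v.toValuationSubring with hAdef
  have hA : ∀ a : K, algebraMap K F a ∈ A := v.algebraMap_mem'
  have hy0 : y ≠ 0 := by
    rintro rfl
    rw [Place.ord_zero] at hv
    exact lt_irrefl _ hv
  have hdeg' : ∀ i ≤ Φ.natDegree, (Φ.coeff i).natDegree ≤ q * (Φ.natDegree - i) := by
    rw [hd]; exact hdeg
  -- general consequence of integrality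
  have hord : ∀ a b : F, a ≠ 0 → b ≠ 0 → a * b⁻¹ ^ q ∈ A → (q : ℤ) * v.ord b ≤ v.ord a := by
    intro a b ha hb hmem
    have hne : a * b⁻¹ ^ q ≠ 0 := mul_ne_zero ha (pow_ne_zero _ (inv_ne_zero hb))
    have h := (ff_mem_iff_ord_nonneg v hne).mp hmem
    rw [Place.ord_mul v ha (pow_ne_zero _ (inv_ne_zero hb)), ← zpow_natCast, Place.ord_zpow,
      Place.ord_inv] at h
    linarith
  have hyA : y ∉ A := by
    intro hmem
    have := (ff_mem_iff_ord_nonneg v hy0).mp hmem
    exact absurd hv (not_lt.mpr this)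
  have hyinv : y⁻¹ ∈ A := (A.mem_or_inv_mem y).resolve_left hyA
  have hfirst : (q : ℤ) * v.ord y ≤ v.ord x :=
    hord x y hx0 hy0 (s36u_cusp_integral A hA Φ hm q hdeg' x y hy0 hyinv h1)
  have hxA : x ∉ A := by
    intro hxmem
    apply hyA
    refine s36u_cusp_mem_of_monic_rel A (q + 1) (fun i => aeval x (Φ.coeff i))
      (fun i _ => s36u_cusp_aeval_mem A hA x hxmem _) y ?_
    rw [eval₂_eq_sum_range, hd, Finset.sum_range_succ] at h2
    have hlead : Φ.coeff (q + 1) = 1 := by rw [← hd]; exact hm.coeff_natDegree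
    rw [hlead, map_one, one_mul, add_comm] at h2
    exact h2
  have hxinv : x⁻¹ ∈ A := (A.mem_or_inv_mem x).resolve_left hxA
  exact ⟨hfirst, hord y x hy0 hx0 (s36u_cusp_integral A hA Φ hm q hdeg' y x hx0 hxinv h2)⟩

theorem s36u_cusp_alpha_jBar (M q : ℕ) [NeZero M] [NeZero q] :
    heckeAlphaBar Kb M q (ffd_jBar M) = ffd_jBar (M * q) := by
  apply Subtype.ext
  rw [coe_heckeAlphaBar]
  rfl

theorem s36u_cusp_jBar_ne_zero (M : ℕ) : ffd_jBar M ≠ 0 := by
  intro h
  have h1 : ((ffd_jBar M : ffi_F M) : LaurentSeries Kb).coeff (-1 : ℤ) = 0 := by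
    rw [h]; rfl
  have h2 : ((ffd_jBar M : ffi_F M) : LaurentSeries Kb).coeff (-1 : ℤ) = 1 :=
    ffd_jSeries_coeff_neg_one
  rw [h2] at h1
  exact one_ne_zero h1

/-- **[CT] cusp types**: at a pole `v` of `j` on `X₀(M q)`, the pole orders `a = -ord_v j` and
`b = -ord_v j_q` satisfy `b ≤ q a` and `a ≤ q b`. -/
theorem s36u_cusp_type (M q : ℕ) [NeZero M] [NeZero q] (hq : q.Prime) (hqM : ¬ q ∣ M)
    (v : Place Kb (ffi_F (M * q))) (hv : v.ord (ffd_jBar (M * q)) < 0) :
    (q : ℤ) * v.ord (ffd_jBar (M * q)) ≤ v.ord (heckeBetaBar Kb M q (ffd_jBar M)) ∧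
    (q : ℤ) * v.ord (heckeBetaBar Kb M q (ffd_jBar M)) ≤ v.ord (ffd_jBar (M * q)) := by
  obtain ⟨Φ, hm, hd, hdeg, hrel⟩ := s36u_cusp_rel M q hq
  set y : ffi_F (M * q) := ffd_jBar (M * q) with hy
  set x : ffi_F (M * q) := heckeBetaBar Kb M q (ffd_jBar M) with hx
  have hx0 : x ≠ 0 := (map_ne_zero (heckeBetaBar Kb M q)).mpr (s36u_cusp_jBar_ne_zero M)
  set w := s37w_al M q hq hqM with hw
  have hwy : w y = x := by
    rw [hy, ← s36u_cusp_alpha_jBar M q, hw, s37w_al_alpha]
  have hwx : w x = y := by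
    rw [hx, hw, s37w_al_beta, s36u_cusp_alpha_jBar]
  have hcomp : (w : ffi_F (M * q) →+* ffi_F (M * q)).comp
      (aeval y : Kb[X] →ₐ[Kb] ffi_F (M * q)).toRingHom =
      (aeval x : Kb[X] →ₐ[Kb] ffi_F (M * q)).toRingHom := by
    refine Polynomial.ringHom_ext (fun a => ?_) ?_
    · simp only [RingHom.comp_apply, AlgHom.toRingHom_eq_coe, RingHom.coe_coe, aeval_C]
      exact w.commutes a
    · simp only [RingHom.comp_apply, AlgHom.toRingHom_eq_coe, RingHom.coe_coe, aeval_X]
      exact hwy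
  have hrel2 : Φ.eval₂ (aeval x : Kb[X] →ₐ[Kb] ffi_F (M * q)).toRingHom y = 0 := by
    have h := Polynomial.hom_eval₂ Φ (aeval y : Kb[X] →ₐ[Kb] ffi_F (M * q)).toRingHom
      (w : ffi_F (M * q) →+* ffi_F (M * q)) x
    rw [hcomp, hrel, map_zero] at h
    rw [show (w : ffi_F (M * q) →+* ffi_F (M * q)) x = y from hwx] at h
    exact h.symm
  exact s36u_cusp_type_of_rel v Φ hm q hd hdeg x y hx0 hrel hrel2 hv

end ModEq

end

end Fermat.Agent.Lib.S36
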