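/-
S36 (R-q), helper4, prefix `s36r_`: DERIVATIONS OF A FUNCTION FIELD OF ONE VARIABLE IN
CHARACTERISTIC ZERO (Mathlib only).

`K ⊆ F` fields of characteristic zero, `j : F` with `F` algebraic over `K(j)`, `d : F → N` a
`K`-derivation into an `F`-vector space and `V ⊆ N` a subspace containing `d j`: then `d f ∈ V` for
every `f` (`s36r_deriv_mem_of_algebraic`).  Consequences:

* `s36r_deriv_eq_smul_of_algebraic` : `d f = g • d j` for some `g : F` (`V = F • d j`);
* `s36r_deriv_eq_zero_of_algebraic` : `d j = 0 → d = 0` (`V = 0`): uniqueness of derivations;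
* `s36r_deriv_conj` : for a `K`-automorphism `σ` of `F` and `K`-derivation `∂ : F → F` with
  `∂ j ≠ 0`: `σ (∂ f) * ∂ (σ g) = σ (∂ g) * ∂ (σ f)`, i.e. `σ(df/dg) = d(σf)/d(σg)`.
-/
import Mathlib

set_option autoImplicit false
set_option linter.unusedSectionVars false

open Polynomial IntermediateField

namespace Fermat.Agent.Lib.S36

variable {K F N : Type*} [Field K] [Field F] [Algebra K F] [CharZero K]
  [AddCommGroup N] [Module K N] [Module F N] [IsScalarTower K F N]

/-- `d (p(f)) - p'(f) • d f ∈ V` for polynomials over a subfield `E` on which `d` has values in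
`V`. -/
theorem s36r_deriv_aeval_sub_mem (d : Derivation K F N) (V : Submodule F N)
    (E : IntermediateField K F) (hE : ∀ a : E, d (a : F) ∈ V) (f : F) (p : E[X]) :
    d (aeval f p) - aeval f (derivative p) • d f ∈ V := by
  induction p using Polynomial.induction_on' with
  | add p₁ p₂ h₁ h₂ =>
    have : d (aeval f (p₁ + p₂)) - aeval f (derivative (p₁ + p₂)) • d f =
        (d (aeval f p₁) - aeval f (derivative p₁) • d f) +
          (d (aeval f p₂) - aeval f (derivative p₂) • d f) := by
      rw [map_add, map_add, derivative_add, map_add, add_smul]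
      abel
    rw [this]
    exact V.add_mem h₁ h₂
  | monomial n a =>
    have h1 : aeval f (monomial n a) = (a : F) * f ^ n := by
      rw [aeval_monomial]; rfl
    have h2 : aeval f (derivative (monomial n a)) = (a : F) * (n : F) * f ^ (n - 1) := by
      rw [derivative_monomial, aeval_monomial, map_mul, map_natCast]; rfl
    rw [h1, h2, Derivation.leibniz, Derivation.leibniz_pow]
    have : (a : F) • (n • f ^ (n - 1) • d f) + f ^ n • d (a : F) -
        ((a : F) * (n : F) * f ^ (n - 1)) • d f = f ^ n • d (a : F) := by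
      rw [← Nat.cast_smul_eq_nsmul F n, smul_smul, smul_smul]
      abel
    rw [this]
    exact V.smul_mem _ (hE a)

/-- The values of `d` on `K(j)` lie in any subspace containing `d j`. -/
theorem s36r_deriv_mem_adjoin (d : Derivation K F N) (V : Submodule F N) (j : F) (hj : d j ∈ V)
    (a : F) (ha : a ∈ K⟮j⟯) : d a ∈ V := by
  induction ha using IntermediateField.adjoin_induction with
  | mem x hx =>
    rw [Set.mem_singleton_iff] at hx
    rw [hx]; exact hj
  | algebraMap c => rw [Derivation.map_algebraMap]; exact V.zero_mem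
  | add x y _ _ hx hy => rw [map_add]; exact V.add_mem hx hy
  | inv x _ hx =>
    rw [Derivation.leibniz_inv]
    exact V.smul_mem _ hx
  | mul x y _ _ hx hy =>
    rw [Derivation.leibniz]
    exact V.add_mem (V.smul_mem _ hy) (V.smul_mem _ hx)

/-- **Derivations of an algebraic extension of `K(j)` in characteristic zero.** -/
theorem s36r_deriv_mem_of_algebraic (d : Derivation K F N) (V : Submodule F N) (j : F)
    (hj : d j ∈ V) [Algebra.IsAlgebraic K⟮j⟯ F] (f : F) : d f ∈ V := by
  have : CharZero K⟮j⟯ := charZero_of_injective_algebraMap (algebraMap K K⟮j⟯).injective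
  have hint : IsIntegral K⟮j⟯ f := (Algebra.IsAlgebraic.isAlgebraic f).isIntegral
  set p := minpoly K⟮j⟯ f with hp
  have hsep : p.Separable := (minpoly.irreducible hint).separable
  have h0 : aeval f p = 0 := minpoly.aeval _ _
  have h1 := s36r_deriv_aeval_sub_mem d V K⟮j⟯
    (fun a => s36r_deriv_mem_adjoin d V j hj a a.2) f p
  rw [h0, map_zero, zero_sub] at h1
  have hne : aeval f (derivative p) ≠ 0 := by
    intro h
    have := hsep.aeval_derivative_ne_zero h0
    exact this h
  have h2 : d f = -(aeval f (derivative p))⁻¹ • (-(aeval f (derivative p) • d f)) := by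
    rw [smul_neg, neg_smul, neg_neg, smul_smul, inv_mul_cancel₀ hne, one_smul]
  rw [h2]
  exact V.smul_mem _ h1

/-- `d f = g • d j`. -/
theorem s36r_deriv_eq_smul_of_algebraic (d : Derivation K F N) (j : F)
    [Algebra.IsAlgebraic K⟮j⟯ F] (f : F) : ∃ g : F, d f = g • d j := by
  have := s36r_deriv_mem_of_algebraic d (Submodule.span F {d j}) j
    (Submodule.mem_span_singleton_self _) f
  obtain ⟨g, hg⟩ := Submodule.mem_span_singleton.mp this
  exact ⟨g, hg.symm⟩

/-- Uniqueness: a derivation killing `j` is zero. -/
theorem s36r_deriv_eq_zero_of_algebraic (d : Derivation K F N) (j : F)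
    [Algebra.IsAlgebraic K⟮j⟯ F] (hj : d j = 0) (f : F) : d f = 0 := by
  have := s36r_deriv_mem_of_algebraic d ⊥ j (by rw [hj]; exact Submodule.zero_mem _) f
  exact (Submodule.mem_bot F).mp this

/-- **Automorphisms commute with `df/dg`**: for a `K`-automorphism `σ` and a `K`-derivation `∂` of
`F`: `σ (∂ f) * ∂ (σ g) = σ (∂ g) * ∂ (σ f)`. -/
theorem s36r_deriv_conj (D : Derivation K F F) (j : F) [Algebra.IsAlgebraic K⟮j⟯ F]
    (hj : D j ≠ 0) (σ : F ≃ₐ[K] F) (f g : F) :
    σ (D f) * D (σ g) = σ (D g) * D (σ f) := by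
  -- the conjugate derivation `D' = σ⁻¹ ∘ D ∘ σ`
  let D' : Derivation K F F :=
    { toFun := fun x => σ.symm (D (σ x))
      map_add' := fun x y => by simp
      map_smul' := fun c x => by simp
      map_one_eq_zero' := by simp
      leibniz' := fun x y => by simp [Derivation.leibniz] }
  -- `D' = c • D` with `c = D' j / D j`
  set c : F := D' j / D j with hc
  have key : ∀ x, D' x = c * D x := by
    intro x
    have h0 : (D' - c • D) j = 0 := by
      show D' j - c • D j = 0
      rw [smul_eq_mul, hc, div_mul_cancel₀ _ hj, sub_self]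
    have := s36r_deriv_eq_zero_of_algebraic (D' - c • D) j h0 x
    have h1 : D' x - c • D x = 0 := this
    rw [smul_eq_mul] at h1
    exact sub_eq_zero.mp h1
  have hf : D (σ f) = σ (c * D f) := by
    have := key f
    show D (σ f) = σ (c * D f)
    rw [← this]
    show D (σ f) = σ (σ.symm (D (σ f)))
    rw [AlgEquiv.apply_symm_apply]
  have hg : D (σ g) = σ (c * D g) := by
    have := key g
    rw [← this]
    show D (σ g) = σ (σ.symm (D (σ g)))
    rw [AlgEquiv.apply_symm_apply]
  rw [hf, hg, map_mul, map_mul]
  ring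

end Fermat.Agent.Lib.S36
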