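/-
S36 (R-q), helper4, prefix `s36r_`: FUNCTORIALITY OF KÄHLER RELATIONS (Mathlib only).

A relation `D x = c • D y` in `Ω[F⁄K]`
* is transported by every ring homomorphism `ι : F →+* F'` over `φ : K →+* K'`
  (`s36r_D_map`: `D (ι x) = ι c • D (ι y)` in `Ω[F'⁄K']`) — automorphisms (Atkin–Lehner) and
  base change of the constant field;
* holds for every `K`-derivation `d : F → N` (`s36r_deriv_of_D`: `d x = c • d y`).
Also `s36r_deriv_algebraic_eq_zero`: derivations kill separable algebraic elements.
-/
import Mathlib

set_option autoImplicit false
set_option linter.style.haveILetI false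

open KaehlerDifferential Polynomial

namespace Fermat.Agent.Lib.S36

section Map

variable {K K' F F' : Type*} [CommRing K] [CommRing K'] [CommRing F] [CommRing F']
  [Algebra K F] [Algebra K' F']

/-- Transport of a Kähler relation along a ring homomorphism. -/
theorem s36r_D_map (φ : K →+* K') (ι : F →+* F')
    (hcomm : ∀ a : K, ι (algebraMap K F a) = algebraMap K' F' (φ a))
    {x y c : F} (h : D K F x = c • D K F y) :
    D K' F' (ι x) = ι c • D K' F' (ι y) := by
  letI algK : Algebra K K' := φ.toAlgebra
  letI algF : Algebra F F' := ι.toAlgebra
  letI algKF' : Algebra K F' := (ι.comp (algebraMap K F)).toAlgebra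
  haveI t1 : IsScalarTower K F F' := IsScalarTower.of_algebraMap_eq fun _ => rfl
  haveI t2 : IsScalarTower K K' F' := IsScalarTower.of_algebraMap_eq fun a => hcomm a
  have := congrArg (KaehlerDifferential.map K K' F F') h
  rw [KaehlerDifferential.map_D, map_smul, KaehlerDifferential.map_D] at this
  have e : ∀ z : F, algebraMap F F' z = ι z := fun _ => rfl
  rw [e, e] at this
  rw [this]
  exact (algebraMap_smul F' c _).symm

end Map

section Lift

variable {K F N : Type*} [CommRing K] [CommRing F] [Algebra K F]
  [AddCommGroup N] [Module K N] [Module F N] [IsScalarTower K F N]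

/-- A Kähler relation holds for every derivation. -/
theorem s36r_deriv_of_D (d : Derivation K F N) {x y c : F} (h : D K F x = c • D K F y) :
    d x = c • d y := by
  have := congrArg d.liftKaehlerDifferential h
  rwa [map_smul, Derivation.liftKaehlerDifferential_comp_D,
    Derivation.liftKaehlerDifferential_comp_D] at this

end Lift

section Alg

variable {K F N : Type*} [Field K] [Field F] [Algebra K F]
  [AddCommGroup N] [Module K N] [Module F N] [IsScalarTower K F N]

/-- Derivations kill separable algebraic elements. -/
theorem s36r_deriv_algebraic_eq_zero (d : Derivation K F N) {x : F}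
    (hx : IsSeparable K x) : d x = 0 := by
  have hint : IsIntegral K x := hx.isIntegral
  have h0 : aeval x (minpoly K x) = 0 := minpoly.aeval K x
  have hne : aeval x (derivative (minpoly K x)) ≠ 0 :=
    (hx : (minpoly K x).Separable).aeval_derivative_ne_zero h0
  have h1 := Derivation.apply_aeval_eq d x (minpoly K x)
  have hz : (d.compAlgebraMap K).mapCoeffs (minpoly K x) = 0 := by
    have hz' : d.compAlgebraMap K = 0 := by
      ext a
      simp
    rw [hz']
    ext i
    simp
  rw [h0, map_zero, hz] at h1
  have h2 : aeval x (derivative (minpoly K x)) • d x = 0 := by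
    simpa using h1.symm
  rcases smul_eq_zero.mp h2 with h | h
  · exact absurd h hne
  · exact h

end Alg

end Fermat.Agent.Lib.S36
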