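/-
S36 (R-q), helper4, prefix `s36r_`: `θ = q d/dq` ON THE GAUSS RING AND ITS REDUCTION.

* `s36r_thetaR` : `θ` on Laurent series with coefficients in a commutative ring, compatible with
  coefficient maps (`s36r_coeffMap_thetaR`), `= ffd_theta` over a field;
* `s36r_theta_qExpand` : `θ (f(T^ℓ)) = ℓ • (θ f)(T^ℓ)`;
* `s36r_theta_mem_O`, `s36r_red_theta` : `θ` preserves the Gauss ring `s18g_O G` and commutes with
  the Gauss reduction;
* `s36r_theta_qExpand_char` : in characteristic `q`, `(θ x)(T^q) = (θ (Fr⁻¹ x))^q`;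
* `s36r_red_theta_A` : if `q * A = T₂(T^q) - T₂'^q` in the Gauss ring then
  `θ (red A) = (θ red T₂)(T^q) - (red T₂')^(q-1) * θ (red T₂')`.
-/
import Fermat.Agent.Lib.S34.MValRed
import Fermat.Agent.Lib.FF.LaurentDeriv
import Fermat.Agent.Lib.S37.ESeries

set_option autoImplicit false
set_option linter.unusedSectionVars false

noncomputable section

namespace Fermat.Agent.Lib.S36

open ModularCurve HahnSeries Fermat.Agent.Lib.FF Fermat.Agent.Lib.S18 Fermat.Agent.Lib.S34
  Fermat.Agent.Lib.S37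

section Ring

variable {R R' : Type*} [CommRing R] [CommRing R']

/-- `θ = q d/dq`, coefficientwise `a_n ↦ n a_n`, for ring coefficients. -/
def s36r_thetaR (f : LaurentSeries R) : LaurentSeries R where
  coeff n := (n : R) * f.coeff n
  isPWO_support' := f.isPWO_support.mono (fun n hn => by
    simp only [Function.mem_support, ne_eq] at hn
    simp only [HahnSeries.mem_support, ne_eq]
    intro h
    apply hn
    rw [h, mul_zero])

@[simp] theorem s36r_thetaR_coeff (f : LaurentSeries R) (n : ℤ) :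
    (s36r_thetaR f).coeff n = (n : R) * f.coeff n := rfl

theorem s36r_coeffMap_thetaR (g : R →+* R') (f : LaurentSeries R) :
    coeffMap g (s36r_thetaR f) = s36r_thetaR (coeffMap g f) := by
  ext n
  rw [coeffMap_coeff, s36r_thetaR_coeff, s36r_thetaR_coeff, coeffMap_coeff, map_mul, map_intCast]

end Ring

section Field

variable {K : Type*} [Field K]

theorem s36r_thetaR_eq_theta (f : LaurentSeries K) : s36r_thetaR f = ffd_theta f := rfl

/-- `θ` commutes with coefficient maps. -/
theorem s36r_theta_coeffMap {K' : Type*} [Field K'] (σ : K →+* K') (f : LaurentSeries K) :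
    ffd_theta (coeffMap σ f) = coeffMap σ (ffd_theta f) := by
  rw [← s36r_thetaR_eq_theta, ← s36r_thetaR_eq_theta, s36r_coeffMap_thetaR]

/-- `θ (f(T^ℓ)) = ℓ • (θ f)(T^ℓ)`. -/
theorem s36r_theta_qExpand (ℓ : ℕ) [NeZero ℓ] (f : LaurentSeries K) :
    ffd_theta (qExpand K ℓ f) = (ℓ : K) • qExpand K ℓ (ffd_theta f) := by
  ext k
  rw [ffd_theta_coeff, HahnSeries.coeff_smul, smul_eq_mul]
  by_cases hk : (ℓ : ℤ) ∣ k
  · obtain ⟨m, rfl⟩ := hk
    rw [qExpand_coeff_mul, qExpand_coeff_mul, ffd_theta_coeff]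
    push_cast
    ring
  · rw [qExpand_coeff_of_not_dvd ℓ _ hk, qExpand_coeff_of_not_dvd ℓ _ hk, mul_zero, mul_zero]

/-- `θ (x ^ n) = n x^(n-1) θ x`. -/
theorem s36r_theta_pow (x : LaurentSeries K) (n : ℕ) :
    ffd_theta (x ^ n) = (n : LaurentSeries K) * x ^ (n - 1) * ffd_theta x := by
  have := Derivation.leibniz_pow (ffd_thetaDeriv (K := K)) x n
  simp only [ffd_thetaDeriv_apply, smul_eq_mul, nsmul_eq_mul] at this
  rw [this]
  ring

/-- the quotient rule. -/
theorem s36r_theta_div (a b : LaurentSeries K) :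
    ffd_theta (a / b) = (b * ffd_theta a - a * ffd_theta b) / b ^ 2 := by
  have := Derivation.leibniz_div (ffd_thetaDeriv (K := K)) a b
  simp only [ffd_thetaDeriv_apply, smul_eq_mul] at this
  rw [this, inv_pow, div_eq_mul_inv]
  ring

end Field

section Gauss

variable {K : Type*} [Field K] {κ : Type*} [Field κ] (G : s18g_GaussData K κ)

theorem s36r_iota_thetaR (P : LaurentSeries G.A) :
    s18g_iota G (s36r_thetaR P) = ffd_theta (s18g_iota G P) :=
  s36r_coeffMap_thetaR G.A.subtype P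

theorem s36r_rho_thetaR (P : LaurentSeries G.A) :
    s18g_rho G (s36r_thetaR P) = ffd_theta (s18g_rho G P) :=
  s36r_coeffMap_thetaR G.π P

/-- The presentation of `θ f` from a presentation `ιQ * f = ιP`. -/
theorem s36r_theta_presentation {f : LaurentSeries K} (P Q : LaurentSeries G.A)
    (h : s18g_iota G Q * f = s18g_iota G P) :
    s18g_iota G (Q * Q) * ffd_theta f =
      s18g_iota G (Q * s36r_thetaR P - P * s36r_thetaR Q) := by
  have h1 := congrArg ffd_theta h
  rw [ffd_theta_mul] at h1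
  rw [map_mul, map_sub, map_mul, map_mul, s36r_iota_thetaR, s36r_iota_thetaR, ← h1, ← h]
  ring

/-- `θ` preserves the Gauss ring. -/
theorem s36r_theta_mem_O {f : LaurentSeries K} (hf : f ∈ s18g_O G) : ffd_theta f ∈ s18g_O G := by
  obtain ⟨P, Q, hQ, h⟩ := hf
  refine ⟨Q * s36r_thetaR P - P * s36r_thetaR Q, Q * Q, ?_, s36r_theta_presentation G P Q h⟩
  rw [map_mul]
  exact mul_ne_zero hQ hQ

/-- **`θ` commutes with the Gauss reduction.** -/
theorem s36r_red_theta (f : s18g_O G) :
    s18g_red G ⟨ffd_theta (f : LaurentSeries K), s36r_theta_mem_O G f.2⟩ =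
      ffd_theta (s18g_red G f) := by
  obtain ⟨P, Q, hQ, h⟩ := f.2
  have hQQ : s18g_rho G (Q * Q) ≠ 0 := by rw [map_mul]; exact mul_ne_zero hQ hQ
  have e1 : s18g_red G f = s18g_rho G P / s18g_rho G Q := s18g_red_eq G f P Q hQ h
  have e2 : s18g_red G ⟨ffd_theta (f : LaurentSeries K), s36r_theta_mem_O G f.2⟩ =
      s18g_rho G (Q * s36r_thetaR P - P * s36r_thetaR Q) / s18g_rho G (Q * Q) :=
    s18g_red_eq G ⟨ffd_theta (f : LaurentSeries K), s36r_theta_mem_O G f.2⟩
      (Q * s36r_thetaR P - P * s36r_thetaR Q) (Q * Q) hQQ (s36r_theta_presentation G P Q h)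
  rw [e2, e1, s36r_theta_div, map_sub, map_mul, map_mul, map_mul, s36r_rho_thetaR,
    s36r_rho_thetaR, sq]

end Gauss

section CharQ

variable {κ : Type*} [Field κ] (q : ℕ) [hq : Fact q.Prime] [CharP κ q] [PerfectRing κ q]

/-- In characteristic `q`: `(θ x)(T^q) = (θ (Fr⁻¹ x))^q`. -/
theorem s36r_theta_qExpand_char (x : LaurentSeries κ) :
    qExpand κ q (ffd_theta x) =
      (ffd_theta (coeffMap ((frobeniusEquiv κ q).symm : κ →+* κ) x)) ^ q := by
  rw [s37e_qExpand_eq_pow q (ffd_theta x), s36r_theta_coeffMap]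

/-- `θ (x ^ q) = 0` in characteristic `q`. -/
theorem s36r_theta_pow_char (x : LaurentSeries κ) : ffd_theta (x ^ q) = 0 := by
  rw [s36r_theta_pow]
  have : ((q : ℕ) : LaurentSeries κ) = 0 := by
    have : CharP (LaurentSeries κ) q := by
      refine (RingHom.charP_iff (HahnSeries.C : κ →+* LaurentSeries κ)
        HahnSeries.C_injective q).mp inferInstance
    exact CharP.cast_eq_zero _ q
  rw [this, zero_mul, zero_mul]

end CharQ

section Amap

variable {K : Type*} [Field K] [CharZero K] {κ : Type*} [Field κ] (G : s18g_GaussData K κ)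

/-- **The reduction of `θ A`** for `q * A = T₂(T^q) - T₂'^q`. -/
theorem s36r_red_theta_A (q : ℕ) [NeZero q] (A T₂ T₂' : s18g_O G)
    (hA : (q : LaurentSeries K) * (A : LaurentSeries K) =
      qExpand K q (T₂ : LaurentSeries K) - (T₂' : LaurentSeries K) ^ q) :
    ffd_theta (s18g_red G A) =
      qExpand κ q (ffd_theta (s18g_red G T₂)) -
        (s18g_red G T₂') ^ (q - 1) * ffd_theta (s18g_red G T₂') := by
  have hq0 : (q : LaurentSeries K) ≠ 0 := by
    have : ((q : ℕ) : LaurentSeries K) = HahnSeries.C ((q : ℕ) : K) := by simp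
    rw [this, Ne, map_eq_zero]
    exact_mod_cast NeZero.ne q
  -- the exact identity in `K((q))`
  have hθ : ffd_theta (A : LaurentSeries K) =
      qExpand K q (ffd_theta (T₂ : LaurentSeries K)) -
        (T₂' : LaurentSeries K) ^ (q - 1) * ffd_theta (T₂' : LaurentSeries K) := by
    have h1 := congrArg ffd_theta hA
    have hsub : ∀ a b : LaurentSeries K, ffd_theta (a - b) = ffd_theta a - ffd_theta b :=
      fun a b => map_sub (ffd_thetaDeriv (K := K)) a b
    have hnat : ffd_theta ((q : ℕ) : LaurentSeries K) = 0 :=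
      (ffd_thetaDeriv (K := K)).map_natCast q
    rw [ffd_theta_mul, hnat, mul_zero, add_zero, hsub, s36r_theta_qExpand, s36r_theta_pow] at h1
    have h2 : ((q : ℕ) : K) • qExpand K q (ffd_theta (T₂ : LaurentSeries K)) =
        (q : LaurentSeries K) * qExpand K q (ffd_theta (T₂ : LaurentSeries K)) := by
      rw [ffd_smul_eq_algebraMap_mul, map_natCast]
    rw [h2] at h1
    apply mul_left_cancel₀ hq0
    rw [h1]
    ring
  -- reduce
  have e1 := s36r_red_theta G A
  have e2 := s36r_red_theta G T₂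
  have e3 := s36r_red_theta G T₂'
  have e4 := s34m_red_qExpand G q ⟨ffd_theta (T₂ : LaurentSeries K), s36r_theta_mem_O G T₂.2⟩
  rw [← e1]
  have hmem : qExpand K q (ffd_theta (T₂ : LaurentSeries K)) -
      (T₂' : LaurentSeries K) ^ (q - 1) * ffd_theta (T₂' : LaurentSeries K) ∈ s18g_O G :=
    hθ ▸ s36r_theta_mem_O G A.2
  have e5 : (⟨ffd_theta (A : LaurentSeries K), s36r_theta_mem_O G A.2⟩ : s18g_O G) =
      ⟨qExpand K q (ffd_theta (T₂ : LaurentSeries K)),
          s34m_qExpand_mem_O G q (s36r_theta_mem_O G T₂.2)⟩ -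
        T₂' ^ (q - 1) * ⟨ffd_theta (T₂' : LaurentSeries K), s36r_theta_mem_O G T₂'.2⟩ :=
    Subtype.ext hθ
  rw [e5, map_sub, map_mul, map_pow, e4, e2, e3]

end Amap

end Fermat.Agent.Lib.S36
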