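/-
S36 (R-q), helper4, prefix `s36r_`: THE FUNCTION `Θ⁻¹ = q · d(αt) / d(βt₂)` OF LEVEL `M q`.

* general (`F ≤ K₀((q))` an intermediate field with a generator `w₀`): `s36r_thetaF` (the derivation
  `θ : F → K₀((q))`), `s36r_transcendental_of_theta_ne_zero`, `s36r_exists_D_eq`
  (`D x = c • D y` in `Ω[F⁄K₀]` whenever `θ y ≠ 0`), `s36r_theta_of_D` (then `θ x = c * θ y`);
* `s36r_div_mem_O` : division by an element of the Gauss ring with nonzero reduction;
* **`s36r_invTheta`** : for `t, t₂ ∈ V_M` with `θ (red t₂) ≠ 0` there is `c : 𝓕_{Mq}` with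
  `D (α t) = c • D (β t₂)` such that `y := q * c` satisfies
  `y ∈ V_∞`, `red_∞ y * (θ red t₂)(T^q) = θ (red t)`, and `w_q y ∈ V_∞`, `red_∞ (w_q y) = 0`
  (i.e. `y ∈ V_0`, `red_0 y = 0`) when `π q = 0`.
-/
import Fermat.Agent.Lib.S36.RSeries
import Fermat.Agent.Lib.S36.RKmap
import Fermat.Agent.Lib.S36.RDeriv
import Fermat.Agent.Lib.FF.FFBasicDedekind

set_option autoImplicit false
set_option linter.unusedSectionVars false
set_option linter.style.haveILetI false

noncomputable section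

namespace Fermat.Agent.Lib.S36

open ModularCurve AlgebraicCurve HahnSeries Fermat.Agent.Lib.FF Fermat.Agent.Lib.S18
  Fermat.Agent.Lib.S34 Fermat.Agent.Lib.S37 KaehlerDifferential IntermediateField

local notation "Kb" => AlgebraicClosure ℚ

section General

variable {K₀ : Type*} [Field K₀] [CharZero K₀]

/-- `θ = q d/dq` restricted to an intermediate field of `K₀((q))`. -/
def s36r_thetaF (F : IntermediateField K₀ (LaurentSeries K₀)) :
    Derivation K₀ F (LaurentSeries K₀) :=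
  haveI := ffd_isScalarTower F
  (ffd_thetaDeriv (K := K₀)).compAlgebraMap F

theorem s36r_thetaF_apply (F : IntermediateField K₀ (LaurentSeries K₀)) (f : F) :
    s36r_thetaF F f = ffd_theta (f : LaurentSeries K₀) := rfl

/-- An element with `θ f ≠ 0` is transcendental over the constants. -/
theorem s36r_transcendental_of_theta_ne_zero (F : IntermediateField K₀ (LaurentSeries K₀))
    (f : F) (h : ffd_theta (f : LaurentSeries K₀) ≠ 0) : Transcendental K₀ f := by
  intro halg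
  apply h
  have hsep : IsSeparable K₀ f := (minpoly.irreducible halg.isIntegral).separable
  haveI := ffd_isScalarTower F
  have := s36r_deriv_algebraic_eq_zero (s36r_thetaF F) hsep
  rwa [s36r_thetaF_apply] at this

/-- `Ω[F⁄K₀]` is spanned by `D y` whenever `θ y ≠ 0`. -/
theorem s36r_exists_D_eq (F : IntermediateField K₀ (LaurentSeries K₀)) (w₀ : F) [FFGen K₀ w₀]
    (x y : F) (hy : ffd_theta (y : LaurentSeries K₀) ≠ 0) :
    ∃ c : F, D K₀ F x = c • D K₀ F y := by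
  haveI : FFGen K₀ y :=
    ff_gen_of_transcendental (x := w₀) (s36r_transcendental_of_theta_ne_zero F y hy)
  haveI : FiniteDimensional K₀⟮y⟯ F := FFGen.finite
  haveI : Algebra.IsAlgebraic K₀⟮y⟯ F := Algebra.IsAlgebraic.of_finite _ _
  exact s36r_deriv_eq_smul_of_algebraic (D K₀ F) y x

/-- A Kähler relation gives the relation between the `θ`-derivatives. -/
theorem s36r_theta_of_D (F : IntermediateField K₀ (LaurentSeries K₀)) {x y c : F}
    (h : D K₀ F x = c • D K₀ F y) :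
    ffd_theta (x : LaurentSeries K₀) =
      (c : LaurentSeries K₀) * ffd_theta (y : LaurentSeries K₀) := by
  haveI := ffd_isScalarTower F
  have := s36r_deriv_of_D (s36r_thetaF F) h
  rwa [s36r_thetaF_apply, s36r_thetaF_apply, IntermediateField.smul_def, smul_eq_mul] at this

end General

section Gauss

variable {K : Type*} [Field K] {κ : Type*} [Field κ] (G : s18g_GaussData K κ)

/-- Division by an element of the Gauss ring with nonzero reduction. -/
theorem s36r_div_mem_O (a b : s18g_O G) (hb : s18g_red G b ≠ 0) (y : LaurentSeries K)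
    (hy : y * (b : LaurentSeries K) = (a : LaurentSeries K)) :
    ∃ hy' : y ∈ s18g_O G, s18g_red G ⟨y, hy'⟩ * s18g_red G b = s18g_red G a := by
  obtain ⟨b', hb'⟩ := ((s18g_isUnit_iff G b).mpr hb).exists_right_inv
  have h1 : (b : LaurentSeries K) * (b' : LaurentSeries K) = 1 := by
    have := congrArg (fun z : s18g_O G => (z : LaurentSeries K)) hb'
    simpa using this
  have hy2 : y = (a : LaurentSeries K) * (b' : LaurentSeries K) := by
    rw [← hy, mul_assoc, h1, mul_one]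
  have hmem : y ∈ s18g_O G := by rw [hy2]; exact (s18g_O G).mul_mem a.2 b'.2
  refine ⟨hmem, ?_⟩
  have : (⟨y, hmem⟩ : s18g_O G) * b = a := Subtype.ext hy
  rw [← this, map_mul]

end Gauss

section Level

variable {K₀ : Type*} [Field K₀] [CharZero K₀] [Algebra ℚ K₀] {κ : Type*} [Field κ]
  (G : s18g_GaussData K₀ κ) (φ : K₀ →+* Kb) (M q : ℕ) [NeZero M] [NeZero q]
  (hq : q.Prime) (hqM : ¬ q ∣ M)

/-- **The function `Θ⁻¹`.** -/
theorem s36r_invTheta (hπq : G.π ((q : ℕ) : G.A) = 0)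
    (w₀ : s34m_F K₀ (M * q)) [FFGen K₀ w₀]
    (t t₂ : s34m_F K₀ M) (ht : t ∈ s34m_Vinf G M) (ht₂ : t₂ ∈ s34m_Vinf G M)
    (hred : ffd_theta (s34m_redInf G M ⟨t₂, ht₂⟩) ≠ 0) :
    ∃ c : s34m_F K₀ (M * q),
      D K₀ (s34m_F K₀ (M * q)) (heckeAlphaBar K₀ M q t) =
        c • D K₀ (s34m_F K₀ (M * q)) (heckeBetaBar K₀ M q t₂) ∧
      (∃ hy : ((q : ℕ) : s34m_F K₀ (M * q)) * c ∈ s34m_Vinf G (M * q),
        s34m_redInf G (M * q) ⟨_, hy⟩ * qExpand κ q (ffd_theta (s34m_redInf G M ⟨t₂, ht₂⟩)) =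
          ffd_theta (s34m_redInf G M ⟨t, ht⟩)) ∧
      (∃ hy : s34m_al φ M q hq hqM (((q : ℕ) : s34m_F K₀ (M * q)) * c) ∈ s34m_Vinf G (M * q),
        s34m_redInf G (M * q) ⟨_, hy⟩ = 0) := by
  -- the series
  set T : LaurentSeries K₀ := (t : LaurentSeries K₀) with hT
  set T₂ : LaurentSeries K₀ := (t₂ : LaurentSeries K₀) with hT₂
  have hTO : T ∈ s18g_O G := ht
  have hT₂O : T₂ ∈ s18g_O G := ht₂
  have hqK : ((q : ℕ) : K₀) ≠ 0 := by exact_mod_cast NeZero.ne q
  have hqL : ((q : ℕ) : LaurentSeries K₀) ≠ 0 := by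
    have : ((q : ℕ) : LaurentSeries K₀) = HahnSeries.C ((q : ℕ) : K₀) := by simp
    rw [this, Ne, map_eq_zero]
    exact hqK
  have hsmul : ∀ z : LaurentSeries K₀, ((q : ℕ) : K₀) • z = ((q : ℕ) : LaurentSeries K₀) * z := by
    intro z
    rw [ffd_smul_eq_algebraMap_mul, map_natCast]
  -- `θ T₂ ≠ 0` and its reduction
  have hredθ : s18g_red G ⟨ffd_theta T₂, s36r_theta_mem_O G hT₂O⟩ =
      ffd_theta (s34m_redInf G M ⟨t₂, ht₂⟩) := s36r_red_theta G ⟨T₂, hT₂O⟩
  have hθT₂ : ffd_theta T₂ ≠ 0 := by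
    intro h0
    apply hred
    rw [← hredθ]
    have : (⟨ffd_theta T₂, s36r_theta_mem_O G hT₂O⟩ : s18g_O G) = 0 := Subtype.ext h0
    rw [this, map_zero]
  -- `θ (β t₂) = q • (θ T₂)(T^q) ≠ 0`
  have hβθ : ∀ g : s34m_F K₀ M,
      ffd_theta ((heckeBetaBar K₀ M q g : s34m_F K₀ (M * q)) : LaurentSeries K₀) =
        ((q : ℕ) : LaurentSeries K₀) * qExpand K₀ q (ffd_theta (g : LaurentSeries K₀)) := by
    intro g
    rw [coe_heckeBetaBar, s36r_theta_qExpand, hsmul]
  have hαθ : ∀ g : s34m_F K₀ M,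
      ffd_theta ((heckeAlphaBar K₀ M q g : s34m_F K₀ (M * q)) : LaurentSeries K₀) =
        ffd_theta (g : LaurentSeries K₀) := by
    intro g
    rw [coe_heckeAlphaBar]
  have hEne : qExpand K₀ q (ffd_theta T₂) ≠ 0 := fun h0 =>
    hθT₂ (s34m_qExpand_injective K₀ q (by rw [h0, map_zero]))
  have hβne : ffd_theta ((heckeBetaBar K₀ M q t₂ : s34m_F K₀ (M * q)) : LaurentSeries K₀) ≠ 0 := by
    rw [hβθ]
    exact mul_ne_zero hqL hEne
  obtain ⟨c, hc⟩ := s36r_exists_D_eq (laurentBaseChange K₀ (modularFunctionFieldFull (M * q)))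
    w₀ (heckeAlphaBar K₀ M q t) (heckeBetaBar K₀ M q t₂) hβne
  refine ⟨c, hc, ?_, ?_⟩
  · -- along `V_∞`
    have h1 := s36r_theta_of_D _ hc
    rw [hαθ, hβθ] at h1
    -- `θ T = (q c) * (θ T₂)(T^q)`
    have h2 : ((((q : ℕ) : s34m_F K₀ (M * q)) * c : s34m_F K₀ (M * q)) : LaurentSeries K₀) *
        qExpand K₀ q (ffd_theta T₂) = ffd_theta T := by
      rw [h1]
      push_cast
      ring
    obtain ⟨hy', e⟩ := s36r_div_mem_O G ⟨ffd_theta T, s36r_theta_mem_O G hTO⟩
      ⟨qExpand K₀ q (ffd_theta T₂), s34m_qExpand_mem_O G q (s36r_theta_mem_O G hT₂O)⟩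
      (by
        rw [s34m_red_qExpand G q ⟨ffd_theta T₂, s36r_theta_mem_O G hT₂O⟩, hredθ]
        exact fun h0 => hred (s34m_qExpand_injective κ q (by rw [h0, map_zero])))
      _ h2
    refine ⟨hy', ?_⟩
    rw [s34m_red_qExpand G q ⟨ffd_theta T₂, s36r_theta_mem_O G hT₂O⟩, hredθ] at e
    rw [s34m_redInf_apply, e]
    exact s36r_red_theta G ⟨T, hTO⟩
  · -- along `V_0`
    have hc' := s36r_D_map (RingHom.id K₀)
      ((s34m_al φ M q hq hqM : s34m_F K₀ (M * q) ≃ₐ[K₀] s34m_F K₀ (M * q)) :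
        s34m_F K₀ (M * q) →+* s34m_F K₀ (M * q))
      (fun a => (s34m_al φ M q hq hqM).commutes a) hc
    simp only [RingHom.coe_coe] at hc'
    rw [s34m_al_alpha, s34m_al_beta] at hc'
    have h1 := s36r_theta_of_D _ hc'
    rw [hαθ, hβθ] at h1
    -- `q * (θ T)(T^q) = w(c) * θ T₂`
    set wc : LaurentSeries K₀ := ((s34m_al φ M q hq hqM c : s34m_F K₀ (M * q)) :
      LaurentSeries K₀) with hwc
    have h2 : wc * ffd_theta T₂ =
        ((q : ℕ) : LaurentSeries K₀) * qExpand K₀ q (ffd_theta T) := h1.symm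
    have hqO : ((q : ℕ) : LaurentSeries K₀) ∈ s18g_O G := by
      have : ((q : ℕ) : LaurentSeries K₀) = HahnSeries.C ((((q : ℕ) : G.A) : G.A) : K₀) := by
        simp
      rw [this]
      exact s18g_C_mem_O G _
    have hqred : s18g_red G ⟨((q : ℕ) : LaurentSeries K₀), hqO⟩ = 0 := by
      have e : (⟨((q : ℕ) : LaurentSeries K₀), hqO⟩ : s18g_O G) =
          ⟨HahnSeries.C ((((q : ℕ) : G.A) : G.A) : K₀), s18g_C_mem_O G _⟩ :=
        Subtype.ext (by simp)
      rw [e, s18g_red_C, hπq, map_zero]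
    have hEO : qExpand K₀ q (ffd_theta T) ∈ s18g_O G :=
      s34m_qExpand_mem_O G q (s36r_theta_mem_O G hTO)
    have haO : ((q : ℕ) : LaurentSeries K₀) * qExpand K₀ q (ffd_theta T) ∈ s18g_O G :=
      (s18g_O G).mul_mem hqO hEO
    have hared : s18g_red G ⟨_, haO⟩ = 0 := by
      have e : (⟨_, haO⟩ : s18g_O G) =
          ⟨((q : ℕ) : LaurentSeries K₀), hqO⟩ * ⟨qExpand K₀ q (ffd_theta T), hEO⟩ := rfl
      rw [e, map_mul, hqred, zero_mul]
    have hbred : s18g_red G ⟨ffd_theta T₂, s36r_theta_mem_O G hT₂O⟩ ≠ 0 := by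
      rw [hredθ]; exact hred
    obtain ⟨hwcO, e⟩ := s36r_div_mem_O G ⟨_, haO⟩ ⟨ffd_theta T₂, s36r_theta_mem_O G hT₂O⟩
      hbred wc h2
    rw [hared] at e
    have hwc0 : s18g_red G ⟨wc, hwcO⟩ = 0 := by
      rcases mul_eq_zero.mp e with h | h
      · exact h
      · rw [hredθ] at h
        exact absurd h hred
    have hcoe : ((s34m_al φ M q hq hqM (((q : ℕ) : s34m_F K₀ (M * q)) * c) :
        s34m_F K₀ (M * q)) : LaurentSeries K₀) = ((q : ℕ) : LaurentSeries K₀) * wc := by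
      rw [map_mul, map_natCast]
      push_cast
      rfl
    have hmem : s34m_al φ M q hq hqM (((q : ℕ) : s34m_F K₀ (M * q)) * c) ∈
        s34m_Vinf G (M * q) := by
      rw [s34m_mem_Vinf, hcoe]
      exact (s18g_O G).mul_mem hqO hwcO
    refine ⟨hmem, ?_⟩
    rw [s34m_redInf_apply]
    have : (⟨_, hmem⟩ : s18g_O G) = ⟨((q : ℕ) : LaurentSeries K₀), hqO⟩ * ⟨wc, hwcO⟩ :=
      Subtype.ext hcoe
    rw [this, map_mul, hwc0, mul_zero]

end Level

end Fermat.Agent.Lib.S36
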