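/-
S36 project, WIRING side (helper1, prefix `s36w_`): THE DEFINITIONS EVERY SEAT STATES AGAINST.

* `s36w_alphaPush M q`, `s36w_betaPush M q : JZero (M * q) →+ JZero M` : the push-forwards
  `α_*, β_*` of divisor classes along `heckeAlphaBar Kb M q`, `heckeBetaBar Kb M q`
  (`f(τ) ↦ f(τ)`, resp. `f(τ) ↦ f(qτ)`), for ARBITRARY `M, q` (in particular `q ∣ M`).
  They are defined by `dite` on the finiteness of the embedding, so that the definition needs no
  proof; `s36w_alphaPush_eq`, `s36w_betaPush_eq` unfold them, given finiteness, to helper1's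
  `s35c_pushPic0` (S35, [B3]); the finiteness proofs themselves (true for all `M, q`) are in
  `Lib/S36/WFinite.lean` (`s36w_finite_alpha`, `s36w_finite_beta`).
  For the S36 levels use `M := M' * q`: `s36w_alphaPush (M' * q) q : JZero (M' * q * q) →+ _`.
* `s36_NN1` : **the contract [NN₁]** exported by the geometry side and consumed by the wiring
  (`s36_of_NN1`): for `q ∤ M'`, `q ≠ lam`, there is `c` such that for every place `P ∣ q` of `ℚ̄`,
  every Frobenius lift `φ` at `P`, every `k` and every `z ∈ J₀(M' q²)[lam^k]` fixed by the inertia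
  group of `P` and killed by `α_*` and `β_*`:  `lam^c • (φ z - z) = 0`.
-/
import Fermat.Agent.Lib.S35.B3Push

set_option autoImplicit false
set_option linter.unusedSectionVars false
set_option linter.style.haveILetI false

noncomputable section

namespace Fermat.Agent.Lib.S36

open ModularCurve AlgebraicCurve Fermat.Agent.Lib.S29 Fermat.Agent.Lib.S30 Fermat.Agent.Lib.S35
  Fermat.Agent.Lib.S37 Fermat.Agent.Lib.FF

local notation "Kb" => AlgebraicClosure ℚ

section Push

variable (M q : ℕ) [NeZero M] [NeZero q]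

open Classical in
/-- **`α_* : J₀(M q) → J₀(M)`** for arbitrary `M, q` (zero if `α` were not finite — it always is,
`s36w_finite_alpha`). -/
def s36w_alphaPush : JZero (M * q) →+ JZero M :=
  if h : FiniteAlong Kb (heckeAlphaBar Kb M q) then
    s35c_pushPic0 (heckeAlphaBar Kb M q) (s37h_isIntegral_of_finiteAlong _ h) h
      (s37h_normFormulaAlong _ h)
  else 0

open Classical in
/-- **`β_* : J₀(M q) → J₀(M)`** for arbitrary `M, q` (zero if `β` were not finite — it always is,
`s36w_finite_beta`). -/
def s36w_betaPush : JZero (M * q) →+ JZero M :=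
  if h : FiniteAlong Kb (heckeBetaBar Kb M q) then
    s35c_pushPic0 (heckeBetaBar Kb M q) (s37h_isIntegral_of_finiteAlong _ h) h
      (s37h_normFormulaAlong _ h)
  else 0

theorem s36w_alphaPush_eq (h : FiniteAlong Kb (heckeAlphaBar Kb M q)) :
    s36w_alphaPush M q =
      s35c_pushPic0 (heckeAlphaBar Kb M q) (s37h_isIntegral_of_finiteAlong _ h) h
        (s37h_normFormulaAlong _ h) := by
  unfold s36w_alphaPush
  rw [dif_pos h]

theorem s36w_betaPush_eq (h : FiniteAlong Kb (heckeBetaBar Kb M q)) :
    s36w_betaPush M q =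
      s35c_pushPic0 (heckeBetaBar Kb M q) (s37h_isIntegral_of_finiteAlong _ h) h
        (s37h_normFormulaAlong _ h) := by
  unfold s36w_betaPush
  rw [dif_pos h]

/-- on a divisor class: `α_* [D] = [α_* D]`. -/
theorem s36w_alphaPush_mk (h : FiniteAlong Kb (heckeAlphaBar Kb M q))
    (D : Divisor.degZero (K := Kb) (F := ffi_F (M * q))) :
    s36w_alphaPush M q (Pic0.mk D) =
      Pic0.mk (s35c_degZeroPush (heckeAlphaBar Kb M q) (s37h_isIntegral_of_finiteAlong _ h) D) := by
  rw [s36w_alphaPush_eq M q h]
  rfl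

/-- on a divisor class: `β_* [D] = [β_* D]`. -/
theorem s36w_betaPush_mk (h : FiniteAlong Kb (heckeBetaBar Kb M q))
    (D : Divisor.degZero (K := Kb) (F := ffi_F (M * q))) :
    s36w_betaPush M q (Pic0.mk D) =
      Pic0.mk (s35c_degZeroPush (heckeBetaBar Kb M q) (s37h_isIntegral_of_finiteAlong _ h) D) := by
  rw [s36w_betaPush_eq M q h]
  rfl

/-- a class dies under `α_*` iff the push-forward of a representing divisor is principal. -/
theorem s36w_alphaPush_mk_eq_zero_iff (h : FiniteAlong Kb (heckeAlphaBar Kb M q))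
    (D : Divisor.degZero (K := Kb) (F := ffi_F (M * q))) :
    s36w_alphaPush M q (Pic0.mk D) = 0 ↔
      (Divisor.pushforwardAlong (heckeAlphaBar Kb M q) (s37h_isIntegral_of_finiteAlong _ h)
        (D : Divisor Kb (ffi_F (M * q)))).IsPrincipal := by
  rw [s36w_alphaPush_eq M q h]
  exact s35c_pushPic0_mk_eq_zero_iff _ _ _ _ D

/-- a class dies under `β_*` iff the push-forward of a representing divisor is principal. -/
theorem s36w_betaPush_mk_eq_zero_iff (h : FiniteAlong Kb (heckeBetaBar Kb M q))
    (D : Divisor.degZero (K := Kb) (F := ffi_F (M * q))) :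
    s36w_betaPush M q (Pic0.mk D) = 0 ↔
      (Divisor.pushforwardAlong (heckeBetaBar Kb M q) (s37h_isIntegral_of_finiteAlong _ h)
        (D : Divisor Kb (ffi_F (M * q)))).IsPrincipal := by
  rw [s36w_betaPush_eq M q h]
  exact s35c_pushPic0_mk_eq_zero_iff _ _ _ _ D

/-- **`α_*` is Galois equivariant** (unconditionally). -/
theorem s36w_alphaPush_smul (σ : s29k_G) (x : JZero (M * q)) :
    s36w_alphaPush M q (σ • x) = σ • s36w_alphaPush M q x := by
  by_cases h : FiniteAlong Kb (heckeAlphaBar Kb M q)
  · rw [s36w_alphaPush_eq M q h, galois_smul_pic0_def, galois_smul_pic0_def]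
    exact s35c_pushPic0_smul _ _ _ _ _ _ (s29g_alpha_intertwines M q σ)
      (fun v => by rw [s37l_deg_eq_one M v]; exact one_ne_zero) x
  · unfold s36w_alphaPush
    rw [dif_neg h, AddMonoidHom.zero_apply, AddMonoidHom.zero_apply, smul_zero]

/-- **`β_*` is Galois equivariant** (unconditionally). -/
theorem s36w_betaPush_smul (σ : s29k_G) (x : JZero (M * q)) :
    s36w_betaPush M q (σ • x) = σ • s36w_betaPush M q x := by
  by_cases h : FiniteAlong Kb (heckeBetaBar Kb M q)
  · rw [s36w_betaPush_eq M q h, galois_smul_pic0_def, galois_smul_pic0_def]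
    exact s35c_pushPic0_smul _ _ _ _ _ _ (s29g_beta_intertwines M q σ)
      (fun v => by rw [s37l_deg_eq_one M v]; exact one_ne_zero) x
  · unfold s36w_betaPush
    rw [dif_neg h, AddMonoidHom.zero_apply, AddMonoidHom.zero_apply, smul_zero]

end Push

/-- **The contract [NN₁]** (Frobenius shape): for `q ∤ M'`, `q ≠ lam` there is `c` such that for
every place `P` of `ℚ̄` over `q`, every Frobenius lift `φ` at `P`, every `k` and every
`z ∈ J₀(M' q²)(ℚ̄)` with `lam^k z = 0`, fixed by the inertia group of `P` and killed by both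
push-forwards `α_*, β_* : J₀(M' q²) → J₀(M' q)`, one has `lam^c (φ z - z) = 0`. -/
def s36_NN1 : Prop :=
  ∀ (M' q lam : ℕ) [NeZero M'] [NeZero q] [Fact lam.Prime], q.Prime → q ≠ lam → ¬ q ∣ M' →
    ∃ c : ℕ, ∀ P : ValuationSubring (AlgebraicClosure ℚ), P.LiesOverPrime q →
      ∀ φ : s29k_G, P.IsFrobeniusAt φ q →
        ∀ (k : ℕ) (z : JZero (M' * q * q)), (lam ^ k) • z = 0 →
          (∀ σ ∈ P.inertiaSubgroupIn ℚ, σ • z = z) →
          s36w_alphaPush (M' * q) q z = 0 → s36w_betaPush (M' * q) q z = 0 →
          (lam ^ c) • (φ • z - z) = 0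

end Fermat.Agent.Lib.S36
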