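/-
S36 project, WIRING side (helper1, prefix `s36w_`): FINITENESS OF EVERY EMBEDDING OF MODULAR
FUNCTION FIELDS.

`s36w_finiteAlong φ : FiniteAlong Kb φ` for EVERY `Q̄`-algebra homomorphism
`φ : F̄(N) →ₐ[Q̄] F̄(N')` (any levels): `φ j` is transcendental over `Q̄`, hence (exchange lemma
`ff_gen_of_transcendental` of Lib/FF) `F̄(N')` is finite over `Q̄(φ j) ⊆ φ F̄(N)`.

In particular `s36w_finite_alpha M q`, `s36w_finite_beta M q` for ARBITRARY `M, q` (also `q ∣ M`),
so the push-forwards `s36w_alphaPush`, `s36w_betaPush` of `Defs.lean` are the honest ones: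
`s36w_alphaPush_eq'`, `s36w_betaPush_eq'`, `s36w_alphaPush_mk'`, … (no finiteness hypothesis).
-/
import Fermat.Agent.Lib.S36.Defs

set_option autoImplicit false
set_option linter.unusedSectionVars false
set_option linter.style.haveILetI false

noncomputable section

namespace Fermat.Agent.Lib.S36

open ModularCurve AlgebraicCurve Fermat.Agent.Lib.S29 Fermat.Agent.Lib.S30 Fermat.Agent.Lib.S35
  Fermat.Agent.Lib.S37 Fermat.Agent.Lib.FF IntermediateField

local notation "Kb" => AlgebraicClosure ℚ

section General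

variable {N N' : ℕ} [NeZero N] [NeZero N']

/-- **every `Q̄`-embedding of modular function fields is finite.** -/
theorem s36w_finiteAlong (φ : ffi_F N →ₐ[Kb] ffi_F N') : FiniteAlong Kb φ := by
  -- `x = φ j` is transcendental
  set x : ffi_F N' := φ (ffd_jBar N) with hx
  have htr : Transcendental Kb x := by
    intro halg
    exact ffg_transcendental_jBar N ((isAlgebraic_algHom_iff φ φ.injective).mp halg)
  haveI : FFGen ffi_K (ffd_jBar N') := Fermat.Agent.Lib.S18.s18r_ffGen N'
  have hgen : FFGen Kb x := ff_gen_of_transcendental (K := Kb) (x := ffd_jBar N') htr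
  haveI : FiniteDimensional Kb⟮x⟯ (ffi_F N') := hgen.finite
  -- `Q̄(x) ≤ φ F̄(N)`
  have hle : Kb⟮x⟯ ≤ φ.fieldRange := by
    rw [adjoin_simple_le_iff]
    exact ⟨ffd_jBar N, rfl⟩
  have hmul := relfinrank_mul_finrank_top hle
  have hpos : 0 < Module.finrank Kb⟮x⟯ (ffi_F N') := Module.finrank_pos
  have hpos' : 0 < Module.finrank φ.fieldRange (ffi_F N') := by
    apply Nat.pos_of_ne_zero
    intro h0
    rw [h0, mul_zero] at hmul
    exact hpos.ne hmul
  haveI : FiniteDimensional φ.fieldRange (ffi_F N') := FiniteDimensional.of_finrank_pos hpos'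
  -- transport along `φ : F̄(N) ↠ φ F̄(N)`
  let _ := algebraAlong φ
  show Module.Finite (ffi_F N) (ffi_F N')
  obtain ⟨s, hs⟩ := (Module.finite_def.mp (inferInstance : Module.Finite φ.fieldRange (ffi_F N')))
  refine ⟨s, ?_⟩
  have key : ∀ y : ffi_F N', y ∈ Submodule.span φ.fieldRange (s : Set (ffi_F N')) →
      y ∈ Submodule.span (ffi_F N) (s : Set (ffi_F N')) := by
    intro y hy
    induction hy using Submodule.span_induction with
    | mem z hz => exact Submodule.subset_span hz
    | zero => exact Submodule.zero_mem _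
    | add a b _ _ ha hb => exact Submodule.add_mem _ ha hb
    | smul c a _ ha =>
      obtain ⟨c0, hc0⟩ := c.2
      have h1 : c • a = c0 • a := by
        show (c : ffi_F N') * a = φ c0 * a
        rw [← hc0]
        rfl
      rw [h1]
      exact Submodule.smul_mem _ _ ha
  rw [eq_top_iff]
  intro y _
  exact key y (by rw [hs]; trivial)

end General

section Modular

variable (M q : ℕ) [NeZero M] [NeZero q]

/-- `α : F̄(M) → F̄(M q)` is finite, for arbitrary `M, q`. -/
theorem s36w_finite_alpha : FiniteAlong Kb (heckeAlphaBar Kb M q) := s36w_finiteAlong _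

/-- `β : F̄(M) → F̄(M q)` is finite, for arbitrary `M, q`. -/
theorem s36w_finite_beta : FiniteAlong Kb (heckeBetaBar Kb M q) := s36w_finiteAlong _

/-- `α` is integral. -/
theorem s36w_alphaIntegral : (heckeAlphaBar Kb M q).toRingHom.IsIntegral :=
  s37h_isIntegral_of_finiteAlong _ (s36w_finite_alpha M q)

/-- `β` is integral. -/
theorem s36w_betaIntegral : (heckeBetaBar Kb M q).toRingHom.IsIntegral :=
  s37h_isIntegral_of_finiteAlong _ (s36w_finite_beta M q)

theorem s36w_alphaPush_eq' :
    s36w_alphaPush M q =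
      s35c_pushPic0 (heckeAlphaBar Kb M q) (s36w_alphaIntegral M q) (s36w_finite_alpha M q)
        (s37h_normFormulaAlong _ (s36w_finite_alpha M q)) :=
  s36w_alphaPush_eq M q (s36w_finite_alpha M q)

theorem s36w_betaPush_eq' :
    s36w_betaPush M q =
      s35c_pushPic0 (heckeBetaBar Kb M q) (s36w_betaIntegral M q) (s36w_finite_beta M q)
        (s37h_normFormulaAlong _ (s36w_finite_beta M q)) :=
  s36w_betaPush_eq M q (s36w_finite_beta M q)

/-- on a divisor class: `α_* [D] = [α_* D]`. -/
theorem s36w_alphaPush_mk' (D : Divisor.degZero (K := Kb) (F := ffi_F (M * q))) :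
    s36w_alphaPush M q (Pic0.mk D) =
      Pic0.mk (s35c_degZeroPush (heckeAlphaBar Kb M q) (s36w_alphaIntegral M q) D) :=
  s36w_alphaPush_mk M q (s36w_finite_alpha M q) D

/-- on a divisor class: `β_* [D] = [β_* D]`. -/
theorem s36w_betaPush_mk' (D : Divisor.degZero (K := Kb) (F := ffi_F (M * q))) :
    s36w_betaPush M q (Pic0.mk D) =
      Pic0.mk (s35c_degZeroPush (heckeBetaBar Kb M q) (s36w_betaIntegral M q) D) :=
  s36w_betaPush_mk M q (s36w_finite_beta M q) D

/-- a class dies under `α_*` iff the push-forward of a representing divisor is principal. -/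
theorem s36w_alphaPush_mk_eq_zero_iff' (D : Divisor.degZero (K := Kb) (F := ffi_F (M * q))) :
    s36w_alphaPush M q (Pic0.mk D) = 0 ↔
      (Divisor.pushforwardAlong (heckeAlphaBar Kb M q) (s36w_alphaIntegral M q)
        (D : Divisor Kb (ffi_F (M * q)))).IsPrincipal :=
  s36w_alphaPush_mk_eq_zero_iff M q (s36w_finite_alpha M q) D

/-- a class dies under `β_*` iff the push-forward of a representing divisor is principal. -/
theorem s36w_betaPush_mk_eq_zero_iff' (D : Divisor.degZero (K := Kb) (F := ffi_F (M * q))) :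
    s36w_betaPush M q (Pic0.mk D) = 0 ↔
      (Divisor.pushforwardAlong (heckeBetaBar Kb M q) (s36w_betaIntegral M q)
        (D : Divisor Kb (ffi_F (M * q)))).IsPrincipal :=
  s36w_betaPush_mk_eq_zero_iff M q (s36w_finite_beta M q) D

end Modular

end Fermat.Agent.Lib.S36
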