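/-
S36 mega-project, layer (R-q), piece [U] (helper2 for helper4, prefix `s36u_`):
**`X₀(Mq) → X₀(M)` via `β` is unramified outside the cusps when `ν₂(M) = ν₃(M) = 0`.**

Everything is about places of the `Q̄`-function fields `ffi_F N = modularFunctionFieldBar N`
(`Kb = AlgebraicClosure ℚ`), from the S24 machine (`Lib/FF`, unconditional form `Lib/S18/RData`).

* `s36u_card_orbit_prime` : an orbit of a permutation of prime order `ℓ` through a non-fixed point
  has exactly `ℓ` elements;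
* `s36u_ord_j_sub` (U1) : if `ν₂(N) = ν₃(N) = 0`, a place `v` of `F̄(N)` with centre `j = c` has
  `ord_v (j - c) = 3, 2, 1` for `c = 0`, `c = 1728`, other `c` (no elliptic points: every point over
  `j = 0` has `e = 3`, every point over `j = 1728` has `e = 2`);
* `s36u_nuTwo_mul`, `s36u_nuThree_mul` (U2) : `ν₂(M) = 0 ⇒ ν₂(M q) = 0`, same for `ν₃`;
* `s36u_ramIdx_pos`, `s36u_ramIdx_algEquiv` : ramification indices along an integral embedding are
  positive; along an isomorphism they are `1`;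
* `s36u_beta_unram` (U3, THE EXPORT) : for a place `v` of `F̄(M q)` at which `β̄ j` is regular, the
  restriction `v'` of `v` along `β̄ : F̄(M) → F̄(M q)` satisfies `ord_v (β̄ f) = ord_{v'} f` for all
  `f` (`e(v | β̄ F̄(M)) = 1`);
* `s36u_alpha_unram` : the same along `ᾱ` (places at which `j` is regular).
-/
import Fermat.Agent.Lib.S18.RData
import Fermat.Agent.Lib.S37.WAtkin
import Fermat.Agent.Lib.S36.WFinite

set_option autoImplicit false
set_option linter.unusedSectionVars false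
set_option linter.style.haveILetI false

noncomputable section

namespace Fermat.Agent.Lib.S36

open AlgebraicCurve ModularCurve IntermediateField Matrix.SpecialLinearGroup CongruenceSubgroup
open Fermat.Agent.Lib.FF Fermat.Agent.Lib.S18 Fermat.Agent.Lib.S37
open Fermat.Agent.Lib.RR (Q)
open scoped MatrixGroups

local notation "Kb" => AlgebraicClosure ℚ

/-! ### Orbits of a permutation of prime order -/

/-- An orbit of a permutation of prime order `ℓ` through a non-fixed point has `ℓ` elements. -/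
theorem s36u_card_orbit_prime {X : Type*} (δ : Equiv.Perm X) {ℓ : ℕ} (hℓ : ℓ.Prime)
    (hδ : δ ^ ℓ = 1) (x : X) (hx : δ x ≠ x) :
    Nat.card (MulAction.orbit (Subgroup.zpowers δ) x) = ℓ := by
  have hstab : MulAction.stabilizer (Subgroup.zpowers δ) x = ⊥ := by
    rw [Subgroup.eq_bot_iff_forall]
    intro g hg
    by_contra hne
    exact hx ((ffs_fixedBy_eq_of_prime δ hℓ hδ g hne x).mp hg)
  have h1 : Nat.card (MulAction.orbit (Subgroup.zpowers δ) x) =
      Nat.card (Subgroup.zpowers δ) := by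
    rw [Nat.card_congr (MulAction.orbitEquivQuotientStabilizer (Subgroup.zpowers δ) x), hstab]
    exact Nat.card_congr (QuotientGroup.quotientBot (G := Subgroup.zpowers δ)).toEquiv
  rw [h1, Nat.card_zpowers]
  haveI : Fact ℓ.Prime := ⟨hℓ⟩
  have hne : δ ≠ 1 := by
    intro h
    apply hx
    rw [h]; rfl
  exact orderOf_eq_prime hδ hne

variable (N : ℕ) [NeZero N]

/-- `S` has no fixed point on `SL₂(ℤ)/Γ₀(N)` when `ν₂(N) = 0`. -/
theorem s36u_S_ne (h2 : nuTwo N = 0) (x : Q N) :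
    (MulAction.toPerm (ModularGroup.S : SL(2, ℤ)) : Equiv.Perm (Q N)) x ≠ x := by
  intro hx
  have hcard := Fermat.Agent.Lib.RR.Cosets.card_fixedBy_S N
  rw [h2] at hcard
  have hmem : x ∈ MulAction.fixedBy (Q N) (ModularGroup.S : SL(2, ℤ)) := hx
  have : Nonempty (MulAction.fixedBy (Q N) (ModularGroup.S : SL(2, ℤ))) := ⟨⟨x, hmem⟩⟩
  have hpos : 0 < Nat.card (MulAction.fixedBy (Q N) (ModularGroup.S : SL(2, ℤ))) :=
    Nat.card_pos
  exact hpos.ne' hcard

/-- `S T` has no fixed point on `SL₂(ℤ)/Γ₀(N)` when `ν₃(N) = 0`. -/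
theorem s36u_ST_ne (h3 : nuThree N = 0) (x : Q N) :
    (MulAction.toPerm (ModularGroup.S * ModularGroup.T : SL(2, ℤ)) : Equiv.Perm (Q N)) x ≠ x := by
  intro hx
  have hcard := Fermat.Agent.Lib.RR.Cosets.card_fixedBy_ST N
  rw [h3] at hcard
  have hmem : x ∈ MulAction.fixedBy (Q N) (ModularGroup.S * ModularGroup.T : SL(2, ℤ)) := hx
  have : Nonempty (MulAction.fixedBy (Q N) (ModularGroup.S * ModularGroup.T : SL(2, ℤ))) :=
    ⟨⟨x, hmem⟩⟩
  have hpos : 0 < Nat.card (MulAction.fixedBy (Q N) (ModularGroup.S * ModularGroup.T : SL(2, ℤ))) :=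
    Nat.card_pos
  exact hpos.ne' hcard

/-! ### (U1) the ramification of `j` at level `N` without elliptic points -/

/-- **(U1)** If `ν₂(N) = ν₃(N) = 0`, the order of `j - c` at a place centred at `j = c` is `3`
(`c = 0`), `2` (`c = 1728`), `1` (otherwise). -/
theorem s36u_ord_j_sub (h2 : nuTwo N = 0) (h3 : nuThree N = 0) (v : Place Kb (ffi_F N)) (c : Kb)
    (hv : 0 < v.ord (ffd_jBar N - algebraMap Kb (ffi_F N) c)) :
    v.ord (ffd_jBar N - algebraMap Kb (ffi_F N) c) =
      if c = 0 then 3 else if c = 1728 then 2 else 1 := by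
  by_cases hc0 : c = 0
  · rw [if_pos hc0]
    subst hc0
    obtain ⟨P, hP, hsum⟩ := s18r_fibre N 0
    rw [← s18r_card_Q N] at hsum
    simp only [map_zero, sub_zero] at hP hsum hv ⊢
    obtain ⟨x, hx⟩ := (ffh_card_of_fibre N _ _ (s18r_ifaceFibres N).2.2.1 P hP hsum).2 v
      ((hP v).mpr hv)
    rw [hx, s36u_card_orbit_prime _ Nat.prime_three (ffs_toPerm_pow _ 3 ffs_ST_cube) x
      (s36u_ST_ne N h3 x)]
    rfl
  · rw [if_neg hc0]
    by_cases hc1 : c = 1728
    · rw [if_pos hc1]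
      subst hc1
      obtain ⟨P, hP, hsum⟩ := s18r_fibre N 1728
      rw [← s18r_card_Q N] at hsum
      obtain ⟨x, hx⟩ := (ffh_card_of_fibre N _ _ (s18r_ifaceFibres N).2.1 P hP hsum).2 v
        ((hP v).mpr hv)
      rw [hx, s36u_card_orbit_prime _ Nat.prime_two (ffs_toPerm_pow _ 2 ffs_S_sq) x
        (s36u_S_ne N h2 x)]
      rfl
    · rw [if_neg hc1]
      exact s18r_unramified N c hc0 hc1 v hv

/-! ### (U2) `ν₂`, `ν₃` under raising the level -/

omit [NeZero N] in
/-- The integers have no root of `x² + 1`. -/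
theorem s36u_isEmpty_nuTwo (h : nuTwo N = 0) : IsEmpty {x : ZMod N // x ^ 2 + 1 = 0} := by
  rcases Nat.eq_zero_or_pos N with rfl | hN
  · refine ⟨fun x => ?_⟩
    obtain ⟨x, hx⟩ := x
    have key : ∀ y : ℤ, y ^ 2 + 1 ≠ 0 := fun y => by nlinarith [sq_nonneg y]
    exact key x hx
  · haveI : NeZero N := ⟨hN.ne'⟩
    rcases (Nat.card_eq_zero (α := {x : ZMod N // x ^ 2 + 1 = 0})).mp h with h' | h'
    · exact h'
    · exact absurd (inferInstance : Finite {x : ZMod N // x ^ 2 + 1 = 0}) (not_finite_iff_infinite.mpr h')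

omit [NeZero N] in
theorem s36u_isEmpty_nuThree (h : nuThree N = 0) :
    IsEmpty {x : ZMod N // x ^ 2 + x + 1 = 0} := by
  rcases Nat.eq_zero_or_pos N with rfl | hN
  · refine ⟨fun x => ?_⟩
    obtain ⟨x, hx⟩ := x
    have key : ∀ y : ℤ, y ^ 2 + y + 1 ≠ 0 := fun y => by nlinarith [sq_nonneg (2 * y + 1)]
    exact key x hx
  · haveI : NeZero N := ⟨hN.ne'⟩
    rcases (Nat.card_eq_zero (α := {x : ZMod N // x ^ 2 + x + 1 = 0})).mp h with h' | h'
    · exact h'
    · exact absurd (inferInstance : Finite {x : ZMod N // x ^ 2 + x + 1 = 0})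
        (not_finite_iff_infinite.mpr h')

/-- **(U2)** `ν₂(M) = 0 ⇒ ν₂(M q) = 0`. -/
theorem s36u_nuTwo_mul (M q : ℕ) (h : nuTwo M = 0) : nuTwo (M * q) = 0 := by
  haveI := s36u_isEmpty_nuTwo M h
  rw [nuTwo]
  haveI : IsEmpty {x : ZMod (M * q) // x ^ 2 + 1 = 0} := by
    refine ⟨fun x => ?_⟩
    obtain ⟨x, hx⟩ := x
    refine IsEmpty.false (⟨ZMod.castHom (dvd_mul_right M q) (ZMod M) x, ?_⟩ :
      {x : ZMod M // x ^ 2 + 1 = 0})
    rw [← map_pow, ← map_one (ZMod.castHom (dvd_mul_right M q) (ZMod M)), ← map_add, hx, map_zero]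
  exact Nat.card_of_isEmpty

/-- **(U2)** `ν₃(M) = 0 ⇒ ν₃(M q) = 0`. -/
theorem s36u_nuThree_mul (M q : ℕ) (h : nuThree M = 0) : nuThree (M * q) = 0 := by
  haveI := s36u_isEmpty_nuThree M h
  rw [nuThree]
  haveI : IsEmpty {x : ZMod (M * q) // x ^ 2 + x + 1 = 0} := by
    refine ⟨fun x => ?_⟩
    obtain ⟨x, hx⟩ := x
    refine IsEmpty.false (⟨ZMod.castHom (dvd_mul_right M q) (ZMod M) x, ?_⟩ :
      {x : ZMod M // x ^ 2 + x + 1 = 0})
    rw [← map_pow, ← map_one (ZMod.castHom (dvd_mul_right M q) (ZMod M)), ← map_add, ← map_add, hx,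
      map_zero]
  exact Nat.card_of_isEmpty

/-! ### Ramification indices along embeddings -/

section Ram

variable {K F F' : Type*} [Field K] [Field F] [Field F'] [Algebra K F] [Algebra K F']

/-- Ramification indices along an integral embedding are positive. -/
theorem s36u_ramIdx_pos (φ : F →ₐ[K] F') (hφ : φ.toRingHom.IsIntegral) (w : Place K F') :
    0 < Place.ramificationIndexAlong φ w := by
  letI := algebraAlong φ
  haveI := isScalarTower_along φ
  haveI := isIntegral_along φ hφ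
  exact w.ramificationIndex_pos (F := F)

/-- Along an isomorphism the ramification index is `1`. -/
theorem s36u_ramIdx_algEquiv (φ : F ≃ₐ[K] F') (hφ : (φ : F →ₐ[K] F').toRingHom.IsIntegral)
    (w : Place K F') : Place.ramificationIndexAlong (φ : F →ₐ[K] F') w = 1 := by
  obtain ⟨π, hπ0, hπ⟩ := ffs_exists_ord_eq_one w
  have h1 := Place.ord_restrictAlong (φ : F →ₐ[K] F') hφ w (φ.symm π)
  have h2 : (φ : F →ₐ[K] F') (φ.symm π) = π := φ.apply_symm_apply π
  rw [h2, hπ] at h1
  have hpos := s36u_ramIdx_pos (φ : F →ₐ[K] F') hφ w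
  have hdvd : ((Place.ramificationIndexAlong (φ : F →ₐ[K] F') w : ℕ) : ℤ) ∣ 1 := ⟨_, h1⟩
  have := Int.eq_one_of_dvd_one (by positivity) hdvd
  exact_mod_cast this

end Ram

/-! ### (U3) `β` is unramified outside the cusps -/

variable (M q : ℕ) [NeZero M] [NeZero q]

/-- `ᾱ j = j`. -/
theorem s36u_alpha_jBar : heckeAlphaBar Kb M q (ffd_jBar M) = ffd_jBar (M * q) := by
  apply Subtype.ext
  rw [coe_heckeAlphaBar, ffd_jBar_coe, ffd_jBar_coe]

/-- **`ᾱ : F̄(M) → F̄(M q)` is unramified outside the cusps** when `ν₂(M) = ν₃(M) = 0`. -/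
theorem s36u_alpha_unram (h2 : nuTwo M = 0) (h3 : nuThree M = 0)
    (v : Place Kb (ffi_F (M * q))) (hv : 0 ≤ v.ord (ffd_jBar (M * q))) :
    ∃ v' : Place Kb (ffi_F M), ∀ f : ffi_F M, v.ord (heckeAlphaBar Kb M q f) = v'.ord f := by
  set α := heckeAlphaBar Kb M q with hα
  have hαint : α.toRingHom.IsIntegral := s36w_alphaIntegral M q
  set v' : Place Kb (ffi_F M) := v.restrictAlong α hαint with hv'
  set e : ℕ := Place.ramificationIndexAlong α v with he
  have hord : ∀ f : ffi_F M, v.ord (α f) = (e : ℤ) * v'.ord f := fun f =>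
    Place.ord_restrictAlong α hαint v f
  have hepos : 0 < e := s36u_ramIdx_pos α hαint v
  -- the centre of `j` at `v'` is finite
  have : FFGen ffi_K (ffd_jBar M) := s18r_ffGen M
  have hcentre := ff_ifaceCentre ffi_K (ffd_jBar M) v'
  have hj : v.ord (α (ffd_jBar M)) = v.ord (ffd_jBar (M * q)) := by
    rw [hα, s36u_alpha_jBar]
  rcases hcentre with ⟨c, hc⟩ | hpole
  · -- compare the two orders of `j - c`
    have h1 := s36u_ord_j_sub M h2 h3 v' c hc
    have h4 : α (ffd_jBar M - algebraMap Kb (ffi_F M) c) =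
        ffd_jBar (M * q) - algebraMap Kb (ffi_F (M * q)) c := by
      rw [map_sub, AlgHom.commutes, hα, s36u_alpha_jBar]
    have h5 := hord (ffd_jBar M - algebraMap Kb (ffi_F M) c)
    rw [h4] at h5
    have hpos : 0 < v.ord (ffd_jBar (M * q) - algebraMap Kb (ffi_F (M * q)) c) := by
      rw [h5]; positivity
    have h6 := s36u_ord_j_sub (M * q) (s36u_nuTwo_mul M q h2) (s36u_nuThree_mul M q h3) v c hpos
    have he1 : (e : ℤ) = 1 := by
      rw [h6, h1] at h5
      split_ifs at h5 <;> nlinarith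
    refine ⟨v', fun f => ?_⟩
    rw [hord f, he1, one_mul]
  · exfalso
    have := hord (ffd_jBar M)
    rw [hj] at this
    have h7 : (e : ℤ) * v'.ord (ffd_jBar M) < 0 := by
      have : (0 : ℤ) < e := by exact_mod_cast hepos
      nlinarith
    omega

/-- **(U3) `β̄ : F̄(M) → F̄(M q)` is unramified outside the cusps** when `ν₂(M) = ν₃(M) = 0`
(`q` prime, `q ∤ M`): at a place `v` of `F̄(M q)` where `β̄ j = j(q^q)` is regular, the restriction
`v'` of `v` along `β̄` has `ord_v (β̄ f) = ord_{v'} f`. -/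
theorem s36u_beta_unram (hq : q.Prime) (hqM : ¬ q ∣ M) (h2 : nuTwo M = 0) (h3 : nuThree M = 0)
    (v : Place Kb (ffi_F (M * q))) (hv : 0 ≤ v.ord (heckeBetaBar Kb M q (ffd_jBar M))) :
    ∃ v' : Place Kb (ffi_F M), ∀ f : ffi_F M, v.ord (heckeBetaBar Kb M q f) = v'.ord f := by
  -- transport along the Atkin–Lehner involution `w̄`, `w̄ ∘ ᾱ = β̄`
  set w := s37w_al M q hq hqM with hw
  have hwint : ((w : ffi_F (M * q) ≃ₐ[Kb] ffi_F (M * q)) :
      ffi_F (M * q) →ₐ[Kb] ffi_F (M * q)).toRingHom.IsIntegral :=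
    s37h_isIntegral_of_finiteAlong _ (s36w_finiteAlong _)
  set v₁ : Place Kb (ffi_F (M * q)) :=
    v.restrictAlong (w : ffi_F (M * q) →ₐ[Kb] ffi_F (M * q)) hwint with hv₁
  have hw1 : ∀ g : ffi_F (M * q), v.ord (w g) = v₁.ord g := by
    intro g
    have := Place.ord_restrictAlong (w : ffi_F (M * q) →ₐ[Kb] ffi_F (M * q)) hwint v g
    rw [s36u_ramIdx_algEquiv w hwint v] at this
    simpa using this
  have hβ : ∀ f : ffi_F M, v.ord (heckeBetaBar Kb M q f) = v₁.ord (heckeAlphaBar Kb M q f) := by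
    intro f
    rw [← s37w_al_alpha M q hq hqM f]
    exact hw1 _
  have hv1 : 0 ≤ v₁.ord (ffd_jBar (M * q)) := by
    rw [← s36u_alpha_jBar M q, ← hβ]
    exact hv
  obtain ⟨v', hv'⟩ := s36u_alpha_unram M q h2 h3 v₁ hv1
  exact ⟨v', fun f => by rw [hβ f, hv' f]⟩

end Fermat.Agent.Lib.S36
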