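/-
S36 mega-project, sub-layer (R-mid) (helper2, prefix `s36e_`), part 3: THE FUNCTION
`Θ = dlog(j_q) / dlog(j)` OVER `Q̄` HAS NEITHER ZERO NOR POLE AWAY FROM `j, j_q ∈ {0, 1728}`.

`F̄ = ffi_F (M q)` the function field of `X₀(M q)` over `Kb = Q̄`, `j = ffd_jBar (M q)`,
`j_q = β̄ j = heckeBetaBar Kb M q (ffd_jBar M)` (`= j(T^q)`), `ν₂(M) = ν₃(M) = 0`.  If `h ∈ F̄` is the
function with `d j_q = h • d j` in `Ω[F̄/Kb]`, then at every place `v` of `F̄` which is not a zero of
`j`, `j - 1728`, `j_q`, `j_q - 1728`: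

  `ord_v (h * j / j_q) = 0`            (`s36e_theta_log_ord`, cusps INCLUDED),
  `ord_v h = 0` if moreover `j` is regular at `v`   (`s36e_theta_ord`).

Proof: (U1) `s36u_ord_j_sub` (all `j`-centres `c ≠ 0, 1728` are unramified) at `v` and at its
Atkin–Lehner transform, helper1's `s36u_cusp_type` (a pole of `j` is a pole of `j_q`), and the order
of exact differentials `ffd_ordDifferential_smul_D` (S24, `Lib/FF/Differential.lean`).
-/
import Fermat.Agent.Lib.S36.RUnramQ
import Fermat.Agent.Lib.S36.RCusp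
import Fermat.Agent.Lib.FF.Differential

set_option autoImplicit false
set_option linter.unusedSectionVars false
set_option linter.style.haveILetI false

noncomputable section

namespace Fermat.Agent.Lib.S36

open AlgebraicCurve ModularCurve KaehlerDifferential
open Fermat.Agent.Lib.FF Fermat.Agent.Lib.S18 Fermat.Agent.Lib.S37

local notation "Kb" => AlgebraicClosure ℚ

/-! ### Generalities on `ord` -/

section General

variable {K F : Type*} [Field K] [Field F] [Algebra K F]

/-- `ord (a + b) = ord b` if `ord b < ord a`. -/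
theorem s36e_ord_add_eq (v : Place K F) {a b : F} (ha : a ≠ 0) (hb : b ≠ 0)
    (hlt : v.ord b < v.ord a) : v.ord (a + b) = v.ord b := by
  have hab : a + b ≠ 0 := by
    intro h
    have : a = -b := eq_neg_of_add_eq_zero_left h
    rw [this, ffh_ord_neg] at hlt
    exact lt_irrefl _ hlt
  have h1 := ffh_ord_add_ge v ha hb hab
  have h2 : min (v.ord (a + b)) (v.ord (-a)) ≤ v.ord (a + b + -a) :=
    ffh_ord_add_ge v hab (neg_ne_zero.mpr ha) (by rw [add_neg_cancel_comm]; exact hb)
  rw [add_neg_cancel_comm, ffh_ord_neg] at h2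
  have h3 : v.ord b ≤ v.ord (a + b) := by
    rw [min_eq_right hlt.le] at h1; exact h1
  by_contra hne
  have h4 : v.ord b < v.ord (a + b) := lt_of_le_of_ne h3 (Ne.symm hne)
  have h5 : v.ord b < min (v.ord (a + b)) (v.ord a) := lt_min h4 hlt
  omega

/-- a function with centre `c ≠ 0` at `v` is a unit at `v`. -/
theorem s36e_ord_eq_zero_of_centre (v : Place K F) {x : F} {c : K} (hc : c ≠ 0)
    (hpos : 0 < v.ord (x - algebraMap K F c)) : v.ord x = 0 := by
  have hc' : algebraMap K F c ≠ 0 := (map_ne_zero _).mpr hc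
  have h0 : x - algebraMap K F c ≠ 0 := by
    intro h
    rw [h, Place.ord_zero] at hpos
    exact lt_irrefl _ hpos
  have hordc : v.ord (algebraMap K F c) = 0 := ffh_ord_algebraMap v hc
  have := s36e_ord_add_eq v h0 hc' (by rw [hordc]; exact hpos)
  rwa [sub_add_cancel, hordc] at this

variable [CharZero K]

/-- **Order of a ratio of exact differentials**: if `d u₁ = h • d u₂` and `u₁`, `u₂` have nonzero
order at `v`, then `ord_v h = ord_v u₁ - ord_v u₂`. -/
theorem s36e_ord_ratio_D (v : Place K F) [Algebra.EssFiniteType K v.toValuationSubring]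
    (hres : Function.Surjective (algebraMap K v.ResidueField)) [Nontrivial Ω[F⁄K]]
    {u₁ u₂ h : F} (hrel : D K F u₁ = h • D K F u₂) (hh : h ≠ 0)
    (h1 : v.ord u₁ ≠ 0) (h2 : v.ord u₂ ≠ 0) :
    v.ord h = v.ord u₁ - v.ord u₂ := by
  have e1 := ffd_ordDifferential_smul_D v hres (one_ne_zero (α := F)) h1
  have e2 := ffd_ordDifferential_smul_D v hres hh h2
  rw [one_smul, hrel, e2, v.ord_one] at e1
  omega

end General

/-! ### The modular statement -/

section Modular

variable (M q : ℕ) [NeZero M] [NeZero q]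

/-- transport of orders along the Atkin–Lehner involution of level `M q`. -/
theorem s36e_exists_al_place (hq : q.Prime) (hqM : ¬ q ∣ M) (v : Place Kb (ffi_F (M * q))) :
    ∃ v₁ : Place Kb (ffi_F (M * q)), ∀ g : ffi_F (M * q),
      v.ord (s37w_al M q hq hqM g) = v₁.ord g := by
  set w := s37w_al M q hq hqM with hw
  have hwint : ((w : ffi_F (M * q) ≃ₐ[Kb] ffi_F (M * q)) :
      ffi_F (M * q) →ₐ[Kb] ffi_F (M * q)).toRingHom.IsIntegral :=
    s37h_isIntegral_of_finiteAlong _ (s36w_finiteAlong _)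
  refine ⟨v.restrictAlong (w : ffi_F (M * q) →ₐ[Kb] ffi_F (M * q)) hwint, fun g => ?_⟩
  have := Place.ord_restrictAlong (w : ffi_F (M * q) →ₐ[Kb] ffi_F (M * q)) hwint v g
  rw [s36u_ramIdx_algEquiv w hwint v] at this
  simpa using this

/-- **`Θ^{log} = dlog(j_q)/dlog(j)` has neither zero nor pole** at the places which are not zeros of
`j`, `j - 1728`, `j_q`, `j_q - 1728` (cusps included). -/
theorem s36e_theta_log_ord (hq : q.Prime) (hqM : ¬ q ∣ M) (h2 : nuTwo M = 0) (h3 : nuThree M = 0)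
    (h : ffi_F (M * q)) (hh : h ≠ 0)
    (hrel : D Kb (ffi_F (M * q)) (heckeBetaBar Kb M q (ffd_jBar M)) =
      h • D Kb (ffi_F (M * q)) (ffd_jBar (M * q)))
    (v : Place Kb (ffi_F (M * q)))
    (hA0 : ¬ 0 < v.ord (ffd_jBar (M * q)))
    (hA1 : ¬ 0 < v.ord (ffd_jBar (M * q) - algebraMap Kb (ffi_F (M * q)) 1728))
    (hB0 : ¬ 0 < v.ord (heckeBetaBar Kb M q (ffd_jBar M)))
    (hB1 : ¬ 0 < v.ord (heckeBetaBar Kb M q (ffd_jBar M) -
      algebraMap Kb (ffi_F (M * q)) 1728)) :
    v.ord (h * ffd_jBar (M * q) / heckeBetaBar Kb M q (ffd_jBar M)) = 0 ∧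
      (0 ≤ v.ord (ffd_jBar (M * q)) → v.ord h = 0) := by
  set jA : ffi_F (M * q) := ffd_jBar (M * q) with hjA
  set jB : ffi_F (M * q) := heckeBetaBar Kb M q (ffd_jBar M) with hjB
  have hgen : FFGen ffi_K (ffd_jBar (M * q)) := s18r_ffGen (M * q)
  obtain ⟨hEFT, hres⟩ := ff_ifaceLocal ffi_K (ffd_jBar (M * q)) v
  haveI := hEFT
  haveI : Nontrivial Ω[ffi_F (M * q)⁄Kb] := ⟨⟨_, 0, ffd_D_jBar_ne_zero (M * q)⟩⟩
  have h2' := s36u_nuTwo_mul M q h2
  have h3' := s36u_nuThree_mul M q h3
  -- the Atkin–Lehner transform of `v`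
  obtain ⟨v₁, hv₁⟩ := s36e_exists_al_place M q hq hqM v
  have hwA : s37w_al M q hq hqM jA = jB := by
    rw [hjA, ← s36u_alpha_jBar M q, s37w_al_alpha]
  have hwB : s37w_al M q hq hqM jB = jA := by
    rw [hjB, s37w_al_beta, s36u_alpha_jBar]
  have hv₁A : v₁.ord jA = v.ord jB := by rw [← hv₁, hwA]
  have hv₁B : v₁.ord jB = v.ord jA := by rw [← hv₁, hwB]
  have hjA0 : jA ≠ 0 := by
    intro h0
    have := ffd_D_jBar_ne_zero (M * q)
    rw [← hjA, h0, map_zero] at this
    exact this rfl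
  have hjB0 : jB ≠ 0 := by
    intro h0
    apply hjA0
    rw [← hwB, h0, map_zero]
  have hqpos : (0 : ℤ) < q := by exact_mod_cast (NeZero.pos q)
  rcases ff_ifaceCentre ffi_K (ffd_jBar (M * q)) v with ⟨c, hc⟩ | hpole
  · -- `j` is regular at `v`, with centre `c ≠ 0, 1728`
    have hc0 : c ≠ 0 := by
      rintro rfl
      rw [map_zero, sub_zero] at hc
      exact hA0 hc
    have hc1 : c ≠ 1728 := by
      rintro rfl
      exact hA1 hc
    have hordA : v.ord (jA - algebraMap Kb (ffi_F (M * q)) c) = 1 := by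
      have := s36u_ord_j_sub (M * q) h2' h3' v c hc
      rwa [if_neg hc0, if_neg hc1] at this
    have hA : v.ord jA = 0 := s36e_ord_eq_zero_of_centre v hc0 hc
    -- `j_q` is regular at `v`
    have hBreg : ¬ v.ord jB < 0 := by
      intro hneg
      have h1 : v₁.ord jA < 0 := by rw [hv₁A]; exact hneg
      have h4 := (s36u_cusp_type M q hq hqM v₁ h1).2
      have h5 : v₁.ord jB < 0 := by
        rw [← hjB, ← hjA] at h4
        nlinarith
      rw [hv₁B, hA] at h5
      exact lt_irrefl _ h5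
    rcases ff_ifaceCentre ffi_K (ffd_jBar (M * q)) v₁ with ⟨c', hc'⟩ | hpole'
    · have hc'v : v.ord (jB - algebraMap Kb (ffi_F (M * q)) c') =
          v₁.ord (jA - algebraMap Kb (ffi_F (M * q)) c') := by
        rw [← hv₁, map_sub, hwA, AlgEquiv.commutes]
      have hc'0 : c' ≠ 0 := by
        rintro rfl
        simp only [map_zero, sub_zero] at hc'v hc'
        exact hB0 (by rw [hc'v]; exact hc')
      have hc'1 : c' ≠ 1728 := by
        rintro rfl
        exact hB1 (by rw [hc'v]; exact hc')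
      have hordB : v.ord (jB - algebraMap Kb (ffi_F (M * q)) c') = 1 := by
        rw [hc'v]
        have := s36u_ord_j_sub (M * q) h2' h3' v₁ c' hc'
        rwa [if_neg hc'0, if_neg hc'1] at this
      have hB : v.ord jB = 0 :=
        s36e_ord_eq_zero_of_centre v hc'0 (by rw [hordB]; exact one_pos)
      have hrel' : D Kb (ffi_F (M * q)) (jB - algebraMap Kb (ffi_F (M * q)) c') =
          h • D Kb (ffi_F (M * q)) (jA - algebraMap Kb (ffi_F (M * q)) c) := by
        rw [ffd_D_sub_algebraMap, ffd_D_sub_algebraMap]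
        exact hrel
      have hordh := s36e_ord_ratio_D v hres hrel' hh (by rw [hordB]; exact one_ne_zero)
        (by rw [hordA]; exact one_ne_zero)
      rw [hordA, hordB, sub_self] at hordh
      refine ⟨?_, fun _ => hordh⟩
      rw [div_eq_mul_inv, v.ord_mul (mul_ne_zero hh hjA0) (inv_ne_zero hjB0), v.ord_mul hh hjA0,
        v.ord_inv, hordh, hA, hB]
      rfl
    · exfalso
      rw [hv₁A] at hpole'
      exact hBreg hpole'
  · -- a cusp
    have hct := (s36u_cusp_type M q hq hqM v hpole).2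
    have hBneg : v.ord jB < 0 := by
      rw [← hjB, ← hjA] at hct
      nlinarith
    have hordh := s36e_ord_ratio_D v hres hrel hh (ne_of_lt hBneg) (ne_of_lt hpole)
    refine ⟨?_, fun hreg => absurd hpole (not_lt.mpr hreg)⟩
    rw [div_eq_mul_inv, v.ord_mul (mul_ne_zero hh hjA0) (inv_ne_zero hjB0), v.ord_mul hh hjA0,
      v.ord_inv, hordh]
    ring

end Modular

end Fermat.Agent.Lib.S36
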