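/-
S36 (lead): the FUNDAMENTAL (IN)EQUALITY `∑ e f ≤ n` in the two cases used at level `q²N'`,
for valuation subrings, Mathlib only.

`i : F₁ →+* F₂` a field extension generated as an `F₁`-vector space by `n` elements,
`O` a discrete valuation subring of `F₁` with uniformiser `ϖ` (`hdvr`), valuation subrings of `F₂`
*over* `O` (`U.comap i = O`).

Part A/B (general): `s36c_arch` (a non-unit of an extension `U` of `O` has a power divisible by
`ϖ`), `s36c_bounded` (every element of `F₂` has a `ϖ`-multiple in `U`), `s36c_eq_of_le`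
(extensions of `O` are pairwise incomparable).
Part C (`s36c_fund`): two distinct extensions `V ≠ W`, `t ∈ 𝔪_V ∩ W` with `ϖ = unit · t ^ e`,
`n = e + 1`  ⇒  `V, W` are ALL extensions, `V = O + tV` (so `f = 1`, uniformiser `t`, `e(V) = e`),
`W = O + ϖW` (`e = f = 1`), and `V ∩ W` is `O`-free on `(1 - y) t^k (k < e), y`.
Part D (`s36c_fund_insep`): ONE extension `V` with residue degree `≥ n`  ⇒  `V` is the only
extension, `V = ⊕ O·y₀^k`, `ϖ` is a uniformiser of `V`.
-/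
import Mathlib

set_option autoImplicit false

namespace Fermat.Agent.Lib.S36

open Polynomial

variable {F₁ F₂ : Type*} [Field F₁] [Field F₂]

/-! ### Part A: the discrete valuation ring `O` -/

/-- `ϖ` is a uniformiser of the valuation subring `O`. -/
def s36c_IsUnif (O : ValuationSubring F₁) (ϖ : F₁) : Prop :=
  ϖ ∈ O ∧ ϖ⁻¹ ∉ O ∧ ∀ x : F₁, x ≠ 0 → ∃ (n : ℤ) (u : F₁), u ∈ O ∧ u⁻¹ ∈ O ∧ x = ϖ ^ n * u

theorem s36c_unif_ne_zero {O : ValuationSubring F₁} {ϖ : F₁} (h : s36c_IsUnif O ϖ) : ϖ ≠ 0 := by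
  rintro rfl
  exact h.2.1 (by rw [inv_zero]; exact O.zero_mem)

/-- A non-unit of `O` is divisible by `ϖ`. -/
theorem s36c_nonunit_eq_mul {O : ValuationSubring F₁} {ϖ : F₁} (h : s36c_IsUnif O ϖ) (a : F₁)
    (hna : a = 0 ∨ a⁻¹ ∉ O) (ha : a ∈ O) : ∃ a' ∈ O, a = ϖ * a' := by
  have hϖ0 := s36c_unif_ne_zero h
  by_cases ha0 : a = 0
  · exact ⟨0, O.zero_mem, by rw [ha0, mul_zero]⟩
  have hinv : a⁻¹ ∉ O := by
    rcases hna with h0 | h0
    · exact absurd h0 ha0
    · exact h0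
  obtain ⟨n, u, hu, hu', e⟩ := h.2.2 a ha0
  by_cases hn : 1 ≤ n
  · refine ⟨ϖ ^ (n - 1) * u, mul_mem ?_ hu, ?_⟩
    · obtain ⟨k, hk⟩ := Int.eq_ofNat_of_zero_le (by omega : 0 ≤ n - 1)
      rw [hk, zpow_natCast]
      exact pow_mem h.1 k
    · have h1 : ϖ * ϖ ^ (n - 1) = ϖ ^ n := by
        rw [← zpow_one_add₀ hϖ0]
        congr 1
        ring
      rw [e, ← mul_assoc, h1]
  · exfalso
    apply hinv
    have : a⁻¹ = ϖ ^ (-n) * u⁻¹ := by
      rw [e, mul_inv, zpow_neg]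
    rw [this]
    refine mul_mem ?_ hu'
    obtain ⟨k, hk⟩ := Int.eq_ofNat_of_zero_le (by omega : 0 ≤ -n)
    rw [hk, zpow_natCast]
    exact pow_mem h.1 k

/-- A nonzero element of `O` is `ϖ ^ n * unit` with `n : ℕ`. -/
theorem s36c_mem_eq_pow_mul {O : ValuationSubring F₁} {ϖ : F₁} (h : s36c_IsUnif O ϖ) (a : F₁)
    (ha0 : a ≠ 0) (ha : a ∈ O) : ∃ (n : ℕ) (u : F₁), u ≠ 0 ∧ u ∈ O ∧ u⁻¹ ∈ O ∧ a = ϖ ^ n * u := by
  have hϖ0 := s36c_unif_ne_zero h
  obtain ⟨n, u, hu, hu', e⟩ := h.2.2 a ha0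
  have hu0 : u ≠ 0 := by
    rintro rfl
    rw [mul_zero] at e
    exact ha0 e
  by_cases hn : 0 ≤ n
  · obtain ⟨k, hk⟩ := Int.eq_ofNat_of_zero_le hn
    exact ⟨k, u, hu0, hu, hu', by rw [e, hk, zpow_natCast]⟩
  · exfalso
    apply h.2.1
    have : ϖ⁻¹ = a * u⁻¹ * ϖ ^ (-n - 1) := by
      have h1 : ϖ ^ n * ϖ ^ (-n - 1) = ϖ⁻¹ := by
        rw [← zpow_add₀ hϖ0, ← zpow_neg_one]
        congr 1
        ring
      rw [e, ← h1]
      field_simp
    rw [this]
    refine mul_mem (mul_mem ha hu') ?_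
    obtain ⟨k, hk⟩ := Int.eq_ofNat_of_zero_le (by omega : 0 ≤ -n - 1)
    rw [hk, zpow_natCast]
    exact pow_mem h.1 k

/-- Scaling a nonzero finite family of `F₁` into `O` with one coefficient equal to `1`. -/
theorem s36c_scale (O : ValuationSubring F₁) {ι : Type*} (s : Finset ι) (c : ι → F₁)
    (hc : ∃ k ∈ s, c k ≠ 0) :
    ∃ l : F₁, l ≠ 0 ∧ (∀ k ∈ s, l * c k ∈ O) ∧ ∃ k ∈ s, l * c k = 1 := by
  obtain ⟨k₁, hk₁, hk₁0⟩ := hc
  obtain ⟨k₀, hk₀, hmax⟩ := Finset.exists_max_image s (fun k => O.valuation (c k)) ⟨k₁, hk₁⟩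
  have hk₀0 : c k₀ ≠ 0 := by
    intro h0
    have h1 := hmax k₁ hk₁
    rw [h0, map_zero] at h1
    exact hk₁0 ((_root_.map_eq_zero _).mp (le_antisymm h1 zero_le))
  refine ⟨(c k₀)⁻¹, inv_ne_zero hk₀0, fun k hk => ?_, k₀, hk₀, inv_mul_cancel₀ hk₀0⟩
  rw [← O.valuation_le_one_iff, map_mul, map_inv₀]
  have h1 := hmax k hk
  have hpos : (0 : O.ValueGroup) < O.valuation (c k₀) := by
    rw [zero_lt_iff]
    exact (_root_.map_ne_zero _).mpr hk₀0
  rw [inv_mul_le_iff₀ hpos, mul_one]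
  exact h1

/-! ### Part B: extensions of `O` to an algebraic extension -/

/-- `U` is a valuation subring of `F₂` over `O` (along `i`). -/
def s36c_Over (i : F₁ →+* F₂) (O : ValuationSubring F₁) (U : ValuationSubring F₂) : Prop :=
  U.comap i = O

section Over

variable {i : F₁ →+* F₂} {O : ValuationSubring F₁} {U : ValuationSubring F₂}

theorem s36c_over_mem (hU : s36c_Over i O U) {a : F₁} : i a ∈ U ↔ a ∈ O := by
  unfold s36c_Over at hU
  rw [← hU, ValuationSubring.mem_comap]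

theorem s36c_over_val_le (hU : s36c_Over i O U) {a : F₁} (ha : a ∈ O) :
    U.valuation (i a) ≤ 1 :=
  (U.valuation_le_one_iff _).mpr ((s36c_over_mem hU).mpr ha)

theorem s36c_over_val_unit (hU : s36c_Over i O U) {a : F₁} (ha0 : a ≠ 0) (ha : a ∈ O)
    (ha' : a⁻¹ ∈ O) : U.valuation (i a) = 1 := by
  apply le_antisymm (s36c_over_val_le hU ha)
  have h1 := s36c_over_val_le hU ha'
  rw [map_inv₀, map_inv₀] at h1
  have h0 : U.valuation (i a) ≠ 0 := (_root_.map_ne_zero _).mpr ((_root_.map_ne_zero i).mpr ha0)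
  have hpos : (0 : U.ValueGroup) < U.valuation (i a) := zero_lt_iff.mpr h0
  rwa [inv_le_one₀ hpos] at h1

theorem s36c_over_val_unif_lt (hU : s36c_Over i O U) {ϖ : F₁} (h : s36c_IsUnif O ϖ) :
    U.valuation (i ϖ) < 1 := by
  rw [← ValuationSubring.mem_nonunits_iff, ValuationSubring.mem_nonunits_iff_or]
  right
  rw [← map_inv₀, s36c_over_mem hU]
  exact h.2.1

theorem s36c_over_val_unif_ne_zero {ϖ : F₁} (h : s36c_IsUnif O ϖ) :
    U.valuation (i ϖ) ≠ 0 :=
  (_root_.map_ne_zero _).mpr ((_root_.map_ne_zero i).mpr (s36c_unif_ne_zero h))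

/-- The valuation of a non-unit of `O` is at most that of `ϖ`. -/
theorem s36c_over_val_nonunit_le (hU : s36c_Over i O U) {ϖ : F₁} (h : s36c_IsUnif O ϖ)
    {a : F₁} (ha : a ∈ O) (hna : a = 0 ∨ a⁻¹ ∉ O) : U.valuation (i a) ≤ U.valuation (i ϖ) := by
  obtain ⟨a', ha', e⟩ := s36c_nonunit_eq_mul h a hna ha
  rw [e, map_mul, map_mul]
  exact mul_le_of_le_one_right zero_le (s36c_over_val_le hU ha')

/-- **Archimedean property**: a non-unit `z` of an extension `U` of `O`, algebraic over `F₁`, has a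
power divisible by `ϖ` in `U`. -/
theorem s36c_arch (hU : s36c_Over i O U) {ϖ : F₁} (h : s36c_IsUnif O ϖ) (z : F₂)
    (hz : U.valuation z < 1) (hzalg : ∃ p : F₁[X], p ≠ 0 ∧ p.eval₂ i z = 0) :
    ∃ N : ℕ, U.valuation (z ^ N) ≤ U.valuation (i ϖ) := by
  classical
  obtain ⟨p, hp0, hpz⟩ := hzalg
  rw [Polynomial.eval₂_eq_sum_range] at hpz
  set s := Finset.range (p.natDegree + 1) with hs
  obtain ⟨l, hl0, hlO, k₀, hk₀, hk₀1⟩ := s36c_scale O s p.coeff
    ⟨p.natDegree, by rw [hs]; exact Finset.self_mem_range_succ _,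
      by rw [Polynomial.coeff_natDegree]; exact Polynomial.leadingCoeff_ne_zero.mpr hp0⟩
  set a : ℕ → F₁ := fun k => l * p.coeff k with ha
  have hsum : ∑ k ∈ s, i (a k) * z ^ k = 0 := by
    have : ∑ k ∈ s, i (a k) * z ^ k = i l * ∑ k ∈ s, i (p.coeff k) * z ^ k := by
      rw [Finset.mul_sum]
      apply Finset.sum_congr rfl
      intro k _
      rw [ha]
      simp only [map_mul]
      ring
    rw [this, hpz, mul_zero]
  set S' := s.filter (fun k => U.valuation (i (a k)) = 1) with hS'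
  have hS'ne : S'.Nonempty := ⟨k₀, by
    rw [hS', Finset.mem_filter]
    refine ⟨hk₀, ?_⟩
    show U.valuation (i (l * p.coeff k₀)) = 1
    rw [hk₀1, map_one, map_one]⟩
  set j₀ := S'.min' hS'ne with hj₀
  have hj₀S' : j₀ ∈ S' := Finset.min'_mem S' hS'ne
  have hj₀s : j₀ ∈ s := (Finset.mem_filter.mp hj₀S').1
  have hj₀1 : U.valuation (i (a j₀)) = 1 := (Finset.mem_filter.mp hj₀S').2
  refine ⟨j₀, ?_⟩
  by_contra hcon
  rw [not_le, map_pow] at hcon
  have hpos : (0 : U.ValueGroup) < U.valuation z ^ j₀ := lt_of_le_of_lt zero_le hcon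
  have hT0 : U.valuation (i (a j₀) * z ^ j₀) = U.valuation z ^ j₀ := by
    rw [map_mul, hj₀1, one_mul, map_pow]
  have hlt : ∀ k ∈ s.erase j₀, U.valuation (i (a k) * z ^ k) < U.valuation z ^ j₀ := by
    intro k hk
    obtain ⟨hkne, hks⟩ := Finset.mem_erase.mp hk
    have hakO : a k ∈ O := hlO k hks
    have hzk : U.valuation z ^ k ≤ 1 := pow_le_one₀ zero_le hz.le
    rw [map_mul, map_pow]
    rcases lt_or_gt_of_ne hkne with hlt | hgt
    · -- `k < j₀`: the coefficient is a non-unit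
      have hnot : U.valuation (i (a k)) ≠ 1 := by
        intro h1
        have : k ∈ S' := by
          rw [hS', Finset.mem_filter]; exact ⟨hks, h1⟩
        have := Finset.min'_le S' k this
        omega
      have hna : a k = 0 ∨ (a k)⁻¹ ∉ O := by
        by_cases h0 : a k = 0
        · exact Or.inl h0
        · right
          intro hinv
          exact hnot (s36c_over_val_unit hU h0 hakO hinv)
      calc U.valuation (i (a k)) * U.valuation z ^ k
          ≤ U.valuation (i ϖ) * 1 :=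
            mul_le_mul' (s36c_over_val_nonunit_le hU h hakO hna) hzk
        _ = U.valuation (i ϖ) := mul_one _
        _ < U.valuation z ^ j₀ := hcon
    · -- `k > j₀`
      have h1 : U.valuation z ^ k = U.valuation z ^ j₀ * U.valuation z ^ (k - j₀) := by
        rw [← pow_add]; congr 1; omega
      have h2 : U.valuation z ^ (k - j₀) < 1 :=
        pow_lt_one₀ zero_le hz (by omega)
      calc U.valuation (i (a k)) * U.valuation z ^ k
          ≤ 1 * U.valuation z ^ k := mul_le_mul' (s36c_over_val_le hU hakO) le_rfl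
        _ = U.valuation z ^ j₀ * U.valuation z ^ (k - j₀) := by rw [one_mul, h1]
        _ < U.valuation z ^ j₀ * 1 := by
            exact mul_lt_mul_of_pos_left h2 hpos
        _ = U.valuation z ^ j₀ := mul_one _
  have hrest : U.valuation (∑ k ∈ s.erase j₀, i (a k) * z ^ k) < U.valuation z ^ j₀ :=
    Valuation.map_sum_lt _ hpos.ne' hlt
  have hsplit : i (a j₀) * z ^ j₀ + ∑ k ∈ s.erase j₀, i (a k) * z ^ k = 0 := by
    rw [Finset.add_sum_erase s (fun k => i (a k) * z ^ k) hj₀s]; exact hsum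
  have := Valuation.map_add_eq_of_lt_left U.valuation (x := i (a j₀) * z ^ j₀)
    (y := ∑ k ∈ s.erase j₀, i (a k) * z ^ k) (by rw [hT0]; exact hrest)
  rw [hsplit, map_zero, hT0] at this
  exact hpos.ne this

/-- **Boundedness**: every algebraic element of `F₂` has a `ϖ`-power multiple in `U`. -/
theorem s36c_bounded (hU : s36c_Over i O U) {ϖ : F₁} (h : s36c_IsUnif O ϖ) (z : F₂)
    (halg : ∀ z : F₂, ∃ p : F₁[X], p ≠ 0 ∧ p.eval₂ i z = 0) :
    ∃ M : ℕ, U.valuation (i ϖ ^ M * z) ≤ 1 := by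
  classical
  by_cases hz : U.valuation z ≤ 1
  · exact ⟨0, by simpa using hz⟩
  rw [not_le] at hz
  have hz0 : z ≠ 0 := by
    rintro rfl
    rw [map_zero] at hz
    exact absurd hz (by simp)
  set x := z⁻¹ with hx
  have hx0 : x ≠ 0 := inv_ne_zero hz0
  have hvx0 : U.valuation x ≠ 0 := (_root_.map_ne_zero _).mpr hx0
  have hvxpos : (0 : U.ValueGroup) < U.valuation x := zero_lt_iff.mpr hvx0
  have hvx : U.valuation x < 1 := by
    rw [hx, map_inv₀]
    exact inv_lt_one_of_one_lt₀ hz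
  obtain ⟨p, hp0, hpx⟩ := halg x
  rw [Polynomial.eval₂_eq_sum_range] at hpx
  set s := Finset.range (p.natDegree + 1) with hs
  obtain ⟨l, hl0, hlO, -⟩ := s36c_scale O s p.coeff
    ⟨p.natDegree, by rw [hs]; exact Finset.self_mem_range_succ _,
      by rw [Polynomial.coeff_natDegree]; exact Polynomial.leadingCoeff_ne_zero.mpr hp0⟩
  set a : ℕ → F₁ := fun k => l * p.coeff k with ha
  have hsum : ∑ k ∈ s, i (a k) * x ^ k = 0 := by
    have : ∑ k ∈ s, i (a k) * x ^ k = i l * ∑ k ∈ s, i (p.coeff k) * x ^ k := by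
      rw [Finset.mul_sum]
      apply Finset.sum_congr rfl
      intro k _
      rw [ha]
      simp only [map_mul]
      ring
    rw [this, hpx, mul_zero]
  set S' := s.filter (fun k => a k ≠ 0) with hS'
  have hS'ne : S'.Nonempty := ⟨p.natDegree, by
    rw [hS', Finset.mem_filter]
    refine ⟨by rw [hs]; exact Finset.self_mem_range_succ _, ?_⟩
    show l * p.coeff p.natDegree ≠ 0
    rw [Polynomial.coeff_natDegree]
    exact mul_ne_zero hl0 (Polynomial.leadingCoeff_ne_zero.mpr hp0)⟩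
  set j₁ := S'.min' hS'ne with hj₁
  have hj₁S' : j₁ ∈ S' := Finset.min'_mem S' hS'ne
  have hj₁s : j₁ ∈ s := (Finset.mem_filter.mp hj₁S').1
  have hj₁0 : a j₁ ≠ 0 := (Finset.mem_filter.mp hj₁S').2
  obtain ⟨n, u, hu0, hu, hu', e⟩ := s36c_mem_eq_pow_mul h (a j₁) hj₁0 (hlO j₁ hj₁s)
  refine ⟨n, ?_⟩
  have hle : ∀ k ∈ s.erase j₁, U.valuation (i (a k) * x ^ k) ≤ U.valuation x ^ (j₁ + 1) := by
    intro k hk
    obtain ⟨hkne, hks⟩ := Finset.mem_erase.mp hk
    by_cases hak : a k = 0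
    · rw [hak, map_zero, zero_mul, map_zero]; exact zero_le
    have hkS' : k ∈ S' := by rw [hS', Finset.mem_filter]; exact ⟨hks, hak⟩
    have hge : j₁ ≤ k := Finset.min'_le S' k hkS'
    have hgt : j₁ + 1 ≤ k := by omega
    rw [map_mul, map_pow]
    calc U.valuation (i (a k)) * U.valuation x ^ k
        ≤ 1 * U.valuation x ^ k := mul_le_mul' (s36c_over_val_le hU (hlO k hks)) le_rfl
      _ = U.valuation x ^ k := one_mul _
      _ ≤ U.valuation x ^ (j₁ + 1) := pow_le_pow_of_le_one zero_le hvx.le hgt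
  have hsplit : i (a j₁) * x ^ j₁ = -∑ k ∈ s.erase j₁, i (a k) * x ^ k := by
    have := Finset.add_sum_erase s (fun k => i (a k) * x ^ k) hj₁s
    rw [hsum] at this
    exact eq_neg_of_add_eq_zero_left this
  have h1 : U.valuation (i (a j₁) * x ^ j₁) ≤ U.valuation x ^ (j₁ + 1) := by
    rw [hsplit, Valuation.map_neg]
    exact Valuation.map_sum_le _ hle
  rw [map_mul, map_pow, pow_succ] at h1
  have h2 : U.valuation (i (a j₁)) ≤ U.valuation x := by
    have hxj : (0 : U.ValueGroup) < U.valuation x ^ j₁ := pow_pos hvxpos _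
    rw [mul_comm (U.valuation x ^ j₁)] at h1
    exact le_of_mul_le_mul_right h1 hxj
  have h3 : U.valuation (i (a j₁)) = U.valuation (i ϖ) ^ n := by
    rw [e, map_mul, map_mul, map_pow, map_pow, s36c_over_val_unit hU hu0 hu hu', mul_one]
  rw [map_mul, map_pow, ← h3]
  have hvz : U.valuation z = (U.valuation x)⁻¹ := by rw [hx, map_inv₀, inv_inv]
  rw [hvz]
  calc U.valuation (i (a j₁)) * (U.valuation x)⁻¹
      ≤ U.valuation x * (U.valuation x)⁻¹ := mul_le_mul' h2 le_rfl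
    _ = 1 := mul_inv_cancel₀ hvx0

/-- **Incomparability**: two extensions of `O` with `V ≤ W` are equal. -/
theorem s36c_eq_of_le {V W : ValuationSubring F₂} (hV : s36c_Over i O V) (hW : s36c_Over i O W)
    {ϖ : F₁} (h : s36c_IsUnif O ϖ)
    (halg : ∀ z : F₂, ∃ p : F₁[X], p ≠ 0 ∧ p.eval₂ i z = 0) (hle : V ≤ W) : V = W := by
  apply le_antisymm hle
  intro z hzW
  by_contra hzV
  have hz0 : z ≠ 0 := by
    rintro rfl
    exact hzV V.zero_mem
  have hvz : 1 < V.valuation z := by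
    rw [← not_le, V.valuation_le_one_iff]; exact hzV
  have hvx : V.valuation z⁻¹ < 1 := by
    rw [map_inv₀]; exact inv_lt_one_of_one_lt₀ hvz
  obtain ⟨N, hN⟩ := s36c_arch hV h z⁻¹ hvx (halg z⁻¹)
  -- `z⁻¹ ^ N / ϖ ∈ V ⊆ W`
  have hϖ0 : i ϖ ≠ 0 := (_root_.map_ne_zero i).mpr (s36c_unif_ne_zero h)
  have hmemV : z⁻¹ ^ N * (i ϖ)⁻¹ ∈ V := by
    rw [← V.valuation_le_one_iff, map_mul, map_inv₀]
    have hpos : (0 : V.ValueGroup) < V.valuation (i ϖ) :=
      zero_lt_iff.mpr ((_root_.map_ne_zero _).mpr hϖ0)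
    rw [mul_inv_le_iff₀ hpos, one_mul]
    exact hN
  have hmemW := hle hmemV
  rw [← W.valuation_le_one_iff, map_mul, map_inv₀, map_pow, map_inv₀] at hmemW
  have hwz : W.valuation z ≤ 1 := (W.valuation_le_one_iff z).mpr hzW
  have hwz0 : W.valuation z ≠ 0 := (_root_.map_ne_zero _).mpr hz0
  have h1 : 1 ≤ (W.valuation z)⁻¹ ^ N := by
    apply one_le_pow₀
    rw [one_le_inv₀ (zero_lt_iff.mpr hwz0)]
    exact hwz
  have h2 : 1 < (W.valuation (i ϖ))⁻¹ := by
    have hlt := s36c_over_val_unif_lt hW h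
    have hpos : (0 : W.ValueGroup) < W.valuation (i ϖ) :=
      zero_lt_iff.mpr ((_root_.map_ne_zero _).mpr hϖ0)
    exact (one_lt_inv₀ hpos).mpr hlt
  have h3 : 1 < (W.valuation z)⁻¹ ^ N * (W.valuation (i ϖ))⁻¹ := by
    calc (1 : W.ValueGroup) = 1 * 1 := (one_mul 1).symm
      _ < (W.valuation z)⁻¹ ^ N * (W.valuation (i ϖ))⁻¹ :=
        mul_lt_mul_of_le_of_lt_of_nonneg_of_pos h1 h2 zero_le (lt_of_lt_of_le one_pos h1)
  exact absurd hmemW (not_le.mpr h3)

end Over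

end Fermat.Agent.Lib.S36
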