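/-
S36 (lead): the fundamental equality, part C (`s36c_fund`): TWO distinct extensions `V ≠ W` of a
discrete valuation subring `O ⊂ F₁` to `F₂ ⊇ F₁` (generated by `e + 1` elements as a vector space),
`t ∈ 𝔪_V ∩ W`, `ϖ = u · t ^ e` with `u ∈ Vˣ`.  Then
* `V, W` are ALL valuation subrings of `F₂` over `O`;
* `V = O + tV` (residue degree 1, uniformiser `t`, ramification index exactly `e`);
* `W = O + ϖW` (unramified of residue degree 1);
* `V ∩ W` is the free `O`-module on `(1 - y) t^k (k < e)` and `y`, where `y ∈ ϖV`, `1 - y ∈ ϖW`.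
See `Lib/S36/CFund.lean` for parts A/B.
-/
import Fermat.Agent.Lib.S36.CFund

set_option autoImplicit false

namespace Fermat.Agent.Lib.S36

open Polynomial

variable {F₁ F₂ : Type*} [Field F₁] [Field F₂]

/-- Algebraicity from a finite spanning family. -/
theorem s36c_halg_of_span (i : F₁ →+* F₂) {n : ℕ} (b : Fin n → F₂)
    (hspan : ∀ y : F₂, ∃ c : Fin n → F₁, y = ∑ k, i (c k) * b k) :
    ∀ z : F₂, ∃ p : F₁[X], p ≠ 0 ∧ p.eval₂ i z = 0 := by
  classical
  letI : Algebra F₁ F₂ := i.toAlgebra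
  have htop : Submodule.span F₁ (Set.range b) = ⊤ := by
    rw [eq_top_iff]
    intro y _
    obtain ⟨c, rfl⟩ := hspan y
    apply Submodule.sum_mem
    intro k _
    have : i (c k) * b k = c k • b k := by
      rw [Algebra.smul_def]; rfl
    rw [this]
    exact Submodule.smul_mem _ _ (Submodule.subset_span ⟨k, rfl⟩)
  have : Module.Finite F₁ F₂ := ⟨⟨Finset.univ.image b, by
    rw [Finset.coe_image, Finset.coe_univ, Set.image_univ]; exact htop⟩⟩
  intro z
  have hz : IsAlgebraic F₁ z := Algebra.IsAlgebraic.isAlgebraic z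
  obtain ⟨p, hp0, hpz⟩ := hz
  refine ⟨p, hp0, ?_⟩
  rw [Polynomial.aeval_def] at hpz
  exact hpz

section Two

variable {i : F₁ →+* F₂} {O : ValuationSubring F₁} {ϖ : F₁} {V W : ValuationSubring F₂}

/-- Basic two-valuation approximation: `y₀ ∈ 𝔪_V`, `1 - y₀ ∈ 𝔪_W`. -/
theorem s36c_approx_basic (h : s36c_IsUnif O ϖ) (hV : s36c_Over i O V) (hW : s36c_Over i O W)
    (hVW : V ≠ W) (halg : ∀ z : F₂, ∃ p : F₁[X], p ≠ 0 ∧ p.eval₂ i z = 0) :
    ∃ y₀ : F₂, V.valuation y₀ < 1 ∧ W.valuation (1 - y₀) < 1 := by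
  have h1 : ¬ V ≤ W := fun hle => hVW (s36c_eq_of_le hV hW h halg hle)
  have h2 : ¬ W ≤ V := fun hle => hVW (s36c_eq_of_le hW hV h halg hle).symm
  obtain ⟨a, haV, haW⟩ := SetLike.not_le_iff_exists.mp h1
  obtain ⟨b, hbW, hbV⟩ := SetLike.not_le_iff_exists.mp h2
  have ha0 : a ≠ 0 := by rintro rfl; exact haW W.zero_mem
  have hb0 : b ≠ 0 := by rintro rfl; exact hbV V.zero_mem
  have hva : V.valuation a ≤ 1 := (V.valuation_le_one_iff a).mpr haV
  have hvb : 1 < V.valuation b := by rw [← not_le, V.valuation_le_one_iff]; exact hbV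
  have hwa : 1 < W.valuation a := by rw [← not_le, W.valuation_le_one_iff]; exact haW
  have hwb : W.valuation b ≤ 1 := (W.valuation_le_one_iff b).mpr hbW
  set y' := a / b with hy'
  have hvy' : V.valuation y' < 1 := by
    rw [hy', map_div₀]
    have hpos : (0 : V.ValueGroup) < V.valuation b := lt_trans one_pos hvb
    rw [div_lt_one₀ hpos]
    exact lt_of_le_of_lt hva hvb
  have hwy' : 1 < W.valuation y' := by
    rw [hy', map_div₀]
    have hpos : (0 : W.ValueGroup) < W.valuation b :=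
      zero_lt_iff.mpr ((_root_.map_ne_zero _).mpr hb0)
    rw [one_lt_div₀ hpos]
    exact lt_of_le_of_lt hwb hwa
  have hv1 : V.valuation (1 + y') = 1 := by
    have := Valuation.map_add_eq_of_lt_left V.valuation (x := 1) (y := y')
      (by rw [map_one]; exact hvy')
    rw [this, map_one]
  have hw1 : W.valuation (1 + y') = W.valuation y' :=
    Valuation.map_add_eq_of_lt_right W.valuation (by rw [map_one]; exact hwy')
  have hne : 1 + y' ≠ 0 := by
    intro h0
    rw [h0, map_zero] at hv1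
    exact zero_ne_one hv1
  refine ⟨y' / (1 + y'), ?_, ?_⟩
  · rw [map_div₀, hv1, div_one]; exact hvy'
  · have : 1 - y' / (1 + y') = (1 + y')⁻¹ := by
      field_simp
      ring
    rw [this, map_inv₀, hw1]
    exact inv_lt_one_of_one_lt₀ hwy'

/-- Two-valuation approximation with precision `ϖ`: `y ∈ ϖV`, `1 - y ∈ ϖW`. -/
theorem s36c_approx (h : s36c_IsUnif O ϖ) (hV : s36c_Over i O V) (hW : s36c_Over i O W)
    (hVW : V ≠ W) (halg : ∀ z : F₂, ∃ p : F₁[X], p ≠ 0 ∧ p.eval₂ i z = 0) :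
    ∃ y : F₂, V.valuation y ≤ V.valuation (i ϖ) ∧ W.valuation (1 - y) ≤ W.valuation (i ϖ) := by
  obtain ⟨y₀, hvy₀, hwx₀⟩ := s36c_approx_basic h hV hW hVW halg
  obtain ⟨a, ha⟩ := s36c_arch hV h y₀ hvy₀ (halg y₀)
  obtain ⟨b, hb⟩ := s36c_arch hW h (1 - y₀) hwx₀ (halg (1 - y₀))
  set g := 1 - y₀ ^ a with hg
  refine ⟨1 - g ^ b, ?_, ?_⟩
  · -- `1 - g^b = (1 - g) * ∑ g^j = y₀^a * ∑ g^j`
    have hvg : V.valuation g ≤ 1 := by
      rw [hg]
      refine le_trans (Valuation.map_sub _ _ _) (max_le (by rw [map_one]) ?_)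
      rw [map_pow]
      exact pow_le_one₀ zero_le hvy₀.le
    have hsum : V.valuation (∑ j ∈ Finset.range b, g ^ j) ≤ 1 := by
      apply Valuation.map_sum_le
      intro j _
      rw [map_pow]
      exact pow_le_one₀ zero_le hvg
    have e1 : 1 - g ^ b = y₀ ^ a * ∑ j ∈ Finset.range b, g ^ j := by
      rw [← mul_neg_geom_sum g b, hg]; ring
    rw [e1, map_mul]
    calc V.valuation (y₀ ^ a) * V.valuation (∑ j ∈ Finset.range b, g ^ j)
        ≤ V.valuation (i ϖ) * 1 := mul_le_mul' ha hsum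
      _ = V.valuation (i ϖ) := mul_one _
  · have hwy₀ : W.valuation y₀ ≤ 1 := by
      have : y₀ = 1 - (1 - y₀) := by ring
      rw [this]
      refine le_trans (Valuation.map_sub _ _ _) (max_le (by rw [map_one]) hwx₀.le)
    have hsum : W.valuation (∑ j ∈ Finset.range a, y₀ ^ j) ≤ 1 := by
      apply Valuation.map_sum_le
      intro j _
      rw [map_pow]
      exact pow_le_one₀ zero_le hwy₀
    have e1 : g = (1 - y₀) * ∑ j ∈ Finset.range a, y₀ ^ j := by
      rw [mul_neg_geom_sum y₀ a]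
    have e2 : 1 - (1 - g ^ b) = (1 - y₀) ^ b * (∑ j ∈ Finset.range a, y₀ ^ j) ^ b := by
      rw [← mul_pow, ← e1]; ring
    rw [e2, map_mul, map_pow _ (∑ j ∈ Finset.range a, y₀ ^ j)]
    calc W.valuation ((1 - y₀) ^ b) * W.valuation (∑ j ∈ Finset.range a, y₀ ^ j) ^ b
        ≤ W.valuation (i ϖ) * 1 := mul_le_mul' hb (pow_le_one₀ zero_le hsum)
      _ = W.valuation (i ϖ) := mul_one _

end Two

section Tadic

variable {i : F₁ →+* F₂} {O : ValuationSubring F₁} {ϖ : F₁} {V : ValuationSubring F₂}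

/-- A non-unit coefficient: `v(i c) < 1` forces `c ∈ ϖO`. -/
theorem s36c_coeff_of_val_lt (h : s36c_IsUnif O ϖ) (hV : s36c_Over i O V) {c : F₁} (hc : c ∈ O)
    (hlt : V.valuation (i c) < 1) : ∃ d ∈ O, c = ϖ * d := by
  apply s36c_nonunit_eq_mul h c ?_ hc
  by_cases h0 : c = 0
  · exact Or.inl h0
  · right
    intro hinv
    rw [s36c_over_val_unit hV h0 hc hinv] at hlt
    exact lt_irrefl _ hlt

/-- **`t`-adic expansions**: if `∑_{k<n} c_k t^k ∈ t^n V` with `c_k ∈ O`, `n ≤ e`,
`ϖ = u t^e`, then all `c_k ∈ ϖO`. -/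
theorem s36c_tadic (h : s36c_IsUnif O ϖ) (hV : s36c_Over i O V) (t u : F₂) (e : ℕ)
    (ht : V.valuation t < 1) (ht0 : t ≠ 0) (hu : V.valuation u ≤ 1) (hte : i ϖ = u * t ^ e) :
    ∀ n : ℕ, n ≤ e → ∀ c : ℕ → F₁, (∀ k, c k ∈ O) →
      V.valuation (∑ k ∈ Finset.range n, i (c k) * t ^ k) ≤ V.valuation (t ^ n) →
      ∀ k < n, ∃ d ∈ O, c k = ϖ * d := by
  intro n
  induction n with
  | zero => intro _ c _ _ k hk; exact absurd hk (Nat.not_lt_zero k)
  | succ n ih =>
    intro hne c hc hval k hk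
    have hvt0 : V.valuation t ≠ 0 := (_root_.map_ne_zero _).mpr ht0
    have hvtpos : (0 : V.ValueGroup) < V.valuation t := zero_lt_iff.mpr hvt0
    rw [Finset.sum_range_succ'] at hval
    simp only [pow_zero, mul_one] at hval
    -- the tail is divisible by `t`
    have htail : ∑ k ∈ Finset.range n, i (c (k + 1)) * t ^ (k + 1)
        = t * ∑ k ∈ Finset.range n, i (c (k + 1)) * t ^ k := by
      rw [Finset.mul_sum]
      apply Finset.sum_congr rfl
      intro k _
      rw [pow_succ]; ring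
    have hvtail : V.valuation (∑ k ∈ Finset.range n, i (c (k + 1)) * t ^ (k + 1))
        ≤ V.valuation t := by
      rw [htail, map_mul]
      refine mul_le_of_le_one_right zero_le ?_
      apply Valuation.map_sum_le
      intro k _
      rw [map_mul, map_pow]
      exact mul_le_one' (s36c_over_val_le hV (hc _)) (pow_le_one₀ zero_le ht.le)
    have hvtn : V.valuation (t ^ (n + 1)) ≤ V.valuation t := by
      rw [map_pow, pow_succ]
      exact mul_le_of_le_one_left zero_le (pow_le_one₀ zero_le ht.le)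
    -- `i (c 0)` is a non-unit
    have hc0 : V.valuation (i (c 0)) ≤ V.valuation t := by
      have e0 : i (c 0) = (∑ k ∈ Finset.range n, i (c (k + 1)) * t ^ (k + 1) + i (c 0))
          - ∑ k ∈ Finset.range n, i (c (k + 1)) * t ^ (k + 1) := by ring
      rw [e0]
      exact le_trans (Valuation.map_sub _ _ _) (max_le (le_trans hval hvtn) hvtail)
    obtain ⟨d₀, hd₀, e₀⟩ := s36c_coeff_of_val_lt h hV (hc 0) (lt_of_le_of_lt hc0 ht)
    rcases Nat.eq_zero_or_pos k with rfl | hkpos
    · exact ⟨d₀, hd₀, e₀⟩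
    -- apply the induction hypothesis to the shifted family
    have hvc0 : V.valuation (i (c 0)) ≤ V.valuation (t ^ (n + 1)) := by
      rw [e₀, map_mul, hte, map_mul, map_mul, map_pow, map_pow]
      have h1 : V.valuation t ^ e ≤ V.valuation t ^ (n + 1) :=
        pow_le_pow_of_le_one zero_le ht.le hne
      calc V.valuation u * V.valuation t ^ e * V.valuation (i d₀)
          ≤ 1 * V.valuation t ^ (n + 1) * 1 :=
            mul_le_mul' (mul_le_mul' hu h1) (s36c_over_val_le hV hd₀)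
        _ = V.valuation t ^ (n + 1) := by rw [one_mul, mul_one]
    have hshift : V.valuation (∑ k ∈ Finset.range n, i (c (k + 1)) * t ^ k)
        ≤ V.valuation (t ^ n) := by
      have e1 : t * ∑ k ∈ Finset.range n, i (c (k + 1)) * t ^ k
          = (∑ k ∈ Finset.range n, i (c (k + 1)) * t ^ (k + 1) + i (c 0)) - i (c 0) := by
        rw [htail]; ring
      have h2 : V.valuation (t * ∑ k ∈ Finset.range n, i (c (k + 1)) * t ^ k)
          ≤ V.valuation (t ^ (n + 1)) := by
        rw [e1]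
        exact le_trans (Valuation.map_sub _ _ _) (max_le hval hvc0)
      rw [map_mul, map_pow, pow_succ, mul_comm (V.valuation t ^ n)] at h2
      rw [map_pow]
      exact le_of_mul_le_mul_left h2 hvtpos
    obtain ⟨k', rfl⟩ : ∃ k', k = k' + 1 := ⟨k - 1, by omega⟩
    exact ih (by omega) (fun k => c (k + 1)) (fun k => hc _) hshift k' (by omega)

end Tadic

/-- The data of the fundamental situation (after the choice of the approximating element `y`). -/
structure s36c_FD (i : F₁ →+* F₂) (O : ValuationSubring F₁) (ϖ : F₁) (V W : ValuationSubring F₂)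
    (t u : F₂) (e : ℕ) (y : F₂) : Prop where
  unif : s36c_IsUnif O ϖ
  overV : s36c_Over i O V
  overW : s36c_Over i O W
  vt : V.valuation t < 1
  t0 : t ≠ 0
  wt : W.valuation t ≤ 1
  vu : V.valuation u = 1
  hte : i ϖ = u * t ^ e
  vy : V.valuation y ≤ V.valuation (i ϖ)
  wx : W.valuation (1 - y) ≤ W.valuation (i ϖ)

section Key

variable {i : F₁ →+* F₂} {O : ValuationSubring F₁} {ϖ : F₁} {V W : ValuationSubring F₂}
  {t u : F₂} {e : ℕ} {y : F₂}

theorem s36c_FD.vx (D : s36c_FD i O ϖ V W t u e y) : V.valuation (1 - y) = 1 := by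
  have hlt : V.valuation y < 1 := lt_of_le_of_lt D.vy (s36c_over_val_unif_lt D.overV D.unif)
  have : (1 : F₂) - y = 1 + -y := by ring
  rw [this]
  have := Valuation.map_add_eq_of_lt_left V.valuation (x := 1) (y := -y)
    (by rw [Valuation.map_neg, map_one]; exact hlt)
  rw [this, map_one]

theorem s36c_FD.wy (D : s36c_FD i O ϖ V W t u e y) : W.valuation y = 1 := by
  have hlt : W.valuation (1 - y) < 1 :=
    lt_of_le_of_lt D.wx (s36c_over_val_unif_lt D.overW D.unif)
  have e1 : y = 1 + -(1 - y) := by ring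
  rw [e1]
  have := Valuation.map_add_eq_of_lt_left W.valuation (x := 1) (y := -(1 - y))
    (by rw [Valuation.map_neg, map_one]; exact hlt)
  rw [this, map_one]

theorem s36c_FD.vte (D : s36c_FD i O ϖ V W t u e y) :
    V.valuation (i ϖ) = V.valuation (t ^ e) := by
  rw [D.hte, map_mul, D.vu, one_mul]

theorem s36c_FD.e_pos (D : s36c_FD i O ϖ V W t u e y) : 1 ≤ e := by
  by_contra hlt
  have he : e = 0 := by omega
  have h1 := D.vte
  rw [he, pow_zero, map_one] at h1
  exact absurd h1 (s36c_over_val_unif_lt D.overV D.unif).ne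

/-- **Key lemma**: an `O`-combination of `(1-y) t^k (k<e)`, `y` lying in `ϖV ∩ ϖW` has all its
coefficients in `ϖO`. -/
theorem s36c_key (D : s36c_FD i O ϖ V W t u e y) (c : Fin e → F₁) (d : F₁)
    (hc : ∀ k, c k ∈ O) (hd : d ∈ O)
    (hv : V.valuation (∑ k : Fin e, i (c k) * ((1 - y) * t ^ (k : ℕ)) + i d * y)
      ≤ V.valuation (i ϖ))
    (hw : W.valuation (∑ k : Fin e, i (c k) * ((1 - y) * t ^ (k : ℕ)) + i d * y)
      ≤ W.valuation (i ϖ)) :
    (∀ k, ∃ d' ∈ O, c k = ϖ * d') ∧ ∃ d' ∈ O, d = ϖ * d' := by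
  set S := ∑ k : Fin e, i (c k) * ((1 - y) * t ^ (k : ℕ)) with hS
  constructor
  · -- `V`-side
    have hdy : V.valuation (i d * y) ≤ V.valuation (i ϖ) := by
      rw [map_mul]
      calc V.valuation (i d) * V.valuation y ≤ 1 * V.valuation (i ϖ) :=
            mul_le_mul' (s36c_over_val_le D.overV hd) D.vy
        _ = V.valuation (i ϖ) := one_mul _
    have hSv : V.valuation S ≤ V.valuation (i ϖ) := by
      have : S = (S + i d * y) - i d * y := by ring
      rw [this]
      exact le_trans (Valuation.map_sub _ _ _) (max_le hv hdy)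
    -- extend `c` to `ℕ`
    set c' : ℕ → F₁ := fun k => if hk : k < e then c ⟨k, hk⟩ else 0 with hc'
    have hc'O : ∀ k, c' k ∈ O := by
      intro k
      rw [hc']
      by_cases hk : k < e
      · simp only [dif_pos hk]; exact hc _
      · simp only [dif_neg hk]; exact O.zero_mem
    have hSeq : S = (1 - y) * ∑ k ∈ Finset.range e, i (c' k) * t ^ k := by
      rw [← Fin.sum_univ_eq_sum_range (fun k => i (c' k) * t ^ k) e, Finset.mul_sum, hS]
      apply Finset.sum_congr rfl
      intro k _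
      have : c' (k : ℕ) = c k := by
        rw [hc']
        simp only [dif_pos k.2, Fin.eta]
      rw [this]; ring
    have hT : V.valuation (∑ k ∈ Finset.range e, i (c' k) * t ^ k) ≤ V.valuation (t ^ e) := by
      rw [← D.vte]
      rw [hSeq, map_mul, D.vx, one_mul] at hSv
      exact hSv
    intro k
    have := s36c_tadic D.unif D.overV t u e D.vt D.t0 D.vu.le D.hte e le_rfl c' hc'O hT k k.2
    rw [hc'] at this
    simpa only [dif_pos k.2, Fin.eta] using this
  · -- `W`-side
    have hSw : W.valuation S ≤ W.valuation (i ϖ) := by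
      rw [hS]
      apply Valuation.map_sum_le
      intro k _
      rw [map_mul, map_mul, map_pow]
      calc W.valuation (i (c k)) * (W.valuation (1 - y) * W.valuation t ^ (k : ℕ))
          ≤ 1 * (W.valuation (i ϖ) * 1) :=
            mul_le_mul' (s36c_over_val_le D.overW (hc k))
              (mul_le_mul' D.wx (pow_le_one₀ zero_le D.wt))
        _ = W.valuation (i ϖ) := by rw [one_mul, mul_one]
    have hdy : W.valuation (i d * y) ≤ W.valuation (i ϖ) := by
      have : i d * y = (S + i d * y) - S := by ring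
      rw [this]
      exact le_trans (Valuation.map_sub _ _ _) (max_le hw hSw)
    rw [map_mul, D.wy, mul_one] at hdy
    exact s36c_coeff_of_val_lt D.unif D.overW hd
      (lt_of_le_of_lt hdy (s36c_over_val_unif_lt D.overW D.unif))

end Key

/-- The basis family `(1 - y) t^k (k < e)`, `y`. -/
def s36c_fundBasis (t y : F₂) (e : ℕ) : Fin (e + 1) → F₂ :=
  Fin.snoc (α := fun _ => F₂) (fun k : Fin e => (1 - y) * t ^ (k : ℕ)) y

theorem s36c_fundBasis_sum (i : F₁ →+* F₂) (t y : F₂) (e : ℕ) (g : Fin (e + 1) → F₁) :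
    ∑ k, i (g k) * s36c_fundBasis t y e k
      = ∑ k : Fin e, i (g k.castSucc) * ((1 - y) * t ^ (k : ℕ)) + i (g (Fin.last e)) * y := by
  rw [Fin.sum_univ_castSucc]
  simp only [s36c_fundBasis, Fin.snoc_castSucc, Fin.snoc_last]

section Basis

variable {i : F₁ →+* F₂} {O : ValuationSubring F₁} {ϖ : F₁} {V W : ValuationSubring F₂}
  {t u : F₂} {e : ℕ} {y : F₂}

/-- Key lemma in `Fin (e + 1)`-coordinates. -/
theorem s36c_key' (D : s36c_FD i O ϖ V W t u e y) (g : Fin (e + 1) → F₁) (hg : ∀ k, g k ∈ O)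
    (hv : V.valuation (∑ k, i (g k) * s36c_fundBasis t y e k) ≤ V.valuation (i ϖ))
    (hw : W.valuation (∑ k, i (g k) * s36c_fundBasis t y e k) ≤ W.valuation (i ϖ)) :
    ∀ k, ∃ d' ∈ O, g k = ϖ * d' := by
  rw [s36c_fundBasis_sum] at hv hw
  obtain ⟨h1, h2⟩ := s36c_key D (fun k => g k.castSucc) (g (Fin.last e)) (fun k => hg _) (hg _)
    hv hw
  intro k
  refine Fin.lastCases h2 (fun k' => h1 k') k

theorem s36c_one_not_unif_mul (hu : s36c_IsUnif O ϖ) : ¬ ∃ d' ∈ O, (1 : F₁) = ϖ * d' := by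
  rintro ⟨d', hd', e1⟩
  apply hu.2.1
  have : ϖ⁻¹ = d' := inv_eq_of_mul_eq_one_right e1.symm
  rw [this]; exact hd'

/-- The family is linearly independent over `F₁`. -/
theorem s36c_fund_indep (D : s36c_FD i O ϖ V W t u e y) (g : Fin (e + 1) → F₁)
    (h0 : ∑ k, i (g k) * s36c_fundBasis t y e k = 0) : ∀ k, g k = 0 := by
  by_contra hne
  push Not at hne
  obtain ⟨k₁, hk₁⟩ := hne
  obtain ⟨l, hl0, hlO, k₀, -, hk₀⟩ := s36c_scale O Finset.univ g ⟨k₁, Finset.mem_univ _, hk₁⟩
  have hsum : ∑ k, i (l * g k) * s36c_fundBasis t y e k = 0 := by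
    have : ∑ k, i (l * g k) * s36c_fundBasis t y e k
        = i l * ∑ k, i (g k) * s36c_fundBasis t y e k := by
      rw [Finset.mul_sum]
      apply Finset.sum_congr rfl
      intro k _
      rw [map_mul]; ring
    rw [this, h0, mul_zero]
  have := s36c_key' D (fun k => l * g k) (fun k => hlO k (Finset.mem_univ _))
    (by rw [hsum, map_zero]; exact zero_le) (by rw [hsum, map_zero]; exact zero_le) k₀
  simp only [hk₀] at this
  exact s36c_one_not_unif_mul D.unif this

/-- **`V ∩ W` in coordinates**: an `F₁`-combination of the family lying in `V ∩ W` has all its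
coefficients in `O`. -/
theorem s36c_fund_coord_mem (D : s36c_FD i O ϖ V W t u e y) (g : Fin (e + 1) → F₁)
    (hzV : V.valuation (∑ k, i (g k) * s36c_fundBasis t y e k) ≤ 1)
    (hzW : W.valuation (∑ k, i (g k) * s36c_fundBasis t y e k) ≤ 1) : ∀ k, g k ∈ O := by
  by_contra hne
  push Not at hne
  obtain ⟨k₁, hk₁⟩ := hne
  have hk₁0 : g k₁ ≠ 0 := by
    intro h0; rw [h0] at hk₁; exact hk₁ O.zero_mem
  obtain ⟨l, hl0, hlO, k₀, -, hk₀⟩ := s36c_scale O Finset.univ g ⟨k₁, Finset.mem_univ _, hk₁0⟩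
  have hlinv : l⁻¹ ∉ O := by
    intro hinv
    apply hk₁
    have : g k₁ = l⁻¹ * (l * g k₁) := by
      rw [← mul_assoc, inv_mul_cancel₀ hl0, one_mul]
    rw [this]
    exact mul_mem hinv (hlO k₁ (Finset.mem_univ _))
  have hlO' : l ∈ O := (O.mem_or_inv_mem l).resolve_right hlinv
  have hsum : ∑ k, i (l * g k) * s36c_fundBasis t y e k
      = i l * ∑ k, i (g k) * s36c_fundBasis t y e k := by
    rw [Finset.mul_sum]
    apply Finset.sum_congr rfl
    intro k _
    rw [map_mul]; ring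
  have hv : V.valuation (∑ k, i (l * g k) * s36c_fundBasis t y e k) ≤ V.valuation (i ϖ) := by
    rw [hsum, map_mul]
    calc V.valuation (i l) * V.valuation (∑ k, i (g k) * s36c_fundBasis t y e k)
        ≤ V.valuation (i ϖ) * 1 :=
          mul_le_mul' (s36c_over_val_nonunit_le D.overV D.unif hlO' (Or.inr hlinv)) hzV
      _ = V.valuation (i ϖ) := mul_one _
  have hw : W.valuation (∑ k, i (l * g k) * s36c_fundBasis t y e k) ≤ W.valuation (i ϖ) := by
    rw [hsum, map_mul]
    calc W.valuation (i l) * W.valuation (∑ k, i (g k) * s36c_fundBasis t y e k)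
        ≤ W.valuation (i ϖ) * 1 :=
          mul_le_mul' (s36c_over_val_nonunit_le D.overW D.unif hlO' (Or.inr hlinv)) hzW
      _ = W.valuation (i ϖ) := mul_one _
  have := s36c_key' D (fun k => l * g k) (fun k => hlO k (Finset.mem_univ _)) hv hw k₀
  simp only [hk₀] at this
  exact s36c_one_not_unif_mul D.unif this

/-- The family spans `F₂` over `F₁` (it is a basis), given a spanning family of size `e + 1`. -/
theorem s36c_fund_span (D : s36c_FD i O ϖ V W t u e y) (b : Fin (e + 1) → F₂)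
    (hspan : ∀ z : F₂, ∃ c : Fin (e + 1) → F₁, z = ∑ k, i (c k) * b k) :
    ∀ z : F₂, ∃ g : Fin (e + 1) → F₁, z = ∑ k, i (g k) * s36c_fundBasis t y e k := by
  classical
  letI : Algebra F₁ F₂ := i.toAlgebra
  have hsmul : ∀ (a : F₁) (z : F₂), a • z = i a * z := fun a z => by
    rw [Algebra.smul_def]; rfl
  have htop : Submodule.span F₁ (Set.range b) = ⊤ := by
    rw [eq_top_iff]
    intro z _
    obtain ⟨c, rfl⟩ := hspan z
    apply Submodule.sum_mem
    intro k _
    rw [← hsmul]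
    exact Submodule.smul_mem _ _ (Submodule.subset_span ⟨k, rfl⟩)
  have hfin : Module.Finite F₁ F₂ := ⟨⟨Finset.univ.image b, by
    rw [Finset.coe_image, Finset.coe_univ, Set.image_univ]; exact htop⟩⟩
  have hle : Module.finrank F₁ F₂ ≤ e + 1 := by
    have := finrank_le_of_span_eq_top (R := F₁) (M := F₂) htop
    simpa using this
  have hli : LinearIndependent F₁ (s36c_fundBasis t y e) := by
    rw [Fintype.linearIndependent_iff]
    intro g hg k
    apply s36c_fund_indep D g _ k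
    rw [← hg]
    apply Finset.sum_congr rfl
    intro k _
    rw [hsmul]
  have hge : e + 1 ≤ Module.finrank F₁ F₂ := by
    have := hli.fintype_card_le_finrank
    simpa using this
  have hspanB : Submodule.span F₁ (Set.range (s36c_fundBasis t y e)) = ⊤ :=
    hli.span_eq_top_of_card_eq_finrank' (by simp; omega)
  intro z
  have hz : z ∈ Submodule.span F₁ (Set.range (s36c_fundBasis t y e)) := by
    rw [hspanB]; trivial
  obtain ⟨g, hg⟩ := (Submodule.mem_span_range_iff_exists_fun F₁).mp hz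
  refine ⟨g, ?_⟩
  rw [← hg]
  apply Finset.sum_congr rfl
  intro k _
  rw [hsmul]

end Basis

section Conclusions

variable {i : F₁ →+* F₂} {O : ValuationSubring F₁} {ϖ : F₁} {V W : ValuationSubring F₂}
  {t u : F₂} {e : ℕ} {y : F₂}

/-- `V ∩ W` is the `O`-span of the family. -/
theorem s36c_fund_inter (D : s36c_FD i O ϖ V W t u e y)
    (hB : ∀ z : F₂, ∃ g : Fin (e + 1) → F₁, z = ∑ k, i (g k) * s36c_fundBasis t y e k)
    (z : F₂) (hzV : V.valuation z ≤ 1) (hzW : W.valuation z ≤ 1) :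
    ∃ g : Fin (e + 1) → F₁, (∀ k, g k ∈ O) ∧ z = ∑ k, i (g k) * s36c_fundBasis t y e k := by
  obtain ⟨g, hg⟩ := hB z
  refine ⟨g, ?_, hg⟩
  apply s36c_fund_coord_mem D g
  · rw [← hg]; exact hzV
  · rw [← hg]; exact hzW

theorem s36c_FD.vϖ_le_vt (D : s36c_FD i O ϖ V W t u e y) :
    V.valuation (i ϖ) ≤ V.valuation t := by
  rw [D.vte, map_pow]
  calc V.valuation t ^ e ≤ V.valuation t ^ 1 := pow_le_pow_of_le_one zero_le D.vt.le D.e_pos
    _ = V.valuation t := pow_one _

/-- **`V = O + tV`.** -/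
theorem s36c_fund_V (D : s36c_FD i O ϖ V W t u e y)
    (halg : ∀ z : F₂, ∃ p : F₁[X], p ≠ 0 ∧ p.eval₂ i z = 0)
    (hB : ∀ z : F₂, ∃ g : Fin (e + 1) → F₁, z = ∑ k, i (g k) * s36c_fundBasis t y e k)
    (z : F₂) (hz : V.valuation z ≤ 1) :
    ∃ r ∈ O, V.valuation (z - i r) ≤ V.valuation t := by
  classical
  obtain ⟨M, hM⟩ := s36c_bounded D.overW D.unif z halg
  set x := 1 - y with hx
  have hvx : V.valuation x = 1 := D.vx
  have hwx : W.valuation x ≤ W.valuation (i ϖ) := D.wx
  have hvy : V.valuation y ≤ V.valuation t := le_trans D.vy D.vϖ_le_vt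
  set z' := z * x ^ M with hz'
  have hz'V : V.valuation z' ≤ 1 := by
    rw [hz', map_mul, map_pow, hvx, one_pow, mul_one]; exact hz
  have hz'W : W.valuation z' ≤ 1 := by
    rw [hz', map_mul, map_pow]
    calc W.valuation z * W.valuation x ^ M ≤ W.valuation z * W.valuation (i ϖ) ^ M :=
          mul_le_mul' le_rfl (pow_le_pow_left₀ zero_le hwx M)
      _ = W.valuation (i ϖ ^ M * z) := by rw [map_mul, map_pow, mul_comm]
      _ ≤ 1 := hM
  obtain ⟨g, hgO, hg⟩ := s36c_fund_inter D hB z' hz'V hz'W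
  have hepos := D.e_pos
  set k0 : Fin e := ⟨0, by omega⟩ with hk0
  refine ⟨g k0.castSucc, hgO _, ?_⟩
  -- `z - i r = z (1 - x^M) + (z' - i r)`
  have h1 : V.valuation (z * (1 - x ^ M)) ≤ V.valuation t := by
    have e1 : 1 - x ^ M = y * ∑ j ∈ Finset.range M, x ^ j := by
      rw [← mul_neg_geom_sum x M, hx]; ring
    rw [e1, map_mul, map_mul]
    have hs : V.valuation (∑ j ∈ Finset.range M, x ^ j) ≤ 1 := by
      apply Valuation.map_sum_le
      intro j _
      rw [map_pow, hvx, one_pow]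
    calc V.valuation z * (V.valuation y * V.valuation (∑ j ∈ Finset.range M, x ^ j))
        ≤ 1 * (V.valuation t * 1) := mul_le_mul' hz (mul_le_mul' hvy hs)
      _ = V.valuation t := by rw [one_mul, mul_one]
  have h2 : V.valuation (z' - i (g k0.castSucc)) ≤ V.valuation t := by
    rw [hg, s36c_fundBasis_sum, ← Finset.add_sum_erase Finset.univ _ (Finset.mem_univ k0)]
    have e2 : i (g k0.castSucc) * ((1 - y) * t ^ (k0 : ℕ))
        + ∑ k ∈ Finset.univ.erase k0, i (g k.castSucc) * ((1 - y) * t ^ (k : ℕ))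
        + i (g (Fin.last e)) * y - i (g k0.castSucc)
        = -(i (g k0.castSucc) * y)
          + ∑ k ∈ Finset.univ.erase k0, i (g k.castSucc) * ((1 - y) * t ^ (k : ℕ))
          + i (g (Fin.last e)) * y := by
      have : ((k0 : Fin e) : ℕ) = 0 := rfl
      rw [this, pow_zero]; ring
    rw [e2]
    refine le_trans (Valuation.map_add _ _ _) (max_le
      (le_trans (Valuation.map_add _ _ _) (max_le ?_ ?_)) ?_)
    · rw [Valuation.map_neg, map_mul]
      calc V.valuation (i (g k0.castSucc)) * V.valuation y ≤ 1 * V.valuation t :=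
            mul_le_mul' (s36c_over_val_le D.overV (hgO _)) hvy
        _ = V.valuation t := one_mul _
    · apply Valuation.map_sum_le
      intro k hk
      have hkne : k ≠ k0 := (Finset.mem_erase.mp hk).1
      have hkpos : 1 ≤ (k : ℕ) := by
        rcases Nat.eq_zero_or_pos (k : ℕ) with h0 | h0
        · exact absurd (Fin.ext h0) hkne
        · exact h0
      rw [map_mul, map_mul, map_pow, D.vx, one_mul]
      calc V.valuation (i (g k.castSucc)) * V.valuation t ^ (k : ℕ)
          ≤ 1 * V.valuation t ^ 1 :=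
            mul_le_mul' (s36c_over_val_le D.overV (hgO _))
              (pow_le_pow_of_le_one zero_le D.vt.le hkpos)
        _ = V.valuation t := by rw [one_mul, pow_one]
    · rw [map_mul]
      calc V.valuation (i (g (Fin.last e))) * V.valuation y ≤ 1 * V.valuation t :=
            mul_le_mul' (s36c_over_val_le D.overV (hgO _)) hvy
        _ = V.valuation t := one_mul _
  have e3 : z - i (g k0.castSucc) = z * (1 - x ^ M) + (z' - i (g k0.castSucc)) := by
    rw [hz']; ring
  rw [e3]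
  exact le_trans (Valuation.map_add _ _ _) (max_le h1 h2)

/-- **`W = O + ϖW`.** -/
theorem s36c_fund_W (D : s36c_FD i O ϖ V W t u e y)
    (halg : ∀ z : F₂, ∃ p : F₁[X], p ≠ 0 ∧ p.eval₂ i z = 0)
    (hB : ∀ z : F₂, ∃ g : Fin (e + 1) → F₁, z = ∑ k, i (g k) * s36c_fundBasis t y e k)
    (z : F₂) (hz : W.valuation z ≤ 1) :
    ∃ r ∈ O, W.valuation (z - i r) ≤ W.valuation (i ϖ) := by
  obtain ⟨M, hM⟩ := s36c_bounded D.overV D.unif z halg
  have hwy : W.valuation y = 1 := D.wy
  set z' := z * y ^ M with hz'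
  have hz'W : W.valuation z' ≤ 1 := by
    rw [hz', map_mul, map_pow, hwy, one_pow, mul_one]; exact hz
  have hz'V : V.valuation z' ≤ 1 := by
    rw [hz', map_mul, map_pow]
    calc V.valuation z * V.valuation y ^ M ≤ V.valuation z * V.valuation (i ϖ) ^ M :=
          mul_le_mul' le_rfl (pow_le_pow_left₀ zero_le D.vy M)
      _ = V.valuation (i ϖ ^ M * z) := by rw [map_mul, map_pow, mul_comm]
      _ ≤ 1 := hM
  obtain ⟨g, hgO, hg⟩ := s36c_fund_inter D hB z' hz'V hz'W
  refine ⟨g (Fin.last e), hgO _, ?_⟩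
  have h1 : W.valuation (z * (1 - y ^ M)) ≤ W.valuation (i ϖ) := by
    have e1 : 1 - y ^ M = (1 - y) * ∑ j ∈ Finset.range M, y ^ j := by
      rw [mul_neg_geom_sum y M]
    rw [e1, map_mul, map_mul]
    have hs : W.valuation (∑ j ∈ Finset.range M, y ^ j) ≤ 1 := by
      apply Valuation.map_sum_le
      intro j _
      rw [map_pow, hwy, one_pow]
    calc W.valuation z * (W.valuation (1 - y) * W.valuation (∑ j ∈ Finset.range M, y ^ j))
        ≤ 1 * (W.valuation (i ϖ) * 1) := mul_le_mul' hz (mul_le_mul' D.wx hs)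
      _ = W.valuation (i ϖ) := by rw [one_mul, mul_one]
  have h2 : W.valuation (z' - i (g (Fin.last e))) ≤ W.valuation (i ϖ) := by
    rw [hg, s36c_fundBasis_sum]
    have e2 : ∑ k : Fin e, i (g k.castSucc) * ((1 - y) * t ^ (k : ℕ)) + i (g (Fin.last e)) * y
        - i (g (Fin.last e))
        = ∑ k : Fin e, i (g k.castSucc) * ((1 - y) * t ^ (k : ℕ))
          + -(i (g (Fin.last e)) * (1 - y)) := by ring
    rw [e2]
    refine le_trans (Valuation.map_add _ _ _) (max_le ?_ ?_)
    · apply Valuation.map_sum_le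
      intro k _
      rw [map_mul, map_mul, map_pow]
      calc W.valuation (i (g k.castSucc)) * (W.valuation (1 - y) * W.valuation t ^ (k : ℕ))
          ≤ 1 * (W.valuation (i ϖ) * 1) :=
            mul_le_mul' (s36c_over_val_le D.overW (hgO _))
              (mul_le_mul' D.wx (pow_le_one₀ zero_le D.wt))
        _ = W.valuation (i ϖ) := by rw [one_mul, mul_one]
    · rw [Valuation.map_neg, map_mul]
      calc W.valuation (i (g (Fin.last e))) * W.valuation (1 - y) ≤ 1 * W.valuation (i ϖ) :=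
            mul_le_mul' (s36c_over_val_le D.overW (hgO _)) D.wx
        _ = W.valuation (i ϖ) := one_mul _
  have e3 : z - i (g (Fin.last e)) = z * (1 - y ^ M) + (z' - i (g (Fin.last e))) := by
    rw [hz']; ring
  rw [e3]
  exact le_trans (Valuation.map_add _ _ _) (max_le h1 h2)

end Conclusions

section Conclusions2

variable {i : F₁ →+* F₂} {O : ValuationSubring F₁} {ϖ : F₁} {V W : ValuationSubring F₂}
  {t u : F₂} {e : ℕ} {y : F₂}

/-- **No gap**: a non-unit of `V` is divisible by `t` (`𝔪_V = tV`). -/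
theorem s36c_fund_gap (D : s36c_FD i O ϖ V W t u e y)
    (halg : ∀ z : F₂, ∃ p : F₁[X], p ≠ 0 ∧ p.eval₂ i z = 0)
    (hB : ∀ z : F₂, ∃ g : Fin (e + 1) → F₁, z = ∑ k, i (g k) * s36c_fundBasis t y e k)
    (z : F₂) (hz : V.valuation z < 1) : V.valuation z ≤ V.valuation t := by
  obtain ⟨r, hr, hzr⟩ := s36c_fund_V D halg hB z hz.le
  have h1 : V.valuation (i r) < 1 := by
    have : i r = z - (z - i r) := by ring
    rw [this]
    exact lt_of_le_of_lt (Valuation.map_sub _ _ _) (max_lt hz (lt_of_le_of_lt hzr D.vt))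
  obtain ⟨d, hd, e1⟩ := s36c_coeff_of_val_lt D.unif D.overV hr h1
  have h2 : V.valuation (i r) ≤ V.valuation t := by
    rw [e1, map_mul, map_mul]
    calc V.valuation (i ϖ) * V.valuation (i d) ≤ V.valuation t * 1 :=
          mul_le_mul' D.vϖ_le_vt (s36c_over_val_le D.overV hd)
      _ = V.valuation t := mul_one _
  have : z = i r + (z - i r) := by ring
  rw [this]
  exact le_trans (Valuation.map_add _ _ _) (max_le h2 hzr)

/-- Every nonzero element of `V` is `t ^ n * unit`. -/
theorem s36c_fund_unif_nat (D : s36c_FD i O ϖ V W t u e y)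
    (halg : ∀ z : F₂, ∃ p : F₁[X], p ≠ 0 ∧ p.eval₂ i z = 0)
    (hB : ∀ z : F₂, ∃ g : Fin (e + 1) → F₁, z = ∑ k, i (g k) * s36c_fundBasis t y e k)
    (z : F₂) (hz0 : z ≠ 0) (hz : V.valuation z ≤ 1) :
    ∃ n : ℕ, V.valuation z = V.valuation t ^ n := by
  classical
  have hvt0 : V.valuation t ≠ 0 := (_root_.map_ne_zero _).mpr D.t0
  have hvtpos : (0 : V.ValueGroup) < V.valuation t := zero_lt_iff.mpr hvt0
  have hvz0 : V.valuation z ≠ 0 := (_root_.map_ne_zero _).mpr hz0
  obtain ⟨M, hM⟩ := s36c_bounded D.overV D.unif z⁻¹ halg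
  have hlow : V.valuation t ^ (e * M) ≤ V.valuation z := by
    rw [map_mul, map_pow, map_inv₀, D.vte, map_pow, ← pow_mul] at hM
    have hzpos : (0 : V.ValueGroup) < V.valuation z := zero_lt_iff.mpr hvz0
    rwa [mul_inv_le_iff₀ hzpos, one_mul] at hM
  have hex : ∃ n : ℕ, V.valuation t ^ (n + 1) < V.valuation z := by
    refine ⟨e * M, lt_of_lt_of_le ?_ hlow⟩
    rw [pow_succ]
    calc V.valuation t ^ (e * M) * V.valuation t < V.valuation t ^ (e * M) * 1 :=
          mul_lt_mul_of_pos_left D.vt (pow_pos hvtpos _)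
      _ = V.valuation t ^ (e * M) := mul_one _
  set n₀ := Nat.find hex with hn₀
  have hP : V.valuation t ^ (n₀ + 1) < V.valuation z := Nat.find_spec hex
  have hle : V.valuation z ≤ V.valuation t ^ n₀ := by
    rcases Nat.eq_zero_or_pos n₀ with h0 | hpos
    · rw [h0, pow_zero]; exact hz
    · have := Nat.find_min hex (m := n₀ - 1) (by omega)
      rw [not_lt] at this
      have e1 : n₀ - 1 + 1 = n₀ := by omega
      rwa [e1] at this
  refine ⟨n₀, ?_⟩
  set z₁ := z / t ^ n₀ with hz₁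
  have htn0 : V.valuation t ^ n₀ ≠ 0 := pow_ne_zero _ hvt0
  have htnpos : (0 : V.ValueGroup) < V.valuation t ^ n₀ := pow_pos hvtpos _
  have hv1 : V.valuation z₁ ≤ 1 := by
    rw [hz₁, map_div₀, map_pow, div_le_one₀ htnpos]; exact hle
  have hv2 : V.valuation t < V.valuation z₁ := by
    rw [hz₁, map_div₀, map_pow, lt_div_iff₀ htnpos, mul_comm, ← pow_succ]
    exact hP
  have hv3 : V.valuation z₁ = 1 := by
    rcases lt_or_eq_of_le hv1 with hlt | heq
    · exact absurd (s36c_fund_gap D halg hB z₁ hlt) (not_le.mpr hv2)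
    · exact heq
  rw [hz₁, map_div₀, map_pow, div_eq_one_iff_eq htn0] at hv3
  exact hv3

end Conclusions2

section Conclusions3

variable {i : F₁ →+* F₂} {O : ValuationSubring F₁} {ϖ : F₁} {V W : ValuationSubring F₂}
  {t u : F₂} {e : ℕ} {y : F₂}

theorem s36c_fundBasis_valV (D : s36c_FD i O ϖ V W t u e y) (k : Fin (e + 1)) :
    V.valuation (s36c_fundBasis t y e k) ≤ 1 := by
  refine Fin.lastCases ?_ (fun k' => ?_) k
  · simp only [s36c_fundBasis, Fin.snoc_last]
    exact le_trans D.vy (s36c_over_val_unif_lt D.overV D.unif).le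
  · simp only [s36c_fundBasis, Fin.snoc_castSucc]
    rw [map_mul, D.vx, one_mul, map_pow]
    exact pow_le_one₀ zero_le D.vt.le

theorem s36c_fundBasis_valW (D : s36c_FD i O ϖ V W t u e y) (k : Fin (e + 1)) :
    W.valuation (s36c_fundBasis t y e k) ≤ 1 := by
  refine Fin.lastCases ?_ (fun k' => ?_) k
  · simp only [s36c_fundBasis, Fin.snoc_last]
    exact D.wy.le
  · simp only [s36c_fundBasis, Fin.snoc_castSucc]
    rw [map_mul, map_pow]
    calc W.valuation (1 - y) * W.valuation t ^ (k' : ℕ) ≤ 1 * 1 :=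
          mul_le_mul' (le_trans D.wx (s36c_over_val_unif_lt D.overW D.unif).le)
            (pow_le_one₀ zero_le D.wt)
      _ = 1 := one_mul _

/-- **`V ∩ W ⊆ U`** for every extension `U` of `O` (sup-norm argument: `V ∩ W` is a ring and a
finite `O`-module). -/
theorem s36c_fund_inter_le (D : s36c_FD i O ϖ V W t u e y)
    (hB : ∀ z : F₂, ∃ g : Fin (e + 1) → F₁, z = ∑ k, i (g k) * s36c_fundBasis t y e k)
    {U : ValuationSubring F₂} (hU : s36c_Over i O U)
    (z : F₂) (hzV : V.valuation z ≤ 1) (hzW : W.valuation z ≤ 1) : U.valuation z ≤ 1 := by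
  classical
  obtain ⟨k₀, -, hmax⟩ := Finset.exists_max_image (Finset.univ : Finset (Fin (e + 1)))
    (fun k => U.valuation (s36c_fundBasis t y e k)) ⟨0, Finset.mem_univ _⟩
  set μ := U.valuation (s36c_fundBasis t y e k₀) with hμ
  have hbound : ∀ z : F₂, V.valuation z ≤ 1 → W.valuation z ≤ 1 → U.valuation z ≤ μ := by
    intro z hzV hzW
    obtain ⟨g, hgO, hg⟩ := s36c_fund_inter D hB z hzV hzW
    rw [hg]
    apply Valuation.map_sum_le
    intro k _
    rw [map_mul]
    calc U.valuation (i (g k)) * U.valuation (s36c_fundBasis t y e k)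
        ≤ 1 * μ := mul_le_mul' (s36c_over_val_le hU (hgO k)) (hmax k (Finset.mem_univ _))
      _ = μ := one_mul _
  have h1 : (1 : U.ValueGroup) ≤ μ := by
    have := hbound 1 (by rw [map_one]) (by rw [map_one])
    rwa [map_one] at this
  have hμpos : (0 : U.ValueGroup) < μ := lt_of_lt_of_le one_pos h1
  have hsq : μ * μ ≤ μ := by
    have := hbound (s36c_fundBasis t y e k₀ * s36c_fundBasis t y e k₀)
      (by rw [map_mul]; exact mul_le_one' (s36c_fundBasis_valV D k₀) (s36c_fundBasis_valV D k₀))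
      (by rw [map_mul]; exact mul_le_one' (s36c_fundBasis_valW D k₀) (s36c_fundBasis_valW D k₀))
    rwa [map_mul] at this
  have hμ1 : μ ≤ 1 := by
    have : μ * μ ≤ μ * 1 := by rw [mul_one]; exact hsq
    exact le_of_mul_le_mul_left this hμpos
  exact le_trans (hbound z hzV hzW) hμ1

/-- **Completeness**: `V` and `W` are all the extensions of `O`. -/
theorem s36c_fund_all (D : s36c_FD i O ϖ V W t u e y)
    (halg : ∀ z : F₂, ∃ p : F₁[X], p ≠ 0 ∧ p.eval₂ i z = 0)
    (hB : ∀ z : F₂, ∃ g : Fin (e + 1) → F₁, z = ∑ k, i (g k) * s36c_fundBasis t y e k)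
    {U : ValuationSubring F₂} (hU : s36c_Over i O U) : U = V ∨ U = W := by
  have hvϖ : V.valuation (i ϖ) < 1 := s36c_over_val_unif_lt D.overV D.unif
  have hwϖ : W.valuation (i ϖ) < 1 := s36c_over_val_unif_lt D.overW D.unif
  have hiϖ0 : i ϖ ≠ 0 := (_root_.map_ne_zero i).mpr (s36c_unif_ne_zero D.unif)
  set x := 1 - y with hx
  -- `x * y / ϖ ∈ V ∩ W ⊆ U`
  have hxyU : U.valuation (x * y) ≤ U.valuation (i ϖ) := by
    have hV1 : V.valuation (x * y * (i ϖ)⁻¹) ≤ 1 := by
      rw [map_mul, map_mul, map_inv₀, D.vx, one_mul]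
      have hpos : (0 : V.ValueGroup) < V.valuation (i ϖ) :=
        zero_lt_iff.mpr ((_root_.map_ne_zero _).mpr hiϖ0)
      rw [mul_inv_le_iff₀ hpos, one_mul]
      exact D.vy
    have hW1 : W.valuation (x * y * (i ϖ)⁻¹) ≤ 1 := by
      rw [map_mul, map_mul, map_inv₀, D.wy, mul_one]
      have hpos : (0 : W.ValueGroup) < W.valuation (i ϖ) :=
        zero_lt_iff.mpr ((_root_.map_ne_zero _).mpr hiϖ0)
      rw [mul_inv_le_iff₀ hpos, one_mul]
      exact D.wx
    have := s36c_fund_inter_le D hB hU _ hV1 hW1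
    rw [map_mul, map_inv₀] at this
    have hpos : (0 : U.ValueGroup) < U.valuation (i ϖ) :=
      zero_lt_iff.mpr ((_root_.map_ne_zero _).mpr hiϖ0)
    rwa [mul_inv_le_iff₀ hpos, one_mul] at this
  have hxU : U.valuation x ≤ 1 :=
    s36c_fund_inter_le D hB hU x D.vx.le (le_trans D.wx hwϖ.le)
  have hyU : U.valuation y ≤ 1 :=
    s36c_fund_inter_le D hB hU y (le_trans D.vy hvϖ.le) D.wy.le
  have huϖ : U.valuation (i ϖ) < 1 := s36c_over_val_unif_lt hU D.unif
  -- one of `x, y` is a non-unit of `U`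
  have hdich : U.valuation y < 1 ∨ U.valuation x < 1 := by
    by_contra hcon
    push Not at hcon
    have hy1 : U.valuation y = 1 := le_antisymm hyU hcon.1
    have hx1 : U.valuation x = 1 := le_antisymm hxU hcon.2
    rw [map_mul, hx1, hy1, one_mul] at hxyU
    exact absurd hxyU (not_le.mpr huϖ)
  rcases hdich with hy | hx'
  · -- `y ∈ 𝔪_U`, so `x` is a unit of `U` and `V ≤ U`
    left
    symm
    apply s36c_eq_of_le D.overV hU D.unif halg
    have hx1 : U.valuation x = 1 := by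
      have : x = 1 + -y := by rw [hx]; ring
      rw [this]
      have := Valuation.map_add_eq_of_lt_left U.valuation (x := 1) (y := -y)
        (by rw [Valuation.map_neg, map_one]; exact hy)
      rw [this, map_one]
    intro z hz
    have hzV : V.valuation z ≤ 1 := (V.valuation_le_one_iff z).mpr hz
    obtain ⟨M, hM⟩ := s36c_bounded D.overW D.unif z halg
    have hV1 : V.valuation (z * x ^ M) ≤ 1 := by
      rw [map_mul, map_pow, D.vx, one_pow, mul_one]; exact hzV
    have hW1 : W.valuation (z * x ^ M) ≤ 1 := by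
      rw [map_mul, map_pow]
      calc W.valuation z * W.valuation x ^ M ≤ W.valuation z * W.valuation (i ϖ) ^ M :=
            mul_le_mul' le_rfl (pow_le_pow_left₀ zero_le D.wx M)
        _ = W.valuation (i ϖ ^ M * z) := by rw [map_mul, map_pow, mul_comm]
        _ ≤ 1 := hM
    have := s36c_fund_inter_le D hB hU _ hV1 hW1
    rw [map_mul, map_pow, hx1, one_pow, mul_one] at this
    exact (U.valuation_le_one_iff z).mp this
  · -- `x ∈ 𝔪_U`, so `y` is a unit of `U` and `W ≤ U`
    right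
    symm
    apply s36c_eq_of_le D.overW hU D.unif halg
    have hy1 : U.valuation y = 1 := by
      have : y = 1 + -x := by rw [hx]; ring
      rw [this]
      have := Valuation.map_add_eq_of_lt_left U.valuation (x := 1) (y := -x)
        (by rw [Valuation.map_neg, map_one]; exact hx')
      rw [this, map_one]
    intro z hz
    have hzW : W.valuation z ≤ 1 := (W.valuation_le_one_iff z).mpr hz
    obtain ⟨M, hM⟩ := s36c_bounded D.overV D.unif z halg
    have hW1 : W.valuation (z * y ^ M) ≤ 1 := by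
      rw [map_mul, map_pow, D.wy, one_pow, mul_one]; exact hzW
    have hV1 : V.valuation (z * y ^ M) ≤ 1 := by
      rw [map_mul, map_pow]
      calc V.valuation z * V.valuation y ^ M ≤ V.valuation z * V.valuation (i ϖ) ^ M :=
            mul_le_mul' le_rfl (pow_le_pow_left₀ zero_le D.vy M)
        _ = V.valuation (i ϖ ^ M * z) := by rw [map_mul, map_pow, mul_comm]
        _ ≤ 1 := hM
    have := s36c_fund_inter_le D hB hU _ hV1 hW1
    rw [map_mul, map_pow, hy1, one_pow, mul_one] at this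
    exact (U.valuation_le_one_iff z).mp this

end Conclusions3

/-- The data `s36c_FD` from the raw hypotheses (choice of the approximating element `y`). -/
theorem s36c_exists_FD (i : F₁ →+* F₂) (O : ValuationSubring F₁) (ϖ : F₁)
    (h : s36c_IsUnif O ϖ) (V W : ValuationSubring F₂) (hV : s36c_Over i O V)
    (hW : s36c_Over i O W) (hVW : V ≠ W) (t u : F₂) (e : ℕ) (ht : t ∈ V) (ht' : t⁻¹ ∉ V)
    (htW : t ∈ W) (hu : u ∈ V) (hu' : u⁻¹ ∈ V) (hte : i ϖ = u * t ^ e)
    (halg : ∀ z : F₂, ∃ p : F₁[X], p ≠ 0 ∧ p.eval₂ i z = 0) :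
    ∃ y : F₂, s36c_FD i O ϖ V W t u e y := by
  obtain ⟨y, hvy, hwx⟩ := s36c_approx h hV hW hVW halg
  have ht0 : t ≠ 0 := by
    rintro rfl
    exact ht' (by rw [inv_zero]; exact V.zero_mem)
  have hiϖ0 : i ϖ ≠ 0 := (_root_.map_ne_zero i).mpr (s36c_unif_ne_zero h)
  have hu0 : u ≠ 0 := by
    rintro rfl
    rw [zero_mul] at hte
    exact hiϖ0 hte
  refine ⟨y, ⟨h, hV, hW, ?_, ht0, (W.valuation_le_one_iff t).mpr htW, ?_, hte, hvy, hwx⟩⟩
  · by_contra hcon
    rw [not_lt] at hcon
    apply ht'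
    rw [← V.valuation_le_one_iff, map_inv₀]
    exact inv_le_one_of_one_le₀ hcon
  · apply le_antisymm ((V.valuation_le_one_iff u).mpr hu)
    have h1 : V.valuation u⁻¹ ≤ 1 := (V.valuation_le_one_iff _).mpr hu'
    rw [map_inv₀] at h1
    have hpos : (0 : V.ValueGroup) < V.valuation u :=
      zero_lt_iff.mpr ((_root_.map_ne_zero _).mpr hu0)
    rwa [inv_le_one₀ hpos] at h1

/-- **The fundamental equality, two extensions** (`e + 1 = e · 1 + 1 · 1`). -/
theorem s36c_fund (i : F₁ →+* F₂) (O : ValuationSubring F₁) (ϖ : F₁) (hϖ : ϖ ∈ O)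
    (hϖ' : ϖ⁻¹ ∉ O)
    (hdvr : ∀ x : F₁, x ≠ 0 → ∃ (n : ℤ) (u : F₁), u ∈ O ∧ u⁻¹ ∈ O ∧ x = ϖ ^ n * u)
    (V W : ValuationSubring F₂) (hV : V.comap i = O) (hW : W.comap i = O) (hVW : V ≠ W)
    (t u : F₂) (e : ℕ) (ht : t ∈ V) (ht' : t⁻¹ ∉ V) (htW : t ∈ W) (hu : u ∈ V) (hu' : u⁻¹ ∈ V)
    (hte : i ϖ = u * t ^ e)
    (b : Fin (e + 1) → F₂) (hspan : ∀ y : F₂, ∃ c : Fin (e + 1) → F₁, y = ∑ k, i (c k) * b k) :
    (∀ U : ValuationSubring F₂, U.comap i = O → U = V ∨ U = W) ∧
    (∀ y ∈ V, ∃ r ∈ O, ∃ z ∈ V, y = i r + t * z) ∧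
    (∀ y ∈ W, ∃ r ∈ O, ∃ z ∈ W, y = i r + i ϖ * z) ∧
    (∀ x : F₂, x ≠ 0 → ∃ (n : ℤ) (v : F₂), v ∈ V ∧ v⁻¹ ∈ V ∧ x = t ^ n * v) := by
  have h : s36c_IsUnif O ϖ := ⟨hϖ, hϖ', hdvr⟩
  have halg := s36c_halg_of_span i b hspan
  obtain ⟨y, D⟩ := s36c_exists_FD i O ϖ h V W hV hW hVW t u e ht ht' htW hu hu' hte halg
  have hB := s36c_fund_span D b hspan
  have ht0 : t ≠ 0 := D.t0
  have hiϖ0 : i ϖ ≠ 0 := (_root_.map_ne_zero i).mpr (s36c_unif_ne_zero h)
  have hvt0 : V.valuation t ≠ 0 := (_root_.map_ne_zero _).mpr ht0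
  have hvtpos : (0 : V.ValueGroup) < V.valuation t := zero_lt_iff.mpr hvt0
  refine ⟨fun U hU => s36c_fund_all D halg hB hU, ?_, ?_, ?_⟩
  · intro y' hy'
    obtain ⟨r, hr, hle⟩ := s36c_fund_V D halg hB y' ((V.valuation_le_one_iff _).mpr hy')
    refine ⟨r, hr, (y' - i r) / t, ?_, by field_simp; ring⟩
    rw [← V.valuation_le_one_iff, map_div₀, div_le_one₀ hvtpos]
    exact hle
  · intro y' hy'
    obtain ⟨r, hr, hle⟩ := s36c_fund_W D halg hB y' ((W.valuation_le_one_iff _).mpr hy')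
    have hpos : (0 : W.ValueGroup) < W.valuation (i ϖ) :=
      zero_lt_iff.mpr ((_root_.map_ne_zero _).mpr hiϖ0)
    refine ⟨r, hr, (y' - i r) / i ϖ, ?_, by field_simp; ring⟩
    rw [← W.valuation_le_one_iff, map_div₀, div_le_one₀ hpos]
    exact hle
  · intro x hx0
    have hvx0 : V.valuation x ≠ 0 := (_root_.map_ne_zero _).mpr hx0
    by_cases hx : V.valuation x ≤ 1
    · obtain ⟨n, hn⟩ := s36c_fund_unif_nat D halg hB x hx0 hx
      have htn0 : t ^ n ≠ 0 := pow_ne_zero _ ht0
      have hv1 : V.valuation (x / t ^ n) = 1 := by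
        rw [map_div₀, map_pow, hn]
        exact div_self (pow_ne_zero _ hvt0)
      refine ⟨(n : ℤ), x / t ^ n, ?_, ?_, ?_⟩
      · exact (V.valuation_le_one_iff _).mp hv1.le
      · rw [← V.valuation_le_one_iff, map_inv₀, hv1, inv_one]
      · rw [zpow_natCast]; field_simp
    · rw [not_le] at hx
      have hxinv : V.valuation x⁻¹ ≤ 1 := by
        rw [map_inv₀]; exact (inv_lt_one_of_one_lt₀ hx).le
      obtain ⟨n, hn⟩ := s36c_fund_unif_nat D halg hB x⁻¹ (inv_ne_zero hx0) hxinv
      have htn0 : t ^ n ≠ 0 := pow_ne_zero _ ht0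
      have hv1 : V.valuation (x * t ^ n) = 1 := by
        rw [map_mul, map_pow, ← hn, map_inv₀]
        exact mul_inv_cancel₀ hvx0
      refine ⟨-(n : ℤ), x * t ^ n, ?_, ?_, ?_⟩
      · exact (V.valuation_le_one_iff _).mp hv1.le
      · rw [← V.valuation_le_one_iff, map_inv₀, hv1, inv_one]
      · rw [zpow_neg, zpow_natCast]; field_simp

end Fermat.Agent.Lib.S36
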