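/-
S36 (helper3, on top of lead's `CFund.lean` parts A/B): **Part D of the fundamental equality**, the
"purely inseparable" twin `s36c_fund_insep`: ONE extension `V` of the discrete valuation subring `O`
whose residue field contains `n` elements `1, y₀, …, y₀ ^ (n-1)` independent over the residue field
of `O` (`hind`), in an extension `F₂ / F₁` spanned by `n` elements (`hspan`).  Then
* `V` is the ONLY valuation subring of `F₂` over `O`,
* `V = ⊕ O · y₀ ^ k` (`k < n`),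
* `ϖ` is a uniformiser of `V` (`e = 1`).
Also `s36c_alg_of_span`: algebraicity of `F₂ / F₁` from a finite spanning family.
Mathlib only.
-/
import Fermat.Agent.Lib.S36.CFund

set_option autoImplicit false
set_option linter.style.haveILetI false

namespace Fermat.Agent.Lib.S36

open Polynomial

variable {F₁ F₂ : Type*} [Field F₁] [Field F₂]

/-- Algebraicity of `F₂` over `F₁` (along `i`) from a finite spanning family. -/
theorem s36c_alg_of_span (i : F₁ →+* F₂) {ι : Type*} [Fintype ι] (b : ι → F₂)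
    (hspan : ∀ y : F₂, ∃ c : ι → F₁, y = ∑ k, i (c k) * b k) :
    ∀ z : F₂, ∃ p : F₁[X], p ≠ 0 ∧ p.eval₂ i z = 0 := by
  letI : Algebra F₁ F₂ := i.toAlgebra
  have hsurj : Function.Surjective (Fintype.linearCombination F₁ b) := by
    intro y
    obtain ⟨c, hc⟩ := hspan y
    refine ⟨c, ?_⟩
    rw [Fintype.linearCombination_apply, hc]
    apply Finset.sum_congr rfl
    intro k _
    rw [Algebra.smul_def]
    rfl
  haveI : Module.Finite F₁ F₂ := Module.Finite.of_surjective _ hsurj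
  intro z
  obtain ⟨p, hp, hpz⟩ := Algebra.IsIntegral.isIntegral (R := F₁) z
  exact ⟨p, hp.ne_zero, hpz⟩

section Insep

variable {i : F₁ →+* F₂} {O : ValuationSubring F₁} {ϖ : F₁} {V : ValuationSubring F₂}
  {y₀ : F₂} {n : ℕ}

/-- A combination of the `y₀ ^ k` with coefficients in `O`, one of them equal to `1`, is a unit of
`V`. -/
theorem s36c_insep_unit (h : s36c_IsUnif O ϖ) (hV : s36c_Over i O V) (hy₀ : y₀ ∈ V)
    (hind : ∀ c : Fin n → F₁, (∀ k, c k ∈ O) → (∑ k, i (c k) * y₀ ^ (k : ℕ)) ∈ V.nonunits →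
      ∀ k, ∃ d ∈ O, c k = ϖ * d)
    (c : Fin n → F₁) (hc : ∀ k, c k ∈ O) (k₀ : Fin n) (hk₀ : c k₀ = 1) :
    (∑ k, i (c k) * y₀ ^ (k : ℕ)) ∈ V ∧ V.valuation (∑ k, i (c k) * y₀ ^ (k : ℕ)) = 1 := by
  have hmem : (∑ k, i (c k) * y₀ ^ (k : ℕ)) ∈ V :=
    sum_mem fun k _ => mul_mem ((s36c_over_mem hV).mpr (hc k)) (pow_mem hy₀ _)
  refine ⟨hmem, ?_⟩
  apply le_antisymm ((V.valuation_le_one_iff _).mpr hmem)
  rw [← not_lt, ← ValuationSubring.mem_nonunits_iff]
  intro hnon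
  obtain ⟨d, hd, e⟩ := hind c hc hnon k₀
  rw [hk₀] at e
  apply h.2.1
  have : ϖ⁻¹ = d := inv_eq_of_mul_eq_one_right e.symm
  rw [this]
  exact hd

/-- Scaling: a combination of the `y₀ ^ k` with coefficients in `F₁`, not all zero, is
`(i l)⁻¹ * unit of V` and `l * c k ∈ O`. -/
theorem s36c_insep_scaled (h : s36c_IsUnif O ϖ) (hV : s36c_Over i O V) (hy₀ : y₀ ∈ V)
    (hind : ∀ c : Fin n → F₁, (∀ k, c k ∈ O) → (∑ k, i (c k) * y₀ ^ (k : ℕ)) ∈ V.nonunits →
      ∀ k, ∃ d ∈ O, c k = ϖ * d)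
    (c : Fin n → F₁) (hc : ∃ k, c k ≠ 0) :
    ∃ l : F₁, l ≠ 0 ∧ (∀ k, l * c k ∈ O) ∧
      V.valuation (i l * ∑ k, i (c k) * y₀ ^ (k : ℕ)) = 1 := by
  obtain ⟨k₁, hk₁⟩ := hc
  obtain ⟨l, hl0, hlO, k₀, -, hk₀⟩ := s36c_scale O Finset.univ c ⟨k₁, Finset.mem_univ _, hk₁⟩
  refine ⟨l, hl0, fun k => hlO k (Finset.mem_univ _), ?_⟩
  have := (s36c_insep_unit h hV hy₀ hind (fun k => l * c k)
    (fun k => hlO k (Finset.mem_univ _)) k₀ hk₀).2
  rw [← this, Finset.mul_sum]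
  congr 1
  apply Finset.sum_congr rfl
  intro k _
  rw [map_mul, mul_assoc]

/-- The `y₀ ^ k` are independent over `F₁`. -/
theorem s36c_insep_indep (h : s36c_IsUnif O ϖ) (hV : s36c_Over i O V) (hy₀ : y₀ ∈ V)
    (hind : ∀ c : Fin n → F₁, (∀ k, c k ∈ O) → (∑ k, i (c k) * y₀ ^ (k : ℕ)) ∈ V.nonunits →
      ∀ k, ∃ d ∈ O, c k = ϖ * d)
    (c : Fin n → F₁) (hc : ∑ k, i (c k) * y₀ ^ (k : ℕ) = 0) : ∀ k, c k = 0 := by
  by_contra hne
  push Not at hne
  obtain ⟨l, -, -, hl1⟩ := s36c_insep_scaled h hV hy₀ hind c hne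
  rw [hc, mul_zero, map_zero] at hl1
  exact zero_ne_one hl1

/-- The `y₀ ^ k` span `F₂` over `F₁`. -/
theorem s36c_insep_span (h : s36c_IsUnif O ϖ) (hV : s36c_Over i O V) (hy₀ : y₀ ∈ V)
    (hind : ∀ c : Fin n → F₁, (∀ k, c k ∈ O) → (∑ k, i (c k) * y₀ ^ (k : ℕ)) ∈ V.nonunits →
      ∀ k, ∃ d ∈ O, c k = ϖ * d)
    (b : Fin n → F₂) (hspan : ∀ y : F₂, ∃ c : Fin n → F₁, y = ∑ k, i (c k) * b k) (z : F₂) :
    ∃ c : Fin n → F₁, z = ∑ k, i (c k) * y₀ ^ (k : ℕ) := by
  letI : Algebra F₁ F₂ := i.toAlgebra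
  have hsm : ∀ (a : F₁) (x : F₂), a • x = i a * x := fun a x => by
    rw [Algebra.smul_def]; rfl
  have hsurj : Function.Surjective (Fintype.linearCombination F₁ b) := by
    intro y
    obtain ⟨c, hc⟩ := hspan y
    refine ⟨c, ?_⟩
    rw [Fintype.linearCombination_apply, hc]
    exact Finset.sum_congr rfl fun k _ => hsm _ _
  haveI : Module.Finite F₁ F₂ := Module.Finite.of_surjective _ hsurj
  have hli : LinearIndependent F₁ (fun k : Fin n => y₀ ^ (k : ℕ)) := by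
    rw [Fintype.linearIndependent_iff]
    intro c hc
    apply s36c_insep_indep h hV hy₀ hind c
    rw [← hc]
    exact Finset.sum_congr rfl fun k _ => (hsm _ _).symm
  have hle : Module.finrank F₁ F₂ ≤ n := by
    have h1 : Submodule.span F₁ (Set.range b) = ⊤ := by
      rw [← Fintype.range_linearCombination]
      exact LinearMap.range_eq_top.mpr hsurj
    have h2 := finrank_range_le_card (R := F₁) b
    rw [Set.finrank, h1, finrank_top, Fintype.card_fin] at h2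
    exact h2
  have hge : n ≤ Module.finrank F₁ F₂ := by
    have := hli.fintype_card_le_finrank
    rwa [Fintype.card_fin] at this
  have htop : Submodule.span F₁ (Set.range fun k : Fin n => y₀ ^ (k : ℕ)) = ⊤ :=
    hli.span_eq_top_of_card_eq_finrank' (by rw [Fintype.card_fin]; omega)
  have hz : z ∈ Submodule.span F₁ (Set.range fun k : Fin n => y₀ ^ (k : ℕ)) := by
    rw [htop]; trivial
  obtain ⟨c, hc⟩ := (Submodule.mem_span_range_iff_exists_fun F₁).mp hz
  refine ⟨c, ?_⟩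
  rw [← hc]
  exact Finset.sum_congr rfl fun k _ => hsm _ _

end Insep

/-- **The fundamental equality, purely inseparable twin** (`e = 1`, `f = n`). -/
theorem s36c_fund_insep (i : F₁ →+* F₂) (O : ValuationSubring F₁) (ϖ : F₁) (h : s36c_IsUnif O ϖ)
    (V : ValuationSubring F₂) (hV : s36c_Over i O V) (y₀ : F₂) (hy₀ : y₀ ∈ V) (n : ℕ)
    (hind : ∀ c : Fin n → F₁, (∀ k, c k ∈ O) → (∑ k, i (c k) * y₀ ^ (k : ℕ)) ∈ V.nonunits →
      ∀ k, ∃ d ∈ O, c k = ϖ * d)
    (b : Fin n → F₂) (hspan : ∀ y : F₂, ∃ c : Fin n → F₁, y = ∑ k, i (c k) * b k) :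
    (∀ U : ValuationSubring F₂, s36c_Over i O U → U = V) ∧
    (∀ y ∈ V, ∃ c : Fin n → F₁, (∀ k, c k ∈ O) ∧ y = ∑ k, i (c k) * y₀ ^ (k : ℕ)) ∧
    (∀ x : F₂, x ≠ 0 → ∃ (m : ℤ) (v : F₂), v ∈ V ∧ v⁻¹ ∈ V ∧ x = i ϖ ^ m * v) := by
  have halg := s36c_alg_of_span i b hspan
  have hϖ0 := s36c_unif_ne_zero h
  -- (B) the integral basis
  have hB : ∀ y ∈ V, ∃ c : Fin n → F₁, (∀ k, c k ∈ O) ∧ y = ∑ k, i (c k) * y₀ ^ (k : ℕ) := by
    intro y hy
    by_cases hy0 : y = 0
    · exact ⟨fun _ => 0, fun _ => O.zero_mem, by simp [hy0]⟩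
    obtain ⟨c, hc⟩ := s36c_insep_span h hV hy₀ hind b hspan y
    have hne : ∃ k, c k ≠ 0 := by
      by_contra hall
      push Not at hall
      apply hy0
      rw [hc]
      exact Finset.sum_eq_zero fun k _ => by rw [hall k, map_zero, zero_mul]
    obtain ⟨l, hl0, hlO, hl1⟩ := s36c_insep_scaled h hV hy₀ hind c hne
    rw [← hc, map_mul] at hl1
    have hvy : V.valuation y ≤ 1 := (V.valuation_le_one_iff _).mpr hy
    have hvy0 : V.valuation y ≠ 0 := (_root_.map_ne_zero _).mpr hy0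
    -- `l⁻¹ ∈ O`
    have hlinv : l⁻¹ ∈ O := by
      rw [← s36c_over_mem hV, ← V.valuation_le_one_iff, map_inv₀, map_inv₀]
      have : (V.valuation (i l))⁻¹ = V.valuation y := by
        rw [inv_eq_iff_eq_inv]
        exact eq_inv_of_mul_eq_one_left hl1
      rw [this]
      exact hvy
    refine ⟨c, fun k => ?_, hc⟩
    have : c k = l⁻¹ * (l * c k) := by
      rw [← mul_assoc, inv_mul_cancel₀ hl0, one_mul]
    rw [this]
    exact mul_mem hlinv (hlO k)
  refine ⟨?_, hB, ?_⟩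
  · -- (A) uniqueness
    intro U hU
    symm
    apply s36c_eq_of_le hV hU h halg
    -- `y₀ ∈ U`
    have hy₀U : y₀ ∈ U := by
      by_contra hnot
      have hv : 1 < U.valuation y₀ := by
        rw [← not_le, U.valuation_le_one_iff]; exact hnot
      obtain ⟨c, hcO, hc⟩ := hB (y₀ ^ n) (pow_mem hy₀ n)
      have hpos : (0 : U.ValueGroup) < U.valuation y₀ := lt_trans one_pos hv
      have hlt : U.valuation (∑ k, i (c k) * y₀ ^ (k : ℕ)) < U.valuation y₀ ^ n := by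
        apply Valuation.map_sum_lt _ (pow_pos hpos n).ne'
        intro k _
        rw [map_mul, map_pow]
        calc U.valuation (i (c k)) * U.valuation y₀ ^ (k : ℕ)
            ≤ 1 * U.valuation y₀ ^ (k : ℕ) := mul_le_mul' (s36c_over_val_le hU (hcO k)) le_rfl
          _ = U.valuation y₀ ^ (k : ℕ) := one_mul _
          _ < U.valuation y₀ ^ n := pow_lt_pow_right₀ hv k.2
      rw [← hc, map_pow] at hlt
      exact lt_irrefl _ hlt
    intro y hy
    obtain ⟨c, hcO, hc⟩ := hB y hy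
    rw [hc]
    exact sum_mem fun k _ => mul_mem ((s36c_over_mem hU).mpr (hcO k)) (pow_mem hy₀U _)
  · -- (C) `ϖ` is a uniformiser of `V`
    intro x hx0
    obtain ⟨c, hc⟩ := s36c_insep_span h hV hy₀ hind b hspan x
    have hne : ∃ k, c k ≠ 0 := by
      by_contra hall
      push Not at hall
      apply hx0
      rw [hc]
      exact Finset.sum_eq_zero fun k _ => by rw [hall k, map_zero, zero_mul]
    obtain ⟨l, hl0, hlO, hl1⟩ := s36c_insep_scaled h hV hy₀ hind c hne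
    rw [← hc] at hl1
    obtain ⟨m, u, hu, hu', e⟩ := h.2.2 l hl0
    have hu0 : u ≠ 0 := by
      rintro rfl
      rw [mul_zero] at e
      exact hl0 e
    have hil0 : i l ≠ 0 := (_root_.map_ne_zero i).mpr hl0
    have hiu0 : i u ≠ 0 := (_root_.map_ne_zero i).mpr hu0
    have hiϖ0 : i ϖ ≠ 0 := (_root_.map_ne_zero i).mpr hϖ0
    -- `w = i l * x` is a unit of `V`
    have hw : i l * x ∈ V := (V.valuation_le_one_iff _).mp hl1.le
    have hw' : (i l * x)⁻¹ ∈ V := by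
      rw [← V.valuation_le_one_iff, map_inv₀, hl1, inv_one]
    refine ⟨-m, (i u)⁻¹ * (i l * x), ?_, ?_, ?_⟩
    · refine mul_mem ?_ hw
      rw [← map_inv₀]
      exact (s36c_over_mem hV).mpr hu'
    · rw [mul_inv, inv_inv]
      exact mul_mem ((s36c_over_mem hV).mpr hu) hw'
    · have hil : i l = i ϖ ^ m * i u := by
        rw [e, map_mul, map_zpow₀]
      rw [hil, zpow_neg]
      field_simp
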