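/-
S36 (lead): Newton/Hensel lemmas of `Lib/S18/CNewton.lean` for an ideal `I` that is only
"nilpotent modulo `π`" (`π ∈ I`, `I ^ e ≤ (π)`; in the application `I = rad(πB)`, `e = q - 1`,
`B` a chart ring or the three-valuation ring of level `q²M''` where the middle component has
multiplicity `q - 1`).  Pure algebra, Mathlib + `s18c_exists_pow_eq` only.

* `s36c_exists_pow_sub_mem`: `m` a unit of `B`, `ε ∈ 1 + I`: for every `n` there is `w ∈ 1 + I`
  with `w ^ m - ε ∈ π ^ n B`.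
* `s36c_sub_mem_of_pow_sub_mem`: if `I` lies in the Jacobson radical, `m` is a unit,
  `a₁, a₂ ∈ 1 + I` and `a₁ ^ m - a₂ ^ m ∈ K` (any ideal `K`) then `a₁ - a₂ ∈ K`.
* `s36c_exists_pow_sub_mem_of_mul`: the form used for `f ≡ c · g ^ m mod I` with `c = c₀ ^ m`.
-/
import Fermat.Agent.Lib.S18.CNewton

set_option autoImplicit false

namespace Fermat.Agent.Lib.S36

open Fermat.Agent.Lib.S18

variable {B : Type*} [CommRing B]

theorem s36c_exists_pow_sub_mem (I : Ideal B) (π : B) (hπI : π ∈ I) (e : ℕ)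
    (hIe : I ^ e ≤ Ideal.span {π}) (m : ℕ) (hm : IsUnit (m : B)) (ε : B) (hε : ε - 1 ∈ I)
    (n : ℕ) : ∃ w : B, w - 1 ∈ I ∧ w ^ m - ε ∈ Ideal.span {π ^ n} := by
  by_cases hn : n = 0
  · subst hn
    refine ⟨1, by simp, ?_⟩
    simp only [pow_zero]
    rw [Ideal.span_singleton_one]
    trivial
  let J : Ideal B := Ideal.span {π ^ n}
  let q := Ideal.Quotient.mk J
  have hq : Function.Surjective q := Ideal.Quotient.mk_surjective
  let I' : Ideal (B ⧸ J) := I.map q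
  have hI' : I' ^ (e * n) = ⊥ := by
    rw [eq_bot_iff]
    have h1 : I ^ (e * n) ≤ J := by
      rw [pow_mul]
      calc (I ^ e) ^ n ≤ (Ideal.span {π}) ^ n := Ideal.pow_right_mono hIe n
        _ = J := by rw [Ideal.span_singleton_pow]
    have h2 : I' ^ (e * n) = (I ^ (e * n)).map q := (Ideal.map_pow q I (e * n)).symm
    rw [h2]
    calc (I ^ (e * n)).map q ≤ J.map q := Ideal.map_mono h1
      _ = ⊥ := by
        rw [Ideal.map_eq_bot_iff_le_ker, Ideal.mk_ker]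
  have hmq : IsUnit ((m : B ⧸ J)) := by
    have := hm.map q
    simpa using this
  have hεq : q ε - 1 ∈ I' := by
    rw [← map_one q, ← map_sub]
    exact Ideal.mem_map_of_mem q hε
  obtain ⟨w', hw'1, hw'⟩ := s18c_exists_pow_eq I' (e * n) hI' m hmq (q ε) hεq
  obtain ⟨w₀, rfl⟩ := hq w'
  obtain ⟨x, hxI, hx⟩ := (Ideal.mem_map_iff_of_surjective q hq).mp hw'1
  have h1 : w₀ - 1 - x ∈ J := by
    rw [← Ideal.Quotient.eq_zero_iff_mem]
    simp only [map_sub, map_one]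
    rw [hx]; ring
  have hle : J ≤ I := by
    rw [Ideal.span_le]
    rintro y rfl
    obtain ⟨k, rfl⟩ := Nat.exists_eq_succ_of_ne_zero hn
    rw [pow_succ]
    exact Ideal.mul_mem_left _ _ hπI
  refine ⟨w₀, ?_, ?_⟩
  · have : w₀ - 1 = (w₀ - 1 - x) + x := by ring
    rw [this]
    exact Ideal.add_mem _ (hle h1) hxI
  · rw [← Ideal.Quotient.eq_zero_iff_mem]
    simp only [map_sub, map_pow]
    rw [hw', sub_self]

theorem s36c_sub_mem_of_pow_sub_mem (I : Ideal B) (hI : I ≤ (⊥ : Ideal B).jacobson) (m : ℕ)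
    (hm : IsUnit (m : B)) (a₁ a₂ : B) (h₁ : a₁ - 1 ∈ I) (h₂ : a₂ - 1 ∈ I)
    (K : Ideal B) (h : a₁ ^ m - a₂ ^ m ∈ K) : a₁ - a₂ ∈ K := by
  set s : B := ∑ i ∈ Finset.range m, a₁ ^ i * a₂ ^ (m - 1 - i) with hs
  have hsmul : s * (a₁ - a₂) = a₁ ^ m - a₂ ^ m := (Commute.all a₁ a₂).geom_sum₂_mul m
  have hsm : s - (m : B) ∈ I := by
    have hterm : ∀ i ∈ Finset.range m, a₁ ^ i * a₂ ^ (m - 1 - i) - 1 ∈ I := by
      intro i _
      have e1 : a₁ ^ i - 1 ∈ I := by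
        have := sub_dvd_pow_sub_pow a₁ 1 i
        rw [one_pow] at this
        exact Ideal.mem_of_dvd _ this h₁
      have e2 : a₂ ^ (m - 1 - i) - 1 ∈ I := by
        have := sub_dvd_pow_sub_pow a₂ 1 (m - 1 - i)
        rw [one_pow] at this
        exact Ideal.mem_of_dvd _ this h₂
      have : a₁ ^ i * a₂ ^ (m - 1 - i) - 1
          = (a₁ ^ i - 1) * a₂ ^ (m - 1 - i) + (a₂ ^ (m - 1 - i) - 1) := by ring
      rw [this]
      exact Ideal.add_mem _ (Ideal.mul_mem_right _ _ e1) e2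
    have : s - (m : B) = ∑ i ∈ Finset.range m, (a₁ ^ i * a₂ ^ (m - 1 - i) - 1) := by
      rw [Finset.sum_sub_distrib, hs]
      simp
    rw [this]
    exact Ideal.sum_mem _ hterm
  have hsunit : IsUnit s := by
    obtain ⟨u, hu⟩ := hm
    have h1 : IsUnit (1 + ((u⁻¹ : Bˣ) : B) * (s - (m : B))) := by
      have hmem : ((u⁻¹ : Bˣ) : B) * (s - (m : B)) ∈ (⊥ : Ideal B).jacobson :=
        Ideal.mul_mem_left _ _ (hI hsm)
      have := (Ideal.mem_jacobson_bot.mp hmem) 1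
      simpa [mul_one, add_comm] using this
    have h2 : s = (u : B) * (1 + ((u⁻¹ : Bˣ) : B) * (s - (m : B))) := by
      have hu1 : (u : B) * ((u⁻¹ : Bˣ) : B) = 1 := by simp
      calc s = (u : B) + ((u : B) * ((u⁻¹ : Bˣ) : B)) * (s - (m : B)) := by
            rw [hu1, one_mul, hu]; ring
        _ = (u : B) * (1 + ((u⁻¹ : Bˣ) : B) * (s - (m : B))) := by ring
    rw [h2]
    exact u.isUnit.mul h1
  obtain ⟨us, hus⟩ := hsunit
  have : a₁ - a₂ = ((us⁻¹ : Bˣ) : B) * (a₁ ^ m - a₂ ^ m) := by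
    rw [← hsmul, ← hus, ← mul_assoc]
    simp
  rw [this]
  exact Ideal.mul_mem_left _ _ h

/-- The shape used in the toric step: `f ≡ c₀ ^ m · g ^ m mod I` with `c₀ g` a unit of `B`:
then for every `n` there is `a ≡ c₀ g mod I` with `a ^ m ≡ f mod π ^ n`. -/
theorem s36c_exists_pow_sub_mem_of_mul (I : Ideal B) (π : B) (hπI : π ∈ I) (e : ℕ)
    (hIe : I ^ e ≤ Ideal.span {π}) (m : ℕ) (hm : IsUnit (m : B)) (f g : B) (hg : IsUnit g)
    (hfg : f - g ^ m ∈ I) (n : ℕ) :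
    ∃ a : B, a - g ∈ I ∧ a ^ m - f ∈ Ideal.span {π ^ n} := by
  obtain ⟨u, rfl⟩ := hg
  set ε : B := ((u⁻¹ : Bˣ) : B) ^ m * f with hεdef
  have hε : ε - 1 ∈ I := by
    have : ε - 1 = ((u⁻¹ : Bˣ) : B) ^ m * (f - (u : B) ^ m) := by
      rw [hεdef, mul_sub, ← mul_pow]; simp
    rw [this]
    exact Ideal.mul_mem_left _ _ hfg
  obtain ⟨w, hw1, hw⟩ := s36c_exists_pow_sub_mem I π hπI e hIe m hm ε hε n
  refine ⟨(u : B) * w, ?_, ?_⟩
  · have : (u : B) * w - u = (u : B) * (w - 1) := by ring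
    rw [this]
    exact Ideal.mul_mem_left _ _ hw1
  · have hu1 : (u : B) ^ m * ((u⁻¹ : Bˣ) : B) ^ m = 1 := by
      rw [← mul_pow]; simp
    have : ((u : B) * w) ^ m - f = (u : B) ^ m * (w ^ m - ε) := by
      rw [hεdef, mul_pow, mul_sub, ← mul_assoc, hu1, one_mul]
    rw [this]
    exact Ideal.mul_mem_left _ _ hw

end Fermat.Agent.Lib.S36
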