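/-
S36 (lead): "UFD in dimension two" in the elementary form needed for local equations of places of
ARBITRARY degree through a closed point of a regular arithmetic surface.

`R` a noetherian local domain whose maximal ideal is generated by two elements `w, s` such that
`(w)` is a nonzero prime ideal and `s ∉ (w)` (so `w, s` is a regular sequence).  Then every prime
ideal `𝔭 ≠ 𝔪_R` is principal.

Proof (no homological algebra): take a generating family `a₁ … a_n` of `𝔭` with `n` minimal.
A relation `∑ r_i a_i = 0` has all `r_i ∈ 𝔪` (minimality).  Write `r_i = w c_i + s d_i`; then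
`w (∑ c_i a_i) + s (∑ d_i a_i) = 0`, so `∑ c_i a_i = s C`, `∑ d_i a_i = - w C`, and `C ∈ 𝔭` because
`w, s` are not both in `𝔭`.  With `C = ∑ e_i a_i` one gets `r = w r' + s r''` with `r', r''` again
relations; by induction all `r_i ∈ ⋂ 𝔪^k = 0` (Krull).  So there are no relations, hence `n ≤ 1`
(`a₂ · a₁ - a₁ · a₂ = 0`).

* `s36c_regular_pair`        : the regular-sequence property of `(w, s)`;
* `s36c_prime_isPrincipal`   : the theorem;
* `s36c_prime_isPrincipal_of_red` : the same with `(w) = ker r` for a ring hom `r : R →+* κ` into a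
  domain (`hK : ∀ a, r a = 0 → ∃ c, a = w * c`, `r w = 0`, `r s ≠ 0`) — the shape in which the
  three kinds of closed points of the level-`q²N'` fibre deliver it.
-/
import Mathlib

set_option autoImplicit false

namespace Fermat.Agent.Lib.S36

open IsLocalRing

variable {R : Type*} [CommRing R] [IsDomain R]

/-- `(w, s)` is a regular sequence when `(w)` is a nonzero prime ideal and `s ∉ (w)`. -/
theorem s36c_regular_pair (w s : R) (hw : (Ideal.span {w}).IsPrime) (hw0 : w ≠ 0)
    (hs : s ∉ Ideal.span {w}) (A B : R) (h : w * A + s * B = 0) :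
    ∃ C, A = s * C ∧ B = -(w * C) := by
  have h1 : s * B ∈ Ideal.span {w} := by
    have : s * B = w * (-A) := by linear_combination h
    rw [this]
    exact Ideal.mul_mem_right _ _ (Ideal.subset_span rfl)
  rcases hw.mem_or_mem h1 with h2 | h2
  · exact absurd h2 hs
  · obtain ⟨B', hB'⟩ := Ideal.mem_span_singleton'.mp h2
    refine ⟨-B', ?_, ?_⟩
    · have h3 : w * (A + s * B') = 0 := by
        rw [← hB'] at h
        linear_combination h
      rcases mul_eq_zero.mp h3 with h4 | h4
      · exact absurd h4 hw0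
      · linear_combination h4
    · rw [← hB']; ring

variable [IsNoetherianRing R] [IsLocalRing R]

/-- **Every prime `≠ 𝔪` of a two-dimensional regular local domain is principal** (elementary
form: `𝔪 = (w, s)`, `(w)` a nonzero prime, `s ∉ (w)`). -/
theorem s36c_prime_isPrincipal (w s : R) (hm : maximalIdeal R = Ideal.span {w, s})
    (hw : (Ideal.span {w}).IsPrime) (hw0 : w ≠ 0) (hs : s ∉ Ideal.span {w})
    (𝔭 : Ideal R) [h𝔭 : 𝔭.IsPrime] (hne : 𝔭 ≠ maximalIdeal R) : Submodule.IsPrincipal 𝔭 := by
  classical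
  have hfg : 𝔭.FG := IsNoetherian.noetherian 𝔭
  have hex : ∃ n : ℕ, ∃ a : Fin n → R, Ideal.span (Set.range a) = 𝔭 := by
    obtain ⟨n, a, ha⟩ := Submodule.fg_iff_exists_fin_generating_family.mp hfg
    exact ⟨n, a, ha⟩
  obtain ⟨n, ⟨a, ha⟩, hmin⟩ : ∃ n, (∃ a : Fin n → R, Ideal.span (Set.range a) = 𝔭) ∧
      ∀ k < n, ¬ ∃ a : Fin k → R, Ideal.span (Set.range a) = 𝔭 :=
    ⟨Nat.find hex, Nat.find_spec hex, fun k hk => Nat.find_min hex hk⟩
  have ha𝔭 : ∀ i, a i ∈ 𝔭 := fun i => by
    rw [← ha]; exact Ideal.subset_span ⟨i, rfl⟩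
  have hwm : w ∈ maximalIdeal R := by rw [hm]; exact Ideal.subset_span (by simp)
  have hsm : s ∈ maximalIdeal R := by rw [hm]; exact Ideal.subset_span (by simp)
  -- (A) relations have coefficients in the maximal ideal
  have hA : ∀ r : Fin n → R, ∑ i, r i * a i = 0 → ∀ i, r i ∈ maximalIdeal R := by
    intro r hr i
    by_contra hunit
    have hu : IsUnit (r i) := by
      by_contra h
      exact hunit ((mem_maximalIdeal _).mpr (mem_nonunits_iff.mpr h))
    obtain ⟨k, rfl⟩ : ∃ k, n = k + 1 := ⟨n - 1, by have := i.pos; omega⟩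
    apply hmin k (Nat.lt_succ_self k)
    refine ⟨a ∘ i.succAbove, ?_⟩
    apply le_antisymm
    · rw [Ideal.span_le]
      rintro _ ⟨j, rfl⟩
      exact ha𝔭 _
    · rw [← ha, Ideal.span_le]
      rintro _ ⟨j, rfl⟩
      by_cases hj : j = i
      · subst hj
        obtain ⟨u, hu⟩ := hu
        have hsum := hr
        rw [Fin.sum_univ_succAbove _ j] at hsum
        have h1 : (↑u⁻¹ : R) * (r j * a j) = a j := by
          rw [← hu, ← mul_assoc]; simp
        have h2 : a j = -(↑u⁻¹ : R) * ∑ j', r (j.succAbove j') * a (j.succAbove j') := by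
          rw [← h1]
          linear_combination (↑u⁻¹ : R) * hsum
        rw [h2]
        apply Ideal.mul_mem_left
        apply Ideal.sum_mem
        intro j' _
        exact Ideal.mul_mem_left _ _ (Ideal.subset_span ⟨j', rfl⟩)
      · obtain ⟨j', rfl⟩ := Fin.exists_succAbove_eq hj
        exact Ideal.subset_span ⟨j', rfl⟩
  -- `w, s` are not both in `𝔭`
  have hws : w ∉ 𝔭 ∨ s ∉ 𝔭 := by
    by_contra h
    push Not at h
    apply hne
    apply le_antisymm (le_maximalIdeal h𝔭.ne_top)
    rw [hm, Ideal.span_le]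
    rintro x hx
    rcases hx with rfl | hx
    · exact h.1
    · rw [Set.mem_singleton_iff] at hx
      subst hx
      exact h.2
  -- (B) every relation is `w r' + s r''` with `r', r''` relations
  have hB : ∀ r : Fin n → R, ∑ i, r i * a i = 0 → ∃ r' r'' : Fin n → R,
      (∑ i, r' i * a i = 0) ∧ (∑ i, r'' i * a i = 0) ∧ ∀ i, r i = w * r' i + s * r'' i := by
    intro r hr
    have hdec : ∀ i, ∃ c d, c * w + d * s = r i := fun i => by
      have := hA r hr i
      rw [hm] at this
      exact Ideal.mem_span_pair.mp this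
    choose c d hcd using hdec
    have hrel : w * (∑ i, c i * a i) + s * (∑ i, d i * a i) = 0 := by
      rw [Finset.mul_sum, Finset.mul_sum, ← Finset.sum_add_distrib, ← hr]
      apply Finset.sum_congr rfl
      intro i _
      rw [← hcd i]; ring
    obtain ⟨C, hC1, hC2⟩ := s36c_regular_pair w s hw hw0 hs _ _ hrel
    have hC𝔭 : C ∈ 𝔭 := by
      have h1 : s * C ∈ 𝔭 := by
        rw [← hC1]
        exact Ideal.sum_mem _ (fun i _ => Ideal.mul_mem_left _ _ (ha𝔭 i))
      have h2 : w * C ∈ 𝔭 := by
        have : w * C = -(∑ i, d i * a i) := by rw [hC2]; ring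
        rw [this]
        exact Ideal.neg_mem_iff _ |>.mpr
          (Ideal.sum_mem _ (fun i _ => Ideal.mul_mem_left _ _ (ha𝔭 i)))
      rcases hws with h | h
      · exact (h𝔭.mem_or_mem h2).resolve_left h
      · exact (h𝔭.mem_or_mem h1).resolve_left h
    obtain ⟨e, he⟩ : ∃ e : Fin n → R, ∑ i, e i * a i = C := by
      rw [← ha] at hC𝔭
      exact Ideal.mem_span_range_iff_exists_fun.mp hC𝔭
    refine ⟨fun i => c i - s * e i, fun i => d i + w * e i, ?_, ?_, ?_⟩
    · have : ∑ i, (c i - s * e i) * a i = ∑ i, c i * a i - s * ∑ i, e i * a i := by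
        rw [Finset.mul_sum, ← Finset.sum_sub_distrib]
        apply Finset.sum_congr rfl
        intro i _; ring
      rw [this, he, hC1]; ring
    · have : ∑ i, (d i + w * e i) * a i = ∑ i, d i * a i + w * ∑ i, e i * a i := by
        rw [Finset.mul_sum, ← Finset.sum_add_distrib]
        apply Finset.sum_congr rfl
        intro i _; ring
      rw [this, he, hC2]; ring
    · intro i
      rw [← hcd i]; ring
  -- all coefficients of relations lie in every power of the maximal ideal
  have hpow : ∀ k : ℕ, ∀ r : Fin n → R, ∑ i, r i * a i = 0 → ∀ i, r i ∈ maximalIdeal R ^ k := by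
    intro k
    induction k with
    | zero => intro r _ i; simp
    | succ k ih =>
      intro r hr i
      obtain ⟨r', r'', h', h'', hdec⟩ := hB r hr
      rw [hdec i, pow_succ']
      exact Ideal.add_mem _ (Ideal.mul_mem_mul hwm (ih r' h' i))
        (Ideal.mul_mem_mul hsm (ih r'' h'' i))
  have hzero : ∀ r : Fin n → R, ∑ i, r i * a i = 0 → ∀ i, r i = 0 := by
    intro r hr i
    have h1 : r i ∈ (⨅ k, maximalIdeal R ^ k : Ideal R) := by
      rw [Ideal.mem_iInf]
      exact fun k => hpow k r hr i
    rw [Ideal.iInf_pow_eq_bot_of_isLocalRing _ (maximalIdeal.isMaximal R).ne_top] at h1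
    exact (Ideal.mem_bot).mp h1
  -- hence `n ≤ 1`
  have hn : n ≤ 1 := by
    by_contra hlt
    push Not at hlt
    let i0 : Fin n := ⟨0, by omega⟩
    let i1 : Fin n := ⟨1, by omega⟩
    have h01 : i0 ≠ i1 := by
      intro h
      have := congrArg Fin.val h
      simp [i0, i1] at this
    have hr : ∑ i, (Pi.single i0 (a i1) - Pi.single i1 (a i0) : Fin n → R) i * a i = 0 := by
      simp only [Pi.sub_apply, sub_mul, Finset.sum_sub_distrib, Pi.single_apply, ite_mul, zero_mul,
        Finset.sum_ite_eq', Finset.mem_univ, if_true]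
      ring
    have h1 := hzero _ hr i0
    simp only [Pi.sub_apply, Pi.single_apply, if_true, if_neg h01, sub_zero] at h1
    have hr2 : ∑ i, (Pi.single i1 1 : Fin n → R) i * a i = 0 := by
      simp only [Pi.single_apply, ite_mul, one_mul, zero_mul, Finset.sum_ite_eq', Finset.mem_univ,
        if_true]
      exact h1
    have h2 := hzero _ hr2 i1
    simp at h2
  interval_cases n
  · have : 𝔭 = ⊥ := by
      rw [← ha]
      simp
    rw [this]
    exact bot_isPrincipal
  · refine ⟨⟨a 0, ?_⟩⟩
    rw [← ha]
    show Ideal.span (Set.range a) = Ideal.span {a 0}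
    congr 1
    ext x
    constructor
    · rintro ⟨j, rfl⟩
      have : j = 0 := Subsingleton.elim _ _
      rw [this]; rfl
    · intro hx
      exact ⟨0, hx.symm⟩

/-- The same with `(w)` given as the kernel of a reduction map into a domain. -/
theorem s36c_prime_isPrincipal_of_red {κ : Type*} [CommRing κ] [IsDomain κ] (r : R →+* κ)
    (w s : R) (hm : maximalIdeal R = Ideal.span {w, s})
    (hK : ∀ a, r a = 0 → ∃ c, a = w * c) (hrw : r w = 0) (hw0 : w ≠ 0) (hrs : r s ≠ 0)
    (𝔭 : Ideal R) [h𝔭 : 𝔭.IsPrime] (hne : 𝔭 ≠ maximalIdeal R) : Submodule.IsPrincipal 𝔭 := by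
  have hker : Ideal.span {w} = RingHom.ker r := by
    apply le_antisymm
    · rw [Ideal.span_le]
      rintro x rfl
      exact hrw
    · intro a ha
      obtain ⟨c, rfl⟩ := hK a ha
      exact Ideal.mul_mem_right _ _ (Ideal.subset_span rfl)
  have hw : (Ideal.span {w}).IsPrime := by
    rw [hker]
    exact RingHom.ker_isPrime r
  have hs : s ∉ Ideal.span {w} := by
    rw [hker]
    exact hrs
  exact s36c_prime_isPrincipal w s hm hw hw0 hs 𝔭 hne

end Fermat.Agent.Lib.S36
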