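/-
S36 project, GEOMETRY side (lead, prefix `s36g_`): WEAK APPROXIMATION for finitely many pairwise
distinct valuation rings of rank one (Mathlib only) — the field `approx` of `s36g_RootFrame`.

* `s36g_not_le_of_ne`      : archimedean + a non-trivial non-unit: distinct rings are incomparable;
* `s36g_exists_sep`        : an element large at `V i`, small at `V j`;
* `s36g_exists_sep_finset` : an element large at `V i`, small at finitely many other rings;
* `s36g_approx_fintype`    : `∃ x, ∀ i, x - g i ∈ (V i).nonunits` for `g i ∈ V i`, `[Fintype ι]`;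
* `s36g_approx_three`      : the `Fin 3` case in the shape of the frame field.
-/
import Mathlib

set_option autoImplicit false

namespace Fermat.Agent.Lib.S36

section approx

variable {K : Type*} [Field K] {ι : Type*} (V : ι → ValuationSubring K)

/-- rank one + a non-trivial non-unit: pairwise distinct rings are pairwise incomparable. -/
theorem s36g_not_le_of_ne
    (hA : ∀ i, ∀ b ∈ (V i).nonunits, b ≠ 0 → ∀ y : K, ∃ k : ℕ, b ^ k * y ∈ V i)
    (hnt : ∀ i, ∃ b ∈ (V i).nonunits, b ≠ 0) {i j : ι} (hne : V i ≠ V j) : ¬ V i ≤ V j := by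
  intro hle
  obtain ⟨y, hyj, hyi⟩ := SetLike.exists_of_lt (lt_of_le_of_ne hle hne)
  have hy0 : y ≠ 0 := by
    rintro rfl
    exact hyi (V i).zero_mem
  have hbi : y⁻¹ ∈ (V i).nonunits := by
    rw [ValuationSubring.mem_nonunits_iff_or, inv_inv]
    exact Or.inr hyi
  obtain ⟨c, hc, hc0⟩ := hnt j
  obtain ⟨k, hk⟩ := hA i y⁻¹ hbi (inv_ne_zero hy0) c⁻¹
  have h1 : c⁻¹ = y ^ k * (y⁻¹ ^ k * c⁻¹) := by
    rw [← mul_assoc, ← mul_pow, mul_inv_cancel₀ hy0, one_pow, one_mul]
  have h2 : c⁻¹ ∈ V j := by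
    rw [h1]
    exact (V j).mul_mem _ _ (pow_mem hyj k) (hle hk)
  rw [ValuationSubring.mem_nonunits_iff_or] at hc
  rcases hc with hc | hc
  · exact hc0 hc
  · exact hc h2

/-- a separating element for two incomparable rings. -/
theorem s36g_exists_sep {i j : ι} (hij : ¬ V i ≤ V j) (hji : ¬ V j ≤ V i) :
    ∃ z : K, 1 < (V i).valuation z ∧ (V j).valuation z < 1 := by
  obtain ⟨a, hai, haj⟩ := SetLike.not_le_iff_exists.mp hij
  obtain ⟨b, hbj, hbi⟩ := SetLike.not_le_iff_exists.mp hji
  have ha0 : a ≠ 0 := by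
    rintro rfl
    exact haj (V j).zero_mem
  have h1 : (V i).valuation a ≤ 1 := ((V i).valuation_le_one_iff a).mpr hai
  have h2 : 1 < (V j).valuation a := by
    rw [← not_le, (V j).valuation_le_one_iff]
    exact haj
  have h3 : (V j).valuation b ≤ 1 := ((V j).valuation_le_one_iff b).mpr hbj
  have h4 : 1 < (V i).valuation b := by
    rw [← not_le, (V i).valuation_le_one_iff]
    exact hbi
  have hai0 : (V i).valuation a ≠ 0 := (Valuation.ne_zero_iff _).mpr ha0
  have haj0 : (V j).valuation a ≠ 0 := (Valuation.ne_zero_iff _).mpr ha0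
  refine ⟨b / a, ?_, ?_⟩
  · rw [map_div₀, one_lt_div₀ (zero_lt_iff.mpr hai0)]
    exact lt_of_le_of_lt h1 h4
  · rw [map_div₀, div_lt_one₀ (zero_lt_iff.mpr haj0)]
    exact lt_of_le_of_lt h3 h2

/-- the archimedean property in valuation form. -/
theorem s36g_arch_val
    (hA : ∀ i, ∀ b ∈ (V i).nonunits, b ≠ 0 → ∀ y : K, ∃ k : ℕ, b ^ k * y ∈ V i)
    (j : ι) {u : K} (hu : (V j).valuation u < 1) (hu0 : u ≠ 0) (y : K) :
    ∃ N : ℕ, ∀ n, N ≤ n → (V j).valuation (u ^ n * y) < 1 := by
  obtain ⟨k, hk⟩ := hA j u ((V j).mem_nonunits_iff.mpr hu) hu0 y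
  refine ⟨k + 1, fun n hn => ?_⟩
  have h1 : u ^ n * y = u ^ (n - k) * (u ^ k * y) := by
    rw [← mul_assoc, ← pow_add, Nat.sub_add_cancel (by omega)]
  rw [h1, map_mul, map_pow]
  have h2 : (V j).valuation (u ^ k * y) ≤ 1 := ((V j).valuation_le_one_iff _).mpr hk
  have h3 : (V j).valuation u ^ (n - k) < 1 := pow_lt_one₀ zero_le hu (by omega)
  exact mul_lt_one_of_nonneg_of_lt_one_left zero_le h3 h2

/-- a common bound for finitely many eventual properties. -/
theorem s36g_common_bound (s : Finset ι) (P : ι → ℕ → Prop)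
    (h : ∀ j ∈ s, ∃ N, ∀ n, N ≤ n → P j n) : ∃ N, ∀ j ∈ s, ∀ n, N ≤ n → P j n := by
  classical
  induction s using Finset.induction_on with
  | empty => exact ⟨0, fun j hj => absurd hj (Finset.notMem_empty j)⟩
  | insert a s ha ih =>
    obtain ⟨N₁, hN₁⟩ := h a (Finset.mem_insert_self a s)
    obtain ⟨N₂, hN₂⟩ := ih (fun j hj => h j (Finset.mem_insert_of_mem hj))
    refine ⟨max N₁ N₂, fun j hj n hn => ?_⟩
    rcases Finset.mem_insert.mp hj with rfl | hj
    · exact hN₁ n (le_trans (le_max_left _ _) hn)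
    · exact hN₂ j hj n (le_trans (le_max_right _ _) hn)

/-- an element which is large at `V i` and small at finitely many other rings. -/
theorem s36g_exists_sep_finset [DecidableEq ι]
    (hA : ∀ i, ∀ b ∈ (V i).nonunits, b ≠ 0 → ∀ y : K, ∃ k : ℕ, b ^ k * y ∈ V i)
    (hnt : ∀ i, ∃ b ∈ (V i).nonunits, b ≠ 0) (hne : ∀ i j, i ≠ j → V i ≠ V j)
    (s : Finset ι) (i : ι) (hi : i ∉ s) :
    ∃ z : K, 1 < (V i).valuation z ∧ ∀ j ∈ s, (V j).valuation z < 1 := by
  induction s using Finset.induction_on with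
  | empty =>
    obtain ⟨b, hb, hb0⟩ := hnt i
    have hb1 : (V i).valuation b < 1 := (V i).mem_nonunits_iff.mp hb
    have hbpos : 0 < (V i).valuation b := zero_lt_iff.mpr ((Valuation.ne_zero_iff _).mpr hb0)
    refine ⟨b⁻¹, ?_, fun j hj => absurd hj (Finset.notMem_empty j)⟩
    rw [map_inv₀]
    exact (one_lt_inv₀ hbpos).mpr hb1
  | insert k s hk ih =>
    have hik : i ≠ k := fun h => hi (h ▸ Finset.mem_insert_self i s)
    have his : i ∉ s := fun h => hi (Finset.mem_insert_of_mem h)
    obtain ⟨z, hzi, hzs⟩ := ih his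
    obtain ⟨y, hyi, hyk⟩ := s36g_exists_sep V
      (s36g_not_le_of_ne V hA hnt (hne i k hik)) (s36g_not_le_of_ne V hA hnt (hne k i hik.symm))
    have hz0 : z ≠ 0 := by
      rintro rfl
      rw [map_zero] at hzi
      exact absurd hzi (not_lt.mpr zero_le_one)
    obtain ⟨N, hN⟩ := s36g_common_bound s (fun j n => (V j).valuation (z ^ n * y) < 1)
      (fun j hj => s36g_arch_val V hA j (hzs j hj) hz0 y)
    rcases lt_trichotomy ((V k).valuation z) 1 with hlt | heq | hgt
    · refine ⟨z, hzi, fun j hj => ?_⟩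
      rcases Finset.mem_insert.mp hj with rfl | hj
      · exact hlt
      · exact hzs j hj
    · refine ⟨z ^ N * y, ?_, fun j hj => ?_⟩
      · rw [map_mul, map_pow]
        exact one_lt_mul_of_le_of_lt (one_le_pow₀ hzi.le) hyi
      · rcases Finset.mem_insert.mp hj with rfl | hj
        · rw [map_mul, map_pow, heq, one_pow, one_mul]
          exact hyk
        · exact hN j hj N le_rfl
    · -- `w = z ^ n / (1 + z ^ n) * y`
      have hbig : ∀ l : ι, 1 < (V l).valuation z →
          (V l).valuation (z ^ (N + 1) / (1 + z ^ (N + 1)) * y) = (V l).valuation y := by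
        intro l hl
        have h1 : 1 < (V l).valuation (z ^ (N + 1)) := by
          rw [map_pow]
          exact one_lt_pow₀ hl (Nat.succ_ne_zero N)
        have h2 : (V l).valuation (1 + z ^ (N + 1)) = (V l).valuation (z ^ (N + 1)) :=
          Valuation.map_add_eq_of_lt_right _ (by rw [map_one]; exact h1)
        have h3 : (V l).valuation (z ^ (N + 1)) ≠ 0 := (lt_trans zero_lt_one h1).ne'
        rw [map_mul, map_div₀, h2, div_self h3, one_mul]
      refine ⟨z ^ (N + 1) / (1 + z ^ (N + 1)) * y, ?_, fun j hj => ?_⟩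
      · rw [hbig i hzi]
        exact hyi
      · rcases Finset.mem_insert.mp hj with rfl | hj
        · rw [hbig j hgt]
          exact hyk
        · have h1 : (V j).valuation (z ^ (N + 1)) < 1 := by
            rw [map_pow]
            exact pow_lt_one₀ zero_le (hzs j hj) (Nat.succ_ne_zero N)
          have h2 : (V j).valuation (1 + z ^ (N + 1)) = 1 := by
            rw [Valuation.map_add_eq_of_lt_left _ (by rw [map_one]; exact h1), map_one]
          have h3 : z ^ (N + 1) / (1 + z ^ (N + 1)) * y = z ^ (N + 1) * y / (1 + z ^ (N + 1)) := by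
            ring
          rw [h3, map_div₀, h2, div_one]
          exact hN j hj (N + 1) (Nat.le_succ N)

/-- **Weak approximation** for finitely many pairwise distinct valuation rings of rank one. -/
theorem s36g_approx_fintype [Fintype ι] [DecidableEq ι]
    (hA : ∀ i, ∀ b ∈ (V i).nonunits, b ≠ 0 → ∀ y : K, ∃ k : ℕ, b ^ k * y ∈ V i)
    (hnt : ∀ i, ∃ b ∈ (V i).nonunits, b ≠ 0) (hne : ∀ i j, i ≠ j → V i ≠ V j)
    (g : ι → K) (hg : ∀ i, g i ∈ V i) : ∃ x : K, ∀ i, x - g i ∈ (V i).nonunits := by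
  choose z hz1 hz2 using fun i =>
    s36g_exists_sep_finset V hA hnt hne (Finset.univ.erase i) i (Finset.notMem_erase i _)
  have hz0 : ∀ i, z i ≠ 0 := by
    intro i h
    have := hz1 i
    rw [h, map_zero] at this
    exact absurd this (not_lt.mpr zero_le_one)
  choose N hN using fun i => s36g_common_bound (Finset.univ.erase i)
    (fun j n => (V j).valuation (z i ^ n * g i) < 1)
    (fun j hj => s36g_arch_val V hA j (hz2 i j hj) (hz0 i) (g i))
  -- the approximate idempotents
  let e : ι → K := fun i => z i ^ (N i + 1) / (1 + z i ^ (N i + 1))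
  have he1 : ∀ i, (V i).valuation ((e i - 1) * g i) < 1 := by
    intro i
    have h1 : 1 < (V i).valuation (z i ^ (N i + 1)) := by
      rw [map_pow]
      exact one_lt_pow₀ (hz1 i) (Nat.succ_ne_zero _)
    have h2 : (V i).valuation (1 + z i ^ (N i + 1)) = (V i).valuation (z i ^ (N i + 1)) :=
      Valuation.map_add_eq_of_lt_right _ (by rw [map_one]; exact h1)
    have h3 : (1 : K) + z i ^ (N i + 1) ≠ 0 := by
      intro h
      rw [h, map_zero] at h2
      exact absurd h2.symm (lt_trans zero_lt_one h1).ne'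
    have h4 : e i - 1 = -(1 + z i ^ (N i + 1))⁻¹ := by
      change z i ^ (N i + 1) / (1 + z i ^ (N i + 1)) - 1 = _
      field_simp
      ring
    have h5 : (V i).valuation (e i - 1) < 1 := by
      rw [h4, Valuation.map_neg, map_inv₀, h2]
      exact inv_lt_one_of_one_lt₀ h1
    rw [map_mul]
    exact mul_lt_one_of_nonneg_of_lt_one_left zero_le h5
      (((V i).valuation_le_one_iff _).mpr (hg i))
  have he2 : ∀ i j, j ≠ i → (V j).valuation (e i * g i) < 1 := by
    intro i j hji
    have hj : j ∈ Finset.univ.erase i := Finset.mem_erase.mpr ⟨hji, Finset.mem_univ j⟩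
    have h1 : (V j).valuation (z i ^ (N i + 1)) < 1 := by
      rw [map_pow]
      exact pow_lt_one₀ zero_le (hz2 i j hj) (Nat.succ_ne_zero _)
    have h2 : (V j).valuation (1 + z i ^ (N i + 1)) = 1 := by
      rw [Valuation.map_add_eq_of_lt_left _ (by rw [map_one]; exact h1), map_one]
    have h3 : e i * g i = z i ^ (N i + 1) * g i / (1 + z i ^ (N i + 1)) := by
      change z i ^ (N i + 1) / (1 + z i ^ (N i + 1)) * g i = _
      ring
    rw [h3, map_div₀, h2, div_one]
    exact hN i j hj (N i + 1) (Nat.le_succ _)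
  refine ⟨∑ i, e i * g i, fun k => ?_⟩
  have hsum : ∑ i, e i * g i - g k
      = (e k - 1) * g k + ∑ i ∈ Finset.univ.erase k, e i * g i := by
    rw [← Finset.add_sum_erase Finset.univ (fun i => e i * g i) (Finset.mem_univ k)]
    ring
  rw [hsum]
  refine (V k).nonunits.add_mem ((V k).mem_nonunits_iff.mpr (he1 k)) ?_
  refine sum_mem fun i hi => ?_
  exact (V k).mem_nonunits_iff.mpr (he2 i k (Finset.ne_of_mem_erase hi).symm)

/-- the `Fin 3` case in the shape of the field `approx` of `s36g_RootFrame`. -/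
theorem s36g_approx_three (V : Fin 3 → ValuationSubring K)
    (hA : ∀ i, ∀ b ∈ (V i).nonunits, b ≠ 0 → ∀ y : K, ∃ k : ℕ, b ^ k * y ∈ V i)
    (hnt : ∀ i, ∃ b ∈ (V i).nonunits, b ≠ 0) (hne : ∀ i j, i ≠ j → V i ≠ V j) :
    ∀ g : Fin 3 → K, (∀ i, g i ∈ V i) → ∃ x : K, ∀ i, x - g i ∈ (V i).nonunits :=
  fun g hg => s36g_approx_fintype V hA hnt hne g hg

end approx

end Fermat.Agent.Lib.S36
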