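/-
S36 project, geometry layer (X1) (helper9, prefix `s36p_`): SATURATION OF CHART 1 under the Hecke
correspondence of level `M q²` (helper8's order #1737 (3), `hsat`).

For the three base functions `w₁` of `s35g_base_all` (`q ≥ 5`: `j`; `q = 3`, `2 ∣ M`: series `t₂`;
`q = 2`, `3 ∣ M`: series `t₃`) and every place `Q` of `F₂ = F(M q²)` over `K₀`:

  `α' w₁ ∈ O_Q ↔ β' w₁ ∈ O_Q`.

* `s36p_modEq_rel'`, `s36p_cusp_rel'` : the modular relation `Φ(j, j_q) = 0` (`Φ` monic in `j`);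
* `s36p_jBar_mem_of_beta`, **`s36p_j_mem_iff`** : `j ∈ O_Q ↔ j_q ∈ O_Q` at every level `N q`;
* `s36p_unit_of_haupt`, `s36p_sat_abs` : the abstract argument for Hauptmodul-type functions
  (Newton polygon of a symmetric relation at the cusps, `j`-criterion elsewhere);
* **`s36p_sat_j`, `s36p_sat_t2`, `s36p_sat_t3`**, and `s36p_base_all` (= `s35g_base_all` with the
  saturation property).
-/
import Fermat.Agent.Lib.S36.RCusp
import Fermat.Agent.Lib.S36.GeoFrame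
import Fermat.Agent.Lib.S35.Geo
import Fermat.Agent.Lib.S18.RWave2

set_option autoImplicit false
set_option linter.unusedSectionVars false
set_option linter.style.haveILetI false
set_option synthInstance.maxHeartbeats 400000

noncomputable section

namespace Fermat.Agent.Lib.S36

open ModularCurve AlgebraicCurve Polynomial Fermat.Agent.Lib.FF Fermat.Agent.Lib.S18
  Fermat.Agent.Lib.S28 Fermat.Agent.Lib.S37 Fermat.Agent.Lib.S34 Fermat.Agent.Lib.S35
open scoped Polynomial.Bivariate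

local notation "Kb" => AlgebraicClosure ℚ

/-! ### The modular relation, monic in `j` -/

/-- the modular relation `Φ(J(t), J(t^q)) = 0` (the factor `b = 0`). -/
theorem s36p_modEq_rel' (k : Type*) [Field k] (q : ℕ) [hq : Fact q.Prime]
    (ζ : kˣ) (Φ : Polynomial (Polynomial k))
    (hΦ : Φ.map (Polynomial.aeval (qExpand k q (jqModC k))).toRingHom
        = (X - C (qExpand k (q * q) (jqModC k))) *
          ∏ b ∈ Finset.range q, (X - C (s28c_twist (ζ ^ b) (jqModC k)))) :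
    Φ.eval₂ (aeval (qExpand k q (jqModC k)) : k[X] →ₐ[k] LaurentSeries k).toRingHom
      (jqModC k) = 0 := by
  rw [eval₂_eq_eval_map, hΦ, eval_mul, eval_prod]
  rw [Finset.prod_eq_zero (i := 0) (Finset.mem_range.mpr hq.out.pos)
    (by rw [pow_zero, s28c_twist_one_eq, eval_sub, eval_X, eval_C, sub_self]), mul_zero]

/-- the modular relation `Φ(j, j_q) = 0` in `F̄(N q)`, `Φ` monic in the first variable. -/
theorem s36p_cusp_rel' (N q : ℕ) [NeZero N] [NeZero q] (hq : q.Prime) :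
    ∃ Φ : Polynomial (Polynomial Kb), Φ.Monic ∧
      Φ.eval₂ (aeval (heckeBetaBar Kb N q (ffd_jBar N)) : Kb[X] →ₐ[Kb] ffi_F (N * q)).toRingHom
        (ffd_jBar (N * q)) = 0 := by
  have : Fact q.Prime := ⟨hq⟩
  obtain ⟨ζ0, hζ0⟩ := HasEnoughRootsOfUnity.exists_primitiveRoot Kb q
  have hζ0ne : ζ0 ≠ 0 := hζ0.ne_zero (NeZero.ne q)
  set ζ : Kbˣ := Units.mk0 ζ0 hζ0ne with hζdef
  have hζ : IsPrimitiveRoot (ζ : Kb) q := by rw [hζdef, Units.val_mk0]; exact hζ0
  obtain ⟨Φ, hm, -, hΦ⟩ := s28m_modEq q Kb ζ hζ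
  have hrel := s36p_modEq_rel' Kb q ζ Φ hΦ
  refine ⟨Φ, hm, ?_⟩
  set ι : ffi_F (N * q) →ₐ[Kb] LaurentSeries Kb := (modularFunctionFieldBar (N * q)).val with hι
  have hinj : Function.Injective ι := Subtype.val_injective
  apply hinj
  rw [map_zero]
  have hx : ι (heckeBetaBar Kb N q (ffd_jBar N)) = qExpand Kb q (jqModC Kb) := by
    rw [← s36u_cusp_jSeries_eq]
    exact coe_heckeBetaBar N q (ffd_jBar N)
  have hy : ι (ffd_jBar (N * q)) = jqModC Kb := by
    rw [← s36u_cusp_jSeries_eq]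
    rfl
  have hcomp : (ι : ffi_F (N * q) →+* LaurentSeries Kb).comp
      (aeval (heckeBetaBar Kb N q (ffd_jBar N)) : Kb[X] →ₐ[Kb] ffi_F (N * q)).toRingHom =
      (aeval (qExpand Kb q (jqModC Kb)) : Kb[X] →ₐ[Kb] LaurentSeries Kb).toRingHom := by
    refine Polynomial.ringHom_ext (fun a => ?_) ?_
    · simp only [RingHom.comp_apply, AlgHom.toRingHom_eq_coe, RingHom.coe_coe, aeval_C]
      exact ι.commutes a
    · simp only [RingHom.comp_apply, AlgHom.toRingHom_eq_coe, RingHom.coe_coe, aeval_X]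
      exact hx
  have := Polynomial.hom_eval₂ Φ
    (aeval (heckeBetaBar Kb N q (ffd_jBar N)) : Kb[X] →ₐ[Kb] ffi_F (N * q)).toRingHom
    (ι : ffi_F (N * q) →+* LaurentSeries Kb) (ffd_jBar (N * q))
  rw [hcomp] at this
  refine Eq.trans this ?_
  rw [show (ι : ffi_F (N * q) →+* LaurentSeries Kb) (ffd_jBar (N * q)) = jqModC Kb from hy]
  exact hrel

/-- a root of a monic relation `Φ(x, y) = 0` lies in every valuation ring containing `y` and the
constants. -/
theorem s36p_mem_of_monic_rel {K F : Type*} [Field K] [Field F] [Algebra K F]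
    (A : ValuationSubring F) (hA : ∀ a : K, algebraMap K F a ∈ A)
    (Φ : Polynomial (Polynomial K)) (hm : Φ.Monic) (x y : F) (hy : y ∈ A)
    (h : Φ.eval₂ (aeval y : K[X] →ₐ[K] F).toRingHom x = 0) : x ∈ A := by
  refine s36u_cusp_mem_of_monic_rel A Φ.natDegree (fun i => aeval y (Φ.coeff i))
    (fun i _ => s36u_cusp_aeval_mem A hA y hy _) x ?_
  rw [eval₂_eq_sum_range, Finset.sum_range_succ, hm.coeff_natDegree, map_one, one_mul,
    add_comm] at h
  exact h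

/-- at a place of `F̄(N q)` where `j_q` is regular, `j` is regular. -/
theorem s36p_jBar_mem_of_beta (N q : ℕ) [NeZero N] [NeZero q] (hq : q.Prime)
    (v : Place Kb (ffi_F (N * q)))
    (h : heckeBetaBar Kb N q (ffd_jBar N) ∈ v.toValuationSubring) :
    ffd_jBar (N * q) ∈ v.toValuationSubring := by
  obtain ⟨Φ, hm, hrel⟩ := s36p_cusp_rel' N q hq
  exact s36p_mem_of_monic_rel v.toValuationSubring v.algebraMap_mem' Φ hm _ _ h hrel

section JIff

variable {K₀ : Type*} [Field K₀] [Algebra ℚ K₀] (φ : K₀ →+* Kb)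
  (N q : ℕ) [NeZero N] [NeZero q]

/-- `ι j = j̄`. -/
theorem s36p_iota_jF : s34m_iota φ N (s18g_jF (K := K₀) N) = ffd_jBar N := by
  apply Subtype.ext
  rw [s18q_map_coe, s18g_coe_jF, coeffMap_jqModC, ffd_jBar_coe, ← s36u_cusp_jSeries_eq]
  rfl

include φ in
/-- **`j ∈ O_Q ↔ j_q ∈ O_Q`** for every place `Q` of `F(N q)` over `K₀`. -/
theorem s36p_j_mem_iff (hq : q.Prime) (Q : Place K₀ (s34m_F K₀ (N * q))) :
    s18g_jF (K := K₀) (N * q) ∈ Q.toValuationSubring ↔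
      heckeBetaBar K₀ N q (s18g_jF (K := K₀) N) ∈ Q.toValuationSubring := by
  constructor
  · intro h
    exact s34e_cusp_mem_of_intOver Q.toValuationSubring (s34d2_intOver_u (K₀ := K₀) N q) h
  · intro h
    obtain ⟨ρ, hρ, hord⟩ := s18r_exists_restrict φ (N * q)
    obtain ⟨P, rfl⟩ := hρ Q
    have hy0 : heckeBetaBar K₀ N q (s18g_jF (K := K₀) N) ≠ 0 :=
      (map_ne_zero (heckeBetaBar K₀ N q)).mpr (s18g_jF_ne_zero N)
    have h1 := (ff_mem_iff_ord_nonneg (ρ P) hy0).mp h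
    rw [← hord] at h1
    have e1 : s18q_map φ (modularFunctionFieldFull (N * q))
        (heckeBetaBar K₀ N q (s18g_jF (K := K₀) N)) = heckeBetaBar Kb N q (ffd_jBar N) := by
      have := s34m_iota_beta φ N q (s18g_jF (K := K₀) N)
      rw [s36p_iota_jF] at this
      exact this
    rw [e1] at h1
    have hb0 : heckeBetaBar Kb N q (ffd_jBar N) ≠ 0 :=
      (map_ne_zero (heckeBetaBar Kb N q)).mpr (s36u_cusp_jBar_ne_zero N)
    have h2 := s36p_jBar_mem_of_beta N q hq P ((ff_mem_iff_ord_nonneg P hb0).mpr h1)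
    have h3 := (ff_mem_iff_ord_nonneg P (s36u_cusp_jBar_ne_zero (N * q))).mp h2
    rw [← s36p_iota_jF φ (N * q)] at h3
    have h4 := hord P (s18g_jF (K := K₀) (N * q))
    rw [h4] at h3
    exact (ff_mem_iff_ord_nonneg (ρ P) (s18g_jF_ne_zero (N * q))).mpr h3

end JIff

/-! ### Hauptmodul-type functions: the abstract argument -/

section Abstract

variable {K 𝓕 : Type*} [Field K] [Field 𝓕] [Algebra K 𝓕]

/-- if `u y^a = A(y)` (`A` monic of degree `> a ≥ 1`, `A(0) ≠ 0`) and `u` lies in the valuation ring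
`V ⊇ K`, then `y` is a unit of `V`. -/
theorem s36p_unit_of_haupt (V : ValuationSubring 𝓕) (hKV : ∀ c : K, algebraMap K 𝓕 c ∈ V)
    (A : K[X]) (hA : A.Monic) (a : ℕ) (ha0 : 0 < a) (haD : a < A.natDegree)
    (hA0 : A.coeff 0 ≠ 0) (u y : 𝓕) (hy0 : y ≠ 0)
    (r2 : u * y ^ a = aeval y A) (hu : u ∈ V) : y ∈ V ∧ y⁻¹ ∈ V := by
  -- `y` is integral over `V`
  have hy : y ∈ V := by
    let ψ : K →+* V := (algebraMap K 𝓕).codRestrict V.toSubring hKV
    have hψ : (algebraMap V 𝓕).comp ψ = algebraMap K 𝓕 := by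
      ext c
      rfl
    have hdeg : (C (⟨u, hu⟩ : V) * X ^ a : V[X]).degree < (A.map ψ).degree := by
      rw [Polynomial.degree_map, Polynomial.degree_eq_natDegree hA.ne_zero]
      refine lt_of_le_of_lt (Polynomial.degree_C_mul_X_pow_le _ _) ?_
      exact_mod_cast haD
    have hint' : IsIntegral V y := by
      refine ⟨A.map ψ - C (⟨u, hu⟩ : V) * X ^ a, (hA.map ψ).sub_of_left hdeg, ?_⟩
      rw [Polynomial.eval₂_sub, Polynomial.eval₂_map, hψ, Polynomial.eval₂_mul,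
        Polynomial.eval₂_C, Polynomial.eval₂_pow, Polynomial.eval₂_X, ← Polynomial.aeval_def,
        ← r2]
      exact sub_self _
    obtain ⟨z, hz⟩ := IsIntegrallyClosed.isIntegral_iff.mp hint'
    rw [← hz]
    exact z.2
  refine ⟨hy, ?_⟩
  -- `y⁻¹ ∈ V`: otherwise `A(0)` would be a non-unit
  by_contra hyi
  have hv : V.valuation y < 1 := by
    have h1 : ¬ V.valuation y⁻¹ ≤ 1 := fun h => hyi ((V.valuation_le_one_iff _).mp h)
    rw [not_le, map_inv₀, one_lt_inv₀ (zero_lt_iff.mpr ((Valuation.ne_zero_iff _).mpr hy0))] at h1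
    exact h1
  obtain ⟨B, hB⟩ : ∃ B : K[X], A = C (A.coeff 0) + X * B := by
    refine ⟨A.divX, ?_⟩
    conv_lhs => rw [← Polynomial.divX_mul_X_add A]
    ring
  have hAy : aeval y A = algebraMap K 𝓕 (A.coeff 0) + y * aeval y B := by
    conv_lhs => rw [hB]
    rw [map_add, aeval_C, map_mul, aeval_X]
  have hc : algebraMap K 𝓕 (A.coeff 0) = u * y ^ a - y * aeval y B := by
    rw [r2, hAy]
    ring
  have hvc : V.valuation (algebraMap K 𝓕 (A.coeff 0)) = 1 := by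
    have h0 : algebraMap K 𝓕 (A.coeff 0) ≠ 0 := by simpa using hA0
    refine le_antisymm ((V.valuation_le_one_iff _).mpr (hKV _)) ?_
    have h2 : V.valuation (algebraMap K 𝓕 (A.coeff 0))⁻¹ ≤ 1 := by
      rw [← map_inv₀]
      exact (V.valuation_le_one_iff _).mpr (hKV _)
    rw [map_inv₀, inv_le_one₀ (zero_lt_iff.mpr ((Valuation.ne_zero_iff _).mpr h0))] at h2
    exact h2
  have hlt : V.valuation (u * y ^ a - y * aeval y B) < 1 := by
    refine Valuation.map_sub_lt _ ?_ ?_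
    · rw [map_mul, map_pow]
      calc V.valuation u * V.valuation y ^ a ≤ 1 * V.valuation y ^ a :=
            mul_le_mul_left ((V.valuation_le_one_iff _).mpr hu) _
        _ = V.valuation y ^ a := one_mul _
        _ < 1 := pow_lt_one₀ zero_le hv ha0.ne'
    · rw [map_mul]
      calc V.valuation y * V.valuation (aeval y B) ≤ V.valuation y * 1 :=
            mul_le_mul_right ((V.valuation_le_one_iff _).mpr (s34e_cusp_aeval_mem V hKV hy B)) _
        _ = V.valuation y := mul_one _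
        _ < 1 := hv
  rw [← hc, hvc] at hlt
  exact lt_irrefl _ hlt

/-- if `j x^a = A(x)` and `x` is a unit of the valuation ring `V ⊇ K`, then `j ∈ V`. -/
theorem s36p_j_mem_of_unit (V : ValuationSubring 𝓕) (hKV : ∀ c : K, algebraMap K 𝓕 c ∈ V)
    (A : K[X]) (a : ℕ) (j x : 𝓕) (hx0 : x ≠ 0)
    (r1 : j * x ^ a = aeval x A) (hx : x ∈ V) (hxi : x⁻¹ ∈ V) : j ∈ V := by
  have e : j = aeval x A * (x⁻¹) ^ a := by
    rw [← r1, mul_assoc, ← mul_pow, mul_inv_cancel₀ hx0, one_pow, mul_one]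
  rw [e]
  exact V.mul_mem _ _ (s34e_cusp_aeval_mem V hKV hx A) (V.toSubring.pow_mem hxi a)

/-- **Saturation, abstract form**: `x`, `y` of Hauptmodul type w.r.t. `jx`, `jy` with
`jx ∈ O_P ↔ jy ∈ O_P` everywhere, related by `Ψ(x, y) = 0` of bidegree `≤ (n, n)` with non-vanishing
corner coefficients: then `x ∈ O_P ↔ y ∈ O_P` everywhere. -/
theorem s36p_sat_abs (A : K[X]) (hA : A.Monic) (a : ℕ) (ha0 : 0 < a) (haD : a < A.natDegree)
    (hA0 : A.coeff 0 ≠ 0) (jx jy x y : 𝓕) (hx0 : x ≠ 0) (hy0 : y ≠ 0)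
    (r1 : jx * x ^ a = aeval x A) (r2 : jy * y ^ a = aeval y A)
    (hJ : ∀ P : Place K 𝓕, jx ∈ P.toValuationSubring ↔ jy ∈ P.toValuationSubring)
    (n : ℕ) (Ψ : K[X][Y]) (hY : Ψ.natDegree ≤ n) (hX : ∀ k, (Ψ.coeff k).natDegree ≤ n)
    (h0 : aevalAeval x y Ψ = 0)
    (hc1 : (Ψ.coeff n).coeff 0 ≠ 0) (hc2 : (Ψ.coeff 0).coeff n ≠ 0) (P : Place K 𝓕) :
    x ∈ P.toValuationSubring ↔ y ∈ P.toValuationSubring := by
  have hunit : ∀ (jx jy x y : 𝓕), x ≠ 0 → y ≠ 0 → jx * x ^ a = aeval x A →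
      jy * y ^ a = aeval y A → ∀ P : Place K 𝓕,
      (jx ∈ P.toValuationSubring → jy ∈ P.toValuationSubring) → P.ord x = 0 → P.ord y = 0 := by
    intro jx jy x y hx0 hy0 r1 r2 P hJ h
    have hx : x ∈ P.toValuationSubring := (ff_mem_iff_ord_nonneg P hx0).mpr h.ge
    have hxi : x⁻¹ ∈ P.toValuationSubring := by
      rw [ff_mem_iff_ord_nonneg P (inv_ne_zero hx0), P.ord_inv, h, neg_zero]
    have hj := s36p_j_mem_of_unit P.toValuationSubring P.algebraMap_mem' A a jx x hx0 r1 hx hxi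
    obtain ⟨hy, hyi⟩ := s36p_unit_of_haupt P.toValuationSubring P.algebraMap_mem' A hA a ha0
      haD hA0 jy y hy0 r2 (hJ hj)
    have h1 := (ff_mem_iff_ord_nonneg P hy0).mp hy
    have h2 := (ff_mem_iff_ord_nonneg P (inv_ne_zero hy0)).mp hyi
    rw [P.ord_inv] at h2
    omega
  have hclaim := s34e_cusp_claim_abs x y n Ψ hY hX h0 hc1 hc2
    (fun P' h => hunit jx jy x y hx0 hy0 r1 r2 P' (hJ P').mp h) P
  constructor
  · intro h
    exact (ff_mem_iff_ord_nonneg P hy0).mpr (hclaim.1 ((ff_mem_iff_ord_nonneg P hx0).mp h))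
  · intro h
    have hy := (ff_mem_iff_ord_nonneg P hy0).mp h
    rw [ff_mem_iff_ord_nonneg P hx0]
    by_contra hneg
    have hlt : P.ord x < 0 := not_le.mp hneg
    have hy' := hclaim.2 hlt.le
    have hy0' : P.ord y = 0 := le_antisymm hy' hy
    have := hunit jy jx y x hy0 hx0 r2 r1 P (hJ P).mpr hy0'
    omega

end Abstract

/-! ### The three base functions at level `M q²` -/

section Instances

variable {K₀ : Type} [Field K₀] [Algebra ℚ K₀] [CharZero K₀] {κ : Type} [Field κ]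
  (G : s18g_GaussData K₀ κ) (φ : K₀ →+* Kb) (M q : ℕ) [NeZero M] [NeZero q]

include φ in
/-- **Saturation for `w₁ = j`** (every prime `q`). -/
theorem s36p_sat_j (hq : q.Prime) (Q : Place K₀ (s34m_F K₀ (M * q * q))) :
    s36g_alpha M q (s18g_jF (K := K₀) (M * q)) ∈ Q.toValuationSubring ↔
      s36g_beta M q (s18g_jF (K := K₀) (M * q)) ∈ Q.toValuationSubring := by
  have e : s36g_alpha M q (s18g_jF (K := K₀) (M * q)) = s18g_jF (K := K₀) (M * q * q) :=
    s34d2_alpha_j (M * q) q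
  rw [e]
  exact s36p_j_mem_iff φ (M * q) q hq Q

include G φ in
/-- **Saturation for a base function of Hauptmodul type** with series `t`. -/
theorem s36p_sat_haupt (hq : q.Prime)
    (A : K₀[X]) (hA : A.Monic) (a : ℕ) (ha0 : 0 < a) (haD : a < A.natDegree)
    (hA0 : A.coeff 0 ≠ 0) (t : LaurentSeries K₀) (ht0 : t ≠ 0)
    (hrel : jqModC K₀ * t ^ a = aeval t A)
    (htO : t ∈ s18g_O G) (tb : LaurentSeries κ) (htb : Transcendental κ tb)
    (hred : s18g_red G ⟨t, htO⟩ = tb) (hfrob : qExpand κ q tb = tb ^ q)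
    (Ψ : K₀[X][Y]) (hΨ : Ψ ≠ 0) (hY : Ψ.natDegree ≤ q + 1)
    (hX : ∀ k, (Ψ.coeff k).natDegree ≤ q + 1)
    (l1 : aevalAeval t (qExpand K₀ q t) Ψ = 0) (l2 : aevalAeval (qExpand K₀ q t) t Ψ = 0)
    (w₁ : s34m_F K₀ (M * q)) (hcoe : (w₁ : LaurentSeries K₀) = t)
    (Q : Place K₀ (s34m_F K₀ (M * q * q))) :
    s36g_alpha M q w₁ ∈ Q.toValuationSubring ↔ s36g_beta M q w₁ ∈ Q.toValuationSubring := by
  have hw0 : w₁ ≠ 0 := by
    rintro rfl
    exact ht0 hcoe.symm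
  have hcx : ((s36g_alpha M q w₁ : s34m_F K₀ (M * q * q)) : LaurentSeries K₀) = t := by
    rw [← hcoe]
    exact coe_heckeAlphaBar (M * q) q w₁
  have hcy : ((s36g_beta M q w₁ : s34m_F K₀ (M * q * q)) : LaurentSeries K₀) =
      qExpand K₀ q t := by
    rw [← hcoe]
    exact coe_heckeBetaBar (M * q) q w₁
  have hx0 : s36g_alpha M q w₁ ≠ 0 := (_root_.map_ne_zero (s36g_alpha M q)).mpr hw0
  have hy0 : s36g_beta M q w₁ ≠ 0 := (_root_.map_ne_zero (s36g_beta M q)).mpr hw0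
  -- the Hauptmodul relations
  have r1 : s18g_jF (K := K₀) (M * q * q) * s36g_alpha M q w₁ ^ a =
      aeval (s36g_alpha M q w₁) A :=
    s34e_cusp_rel_of_coe (M * q * q) A a t hrel _ hcx
  have r0 : s18g_jF (K := K₀) (M * q) * w₁ ^ a = aeval w₁ A :=
    s34e_cusp_rel_of_coe (M * q) A a t hrel _ hcoe
  have r2 : heckeBetaBar K₀ (M * q) q (s18g_jF (K := K₀) (M * q)) * s36g_beta M q w₁ ^ a =
      aeval (s36g_beta M q w₁) A := by
    have := congrArg (heckeBetaBar K₀ (M * q) q) r0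
    rw [map_mul, map_pow, ← Polynomial.aeval_algHom_apply] at this
    exact this
  -- the corners
  have hyO : qExpand K₀ q t ∈ s18g_O G := s34m_qExpand_mem_O G q htO
  have hry : s18g_red G ⟨qExpand K₀ q t, hyO⟩ = tb ^ q := by
    rw [s34m_red_qExpand G q ⟨_, htO⟩, hred, hfrob]
  obtain ⟨hc1, hc2⟩ := s34e_red_corners G q hq.two_le _ _ htO hyO tb htb hred hry Ψ hΨ hY hX l1 l2
  have h0 : aevalAeval (s36g_alpha M q w₁) (s36g_beta M q w₁) Ψ = 0 := by
    rw [s34e_rel_eq_zero_iff, hcx, hcy]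
    exact l1
  exact s36p_sat_abs A hA a ha0 haD hA0 _ _ _ _ hx0 hy0 r1 r2
    (fun P => s36p_j_mem_iff φ (M * q) q hq P) (q + 1) Ψ hY hX h0 hc1 hc2 Q

variable [CharP κ q]

include G φ in
/-- **Saturation for a base function with series `t₂`** (`q` odd). -/
theorem s36p_sat_t2 (hq : q.Prime) (hq2 : q ≠ 2) (w₁ : s34m_F K₀ (M * q))
    (hcoe : (w₁ : LaurentSeries K₀) = s18u_t2 K₀) (Q : Place K₀ (s34m_F K₀ (M * q * q))) :
    s36g_alpha M q w₁ ∈ Q.toValuationSubring ↔ s36g_beta M q w₁ ∈ Q.toValuationSubring := by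
  haveI : Fact q.Prime := ⟨hq⟩
  have hH := s18b_haupt_two K₀
  have hA0 : ((X + Polynomial.C (256 : K₀)) ^ 3 : K₀[X]).coeff 0 ≠ 0 := by
    rw [Polynomial.coeff_zero_eq_eval_zero]
    simp
  obtain ⟨Ψ, hΨ, hY, hX, l1, l2⟩ := s34e_psi_t2 φ G q hq hq2
  exact s36p_sat_haupt G φ M q hq _ hH.monic 2 (by norm_num) (by rw [hH.deg]; norm_num) hA0
    (s18u_t2 K₀) (s18b_t2_ne_zero K₀) hH.rel (s18b_t2_mem_O G) (s18u_t2 κ)
    (s18b_transcendental_t2 κ) (s18b_red_t2 G) (s34e_cusp_frob_t2 q) Ψ hΨ hY hX l1 l2 w₁ hcoe Q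

include G φ in
/-- **Saturation for a base function with series `t₃`** (`q ≠ 3`). -/
theorem s36p_sat_t3 (hq : q.Prime) (hq3 : q ≠ 3) (w₁ : s34m_F K₀ (M * q))
    (hcoe : (w₁ : LaurentSeries K₀) = s18u_t3 K₀) (Q : Place K₀ (s34m_F K₀ (M * q * q))) :
    s36g_alpha M q w₁ ∈ Q.toValuationSubring ↔ s36g_beta M q w₁ ∈ Q.toValuationSubring := by
  haveI : Fact q.Prime := ⟨hq⟩
  have hH := s18b_haupt_three K₀
  have hA0 : ((X + Polynomial.C (27 : K₀)) * (X + Polynomial.C (243 : K₀)) ^ 3 : K₀[X]).coeff 0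
      ≠ 0 := by
    rw [Polynomial.coeff_zero_eq_eval_zero]
    simp
  obtain ⟨Ψ, hΨ, hY, hX, l1, l2⟩ := s34e_psi_t3 φ G q hq hq3
  exact s36p_sat_haupt G φ M q hq _ hH.monic 3 (by norm_num) (by rw [hH.deg]; norm_num) hA0
    (s18u_t3 K₀) (s18b_t3_ne_zero K₀) hH.rel (s18b_t3_mem_O G) (s18u_t3 κ)
    (s18b_transcendental_t3 κ) (s18b_red_t3 G) (s34e_cusp_frob_t3 q) Ψ hΨ hY hX l1 l2 w₁ hcoe Q

end Instances

/-! ### The base functions of `s35g_base_all`, with the saturation property -/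

section Branches

variable (K₀ : Type) [Field K₀] [NumberField K₀] (φ : K₀ →+* Kb)

/-- **A base function with `s35g_BaseData` whose chart 1 is saturated under the Hecke correspondence
of level `M q²`**, on all three S18-good branches (`s35g_base_all` + saturation). -/
theorem s36p_base_all (M q : ℕ) [NeZero M] [NeZero q] (hq : q.Prime) (hqM : ¬ q ∣ M)
    (h : 5 ≤ q ∨ (q = 3 ∧ 2 ∣ M) ∨ (q = 2 ∧ 3 ∣ M))
    (κ : Type) [Field κ] [CharP κ q] [PerfectField κ]
    (G : s18g_GaussData K₀ κ) [IsDiscreteValuationRing G.A] (hπ : Function.Surjective G.π) :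
    ∃ w : s34m_F K₀ (M * q), s35g_BaseData G φ M q hq hqM w ∧
      ∀ Q : Place K₀ (s34m_F K₀ (M * q * q)),
        s36g_alpha M q w ∈ Q.toValuationSubring ↔ s36g_beta M q w ∈ Q.toValuationSubring := by
  rcases h with h5 | ⟨rfl, h2M⟩ | ⟨rfl, h3M⟩
  · haveI : Fact q.Prime := ⟨hq⟩
    have hdeg : s18g_HDeg K₀ (M * q) := fun n b hb hn => s18g_exists_relation (M * q) φ hn b hb
    exact ⟨s18g_jF (K := K₀) (M * q), ⟨s18g_jF_ne_zero (M * q), s18b_ffGen_jF (M * q) hdeg,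
      s34m_jF_mem_VV G φ M q hq hqM, s34m_jF_inv_mem_VV G φ M q hq hqM,
      fun σ₀ => s34f_galois_jF (M * q) σ₀, s34f_alpha_j G φ M q hq hqM,
      s34f_alpha_inv G φ M q hq hqM, s35g_chartData_five_j1 M q hq hqM K₀ φ κ G hπ h5,
      s35g_chartData_five_j2 M q hq hqM K₀ φ κ G hπ h5⟩, s36p_sat_j φ M q hq⟩
  · obtain ⟨tM, htM, ⟨hwV, hred⟩, hwinvV, hgen, hgeninv, hwt, hw0, hgenN, hwO, hwO', hfix, hα,
      hα'⟩ := s34m_base_t2 G φ M 3 hq hqM h2M (by norm_num)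
    haveI := hgen
    haveI := hgeninv
    exact ⟨_, ⟨hw0, hgenN, hwO, hwO', hfix, hα, hα',
      s35g_chartData_t2_1 M 3 hq hqM K₀ φ κ G hπ rfl h2M tM htM hwV hred,
      s35g_chartData_t2_2 M 3 hq hqM K₀ φ κ G hπ rfl h2M tM htM hwV hwinvV hred⟩,
      s36p_sat_t2 G φ M 3 hq (by norm_num) _ hwt⟩
  · obtain ⟨tM, htM, ⟨hwV, hred⟩, hwinvV, hgen, hgeninv, hwt, hw0, hgenN, hwO, hwO', hfix, hα,
      hα'⟩ := s34m_base_t3 G φ M 2 hq hqM h3M (by norm_num)
    haveI := hgen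
    haveI := hgeninv
    exact ⟨_, ⟨hw0, hgenN, hwO, hwO', hfix, hα, hα',
      s35g_chartData_t3_1 M 2 hq hqM K₀ φ κ G hπ rfl h3M tM htM hwV hred,
      s35g_chartData_t3_2 M 2 hq hqM K₀ φ κ G hπ rfl h3M tM htM hwV hwinvV hred⟩,
      s36p_sat_t3 G φ M 2 hq (by norm_num) _ hwt⟩

end Branches

end Fermat.Agent.Lib.S36
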