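/-
S36 project, GEOMETRY side (helper8, prefix `s36g_`): THE VALUATION PACKAGE AS AN ABSTRACT INTERFACE.

helper6 constructs the three valuation rings `V_∞, V_mid, V_0` of the function field `F₂` of level
`M q²` over `K₀` (`Lib/S36/M*.lean`, `s36m_VV3`).  Every other geometry layer ((N) norm residues,
(R2) triple points, (X1) charts, (G)/(T) global root and toric matching) is stated for an ARBITRARY
family `V : Fin 3 → ValuationSubring F₂` (`0 ↦ V_∞`, `1 ↦ V_mid`, `2 ↦ V_0`) and an arbitrary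
`t : F₂` (`= j_{q²} - j`) satisfying the items below — helper6's menu (H1)–(H9) of board #1691 — so
that nobody waits for the construction.  helper6 discharges `s36g_ValPkg` for `s36m_VV3`.

Notation: `F₁ = s34m_F K₀ (M q)`, `F₂ = s34m_F K₀ (M q q)`, `α' = heckeAlphaBar K₀ (M q) q`,
`β' = heckeBetaBar K₀ (M q) q : F₁ → F₂`, `V'_∞ = s34m_Vinf G (M q)`,
`V'_0 = s34m_Vzero G φ M q hq hqM`, `ϖ₂ = s34m_unif G (M q q)`.
-/
import Fermat.Agent.Lib.S34.MValRed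
import Fermat.Agent.Lib.S34.MValAlpha

set_option autoImplicit false
set_option linter.unusedSectionVars false

noncomputable section

namespace Fermat.Agent.Lib.S36

open ModularCurve AlgebraicCurve HahnSeries Fermat.Agent.Lib.FF Fermat.Agent.Lib.S18
  Fermat.Agent.Lib.S37 Fermat.Agent.Lib.S34

local notation "Kb" => AlgebraicClosure ℚ

variable {K₀ : Type} [Field K₀] [Algebra ℚ K₀] {κ : Type} [Field κ] (G : s18g_GaussData K₀ κ)
  (φ : K₀ →+* Kb) (M q : ℕ) [NeZero M] [NeZero q] (hq : q.Prime) (hqM : ¬ q ∣ M)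

/-- `α' : F₁ → F₂` as a ring homomorphism. -/
abbrev s36g_alpha : s34m_F K₀ (M * q) →+* s34m_F K₀ (M * q * q) :=
  (heckeAlphaBar K₀ (M * q) q : s34m_F K₀ (M * q) →ₐ[K₀] s34m_F K₀ (M * q * q))

/-- `β' : F₁ → F₂` as a ring homomorphism. -/
abbrev s36g_beta : s34m_F K₀ (M * q) →+* s34m_F K₀ (M * q * q) :=
  (heckeBetaBar K₀ (M * q) q : s34m_F K₀ (M * q) →ₐ[K₀] s34m_F K₀ (M * q * q))

variable (V : Fin 3 → ValuationSubring (s34m_F K₀ (M * q * q))) (t : s34m_F K₀ (M * q * q))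

/-- **(H1)+(H2)**: `V 0` is the Gauss valuation at `∞` and the six restrictions to level `M q`. -/
def s36g_ValComap : Prop :=
  V 0 = s34m_Vinf G (M * q * q) ∧
  (V 0).comap (s36g_alpha M q) = s34m_Vinf G (M * q) ∧
  (V 0).comap (s36g_beta M q) = s34m_Vinf G (M * q) ∧
  (V 1).comap (s36g_alpha M q) = s34m_Vinf G (M * q) ∧
  (V 1).comap (s36g_beta M q) = s34m_Vzero G φ M q hq hqM ∧
  (V 2).comap (s36g_alpha M q) = s34m_Vzero G φ M q hq hqM ∧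
  (V 2).comap (s36g_beta M q) = s34m_Vzero G φ M q hq hqM

/-- **(H3)**: uniformisers — `ϖ₂` for `V 0`, `V 2`; `t` for `V 1`, with `ϖ₂ = unit · t ^ (q - 1)`. -/
def s36g_ValUnif : Prop :=
  (∀ i, s34m_unif G (M * q * q) ∈ (V i).nonunits) ∧
  (∀ y ∈ (V 0).nonunits, ∃ z ∈ V 0, y = s34m_unif G (M * q * q) * z) ∧
  (∀ y ∈ (V 2).nonunits, ∃ z ∈ V 2, y = s34m_unif G (M * q * q) * z) ∧
  t ∈ (V 1).nonunits ∧
  (∀ y ∈ (V 1).nonunits, ∃ z ∈ V 1, y = t * z) ∧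
  (∃ u, u ∈ V 1 ∧ u⁻¹ ∈ V 1 ∧ s34m_unif G (M * q * q) = u * t ^ (q - 1)) ∧
  (∀ i, ∀ y : s34m_F K₀ (M * q * q), ∃ k : ℕ, s34m_unif G (M * q * q) ^ k * y ∈ V i)

/-- **(H4)**: residue degrees — `f = 1` for `V 0 | V'_∞` and `V 1 | V'_∞` along `α'`, for
`V 1 | V'_0` and `V 2 | V'_0` along `β'`; purely inseparable of degree `q` for `V 2 | V'_0` along `α'`
and `V 0 | V'_∞` along `β'`. -/
def s36g_ValRes : Prop :=
  (∀ y ∈ V 0, ∃ r ∈ s34m_Vinf G (M * q), y - s36g_alpha M q r ∈ (V 0).nonunits) ∧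
  (∀ y ∈ V 1, ∃ r ∈ s34m_Vinf G (M * q), y - s36g_alpha M q r ∈ (V 1).nonunits) ∧
  (∀ y ∈ V 1, ∃ r ∈ s34m_Vzero G φ M q hq hqM, y - s36g_beta M q r ∈ (V 1).nonunits) ∧
  (∀ y ∈ V 2, ∃ r ∈ s34m_Vzero G φ M q hq hqM, y - s36g_beta M q r ∈ (V 2).nonunits) ∧
  (∀ y ∈ V 2, ∃ r ∈ s34m_Vzero G φ M q hq hqM, y ^ q - s36g_alpha M q r ∈ (V 2).nonunits) ∧
  (∀ y ∈ V 0, ∃ r ∈ s34m_Vinf G (M * q), y ^ q - s36g_beta M q r ∈ (V 0).nonunits)

/-- **(H5)**: completeness — the `V i` are ALL the valuation rings of `F₂` over `V'_∞`, `V'_0`. -/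
def s36g_ValComplete : Prop :=
  (∀ U : ValuationSubring (s34m_F K₀ (M * q * q)),
    U.comap (s36g_alpha M q) = s34m_Vinf G (M * q) → U = V 0 ∨ U = V 1) ∧
  (∀ U : ValuationSubring (s34m_F K₀ (M * q * q)),
    U.comap (s36g_alpha M q) = s34m_Vzero G φ M q hq hqM → U = V 2) ∧
  (∀ U : ValuationSubring (s34m_F K₀ (M * q * q)),
    U.comap (s36g_beta M q) = s34m_Vzero G φ M q hq hqM → U = V 1 ∨ U = V 2) ∧
  (∀ U : ValuationSubring (s34m_F K₀ (M * q * q)),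
    U.comap (s36g_beta M q) = s34m_Vinf G (M * q) → U = V 0)

/-- **(H9)**: the three rings are pairwise different (hence pairwise independent: rank one). -/
def s36g_ValIndep : Prop :=
  V 0 ≠ V 1 ∧ V 0 ≠ V 2 ∧ V 1 ≠ V 2

/-- **(H8)**: stability under the arithmetic Galois action of an automorphism of `K₀` preserving the
valuation ring `G.A`. -/
def s36g_ValGal : Prop :=
  ∀ σ₀ : K₀ ≃ₐ[ℚ] K₀, (∀ a : K₀, σ₀ a ∈ G.A ↔ a ∈ G.A) →
    ∀ i, ∀ y : s34m_F K₀ (M * q * q),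
      arithmeticGalois (modularFunctionFieldFull (M * q * q)) σ₀ • y ∈ V i ↔ y ∈ V i

/-- **(H6)**: the reductions `r i : V i → κ((T))`, with kernel the non-units, compatible with the
reductions of level `M q` along `α'` and `β'`. -/
def s36g_ValRed : Prop :=
  ∃ r : ∀ i : Fin 3, V i →+* LaurentSeries κ,
    (∀ i, ∀ y : V i, r i y = 0 ↔ (y : s34m_F K₀ (M * q * q)) ∈ (V i).nonunits) ∧
    (∀ (x : s34m_Vinf G (M * q)) (h : s36g_alpha M q x ∈ V 0),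
      r 0 ⟨_, h⟩ = s34m_redInf G (M * q) x) ∧
    (∀ (x : s34m_Vinf G (M * q)) (h : s36g_beta M q x ∈ V 0),
      r 0 ⟨_, h⟩ = qExpand κ q (s34m_redInf G (M * q) x)) ∧
    (∀ (x : s34m_Vinf G (M * q)) (h : s36g_alpha M q x ∈ V 1),
      r 1 ⟨_, h⟩ = s34m_redInf G (M * q) x) ∧
    (∀ (x : s34m_Vzero G φ M q hq hqM) (h : s36g_beta M q x ∈ V 1),
      r 1 ⟨_, h⟩ = s34m_redZero G φ M q hq hqM x) ∧
    (∀ (x : s34m_Vzero G φ M q hq hqM) (h : s36g_alpha M q x ∈ V 2),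
      r 2 ⟨_, h⟩ = qExpand κ q (s34m_redZero G φ M q hq hqM x)) ∧
    (∀ (x : s34m_Vzero G φ M q hq hqM) (h : s36g_beta M q x ∈ V 2),
      r 2 ⟨_, h⟩ = s34m_redZero G φ M q hq hqM x)

/-- **The valuation package** (helper6's deliverable for `V = s36m_VV3`, `t = s36m_t`). -/
def s36g_ValPkg : Prop :=
  s36g_ValComap G φ M q hq hqM V ∧ s36g_ValUnif G M q V t ∧ s36g_ValRes G φ M q hq hqM V ∧
    s36g_ValComplete G φ M q hq hqM V ∧ s36g_ValIndep M q V ∧ s36g_ValGal G M q V ∧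
    s36g_ValRed G φ M q hq hqM V

end Fermat.Agent.Lib.S36
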