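/-
S36 project, geometry layer (X1) (helper1, prefix `s36b_`): **the modular relations between
`j₀ = j(z)`, `j₁ = j(qz)`, `j₂ = j(q²z)` at level `M q²` and their consequence at every place**:
`y⁻¹` regular at `Q` ⇒ `x y⁻ᵠ` regular at `Q` for each of the four ordered pairs
`(x, y) ∈ {(j₁, j₀), (j₀, j₁), (j₂, j₁), (j₁, j₂)}` (no Newton polygon: only the trivial degree bounds
of `RCusp.lean`).

* `s36b_ModRel q x y`        : `x` is a root of a monic `Φ(X, y)` of degree `q + 1` in `X` with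
  `deg_Y coeff_i ≤ q (q + 1 - i)`;
* `s36b_modRel_map`, `s36b_modRel_mem` (`x y⁻ᵠ ∈ A` for every valuation ring `A ∋ y⁻¹` containing the
  constants);
* `s36b_modRel_level`        : level `M q` over `Q̄`, both ordered pairs of `(j, j_q)`;
* `s36b_J0 / s36b_J1 / s36b_J2`, `s36b_modRel_10 / _01 / _21 / _12` : level `M q²` over `Q̄`;
* `s36b_j0 / s36b_j1 / s36b_j2` over `K₀`, `s36b_iota_j0 / _j1 / _j2`, `s36b_alpha_betaJ`
  (`α'(j_q) = β'(j)`);
* **`s36b_cusp_reg_10 / _01 / _21 / _12`** : the regularity statements at the places of `F₂ / K₀`.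
-/
import Fermat.Agent.Lib.S36.RCusp
import Fermat.Agent.Lib.S36.GeoFrame
import Fermat.Agent.Lib.S18.RWave2

set_option autoImplicit false
set_option linter.unusedSectionVars false
set_option linter.style.haveILetI false

noncomputable section

namespace Fermat.Agent.Lib.S36

open Polynomial ModularCurve AlgebraicCurve Fermat.Agent.Lib.FF Fermat.Agent.Lib.S18
  Fermat.Agent.Lib.S28 Fermat.Agent.Lib.S37 Fermat.Agent.Lib.S34

local notation "Kb" => AlgebraicClosure ℚ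

/-! ### Abstract relation package -/

section Abs

variable {K F F' : Type*} [Field K] [Field F] [Field F'] [Algebra K F] [Algebra K F']

/-- `x` is a root of a monic polynomial `Φ(X, y)` of degree `q + 1` with the trivial degree bounds
of the modular equation. -/
def s36b_ModRel (K : Type*) {F : Type*} [Field K] [Field F] [Algebra K F] (q : ℕ) (x y : F) :
    Prop :=
  ∃ Φ : Polynomial (Polynomial K), Φ.Monic ∧ Φ.natDegree = q + 1 ∧
    (∀ i ≤ q + 1, (Φ.coeff i).natDegree ≤ q * (q + 1 - i)) ∧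
    Φ.eval₂ (aeval y : K[X] →ₐ[K] F).toRingHom x = 0

theorem s36b_modRel_map (ψ : F →ₐ[K] F') {q : ℕ} {x y : F} (h : s36b_ModRel K q x y) :
    s36b_ModRel K q (ψ x) (ψ y) := by
  obtain ⟨Φ, hm, hd, hdeg, hrel⟩ := h
  refine ⟨Φ, hm, hd, hdeg, ?_⟩
  have hcomp : (ψ : F →+* F').comp (aeval y : K[X] →ₐ[K] F).toRingHom =
      (aeval (ψ y) : K[X] →ₐ[K] F').toRingHom := by
    refine Polynomial.ringHom_ext (fun a => ?_) ?_
    · simp only [RingHom.comp_apply, AlgHom.toRingHom_eq_coe, RingHom.coe_coe, aeval_C]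
      exact ψ.commutes a
    · simp only [RingHom.comp_apply, AlgHom.toRingHom_eq_coe, RingHom.coe_coe, aeval_X]
  have h1 := Polynomial.hom_eval₂ Φ (aeval y : K[X] →ₐ[K] F).toRingHom (ψ : F →+* F') x
  rw [hcomp, hrel, map_zero] at h1
  exact h1.symm

/-- **`x y⁻ᵠ ∈ A`** for every valuation ring `A ∋ y⁻¹` containing the constants. -/
theorem s36b_modRel_mem (A : ValuationSubring F) (hA : ∀ a : K, algebraMap K F a ∈ A)
    {q : ℕ} {x y : F} (h : s36b_ModRel K q x y) (hy0 : y ≠ 0) (hy : y⁻¹ ∈ A) :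
    x * y⁻¹ ^ q ∈ A := by
  obtain ⟨Φ, hm, hd, hdeg, hrel⟩ := h
  refine s36u_cusp_integral A hA Φ hm q ?_ x y hy0 hy hrel
  rw [hd]
  exact hdeg

end Abs

/-! ### Level `M q` over `Q̄` -/

section LevelOne

variable (M q : ℕ) [NeZero M] [NeZero q] (hq : q.Prime) (hqM : ¬ q ∣ M)

include hq hqM in
/-- both modular relations between `j` and `j_q` in `F̄(M q)`. -/
theorem s36b_modRel_level :
    s36b_ModRel Kb q (heckeBetaBar Kb M q (ffd_jBar M)) (ffd_jBar (M * q)) ∧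
    s36b_ModRel Kb q (ffd_jBar (M * q)) (heckeBetaBar Kb M q (ffd_jBar M)) := by
  have h1 : s36b_ModRel Kb q (heckeBetaBar Kb M q (ffd_jBar M)) (ffd_jBar (M * q)) :=
    s36u_cusp_rel M q hq
  refine ⟨h1, ?_⟩
  have h2 := s36b_modRel_map
    ((s37w_al M q hq hqM : ffi_F (M * q) ≃ₐ[Kb] ffi_F (M * q)) :
      ffi_F (M * q) →ₐ[Kb] ffi_F (M * q)) h1
  have e1 : ((s37w_al M q hq hqM : ffi_F (M * q) ≃ₐ[Kb] ffi_F (M * q)) :
      ffi_F (M * q) →ₐ[Kb] ffi_F (M * q)) (heckeBetaBar Kb M q (ffd_jBar M)) =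
      ffd_jBar (M * q) := by
    show s37w_al M q hq hqM (heckeBetaBar Kb M q (ffd_jBar M)) = _
    rw [s37w_al_beta, s36u_cusp_alpha_jBar]
  have e2 : ((s37w_al M q hq hqM : ffi_F (M * q) ≃ₐ[Kb] ffi_F (M * q)) :
      ffi_F (M * q) →ₐ[Kb] ffi_F (M * q)) (ffd_jBar (M * q)) =
      heckeBetaBar Kb M q (ffd_jBar M) := by
    show s37w_al M q hq hqM (ffd_jBar (M * q)) = _
    rw [← s36u_cusp_alpha_jBar M q, s37w_al_alpha]
  rw [e1, e2] at h2
  exact h2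

end LevelOne

/-! ### Level `M q²` over `Q̄` -/

section LevelTwoBar

variable (M q : ℕ) [NeZero M] [NeZero q] (hq : q.Prime) (hqM : ¬ q ∣ M)

/-- `j(z)` at level `M q²`. -/
def s36b_J0 : ffi_F (M * q * q) := ffd_jBar (M * q * q)

/-- `j(qz)` at level `M q²`. -/
def s36b_J1 : ffi_F (M * q * q) :=
  heckeAlphaBar Kb (M * q) q (heckeBetaBar Kb M q (ffd_jBar M))

/-- `j(q²z)` at level `M q²`. -/
def s36b_J2 : ffi_F (M * q * q) :=
  heckeBetaBar Kb (M * q) q (heckeBetaBar Kb M q (ffd_jBar M))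

theorem s36b_J0_eq : s36b_J0 M q = heckeAlphaBar Kb (M * q) q (ffd_jBar (M * q)) :=
  (s36u_cusp_alpha_jBar (M * q) q).symm

theorem s36b_J1_eq : s36b_J1 M q = heckeBetaBar Kb (M * q) q (ffd_jBar (M * q)) := by
  apply Subtype.ext
  rw [s36b_J1, coe_heckeAlphaBar, coe_heckeBetaBar, coe_heckeBetaBar,
    ← s36u_cusp_alpha_jBar M q, coe_heckeAlphaBar]

include hq hqM in
theorem s36b_modRel_10 : s36b_ModRel Kb q (s36b_J1 M q) (s36b_J0 M q) := by
  rw [s36b_J0_eq]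
  exact s36b_modRel_map (heckeAlphaBar Kb (M * q) q) (s36b_modRel_level M q hq hqM).1

include hq hqM in
theorem s36b_modRel_01 : s36b_ModRel Kb q (s36b_J0 M q) (s36b_J1 M q) := by
  rw [s36b_J0_eq]
  exact s36b_modRel_map (heckeAlphaBar Kb (M * q) q) (s36b_modRel_level M q hq hqM).2

include hq hqM in
theorem s36b_modRel_21 : s36b_ModRel Kb q (s36b_J2 M q) (s36b_J1 M q) := by
  rw [s36b_J1_eq]
  exact s36b_modRel_map (heckeBetaBar Kb (M * q) q) (s36b_modRel_level M q hq hqM).1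

include hq hqM in
theorem s36b_modRel_12 : s36b_ModRel Kb q (s36b_J1 M q) (s36b_J2 M q) := by
  rw [s36b_J1_eq]
  exact s36b_modRel_map (heckeBetaBar Kb (M * q) q) (s36b_modRel_level M q hq hqM).2

end LevelTwoBar

/-! ### Over `K₀` -/

section OverK

variable {K₀ : Type} [Field K₀] [Algebra ℚ K₀] (φ : K₀ →+* Kb)
  (M q : ℕ) [NeZero M] [NeZero q] (hq : q.Prime) (hqM : ¬ q ∣ M)

/-- `j(z)` at level `M q²` over `K₀`. -/
def s36b_j0 : s34m_F K₀ (M * q * q) := s18g_jF (K := K₀) (M * q * q)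

/-- `j(qz)` at level `M q²` over `K₀`. -/
def s36b_j1 : s34m_F K₀ (M * q * q) := s36g_alpha M q (s34m_betaJ (K₀ := K₀) M q)

/-- `j(q²z)` at level `M q²` over `K₀`. -/
def s36b_j2 : s34m_F K₀ (M * q * q) := s36g_beta M q (s34m_betaJ (K₀ := K₀) M q)

theorem s36b_j0_eq : s36b_j0 (K₀ := K₀) M q = s36g_alpha M q (s18g_jF (K := K₀) (M * q)) :=
  (s34m_alpha_jF (K₀ := K₀) (M * q) q).symm

/-- `α'(j_q) = β'(j)`. -/
theorem s36b_j1_eq : s36b_j1 (K₀ := K₀) M q = s36g_beta M q (s18g_jF (K := K₀) (M * q)) := by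
  apply Subtype.ext
  show ((heckeAlphaBar K₀ (M * q) q (s34m_betaJ (K₀ := K₀) M q) : s34m_F K₀ (M * q * q)) :
      LaurentSeries K₀) =
    ((heckeBetaBar K₀ (M * q) q (s18g_jF (K := K₀) (M * q)) : s34m_F K₀ (M * q * q)) :
      LaurentSeries K₀)
  rw [coe_heckeAlphaBar, coe_heckeBetaBar, s34m_coe_betaJ, s18g_coe_jF]

theorem s36b_iota_j0 : s34m_iota φ (M * q * q) (s36b_j0 (K₀ := K₀) M q) = s36b_J0 M q :=
  s18r_map_jF φ (M * q * q)

theorem s36b_iota_betaJ :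
    s34m_iota φ (M * q) (s34m_betaJ (K₀ := K₀) M q) = heckeBetaBar Kb M q (ffd_jBar M) := by
  rw [s34m_betaJ, s34m_iota_beta]
  congr 1
  exact s18r_map_jF φ M

theorem s36b_iota_j1 : s34m_iota φ (M * q * q) (s36b_j1 (K₀ := K₀) M q) = s36b_J1 M q := by
  show s34m_iota φ (M * q * q) (heckeAlphaBar K₀ (M * q) q (s34m_betaJ (K₀ := K₀) M q)) = _
  rw [s34m_iota_alpha, s36b_iota_betaJ]
  rfl

theorem s36b_iota_j2 : s34m_iota φ (M * q * q) (s36b_j2 (K₀ := K₀) M q) = s36b_J2 M q := by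
  show s34m_iota φ (M * q * q) (heckeBetaBar K₀ (M * q) q (s34m_betaJ (K₀ := K₀) M q)) = _
  rw [s34m_iota_beta, s36b_iota_betaJ]
  rfl

theorem s36b_j0_ne_zero : s36b_j0 (K₀ := K₀) M q ≠ 0 := s18g_jF_ne_zero (M * q * q)

theorem s36b_betaJ_ne_zero : s34m_betaJ (K₀ := K₀) M q ≠ 0 :=
  (_root_.map_ne_zero (heckeBetaBar K₀ M q)).mpr (s18g_jF_ne_zero M)

theorem s36b_j1_ne_zero : s36b_j1 (K₀ := K₀) M q ≠ 0 :=
  (_root_.map_ne_zero (s36g_alpha M q)).mpr (s36b_betaJ_ne_zero M q)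

theorem s36b_j2_ne_zero : s36b_j2 (K₀ := K₀) M q ≠ 0 :=
  (_root_.map_ne_zero (s36g_beta M q)).mpr (s36b_betaJ_ne_zero M q)

include φ in
/-- **transfer of a `Q̄`-relation to the places of the function field over `K₀`.** -/
theorem s36b_modRel_reg_K (N : ℕ) [NeZero N] (x y : s34m_F K₀ N) (hx0 : x ≠ 0) (hy0 : y ≠ 0)
    (hrel : s36b_ModRel Kb q (s34m_iota φ N x) (s34m_iota φ N y))
    (Q : Place K₀ (s34m_F K₀ N)) (hy : y⁻¹ ∈ Q.toValuationSubring) :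
    x * y⁻¹ ^ q ∈ Q.toValuationSubring := by
  obtain ⟨ρ, hsurj, hord⟩ := s18r_exists_restrict φ N
  obtain ⟨P, rfl⟩ := hsurj Q
  set ι := s34m_iota φ N with hι
  have hιy0 : ι y ≠ 0 := (_root_.map_ne_zero ι).mpr hy0
  have hιx0 : ι x ≠ 0 := (_root_.map_ne_zero ι).mpr hx0
  have h1 : (ι y)⁻¹ ∈ P.toValuationSubring := by
    rw [ff_mem_iff_ord_nonneg P (inv_ne_zero hιy0), ← map_inv₀, hord]
    exact (ff_mem_iff_ord_nonneg _ (inv_ne_zero hy0)).mp hy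
  have h2 := s36b_modRel_mem P.toValuationSubring P.algebraMap_mem' hrel hιy0 h1
  have hne : x * y⁻¹ ^ q ≠ 0 := mul_ne_zero hx0 (pow_ne_zero _ (inv_ne_zero hy0))
  rw [ff_mem_iff_ord_nonneg _ hne, ← hord, map_mul, map_pow, map_inv₀]
  exact (ff_mem_iff_ord_nonneg P (mul_ne_zero hιx0 (pow_ne_zero _ (inv_ne_zero hιy0)))).mp h2

variable (Q : Place K₀ (s34m_F K₀ (M * q * q)))

include φ hq hqM in
/-- `1/j₀` regular at `Q` ⇒ `j₁ / j₀ᵠ` regular at `Q`. -/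
theorem s36b_cusp_reg_10 (h : (s36b_j0 (K₀ := K₀) M q)⁻¹ ∈ Q.toValuationSubring) :
    s36b_j1 (K₀ := K₀) M q * (s36b_j0 (K₀ := K₀) M q)⁻¹ ^ q ∈ Q.toValuationSubring :=
  s36b_modRel_reg_K φ q (M * q * q) _ _ (s36b_j1_ne_zero M q) (s36b_j0_ne_zero M q)
    (by rw [s36b_iota_j0, s36b_iota_j1]; exact s36b_modRel_10 M q hq hqM) Q h

include φ hq hqM in
/-- `1/j₁` regular at `Q` ⇒ `j₀ / j₁ᵠ` regular at `Q`. -/
theorem s36b_cusp_reg_01 (h : (s36b_j1 (K₀ := K₀) M q)⁻¹ ∈ Q.toValuationSubring) :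
    s36b_j0 (K₀ := K₀) M q * (s36b_j1 (K₀ := K₀) M q)⁻¹ ^ q ∈ Q.toValuationSubring :=
  s36b_modRel_reg_K φ q (M * q * q) _ _ (s36b_j0_ne_zero M q) (s36b_j1_ne_zero M q)
    (by rw [s36b_iota_j0, s36b_iota_j1]; exact s36b_modRel_01 M q hq hqM) Q h

include φ hq hqM in
/-- `1/j₁` regular at `Q` ⇒ `j₂ / j₁ᵠ` regular at `Q`. -/
theorem s36b_cusp_reg_21 (h : (s36b_j1 (K₀ := K₀) M q)⁻¹ ∈ Q.toValuationSubring) :
    s36b_j2 (K₀ := K₀) M q * (s36b_j1 (K₀ := K₀) M q)⁻¹ ^ q ∈ Q.toValuationSubring :=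
  s36b_modRel_reg_K φ q (M * q * q) _ _ (s36b_j2_ne_zero M q) (s36b_j1_ne_zero M q)
    (by rw [s36b_iota_j2, s36b_iota_j1]; exact s36b_modRel_21 M q hq hqM) Q h

include φ hq hqM in
/-- `1/j₂` regular at `Q` ⇒ `j₁ / j₂ᵠ` regular at `Q`. -/
theorem s36b_cusp_reg_12 (h : (s36b_j2 (K₀ := K₀) M q)⁻¹ ∈ Q.toValuationSubring) :
    s36b_j1 (K₀ := K₀) M q * (s36b_j2 (K₀ := K₀) M q)⁻¹ ^ q ∈ Q.toValuationSubring :=
  s36b_modRel_reg_K φ q (M * q * q) _ _ (s36b_j1_ne_zero M q) (s36b_j2_ne_zero M q)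
    (by rw [s36b_iota_j2, s36b_iota_j1]; exact s36b_modRel_12 M q hq hqM) Q h

end OverK

end Fermat.Agent.Lib.S36
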