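/-
S36 project, geometry layer (X1) (helper9, prefix `s36p_`): **(REG)** — the regularity input `hreg`
of helper5's `s36q_cusp_hone` (`QCuspOne.lean`) for the three base functions.

With `w = α'(α x)`, `x₁ = α'(β x)`, `x₂ = β'(β x)` (`x ∈ F(M)`; series `t(z)`, `t(qz)`, `t(q²z)`): at
every place `Q` of `F₂ = F(M q²)` over `K₀` with `w⁻¹ ∈ O_Q`,

  `x₁ w⁻ᵠ ∈ O_Q` and `x₂ w^(-q²) ∈ O_Q`,

for `x = j` and for `x` with series `t₂` (`q` odd) resp. `t₃` (`q ≠ 3`).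

* `s36p_haupt_pole` : for `u y^a = A(y)`, `A` monic of degree `a + 1`: at a pole of `y`,
  `u / y ≡ 1`;
* `s36p_reg_abs`    : the abstract argument (helper1's cusp relations `s36b_cusp_reg_10/_21` between
  `j₀, j₁, j₂`, the `j`-criterion `s36p_j_mem_iff`, Hauptmodul relations);
* **`s36p_reg_j`, `s36p_reg_t2`, `s36p_reg_t3`** : `hreg` verbatim.
-/
import Fermat.Agent.Lib.S36.XCuspRel
import Fermat.Agent.Lib.S36.PSat

set_option autoImplicit false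
set_option linter.unusedSectionVars false
set_option linter.style.haveILetI false
set_option synthInstance.maxHeartbeats 400000

noncomputable section

namespace Fermat.Agent.Lib.S36

open ModularCurve AlgebraicCurve Polynomial Fermat.Agent.Lib.FF Fermat.Agent.Lib.S18
  Fermat.Agent.Lib.S28 Fermat.Agent.Lib.S37 Fermat.Agent.Lib.S34 Fermat.Agent.Lib.S35

local notation "Kb" => AlgebraicClosure ℚ

/-! ### Abstract part -/

section Abstract

variable {K 𝓕 : Type*} [Field K] [Field 𝓕] [Algebra K 𝓕]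

/-- a unit `≡ 1`: both `f` and `f⁻¹` lie in the valuation ring. -/
theorem s36p_unit_of_sub_one (V : ValuationSubring 𝓕) {f : 𝓕} (hf : f - 1 ∈ V.nonunits) :
    f ∈ V ∧ f⁻¹ ∈ V := by
  have h1 : V.valuation (f - 1) < 1 := V.mem_nonunits_iff.mp hf
  have h2 : V.valuation f = 1 := by
    have := Valuation.map_add_eq_of_lt_left V.valuation (x := (1 : 𝓕)) (y := f - 1)
      (by rw [map_one]; exact h1)
    rw [map_one] at this
    rw [← this]
    congr 1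
    ring
  refine ⟨(V.valuation_le_one_iff _).mp h2.le, (V.valuation_le_one_iff _).mp ?_⟩
  rw [map_inv₀, h2, inv_one]

/-- **a Hauptmodul-type function at a pole**: if `u y^a = A(y)` with `A` monic of degree `a + 1` and
`y` has a pole at `V` (`y⁻¹` a non-unit), then `u y⁻¹ ≡ 1`. -/
theorem s36p_haupt_pole (V : ValuationSubring 𝓕) (hKV : ∀ c : K, algebraMap K 𝓕 c ∈ V)
    (A : K[X]) (hA : A.Monic) (a : ℕ) (hdeg : A.natDegree = a + 1) (u y : 𝓕) (hy0 : y ≠ 0)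
    (r : u * y ^ a = aeval y A) (hy : y⁻¹ ∈ V.nonunits) : u * y⁻¹ - 1 ∈ V.nonunits := by
  set B : K[X] := A - X ^ (a + 1) with hB
  have hBdeg : B.natDegree ≤ a := by
    rw [Polynomial.natDegree_le_iff_coeff_eq_zero]
    intro N hN
    rw [hB, coeff_sub, coeff_X_pow]
    rcases Nat.lt_or_ge (a + 1) N with h | h
    · rw [coeff_eq_zero_of_natDegree_lt (by rw [hdeg]; exact h), if_neg (by omega), sub_zero]
    · have hN' : N = a + 1 := by omega
      rw [if_pos hN', hN', ← hdeg, hA.coeff_natDegree, sub_self]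
  have hyV : y⁻¹ ∈ V := ValuationSubring.nonunits_le hy
  have h1 : aeval y B * y⁻¹ ^ a ∈ V := s36u_cusp_aeval_mul_pow_mem V hKV y hy0 hyV B a hBdeg
  have e : u * y⁻¹ - 1 = (aeval y B * y⁻¹ ^ a) * y⁻¹ := by
    have hu : u = aeval y A * y⁻¹ ^ a := by
      rw [← r, mul_assoc, ← mul_pow, mul_inv_cancel₀ hy0, one_pow, mul_one]
    have hAB : aeval y A = aeval y B + y ^ (a + 1) := by
      rw [hB, map_sub, map_pow, aeval_X]; ring
    have hyy : y ^ (a + 1) * y⁻¹ ^ a * y⁻¹ = 1 := by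
      rw [mul_assoc, ← pow_succ, ← mul_pow, mul_inv_cancel₀ hy0, one_pow]
    rw [hu, hAB, add_mul, add_mul, hyy]
    ring
  rw [e]
  have h2 := V.mem_nonunits_iff.mp hy
  rw [V.mem_nonunits_iff, map_mul]
  calc V.valuation (aeval y B * y⁻¹ ^ a) * V.valuation y⁻¹
      ≤ 1 * V.valuation y⁻¹ := mul_le_mul_left ((V.valuation_le_one_iff _).mpr h1) _
    _ = V.valuation y⁻¹ := one_mul _
    _ < 1 := h2

/-- **(REG), abstract form.** -/
theorem s36p_reg_abs (V : ValuationSubring 𝓕) (hKV : ∀ c : K, algebraMap K 𝓕 c ∈ V)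
    (A : K[X]) (hA : A.Monic) (a : ℕ) (ha0 : 0 < a) (hdeg : A.natDegree = a + 1)
    (hA0 : A.coeff 0 ≠ 0) (q : ℕ)
    (j0 j1 j2 w x1 x2 : 𝓕) (hw0 : w ≠ 0) (hx10 : x1 ≠ 0) (hx20 : x2 ≠ 0)
    (hj00 : j0 ≠ 0) (hj10 : j1 ≠ 0)
    (r0 : j0 * w ^ a = aeval w A) (r1 : j1 * x1 ^ a = aeval x1 A)
    (r2 : j2 * x2 ^ a = aeval x2 A)
    (h01 : j0 ∈ V ↔ j1 ∈ V) (h12 : j1 ∈ V → j2 ∈ V)
    (c10 : j0⁻¹ ∈ V → j1 * j0⁻¹ ^ q ∈ V) (c21 : j1⁻¹ ∈ V → j2 * j1⁻¹ ^ q ∈ V)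
    (hw : w⁻¹ ∈ V) : x1 * w⁻¹ ^ q ∈ V ∧ x2 * w⁻¹ ^ (q * q) ∈ V := by
  have haD : a < A.natDegree := by omega
  by_cases hwV : w ∈ V
  · -- `w` is a unit
    have hj0 : j0 ∈ V := s36p_j_mem_of_unit V hKV A a j0 w hw0 r0 hwV hw
    have hj1 : j1 ∈ V := h01.mp hj0
    have hj2 : j2 ∈ V := h12 hj1
    have hx1 := (s36p_unit_of_haupt V hKV A hA a ha0 haD hA0 j1 x1 hx10 r1 hj1).1
    have hx2 := (s36p_unit_of_haupt V hKV A hA a ha0 haD hA0 j2 x2 hx20 r2 hj2).1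
    exact ⟨V.mul_mem _ _ hx1 (pow_mem hw _), V.mul_mem _ _ hx2 (pow_mem hw _)⟩
  · -- `w` has a pole
    have hwn : w⁻¹ ∈ V.nonunits := by
      rw [ValuationSubring.mem_nonunits_iff_or]
      right
      rwa [inv_inv]
    obtain ⟨he0, he0'⟩ := s36p_unit_of_sub_one V
      (s36p_haupt_pole V hKV A hA a hdeg j0 w hw0 r0 hwn)
    -- `j0 ∉ V`
    have hj0V : j0 ∉ V := by
      intro h
      apply hwV
      have : w = j0 * (j0 * w⁻¹)⁻¹ := by field_simp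
      rw [this]
      exact V.mul_mem _ _ h he0'
    have hj0i : j0⁻¹ ∈ V := (V.mem_or_inv_mem j0).resolve_left hj0V
    have hj1V : j1 ∉ V := fun h => hj0V (h01.mpr h)
    have hj1i : j1⁻¹ ∈ V := (V.mem_or_inv_mem j1).resolve_left hj1V
    have hZ10 := c10 hj0i
    have hZ21 := c21 hj1i
    constructor
    · by_cases hx1V : x1 ∈ V
      · exact V.mul_mem _ _ hx1V (pow_mem hw _)
      · have hx1n : x1⁻¹ ∈ V.nonunits := by
          rw [ValuationSubring.mem_nonunits_iff_or]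
          right
          rwa [inv_inv]
        obtain ⟨-, he1'⟩ := s36p_unit_of_sub_one V
          (s36p_haupt_pole V hKV A hA a hdeg j1 x1 hx10 r1 hx1n)
        have e : x1 * w⁻¹ ^ q = (j1 * x1⁻¹)⁻¹ * (j0 * w⁻¹) ^ q * (j1 * j0⁻¹ ^ q) := by
          have h1 : j1⁻¹ * j1 = 1 := inv_mul_cancel₀ hj10
          have h2 : j0 ^ q * j0⁻¹ ^ q = 1 := by
            rw [← mul_pow, mul_inv_cancel₀ hj00, one_pow]
          rw [mul_inv, inv_inv]
          have e' : j1⁻¹ * x1 * (j0 * w⁻¹) ^ q * (j1 * j0⁻¹ ^ q) =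
              x1 * w⁻¹ ^ q * (j1⁻¹ * j1) * (j0 ^ q * j0⁻¹ ^ q) := by ring
          rw [e', h1, h2, mul_one, mul_one]
        rw [e]
        exact V.mul_mem _ _ (V.mul_mem _ _ he1' (pow_mem he0 _)) hZ10
    · by_cases hx2V : x2 ∈ V
      · exact V.mul_mem _ _ hx2V (pow_mem hw _)
      · have hx2n : x2⁻¹ ∈ V.nonunits := by
          rw [ValuationSubring.mem_nonunits_iff_or]
          right
          rwa [inv_inv]
        have hj20 : j2 ≠ 0 := by
          rintro rfl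
          rw [zero_mul] at r2
          -- `A(x2) = 0` with `x2` a pole is impossible; easier: `x2` integral
          apply hx2V
          exact (s36p_unit_of_haupt V hKV A hA a ha0 haD hA0 0 x2 hx20
            (by rw [zero_mul]; exact r2) V.zero_mem).1
        obtain ⟨-, he2'⟩ := s36p_unit_of_sub_one V
          (s36p_haupt_pole V hKV A hA a hdeg j2 x2 hx20 r2 hx2n)
        have e : x2 * w⁻¹ ^ (q * q) =
            (j2 * x2⁻¹)⁻¹ * (j0 * w⁻¹) ^ (q * q) * ((j2 * j1⁻¹ ^ q) * (j1 * j0⁻¹ ^ q) ^ q) := by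
          have h1 : j2⁻¹ * j2 = 1 := inv_mul_cancel₀ hj20
          have h2 : j0 ^ (q * q) * j0⁻¹ ^ (q * q) = 1 := by
            rw [← mul_pow, mul_inv_cancel₀ hj00, one_pow]
          have h3 : j1⁻¹ ^ q * j1 ^ q = 1 := by
            rw [← mul_pow, inv_mul_cancel₀ hj10, one_pow]
          rw [mul_inv, inv_inv]
          have e' : j2⁻¹ * x2 * (j0 * w⁻¹) ^ (q * q) *
              ((j2 * j1⁻¹ ^ q) * (j1 * j0⁻¹ ^ q) ^ q) =
              x2 * w⁻¹ ^ (q * q) * (j2⁻¹ * j2) * (j0 ^ (q * q) * j0⁻¹ ^ (q * q)) *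
                (j1⁻¹ ^ q * j1 ^ q) := by ring
          rw [e', h1, h2, h3, mul_one, mul_one, mul_one]
        rw [e]
        exact V.mul_mem _ _ (V.mul_mem _ _ he2' (pow_mem he0 _))
          (V.mul_mem _ _ hZ21 (pow_mem hZ10 _))

end Abstract

/-! ### The three base functions -/

section Instances

variable {K₀ : Type} [Field K₀] [Algebra ℚ K₀] (φ : K₀ →+* Kb)
  (M q : ℕ) [NeZero M] [NeZero q] (hq : q.Prime) (hqM : ¬ q ∣ M)
  (Q : Place K₀ (s34m_F K₀ (M * q * q)))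

include φ hq in
/-- `j₀ ∈ O_Q ↔ j₁ ∈ O_Q`. -/
theorem s36p_j01_iff :
    s36b_j0 (K₀ := K₀) M q ∈ Q.toValuationSubring ↔
      s36b_j1 (K₀ := K₀) M q ∈ Q.toValuationSubring := by
  rw [s36b_j1_eq]
  exact s36p_j_mem_iff φ (M * q) q hq Q

/-- `j₁ ∈ O_Q → j₂ ∈ O_Q`. -/
theorem s36p_j12 (h : s36b_j1 (K₀ := K₀) M q ∈ Q.toValuationSubring) :
    s36b_j2 (K₀ := K₀) M q ∈ Q.toValuationSubring := by
  have h1 : s28d_IntOver (s36g_beta M q (s18g_jF (K := K₀) (M * q)))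
      (s36g_beta M q (s34d2_u (K₀ := K₀) M q)) :=
    s28d_intOver_map (s36g_beta M q) (s34d2_intOver_u (K₀ := K₀) M q)
  rw [← s36b_j1_eq] at h1
  exact s34e_cusp_mem_of_intOver Q.toValuationSubring h1 h

/-- `α'(α j) = j₀`. -/
theorem s36p_alpha_alpha_j :
    s36g_alpha M q (heckeAlphaBar K₀ M q (s18g_jF (K := K₀) M)) = s36b_j0 (K₀ := K₀) M q := by
  rw [s34d2_alpha_j M q]
  exact s34d2_alpha_j (M * q) q

include φ hq hqM in
/-- **(REG) for `x = j`.** -/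
theorem s36p_reg_j
    (h : (s36g_alpha M q (heckeAlphaBar K₀ M q (s18g_jF (K := K₀) M)))⁻¹ ∈
      Q.toValuationSubring) :
    s36g_alpha M q (heckeBetaBar K₀ M q (s18g_jF (K := K₀) M)) *
        (s36g_alpha M q (heckeAlphaBar K₀ M q (s18g_jF (K := K₀) M)))⁻¹ ^ q ∈
          Q.toValuationSubring ∧
      s36g_beta M q (heckeBetaBar K₀ M q (s18g_jF (K := K₀) M)) *
        (s36g_alpha M q (heckeAlphaBar K₀ M q (s18g_jF (K := K₀) M)))⁻¹ ^ (q * q) ∈
          Q.toValuationSubring := by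
  rw [s36p_alpha_alpha_j] at h ⊢
  show s36b_j1 (K₀ := K₀) M q * (s36b_j0 (K₀ := K₀) M q)⁻¹ ^ q ∈ Q.toValuationSubring ∧
    s36b_j2 (K₀ := K₀) M q * (s36b_j0 (K₀ := K₀) M q)⁻¹ ^ (q * q) ∈ Q.toValuationSubring
  have hZ10 := s36b_cusp_reg_10 φ M q hq hqM Q h
  refine ⟨hZ10, ?_⟩
  by_cases hj0 : s36b_j0 (K₀ := K₀) M q ∈ Q.toValuationSubring
  · exact Q.toValuationSubring.mul_mem _ _
      (s36p_j12 M q Q ((s36p_j01_iff φ M q hq Q).mp hj0)) (pow_mem h _)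
  · have hj1 : s36b_j1 (K₀ := K₀) M q ∉ Q.toValuationSubring :=
      fun h1 => hj0 ((s36p_j01_iff φ M q hq Q).mpr h1)
    have hj1i := (Q.toValuationSubring.mem_or_inv_mem _).resolve_left hj1
    have hZ21 := s36b_cusp_reg_21 φ M q hq hqM Q hj1i
    have hj10 : s36b_j1 (K₀ := K₀) M q ≠ 0 := s36b_j1_ne_zero M q
    have e : s36b_j2 (K₀ := K₀) M q * (s36b_j0 (K₀ := K₀) M q)⁻¹ ^ (q * q) =
        (s36b_j2 (K₀ := K₀) M q * (s36b_j1 (K₀ := K₀) M q)⁻¹ ^ q) *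
          (s36b_j1 (K₀ := K₀) M q * (s36b_j0 (K₀ := K₀) M q)⁻¹ ^ q) ^ q := by
      have h3 : (s36b_j1 (K₀ := K₀) M q)⁻¹ ^ q * s36b_j1 (K₀ := K₀) M q ^ q = 1 := by
        rw [← mul_pow, inv_mul_cancel₀ hj10, one_pow]
      have e' : (s36b_j2 (K₀ := K₀) M q * (s36b_j1 (K₀ := K₀) M q)⁻¹ ^ q) *
          (s36b_j1 (K₀ := K₀) M q * (s36b_j0 (K₀ := K₀) M q)⁻¹ ^ q) ^ q =
          s36b_j2 (K₀ := K₀) M q * (s36b_j0 (K₀ := K₀) M q)⁻¹ ^ (q * q) *
            ((s36b_j1 (K₀ := K₀) M q)⁻¹ ^ q * s36b_j1 (K₀ := K₀) M q ^ q) := by ring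
      rw [e', h3, mul_one]
    rw [e]
    exact Q.toValuationSubring.mul_mem _ _ hZ21 (pow_mem hZ10 _)

include φ hq hqM in
/-- **(REG) for a base function of Hauptmodul type** with series `t`
(`j t^a = A(t)`, `A` monic of degree `a + 1`, `A(0) ≠ 0`, `a ≥ 1`). -/
theorem s36p_reg_haupt (A : K₀[X]) (hA : A.Monic) (a : ℕ) (ha0 : 0 < a)
    (hdeg : A.natDegree = a + 1) (hA0 : A.coeff 0 ≠ 0) (t : LaurentSeries K₀) (ht0 : t ≠ 0)
    (hrel : jqModC K₀ * t ^ a = aeval t A) (x : s34m_F K₀ M)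
    (hcoe : (x : LaurentSeries K₀) = t)
    (h : (s36g_alpha M q (heckeAlphaBar K₀ M q x))⁻¹ ∈ Q.toValuationSubring) :
    s36g_alpha M q (heckeBetaBar K₀ M q x) *
        (s36g_alpha M q (heckeAlphaBar K₀ M q x))⁻¹ ^ q ∈ Q.toValuationSubring ∧
      s36g_beta M q (heckeBetaBar K₀ M q x) *
        (s36g_alpha M q (heckeAlphaBar K₀ M q x))⁻¹ ^ (q * q) ∈ Q.toValuationSubring := by
  have hx0 : x ≠ 0 := by
    rintro rfl
    exact ht0 hcoe.symm
  have hαx0 : heckeAlphaBar K₀ M q x ≠ 0 := (_root_.map_ne_zero (heckeAlphaBar K₀ M q)).mpr hx0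
  have hβx0 : heckeBetaBar K₀ M q x ≠ 0 := (_root_.map_ne_zero (heckeBetaBar K₀ M q)).mpr hx0
  have hw0 : s36g_alpha M q (heckeAlphaBar K₀ M q x) ≠ 0 :=
    (_root_.map_ne_zero (s36g_alpha M q)).mpr hαx0
  have hx10 : s36g_alpha M q (heckeBetaBar K₀ M q x) ≠ 0 :=
    (_root_.map_ne_zero (s36g_alpha M q)).mpr hβx0
  have hx20 : s36g_beta M q (heckeBetaBar K₀ M q x) ≠ 0 :=
    (_root_.map_ne_zero (s36g_beta M q)).mpr hβx0
  -- the Hauptmodul relations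
  have hcw : ((s36g_alpha M q (heckeAlphaBar K₀ M q x) : s34m_F K₀ (M * q * q)) :
      LaurentSeries K₀) = t := by
    rw [← hcoe]
    exact (coe_heckeAlphaBar (M * q) q _).trans (coe_heckeAlphaBar M q x)
  have r0 : s36b_j0 (K₀ := K₀) M q * s36g_alpha M q (heckeAlphaBar K₀ M q x) ^ a =
      aeval (s36g_alpha M q (heckeAlphaBar K₀ M q x)) A :=
    s34e_cusp_rel_of_coe (M * q * q) A a t hrel _ hcw
  have rM : s18g_jF (K := K₀) M * x ^ a = aeval x A :=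
    s34e_cusp_rel_of_coe M A a t hrel x hcoe
  have rβ : s34m_betaJ (K₀ := K₀) M q * heckeBetaBar K₀ M q x ^ a =
      aeval (heckeBetaBar K₀ M q x) A := by
    have := congrArg (heckeBetaBar K₀ M q) rM
    rw [map_mul, map_pow, ← Polynomial.aeval_algHom_apply] at this
    exact this
  have r1 : s36b_j1 (K₀ := K₀) M q * s36g_alpha M q (heckeBetaBar K₀ M q x) ^ a =
      aeval (s36g_alpha M q (heckeBetaBar K₀ M q x)) A := by
    have := congrArg (heckeAlphaBar K₀ (M * q) q) rβ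
    rw [map_mul, map_pow, ← Polynomial.aeval_algHom_apply] at this
    exact this
  have r2 : s36b_j2 (K₀ := K₀) M q * s36g_beta M q (heckeBetaBar K₀ M q x) ^ a =
      aeval (s36g_beta M q (heckeBetaBar K₀ M q x)) A := by
    have := congrArg (heckeBetaBar K₀ (M * q) q) rβ
    rw [map_mul, map_pow, ← Polynomial.aeval_algHom_apply] at this
    exact this
  exact s36p_reg_abs Q.toValuationSubring Q.algebraMap_mem' A hA a ha0 hdeg hA0 q
    (s36b_j0 (K₀ := K₀) M q) (s36b_j1 (K₀ := K₀) M q) (s36b_j2 (K₀ := K₀) M q) _ _ _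
    hw0 hx10 hx20 (s36b_j0_ne_zero M q) (s36b_j1_ne_zero M q) r0 r1 r2
    (s36p_j01_iff φ M q hq Q) (s36p_j12 M q Q)
    (s36b_cusp_reg_10 φ M q hq hqM Q) (s36b_cusp_reg_21 φ M q hq hqM Q) h

variable [CharZero K₀]

include φ hq hqM in
/-- **(REG) for `x` with series `t₂`.** -/
theorem s36p_reg_t2 (x : s34m_F K₀ M) (hcoe : (x : LaurentSeries K₀) = s18u_t2 K₀)
    (h : (s36g_alpha M q (heckeAlphaBar K₀ M q x))⁻¹ ∈ Q.toValuationSubring) :
    s36g_alpha M q (heckeBetaBar K₀ M q x) *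
        (s36g_alpha M q (heckeAlphaBar K₀ M q x))⁻¹ ^ q ∈ Q.toValuationSubring ∧
      s36g_beta M q (heckeBetaBar K₀ M q x) *
        (s36g_alpha M q (heckeAlphaBar K₀ M q x))⁻¹ ^ (q * q) ∈ Q.toValuationSubring := by
  have hH := s18b_haupt_two K₀
  have hA0 : ((X + Polynomial.C (256 : K₀)) ^ 3 : K₀[X]).coeff 0 ≠ 0 := by
    rw [Polynomial.coeff_zero_eq_eval_zero]
    simp
  exact s36p_reg_haupt φ M q hq hqM Q _ hH.monic 2 (by norm_num) (by rw [hH.deg]) hA0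
    (s18u_t2 K₀) (s18b_t2_ne_zero K₀) hH.rel x hcoe h

include φ hq hqM in
/-- **(REG) for `x` with series `t₃`.** -/
theorem s36p_reg_t3 (x : s34m_F K₀ M) (hcoe : (x : LaurentSeries K₀) = s18u_t3 K₀)
    (h : (s36g_alpha M q (heckeAlphaBar K₀ M q x))⁻¹ ∈ Q.toValuationSubring) :
    s36g_alpha M q (heckeBetaBar K₀ M q x) *
        (s36g_alpha M q (heckeAlphaBar K₀ M q x))⁻¹ ^ q ∈ Q.toValuationSubring ∧
      s36g_beta M q (heckeBetaBar K₀ M q x) *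
        (s36g_alpha M q (heckeAlphaBar K₀ M q x))⁻¹ ^ (q * q) ∈ Q.toValuationSubring := by
  have hH := s18b_haupt_three K₀
  have hA0 : ((X + Polynomial.C (27 : K₀)) * (X + Polynomial.C (243 : K₀)) ^ 3 : K₀[X]).coeff 0
      ≠ 0 := by
    rw [Polynomial.coeff_zero_eq_eval_zero]
    simp
  exact s36p_reg_haupt φ M q hq hqM Q _ hH.monic 3 (by norm_num) (by rw [hH.deg]) hA0
    (s18u_t3 K₀) (s18b_t3_ne_zero K₀) hH.rel x hcoe h

end Instances

end Fermat.Agent.Lib.S36
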