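/-
S36 mega-project, layer (R2) (helper5), part 4 = (E4): **the kernel of the reduction at ONE vertical
component is principal**, as soon as it has a generator without horizontal zero through the point.

Frame of `Lib/S34/XLocGen.lean`: `O : ι → ValuationSubring 𝓕` the vertical valuations
("components"), `B = s34x_ring (s34x_infRing O) S` the ring of a chart `S`, `𝔫` a prime of `B`,
`R = B_𝔫 ⊂ 𝓕` (`s34f_iota`).  Let `w ∈ B`, `i₀ : ι` with
 (a) `w` generates the non-units of `O i₀`          (`w` is a uniformiser of the component `i₀`),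
 (b) `w` is a unit of `O i` for `i ≠ i₀`,
 (c) no zero of `w` in the chart passes through `𝔫`  (e.g. `w ∣ π·s` in `B` with `π` constant, `s ∉ 𝔫`:
     `s36q_noZero_of_dvd`),
 (d) `w` has finitely many zeros in the chart.
Then every `a ∈ B` which is a non-unit of `O i₀` satisfies `a * s = w * b` with `s ∉ 𝔫`
(`s36q_ker_global`), and every `z ∈ R` whose image in `𝓕` is a non-unit of `O i₀` is a multiple of
`w` in `R` (`s36q_ker_local`): this is hypothesis (K) of `s36q_locEq_of_red` for ANY reduction map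
`r` with `r z = 0 → ι z ∈ (O i₀).nonunits` — in particular for `s36q_red`, the reduction to the
residue field of `O i₀` (defined when the component passes through `𝔫`).

Used with `w = ϖ` (smooth points of a reduced component), `w = s₃` (the component of multiplicity
`q - 1`), `w = α^*w_α` (triple points).
-/
import Fermat.Agent.Lib.S34.FLocal

set_option autoImplicit false

noncomputable section

namespace Fermat.Agent.Lib.S36

open AlgebraicCurve Fermat.Agent.Lib.FF Fermat.Agent.Lib.S18 Fermat.Agent.Lib.S34 IsLocalRing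

variable {L₀ 𝓕 : Type*} [Field L₀] [Field 𝓕] [Algebra L₀ 𝓕]

section General

variable (O : Subring 𝓕) (S : Set (Place L₀ 𝓕)) (𝔫 : Ideal (s34x_ring O S)) [h𝔫 : 𝔫.IsPrime]

omit h𝔫 in
/-- **(c) from divisibility**: if `π * s = w * b` in `B` with `s ∉ 𝔫` and `π` a unit at all places of
the chart (a constant), no zero of `w` passes through `𝔫`. -/
theorem s36q_noZero_of_dvd (w : s34x_ring O S) (π : 𝓕) (hπ0 : π ≠ 0)
    (hπ : ∀ Q ∈ S, Q.ord π = 0) (b s : s34x_ring O S) (hs : s ∉ 𝔫)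
    (h : π * (s : 𝓕) = (w : 𝓕) * (b : 𝓕)) :
    ∀ Q ∈ S, 0 < Q.ord (w : 𝓕) →
      ∃ b' : s34x_ring O S, (b' : 𝓕) ≠ 0 ∧ 0 < Q.ord (b' : 𝓕) ∧ b' ∉ 𝔫 := by
  intro Q hQS hpos
  have hs0 : (s : 𝓕) ≠ 0 := by
    intro h0
    apply hs
    have : s = 0 := Subtype.ext h0
    rw [this]; exact 𝔫.zero_mem
  have hprod0 : (w : 𝓕) * (b : 𝓕) ≠ 0 := by rw [← h]; exact mul_ne_zero hπ0 hs0
  have hw0 : (w : 𝓕) ≠ 0 := left_ne_zero_of_mul hprod0
  have hb0 : (b : 𝓕) ≠ 0 := right_ne_zero_of_mul hprod0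
  refine ⟨s, hs0, ?_, hs⟩
  have h1 : Q.ord (π * (s : 𝓕)) = Q.ord (s : 𝓕) := by
    rw [Q.ord_mul hπ0 hs0, hπ Q hQS, zero_add]
  have h2 : Q.ord ((w : 𝓕) * (b : 𝓕)) = Q.ord (w : 𝓕) + Q.ord (b : 𝓕) := Q.ord_mul hw0 hb0
  have h3 := s34x_ord_nonneg_of_mem_ring O S b Q hQS
  rw [h] at h1
  omega

end General

variable {ι : Type*} (O : ι → ValuationSubring 𝓕) (S : Set (Place L₀ 𝓕))
  (𝔫 : Ideal (s34x_ring (s34x_infRing O) S)) [h𝔫 : 𝔫.IsPrime]

/-- **(E4), global form.** -/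
theorem s36q_ker_global (i₀ : ι) (w : s34x_ring (s34x_infRing O) S)
    (ha : ∀ y ∈ (O i₀).nonunits, ∃ c ∈ O i₀, y = (w : 𝓕) * c)
    (hb : ∀ i, i ≠ i₀ → (w : 𝓕)⁻¹ ∈ O i)
    (hc : ∀ Q ∈ S, 0 < Q.ord (w : 𝓕) →
      ∃ b' : s34x_ring (s34x_infRing O) S, (b' : 𝓕) ≠ 0 ∧ 0 < Q.ord (b' : 𝓕) ∧ b' ∉ 𝔫)
    (hd : {Q : Place L₀ 𝓕 | Q ∈ S ∧ 0 < Q.ord (w : 𝓕)}.Finite)
    (a : s34x_ring (s34x_infRing O) S) (hanu : (a : 𝓕) ∈ (O i₀).nonunits) :
    ∃ b s : s34x_ring (s34x_infRing O) S, s ∉ 𝔫 ∧ a * s = w * b := by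
  classical
  have hBO : ∀ (b : s34x_ring (s34x_infRing O) S) (i : ι), (b : 𝓕) ∈ O i := fun b i =>
    (s34x_mem_infRing O _).mp b.2.1 i
  have h1𝔫 : (1 : s34x_ring (s34x_infRing O) S) ∉ 𝔫 :=
    fun h => h𝔫.ne_top ((Ideal.eq_top_iff_one _).mpr h)
  by_cases ha0 : (a : 𝓕) = 0
  · refine ⟨0, 1, h1𝔫, ?_⟩
    have : a = 0 := Subtype.ext ha0
    rw [this, zero_mul, mul_zero]
  by_cases hw0 : (w : 𝓕) = 0
  · -- then every non-unit of `O i₀` is zero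
    obtain ⟨c, _, hc'⟩ := ha _ hanu
    rw [hw0, zero_mul] at hc'
    exact absurd hc' ha0
  -- the quotient `y = a / w`
  obtain ⟨c, hcO, hac⟩ := ha _ hanu
  have hc0 : c ≠ 0 := by
    rintro rfl
    rw [mul_zero] at hac
    exact ha0 hac
  -- `c` lies in all components
  have hcO' : ∀ i, c ∈ O i := by
    intro i
    by_cases hi : i = i₀
    · rw [hi]; exact hcO
    · have : c = (w : 𝓕)⁻¹ * (a : 𝓕) := by
        rw [hac, ← mul_assoc, inv_mul_cancel₀ hw0, one_mul]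
      rw [this]
      exact (O i).mul_mem _ _ (hb i hi) (hBO a i)
  -- kill the zeros of `w`
  obtain ⟨s, hs𝔫, hs0, hs⟩ := s34x_exists_kill_places (s34x_infRing O) S 𝔫
    (fun Q => Q.ord (w : 𝓕)) hd.toFinset (by
      intro Q hQ
      rw [Set.Finite.mem_toFinset] at hQ
      exact ⟨hQ.1, hc Q hQ.1 hQ.2⟩)
  have hcs0 : c * (s : 𝓕) ≠ 0 := mul_ne_zero hc0 hs0
  have hmem : c * (s : 𝓕) ∈ s34x_ring (s34x_infRing O) S := by
    refine ⟨(s34x_mem_infRing O _).mpr fun i => (O i).mul_mem _ _ (hcO' i) (hBO s i), ?_⟩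
    intro Q hQS
    rw [ff_mem_iff_ord_nonneg Q hcs0, Q.ord_mul hc0 hs0]
    have hordc : Q.ord (a : 𝓕) = Q.ord (w : 𝓕) + Q.ord c := by
      rw [hac]; exact Q.ord_mul hw0 hc0
    have hage := s34x_ord_nonneg_of_mem_ring (s34x_infRing O) S a Q hQS
    have hwge := s34x_ord_nonneg_of_mem_ring (s34x_infRing O) S w Q hQS
    have hsge := s34x_ord_nonneg_of_mem_ring (s34x_infRing O) S s Q hQS
    by_cases hpos : 0 < Q.ord (w : 𝓕)
    · have := hs Q (by rw [Set.Finite.mem_toFinset]; exact ⟨hQS, hpos⟩)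
      omega
    · omega
  refine ⟨⟨c * (s : 𝓕), hmem⟩, s, hs𝔫, ?_⟩
  apply Subtype.ext
  show (a : 𝓕) * (s : 𝓕) = (w : 𝓕) * (c * (s : 𝓕))
  rw [hac]; ring

/-- **(E4), local form**: hypothesis (K) of `s36q_locEq_of_red`. -/
theorem s36q_ker_local (i₀ : ι) (w : s34x_ring (s34x_infRing O) S)
    (ha : ∀ y ∈ (O i₀).nonunits, ∃ c ∈ O i₀, y = (w : 𝓕) * c)
    (hb : ∀ i, i ≠ i₀ → (w : 𝓕)⁻¹ ∈ O i)
    (hc : ∀ Q ∈ S, 0 < Q.ord (w : 𝓕) →
      ∃ b' : s34x_ring (s34x_infRing O) S, (b' : 𝓕) ≠ 0 ∧ 0 < Q.ord (b' : 𝓕) ∧ b' ∉ 𝔫)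
    (hd : {Q : Place L₀ 𝓕 | Q ∈ S ∧ 0 < Q.ord (w : 𝓕)}.Finite)
    (z : Localization.AtPrime 𝔫)
    (hz : s34f_iota (s34x_infRing O) S 𝔫 z ∈ (O i₀).nonunits) :
    ∃ c : Localization.AtPrime 𝔫,
      z = algebraMap (s34x_ring (s34x_infRing O) S) (Localization.AtPrime 𝔫) w * c := by
  have hBO : ∀ (b : s34x_ring (s34x_infRing O) S) (i : ι), (b : 𝓕) ∈ O i := fun b i =>
    (s34x_mem_infRing O _).mp b.2.1 i
  obtain ⟨a₁, s₁, hs₁, h₁⟩ := s34f_exists_frac (s34x_infRing O) S 𝔫 z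
  have h2 := congrArg (s34f_iota (s34x_infRing O) S 𝔫) h₁
  rw [map_mul, s34f_iota_algebraMap, s34f_iota_algebraMap] at h2
  have ha₁ : (a₁ : 𝓕) ∈ (O i₀).nonunits := by
    rw [← h2, ValuationSubring.mem_nonunits_iff, map_mul]
    have hz' := ((O i₀).mem_nonunits_iff).mp hz
    have hs' : (O i₀).valuation (s₁ : 𝓕) ≤ 1 :=
      ((O i₀).valuation_le_one_iff _).mpr (hBO s₁ i₀)
    calc (O i₀).valuation (s34f_iota (s34x_infRing O) S 𝔫 z) * (O i₀).valuation (s₁ : 𝓕)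
        ≤ (O i₀).valuation (s34f_iota (s34x_infRing O) S 𝔫 z) * 1 := by gcongr
      _ < 1 := by rw [mul_one]; exact hz'
  obtain ⟨b, s, hs, hbs⟩ := s36q_ker_global O S 𝔫 i₀ w ha hb hc hd a₁ ha₁
  have hu₁ : IsUnit (algebraMap (s34x_ring (s34x_infRing O) S) (Localization.AtPrime 𝔫) s₁) :=
    IsLocalization.map_units (Localization.AtPrime 𝔫) (⟨s₁, hs₁⟩ : 𝔫.primeCompl)
  have hu : IsUnit (algebraMap (s34x_ring (s34x_infRing O) S) (Localization.AtPrime 𝔫) s) :=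
    IsLocalization.map_units (Localization.AtPrime 𝔫) (⟨s, hs⟩ : 𝔫.primeCompl)
  obtain ⟨v₁, hv₁⟩ := hu₁
  obtain ⟨v, hv⟩ := hu
  have h3 := congrArg (algebraMap (s34x_ring (s34x_infRing O) S) (Localization.AtPrime 𝔫)) hbs
  rw [map_mul, map_mul, ← h₁, ← hv₁, ← hv] at h3
  refine ⟨algebraMap (s34x_ring (s34x_infRing O) S) (Localization.AtPrime 𝔫) b *
    ((v₁⁻¹ : (Localization.AtPrime 𝔫)ˣ) : Localization.AtPrime 𝔫) *
    ((v⁻¹ : (Localization.AtPrime 𝔫)ˣ) : Localization.AtPrime 𝔫), ?_⟩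
  calc z = z * (v₁ : Localization.AtPrime 𝔫) * (v : Localization.AtPrime 𝔫) *
        ((v₁⁻¹ : (Localization.AtPrime 𝔫)ˣ) : Localization.AtPrime 𝔫) *
        ((v⁻¹ : (Localization.AtPrime 𝔫)ˣ) : Localization.AtPrime 𝔫) := by
        have e1 : (v₁ : Localization.AtPrime 𝔫) *
            ((v₁⁻¹ : (Localization.AtPrime 𝔫)ˣ) : Localization.AtPrime 𝔫) = 1 := v₁.mul_inv
        have e2 : (v : Localization.AtPrime 𝔫) *
            ((v⁻¹ : (Localization.AtPrime 𝔫)ˣ) : Localization.AtPrime 𝔫) = 1 := v.mul_inv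
        linear_combination (-z * (v : Localization.AtPrime 𝔫) *
          ((v⁻¹ : (Localization.AtPrime 𝔫)ˣ) : Localization.AtPrime 𝔫)) * e1 - z * e2
    _ = _ := by rw [h3]; ring

/-! ### The reduction to the residue field of a component through `𝔫` -/

section Red

variable (i₀ : ι)
  (hthru : ∀ b : s34x_ring (s34x_infRing O) S, (b : 𝓕) ∈ (O i₀).nonunits → b ∈ 𝔫)

include hthru in
/-- if the component `i₀` passes through `𝔫`, the local ring `B_𝔫` lies in `O i₀`. -/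
theorem s36q_iota_mem_comp (z : Localization.AtPrime 𝔫) :
    s34f_iota (s34x_infRing O) S 𝔫 z ∈ O i₀ := by
  have hBO : ∀ (b : s34x_ring (s34x_infRing O) S) (i : ι), (b : 𝓕) ∈ O i := fun b i =>
    (s34x_mem_infRing O _).mp b.2.1 i
  obtain ⟨a₁, s₁, hs₁, h₁⟩ := s34f_exists_frac (s34x_infRing O) S 𝔫 z
  have h2 := congrArg (s34f_iota (s34x_infRing O) S 𝔫) h₁
  rw [map_mul, s34f_iota_algebraMap, s34f_iota_algebraMap] at h2
  have hs0 : (s₁ : 𝓕) ≠ 0 := by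
    intro h0
    apply hs₁
    have : s₁ = 0 := Subtype.ext h0
    rw [this]; exact 𝔫.zero_mem
  have hsinv : (s₁ : 𝓕)⁻¹ ∈ O i₀ := by
    by_contra hno
    exact hs₁ (hthru s₁ (((O i₀).mem_nonunits_iff_or).mpr (Or.inr hno)))
  have : s34f_iota (s34x_infRing O) S 𝔫 z = (a₁ : 𝓕) * (s₁ : 𝓕)⁻¹ := by
    rw [← h2, mul_assoc, mul_inv_cancel₀ hs0, mul_one]
  rw [this]
  exact (O i₀).mul_mem _ _ (hBO a₁ i₀) hsinv

/-- the inclusion `B_𝔫 ⊆ O i₀` as a ring homomorphism. -/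
def s36q_toComp : Localization.AtPrime 𝔫 →+* (O i₀) :=
  (s34f_iota (s34x_infRing O) S 𝔫).codRestrict (O i₀).toSubring
    (fun z => s36q_iota_mem_comp O S 𝔫 i₀ hthru z)

@[simp]
theorem s36q_toComp_coe (z : Localization.AtPrime 𝔫) :
    ((s36q_toComp O S 𝔫 i₀ hthru z : O i₀) : 𝓕) = s34f_iota (s34x_infRing O) S 𝔫 z := rfl

/-- **the reduction of `B_𝔫` at the component `i₀`** (into the residue field of `O i₀`). -/
def s36q_red : Localization.AtPrime 𝔫 →+* IsLocalRing.ResidueField (O i₀) :=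
  (IsLocalRing.residue (O i₀)).comp (s36q_toComp O S 𝔫 i₀ hthru)

theorem s36q_red_eq_zero_iff (z : Localization.AtPrime 𝔫) :
    s36q_red O S 𝔫 i₀ hthru z = 0 ↔
      s34f_iota (s34x_infRing O) S 𝔫 z ∈ (O i₀).nonunits := by
  rw [s36q_red, RingHom.comp_apply, IsLocalRing.residue_eq_zero_iff,
    ← ValuationSubring.coe_mem_nonunits_iff, s36q_toComp_coe]

/-- the kernel of the reduction lies in the maximal ideal of `B_𝔫`. -/
theorem s36q_red_ker_le (z : Localization.AtPrime 𝔫) (hz : s36q_red O S 𝔫 i₀ hthru z = 0) :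
    z ∈ maximalIdeal (Localization.AtPrime 𝔫) := by
  rw [mem_maximalIdeal, mem_nonunits_iff]
  intro hu
  have h1 : IsUnit (s36q_red O S 𝔫 i₀ hthru z) := hu.map _
  rw [hz] at h1
  exact not_isUnit_zero h1

/-- **(K) for the reduction `s36q_red`.** -/
theorem s36q_red_ker (w : s34x_ring (s34x_infRing O) S)
    (ha : ∀ y ∈ (O i₀).nonunits, ∃ c ∈ O i₀, y = (w : 𝓕) * c)
    (hb : ∀ i, i ≠ i₀ → (w : 𝓕)⁻¹ ∈ O i)
    (hc : ∀ Q ∈ S, 0 < Q.ord (w : 𝓕) →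
      ∃ b' : s34x_ring (s34x_infRing O) S, (b' : 𝓕) ≠ 0 ∧ 0 < Q.ord (b' : 𝓕) ∧ b' ∉ 𝔫)
    (hd : {Q : Place L₀ 𝓕 | Q ∈ S ∧ 0 < Q.ord (w : 𝓕)}.Finite)
    (z : Localization.AtPrime 𝔫) (hz : s36q_red O S 𝔫 i₀ hthru z = 0) :
    ∃ c : Localization.AtPrime 𝔫,
      z = algebraMap (s34x_ring (s34x_infRing O) S) (Localization.AtPrime 𝔫) w * c :=
  s36q_ker_local O S 𝔫 i₀ w ha hb hc hd z ((s36q_red_eq_zero_iff O S 𝔫 i₀ hthru z).mp hz)

end Red

end Fermat.Agent.Lib.S36
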