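/-
S36 mega-project, layer (R2) (helper5), part 6: **membership in the local ring `B_𝔫` is tested on the
components and places THROUGH `𝔫`** (prime avoidance), and consequences.

Frame of `Lib/S34/XLocGen.lean`: `O : ι → ValuationSubring 𝓕` (finitely many vertical valuations),
`B = s34x_ring (s34x_infRing O) S`, `𝔫` a prime of `B`, `R = B_𝔫 ⊂ 𝓕` (`s34f_iota`).

* `s36q_compThrough O S 𝔫 i`  : the component `i` passes through `𝔫` (`B ∩ nonunits(O i) ⊆ 𝔫`);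
* `s36q_Arch O`               : rank-one property of the `O i` (`b` a nonzero non-unit of `O i` ⇒ some
  `b ^ k * y ∈ O i`), `s36q_arch_of_unif` derives it from a uniformiser;
* `s36q_mem_local`            : `x ∈ 𝓕` regular at all components and places through `𝔫`, with finitely
  many poles in the chart ⇒ `s * x ∈ B` for some `s ∉ 𝔫`; `s36q_exists_iota_eq`: `x = ι z`, `z ∈ R`;
* `s36q_exists_unit_iota_eq`  : if moreover `x` is a unit at all of them, `z` is a unit of `R`;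
* `s36q_nonunit_vanishes`     : a non-unit of `R` vanishes at a component or at a place through `𝔫`;
* `s36q_ker_local'`           : (E4) in its general form — `w` a uniformiser of the component `i₀`,
  a unit at the OTHER COMPONENTS THROUGH `𝔫`, without zero at the places through `𝔫`
  ⇒ `ker(reduction at i₀) = w R`.
-/
import Fermat.Agent.Lib.S36.QKer

set_option autoImplicit false

noncomputable section

namespace Fermat.Agent.Lib.S36

open AlgebraicCurve Fermat.Agent.Lib.FF Fermat.Agent.Lib.S18 Fermat.Agent.Lib.S34 IsLocalRing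

variable {L₀ 𝓕 : Type*} [Field L₀] [Field 𝓕] [Algebra L₀ 𝓕]
variable {ι : Type*} (O : ι → ValuationSubring 𝓕) (S : Set (Place L₀ 𝓕))
  (𝔫 : Ideal (s34x_ring (s34x_infRing O) S))

/-- the component `i` passes through `𝔫`. -/
def s36q_compThrough (i : ι) : Prop :=
  ∀ b : s34x_ring (s34x_infRing O) S, (b : 𝓕) ∈ (O i).nonunits → b ∈ 𝔫

/-- rank-one property of the vertical valuations. -/
def s36q_Arch : Prop :=
  ∀ i, ∀ b ∈ (O i).nonunits, b ≠ 0 → ∀ y : 𝓕, ∃ k : ℕ, b ^ k * y ∈ O i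

omit [Field L₀] [Algebra L₀ 𝓕] in
/-- rank one from a uniformiser. -/
theorem s36q_arch_of_unif
    (h : ∀ i, ∃ t : 𝓕, t ∈ (O i).nonunits ∧
      ∀ U : 𝓕, U ≠ 0 → ∃ (n : ℤ) (u : 𝓕), u ∈ O i ∧ u⁻¹ ∈ O i ∧ U = t ^ n * u) :
    s36q_Arch O := by
  intro i b hb hb0 y
  obtain ⟨t, ht, hU⟩ := h i
  by_cases hy0 : y = 0
  · exact ⟨0, by rw [hy0, mul_zero]; exact (O i).zero_mem⟩
  have htO : t ∈ O i := by
    have := ((O i).mem_nonunits_iff).mp ht
    exact ((O i).valuation_le_one_iff t).mp this.le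
  have ht0 : t ≠ 0 := by
    rintro rfl
    obtain ⟨n, u, _, _, hu⟩ := hU y hy0
    by_cases hn : n = 0
    · -- fine, but then use `b` itself: get a contradiction differently
      obtain ⟨n', u', hu'O, hu'inv, hu'⟩ := hU b hb0
      by_cases hn' : n' = 0
      · rw [hn', zpow_zero, one_mul] at hu'
        -- `b` is a unit of `O i`, contradiction
        have hbinv : b⁻¹ ∈ O i := by rw [hu']; exact hu'inv
        rcases ((O i).mem_nonunits_iff_or).mp hb with h0 | h1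
        · exact hb0 h0
        · exact h1 hbinv
      · rw [zero_zpow _ hn', zero_mul] at hu'
        exact hb0 hu'
    · rw [zero_zpow _ hn, zero_mul] at hu
      exact hy0 hu
  obtain ⟨n, u, huO, huinv, hbu⟩ := hU b hb0
  obtain ⟨m, v, hvO, hvinv, hyv⟩ := hU y hy0
  -- `n ≥ 1` since `b` is a non-unit
  have hn : 1 ≤ n := by
    by_contra hlt
    have hle : n ≤ 0 := by omega
    apply (((O i).mem_nonunits_iff_or).mp hb).resolve_left hb0
    -- `b⁻¹ = t ^ (-n) * u⁻¹ ∈ O i`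
    have : b⁻¹ = t ^ (-n).toNat * u⁻¹ := by
      rw [hbu, mul_inv, ← zpow_neg, ← zpow_natCast, Int.toNat_of_nonneg (by omega)]
    rw [this]
    exact (O i).mul_mem _ _ ((O i).pow_mem htO _) huinv
  -- choose `k = (-m).toNat`
  refine ⟨(-m).toNat, ?_⟩
  set k := (-m).toNat with hk
  have hexp : 0 ≤ n * (k : ℤ) + m := by
    have hk' : -m ≤ (k : ℤ) := Int.self_le_toNat _
    have hk0 : (0 : ℤ) ≤ (k : ℤ) := Int.natCast_nonneg k
    nlinarith
  have : b ^ k * y = t ^ (n * (k : ℤ) + m).toNat * (u ^ k * v) := by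
    have h1 : (t : 𝓕) ^ (n * (k : ℤ) + m).toNat = t ^ (n * (k : ℤ) + m) := by
      rw [← zpow_natCast, Int.toNat_of_nonneg hexp]
    rw [h1, hbu, hyv, mul_pow, zpow_add₀ ht0, zpow_mul, zpow_natCast]
    ring
  rw [this]
  exact (O i).mul_mem _ _ ((O i).pow_mem htO _) ((O i).mul_mem _ _ ((O i).pow_mem huO _) hvO)

variable [h𝔫 : 𝔫.IsPrime]

/-- killing the components not through `𝔫`. -/
theorem s36q_exists_kill_comps' (hA : s36q_Arch O) (x : 𝓕) (I : Finset ι)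
    (hI : ∀ i ∈ I, ¬ s36q_compThrough O S 𝔫 i) :
    ∃ s : s34x_ring (s34x_infRing O) S, s ∉ 𝔫 ∧ ∀ i ∈ I, (s : 𝓕) * x ∈ O i := by
  classical
  have hBO : ∀ (b : s34x_ring (s34x_infRing O) S) (i : ι), (b : 𝓕) ∈ O i := fun b i =>
    (s34x_mem_infRing O _).mp b.2.1 i
  induction I using Finset.induction_on with
  | empty =>
    refine ⟨1, ?_, fun i hi => by simp at hi⟩
    exact fun h => h𝔫.ne_top ((Ideal.eq_top_iff_one _).mpr h)
  | insert i₀ I hi₀ ih =>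
    obtain ⟨s, hs𝔫, hs⟩ := ih (fun i hi => hI i (Finset.mem_insert_of_mem hi))
    have hno := hI i₀ (Finset.mem_insert_self _ _)
    unfold s36q_compThrough at hno
    push Not at hno
    obtain ⟨b, hbnu, hb𝔫⟩ := hno
    have hb0 : (b : 𝓕) ≠ 0 := by
      intro h0
      apply hb𝔫
      have : b = 0 := Subtype.ext h0
      rw [this]; exact 𝔫.zero_mem
    obtain ⟨k, hk⟩ := hA i₀ _ hbnu hb0 ((s : 𝓕) * x)
    refine ⟨b ^ k * s, ?_, ?_⟩
    · intro hmem
      rcases h𝔫.mem_or_mem hmem with h | h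
      · exact hb𝔫 (h𝔫.mem_of_pow_mem _ h)
      · exact hs𝔫 h
    · intro i hi
      have heq : ((b ^ k * s : s34x_ring (s34x_infRing O) S) : 𝓕) * x =
          (b : 𝓕) ^ k * ((s : 𝓕) * x) := by push_cast; ring
      rw [heq]
      rcases Finset.mem_insert.mp hi with rfl | hiI
      · exact hk
      · exact (O i).mul_mem _ _ ((O i).pow_mem (hBO b i) _) (hs i hiI)

variable [Fintype ι]

/-- **Membership in `B_𝔫` is local**: `x` regular at the components and places through `𝔫`. -/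
theorem s36q_mem_local (hA : s36q_Arch O) (x : 𝓕)
    (hcomp : ∀ i, s36q_compThrough O S 𝔫 i → x ∈ O i)
    (hpl : ∀ Q ∈ S, s34f_through (s34x_infRing O) S 𝔫 Q → 0 ≤ Q.ord x)
    (hfin : {Q : Place L₀ 𝓕 | Q ∈ S ∧ Q.ord x < 0}.Finite) :
    ∃ s : s34x_ring (s34x_infRing O) S, s ∉ 𝔫 ∧ (s : 𝓕) * x ∈ s34x_ring (s34x_infRing O) S := by
  classical
  have hBO : ∀ (b : s34x_ring (s34x_infRing O) S) (i : ι), (b : 𝓕) ∈ O i := fun b i =>
    (s34x_mem_infRing O _).mp b.2.1 i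
  have h1𝔫 : (1 : s34x_ring (s34x_infRing O) S) ∉ 𝔫 :=
    fun h => h𝔫.ne_top ((Ideal.eq_top_iff_one _).mpr h)
  by_cases hx0 : x = 0
  · refine ⟨1, h1𝔫, ?_⟩
    rw [hx0, mul_zero]; exact Subring.zero_mem _
  -- kill the components not through `𝔫`
  obtain ⟨s₁, hs₁𝔫, hs₁⟩ := s36q_exists_kill_comps' O S 𝔫 hA x
    (Finset.univ.filter fun i => ¬ s36q_compThrough O S 𝔫 i)
    (fun i hi => (Finset.mem_filter.mp hi).2)
  have hs₁0 : (s₁ : 𝓕) ≠ 0 := by
    intro h0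
    apply hs₁𝔫
    have : s₁ = 0 := Subtype.ext h0
    rw [this]; exact 𝔫.zero_mem
  have hs₁O : ∀ i, (s₁ : 𝓕) * x ∈ O i := by
    intro i
    by_cases hi : s36q_compThrough O S 𝔫 i
    · exact (O i).mul_mem _ _ (hBO s₁ i) (hcomp i hi)
    · exact hs₁ i (Finset.mem_filter.mpr ⟨Finset.mem_univ _, hi⟩)
  -- kill the poles at the places (none of them is through `𝔫`)
  obtain ⟨s₂, hs₂𝔫, hs₂0, hs₂⟩ := s34x_exists_kill_places (s34x_infRing O) S 𝔫
    (fun Q => - Q.ord x) hfin.toFinset (by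
      intro Q hQ
      rw [Set.Finite.mem_toFinset] at hQ
      refine ⟨hQ.1, ?_⟩
      by_contra hno
      have hth : s34f_through (s34x_infRing O) S 𝔫 Q := by
        intro b hb0 hbpos
        by_contra hb𝔫
        exact hno ⟨b, hb0, hbpos, hb𝔫⟩
      have h1 := hpl Q hQ.1 hth
      have h2 : Q.ord x < 0 := hQ.2
      omega)
  refine ⟨s₁ * s₂, ?_, ?_⟩
  · intro hmem
    rcases h𝔫.mem_or_mem hmem with h | h
    · exact hs₁𝔫 h
    · exact hs₂𝔫 h
  · have heq : ((s₁ * s₂ : s34x_ring (s34x_infRing O) S) : 𝓕) * x =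
        (s₂ : 𝓕) * ((s₁ : 𝓕) * x) := by push_cast; ring
    have hne : (s₂ : 𝓕) * ((s₁ : 𝓕) * x) ≠ 0 := mul_ne_zero hs₂0 (mul_ne_zero hs₁0 hx0)
    rw [heq]
    refine ⟨(s34x_mem_infRing O _).mpr fun i => (O i).mul_mem _ _ (hBO s₂ i) (hs₁O i), ?_⟩
    intro Q hQS
    rw [ff_mem_iff_ord_nonneg Q hne, Q.ord_mul hs₂0 (mul_ne_zero hs₁0 hx0), Q.ord_mul hs₁0 hx0]
    have h1 := s34x_ord_nonneg_of_mem_ring (s34x_infRing O) S s₁ Q hQS
    have h2 := s34x_ord_nonneg_of_mem_ring (s34x_infRing O) S s₂ Q hQS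
    by_cases hneg : Q.ord x < 0
    · have := hs₂ Q (by rw [Set.Finite.mem_toFinset]; exact ⟨hQS, hneg⟩)
      omega
    · omega

/-- the same, as an element of `B_𝔫`. -/
theorem s36q_exists_iota_eq (hA : s36q_Arch O) (x : 𝓕)
    (hcomp : ∀ i, s36q_compThrough O S 𝔫 i → x ∈ O i)
    (hpl : ∀ Q ∈ S, s34f_through (s34x_infRing O) S 𝔫 Q → 0 ≤ Q.ord x)
    (hfin : {Q : Place L₀ 𝓕 | Q ∈ S ∧ Q.ord x < 0}.Finite) :
    ∃ z : Localization.AtPrime 𝔫, s34f_iota (s34x_infRing O) S 𝔫 z = x := by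
  obtain ⟨s, hs𝔫, hsx⟩ := s36q_mem_local O S 𝔫 hA x hcomp hpl hfin
  have hu : IsUnit (algebraMap (s34x_ring (s34x_infRing O) S) (Localization.AtPrime 𝔫) s) :=
    IsLocalization.map_units (Localization.AtPrime 𝔫) (⟨s, hs𝔫⟩ : 𝔫.primeCompl)
  obtain ⟨v, hv⟩ := hu
  have hs0 : (s : 𝓕) ≠ 0 := by
    intro h0
    apply hs𝔫
    have : s = 0 := Subtype.ext h0
    rw [this]; exact 𝔫.zero_mem
  refine ⟨algebraMap (s34x_ring (s34x_infRing O) S) (Localization.AtPrime 𝔫) ⟨_, hsx⟩ *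
    ((v⁻¹ : (Localization.AtPrime 𝔫)ˣ) : Localization.AtPrime 𝔫), ?_⟩
  have h1 : s34f_iota (s34x_infRing O) S 𝔫 (v : Localization.AtPrime 𝔫) = (s : 𝓕) := by
    rw [hv, s34f_iota_algebraMap]
  have h2 : s34f_iota (s34x_infRing O) S 𝔫 (v : Localization.AtPrime 𝔫) *
      s34f_iota (s34x_infRing O) S 𝔫 ((v⁻¹ : (Localization.AtPrime 𝔫)ˣ) : Localization.AtPrime 𝔫)
        = 1 := by
    rw [← map_mul, Units.mul_inv, map_one]
  rw [h1] at h2
  rw [map_mul, s34f_iota_algebraMap]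
  show (s : 𝓕) * x * _ = x
  have h3 : s34f_iota (s34x_infRing O) S 𝔫
      ((v⁻¹ : (Localization.AtPrime 𝔫)ˣ) : Localization.AtPrime 𝔫) = (s : 𝓕)⁻¹ :=
    eq_inv_of_mul_eq_one_right h2
  rw [h3]
  field_simp

/-- **Unit criterion**: `x ≠ 0` a unit at all components and places through `𝔫`, with finitely
many zeros and poles in the chart, is (the image of) a unit of `B_𝔫`. -/
theorem s36q_exists_unit_iota_eq (hA : s36q_Arch O) (x : 𝓕) (hx0 : x ≠ 0)
    (hcomp : ∀ i, s36q_compThrough O S 𝔫 i → x ∈ O i ∧ x⁻¹ ∈ O i)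
    (hpl : ∀ Q ∈ S, s34f_through (s34x_infRing O) S 𝔫 Q → Q.ord x = 0)
    (hfin : {Q : Place L₀ 𝓕 | Q ∈ S ∧ Q.ord x ≠ 0}.Finite) :
    ∃ z : Localization.AtPrime 𝔫, IsUnit z ∧ s34f_iota (s34x_infRing O) S 𝔫 z = x := by
  have hordinv : ∀ Q : Place L₀ 𝓕, Q.ord x⁻¹ = - Q.ord x := fun Q => Q.ord_inv x
  obtain ⟨z, hz⟩ := s36q_exists_iota_eq O S 𝔫 hA x (fun i hi => (hcomp i hi).1)
    (fun Q hQS hth => by rw [hpl Q hQS hth])
    (hfin.subset fun Q hQ => ⟨hQ.1, fun h => by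
      have h2 : Q.ord x < 0 := hQ.2
      rw [h] at h2
      exact lt_irrefl _ h2⟩)
  obtain ⟨z', hz'⟩ := s36q_exists_iota_eq O S 𝔫 hA x⁻¹ (fun i hi => (hcomp i hi).2)
    (fun Q hQS hth => by rw [hordinv, hpl Q hQS hth, neg_zero])
    (hfin.subset fun Q hQ => ⟨hQ.1, fun h => by
      have h2 : Q.ord x⁻¹ < 0 := hQ.2
      rw [hordinv, h, neg_zero] at h2
      exact lt_irrefl _ h2⟩)
  refine ⟨z, ?_, hz⟩
  have h1 : z * z' = 1 := by
    apply s34f_iota_injective (s34x_infRing O) S 𝔫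
    rw [map_mul, hz, hz', map_one, mul_inv_cancel₀ hx0]
  exact IsUnit.of_mul_eq_one _ h1

/-- **A non-unit of `B_𝔫` vanishes at a component or at a place through `𝔫`.** -/
theorem s36q_nonunit_vanishes (hA : s36q_Arch O) (z : Localization.AtPrime 𝔫) (hz0 : z ≠ 0)
    (hznu : ¬ IsUnit z)
    (hfin : {Q : Place L₀ 𝓕 | Q ∈ S ∧ Q.ord (s34f_iota (s34x_infRing O) S 𝔫 z) ≠ 0}.Finite) :
    (∃ i, s36q_compThrough O S 𝔫 i ∧ s34f_iota (s34x_infRing O) S 𝔫 z ∈ (O i).nonunits) ∨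
    (∃ Q ∈ S, s34f_through (s34x_infRing O) S 𝔫 Q ∧
      0 < Q.ord (s34f_iota (s34x_infRing O) S 𝔫 z)) := by
  by_contra hno
  push Not at hno
  obtain ⟨hno1, hno2⟩ := hno
  have hx0 : s34f_iota (s34x_infRing O) S 𝔫 z ≠ 0 := by
    intro h
    apply hz0
    apply s34f_iota_injective (s34x_infRing O) S 𝔫
    rw [h, map_zero]
  obtain ⟨z', hz'u, hz'⟩ := s36q_exists_unit_iota_eq O S 𝔫 hA _ hx0
    (fun i hi => by
      have hmem : s34f_iota (s34x_infRing O) S 𝔫 z ∈ O i :=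
        s36q_iota_mem_comp O S 𝔫 i hi z
      refine ⟨hmem, ?_⟩
      by_contra hinv
      exact hno1 i hi (((O i).mem_nonunits_iff_or).mpr (Or.inr hinv)))
    (fun Q hQS hth => by
      have h1 := s34f_iota_ord_nonneg (s34x_infRing O) S 𝔫 z Q hQS hth
      have h2 := hno2 Q hQS hth
      omega)
    hfin
  have : z' = z := s34f_iota_injective (s34x_infRing O) S 𝔫 hz'
  rw [this] at hz'u
  exact hznu hz'u

/-- **(E4), general form**: `w` a uniformiser of the component `i₀`, a unit at the other components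
THROUGH `𝔫`, without zero at the places through `𝔫`: every `z ∈ B_𝔫` which is a non-unit of `O i₀`
is a multiple of `w` in `B_𝔫`. -/
theorem s36q_ker_local' (hA : s36q_Arch O) (i₀ : ι) (w : Localization.AtPrime 𝔫)
    (ha : ∀ y ∈ (O i₀).nonunits, ∃ c ∈ O i₀, y = s34f_iota (s34x_infRing O) S 𝔫 w * c)
    (hb : ∀ i, i ≠ i₀ → s36q_compThrough O S 𝔫 i →
      (s34f_iota (s34x_infRing O) S 𝔫 w)⁻¹ ∈ O i)
    (hc : ∀ Q ∈ S, s34f_through (s34x_infRing O) S 𝔫 Q →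
      Q.ord (s34f_iota (s34x_infRing O) S 𝔫 w) = 0)
    (hfin : ∀ y : 𝓕, y ≠ 0 → {Q : Place L₀ 𝓕 | Q ∈ S ∧ Q.ord y ≠ 0}.Finite)
    (z : Localization.AtPrime 𝔫)
    (hz : s34f_iota (s34x_infRing O) S 𝔫 z ∈ (O i₀).nonunits) :
    ∃ c : Localization.AtPrime 𝔫, z = w * c := by
  by_cases hz0 : z = 0
  · exact ⟨0, by rw [hz0, mul_zero]⟩
  have hx0 : s34f_iota (s34x_infRing O) S 𝔫 z ≠ 0 := by
    intro h
    apply hz0
    apply s34f_iota_injective (s34x_infRing O) S 𝔫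
    rw [h, map_zero]
  obtain ⟨c, hcO, hzc⟩ := ha _ hz
  have hw0 : s34f_iota (s34x_infRing O) S 𝔫 w ≠ 0 := by
    intro h
    rw [h, zero_mul] at hzc
    exact hx0 hzc
  have hc0 : c ≠ 0 := by
    rintro rfl
    rw [mul_zero] at hzc
    exact hx0 hzc
  have hceq : c = (s34f_iota (s34x_infRing O) S 𝔫 w)⁻¹ * s34f_iota (s34x_infRing O) S 𝔫 z := by
    rw [hzc, ← mul_assoc, inv_mul_cancel₀ hw0, one_mul]
  obtain ⟨c', hc'⟩ := s36q_exists_iota_eq O S 𝔫 hA c
    (fun i hi => by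
      by_cases hii : i = i₀
      · rw [hii]; exact hcO
      · rw [hceq]
        exact (O i).mul_mem _ _ (hb i hii hi) (s36q_iota_mem_comp O S 𝔫 i hi z))
    (fun Q hQS hth => by
      have h1 : Q.ord (s34f_iota (s34x_infRing O) S 𝔫 z) =
          Q.ord (s34f_iota (s34x_infRing O) S 𝔫 w) + Q.ord c := by
        rw [hzc]; exact Q.ord_mul hw0 hc0
      have h2 := s34f_iota_ord_nonneg (s34x_infRing O) S 𝔫 z Q hQS hth
      rw [hc Q hQS hth] at h1
      omega)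
    ((hfin c hc0).subset fun Q hQ => ⟨hQ.1, fun h => by
      have h2 : Q.ord c < 0 := hQ.2
      rw [h] at h2
      exact lt_irrefl _ h2⟩)
  refine ⟨c', ?_⟩
  apply s34f_iota_injective (s34x_infRing O) S 𝔫
  rw [map_mul, hc', hzc]

end Fermat.Agent.Lib.S36
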