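/-
S36 mega-project, layer (R2) (helper5), part 5 = (E5): **the reduction of the maximal ideal is
principal** — abstract form of "a local ring lying between a discrete valuation ring and its
fraction field, and which is not a field, is that discrete valuation ring".

`R'` a noetherian local ring with `𝔪' = (u', w')`, `r' : R' →+* κ'` a ring hom into a field killing
`w'` (so `r'(R')` is a local domain whose maximal ideal is generated by `t = r' u'`: a DVR or a
field).  `R` a local ring, `r : R →+* κ` a ring hom into a field with `ker r ⊆ 𝔪_R`, `β : R' →+* R`,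
`ι : κ' →+* κ` with `r ∘ β = ι ∘ r'`, and
 (FRAC) every `r a` (`a ∈ R`) is a fraction `ι(r' b) / ι(r' c)` with `r' c ≠ 0`.
Then for every `a ∈ 𝔪_R` there is `c ∈ R` with `r a = r c * r (β u')` (`s36q_red_gen`): this is
hypothesis (D) of `s36q_locEq_of_red` with `s = β u'`.

* `s36q_exists_unit_pow` : every `b ∈ R'` with `r' b ≠ 0` has `r' b = r' ε * (r' u') ^ n`, `ε` a unit
  (Krull's intersection theorem for the `R'`-module `R' ⧸ ker r'`).
-/
import Mathlib

set_option autoImplicit false

namespace Fermat.Agent.Lib.S36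

open IsLocalRing

section

variable {R' κ' : Type*} [CommRing R'] [IsLocalRing R'] [IsNoetherianRing R'] [CommRing κ']
  [IsDomain κ']

/-- In the image of a noetherian local ring `R'` with `𝔪' = (u', w')` under a ring hom `r'` killing
`w'`, every nonzero element is a unit times a power of `r' u'`. -/
theorem s36q_exists_unit_pow (r' : R' →+* κ') (u' w' : R')
    (hm' : maximalIdeal R' = Ideal.span {u', w'}) (hw' : r' w' = 0)
    (b : R') (hb : r' b ≠ 0) :
    ∃ (n : ℕ) (ε : R'), IsUnit ε ∧ r' b = r' ε * r' u' ^ n := by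
  by_contra hno
  -- non-representable elements are divisible by every power of `t = r' u'`
  have hstep : ∀ n : ℕ, ∃ x : R', r' b = r' x * r' u' ^ n ∧
      ¬ ∃ (m : ℕ) (ε : R'), IsUnit ε ∧ r' x = r' ε * r' u' ^ m := by
    intro n
    induction n with
    | zero => exact ⟨b, by rw [pow_zero, mul_one], hno⟩
    | succ n ih =>
      obtain ⟨x, hx, hxno⟩ := ih
      have hxnu : ¬ IsUnit x := fun hu => hxno ⟨0, x, hu, by rw [pow_zero, mul_one]⟩
      have hxm : x ∈ maximalIdeal R' := (mem_maximalIdeal x).mpr hxnu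
      rw [hm', Ideal.mem_span_pair] at hxm
      obtain ⟨p, q, hpq⟩ := hxm
      have hrx : r' x = r' p * r' u' := by
        rw [← hpq, map_add, map_mul, map_mul, hw', mul_zero, add_zero]
      refine ⟨p, by rw [hx, hrx, pow_succ]; ring, ?_⟩
      rintro ⟨m, ε, hε, hm⟩
      exact hxno ⟨m + 1, ε, hε, by rw [hrx, hm, pow_succ]; ring⟩
  -- Krull's intersection theorem in `R' ⧸ ker r'`
  have hu'm : u' ∈ maximalIdeal R' := by
    rw [hm']; exact Ideal.subset_span (by simp)
  have hK := Ideal.iInf_pow_smul_eq_bot_of_isLocalRing (R := R') (M := R' ⧸ RingHom.ker r')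
    (maximalIdeal R') Ideal.IsPrime.ne_top'
  have hmem : (Ideal.Quotient.mk (RingHom.ker r') b : R' ⧸ RingHom.ker r') ∈
      (⨅ i : ℕ, maximalIdeal R' ^ i • ⊤ : Submodule R' (R' ⧸ RingHom.ker r')) := by
    rw [Submodule.mem_iInf]
    intro n
    obtain ⟨x, hx, _⟩ := hstep n
    have hker : b - u' ^ n * x ∈ RingHom.ker r' := by
      rw [RingHom.mem_ker, map_sub, map_mul, map_pow, hx]; ring
    have heq : (Ideal.Quotient.mk (RingHom.ker r') b : R' ⧸ RingHom.ker r') =
        (u' ^ n) • (Ideal.Quotient.mk (RingHom.ker r') x : R' ⧸ RingHom.ker r') := by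
      rw [Algebra.smul_def, Ideal.Quotient.algebraMap_eq, ← map_mul]
      exact Ideal.Quotient.eq.mpr hker
    rw [heq]
    exact Submodule.smul_mem_smul (Ideal.pow_mem_pow hu'm n) Submodule.mem_top
  rw [hK, Submodule.mem_bot, Ideal.Quotient.eq_zero_iff_mem, RingHom.mem_ker] at hmem
  exact hb hmem

end

variable {R' R κ' κ : Type*} [CommRing R'] [IsLocalRing R'] [IsNoetherianRing R']
  [CommRing R] [IsLocalRing R] [Field κ'] [Field κ]

/-- **(E5)**: hypothesis (D) of `s36q_locEq_of_red`, with `s = β u'`. -/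
theorem s36q_red_gen (β : R' →+* R) (r' : R' →+* κ') (r : R →+* κ) (ι : κ' →+* κ)
    (hcomm : ∀ x, r (β x) = ι (r' x))
    (u' w' : R') (hm' : maximalIdeal R' = Ideal.span {u', w'}) (hw' : r' w' = 0)
    (hker : ∀ a, r a = 0 → a ∈ maximalIdeal R)
    (hfrac : ∀ a : R, ∃ b c : R', r' c ≠ 0 ∧ r a * ι (r' c) = ι (r' b))
    (a : R) (ha : a ∈ maximalIdeal R) :
    ∃ c, r a = r c * r (β u') := by
  obtain ⟨b, c, hc, hfr⟩ := hfrac a
  have hιc : ι (r' c) ≠ 0 := fun h => hc (ι.injective (by rw [h, map_zero]))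
  by_cases hb : r' b = 0
  · -- then `r a = 0`
    rw [hb, map_zero] at hfr
    have : r a = 0 := (mul_eq_zero.mp hfr).resolve_right hιc
    exact ⟨0, by rw [this, map_zero, zero_mul]⟩
  obtain ⟨m, εc, hεc, hcm⟩ := s36q_exists_unit_pow r' u' w' hm' hw' c hc
  obtain ⟨n, εb, hεb, hbn⟩ := s36q_exists_unit_pow r' u' w' hm' hw' b hb
  set T : κ := r (β u') with hT
  have hιu : ι (r' u') = T := (hcomm u').symm
  have hTm : T ^ m ≠ 0 := by
    intro h0
    apply hιc
    rw [hcm, map_mul, map_pow, hιu, h0, mul_zero]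
  have hTn : T ^ n ≠ 0 := by
    intro h0
    apply hb
    apply ι.injective
    rw [hbn, map_mul, map_pow, hιu, h0, mul_zero, map_zero]
  have hUc : IsUnit (β εc) := hεc.map β
  have hUb : IsUnit (β εb) := hεb.map β
  -- the relation in `κ`
  have hrel : r a * r (β εc) * T ^ m = r (β εb) * T ^ n := by
    rw [hcomm εc, hcomm εb]
    have := hfr
    rw [hcm, hbn, map_mul, map_mul, map_pow, map_pow, hιu] at this
    linear_combination this
  rcases lt_or_ge m n with hmn | hnm
  · -- `n > m`: divide by `T ^ m`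
    obtain ⟨k, rfl⟩ : ∃ k, n = m + (k + 1) := ⟨n - m - 1, by omega⟩
    have h1 : r a * r (β εc) = r (β εb) * T ^ k * T := by
      have h2 : (r a * r (β εc)) * T ^ m = (r (β εb) * T ^ k * T) * T ^ m := by
        rw [hrel, pow_add, pow_succ]; ring
      exact mul_right_cancel₀ hTm h2
    obtain ⟨vc, hvc⟩ := hUc
    refine ⟨β εb * β u' ^ k * ((vc⁻¹ : Rˣ) : R), ?_⟩
    have hinv : r (β εc) * r ((vc⁻¹ : Rˣ) : R) = 1 := by
      rw [← hvc, ← map_mul, Units.mul_inv, map_one]
    rw [map_mul, map_mul, map_pow, ← hT]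
    linear_combination (r ((vc⁻¹ : Rˣ) : R)) * h1 - (r a) * hinv
  · -- `n ≤ m`: then `β εb ∈ 𝔪_R`, absurd
    exfalso
    obtain ⟨k, rfl⟩ : ∃ k, m = n + k := ⟨m - n, by omega⟩
    have h1 : r a * r (β εc) * T ^ k = r (β εb) := by
      have h2 : (r a * r (β εc) * T ^ k) * T ^ n = r (β εb) * T ^ n := by
        rw [← hrel, pow_add]; ring
      exact mul_right_cancel₀ hTn h2
    have h3 : r (a * β εc * β u' ^ k - β εb) = 0 := by
      rw [map_sub, map_mul, map_mul, map_pow, ← hT, h1, sub_self]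
    have h4 := hker _ h3
    have h5 : a * β εc * β u' ^ k ∈ maximalIdeal R :=
      Ideal.mul_mem_right _ _ (Ideal.mul_mem_right _ _ ha)
    have h6 : β εb ∈ maximalIdeal R := by
      have := Ideal.sub_mem _ h5 h4
      rwa [sub_sub_cancel] at this
    exact (mem_maximalIdeal _).mp h6 hUb

end Fermat.Agent.Lib.S36
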