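/-
S36 mega-project, layer (R2) (helper5), part 7: THE TWO-LEVEL FRAME.

Level `q`:  `O₁ : ι₁ → ValuationSubring 𝓕₁`, chart `S₁`, `B₁ = s34x_ring (s34x_infRing O₁) S₁`.
Level `q²`: `O₂ : ι₂ → ValuationSubring 𝓕₂`, chart `S₂`, `B₂ = s34x_ring (s34x_infRing O₂) S₂`.
`γ : 𝓕₁ →+* 𝓕₂` (one of the two degeneracy embeddings `α'`, `β'`) with `γ(B₁) ⊆ B₂`; `𝔫` a prime of
`B₂`, `𝔫₁ = γ⁻¹𝔫` the image point.

* `s36q_chartMap`, `s36q_locMap : (B₁)_{𝔫₁} →+* (B₂)_𝔫`, `s36q_iota_locMap` (`ι₂ ∘ locMap = γ ∘ ι₁`);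
* `s36q_nonunits_comap`, `s36q_compThrough_comap` : transfer of components along a comap;
* `s36q_red_gen'`  : (E5) without a map of residue fields (hypothesis `r (β x) = 0 ↔ r' x = 0`);
* `s36q_D_chart`   : **(D) in the chart frame**: `(B₁)_{𝔫₁}` with `𝔪 = (u', w')`, `w'` a non-unit of
  `O₁ i`, `(O₂ j).comap γ = O₁ i`, residue degree one (FRAC) ⇒ the reduction at `j` of the maximal
  ideal of `(B₂)_𝔫` is generated by the reduction of `locMap u'`;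
* `s36q_cross_facts` : at a regular crossing (`u * w = π * unit`) `u` and `w` are uniformisers of
  their components, units at the other one, without horizontal zero through the point;
* `s36q_cross_ord_transfer`, `s36q_gen_transfer` : the same facts for `locMap u`, `locMap w`.
-/
import Fermat.Agent.Lib.S36.QMem
import Fermat.Agent.Lib.S36.QRed

set_option autoImplicit false

noncomputable section

namespace Fermat.Agent.Lib.S36

open AlgebraicCurve Fermat.Agent.Lib.FF Fermat.Agent.Lib.S18 Fermat.Agent.Lib.S34 IsLocalRing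

/-! ### (E5) without a map of residue fields -/

section Abstract

variable {R' R κ' κ : Type*} [CommRing R'] [IsLocalRing R'] [IsNoetherianRing R']
  [CommRing R] [IsLocalRing R] [CommRing κ'] [IsDomain κ'] [Field κ]

/-- **(E5′)**: `s36q_red_gen` with `ι` replaced by `r (β x) = 0 ↔ r' x = 0`. -/
theorem s36q_red_gen' (β : R' →+* R) (r' : R' →+* κ') (r : R →+* κ)
    (hiff : ∀ x, r (β x) = 0 ↔ r' x = 0)
    (u' w' : R') (hm' : maximalIdeal R' = Ideal.span {u', w'}) (hw' : r' w' = 0)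
    (hker : ∀ a, r a = 0 → a ∈ maximalIdeal R)
    (hfrac : ∀ a : R, ∃ b c : R', r' c ≠ 0 ∧ r a * r (β c) = r (β b))
    (a : R) (ha : a ∈ maximalIdeal R) :
    ∃ c, r a = r c * r (β u') := by
  -- `r ∘ β` factors through `r'`
  have hfac : ∀ x y : R', r' x = r' y → r (β x) = r (β y) := by
    intro x y hxy
    have : r' (x - y) = 0 := by rw [map_sub, hxy, sub_self]
    have h2 := (hiff (x - y)).mpr this
    rw [map_sub, map_sub, sub_eq_zero] at h2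
    exact h2
  obtain ⟨b, c, hc, hfr⟩ := hfrac a
  have hβc : r (β c) ≠ 0 := fun h => hc ((hiff c).mp h)
  by_cases hb : r' b = 0
  · have h0 : r (β b) = 0 := (hiff b).mpr hb
    rw [h0] at hfr
    have : r a = 0 := (mul_eq_zero.mp hfr).resolve_right hβc
    exact ⟨0, by rw [this, map_zero, zero_mul]⟩
  obtain ⟨m, εc, hεc, hcm⟩ := s36q_exists_unit_pow r' u' w' hm' hw' c hc
  obtain ⟨n, εb, hεb, hbn⟩ := s36q_exists_unit_pow r' u' w' hm' hw' b hb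
  set T : κ := r (β u') with hT
  have hcm' : r (β c) = r (β εc) * T ^ m := by
    have := hfac c (εc * u' ^ m) (by rw [hcm, map_mul, map_pow])
    rw [this, map_mul, map_mul, map_pow, map_pow]
  have hbn' : r (β b) = r (β εb) * T ^ n := by
    have := hfac b (εb * u' ^ n) (by rw [hbn, map_mul, map_pow])
    rw [this, map_mul, map_mul, map_pow, map_pow]
  have hβb : r (β b) ≠ 0 := fun h => hb ((hiff b).mp h)
  have hTm : T ^ m ≠ 0 := by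
    intro h0
    apply hβc
    rw [hcm', h0, mul_zero]
  have hTn : T ^ n ≠ 0 := by
    intro h0
    apply hβb
    rw [hbn', h0, mul_zero]
  have hUc : IsUnit (β εc) := hεc.map β
  have hUb : IsUnit (β εb) := hεb.map β
  have hrel : r a * r (β εc) * T ^ m = r (β εb) * T ^ n := by
    rw [← hbn', ← hfr, hcm']; ring
  rcases lt_or_ge m n with hmn | hnm
  · obtain ⟨k, rfl⟩ : ∃ k, n = m + (k + 1) := ⟨n - m - 1, by omega⟩
    have h1 : r a * r (β εc) = r (β εb) * T ^ k * T := by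
      have h2 : (r a * r (β εc)) * T ^ m = (r (β εb) * T ^ k * T) * T ^ m := by
        rw [hrel, pow_add, pow_succ]; ring
      exact mul_right_cancel₀ hTm h2
    obtain ⟨vc, hvc⟩ := hUc
    refine ⟨β εb * β u' ^ k * ((vc⁻¹ : Rˣ) : R), ?_⟩
    have hinv : r (β εc) * r ((vc⁻¹ : Rˣ) : R) = 1 := by
      rw [← hvc, ← map_mul, Units.mul_inv, map_one]
    rw [map_mul, map_mul, map_pow, ← hT]
    linear_combination (r ((vc⁻¹ : Rˣ) : R)) * h1 - (r a) * hinv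
  · exfalso
    obtain ⟨k, rfl⟩ : ∃ k, m = n + k := ⟨m - n, by omega⟩
    have h1 : r a * r (β εc) * T ^ k = r (β εb) := by
      have h2 : (r a * r (β εc) * T ^ k) * T ^ n = r (β εb) * T ^ n := by
        rw [← hrel, pow_add]; ring
      exact mul_right_cancel₀ hTn h2
    have h3 : r (a * β εc * β u' ^ k - β εb) = 0 := by
      rw [map_sub, map_mul, map_mul, map_pow, ← hT, h1, sub_self]
    have h4 := hker _ h3
    have h5 : a * β εc * β u' ^ k ∈ maximalIdeal R :=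
      Ideal.mul_mem_right _ _ (Ideal.mul_mem_right _ _ ha)
    have h6 : β εb ∈ maximalIdeal R := by
      have := Ideal.sub_mem _ h5 h4
      rwa [sub_sub_cancel] at this
    exact (mem_maximalIdeal _).mp h6 hUb

end Abstract

/-! ### The two-level frame -/

variable {L₀ 𝓕₁ 𝓕₂ : Type*} [Field L₀] [Field 𝓕₁] [Field 𝓕₂] [Algebra L₀ 𝓕₁] [Algebra L₀ 𝓕₂]
variable {ι₁ ι₂ : Type*} (O₁ : ι₁ → ValuationSubring 𝓕₁) (O₂ : ι₂ → ValuationSubring 𝓕₂)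
  (S₁ : Set (Place L₀ 𝓕₁)) (S₂ : Set (Place L₀ 𝓕₂)) (γ : 𝓕₁ →+* 𝓕₂)
  (hγ : ∀ b ∈ s34x_ring (s34x_infRing O₁) S₁, γ b ∈ s34x_ring (s34x_infRing O₂) S₂)

/-- the map of chart rings induced by `γ`. -/
def s36q_chartMap : s34x_ring (s34x_infRing O₁) S₁ →+* s34x_ring (s34x_infRing O₂) S₂ :=
  (γ.comp (s34x_ring (s34x_infRing O₁) S₁).subtype).codRestrict
    (s34x_ring (s34x_infRing O₂) S₂) (fun b => hγ b b.2)

@[simp]
theorem s36q_chartMap_coe (b : s34x_ring (s34x_infRing O₁) S₁) :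
    ((s36q_chartMap O₁ O₂ S₁ S₂ γ hγ b : s34x_ring (s34x_infRing O₂) S₂) : 𝓕₂) = γ (b : 𝓕₁) := rfl

variable (𝔫 : Ideal (s34x_ring (s34x_infRing O₂) S₂)) [h𝔫 : 𝔫.IsPrime]

/-- the image point `γ⁻¹ 𝔫`. -/
abbrev s36q_pt : Ideal (s34x_ring (s34x_infRing O₁) S₁) :=
  𝔫.comap (s36q_chartMap O₁ O₂ S₁ S₂ γ hγ)

/-- the local homomorphism `(B₁)_{γ⁻¹𝔫} → (B₂)_𝔫`. -/
def s36q_locMap :
    Localization.AtPrime (s36q_pt O₁ O₂ S₁ S₂ γ hγ 𝔫) →+* Localization.AtPrime 𝔫 :=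
  Localization.localRingHom _ _ (s36q_chartMap O₁ O₂ S₁ S₂ γ hγ) rfl

@[simp]
theorem s36q_locMap_algebraMap (b : s34x_ring (s34x_infRing O₁) S₁) :
    s36q_locMap O₁ O₂ S₁ S₂ γ hγ 𝔫 (algebraMap _ _ b) =
      algebraMap _ _ (s36q_chartMap O₁ O₂ S₁ S₂ γ hγ b) :=
  Localization.localRingHom_to_map _ _ _ _ _

/-- `ι₂ ∘ locMap = γ ∘ ι₁`. -/
theorem s36q_iota_locMap (z : Localization.AtPrime (s36q_pt O₁ O₂ S₁ S₂ γ hγ 𝔫)) :
    s34f_iota (s34x_infRing O₂) S₂ 𝔫 (s36q_locMap O₁ O₂ S₁ S₂ γ hγ 𝔫 z) =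
      γ (s34f_iota (s34x_infRing O₁) S₁ (s36q_pt O₁ O₂ S₁ S₂ γ hγ 𝔫) z) := by
  have h : ((s34f_iota (s34x_infRing O₂) S₂ 𝔫).comp (s36q_locMap O₁ O₂ S₁ S₂ γ hγ 𝔫)) =
      (γ.comp (s34f_iota (s34x_infRing O₁) S₁ (s36q_pt O₁ O₂ S₁ S₂ γ hγ 𝔫))) := by
    apply IsLocalization.ringHom_ext (s36q_pt O₁ O₂ S₁ S₂ γ hγ 𝔫).primeCompl
    ext b
    simp only [RingHom.comp_apply, s36q_locMap_algebraMap, s34f_iota_algebraMap,
      s36q_chartMap_coe]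
  exact RingHom.congr_fun h z

/-- the image of a maximal-ideal element is in the maximal ideal. -/
theorem s36q_locMap_mem_maximalIdeal (z : Localization.AtPrime (s36q_pt O₁ O₂ S₁ S₂ γ hγ 𝔫))
    (hz : z ∈ maximalIdeal (Localization.AtPrime (s36q_pt O₁ O₂ S₁ S₂ γ hγ 𝔫))) :
    s36q_locMap O₁ O₂ S₁ S₂ γ hγ 𝔫 z ∈ maximalIdeal (Localization.AtPrime 𝔫) := by
  haveI := Localization.isLocalHom_localRingHom (s36q_pt O₁ O₂ S₁ S₂ γ hγ 𝔫) 𝔫
    (s36q_chartMap O₁ O₂ S₁ S₂ γ hγ) rfl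
  rw [mem_maximalIdeal, mem_nonunits_iff] at hz ⊢
  intro hu
  exact hz (isUnit_of_map_unit (Localization.localRingHom _ _ _ rfl) z hu)

section Comap

variable (i : ι₁) (j : ι₂) (hcomap : ∀ x : 𝓕₁, γ x ∈ O₂ j ↔ x ∈ O₁ i)

include hcomap in
omit [Field L₀] [Algebra L₀ 𝓕₁] [Algebra L₀ 𝓕₂] in
/-- non-units correspond along a comap. -/
theorem s36q_nonunits_comap (x : 𝓕₁) : γ x ∈ (O₂ j).nonunits ↔ x ∈ (O₁ i).nonunits := by
  rw [(O₂ j).mem_nonunits_iff_or, (O₁ i).mem_nonunits_iff_or, ← map_inv₀, hcomap,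
    map_eq_zero]

include hcomap in
/-- a component through `𝔫` restricts to a component through `γ⁻¹𝔫`. -/
theorem s36q_compThrough_comap (hj : s36q_compThrough O₂ S₂ 𝔫 j) :
    s36q_compThrough O₁ S₁ (s36q_pt O₁ O₂ S₁ S₂ γ hγ 𝔫) i := by
  intro b hb
  show s36q_chartMap O₁ O₂ S₁ S₂ γ hγ b ∈ 𝔫
  apply hj
  rw [s36q_chartMap_coe]
  exact (s36q_nonunits_comap O₁ O₂ γ i j hcomap _).mpr hb

variable [hB₁ : IsNoetherianRing (s34x_ring (s34x_infRing O₁) S₁)]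

include hcomap in
/-- **(D) in the chart frame.** -/
theorem s36q_D_chart (hj : s36q_compThrough O₂ S₂ 𝔫 j)
    (u' w' : Localization.AtPrime (s36q_pt O₁ O₂ S₁ S₂ γ hγ 𝔫))
    (hm' : maximalIdeal (Localization.AtPrime (s36q_pt O₁ O₂ S₁ S₂ γ hγ 𝔫)) =
      Ideal.span {u', w'})
    (hw' : s34f_iota (s34x_infRing O₁) S₁ (s36q_pt O₁ O₂ S₁ S₂ γ hγ 𝔫) w' ∈ (O₁ i).nonunits)
    (hfrac : ∀ y ∈ O₂ j, ∃ b c : s34x_ring (s34x_infRing O₁) S₁,
      (c : 𝓕₁) ∉ (O₁ i).nonunits ∧ y * γ (c : 𝓕₁) - γ (b : 𝓕₁) ∈ (O₂ j).nonunits)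
    (a : Localization.AtPrime 𝔫) (ha : a ∈ maximalIdeal (Localization.AtPrime 𝔫)) :
    ∃ c, s36q_red O₂ S₂ 𝔫 j hj a = s36q_red O₂ S₂ 𝔫 j hj c *
      s36q_red O₂ S₂ 𝔫 j hj (s36q_locMap O₁ O₂ S₁ S₂ γ hγ 𝔫 u') := by
  have hi : s36q_compThrough O₁ S₁ (s36q_pt O₁ O₂ S₁ S₂ γ hγ 𝔫) i :=
    s36q_compThrough_comap O₁ O₂ S₁ S₂ γ hγ 𝔫 i j hcomap hj
  haveI : IsNoetherianRing (Localization.AtPrime (s36q_pt O₁ O₂ S₁ S₂ γ hγ 𝔫)) :=
    IsLocalization.isNoetherianRing (s36q_pt O₁ O₂ S₁ S₂ γ hγ 𝔫).primeCompl _ hB₁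
  refine s36q_red_gen' (s36q_locMap O₁ O₂ S₁ S₂ γ hγ 𝔫)
    (s36q_red O₁ S₁ (s36q_pt O₁ O₂ S₁ S₂ γ hγ 𝔫) i hi) (s36q_red O₂ S₂ 𝔫 j hj) ?_ u' w' hm' ?_
    (s36q_red_ker_le O₂ S₂ 𝔫 j hj) ?_ a ha
  · intro x
    rw [s36q_red_eq_zero_iff, s36q_red_eq_zero_iff, s36q_iota_locMap]
    exact s36q_nonunits_comap O₁ O₂ γ i j hcomap _
  · rw [s36q_red_eq_zero_iff]; exact hw'
  · intro a
    obtain ⟨b, c, hc, hbc⟩ := hfrac _ (s36q_iota_mem_comp O₂ S₂ 𝔫 j hj a)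
    refine ⟨algebraMap _ _ b, algebraMap _ _ c, ?_, ?_⟩
    · rw [Ne, s36q_red_eq_zero_iff, s34f_iota_algebraMap]; exact hc
    · rw [← map_mul, ← sub_eq_zero, ← map_sub, s36q_red_eq_zero_iff, map_sub, map_mul,
        s36q_iota_locMap, s36q_iota_locMap, s34f_iota_algebraMap, s34f_iota_algebraMap]
      exact hbc

end Comap

end Fermat.Agent.Lib.S36
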