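/-
S36 mega-project, layer (R2) (helper5), part 8: regular crossings and their transfer.

Single-level frame (`O`, `S`, `𝔫`, `R = B_𝔫 ⊂ 𝓕`):
* `s36q_cross_facts`     : if `ι u * ι w = π * ι β`, `β ∈ Rˣ`, `π` a generator of the non-units of
  `O i` (`i` through `𝔫`), `ι u` a non-unit of `O i`, then `ι u` generates the non-units of `O i` and
  `ι w` is a unit of `O i`;
* `s36q_ord_zero_of_mul` : in the same situation `u`, `w` have no zero at the places through `𝔫`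
  where `π` is a unit;
* `s36q_unit_ord_zero`   : units of `B_𝔫` have order zero at the places through `𝔫`.
Two-level frame:
* `s36q_gen_transfer`    : a generator of the non-units of `O₁ i` is mapped by `γ` to a generator of
  the non-units of `O₂ j` when `(O₂ j).comap γ = O₁ i` and `e = 1`;
* `s36q_locMap_mul`      : the relation `u * w = π * β` is transported by `locMap`.
-/
import Fermat.Agent.Lib.S36.QTwo

set_option autoImplicit false

noncomputable section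

namespace Fermat.Agent.Lib.S36

open AlgebraicCurve Fermat.Agent.Lib.FF Fermat.Agent.Lib.S18 Fermat.Agent.Lib.S34 IsLocalRing

section One

variable {L₀ 𝓕 : Type*} [Field L₀] [Field 𝓕] [Algebra L₀ 𝓕]
variable {ι : Type*} (O : ι → ValuationSubring 𝓕) (S : Set (Place L₀ 𝓕))
  (𝔫 : Ideal (s34x_ring (s34x_infRing O) S)) [h𝔫 : 𝔫.IsPrime]

/-- units of `B_𝔫` have order zero at the places through `𝔫`. -/
theorem s36q_unit_ord_zero (β : Localization.AtPrime 𝔫) (hβ : IsUnit β) (Q : Place L₀ 𝓕)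
    (hQS : Q ∈ S) (hth : s34f_through (s34x_infRing O) S 𝔫 Q) :
    Q.ord (s34f_iota (s34x_infRing O) S 𝔫 β) = 0 := by
  obtain ⟨v, rfl⟩ := hβ
  have h1 := s34f_iota_ord_nonneg (s34x_infRing O) S 𝔫 (v : Localization.AtPrime 𝔫) Q hQS hth
  have h2 := s34f_iota_ord_nonneg (s34x_infRing O) S 𝔫
    ((v⁻¹ : (Localization.AtPrime 𝔫)ˣ) : Localization.AtPrime 𝔫) Q hQS hth
  have h3 : s34f_iota (s34x_infRing O) S 𝔫 (v : Localization.AtPrime 𝔫) *
      s34f_iota (s34x_infRing O) S 𝔫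
        ((v⁻¹ : (Localization.AtPrime 𝔫)ˣ) : Localization.AtPrime 𝔫) = 1 := by
    rw [← map_mul, Units.mul_inv, map_one]
  have hv0 : s34f_iota (s34x_infRing O) S 𝔫 (v : Localization.AtPrime 𝔫) ≠ 0 :=
    left_ne_zero_of_mul_eq_one h3
  have hv0' : s34f_iota (s34x_infRing O) S 𝔫
      ((v⁻¹ : (Localization.AtPrime 𝔫)ˣ) : Localization.AtPrime 𝔫) ≠ 0 :=
    right_ne_zero_of_mul_eq_one h3
  have h4 := Q.ord_mul hv0 hv0'
  rw [h3, Place.ord_one] at h4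
  omega

/-- units of `B_𝔫` are units of the components through `𝔫`. -/
theorem s36q_unit_inv_mem_comp (i : ι) (hi : s36q_compThrough O S 𝔫 i)
    (β : Localization.AtPrime 𝔫) (hβ : IsUnit β) :
    (s34f_iota (s34x_infRing O) S 𝔫 β)⁻¹ ∈ O i := by
  obtain ⟨v, rfl⟩ := hβ
  have h3 : s34f_iota (s34x_infRing O) S 𝔫 (v : Localization.AtPrime 𝔫) *
      s34f_iota (s34x_infRing O) S 𝔫
        ((v⁻¹ : (Localization.AtPrime 𝔫)ˣ) : Localization.AtPrime 𝔫) = 1 := by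
    rw [← map_mul, Units.mul_inv, map_one]
  rw [← eq_inv_of_mul_eq_one_right h3]
  exact s36q_iota_mem_comp O S 𝔫 i hi _

/-- **no horizontal zero at a regular crossing.** -/
theorem s36q_ord_zero_of_mul (u w β : Localization.AtPrime 𝔫) (hβ : IsUnit β) (π : 𝓕)
    (huw : s34f_iota (s34x_infRing O) S 𝔫 u * s34f_iota (s34x_infRing O) S 𝔫 w =
      π * s34f_iota (s34x_infRing O) S 𝔫 β) (hπ0 : π ≠ 0)
    (Q : Place L₀ 𝓕) (hQS : Q ∈ S) (hth : s34f_through (s34x_infRing O) S 𝔫 Q)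
    (hπQ : Q.ord π = 0) :
    Q.ord (s34f_iota (s34x_infRing O) S 𝔫 u) = 0 ∧
      Q.ord (s34f_iota (s34x_infRing O) S 𝔫 w) = 0 := by
  have hβ0 : s34f_iota (s34x_infRing O) S 𝔫 β ≠ 0 := by
    intro h
    have : β = 0 := s34f_iota_injective (s34x_infRing O) S 𝔫 (by rw [h, map_zero])
    rw [this] at hβ
    exact not_isUnit_zero hβ
  have hprod : s34f_iota (s34x_infRing O) S 𝔫 u * s34f_iota (s34x_infRing O) S 𝔫 w ≠ 0 := by
    rw [huw]; exact mul_ne_zero hπ0 hβ0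
  have hu0 := left_ne_zero_of_mul hprod
  have hw0 := right_ne_zero_of_mul hprod
  have h1 := Q.ord_mul hu0 hw0
  rw [huw, Q.ord_mul hπ0 hβ0, hπQ, s36q_unit_ord_zero O S 𝔫 β hβ Q hQS hth] at h1
  have h2 := s34f_iota_ord_nonneg (s34x_infRing O) S 𝔫 u Q hQS hth
  have h3 := s34f_iota_ord_nonneg (s34x_infRing O) S 𝔫 w Q hQS hth
  omega

/-- **the branch equations of a regular crossing** are uniformisers of their components and units of
the other one. -/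
theorem s36q_cross_facts (i : ι) (hi : s36q_compThrough O S 𝔫 i)
    (u w β : Localization.AtPrime 𝔫) (hβ : IsUnit β) (π : 𝓕) (hπ0 : π ≠ 0)
    (huw : s34f_iota (s34x_infRing O) S 𝔫 u * s34f_iota (s34x_infRing O) S 𝔫 w =
      π * s34f_iota (s34x_infRing O) S 𝔫 β)
    (hπ : ∀ y ∈ (O i).nonunits, ∃ c ∈ O i, y = π * c)
    (hu : s34f_iota (s34x_infRing O) S 𝔫 u ∈ (O i).nonunits) :
    (∀ y ∈ (O i).nonunits, ∃ c ∈ O i, y = s34f_iota (s34x_infRing O) S 𝔫 u * c) ∧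
      (s34f_iota (s34x_infRing O) S 𝔫 w)⁻¹ ∈ O i := by
  obtain ⟨c₁, hc₁, huc⟩ := hπ _ hu
  have hβO : s34f_iota (s34x_infRing O) S 𝔫 β ∈ O i := s36q_iota_mem_comp O S 𝔫 i hi β
  have hβinv := s36q_unit_inv_mem_comp O S 𝔫 i hi β hβ
  have hwO : s34f_iota (s34x_infRing O) S 𝔫 w ∈ O i := s36q_iota_mem_comp O S 𝔫 i hi w
  have hβ0 : s34f_iota (s34x_infRing O) S 𝔫 β ≠ 0 := by
    intro h
    have : β = 0 := s34f_iota_injective (s34x_infRing O) S 𝔫 (by rw [h, map_zero])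
    rw [this] at hβ
    exact not_isUnit_zero hβ
  -- `c₁ * ι w = ι β`
  have h1 : c₁ * s34f_iota (s34x_infRing O) S 𝔫 w = s34f_iota (s34x_infRing O) S 𝔫 β := by
    have : π * (c₁ * s34f_iota (s34x_infRing O) S 𝔫 w) =
        π * s34f_iota (s34x_infRing O) S 𝔫 β := by
      rw [← huw, huc]; ring
    exact mul_left_cancel₀ hπ0 this
  have hc₁0 : c₁ ≠ 0 := by
    rintro rfl
    rw [zero_mul] at h1
    exact hβ0 h1.symm
  have hw0 : s34f_iota (s34x_infRing O) S 𝔫 w ≠ 0 := by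
    intro h
    rw [h, mul_zero] at h1
    exact hβ0 h1.symm
  have hwinv : (s34f_iota (s34x_infRing O) S 𝔫 w)⁻¹ =
      c₁ * (s34f_iota (s34x_infRing O) S 𝔫 β)⁻¹ := by
    rw [← h1]; field_simp
  have hc₁inv : c₁⁻¹ = s34f_iota (s34x_infRing O) S 𝔫 w *
      (s34f_iota (s34x_infRing O) S 𝔫 β)⁻¹ := by
    rw [← h1]; field_simp
  refine ⟨?_, by rw [hwinv]; exact (O i).mul_mem _ _ hc₁ hβinv⟩
  intro y hy
  obtain ⟨c, hc, hyc⟩ := hπ y hy
  refine ⟨c₁⁻¹ * c, (O i).mul_mem _ _ (by rw [hc₁inv]; exact (O i).mul_mem _ _ hwO hβinv) hc, ?_⟩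
  rw [hyc, huc]; field_simp

end One

section Two

variable {L₀ 𝓕₁ 𝓕₂ : Type*} [Field L₀] [Field 𝓕₁] [Field 𝓕₂] [Algebra L₀ 𝓕₁] [Algebra L₀ 𝓕₂]
variable {ι₁ ι₂ : Type*} (O₁ : ι₁ → ValuationSubring 𝓕₁) (O₂ : ι₂ → ValuationSubring 𝓕₂)
  (γ : 𝓕₁ →+* 𝓕₂)

omit [Field L₀] [Algebra L₀ 𝓕₁] [Algebra L₀ 𝓕₂] in
/-- **transfer of uniformisers** along a comap with `e = 1`. -/
theorem s36q_gen_transfer (i : ι₁) (j : ι₂) (hcomap : ∀ x : 𝓕₁, γ x ∈ O₂ j ↔ x ∈ O₁ i)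
    (π : 𝓕₁) (hπ : π ∈ (O₁ i).nonunits)
    (he : ∀ y ∈ (O₂ j).nonunits, ∃ c ∈ O₂ j, y = γ π * c)
    (t : 𝓕₁) (ht : ∀ y ∈ (O₁ i).nonunits, ∃ c ∈ O₁ i, y = t * c) :
    ∀ y ∈ (O₂ j).nonunits, ∃ c ∈ O₂ j, y = γ t * c := by
  intro y hy
  obtain ⟨c, hc, hyc⟩ := he y hy
  obtain ⟨d, hd, hπd⟩ := ht π hπ
  refine ⟨γ d * c, (O₂ j).mul_mem _ _ ((hcomap d).mpr hd) hc, ?_⟩
  rw [hyc, hπd, map_mul]; ring

end Two

end Fermat.Agent.Lib.S36
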