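/-
S36 mega-project, layer (R2) (helper5, prefix `s36q_`), part 1: LOCAL RINGS WITH A TWO-GENERATED
MAXIMAL IDEAL (the closed points of the special fibre of the level-`q²N'` model over the unramified
base are all of this kind: smooth points `(t, ϖ)`, points of the multiplicity-`(q-1)` component
`(t, s₃)`, triple points `(α^*w, β^*u)`).

* `s36q_maximalIdeal_eq_span_pair` : (E1) if `ker r = (w)` for a ring homomorphism `r : R → κ` and the
  image of `𝔪_R` in `κ` is generated by `r s`, then `𝔪_R = (w, s)`;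
* `s36q_ker_eq_span_singleton`     : (E2) `A` a DVR, `R` a Noetherian local `A`-algebra with
  `𝔪_R = (x, y)`: the kernel of every section `ev : R →ₐ[A] A` is PRINCIPAL (the two-dimensional
  regular local ring `R` is factorial, by Nakayama);
* `s36q_locEq_of_two`              : (E3) in the frame of `Lib/S34/FLocal.lean`: if the local ring
  `B_𝔫` of a chart ring has `𝔪 = (x, y)`, every place of degree one through `𝔫` has a local equation
  (`s34f_LocEq`) — no bad places.
-/
import Fermat.Agent.Lib.S34.FLocal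

set_option autoImplicit false
set_option linter.unusedSectionVars false
set_option linter.style.haveILetI false

noncomputable section

namespace Fermat.Agent.Lib.S36

open IsLocalRing AlgebraicCurve Fermat.Agent.Lib.FF Fermat.Agent.Lib.S18 Fermat.Agent.Lib.S34

section Pair

variable {R κ : Type*} [CommRing R] [IsLocalRing R] [CommRing κ]

/-- **(E1)** If `ker r = (w)` and `r(𝔪_R)` is generated by `r s`, then `𝔪_R = (w, s)`. -/
theorem s36q_maximalIdeal_eq_span_pair (r : R →+* κ) (w s : R)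
    (hw : w ∈ maximalIdeal R) (hs : s ∈ maximalIdeal R)
    (hK : ∀ a, r a = 0 → ∃ c, a = w * c)
    (hD : ∀ a ∈ maximalIdeal R, ∃ c, r a = r c * r s) :
    maximalIdeal R = Ideal.span {w, s} := by
  apply le_antisymm
  · intro a ha
    obtain ⟨c, hc⟩ := hD a ha
    have h0 : r (a - c * s) = 0 := by rw [map_sub, map_mul, hc, sub_self]
    obtain ⟨d, hd⟩ := hK _ h0
    rw [Ideal.mem_span_pair]
    refine ⟨d, c, ?_⟩
    have : a = w * d + c * s := by rw [← hd]; ring
    rw [this]; ring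
  · rw [Ideal.span_le]
    rintro z (rfl | rfl)
    · exact hw
    · exact hs

end Pair

section Sec

variable {A R : Type*} [CommRing A] [IsDomain A] [IsDiscreteValuationRing A]
  [CommRing R] [IsLocalRing R] [IsNoetherianRing R] [Algebra A R]

/-- Auxiliary: if `ev x = ϖ * a'` with `a'` a unit, then `ker ev = (y - c x)` for
`c = b' a'⁻¹`, `ev y = ϖ * b'`. -/
theorem s36q_ker_eq_span_of_unit {ϖ : A} (hϖ : Irreducible ϖ) {x y : R}
    (hm : maximalIdeal R = Ideal.span {x, y}) (ev : R →ₐ[A] A)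
    {a' b' : A} (ha' : ev x = ϖ * a') (hb' : ev y = ϖ * b') (hu : IsUnit a') :
    ∃ φ, RingHom.ker (ev : R →+* A) = Ideal.span {φ} := by
  obtain ⟨v, rfl⟩ := hu
  set c : A := b' * (↑v⁻¹ : A) with hc
  set φ : R := y - algebraMap A R c * x with hφ
  have hxm : x ∈ maximalIdeal R := by rw [hm]; exact Ideal.subset_span (by simp)
  have hφker : (ev : R →+* A) φ = 0 := by
    show ev φ = 0
    have e1 : ev (algebraMap A R c) = c := by
      rw [AlgHom.commutes]; rfl
    rw [hφ, map_sub, map_mul, e1, ha', hb', hc]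
    have : (↑v⁻¹ : A) * (↑v : A) = 1 := by simp
    linear_combination (-(ϖ * b')) * this
  refine ⟨φ, ?_⟩
  have hle : Ideal.span {φ} ≤ RingHom.ker (ev : R →+* A) := by
    rw [Ideal.span_le]
    rintro z rfl
    exact hφker
  apply le_antisymm _ hle
  have hjac : Ideal.span {x} ≤ (⊥ : Ideal R).jacobson := by
    rw [IsLocalRing.jacobson_eq_maximalIdeal ⊥ bot_ne_top, Ideal.span_le]
    rintro z rfl
    exact hxm
  refine Submodule.le_of_le_smul_of_le_jacobson_bot
    (IsNoetherian.noetherian (RingHom.ker (ev : R →+* A))) hjac ?_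
  intro z hz
  have hz𝔪 : z ∈ maximalIdeal R := s34n_ker_le_maximalIdeal ev hz
  rw [hm, Ideal.mem_span_pair] at hz𝔪
  obtain ⟨l, n, rfl⟩ := hz𝔪
  set ν := l + n * algebraMap A R c with hν
  have hdecomp : l * x + n * y = n * φ + x * ν := by
    rw [hν, hφ]; ring
  have hνker : ν ∈ RingHom.ker (ev : R →+* A) := by
    have h0 : (ev : R →+* A) (l * x + n * y) = 0 := hz
    rw [hdecomp, map_add, map_mul, hφker, mul_zero, zero_add, map_mul] at h0
    have h2 : (ev : R →+* A) x = ϖ * (↑v : A) := ha'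
    rw [h2] at h0
    rcases mul_eq_zero.mp h0 with h | h
    · exfalso
      rcases mul_eq_zero.mp h with h' | h'
      · exact hϖ.ne_zero h'
      · exact v.ne_zero h'
    · exact h
  rw [hdecomp]
  refine Submodule.add_mem_sup ?_ ?_
  · exact Ideal.mul_mem_left _ _ (Ideal.subset_span rfl)
  · rw [smul_eq_mul]
    exact Ideal.mul_mem_mul (Ideal.subset_span rfl) hνker

/-- **(E2)** A Noetherian local `A`-algebra with two-generated maximal ideal: the kernel of every
section is principal. -/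
theorem s36q_ker_eq_span_singleton {ϖ : A} (hϖ : Irreducible ϖ) {x y : R}
    (hm : maximalIdeal R = Ideal.span {x, y}) (ev : R →ₐ[A] A) :
    ∃ φ, RingHom.ker (ev : R →+* A) = Ideal.span {φ} := by
  have hxm : x ∈ maximalIdeal R := by rw [hm]; exact Ideal.subset_span (by simp)
  have hym : y ∈ maximalIdeal R := by rw [hm]; exact Ideal.subset_span (by simp)
  obtain ⟨a', ha'⟩ := s34n_irreducible_dvd_ev ev hϖ hxm
  obtain ⟨b', hb'⟩ := s34n_irreducible_dvd_ev ev hϖ hym
  -- `algebraMap ϖ ∈ 𝔪_R`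
  have hϖm : algebraMap A R ϖ ∈ maximalIdeal R := by
    rw [mem_maximalIdeal, mem_nonunits_iff]
    intro hunit
    have h1 := hunit.map ev
    rw [AlgHom.commutes] at h1
    exact hϖ.not_isUnit h1
  rw [hm, Ideal.mem_span_pair] at hϖm
  obtain ⟨l, n, hln⟩ := hϖm
  have h1 : ϖ * (ev l * a' + ev n * b') = ϖ * 1 := by
    have := congrArg ev hln
    rw [map_add, map_mul, map_mul, ha', hb', AlgHom.commutes] at this
    have e : (algebraMap A A) ϖ = ϖ := rfl
    rw [e] at this
    rw [mul_one]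
    linear_combination this
  have h2 : ev l * a' + ev n * b' = 1 := mul_left_cancel₀ hϖ.ne_zero h1
  -- one of `a'`, `b'` is a unit
  have hor : IsUnit a' ∨ IsUnit b' := by
    by_contra hcon
    push Not at hcon
    have ha : a' ∈ maximalIdeal A := by rw [mem_maximalIdeal, mem_nonunits_iff]; exact hcon.1
    have hb : b' ∈ maximalIdeal A := by rw [mem_maximalIdeal, mem_nonunits_iff]; exact hcon.2
    have h3 : (1 : A) ∈ maximalIdeal A := by
      rw [← h2]
      exact (maximalIdeal A).add_mem (Ideal.mul_mem_left _ _ ha) (Ideal.mul_mem_left _ _ hb)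
    exact (Ideal.ne_top_iff_one _).mp (maximalIdeal.isMaximal A).ne_top h3
  rcases hor with hu | hu
  · exact s36q_ker_eq_span_of_unit hϖ hm ev ha' hb' hu
  · have hm' : maximalIdeal R = Ideal.span {y, x} := by rw [hm, Set.pair_comm]
    exact s36q_ker_eq_span_of_unit hϖ hm' ev hb' ha' hu

end Sec

section Loc

variable {L₀ 𝓕 : Type*} [Field L₀] [Field 𝓕] [Algebra L₀ 𝓕]
variable (A₀ : ValuationSubring L₀) (O : Subring 𝓕)
  (hAO : ∀ a : A₀, algebraMap L₀ 𝓕 (a : L₀) ∈ O) (S : Set (Place L₀ 𝓕))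
  (𝔫 : Ideal (s34x_ring O S)) [h𝔫 : 𝔫.IsPrime]
variable [IsDiscreteValuationRing A₀] (ϖ : A₀) (hϖ : Irreducible ϖ)
  (hπ𝔫 : s34f_constHom A₀ O hAO S ϖ ∈ 𝔫)
  (Q : Place L₀ 𝓕) (hQS : Q ∈ S) (hdeg : Q.deg = 1) (hth : s34f_through O S 𝔫 Q)
variable [hB : IsNoetherianRing (s34x_ring O S)]

include hϖ hπ𝔫 hQS hdeg hth in
/-- **(E3)** If `𝔪(B_𝔫) = (x, y)`, every place of degree one through `𝔫` has a local equation. -/
theorem s36q_locEq_of_two (x y : s34x_ring O S)
    (hm : maximalIdeal (Localization.AtPrime 𝔫) =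
      Ideal.span {algebraMap (s34x_ring O S) (Localization.AtPrime 𝔫) x,
        algebraMap (s34x_ring O S) (Localization.AtPrime 𝔫) y})
    (F1 : ∃ u : s34x_ring O S, Q.ord (u : 𝓕) = 1)
    (F2 : ∀ Q' ∈ S, Q' ≠ Q → ∃ y : s34x_ring O S, 0 < Q.ord (y : 𝓕) ∧ Q'.ord (y : 𝓕) = 0) :
    s34f_LocEq O S 𝔫 Q := by
  letI := s34f_algR A₀ O hAO S 𝔫
  haveI : IsNoetherianRing (Localization.AtPrime 𝔫) :=
    IsLocalization.isNoetherianRing 𝔫.primeCompl _ hB
  obtain ⟨φ, hker⟩ := s36q_ker_eq_span_singleton (A := A₀) (R := Localization.AtPrime 𝔫) hϖ hm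
    (s34f_evA A₀ O hAO S 𝔫 ϖ hϖ hπ𝔫 Q hQS hdeg hth)
  have hmemker : ∀ z : Localization.AtPrime 𝔫,
      s34f_evR A₀ O hAO S 𝔫 ϖ hϖ hπ𝔫 Q hQS hdeg hth z = 0 ↔
        z ∈ RingHom.ker ((s34f_evA A₀ O hAO S 𝔫 ϖ hϖ hπ𝔫 Q hQS hdeg hth :
          Localization.AtPrime 𝔫 →ₐ[A₀] A₀) : Localization.AtPrime 𝔫 →+* A₀) := fun z => Iff.rfl
  refine s34f_locEq_of_LN A₀ O hAO S 𝔫 ϖ hϖ hπ𝔫 Q hQS hdeg hth F1 F2 φ ?_ 0 ?_
  · rw [hmemker, hker]
    exact Ideal.subset_span rfl
  · intro z hz
    rw [hmemker, hker, Ideal.mem_span_singleton'] at hz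
    obtain ⟨z', hz'⟩ := hz
    exact ⟨z', by rw [pow_zero, one_mul, ← hz', mul_comm]⟩

end Loc

end Fermat.Agent.Lib.S36
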