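/-
S36 mega-project, layer (R2) (helper5), part 2: DEGREE-FREE local equations.

Over an unramified base there is no place of degree one through a node or a triple point, so the
sections `ev_Q` of `Lib/S34/FLocal.lean` are not available.  Instead, for ANY place `Q` of the chart
through the prime `𝔫` of the chart ring `B = s34x_ring O S`, the functions of `R = B_𝔫` vanishing at
`Q` form a prime ideal `s36q_placeIdeal` of `R`, different from the maximal ideal as soon as some
element of `𝔫` is a unit at `Q` (e.g. the constant uniformiser), and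

* `s36q_locEq_of_gen`         : a generator of `s36q_placeIdeal` is a local equation of `Q` at `𝔫`
  (`s34f_LocEq`), given a uniformiser of `Q` in `B` (F1) and separation of places by `B` (F2);
* `s36q_locEq_of_isPrincipal` : the same from `(s36q_placeIdeal …).IsPrincipal`;
* `s36q_locEq_of_forall`      : if every prime of `R` different from the maximal ideal is principal
  (`R` regular of dimension two: `Lib/S36/CPrincipal.lean`), EVERY place through `𝔫` has a local
  equation — no hypothesis on degrees.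
-/
import Fermat.Agent.Lib.S34.FLocal

set_option autoImplicit false

noncomputable section

namespace Fermat.Agent.Lib.S36

open AlgebraicCurve Fermat.Agent.Lib.FF Fermat.Agent.Lib.S18 Fermat.Agent.Lib.S34 IsLocalRing

variable {L₀ 𝓕 : Type*} [Field L₀] [Field 𝓕] [Algebra L₀ 𝓕]

variable (O : Subring 𝓕) (S : Set (Place L₀ 𝓕))
  (𝔫 : Ideal (s34x_ring O S)) [h𝔫 : 𝔫.IsPrime]
  (Q : Place L₀ 𝓕) (hQS : Q ∈ S) (hth : s34f_through O S 𝔫 Q)

include hQS hth in
/-- elements of `B_𝔫` are regular at the places through `𝔫` (membership form). -/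
theorem s36q_iota_mem (x : Localization.AtPrime 𝔫) :
    s34f_iota O S 𝔫 x ∈ Q.toValuationSubring := by
  by_cases hx : s34f_iota O S 𝔫 x = 0
  · rw [hx]; exact Q.toValuationSubring.zero_mem
  · exact (ff_mem_iff_ord_nonneg Q hx).mpr (s34f_iota_ord_nonneg O S 𝔫 x Q hQS hth)

/-- **The prime of `B_𝔫` attached to a place through `𝔫`**: the functions vanishing at `Q`. -/
def s36q_placeIdeal : Ideal (Localization.AtPrime 𝔫) where
  carrier := {x | s34f_van Q (s34f_iota O S 𝔫 x)}
  add_mem' := by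
    intro a b ha hb
    show s34f_van Q (s34f_iota O S 𝔫 (a + b))
    rw [map_add]
    exact s34f_van_add Q ha hb
  zero_mem' := by
    show s34f_van Q (s34f_iota O S 𝔫 0)
    rw [map_zero]
    exact s34f_van_zero Q
  smul_mem' := by
    intro c x hx
    show s34f_van Q (s34f_iota O S 𝔫 (c • x))
    rw [smul_eq_mul, map_mul]
    exact s34f_van_mul Q (s36q_iota_mem O S 𝔫 Q hQS hth c) hx

theorem s36q_mem_placeIdeal (x : Localization.AtPrime 𝔫) :
    x ∈ s36q_placeIdeal O S 𝔫 Q hQS hth ↔ s34f_van Q (s34f_iota O S 𝔫 x) := Iff.rfl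

theorem s36q_placeIdeal_isPrime : (s36q_placeIdeal O S 𝔫 Q hQS hth).IsPrime := by
  refine ⟨?_, ?_⟩
  · intro htop
    have h1 : (1 : Localization.AtPrime 𝔫) ∈ s36q_placeIdeal O S 𝔫 Q hQS hth := by
      rw [htop]; exact Submodule.mem_top
    rw [s36q_mem_placeIdeal, map_one] at h1
    rcases h1 with h | h
    · exact one_ne_zero h
    · rw [Place.ord_one] at h
      exact lt_irrefl _ h
  · intro x y hxy
    rw [s36q_mem_placeIdeal, map_mul] at hxy
    by_cases hx0 : s34f_iota O S 𝔫 x = 0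
    · exact Or.inl (Or.inl hx0)
    by_cases hy0 : s34f_iota O S 𝔫 y = 0
    · exact Or.inr (Or.inl hy0)
    rcases hxy with h | h
    · exact absurd h (mul_ne_zero hx0 hy0)
    · rw [Q.ord_mul hx0 hy0] at h
      have h1 := s34f_iota_ord_nonneg O S 𝔫 x Q hQS hth
      have h2 := s34f_iota_ord_nonneg O S 𝔫 y Q hQS hth
      by_cases hx : 0 < Q.ord (s34f_iota O S 𝔫 x)
      · exact Or.inl (Or.inr hx)
      · exact Or.inr (Or.inr (by omega))

/-- the prime of a place is not the maximal ideal, as soon as some element of `𝔫` is a unit at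
the place (for instance the constant uniformiser). -/
theorem s36q_placeIdeal_ne_maximalIdeal (b : s34x_ring O S) (hb : b ∈ 𝔫) (hb0 : (b : 𝓕) ≠ 0)
    (hord : Q.ord (b : 𝓕) = 0) :
    s36q_placeIdeal O S 𝔫 Q hQS hth ≠ maximalIdeal (Localization.AtPrime 𝔫) := by
  intro heq
  have h1 : algebraMap (s34x_ring O S) (Localization.AtPrime 𝔫) b ∈
      maximalIdeal (Localization.AtPrime 𝔫) := by
    rw [← Localization.AtPrime.under_maximalIdeal (I := 𝔫)] at hb
    exact hb
  rw [← heq, s36q_mem_placeIdeal, s34f_iota_algebraMap] at h1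
  rcases h1 with h | h
  · exact hb0 h
  · rw [hord] at h
    exact lt_irrefl _ h

include hQS hth in
/-- **A generator of the prime of `Q` is a local equation of `Q` at `𝔫`** (no degree hypothesis).
(F1) a uniformiser of `Q` in `B`; (F2) separation of `Q` from the other places of the chart. -/
theorem s36q_locEq_of_gen
    (F1 : ∃ u : s34x_ring O S, Q.ord (u : 𝓕) = 1)
    (F2 : ∀ Q' ∈ S, Q' ≠ Q → ∃ y : s34x_ring O S, 0 < Q.ord (y : 𝓕) ∧ Q'.ord (y : 𝓕) = 0)
    (φ : Localization.AtPrime 𝔫) (hφ : s34f_van Q (s34f_iota O S 𝔫 φ))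
    (hgen : ∀ y : Localization.AtPrime 𝔫, s34f_van Q (s34f_iota O S 𝔫 y) → ∃ z, y = φ * z) :
    s34f_LocEq O S 𝔫 Q := by
  -- transport of `hgen` to the function field, for elements of `B` vanishing at `Q`
  have key : ∀ y : s34x_ring O S, s34f_van Q (y : 𝓕) →
      ∃ z : Localization.AtPrime 𝔫, (y : 𝓕) = s34f_iota O S 𝔫 φ * s34f_iota O S 𝔫 z := by
    intro y hy
    have h1 : s34f_van Q (s34f_iota O S 𝔫 (algebraMap (s34x_ring O S) (Localization.AtPrime 𝔫) y)) := by
      rw [s34f_iota_algebraMap]; exact hy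
    obtain ⟨z, hz⟩ := hgen _ h1
    refine ⟨z, ?_⟩
    have h2 := congrArg (s34f_iota O S 𝔫) hz
    rw [s34f_iota_algebraMap, map_mul] at h2
    exact h2
  obtain ⟨u, hu⟩ := F1
  have hu0 : (u : 𝓕) ≠ 0 := by
    intro h
    rw [h, Place.ord_zero] at hu
    exact zero_ne_one hu
  obtain ⟨z, hz⟩ := key u (Or.inr (by rw [hu]; exact zero_lt_one))
  have hφ0 : s34f_iota O S 𝔫 φ ≠ 0 := by
    intro h
    rw [h, zero_mul] at hz
    exact hu0 hz
  have hz0 : s34f_iota O S 𝔫 z ≠ 0 := by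
    intro h
    rw [h, mul_zero] at hz
    exact hu0 hz
  refine ⟨s34f_iota O S 𝔫 φ, hφ0, ?_, ?_⟩
  · have h1 : Q.ord (u : 𝓕) = 1 := hu
    rw [hz, Q.ord_mul hφ0 hz0] at h1
    have h2 : 0 < Q.ord (s34f_iota O S 𝔫 φ) := hφ.resolve_left hφ0
    have h3 := s34f_iota_ord_nonneg O S 𝔫 z Q hQS hth
    omega
  · intro Q' hQ'S hne hth'
    obtain ⟨y, hy1, hy2⟩ := F2 Q' hQ'S hne
    have hy0 : (y : 𝓕) ≠ 0 := by
      intro h
      rw [h, Place.ord_zero] at hy1
      exact lt_irrefl _ hy1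
    obtain ⟨z', hz'⟩ := key y (Or.inr hy1)
    have hz'0 : s34f_iota O S 𝔫 z' ≠ 0 := by
      intro h
      rw [h, mul_zero] at hz'
      exact hy0 hz'
    have h1 : Q'.ord (y : 𝓕) = 0 := hy2
    rw [hz', Q'.ord_mul hφ0 hz'0] at h1
    have h2 := s34f_iota_ord_nonneg O S 𝔫 φ Q' hQ'S hth'
    have h3 := s34f_iota_ord_nonneg O S 𝔫 z' Q' hQ'S hth'
    omega

/-- the same, from principality of the prime of the place. -/
theorem s36q_locEq_of_isPrincipal
    (F1 : ∃ u : s34x_ring O S, Q.ord (u : 𝓕) = 1)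
    (F2 : ∀ Q' ∈ S, Q' ≠ Q → ∃ y : s34x_ring O S, 0 < Q.ord (y : 𝓕) ∧ Q'.ord (y : 𝓕) = 0)
    (hP : (s36q_placeIdeal O S 𝔫 Q hQS hth).IsPrincipal) :
    s34f_LocEq O S 𝔫 Q := by
  obtain ⟨φ, hφ⟩ := hP
  have hφmem : φ ∈ s36q_placeIdeal O S 𝔫 Q hQS hth := by
    rw [hφ]; exact Submodule.mem_span_singleton_self φ
  refine s36q_locEq_of_gen O S 𝔫 Q hQS hth F1 F2 φ ((s36q_mem_placeIdeal O S 𝔫 Q hQS hth φ).mp hφmem) ?_
  intro y hy
  have hy' : y ∈ s36q_placeIdeal O S 𝔫 Q hQS hth := (s36q_mem_placeIdeal O S 𝔫 Q hQS hth y).mpr hy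
  rw [hφ] at hy'
  obtain ⟨z, hz⟩ := Submodule.mem_span_singleton.mp hy'
  exact ⟨z, by rw [← hz, smul_eq_mul, mul_comm]⟩

include hQS hth in
/-- **Regular points: every place through `𝔫` has a local equation.**  If every prime of `B_𝔫`
other than the maximal ideal is principal, and some element `b ∈ 𝔫` is a unit at all places (the
constant uniformiser), then every place of the chart through `𝔫` has a local equation at `𝔫`. -/
theorem s36q_locEq_of_forall
    (hprin : ∀ 𝔭 : Ideal (Localization.AtPrime 𝔫), 𝔭.IsPrime →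
      𝔭 ≠ maximalIdeal (Localization.AtPrime 𝔫) → 𝔭.IsPrincipal)
    (b : s34x_ring O S) (hb : b ∈ 𝔫) (hb0 : (b : 𝓕) ≠ 0) (hord : Q.ord (b : 𝓕) = 0)
    (F1 : ∃ u : s34x_ring O S, Q.ord (u : 𝓕) = 1)
    (F2 : ∀ Q' ∈ S, Q' ≠ Q → ∃ y : s34x_ring O S, 0 < Q.ord (y : 𝓕) ∧ Q'.ord (y : 𝓕) = 0) :
    s34f_LocEq O S 𝔫 Q :=
  s36q_locEq_of_isPrincipal O S 𝔫 Q hQS hth F1 F2
    (hprin _ (s36q_placeIdeal_isPrime O S 𝔫 Q hQS hth)
      (s36q_placeIdeal_ne_maximalIdeal O S 𝔫 Q hQS hth b hb hb0 hord))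

end Fermat.Agent.Lib.S36
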