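/-
S36 mega-project, layer (R2) (helper5), part 3: THE consumer lemma for local equations at the closed
points of the level-`q²N'` fibre — degree-free.

`B = s34x_ring O S` a noetherian chart ring, `𝔫` a prime of `B`, `R = B_𝔫`.  Suppose given a
"reduction" `r : R →+* κ` into a domain and two elements `w, s` of the maximal ideal with
  (K) `ker r = w R`                    (`hK`; `r w = 0`, `w ≠ 0`),
  (D) `𝔪_R / ker r` generated by `r s` (`hD`; `r s ≠ 0`).
Then `𝔪_R = (w, s)` (`s36q_maximalIdeal_eq_span_pair`), every prime `≠ 𝔪_R` of `R` is principal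
(`s36c_prime_isPrincipal_of_red`, lead), and EVERY place `Q` of the chart through `𝔫` — of any
degree — has a local equation at `𝔫` (`s34f_LocEq`), provided some `b ∈ 𝔫` is a unit at `Q`
(the constant uniformiser) and the dictionary facts (F1), (F2) hold.

This one lemma serves the three kinds of closed points:
 smooth on `C₂₀`/`C₀₂` : `r = r₁` (resp. `r₂`), `w = ϖ`,      `s = t`;
 on `C_mid` only        : `r = r₃`,              `w = s₃`,     `s = t`;
 triple points          : `r = r₂`,              `w = α^*w_α`, `s = β^*u_β`.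
-/
import Fermat.Agent.Lib.S36.QLocal
import Fermat.Agent.Lib.S36.QPlace
import Fermat.Agent.Lib.S36.CPrincipal

set_option autoImplicit false

noncomputable section

namespace Fermat.Agent.Lib.S36

open AlgebraicCurve Fermat.Agent.Lib.FF Fermat.Agent.Lib.S18 Fermat.Agent.Lib.S34 IsLocalRing

variable {L₀ 𝓕 : Type*} [Field L₀] [Field 𝓕] [Algebra L₀ 𝓕]

variable (O : Subring 𝓕) (S : Set (Place L₀ 𝓕))
  (𝔫 : Ideal (s34x_ring O S)) [h𝔫 : 𝔫.IsPrime] [hB : IsNoetherianRing (s34x_ring O S)]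
  (Q : Place L₀ 𝓕) (hQS : Q ∈ S) (hth : s34f_through O S 𝔫 Q)

include hQS hth in
/-- **Local equations at a point with `𝔪 = (w, s)`, `(w)` the kernel of a reduction**: every place
through `𝔫` has a local equation (no degree hypothesis). -/
theorem s36q_locEq_of_span_pair {κ : Type*} [CommRing κ] [IsDomain κ]
    (r : Localization.AtPrime 𝔫 →+* κ) (w s : Localization.AtPrime 𝔫)
    (hm : maximalIdeal (Localization.AtPrime 𝔫) = Ideal.span {w, s})
    (hK : ∀ a, r a = 0 → ∃ c, a = w * c) (hrw : r w = 0) (hw0 : w ≠ 0) (hrs : r s ≠ 0)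
    (b : s34x_ring O S) (hb : b ∈ 𝔫) (hb0 : (b : 𝓕) ≠ 0) (hord : Q.ord (b : 𝓕) = 0)
    (F1 : ∃ u : s34x_ring O S, Q.ord (u : 𝓕) = 1)
    (F2 : ∀ Q' ∈ S, Q' ≠ Q → ∃ y : s34x_ring O S, 0 < Q.ord (y : 𝓕) ∧ Q'.ord (y : 𝓕) = 0) :
    s34f_LocEq O S 𝔫 Q := by
  haveI : IsNoetherianRing (Localization.AtPrime 𝔫) :=
    IsLocalization.isNoetherianRing 𝔫.primeCompl _ hB
  refine s36q_locEq_of_forall O S 𝔫 Q hQS hth ?_ b hb hb0 hord F1 F2
  intro 𝔭 h𝔭 hne
  haveI := h𝔭
  exact s36c_prime_isPrincipal_of_red r w s hm hK hrw hw0 hrs 𝔭 hne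

include hQS hth in
/-- **The consumer form**: from (K) and (D) directly. -/
theorem s36q_locEq_of_red {κ : Type*} [CommRing κ] [IsDomain κ]
    (r : Localization.AtPrime 𝔫 →+* κ) (w s : Localization.AtPrime 𝔫)
    (hw : w ∈ maximalIdeal (Localization.AtPrime 𝔫))
    (hs : s ∈ maximalIdeal (Localization.AtPrime 𝔫))
    (hK : ∀ a, r a = 0 → ∃ c, a = w * c)
    (hD : ∀ a ∈ maximalIdeal (Localization.AtPrime 𝔫), ∃ c, r a = r c * r s)
    (hrw : r w = 0) (hw0 : w ≠ 0) (hrs : r s ≠ 0)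
    (b : s34x_ring O S) (hb : b ∈ 𝔫) (hb0 : (b : 𝓕) ≠ 0) (hord : Q.ord (b : 𝓕) = 0)
    (F1 : ∃ u : s34x_ring O S, Q.ord (u : 𝓕) = 1)
    (F2 : ∀ Q' ∈ S, Q' ≠ Q → ∃ y : s34x_ring O S, 0 < Q.ord (y : 𝓕) ∧ Q'.ord (y : 𝓕) = 0) :
    s34f_LocEq O S 𝔫 Q :=
  s36q_locEq_of_span_pair O S 𝔫 Q hQS hth r w s
    (s36q_maximalIdeal_eq_span_pair r w s hw hs hK hD) hK hrw hw0 hrs b hb hb0 hord F1 F2

end Fermat.Agent.Lib.S36
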