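/-
S36 mega-project, layer (R2) (helper5), part 9: **surjectivity of reductions** ([S1], [S2] of board
#1705): a local ring lying between a discrete valuation ring and its fraction field, which is not a
field, IS that discrete valuation ring — element form.

* `s36q_red_surj`   : abstract frame of `s36q_red_gen'` (`β : R' →+* R`, `r'`, `r`, `𝔪' = (u', w')`,
  `r' w' = 0`, `β u' ∈ 𝔪_R`): every `a : R` whose reduction is a fraction of reductions of `R'`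
  has `r a = r (β c')` for some `c' : R'`;
* `s36q_surj_chart` : chart frame — `ι₂ a - γ (ι₁ c') ∈ (O₂ j).nonunits`;
* `s36q_S1_chart`   : [S1] (`f = 1`): for every `s ∈ (B₂)_𝔫` there is `c ∈ (B₁)_{γ⁻¹𝔫}` with
  `ι₂ s - γ (ι₁ c) ∈ (O₂ j).nonunits`;
* `s36q_S2_chart`   : [S2] (purely inseparable of degree `q`): the same for `(ι₂ s) ^ q`.
-/
import Fermat.Agent.Lib.S36.QTwo

set_option autoImplicit false

noncomputable section

namespace Fermat.Agent.Lib.S36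

open AlgebraicCurve Fermat.Agent.Lib.FF Fermat.Agent.Lib.S18 Fermat.Agent.Lib.S34 IsLocalRing

section Abstract

variable {R' R κ' κ : Type*} [CommRing R'] [IsLocalRing R'] [IsNoetherianRing R']
  [CommRing R] [IsLocalRing R] [CommRing κ'] [IsDomain κ'] [Field κ]

/-- **surjectivity of the reduction**, abstract form. -/
theorem s36q_red_surj (β : R' →+* R) (r' : R' →+* κ') (r : R →+* κ)
    (hiff : ∀ x, r (β x) = 0 ↔ r' x = 0)
    (u' w' : R') (hm' : maximalIdeal R' = Ideal.span {u', w'}) (hw' : r' w' = 0)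
    (hker : ∀ a, r a = 0 → a ∈ maximalIdeal R)
    (hβu : β u' ∈ maximalIdeal R)
    (a : R) (hfrac : ∃ b c : R', r' c ≠ 0 ∧ r a * r (β c) = r (β b)) :
    ∃ c' : R', r a = r (β c') := by
  have hfac : ∀ x y : R', r' x = r' y → r (β x) = r (β y) := by
    intro x y hxy
    have : r' (x - y) = 0 := by rw [map_sub, hxy, sub_self]
    have h2 := (hiff (x - y)).mpr this
    rw [map_sub, map_sub, sub_eq_zero] at h2
    exact h2
  obtain ⟨b, c, hc, hfr⟩ := hfrac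
  have hβc : r (β c) ≠ 0 := fun h => hc ((hiff c).mp h)
  by_cases hb : r' b = 0
  · have h0 : r (β b) = 0 := (hiff b).mpr hb
    rw [h0] at hfr
    have : r a = 0 := (mul_eq_zero.mp hfr).resolve_right hβc
    exact ⟨0, by rw [this, map_zero, map_zero]⟩
  obtain ⟨m, εc, hεc, hcm⟩ := s36q_exists_unit_pow r' u' w' hm' hw' c hc
  obtain ⟨n, εb, hεb, hbn⟩ := s36q_exists_unit_pow r' u' w' hm' hw' b hb
  set T : κ := r (β u') with hT
  have hcm' : r (β c) = r (β εc) * T ^ m := by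
    have := hfac c (εc * u' ^ m) (by rw [hcm, map_mul, map_pow])
    rw [this, map_mul, map_mul, map_pow, map_pow]
  have hbn' : r (β b) = r (β εb) * T ^ n := by
    have := hfac b (εb * u' ^ n) (by rw [hbn, map_mul, map_pow])
    rw [this, map_mul, map_mul, map_pow, map_pow]
  have hβb : r (β b) ≠ 0 := fun h => hb ((hiff b).mp h)
  have hTm : T ^ m ≠ 0 := by
    intro h0
    apply hβc
    rw [hcm', h0, mul_zero]
  have hTn : T ^ n ≠ 0 := by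
    intro h0
    apply hβb
    rw [hbn', h0, mul_zero]
  have hUb : IsUnit (β εb) := hεb.map β
  have hrel : r a * r (β εc) * T ^ m = r (β εb) * T ^ n := by
    rw [← hbn', ← hfr, hcm']; ring
  rcases le_or_gt m n with hmn | hnm
  · obtain ⟨k, rfl⟩ : ∃ k, n = m + k := ⟨n - m, by omega⟩
    have h1 : r a * r (β εc) = r (β εb) * T ^ k := by
      have h2 : (r a * r (β εc)) * T ^ m = (r (β εb) * T ^ k) * T ^ m := by
        rw [hrel, pow_add]; ring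
      exact mul_right_cancel₀ hTm h2
    obtain ⟨vc, hvc⟩ := hεc
    refine ⟨εb * u' ^ k * ((vc⁻¹ : R'ˣ) : R'), ?_⟩
    have hinv : r (β εc) * r (β ((vc⁻¹ : R'ˣ) : R')) = 1 := by
      rw [← hvc, ← map_mul, ← map_mul, Units.mul_inv, map_one, map_one]
    simp only [map_mul, map_pow]
    rw [← hT]
    linear_combination (r (β ((vc⁻¹ : R'ˣ) : R'))) * h1 - (r a) * hinv
  · exfalso
    obtain ⟨k, rfl⟩ : ∃ k, m = n + (k + 1) := ⟨m - n - 1, by omega⟩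
    have h1 : r a * r (β εc) * T ^ (k + 1) = r (β εb) := by
      have h2 : (r a * r (β εc) * T ^ (k + 1)) * T ^ n = r (β εb) * T ^ n := by
        rw [← hrel, pow_add]; ring
      exact mul_right_cancel₀ hTn h2
    have h3 : r (a * β εc * β u' ^ (k + 1) - β εb) = 0 := by
      rw [map_sub, map_mul, map_mul, map_pow, ← hT, h1, sub_self]
    have h4 := hker _ h3
    have h5 : a * β εc * β u' ^ (k + 1) ∈ maximalIdeal R := by
      rw [pow_succ, ← mul_assoc]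
      exact Ideal.mul_mem_left _ _ hβu
    have h6 : β εb ∈ maximalIdeal R := by
      have := Ideal.sub_mem _ h5 h4
      rwa [sub_sub_cancel] at this
    exact (mem_maximalIdeal _).mp h6 hUb

end Abstract

variable {L₀ 𝓕₁ 𝓕₂ : Type*} [Field L₀] [Field 𝓕₁] [Field 𝓕₂] [Algebra L₀ 𝓕₁] [Algebra L₀ 𝓕₂]
variable {ι₁ ι₂ : Type*} (O₁ : ι₁ → ValuationSubring 𝓕₁) (O₂ : ι₂ → ValuationSubring 𝓕₂)
  (S₁ : Set (Place L₀ 𝓕₁)) (S₂ : Set (Place L₀ 𝓕₂)) (γ : 𝓕₁ →+* 𝓕₂)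
  (hγ : ∀ b ∈ s34x_ring (s34x_infRing O₁) S₁, γ b ∈ s34x_ring (s34x_infRing O₂) S₂)
  (𝔫 : Ideal (s34x_ring (s34x_infRing O₂) S₂)) [h𝔫 : 𝔫.IsPrime]
  (i : ι₁) (j : ι₂) (hcomap : ∀ x : 𝓕₁, γ x ∈ O₂ j ↔ x ∈ O₁ i)
  [hB₁ : IsNoetherianRing (s34x_ring (s34x_infRing O₁) S₁)]

include hcomap in
/-- **surjectivity of the reduction in the chart frame**, for one element. -/
theorem s36q_surj_chart (hj : s36q_compThrough O₂ S₂ 𝔫 j)
    (u' w' : Localization.AtPrime (s36q_pt O₁ O₂ S₁ S₂ γ hγ 𝔫))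
    (hm' : maximalIdeal (Localization.AtPrime (s36q_pt O₁ O₂ S₁ S₂ γ hγ 𝔫)) =
      Ideal.span {u', w'})
    (hw' : s34f_iota (s34x_infRing O₁) S₁ (s36q_pt O₁ O₂ S₁ S₂ γ hγ 𝔫) w' ∈ (O₁ i).nonunits)
    (a : Localization.AtPrime 𝔫)
    (hfrac : ∃ b c : s34x_ring (s34x_infRing O₁) S₁, (c : 𝓕₁) ∉ (O₁ i).nonunits ∧
      s34f_iota (s34x_infRing O₂) S₂ 𝔫 a * γ (c : 𝓕₁) - γ (b : 𝓕₁) ∈ (O₂ j).nonunits) :
    ∃ c' : Localization.AtPrime (s36q_pt O₁ O₂ S₁ S₂ γ hγ 𝔫),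
      s34f_iota (s34x_infRing O₂) S₂ 𝔫 a -
        γ (s34f_iota (s34x_infRing O₁) S₁ (s36q_pt O₁ O₂ S₁ S₂ γ hγ 𝔫) c') ∈ (O₂ j).nonunits := by
  have hi : s36q_compThrough O₁ S₁ (s36q_pt O₁ O₂ S₁ S₂ γ hγ 𝔫) i :=
    s36q_compThrough_comap O₁ O₂ S₁ S₂ γ hγ 𝔫 i j hcomap hj
  haveI : IsNoetherianRing (Localization.AtPrime (s36q_pt O₁ O₂ S₁ S₂ γ hγ 𝔫)) :=
    IsLocalization.isNoetherianRing (s36q_pt O₁ O₂ S₁ S₂ γ hγ 𝔫).primeCompl _ hB₁
  have hu'm : u' ∈ maximalIdeal (Localization.AtPrime (s36q_pt O₁ O₂ S₁ S₂ γ hγ 𝔫)) := by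
    rw [hm']; exact Ideal.subset_span (by simp)
  obtain ⟨c', hc'⟩ := s36q_red_surj (s36q_locMap O₁ O₂ S₁ S₂ γ hγ 𝔫)
    (s36q_red O₁ S₁ (s36q_pt O₁ O₂ S₁ S₂ γ hγ 𝔫) i hi) (s36q_red O₂ S₂ 𝔫 j hj) (by
      intro x
      rw [s36q_red_eq_zero_iff, s36q_red_eq_zero_iff, s36q_iota_locMap]
      exact s36q_nonunits_comap O₁ O₂ γ i j hcomap _) u' w' hm'
    (by rw [s36q_red_eq_zero_iff]; exact hw')
    (s36q_red_ker_le O₂ S₂ 𝔫 j hj)
    (s36q_locMap_mem_maximalIdeal O₁ O₂ S₁ S₂ γ hγ 𝔫 u' hu'm) a (by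
      obtain ⟨b, c, hc, hbc⟩ := hfrac
      refine ⟨algebraMap _ _ b, algebraMap _ _ c, ?_, ?_⟩
      · rw [Ne, s36q_red_eq_zero_iff, s34f_iota_algebraMap]; exact hc
      · rw [← map_mul, ← sub_eq_zero, ← map_sub, s36q_red_eq_zero_iff, map_sub, map_mul,
          s36q_iota_locMap, s36q_iota_locMap, s34f_iota_algebraMap, s34f_iota_algebraMap]
        exact hbc)
  refine ⟨c', ?_⟩
  rw [← sub_eq_zero, ← map_sub, s36q_red_eq_zero_iff, map_sub, s36q_iota_locMap] at hc'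
  exact hc'

include hcomap in
/-- **[S1]** (`f = 1`): the reduction at `j` of `(B₂)_𝔫` is the reduction of `(B₁)_{γ⁻¹𝔫}`. -/
theorem s36q_S1_chart (hj : s36q_compThrough O₂ S₂ 𝔫 j)
    (u' w' : Localization.AtPrime (s36q_pt O₁ O₂ S₁ S₂ γ hγ 𝔫))
    (hm' : maximalIdeal (Localization.AtPrime (s36q_pt O₁ O₂ S₁ S₂ γ hγ 𝔫)) =
      Ideal.span {u', w'})
    (hw' : s34f_iota (s34x_infRing O₁) S₁ (s36q_pt O₁ O₂ S₁ S₂ γ hγ 𝔫) w' ∈ (O₁ i).nonunits)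
    (hfrac : ∀ y ∈ O₂ j, ∃ b c : s34x_ring (s34x_infRing O₁) S₁,
      (c : 𝓕₁) ∉ (O₁ i).nonunits ∧ y * γ (c : 𝓕₁) - γ (b : 𝓕₁) ∈ (O₂ j).nonunits)
    (s : Localization.AtPrime 𝔫) :
    ∃ c' : Localization.AtPrime (s36q_pt O₁ O₂ S₁ S₂ γ hγ 𝔫),
      s34f_iota (s34x_infRing O₂) S₂ 𝔫 s -
        γ (s34f_iota (s34x_infRing O₁) S₁ (s36q_pt O₁ O₂ S₁ S₂ γ hγ 𝔫) c') ∈ (O₂ j).nonunits :=
  s36q_surj_chart O₁ O₂ S₁ S₂ γ hγ 𝔫 i j hcomap hj u' w' hm' hw' s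
    (hfrac _ (s36q_iota_mem_comp O₂ S₂ 𝔫 j hj s))

include hcomap in
/-- **[S2]** (purely inseparable branch): the same for `q`-th powers. -/
theorem s36q_S2_chart (hj : s36q_compThrough O₂ S₂ 𝔫 j)
    (u' w' : Localization.AtPrime (s36q_pt O₁ O₂ S₁ S₂ γ hγ 𝔫))
    (hm' : maximalIdeal (Localization.AtPrime (s36q_pt O₁ O₂ S₁ S₂ γ hγ 𝔫)) =
      Ideal.span {u', w'})
    (hw' : s34f_iota (s34x_infRing O₁) S₁ (s36q_pt O₁ O₂ S₁ S₂ γ hγ 𝔫) w' ∈ (O₁ i).nonunits)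
    (q : ℕ)
    (hfrac : ∀ y ∈ O₂ j, ∃ b c : s34x_ring (s34x_infRing O₁) S₁,
      (c : 𝓕₁) ∉ (O₁ i).nonunits ∧ y ^ q * γ (c : 𝓕₁) - γ (b : 𝓕₁) ∈ (O₂ j).nonunits)
    (s : Localization.AtPrime 𝔫) :
    ∃ c' : Localization.AtPrime (s36q_pt O₁ O₂ S₁ S₂ γ hγ 𝔫),
      s34f_iota (s34x_infRing O₂) S₂ 𝔫 s ^ q -
        γ (s34f_iota (s34x_infRing O₁) S₁ (s36q_pt O₁ O₂ S₁ S₂ γ hγ 𝔫) c') ∈ (O₂ j).nonunits := by
  have := s36q_surj_chart O₁ O₂ S₁ S₂ γ hγ 𝔫 i j hcomap hj u' w' hm' hw' (s ^ q) (by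
    rw [map_pow]
    exact hfrac _ (s36q_iota_mem_comp O₂ S₂ 𝔫 j hj s))
  rwa [map_pow] at this

end Fermat.Agent.Lib.S36
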