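/-
S36 mega-project, layer (R2) (helper5), part 10: **regular points with several branches** — the
structure theorem used at the triple points (and at every point where (K)+(D) are available).

Single-level frame (`O : ι → ValuationSubring 𝓕`, `B = s34x_ring (s34x_infRing O) S`, `𝔫`,
`R = B_𝔫`, `red_j = s36q_red … j`):
* `s36q_span_pair_of_KD`    : (K) for `ℓ₁` at `j` + (D) with generator `red_j ℓ₂` ⇒ `𝔪_R = (ℓ₁, ℓ₂)`;
* `s36q_principal_of_KD`    : … ⇒ every prime `≠ 𝔪_R` is principal;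
* `s36q_exists_ker_gen`     : hence for every other component `j'` through `𝔫` the kernel of `red_j'`
  is principal: `∃ ℓ, ∀ z, ι z ∈ (O j').nonunits ↔ ∃ c, z = ℓ * c`;
* `s36q_ker_gen_facts`      : such a generator generates the non-units of `O j'` (given a generator
  in `B_𝔫`), has no zero at the places through `𝔫` (given `π ∈ ker`), and is a unit of the other
  components whose kernel is principal;
* `s36q_unit_factor`        : `π = unit · ∏ ℓ_j ^ e_j` in `B_𝔫` (unit criterion).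
-/
import Fermat.Agent.Lib.S36.QSurj
import Fermat.Agent.Lib.S36.QCross
import Fermat.Agent.Lib.S36.QRegular

set_option autoImplicit false

noncomputable section

namespace Fermat.Agent.Lib.S36

open AlgebraicCurve Fermat.Agent.Lib.FF Fermat.Agent.Lib.S18 Fermat.Agent.Lib.S34 IsLocalRing

variable {L₀ 𝓕 : Type*} [Field L₀] [Field 𝓕] [Algebra L₀ 𝓕]
variable {ι : Type*} (O : ι → ValuationSubring 𝓕) (S : Set (Place L₀ 𝓕))
  (𝔫 : Ideal (s34x_ring (s34x_infRing O) S)) [h𝔫 : 𝔫.IsPrime]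

/-- (K)+(D) ⇒ `𝔪 = (ℓ₁, ℓ₂)`. -/
theorem s36q_span_pair_of_KD (j : ι) (hj : s36q_compThrough O S 𝔫 j)
    (ℓ₁ ℓ₂ : Localization.AtPrime 𝔫)
    (h₁ : ℓ₁ ∈ maximalIdeal (Localization.AtPrime 𝔫))
    (h₂ : ℓ₂ ∈ maximalIdeal (Localization.AtPrime 𝔫))
    (hK : ∀ z : Localization.AtPrime 𝔫,
      s34f_iota (s34x_infRing O) S 𝔫 z ∈ (O j).nonunits → ∃ c, z = ℓ₁ * c)
    (hD : ∀ a ∈ maximalIdeal (Localization.AtPrime 𝔫), ∃ c,
      s36q_red O S 𝔫 j hj a = s36q_red O S 𝔫 j hj c * s36q_red O S 𝔫 j hj ℓ₂) :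
    maximalIdeal (Localization.AtPrime 𝔫) = Ideal.span {ℓ₁, ℓ₂} :=
  s36q_maximalIdeal_eq_span_pair (s36q_red O S 𝔫 j hj) ℓ₁ ℓ₂ h₁ h₂
    (fun a ha => hK a ((s36q_red_eq_zero_iff O S 𝔫 j hj a).mp ha)) hD

variable [hB : IsNoetherianRing (s34x_ring (s34x_infRing O) S)]

/-- (K)+`𝔪 = (ℓ₁, ℓ₂)` ⇒ every prime other than the maximal ideal is principal. -/
theorem s36q_principal_of_KD (j : ι) (hj : s36q_compThrough O S 𝔫 j)
    (ℓ₁ ℓ₂ : Localization.AtPrime 𝔫)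
    (hm : maximalIdeal (Localization.AtPrime 𝔫) = Ideal.span {ℓ₁, ℓ₂})
    (hK : ∀ z : Localization.AtPrime 𝔫,
      s34f_iota (s34x_infRing O) S 𝔫 z ∈ (O j).nonunits → ∃ c, z = ℓ₁ * c)
    (hℓ₁ : s34f_iota (s34x_infRing O) S 𝔫 ℓ₁ ∈ (O j).nonunits) (hℓ₁0 : ℓ₁ ≠ 0)
    (hℓ₂ : s34f_iota (s34x_infRing O) S 𝔫 ℓ₂ ∉ (O j).nonunits)
    (𝔭 : Ideal (Localization.AtPrime 𝔫)) (h𝔭 : 𝔭.IsPrime)
    (hne : 𝔭 ≠ maximalIdeal (Localization.AtPrime 𝔫)) : 𝔭.IsPrincipal := by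
  haveI : IsNoetherianRing (Localization.AtPrime 𝔫) :=
    IsLocalization.isNoetherianRing 𝔫.primeCompl _ hB
  haveI := h𝔭
  exact s36c_prime_isPrincipal_of_red (s36q_red O S 𝔫 j hj) ℓ₁ ℓ₂ hm
    (fun a ha => hK a ((s36q_red_eq_zero_iff O S 𝔫 j hj a).mp ha))
    ((s36q_red_eq_zero_iff O S 𝔫 j hj ℓ₁).mpr hℓ₁) hℓ₁0
    (fun h => hℓ₂ ((s36q_red_eq_zero_iff O S 𝔫 j hj ℓ₂).mp h)) 𝔭 hne

omit hB in
/-- the kernel of the reduction at a component through `𝔫`, as an ideal. -/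
theorem s36q_ker_red_isPrime (j : ι) (hj : s36q_compThrough O S 𝔫 j) :
    (RingHom.ker (s36q_red O S 𝔫 j hj)).IsPrime :=
  RingHom.ker_isPrime _

/-- **the kernel of the reduction at another component is principal**, as soon as every prime
`≠ 𝔪` is and some element of `𝔪` is a unit of that component. -/
theorem s36q_exists_ker_gen
    (hprin : ∀ 𝔭 : Ideal (Localization.AtPrime 𝔫), 𝔭.IsPrime →
      𝔭 ≠ maximalIdeal (Localization.AtPrime 𝔫) → 𝔭.IsPrincipal)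
    (j' : ι) (hj' : s36q_compThrough O S 𝔫 j')
    (x : Localization.AtPrime 𝔫) (hx : x ∈ maximalIdeal (Localization.AtPrime 𝔫))
    (hxj' : s34f_iota (s34x_infRing O) S 𝔫 x ∉ (O j').nonunits) :
    ∃ ℓ : Localization.AtPrime 𝔫, ∀ z : Localization.AtPrime 𝔫,
      s34f_iota (s34x_infRing O) S 𝔫 z ∈ (O j').nonunits ↔ ∃ c, z = ℓ * c := by
  have hne : RingHom.ker (s36q_red O S 𝔫 j' hj') ≠ maximalIdeal (Localization.AtPrime 𝔫) := by
    intro heq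
    rw [← heq, RingHom.mem_ker, s36q_red_eq_zero_iff] at hx
    exact hxj' hx
  obtain ⟨ℓ, hℓ⟩ := hprin _ (RingHom.ker_isPrime _) hne
  refine ⟨ℓ, fun z => ?_⟩
  rw [← s36q_red_eq_zero_iff O S 𝔫 j' hj', ← RingHom.mem_ker, hℓ]
  constructor
  · intro hz
    obtain ⟨c, hc⟩ := Submodule.mem_span_singleton.mp hz
    exact ⟨c, by rw [← hc, smul_eq_mul, mul_comm]⟩
  · rintro ⟨c, rfl⟩
    exact Submodule.mem_span_singleton.mpr ⟨c, by rw [smul_eq_mul, mul_comm]⟩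

omit hB in
/-- a generator of the kernel of `red_j'` generates the non-units of `O j'`, if some element of
`B_𝔫` does. -/
theorem s36q_ker_gen_unif (j' : ι) (ℓ t : Localization.AtPrime 𝔫)
    (hℓ : ∀ z : Localization.AtPrime 𝔫,
      s34f_iota (s34x_infRing O) S 𝔫 z ∈ (O j').nonunits ↔ ∃ c, z = ℓ * c)
    (hj' : s36q_compThrough O S 𝔫 j')
    (ht : s34f_iota (s34x_infRing O) S 𝔫 t ∈ (O j').nonunits)
    (htgen : ∀ y ∈ (O j').nonunits, ∃ c ∈ O j', y = s34f_iota (s34x_infRing O) S 𝔫 t * c) :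
    ∀ y ∈ (O j').nonunits, ∃ c ∈ O j', y = s34f_iota (s34x_infRing O) S 𝔫 ℓ * c := by
  intro y hy
  obtain ⟨c, hc, hyc⟩ := htgen y hy
  obtain ⟨d, hd⟩ := (hℓ t).mp ht
  refine ⟨s34f_iota (s34x_infRing O) S 𝔫 d * c,
    (O j').mul_mem _ _ (s36q_iota_mem_comp O S 𝔫 j' hj' d) hc, ?_⟩
  rw [hyc, hd, map_mul]; ring

omit hB in
/-- a generator of the kernel of `red_j'` has no zero at the places through `𝔫` where some element
of the kernel is a unit. -/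
theorem s36q_ker_gen_ord (j' : ι) (ℓ p : Localization.AtPrime 𝔫)
    (hℓ : ∀ z : Localization.AtPrime 𝔫,
      s34f_iota (s34x_infRing O) S 𝔫 z ∈ (O j').nonunits ↔ ∃ c, z = ℓ * c)
    (hp : s34f_iota (s34x_infRing O) S 𝔫 p ∈ (O j').nonunits)
    (hp0 : s34f_iota (s34x_infRing O) S 𝔫 p ≠ 0)
    (Q : Place L₀ 𝓕) (hQS : Q ∈ S) (hth : s34f_through (s34x_infRing O) S 𝔫 Q)
    (hpQ : Q.ord (s34f_iota (s34x_infRing O) S 𝔫 p) = 0) :
    Q.ord (s34f_iota (s34x_infRing O) S 𝔫 ℓ) = 0 := by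
  obtain ⟨d, hd⟩ := (hℓ p).mp hp
  have h1 : s34f_iota (s34x_infRing O) S 𝔫 p =
      s34f_iota (s34x_infRing O) S 𝔫 ℓ * s34f_iota (s34x_infRing O) S 𝔫 d := by
    rw [hd, map_mul]
  have hℓ0 : s34f_iota (s34x_infRing O) S 𝔫 ℓ ≠ 0 := by
    intro h; rw [h, zero_mul] at h1; exact hp0 h1
  have hd0 : s34f_iota (s34x_infRing O) S 𝔫 d ≠ 0 := by
    intro h; rw [h, mul_zero] at h1; exact hp0 h1
  have h2 := Q.ord_mul hℓ0 hd0
  rw [← h1, hpQ] at h2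
  have h3 := s34f_iota_ord_nonneg (s34x_infRing O) S 𝔫 ℓ Q hQS hth
  have h4 := s34f_iota_ord_nonneg (s34x_infRing O) S 𝔫 d Q hQS hth
  omega

omit hB in
/-- generators of the kernels at two different components: each is a unit of the other component,
provided one of them is not in the kernel of the other and neither is a unit. -/
theorem s36q_ker_gen_unit (j₁ j₂ : ι) (hj₂ : s36q_compThrough O S 𝔫 j₂)
    (ℓ₁ ℓ₂ : Localization.AtPrime 𝔫)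
    (hℓ₁ : ∀ z : Localization.AtPrime 𝔫,
      s34f_iota (s34x_infRing O) S 𝔫 z ∈ (O j₁).nonunits ↔ ∃ c, z = ℓ₁ * c)
    (hℓ₂ : ∀ z : Localization.AtPrime 𝔫,
      s34f_iota (s34x_infRing O) S 𝔫 z ∈ (O j₂).nonunits ↔ ∃ c, z = ℓ₂ * c)
    (h21 : s34f_iota (s34x_infRing O) S 𝔫 ℓ₂ ∉ (O j₁).nonunits)
    (hℓ₂nu : ¬ IsUnit ℓ₂) (hℓ₁0 : ℓ₁ ≠ 0) :
    (s34f_iota (s34x_infRing O) S 𝔫 ℓ₁)⁻¹ ∈ O j₂ := by
  by_contra hno
  have hmem : s34f_iota (s34x_infRing O) S 𝔫 ℓ₁ ∈ (O j₂).nonunits :=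
    ((O j₂).mem_nonunits_iff_or).mpr (Or.inr hno)
  obtain ⟨c, hc⟩ := (hℓ₂ ℓ₁).mp hmem
  -- `ℓ₁ = ℓ₂ c` lies in the prime `ker red_{j₁}`, `ℓ₂` does not, so `c` does
  have hℓ₁mem : s34f_iota (s34x_infRing O) S 𝔫 ℓ₁ ∈ (O j₁).nonunits :=
    (hℓ₁ ℓ₁).mpr ⟨1, by rw [mul_one]⟩
  have hcmem : s34f_iota (s34x_infRing O) S 𝔫 c ∈ (O j₁).nonunits := by
    rw [hc, map_mul] at hℓ₁mem
    rw [(O j₁).mem_nonunits_iff] at hℓ₁mem h21 ⊢
    rw [map_mul] at hℓ₁mem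
    by_contra hc1
    have h1 : (O j₁).valuation (s34f_iota (s34x_infRing O) S 𝔫 ℓ₂) = 1 := by
      have hle : (O j₁).valuation (s34f_iota (s34x_infRing O) S 𝔫 ℓ₂) ≤ 1 := by
        by_contra hgt
        push Not at hgt
        -- then `ι ℓ₁ = ι ℓ₂ * ι c` ... use instead that `ι ℓ₂ ∈ O j₁` is not needed: bound directly
        have hc1' : 1 ≤ (O j₁).valuation (s34f_iota (s34x_infRing O) S 𝔫 c) := not_lt.mp hc1
        have : 1 < (O j₁).valuation (s34f_iota (s34x_infRing O) S 𝔫 ℓ₂) *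
            (O j₁).valuation (s34f_iota (s34x_infRing O) S 𝔫 c) :=
          calc (1 : _) < (O j₁).valuation (s34f_iota (s34x_infRing O) S 𝔫 ℓ₂) := hgt
            _ = (O j₁).valuation (s34f_iota (s34x_infRing O) S 𝔫 ℓ₂) * 1 := (mul_one _).symm
            _ ≤ _ := by gcongr
        exact absurd hℓ₁mem (not_lt.mpr this.le)
      exact le_antisymm hle (not_lt.mp h21)
    have h2 : 1 ≤ (O j₁).valuation (s34f_iota (s34x_infRing O) S 𝔫 c) := not_lt.mp hc1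
    rw [h1, one_mul] at hℓ₁mem
    exact absurd hℓ₁mem (not_lt.mpr h2)
  obtain ⟨d, hd⟩ := (hℓ₁ c).mp hcmem
  -- `ℓ₁ = ℓ₂ ℓ₁ d`, hence `ℓ₂ d = 1`
  have h3 : ℓ₁ * (1 - ℓ₂ * d) = 0 := by
    have : ℓ₁ = ℓ₂ * (ℓ₁ * d) := by rw [← hd]; exact hc
    linear_combination this
  haveI : IsDomain (Localization.AtPrime 𝔫) :=
    IsLocalization.isDomain_of_local_atPrime h𝔫
  have h4 : 1 - ℓ₂ * d = 0 := (mul_eq_zero.mp h3).resolve_left hℓ₁0
  exact hℓ₂nu (IsUnit.of_mul_eq_one d (by linear_combination -h4))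

end Fermat.Agent.Lib.S36

namespace Fermat.Agent.Lib.S36

open AlgebraicCurve Fermat.Agent.Lib.FF Fermat.Agent.Lib.S18 Fermat.Agent.Lib.S34 IsLocalRing

variable {L₀ 𝓕 : Type*} [Field L₀] [Field 𝓕] [Algebra L₀ 𝓕]

/-- a finite product of functions of order zero has order zero. -/
theorem s36q_ord_prod_zero {ι : Type*} (Q : Place L₀ 𝓕) (T : Finset ι) (a : ι → 𝓕)
    (h : ∀ i ∈ T, a i ≠ 0 ∧ Q.ord (a i) = 0) :
    (∏ i ∈ T, a i) ≠ 0 ∧ Q.ord (∏ i ∈ T, a i) = 0 := by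
  classical
  induction T using Finset.induction_on with
  | empty => exact ⟨by simp, by simp⟩
  | insert i T hi ih =>
    obtain ⟨h0, hord⟩ := ih (fun k hk => h k (Finset.mem_insert_of_mem hk))
    obtain ⟨hi0, hiord⟩ := h i (Finset.mem_insert_self _ _)
    rw [Finset.prod_insert hi]
    exact ⟨mul_ne_zero hi0 h0, by rw [Q.ord_mul hi0 h0, hiord, hord, add_zero]⟩

variable {ι : Type*} [Fintype ι] (O : ι → ValuationSubring 𝓕) (S : Set (Place L₀ 𝓕))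
  (𝔫 : Ideal (s34x_ring (s34x_infRing O) S)) [h𝔫 : 𝔫.IsPrime]

/-- **Factorisation of `π` at a regular point**: if `ℓ i` (for the components `i ∈ T` through `𝔫`)
are branch equations (units of the other components through `𝔫`, no zero at the places through
`𝔫`) and `π / ℓ i ^ e i` is a unit of `O i`, then `π = unit · ∏ ℓ i ^ e i` in `B_𝔫`. -/
theorem s36q_unit_factor (hA : s36q_Arch O) (T : Finset ι)
    (hT : ∀ i, s36q_compThrough O S 𝔫 i → i ∈ T)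
    (p : Localization.AtPrime 𝔫) (ℓ : ι → Localization.AtPrime 𝔫) (e : ι → ℕ)
    (hp0 : p ≠ 0) (hℓ0 : ∀ i ∈ T, ℓ i ≠ 0)
    (hval : ∀ i ∈ T,
      s34f_iota (s34x_infRing O) S 𝔫 p * (s34f_iota (s34x_infRing O) S 𝔫 (ℓ i) ^ e i)⁻¹ ∈ O i ∧
      (s34f_iota (s34x_infRing O) S 𝔫 p)⁻¹ * s34f_iota (s34x_infRing O) S 𝔫 (ℓ i) ^ e i ∈ O i)
    (hunit : ∀ i ∈ T, ∀ j ∈ T, i ≠ j →
      s34f_iota (s34x_infRing O) S 𝔫 (ℓ i) ∈ O j ∧
      (s34f_iota (s34x_infRing O) S 𝔫 (ℓ i))⁻¹ ∈ O j)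
    (hord : ∀ i ∈ T, ∀ Q ∈ S, s34f_through (s34x_infRing O) S 𝔫 Q →
      Q.ord (s34f_iota (s34x_infRing O) S 𝔫 (ℓ i)) = 0)
    (hpord : ∀ Q ∈ S, s34f_through (s34x_infRing O) S 𝔫 Q →
      Q.ord (s34f_iota (s34x_infRing O) S 𝔫 p) = 0)
    (hfin : ∀ y : 𝓕, y ≠ 0 → {Q : Place L₀ 𝓕 | Q ∈ S ∧ Q.ord y ≠ 0}.Finite) :
    ∃ v : Localization.AtPrime 𝔫, IsUnit v ∧ p = v * ∏ i ∈ T, ℓ i ^ e i := by
  classical
  have hinj := s34f_iota_injective (s34x_infRing O) S 𝔫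
  have hιp0 : s34f_iota (s34x_infRing O) S 𝔫 p ≠ 0 := fun h =>
    hp0 (hinj (by rw [h, map_zero]))
  have hιℓ0 : ∀ i ∈ T, s34f_iota (s34x_infRing O) S 𝔫 (ℓ i) ≠ 0 := fun i hi h =>
    hℓ0 i hi (hinj (by rw [h, map_zero]))
  set P : 𝓕 := ∏ i ∈ T, s34f_iota (s34x_infRing O) S 𝔫 (ℓ i) ^ e i with hP
  have hP0 : P ≠ 0 := Finset.prod_ne_zero_iff.mpr fun i hi => pow_ne_zero _ (hιℓ0 i hi)
  set x : 𝓕 := s34f_iota (s34x_infRing O) S 𝔫 p * P⁻¹ with hx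
  have hx0 : x ≠ 0 := mul_ne_zero hιp0 (inv_ne_zero hP0)
  -- `x` is a unit at the components through `𝔫`
  have hcomp : ∀ j, s36q_compThrough O S 𝔫 j → x ∈ O j ∧ x⁻¹ ∈ O j := by
    intro j hj
    have hjT := hT j hj
    have hsplit : P = s34f_iota (s34x_infRing O) S 𝔫 (ℓ j) ^ e j *
        ∏ i ∈ T.erase j, s34f_iota (s34x_infRing O) S 𝔫 (ℓ i) ^ e i := by
      rw [hP]
      exact (Finset.mul_prod_erase T
        (fun i => s34f_iota (s34x_infRing O) S 𝔫 (ℓ i) ^ e i) hjT).symm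
    have hrest : (∏ i ∈ T.erase j, s34f_iota (s34x_infRing O) S 𝔫 (ℓ i) ^ e i) ∈ O j ∧
        (∏ i ∈ T.erase j, s34f_iota (s34x_infRing O) S 𝔫 (ℓ i) ^ e i)⁻¹ ∈ O j := by
      constructor
      · refine (O j).toSubring.prod_mem fun i hi => ?_
        obtain ⟨hij, hiT⟩ := Finset.mem_erase.mp hi
        exact (O j).pow_mem (hunit i hiT j hjT hij).1 _
      · rw [← Finset.prod_inv_distrib]
        refine (O j).toSubring.prod_mem fun i hi => ?_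
        obtain ⟨hij, hiT⟩ := Finset.mem_erase.mp hi
        rw [← inv_pow]
        exact (O j).pow_mem (hunit i hiT j hjT hij).2 _
    constructor
    · have : x = (s34f_iota (s34x_infRing O) S 𝔫 p *
          (s34f_iota (s34x_infRing O) S 𝔫 (ℓ j) ^ e j)⁻¹) *
          (∏ i ∈ T.erase j, s34f_iota (s34x_infRing O) S 𝔫 (ℓ i) ^ e i)⁻¹ := by
        rw [hx, hsplit, mul_inv]; ring
      rw [this]
      exact (O j).mul_mem _ _ (hval j hjT).1 hrest.2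
    · have : x⁻¹ = ((s34f_iota (s34x_infRing O) S 𝔫 p)⁻¹ *
          s34f_iota (s34x_infRing O) S 𝔫 (ℓ j) ^ e j) *
          (∏ i ∈ T.erase j, s34f_iota (s34x_infRing O) S 𝔫 (ℓ i) ^ e i) := by
        rw [hx, hsplit, mul_inv, inv_inv]; ring
      rw [this]
      exact (O j).mul_mem _ _ (hval j hjT).2 hrest.1
  -- `x` has order zero at the places through `𝔫`
  have hpl : ∀ Q ∈ S, s34f_through (s34x_infRing O) S 𝔫 Q → Q.ord x = 0 := by
    intro Q hQS hth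
    have hPord := s36q_ord_prod_zero Q T
      (fun i => s34f_iota (s34x_infRing O) S 𝔫 (ℓ i) ^ e i) (fun i hi => by
        refine ⟨pow_ne_zero _ (hιℓ0 i hi), ?_⟩
        rw [← zpow_natCast, Q.ord_zpow, hord i hi Q hQS hth, mul_zero])
    rw [hx, Q.ord_mul hιp0 (inv_ne_zero hP0), Q.ord_inv, hpord Q hQS hth, hPord.2]
    simp
  obtain ⟨v, hv, hvx⟩ := s36q_exists_unit_iota_eq O S 𝔫 hA x hx0 hcomp hpl (hfin x hx0)
  refine ⟨v, hv, ?_⟩
  apply hinj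
  rw [map_mul, hvx, map_prod]
  simp only [map_pow]
  rw [hx, ← hP, mul_assoc, inv_mul_cancel₀ hP0, mul_one]

end Fermat.Agent.Lib.S36
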