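/-
S36 mega-project, layer (R2) (helper5), part 11: **THE TRIPLE-POINT THEOREM** in the abstract
two-level frame.

Level `q`: `O₁ : ι₁ → ValuationSubring 𝓕₁` with two distinguished components `i∞`, `i0`, constant
uniformiser `π₁`.  Level `q²`: `O₂ : Fin 3 → ValuationSubring 𝓕₂` (`0 ↦ V_∞`, `1 ↦ V_mid`,
`2 ↦ V_0`, helper6/helper8's convention of `GeoFrame.lean`).  Two embeddings `γα, γβ : 𝓕₁ → 𝓕₂` with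
the six comaps of (H2), `e = 1` at `V_∞`, `V_0`, a uniformiser `t ∈ B₂` of `V_mid` with
`π₂ = unit · t ^ e`, residue degree one (`s36q_Frac`) for `(γβ, V_0)`, `(γα, V_mid)`, `(γβ, V_mid)`.
`𝔫` a prime of `B₂` through which all three components pass, whose two images `γα⁻¹𝔫`, `γβ⁻¹𝔫` are
REGULAR CROSSINGS of level `q` (`s36q_RegCross`, helper4's thickness one).

Then (`s36q_triple`) there are `ℓ : Fin 3 → (B₂)_𝔫` with `(ℓ j) = ker(red_j)`, `ℓ j` a uniformiser of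
`O₂ j`, a unit of the other two, without zero at the places through `𝔫`, `𝔪 = (ℓ i, ℓ j)` for all
`i ≠ j`, `π₂ = unit · ℓ 0 · ℓ 1 ^ e · ℓ 2`, every prime `≠ 𝔪` principal (hence local equations for all
places through `𝔫`: `s36q_locEq_of_forall`), `ℓ 2 = locMap_α(branch equation of V'_0 at γα⁻¹𝔫)`,
`ℓ 0 = locMap_β(branch equation of V'_∞ at γβ⁻¹𝔫)`.
-/
import Fermat.Agent.Lib.S36.QTriple

set_option autoImplicit false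
set_option maxHeartbeats 800000

noncomputable section

namespace Fermat.Agent.Lib.S36

open AlgebraicCurve Fermat.Agent.Lib.FF Fermat.Agent.Lib.S18 Fermat.Agent.Lib.S34 IsLocalRing

section Small

variable {𝓕 : Type*} [Field 𝓕]

/-- two generators of the non-units of a valuation ring differ by a unit. -/
theorem s36q_gen_ratio (O : ValuationSubring 𝓕) (a b : 𝓕) (ha : a ∈ O.nonunits)
    (hb : b ∈ O.nonunits) (ha0 : a ≠ 0) (hb0 : b ≠ 0)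
    (hga : ∀ y ∈ O.nonunits, ∃ c ∈ O, y = a * c)
    (hgb : ∀ y ∈ O.nonunits, ∃ c ∈ O, y = b * c) :
    a * b⁻¹ ∈ O ∧ a⁻¹ * b ∈ O := by
  obtain ⟨c, hc, hbc⟩ := hga b hb
  obtain ⟨d, hd, had⟩ := hgb a ha
  constructor
  · have : a * b⁻¹ = d := by rw [had]; field_simp
    rw [this]; exact hd
  · have : a⁻¹ * b = c := by rw [hbc]; field_simp
    rw [this]; exact hc

end Small

section One

variable {L₀ 𝓕 : Type*} [Field L₀] [Field 𝓕] [Algebra L₀ 𝓕]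
variable {ι : Type*} (O : ι → ValuationSubring 𝓕) (S : Set (Place L₀ 𝓕))
  (𝔫 : Ideal (s34x_ring (s34x_infRing O) S)) [h𝔫 : 𝔫.IsPrime]

/-- **a regular crossing** of the components `i₁`, `i₂` at `𝔫`: branch equations `u` (of `i₁`), `w`
(of `i₂`) with `u * w = π * unit` and `𝔪 = (u, w)`. -/
def s36q_RegCross (i₁ i₂ : ι) (π : 𝓕) : Prop :=
  ∃ u w β : Localization.AtPrime 𝔫, IsUnit β ∧
    s34f_iota (s34x_infRing O) S 𝔫 u ∈ (O i₁).nonunits ∧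
    s34f_iota (s34x_infRing O) S 𝔫 w ∈ (O i₂).nonunits ∧
    s34f_iota (s34x_infRing O) S 𝔫 u * s34f_iota (s34x_infRing O) S 𝔫 w =
      π * s34f_iota (s34x_infRing O) S 𝔫 β ∧
    maximalIdeal (Localization.AtPrime 𝔫) = Ideal.span {u, w}

/-- (K) as an equivalence. -/
theorem s36q_ker_iff_of_K (j : ι) (hj : s36q_compThrough O S 𝔫 j) (ℓ : Localization.AtPrime 𝔫)
    (hℓ : s34f_iota (s34x_infRing O) S 𝔫 ℓ ∈ (O j).nonunits)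
    (hK : ∀ z : Localization.AtPrime 𝔫,
      s34f_iota (s34x_infRing O) S 𝔫 z ∈ (O j).nonunits → ∃ c, z = ℓ * c)
    (z : Localization.AtPrime 𝔫) :
    s34f_iota (s34x_infRing O) S 𝔫 z ∈ (O j).nonunits ↔ ∃ c, z = ℓ * c := by
  refine ⟨hK z, ?_⟩
  rintro ⟨c, rfl⟩
  rw [← s36q_red_eq_zero_iff O S 𝔫 j hj, map_mul,
    (s36q_red_eq_zero_iff O S 𝔫 j hj ℓ).mpr hℓ, zero_mul]

end One

/-- residue degree one of `(O₂ j) | (O₁ i)` along `γ`, in the form used by `s36q_D_chart`. -/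
def s36q_Frac {L₀ 𝓕₁ 𝓕₂ : Type*} [Field L₀] [Field 𝓕₁] [Field 𝓕₂] [Algebra L₀ 𝓕₁]
    {ι₁ ι₂ : Type*} (O₁ : ι₁ → ValuationSubring 𝓕₁) (O₂ : ι₂ → ValuationSubring 𝓕₂)
    (S₁ : Set (Place L₀ 𝓕₁)) (γ : 𝓕₁ →+* 𝓕₂) (i : ι₁) (j : ι₂) : Prop :=
  ∀ y ∈ O₂ j, ∃ b c : s34x_ring (s34x_infRing O₁) S₁,
    (c : 𝓕₁) ∉ (O₁ i).nonunits ∧ y * γ (c : 𝓕₁) - γ (b : 𝓕₁) ∈ (O₂ j).nonunits

end Fermat.Agent.Lib.S36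

namespace Fermat.Agent.Lib.S36

open AlgebraicCurve Fermat.Agent.Lib.FF Fermat.Agent.Lib.S18 Fermat.Agent.Lib.S34 IsLocalRing

section Sym

variable {L₀ 𝓕 : Type*} [Field L₀] [Field 𝓕] [Algebra L₀ 𝓕]
variable {ι : Type*} (O : ι → ValuationSubring 𝓕) (S : Set (Place L₀ 𝓕))
  (𝔫 : Ideal (s34x_ring (s34x_infRing O) S)) [h𝔫 : 𝔫.IsPrime]

theorem s36q_RegCross_symm (i₁ i₂ : ι) (π : 𝓕) (h : s36q_RegCross O S 𝔫 i₁ i₂ π) :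
    s36q_RegCross O S 𝔫 i₂ i₁ π := by
  obtain ⟨u, w, β, hβ, hu, hw, huw, hm⟩ := h
  exact ⟨w, u, β, hβ, hw, hu, by rw [mul_comm, huw], by rw [hm, Set.pair_comm]⟩

end Sym

variable {L₀ 𝓕₁ 𝓕₂ : Type*} [Field L₀] [Field 𝓕₁] [Field 𝓕₂] [Algebra L₀ 𝓕₁] [Algebra L₀ 𝓕₂]
variable {ι₁ ι₂ : Type*} [Fintype ι₂] (O₁ : ι₁ → ValuationSubring 𝓕₁)
  (O₂ : ι₂ → ValuationSubring 𝓕₂)
  (S₁ : Set (Place L₀ 𝓕₁)) (S₂ : Set (Place L₀ 𝓕₂)) (γ : 𝓕₁ →+* 𝓕₂)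
  (hγ : ∀ b ∈ s34x_ring (s34x_infRing O₁) S₁, γ b ∈ s34x_ring (s34x_infRing O₂) S₂)
  (𝔫 : Ideal (s34x_ring (s34x_infRing O₂) S₂)) [h𝔫 : 𝔫.IsPrime]

/-- **the branch equation of `O₂ j` pulled back from a regular crossing of level `q`.**
`(O₂ j).comap γ = O₁ i₂` with `e = 1`, every other component through `𝔫` restricts to `O₁ i₁`. -/
theorem s36q_branch_of_cross (hA : s36q_Arch O₂)
    (hfin : ∀ y : 𝓕₂, y ≠ 0 → {Q : Place L₀ 𝓕₂ | Q ∈ S₂ ∧ Q.ord y ≠ 0}.Finite)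
    (i₁ i₂ : ι₁) (j : ι₂) (π₁ : 𝓕₁) (hπ₁0 : π₁ ≠ 0)
    (hπ₂ : π₁ ∈ (O₁ i₂).nonunits ∧ ∀ y ∈ (O₁ i₂).nonunits, ∃ c ∈ O₁ i₂, y = π₁ * c)
    (hπ₁ : ∀ y ∈ (O₁ i₁).nonunits, ∃ c ∈ O₁ i₁, y = π₁ * c)
    (hcj : ∀ x : 𝓕₁, γ x ∈ O₂ j ↔ x ∈ O₁ i₂)
    (hother : ∀ j', j' ≠ j → s36q_compThrough O₂ S₂ 𝔫 j' → ∀ x : 𝓕₁, γ x ∈ O₂ j' ↔ x ∈ O₁ i₁)
    (he : ∀ y ∈ (O₂ j).nonunits, ∃ c ∈ O₂ j, y = γ π₁ * c)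
    (hj : s36q_compThrough O₂ S₂ 𝔫 j)
    (hπord : ∀ Q ∈ S₂, Q.ord (γ π₁) = 0)
    (hX : s36q_RegCross O₁ S₁ (s36q_pt O₁ O₂ S₁ S₂ γ hγ 𝔫) i₁ i₂ π₁) :
    ∃ (u w : Localization.AtPrime (s36q_pt O₁ O₂ S₁ S₂ γ hγ 𝔫)),
      maximalIdeal (Localization.AtPrime (s36q_pt O₁ O₂ S₁ S₂ γ hγ 𝔫)) = Ideal.span {u, w} ∧
      s34f_iota (s34x_infRing O₁) S₁ (s36q_pt O₁ O₂ S₁ S₂ γ hγ 𝔫) u ∈ (O₁ i₁).nonunits ∧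
      s34f_iota (s34x_infRing O₁) S₁ (s36q_pt O₁ O₂ S₁ S₂ γ hγ 𝔫) w ∈ (O₁ i₂).nonunits ∧
      (∀ z : Localization.AtPrime 𝔫, s34f_iota (s34x_infRing O₂) S₂ 𝔫 z ∈ (O₂ j).nonunits →
        ∃ c, z = s36q_locMap O₁ O₂ S₁ S₂ γ hγ 𝔫 w * c) ∧
      s34f_iota (s34x_infRing O₂) S₂ 𝔫 (s36q_locMap O₁ O₂ S₁ S₂ γ hγ 𝔫 w) ∈ (O₂ j).nonunits ∧
      (∀ y ∈ (O₂ j).nonunits, ∃ c ∈ O₂ j,
        y = s34f_iota (s34x_infRing O₂) S₂ 𝔫 (s36q_locMap O₁ O₂ S₁ S₂ γ hγ 𝔫 w) * c) ∧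
      (∀ j', j' ≠ j → s36q_compThrough O₂ S₂ 𝔫 j' →
        (s34f_iota (s34x_infRing O₂) S₂ 𝔫 (s36q_locMap O₁ O₂ S₁ S₂ γ hγ 𝔫 w))⁻¹ ∈ O₂ j') ∧
      (∀ Q ∈ S₂, s34f_through (s34x_infRing O₂) S₂ 𝔫 Q →
        Q.ord (s34f_iota (s34x_infRing O₂) S₂ 𝔫 (s36q_locMap O₁ O₂ S₁ S₂ γ hγ 𝔫 w)) = 0) ∧
      s36q_locMap O₁ O₂ S₁ S₂ γ hγ 𝔫 w ∈ maximalIdeal (Localization.AtPrime 𝔫) ∧
      s36q_locMap O₁ O₂ S₁ S₂ γ hγ 𝔫 w ≠ 0 := by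
  obtain ⟨u, w, β, hβ, hu, hw, huw, hm⟩ := hX
  have hi₂ : s36q_compThrough O₁ S₁ (s36q_pt O₁ O₂ S₁ S₂ γ hγ 𝔫) i₂ :=
    s36q_compThrough_comap O₁ O₂ S₁ S₂ γ hγ 𝔫 i₂ j hcj hj
  -- facts at level `q`, component `i₂`
  have huw' : s34f_iota (s34x_infRing O₁) S₁ (s36q_pt O₁ O₂ S₁ S₂ γ hγ 𝔫) w *
      s34f_iota (s34x_infRing O₁) S₁ (s36q_pt O₁ O₂ S₁ S₂ γ hγ 𝔫) u =
      π₁ * s34f_iota (s34x_infRing O₁) S₁ (s36q_pt O₁ O₂ S₁ S₂ γ hγ 𝔫) β := by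
    rw [mul_comm, huw]
  obtain ⟨hwgen, _⟩ := s36q_cross_facts O₁ S₁ (s36q_pt O₁ O₂ S₁ S₂ γ hγ 𝔫) i₂ hi₂ w u β hβ π₁
    hπ₁0 huw' hπ₂.2 hw
  -- the relation at level `q²`
  have hβ₂ : IsUnit (s36q_locMap O₁ O₂ S₁ S₂ γ hγ 𝔫 β) := hβ.map _
  have hrel : s34f_iota (s34x_infRing O₂) S₂ 𝔫 (s36q_locMap O₁ O₂ S₁ S₂ γ hγ 𝔫 u) *
      s34f_iota (s34x_infRing O₂) S₂ 𝔫 (s36q_locMap O₁ O₂ S₁ S₂ γ hγ 𝔫 w) =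
      γ π₁ * s34f_iota (s34x_infRing O₂) S₂ 𝔫 (s36q_locMap O₁ O₂ S₁ S₂ γ hγ 𝔫 β) := by
    rw [s36q_iota_locMap, s36q_iota_locMap, s36q_iota_locMap, ← map_mul, huw, map_mul]
  have hγπ0 : γ π₁ ≠ 0 := by rwa [Ne, map_eq_zero]
  have hwm : w ∈ maximalIdeal (Localization.AtPrime (s36q_pt O₁ O₂ S₁ S₂ γ hγ 𝔫)) := by
    rw [hm]; exact Ideal.subset_span (by simp)
  have hw0 : s34f_iota (s34x_infRing O₁) S₁ (s36q_pt O₁ O₂ S₁ S₂ γ hγ 𝔫) w ≠ 0 := by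
    intro h0
    have hβ0 : s34f_iota (s34x_infRing O₁) S₁ (s36q_pt O₁ O₂ S₁ S₂ γ hγ 𝔫) β ≠ 0 := by
      intro h
      have : β = 0 := s34f_iota_injective (s34x_infRing O₁) S₁ _ (by rw [h, map_zero])
      rw [this] at hβ
      exact not_isUnit_zero hβ
    rw [h0, mul_zero] at huw
    exact (mul_ne_zero hπ₁0 hβ0) huw.symm
  have hℓ0 : s36q_locMap O₁ O₂ S₁ S₂ γ hγ 𝔫 w ≠ 0 := by
    intro h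
    have := congrArg (s34f_iota (s34x_infRing O₂) S₂ 𝔫) h
    rw [s36q_iota_locMap, map_zero, map_eq_zero] at this
    exact hw0 this
  have hord : ∀ Q ∈ S₂, s34f_through (s34x_infRing O₂) S₂ 𝔫 Q →
      Q.ord (s34f_iota (s34x_infRing O₂) S₂ 𝔫 (s36q_locMap O₁ O₂ S₁ S₂ γ hγ 𝔫 w)) = 0 :=
    fun Q hQS hth => (s36q_ord_zero_of_mul O₂ S₂ 𝔫 _ _ _ hβ₂ (γ π₁) hrel hγπ0 Q hQS hth
      (hπord Q hQS)).2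
  have hgen : ∀ y ∈ (O₂ j).nonunits, ∃ c ∈ O₂ j,
      y = s34f_iota (s34x_infRing O₂) S₂ 𝔫 (s36q_locMap O₁ O₂ S₁ S₂ γ hγ 𝔫 w) * c := by
    rw [s36q_iota_locMap]
    exact s36q_gen_transfer O₁ O₂ γ i₂ j hcj π₁ hπ₂.1 he _ hwgen
  have hunit : ∀ j', j' ≠ j → s36q_compThrough O₂ S₂ 𝔫 j' →
      (s34f_iota (s34x_infRing O₂) S₂ 𝔫 (s36q_locMap O₁ O₂ S₁ S₂ γ hγ 𝔫 w))⁻¹ ∈ O₂ j' := by
    intro j' hj'j hj'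
    have hc' := hother j' hj'j hj'
    have hi₁ : s36q_compThrough O₁ S₁ (s36q_pt O₁ O₂ S₁ S₂ γ hγ 𝔫) i₁ :=
      s36q_compThrough_comap O₁ O₂ S₁ S₂ γ hγ 𝔫 i₁ j' hc' hj'
    obtain ⟨_, hwinv⟩ := s36q_cross_facts O₁ S₁ (s36q_pt O₁ O₂ S₁ S₂ γ hγ 𝔫) i₁ hi₁ u w β hβ π₁
      hπ₁0 huw hπ₁ hu
    rw [s36q_iota_locMap, ← map_inv₀]
    exact (hc' _).mpr hwinv
  refine ⟨u, w, hm, hu, hw, ?_, ?_, hgen, hunit, hord,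
    s36q_locMap_mem_maximalIdeal O₁ O₂ S₁ S₂ γ hγ 𝔫 w hwm, hℓ0⟩
  · exact s36q_ker_local' O₂ S₂ 𝔫 hA j _ hgen hunit hord hfin
  · rw [s36q_iota_locMap]
    exact (s36q_nonunits_comap O₁ O₂ γ i₂ j hcj _).mpr hw

end Fermat.Agent.Lib.S36

namespace Fermat.Agent.Lib.S36

open AlgebraicCurve Fermat.Agent.Lib.FF Fermat.Agent.Lib.S18 Fermat.Agent.Lib.S34 IsLocalRing

variable {L₀ 𝓕₁ 𝓕₂ : Type*} [Field L₀] [Field 𝓕₁] [Field 𝓕₂] [Algebra L₀ 𝓕₁] [Algebra L₀ 𝓕₂]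
variable {ι₁ : Type*} (O₁ : ι₁ → ValuationSubring 𝓕₁) (O₂ : Fin 3 → ValuationSubring 𝓕₂)
  (S₁ : Set (Place L₀ 𝓕₁)) (S₂ : Set (Place L₀ 𝓕₂)) (γα γβ : 𝓕₁ →+* 𝓕₂)
  (hγα : ∀ b ∈ s34x_ring (s34x_infRing O₁) S₁, γα b ∈ s34x_ring (s34x_infRing O₂) S₂)
  (hγβ : ∀ b ∈ s34x_ring (s34x_infRing O₁) S₁, γβ b ∈ s34x_ring (s34x_infRing O₂) S₂)
  (𝔫 : Ideal (s34x_ring (s34x_infRing O₂) S₂)) [h𝔫 : 𝔫.IsPrime]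
  [hB₁ : IsNoetherianRing (s34x_ring (s34x_infRing O₁) S₁)]
  [hB₂ : IsNoetherianRing (s34x_ring (s34x_infRing O₂) S₂)]

/-- **THE TRIPLE-POINT THEOREM.** -/
theorem s36q_triple (hA : s36q_Arch O₂)
    (hfin : ∀ y : 𝓕₂, y ≠ 0 → {Q : Place L₀ 𝓕₂ | Q ∈ S₂ ∧ Q.ord y ≠ 0}.Finite)
    (iI i0 : ι₁) (π₁ : 𝓕₁) (hπ₁0 : π₁ ≠ 0) (hππ : γα π₁ = γβ π₁)
    (hπI : π₁ ∈ (O₁ iI).nonunits ∧ ∀ y ∈ (O₁ iI).nonunits, ∃ c ∈ O₁ iI, y = π₁ * c)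
    (hπ0 : π₁ ∈ (O₁ i0).nonunits ∧ ∀ y ∈ (O₁ i0).nonunits, ∃ c ∈ O₁ i0, y = π₁ * c)
    (hc0α : ∀ x, γα x ∈ O₂ 0 ↔ x ∈ O₁ iI) (hc0β : ∀ x, γβ x ∈ O₂ 0 ↔ x ∈ O₁ iI)
    (hc1α : ∀ x, γα x ∈ O₂ 1 ↔ x ∈ O₁ iI) (hc1β : ∀ x, γβ x ∈ O₂ 1 ↔ x ∈ O₁ i0)
    (hc2α : ∀ x, γα x ∈ O₂ 2 ↔ x ∈ O₁ i0) (hc2β : ∀ x, γβ x ∈ O₂ 2 ↔ x ∈ O₁ i0)
    (he0 : ∀ y ∈ (O₂ 0).nonunits, ∃ c ∈ O₂ 0, y = γα π₁ * c)
    (he2 : ∀ y ∈ (O₂ 2).nonunits, ∃ c ∈ O₂ 2, y = γα π₁ * c)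
    (t pB : s34x_ring (s34x_infRing O₂) S₂) (hpB : (pB : 𝓕₂) = γα π₁)
    (ht : (t : 𝓕₂) ∈ (O₂ 1).nonunits)
    (htgen : ∀ y ∈ (O₂ 1).nonunits, ∃ c ∈ O₂ 1, y = (t : 𝓕₂) * c)
    (e : ℕ) (hte : ∃ u, u ∈ O₂ 1 ∧ u⁻¹ ∈ O₂ 1 ∧ γα π₁ = u * (t : 𝓕₂) ^ e)
    (hf1α : s36q_Frac O₁ O₂ S₁ γα iI 1) (hf1β : s36q_Frac O₁ O₂ S₁ γβ i0 1)
    (hf2β : s36q_Frac O₁ O₂ S₁ γβ i0 2)
    (hthru : ∀ j, s36q_compThrough O₂ S₂ 𝔫 j)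
    (hπord : ∀ Q ∈ S₂, Q.ord (γα π₁) = 0)
    (hXα : s36q_RegCross O₁ S₁ (s36q_pt O₁ O₂ S₁ S₂ γα hγα 𝔫) iI i0 π₁)
    (hXβ : s36q_RegCross O₁ S₁ (s36q_pt O₁ O₂ S₁ S₂ γβ hγβ 𝔫) iI i0 π₁) :
    ∃ ℓ : Fin 3 → Localization.AtPrime 𝔫,
      (∀ j, ∀ z : Localization.AtPrime 𝔫,
        s34f_iota (s34x_infRing O₂) S₂ 𝔫 z ∈ (O₂ j).nonunits ↔ ∃ c, z = ℓ j * c) ∧
      (∀ j, ∀ y ∈ (O₂ j).nonunits, ∃ c ∈ O₂ j,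
        y = s34f_iota (s34x_infRing O₂) S₂ 𝔫 (ℓ j) * c) ∧
      (∀ i j, i ≠ j → (s34f_iota (s34x_infRing O₂) S₂ 𝔫 (ℓ i))⁻¹ ∈ O₂ j) ∧
      (∀ j, ∀ Q ∈ S₂, s34f_through (s34x_infRing O₂) S₂ 𝔫 Q →
        Q.ord (s34f_iota (s34x_infRing O₂) S₂ 𝔫 (ℓ j)) = 0) ∧
      (∀ i j, i ≠ j → maximalIdeal (Localization.AtPrime 𝔫) = Ideal.span {ℓ i, ℓ j}) ∧
      (∃ v : Localization.AtPrime 𝔫, IsUnit v ∧
        algebraMap _ (Localization.AtPrime 𝔫) pB = v * (ℓ 0 * ℓ 1 ^ e * ℓ 2)) ∧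
      (∀ 𝔭 : Ideal (Localization.AtPrime 𝔫), 𝔭.IsPrime →
        𝔭 ≠ maximalIdeal (Localization.AtPrime 𝔫) → 𝔭.IsPrincipal) ∧
      (∃ w : Localization.AtPrime (s36q_pt O₁ O₂ S₁ S₂ γα hγα 𝔫),
        s34f_iota (s34x_infRing O₁) S₁ _ w ∈ (O₁ i0).nonunits ∧
        ℓ 2 = s36q_locMap O₁ O₂ S₁ S₂ γα hγα 𝔫 w) ∧
      (∃ u : Localization.AtPrime (s36q_pt O₁ O₂ S₁ S₂ γβ hγβ 𝔫),
        s34f_iota (s34x_infRing O₁) S₁ _ u ∈ (O₁ iI).nonunits ∧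
        ℓ 0 = s36q_locMap O₁ O₂ S₁ S₂ γβ hγβ 𝔫 u) := by
  classical
  have hπordβ : ∀ Q ∈ S₂, Q.ord (γβ π₁) = 0 := by rw [← hππ]; exact hπord
  -- the branch `ℓ 2` (component `V_0`), pulled back along `γα`
  obtain ⟨uα, wα, hmα, huα, hwα, hK2, hℓ2nu, hgen2, hunit2, hord2, hℓ2m, hℓ2ne⟩ :=
    s36q_branch_of_cross O₁ O₂ S₁ S₂ γα hγα 𝔫 hA hfin iI i0 2 π₁ hπ₁0 hπ0 hπI.2 hc2α
      (by
        intro j' hj' _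
        fin_cases j'
        · exact hc0α
        · exact hc1α
        · exact absurd rfl hj') he2 (hthru 2) hπord hXα
  -- the branch `ℓ 0` (component `V_∞`), pulled back along `γβ`
  obtain ⟨wβ, uβ, hmβ, hwβ, huβ, hK0, hℓ0nu, hgen0, hunit0, hord0, hℓ0m, hℓ0ne⟩ :=
    s36q_branch_of_cross O₁ O₂ S₁ S₂ γβ hγβ 𝔫 hA hfin i0 iI 0 π₁ hπ₁0 hπI hπ0.2 hc0β
      (by
        intro j' hj' _
        fin_cases j'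
        · exact absurd rfl hj'
        · exact hc1β
        · exact hc2β) (by rw [← hππ]; exact he0) (hthru 0) hπordβ
      (s36q_RegCross_symm O₁ S₁ _ iI i0 π₁ hXβ)
  set ℓ2 := s36q_locMap O₁ O₂ S₁ S₂ γα hγα 𝔫 wα with hℓ2
  set ℓ0 := s36q_locMap O₁ O₂ S₁ S₂ γβ hγβ 𝔫 uβ with hℓ0
  -- `ℓ0` is a unit of `V_mid`, `V_0`; `ℓ2` of `V_∞`, `V_mid`
  have hnot : ∀ (x : 𝓕₂) (j : Fin 3), x ≠ 0 → x⁻¹ ∈ O₂ j → x ∉ (O₂ j).nonunits := by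
    intro x j hx0 hinv hmem
    rcases ((O₂ j).mem_nonunits_iff_or).mp hmem with h | h
    · exact hx0 h
    · exact h hinv
  have hιℓ0ne : s34f_iota (s34x_infRing O₂) S₂ 𝔫 ℓ0 ≠ 0 := fun h =>
    hℓ0ne (s34f_iota_injective (s34x_infRing O₂) S₂ 𝔫 (by rw [h, map_zero]))
  have hιℓ2ne : s34f_iota (s34x_infRing O₂) S₂ 𝔫 ℓ2 ≠ 0 := fun h =>
    hℓ2ne (s34f_iota_injective (s34x_infRing O₂) S₂ 𝔫 (by rw [h, map_zero]))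
  have hℓ0_1 : s34f_iota (s34x_infRing O₂) S₂ 𝔫 ℓ0 ∉ (O₂ 1).nonunits :=
    hnot _ 1 hιℓ0ne (hunit0 1 (by decide) (hthru 1))
  have hℓ0_2 : s34f_iota (s34x_infRing O₂) S₂ 𝔫 ℓ0 ∉ (O₂ 2).nonunits :=
    hnot _ 2 hιℓ0ne (hunit0 2 (by decide) (hthru 2))
  have hℓ2_1 : s34f_iota (s34x_infRing O₂) S₂ 𝔫 ℓ2 ∉ (O₂ 1).nonunits :=
    hnot _ 1 hιℓ2ne (hunit2 1 (by decide) (hthru 1))
  -- (D) at `V_0` along `γβ`: generator `red ℓ0`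
  have hD2 := s36q_D_chart O₁ O₂ S₁ S₂ γβ hγβ 𝔫 i0 2 hc2β (hthru 2) uβ wβ
    (by rw [hmβ, Set.pair_comm]) hwβ hf2β
  have hm20 : maximalIdeal (Localization.AtPrime 𝔫) = Ideal.span {ℓ2, ℓ0} :=
    s36q_span_pair_of_KD O₂ S₂ 𝔫 2 (hthru 2) ℓ2 ℓ0 hℓ2m hℓ0m hK2 hD2
  have hprin := s36q_principal_of_KD O₂ S₂ 𝔫 2 (hthru 2) ℓ2 ℓ0 hm20 hK2 hℓ2nu hℓ2ne hℓ0_2
  -- the middle branch
  obtain ⟨ℓ1, hℓ1⟩ := s36q_exists_ker_gen O₂ S₂ 𝔫 hprin 1 (hthru 1) ℓ0 hℓ0m hℓ0_1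
  have hK0' := s36q_ker_iff_of_K O₂ S₂ 𝔫 0 (hthru 0) ℓ0 hℓ0nu hK0
  have hK2' := s36q_ker_iff_of_K O₂ S₂ 𝔫 2 (hthru 2) ℓ2 hℓ2nu hK2
  have hℓ1nu : s34f_iota (s34x_infRing O₂) S₂ 𝔫 ℓ1 ∈ (O₂ 1).nonunits :=
    (hℓ1 ℓ1).mpr ⟨1, by rw [mul_one]⟩
  have hγπ0 : γα π₁ ≠ 0 := by rwa [Ne, map_eq_zero]
  have hγπ1 : γα π₁ ∈ (O₂ 1).nonunits :=
    (s36q_nonunits_comap O₁ O₂ γα iI 1 hc1α π₁).mpr hπI.1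
  have ht0 : (t : 𝓕₂) ≠ 0 := by
    intro h0
    obtain ⟨c, _, hc⟩ := htgen _ hγπ1
    rw [h0, zero_mul] at hc
    exact hγπ0 hc
  have htR : s34f_iota (s34x_infRing O₂) S₂ 𝔫 (algebraMap _ (Localization.AtPrime 𝔫) t) =
      (t : 𝓕₂) := s34f_iota_algebraMap _ _ _ _
  have hpR : s34f_iota (s34x_infRing O₂) S₂ 𝔫 (algebraMap _ (Localization.AtPrime 𝔫) pB) =
      γα π₁ := by rw [s34f_iota_algebraMap, hpB]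
  have hℓ1ne : ℓ1 ≠ 0 := by
    rintro rfl
    obtain ⟨c, hc⟩ := (hℓ1 (algebraMap _ _ t)).mp (by rw [htR]; exact ht)
    rw [zero_mul] at hc
    have := congrArg (s34f_iota (s34x_infRing O₂) S₂ 𝔫) hc
    rw [htR, map_zero] at this
    exact ht0 this
  have hgen1 : ∀ y ∈ (O₂ 1).nonunits, ∃ c ∈ O₂ 1,
      y = s34f_iota (s34x_infRing O₂) S₂ 𝔫 ℓ1 * c :=
    s36q_ker_gen_unif O₂ S₂ 𝔫 1 ℓ1 (algebraMap _ _ t) hℓ1 (hthru 1) (by rw [htR]; exact ht)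
      (by rw [htR]; exact htgen)
  have hord1 : ∀ Q ∈ S₂, s34f_through (s34x_infRing O₂) S₂ 𝔫 Q →
      Q.ord (s34f_iota (s34x_infRing O₂) S₂ 𝔫 ℓ1) = 0 := fun Q hQS hth =>
    s36q_ker_gen_ord O₂ S₂ 𝔫 1 ℓ1 (algebraMap _ _ pB) hℓ1 (by rw [hpR]; exact hγπ1)
      (by rw [hpR]; exact hγπ0) Q hQS hth (by rw [hpR]; exact hπord Q hQS)
  have hℓ0nunit : ¬ IsUnit ℓ0 := (mem_maximalIdeal _).mp hℓ0m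
  have hℓ2nunit : ¬ IsUnit ℓ2 := (mem_maximalIdeal _).mp hℓ2m
  have hℓ1_0 : (s34f_iota (s34x_infRing O₂) S₂ 𝔫 ℓ1)⁻¹ ∈ O₂ 0 :=
    s36q_ker_gen_unit O₂ S₂ 𝔫 1 0 (hthru 0) ℓ1 ℓ0 hℓ1 hK0' hℓ0_1 hℓ0nunit hℓ1ne
  have hℓ1_2 : (s34f_iota (s34x_infRing O₂) S₂ 𝔫 ℓ1)⁻¹ ∈ O₂ 2 :=
    s36q_ker_gen_unit O₂ S₂ 𝔫 1 2 (hthru 2) ℓ1 ℓ2 hℓ1 hK2' hℓ2_1 hℓ2nunit hℓ1ne
  have hℓ1m : ℓ1 ∈ maximalIdeal (Localization.AtPrime 𝔫) :=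
    s36q_red_ker_le O₂ S₂ 𝔫 1 (hthru 1) ℓ1
      ((s36q_red_eq_zero_iff O₂ S₂ 𝔫 1 (hthru 1) ℓ1).mpr hℓ1nu)
  -- (D) at `V_mid` along `γα` (generator `red ℓ2`) and along `γβ` (generator `red ℓ0`)
  have hD1α := s36q_D_chart O₁ O₂ S₁ S₂ γα hγα 𝔫 iI 1 hc1α (hthru 1) wα uα
    (by rw [hmα, Set.pair_comm]) huα hf1α
  have hD1β := s36q_D_chart O₁ O₂ S₁ S₂ γβ hγβ 𝔫 i0 1 hc1β (hthru 1) uβ wβ
    (by rw [hmβ, Set.pair_comm]) hwβ hf1β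
  have hm12 : maximalIdeal (Localization.AtPrime 𝔫) = Ideal.span {ℓ1, ℓ2} :=
    s36q_span_pair_of_KD O₂ S₂ 𝔫 1 (hthru 1) ℓ1 ℓ2 hℓ1m hℓ2m (fun z hz => (hℓ1 z).mp hz) hD1α
  have hm10 : maximalIdeal (Localization.AtPrime 𝔫) = Ideal.span {ℓ1, ℓ0} :=
    s36q_span_pair_of_KD O₂ S₂ 𝔫 1 (hthru 1) ℓ1 ℓ0 hℓ1m hℓ0m (fun z hz => (hℓ1 z).mp hz) hD1β
  -- assemble
  let ℓ : Fin 3 → Localization.AtPrime 𝔫 := ![ℓ0, ℓ1, ℓ2]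
  have hunit : ∀ i j : Fin 3, i ≠ j →
      (s34f_iota (s34x_infRing O₂) S₂ 𝔫 (ℓ i))⁻¹ ∈ O₂ j := by
    intro i j hij
    fin_cases i <;> fin_cases j
    · exact absurd rfl hij
    · exact hunit0 1 (by decide) (hthru 1)
    · exact hunit0 2 (by decide) (hthru 2)
    · exact hℓ1_0
    · exact absurd rfl hij
    · exact hℓ1_2
    · exact hunit2 0 (by decide) (hthru 0)
    · exact hunit2 1 (by decide) (hthru 1)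
    · exact absurd rfl hij
  have hgen : ∀ j : Fin 3, ∀ y ∈ (O₂ j).nonunits, ∃ c ∈ O₂ j,
      y = s34f_iota (s34x_infRing O₂) S₂ 𝔫 (ℓ j) * c := by
    intro j
    fin_cases j
    · exact hgen0
    · exact hgen1
    · exact hgen2
  have hord : ∀ j : Fin 3, ∀ Q ∈ S₂, s34f_through (s34x_infRing O₂) S₂ 𝔫 Q →
      Q.ord (s34f_iota (s34x_infRing O₂) S₂ 𝔫 (ℓ j)) = 0 := by
    intro j
    fin_cases j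
    · exact hord0
    · exact hord1
    · exact hord2
  have hℓne : ∀ j : Fin 3, ℓ j ≠ 0 := by
    intro j
    fin_cases j
    · exact hℓ0ne
    · exact hℓ1ne
    · exact hℓ2ne
  have hℓnu : ∀ j : Fin 3, s34f_iota (s34x_infRing O₂) S₂ 𝔫 (ℓ j) ∈ (O₂ j).nonunits := by
    intro j
    fin_cases j
    · exact hℓ0nu
    · exact hℓ1nu
    · exact hℓ2nu
  refine ⟨ℓ, ?_, hgen, hunit, hord, ?_, ?_, hprin, ⟨wα, hwα, rfl⟩, ⟨uβ, huβ, rfl⟩⟩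
  · intro j
    fin_cases j
    · exact hK0'
    · exact hℓ1
    · exact hK2'
  · intro i j hij
    fin_cases i <;> fin_cases j
    · exact absurd rfl hij
    · show _ = Ideal.span {ℓ0, ℓ1}; rw [hm10, Set.pair_comm]
    · show _ = Ideal.span {ℓ0, ℓ2}; rw [hm20, Set.pair_comm]
    · exact hm10
    · exact absurd rfl hij
    · exact hm12
    · exact hm20
    · show _ = Ideal.span {ℓ2, ℓ1}; rw [hm12, Set.pair_comm]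
    · exact absurd rfl hij
  · -- the factorisation of `π₂`
    obtain ⟨u, huO, huinv, hπt⟩ := hte
    have hιℓne : ∀ j : Fin 3, s34f_iota (s34x_infRing O₂) S₂ 𝔫 (ℓ j) ≠ 0 := fun j h =>
      hℓne j (s34f_iota_injective (s34x_infRing O₂) S₂ 𝔫 (by rw [h, map_zero]))
    have hp0 : algebraMap _ (Localization.AtPrime 𝔫) pB ≠ 0 := by
      intro h
      have := congrArg (s34f_iota (s34x_infRing O₂) S₂ 𝔫) h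
      rw [hpR, map_zero] at this
      exact hγπ0 this
    have hγπnu : ∀ j : Fin 3, γα π₁ ∈ (O₂ j).nonunits := by
      intro j
      fin_cases j
      · exact (s36q_nonunits_comap O₁ O₂ γα iI 0 hc0α π₁).mpr hπI.1
      · exact hγπ1
      · exact (s36q_nonunits_comap O₁ O₂ γα i0 2 hc2α π₁).mpr hπ0.1
    have hval0 : γα π₁ * (s34f_iota (s34x_infRing O₂) S₂ 𝔫 (ℓ 0) ^ 1)⁻¹ ∈ O₂ 0 ∧
        (γα π₁)⁻¹ * s34f_iota (s34x_infRing O₂) S₂ 𝔫 (ℓ 0) ^ 1 ∈ O₂ 0 := by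
      have := s36q_gen_ratio (O₂ 0) (γα π₁) _ (hγπnu 0) (hℓnu 0) hγπ0 (hιℓne 0) he0 (hgen 0)
      rw [pow_one]; exact this
    have hval2 : γα π₁ * (s34f_iota (s34x_infRing O₂) S₂ 𝔫 (ℓ 2) ^ 1)⁻¹ ∈ O₂ 2 ∧
        (γα π₁)⁻¹ * s34f_iota (s34x_infRing O₂) S₂ 𝔫 (ℓ 2) ^ 1 ∈ O₂ 2 := by
      have := s36q_gen_ratio (O₂ 2) (γα π₁) _ (hγπnu 2) (hℓnu 2) hγπ0 (hιℓne 2) he2 (hgen 2)
      rw [pow_one]; exact this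
    have hval1 : γα π₁ * (s34f_iota (s34x_infRing O₂) S₂ 𝔫 (ℓ 1) ^ e)⁻¹ ∈ O₂ 1 ∧
        (γα π₁)⁻¹ * s34f_iota (s34x_infRing O₂) S₂ 𝔫 (ℓ 1) ^ e ∈ O₂ 1 := by
      have hrt := s36q_gen_ratio (O₂ 1) (t : 𝓕₂) _ ht (hℓnu 1) ht0 (hιℓne 1) htgen (hgen 1)
      have hu0 : u ≠ 0 := by
        rintro rfl
        rw [zero_mul] at hπt
        exact hγπ0 hπt
      have hℓ1' : s34f_iota (s34x_infRing O₂) S₂ 𝔫 (ℓ 1) ≠ 0 := hιℓne 1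
      constructor
      · have : γα π₁ * (s34f_iota (s34x_infRing O₂) S₂ 𝔫 (ℓ 1) ^ e)⁻¹
            = u * ((t : 𝓕₂) * (s34f_iota (s34x_infRing O₂) S₂ 𝔫 (ℓ 1))⁻¹) ^ e := by
          rw [hπt, mul_pow, inv_pow]; ring
        rw [this]
        exact (O₂ 1).mul_mem _ _ huO ((O₂ 1).pow_mem hrt.1 _)
      · have : (γα π₁)⁻¹ * s34f_iota (s34x_infRing O₂) S₂ 𝔫 (ℓ 1) ^ e
            = u⁻¹ * ((t : 𝓕₂)⁻¹ * s34f_iota (s34x_infRing O₂) S₂ 𝔫 (ℓ 1)) ^ e := by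
          rw [hπt, mul_pow, mul_inv, inv_pow]; ring
        rw [this]
        exact (O₂ 1).mul_mem _ _ huinv ((O₂ 1).pow_mem hrt.2 _)
    obtain ⟨v, hv, hfac⟩ := s36q_unit_factor O₂ S₂ 𝔫 hA Finset.univ
      (fun i _ => Finset.mem_univ i) (algebraMap _ _ pB) ℓ ![1, e, 1] hp0
      (fun i _ => hℓne i) (by
        intro i _
        rw [hpR]
        fin_cases i
        · exact hval0
        · exact hval1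
        · exact hval2)
      (fun i _ j _ hij => ⟨s36q_iota_mem_comp O₂ S₂ 𝔫 j (hthru j) _, hunit i j hij⟩)
      (fun i _ => hord i) (fun Q hQS _ => by rw [hpR]; exact hπord Q hQS) hfin
    refine ⟨v, hv, ?_⟩
    rw [hfac, Fin.prod_univ_three]
    simp only [Matrix.cons_val_zero, Matrix.cons_val_one, Matrix.cons_val_two, Matrix.head_cons,
      Matrix.tail_cons, pow_one]

end Fermat.Agent.Lib.S36
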