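/-
S36 mega-project, layer (R2) (helper5), part 12: **the fibre of a degeneracy map over a regular
crossing is ONE point** ((II) of board #1718/[S4]).

Two-level frame (`QTwo.lean`).  `𝔫` a prime of `B₂` whose image `γ⁻¹𝔫` is a regular crossing of the
components `i₁`, `i₂` of level `q`; `j` the unique component of level `q²` over `i₂`
(`(O₂ j).comap γ = O₁ i₂`, all the others restrict to `O₁ i₁`), purely inseparable of exponent `q`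
over `i₂` (`hfracq`).  Then
* `s36q_comp_through_of_cross` : the component `j` passes through EVERY prime `𝔫₂` of `B₂` with
  `γ⁻¹𝔫₂ = γ⁻¹𝔫` (the branch equation of `i₂` is a non-unit at `𝔫₂`, has no horizontal zero, and is
  a unit of the components over `i₁`);
* `s36q_fibre_le`     : `𝔫 ≤ 𝔫₂` for every such `𝔫₂` (purely inseparable ⇒ injective on points);
* `s36q_fibre_unique` : if `𝔫` is maximal, `𝔫₂ = 𝔫`.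
-/
import Fermat.Agent.Lib.S36.QTriple2

set_option autoImplicit false

noncomputable section

namespace Fermat.Agent.Lib.S36

open AlgebraicCurve Fermat.Agent.Lib.FF Fermat.Agent.Lib.S18 Fermat.Agent.Lib.S34 IsLocalRing

variable {L₀ 𝓕₁ 𝓕₂ : Type*} [Field L₀] [Field 𝓕₁] [Field 𝓕₂] [Algebra L₀ 𝓕₁] [Algebra L₀ 𝓕₂]
variable {ι₁ ι₂ : Type*} [Fintype ι₂] (O₁ : ι₁ → ValuationSubring 𝓕₁)
  (O₂ : ι₂ → ValuationSubring 𝓕₂)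
  (S₁ : Set (Place L₀ 𝓕₁)) (S₂ : Set (Place L₀ 𝓕₂)) (γ : 𝓕₁ →+* 𝓕₂)
  (hγ : ∀ b ∈ s34x_ring (s34x_infRing O₁) S₁, γ b ∈ s34x_ring (s34x_infRing O₂) S₂)
  (𝔫 : Ideal (s34x_ring (s34x_infRing O₂) S₂)) [h𝔫 : 𝔫.IsPrime]

/-- the order at a place through `𝔫₂` of the image of an element outside `γ⁻¹𝔫₂` is zero. -/
theorem s36q_ord_chartMap_eq_zero (s : s34x_ring (s34x_infRing O₁) S₁)
    (hs : s ∉ s36q_pt O₁ O₂ S₁ S₂ γ hγ 𝔫) (Q : Place L₀ 𝓕₂) (hQS : Q ∈ S₂)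
    (hth : s34f_through (s34x_infRing O₂) S₂ 𝔫 Q) : Q.ord (γ (s : 𝓕₁)) = 0 := by
  have h1 := s34x_ord_nonneg_of_mem_ring (s34x_infRing O₂) S₂
    (s36q_chartMap O₁ O₂ S₁ S₂ γ hγ s) Q hQS
  rw [s36q_chartMap_coe] at h1
  by_contra hne
  have hpos : 0 < Q.ord (γ (s : 𝓕₁)) := lt_of_le_of_ne h1 (Ne.symm hne)
  have hγs0 : γ (s : 𝓕₁) ≠ 0 := by
    intro h0
    rw [h0, Place.ord_zero] at hpos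
    exact lt_irrefl _ hpos
  exact hs (hth (s36q_chartMap O₁ O₂ S₁ S₂ γ hγ s) (by rwa [s36q_chartMap_coe])
    (by rwa [s36q_chartMap_coe]))

variable (𝔫₂ : Ideal (s34x_ring (s34x_infRing O₂) S₂)) [h𝔫₂ : 𝔫₂.IsPrime]

/-- **the component over `i₂` passes through every point over a regular crossing.** -/
theorem s36q_comp_through_of_cross (hA : s36q_Arch O₂)
    (hfin : ∀ y : 𝓕₂, y ≠ 0 → {Q : Place L₀ 𝓕₂ | Q ∈ S₂ ∧ Q.ord y ≠ 0}.Finite)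
    (i₁ i₂ : ι₁) (j : ι₂) (π₁ : 𝓕₁) (hπ₁0 : π₁ ≠ 0)
    (hπ₁ : ∀ y ∈ (O₁ i₁).nonunits, ∃ c ∈ O₁ i₁, y = π₁ * c)
    (hother : ∀ j', j' ≠ j → ∀ x : 𝓕₁, γ x ∈ O₂ j' ↔ x ∈ O₁ i₁)
    (hπord : ∀ Q ∈ S₂, Q.ord (γ π₁) = 0)
    (hi₁ : s36q_compThrough O₁ S₁ (s36q_pt O₁ O₂ S₁ S₂ γ hγ 𝔫) i₁)
    (hX : s36q_RegCross O₁ S₁ (s36q_pt O₁ O₂ S₁ S₂ γ hγ 𝔫) i₁ i₂ π₁)
    (hover : s36q_pt O₁ O₂ S₁ S₂ γ hγ 𝔫₂ = s36q_pt O₁ O₂ S₁ S₂ γ hγ 𝔫) :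
    s36q_compThrough O₂ S₂ 𝔫₂ j := by
  classical
  obtain ⟨u, w, β, hβ, hu, hw, huw, hm⟩ := hX
  -- global representatives
  obtain ⟨u₁, su, hsu, hu₁⟩ := s34f_exists_frac (s34x_infRing O₁) S₁ _ u
  obtain ⟨w₁, sw, hsw, hw₁⟩ := s34f_exists_frac (s34x_infRing O₁) S₁ _ w
  obtain ⟨β₁, sβ, hsβ, hβ₁⟩ := s34f_exists_frac (s34x_infRing O₁) S₁ _ β
  have eu := congrArg (s34f_iota (s34x_infRing O₁) S₁ (s36q_pt O₁ O₂ S₁ S₂ γ hγ 𝔫)) hu₁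
  have ew := congrArg (s34f_iota (s34x_infRing O₁) S₁ (s36q_pt O₁ O₂ S₁ S₂ γ hγ 𝔫)) hw₁
  have eβ := congrArg (s34f_iota (s34x_infRing O₁) S₁ (s36q_pt O₁ O₂ S₁ S₂ γ hγ 𝔫)) hβ₁
  rw [map_mul, s34f_iota_algebraMap, s34f_iota_algebraMap] at eu ew eβ
  -- `β₁ ∉ pt`
  have hβ₁pt : β₁ ∉ s36q_pt O₁ O₂ S₁ S₂ γ hγ 𝔫 := by
    intro hmem
    have h1 : algebraMap _ (Localization.AtPrime (s36q_pt O₁ O₂ S₁ S₂ γ hγ 𝔫)) β₁ ∈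
        maximalIdeal (Localization.AtPrime (s36q_pt O₁ O₂ S₁ S₂ γ hγ 𝔫)) := by
      rw [← Localization.AtPrime.under_maximalIdeal (I := s36q_pt O₁ O₂ S₁ S₂ γ hγ 𝔫)] at hmem
      exact hmem
    rw [← hβ₁] at h1
    have hunit : IsUnit (β * algebraMap _ (Localization.AtPrime (s36q_pt O₁ O₂ S₁ S₂ γ hγ 𝔫)) sβ) :=
      hβ.mul (IsLocalization.map_units _ (⟨sβ, hsβ⟩ : (s36q_pt O₁ O₂ S₁ S₂ γ hγ 𝔫).primeCompl))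
    exact (mem_maximalIdeal _).mp h1 hunit
  -- the relation `u₁ w₁ sβ = π₁ β₁ su sw` in `𝓕₁`
  have hrel : (u₁ : 𝓕₁) * (w₁ : 𝓕₁) * (sβ : 𝓕₁) = π₁ * (β₁ : 𝓕₁) * (su : 𝓕₁) * (sw : 𝓕₁) := by
    rw [← eu, ← ew, ← eβ]
    linear_combination ((su : 𝓕₁) * (sw : 𝓕₁) * (sβ : 𝓕₁)) * huw
  -- `w₁ ∈ pt 𝔫 = pt 𝔫₂`
  have hw₁nu : (w₁ : 𝓕₁) ∈ (O₁ i₂).nonunits := by
    rw [← ew]
    rw [(O₁ i₂).mem_nonunits_iff] at hw ⊢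
    rw [map_mul]
    have hsw' : (O₁ i₂).valuation (sw : 𝓕₁) ≤ 1 :=
      ((O₁ i₂).valuation_le_one_iff _).mpr ((s34x_mem_infRing O₁ _).mp sw.2.1 i₂)
    calc _ ≤ (O₁ i₂).valuation (s34f_iota (s34x_infRing O₁) S₁ _ w) * 1 := by gcongr
      _ < 1 := by rw [mul_one]; exact hw
  have hwm : w ∈ maximalIdeal (Localization.AtPrime (s36q_pt O₁ O₂ S₁ S₂ γ hγ 𝔫)) := by
    rw [hm]; exact Ideal.subset_span (by simp)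
  have hw₁pt : w₁ ∈ s36q_pt O₁ O₂ S₁ S₂ γ hγ 𝔫 := by
    rw [← Localization.AtPrime.under_maximalIdeal (I := s36q_pt O₁ O₂ S₁ S₂ γ hγ 𝔫)]
    show algebraMap _ _ w₁ ∈ maximalIdeal _
    rw [← hw₁]
    exact Ideal.mul_mem_right _ _ hwm
  have hw₁𝔫₂ : s36q_chartMap O₁ O₂ S₁ S₂ γ hγ w₁ ∈ 𝔫₂ := by
    have : w₁ ∈ s36q_pt O₁ O₂ S₁ S₂ γ hγ 𝔫₂ := by rw [hover]; exact hw₁pt
    exact this
  -- the facts at level `q`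
  obtain ⟨_, hwinv⟩ := s36q_cross_facts O₁ S₁ (s36q_pt O₁ O₂ S₁ S₂ γ hγ 𝔫) i₁ hi₁ u w β hβ π₁
    hπ₁0 huw hπ₁ hu
  -- `w₁ ≠ 0`
  have hβ₁0 : (β₁ : 𝓕₁) ≠ 0 := by
    intro h0
    apply hβ₁pt
    have : β₁ = 0 := Subtype.ext h0
    rw [this]; exact Ideal.zero_mem _
  have hs0 : ∀ s : s34x_ring (s34x_infRing O₁) S₁, s ∉ s36q_pt O₁ O₂ S₁ S₂ γ hγ 𝔫 →
      (s : 𝓕₁) ≠ 0 := by
    intro s hs h0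
    apply hs
    have : s = 0 := Subtype.ext h0
    rw [this]; exact Ideal.zero_mem _
  have hrhs0 : π₁ * (β₁ : 𝓕₁) * (su : 𝓕₁) * (sw : 𝓕₁) ≠ 0 :=
    mul_ne_zero (mul_ne_zero (mul_ne_zero hπ₁0 hβ₁0) (hs0 su hsu)) (hs0 sw hsw)
  have hu₁0 : (u₁ : 𝓕₁) ≠ 0 := by
    intro h0; rw [h0, zero_mul, zero_mul] at hrel; exact hrhs0 hrel.symm
  have hw₁0 : (w₁ : 𝓕₁) ≠ 0 := by
    intro h0; rw [h0, mul_zero, zero_mul] at hrel; exact hrhs0 hrel.symm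
  -- the image of `w₁` in `(B₂)_{𝔫₂}` is a nonzero non-unit
  set z := algebraMap _ (Localization.AtPrime 𝔫₂) (s36q_chartMap O₁ O₂ S₁ S₂ γ hγ w₁) with hz
  have hιz : s34f_iota (s34x_infRing O₂) S₂ 𝔫₂ z = γ (w₁ : 𝓕₁) := by
    rw [hz, s34f_iota_algebraMap, s36q_chartMap_coe]
  have hγw₁0 : γ (w₁ : 𝓕₁) ≠ 0 := by rwa [Ne, map_eq_zero]
  have hz0 : z ≠ 0 := by
    intro h0
    rw [h0, map_zero] at hιz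
    exact hγw₁0 hιz.symm
  have hznu : ¬ IsUnit z := by
    have : z ∈ maximalIdeal (Localization.AtPrime 𝔫₂) := by
      rw [← Localization.AtPrime.under_maximalIdeal (I := 𝔫₂)] at hw₁𝔫₂
      exact hw₁𝔫₂
    exact (mem_maximalIdeal _).mp this
  have hpt₂ : ∀ s : s34x_ring (s34x_infRing O₁) S₁, s ∉ s36q_pt O₁ O₂ S₁ S₂ γ hγ 𝔫 →
      s ∉ s36q_pt O₁ O₂ S₁ S₂ γ hγ 𝔫₂ := fun s hs => by rw [hover]; exact hs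
  rcases s36q_nonunit_vanishes O₂ S₂ 𝔫₂ hA z hz0 hznu (hfin _ (by rw [hιz]; exact hγw₁0)) with
    ⟨j', hj', hzj'⟩ | ⟨Q, hQS, hth, hpos⟩
  · -- vertical: `j' = j`
    by_cases hjj : j' = j
    · rw [← hjj]; exact hj'
    · exfalso
      rw [hιz] at hzj'
      have hc' := hother j' hjj
      have hw₁i₁ : (w₁ : 𝓕₁) ∈ (O₁ i₁).nonunits :=
        (s36q_nonunits_comap O₁ O₂ γ i₁ j' hc' _).mp hzj'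
      -- but `w₁ = ι w * sw` is a unit of `O₁ i₁`
      have hswinv : ((sw : 𝓕₁))⁻¹ ∈ O₁ i₁ := by
        by_contra hno
        exact hsw (hi₁ sw (((O₁ i₁).mem_nonunits_iff_or).mpr (Or.inr hno)))
      have : ((w₁ : 𝓕₁))⁻¹ ∈ O₁ i₁ := by
        rw [← ew, mul_inv]
        exact (O₁ i₁).mul_mem _ _ hwinv hswinv
      rcases ((O₁ i₁).mem_nonunits_iff_or).mp hw₁i₁ with h | h
      · exact hw₁0 h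
      · exact h this
  · -- horizontal: impossible
    exfalso
    rw [hιz] at hpos
    have hord : ∀ s : s34x_ring (s34x_infRing O₁) S₁, s ∉ s36q_pt O₁ O₂ S₁ S₂ γ hγ 𝔫 →
        Q.ord (γ (s : 𝓕₁)) = 0 := fun s hs =>
      s36q_ord_chartMap_eq_zero O₁ O₂ S₁ S₂ γ hγ 𝔫₂ s (hpt₂ s hs) Q hQS hth
    have h1 := congrArg γ hrel
    simp only [map_mul] at h1
    have hγ0 : ∀ x : 𝓕₁, x ≠ 0 → γ x ≠ 0 := fun x hx => by rwa [Ne, map_eq_zero]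
    have h2 : Q.ord (γ (u₁ : 𝓕₁) * γ (w₁ : 𝓕₁) * γ (sβ : 𝓕₁)) =
        Q.ord (γ (u₁ : 𝓕₁)) + Q.ord (γ (w₁ : 𝓕₁)) + Q.ord (γ (sβ : 𝓕₁)) := by
      rw [Q.ord_mul (mul_ne_zero (hγ0 _ hu₁0) (hγ0 _ hw₁0)) (hγ0 _ (hs0 sβ hsβ)),
        Q.ord_mul (hγ0 _ hu₁0) (hγ0 _ hw₁0)]
    have h3 : Q.ord (γ π₁ * γ (β₁ : 𝓕₁) * γ (su : 𝓕₁) * γ (sw : 𝓕₁)) =
        Q.ord (γ π₁) + Q.ord (γ (β₁ : 𝓕₁)) + Q.ord (γ (su : 𝓕₁)) + Q.ord (γ (sw : 𝓕₁)) := by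
      rw [Q.ord_mul (mul_ne_zero (mul_ne_zero (hγ0 _ hπ₁0) (hγ0 _ hβ₁0)) (hγ0 _ (hs0 su hsu)))
          (hγ0 _ (hs0 sw hsw)),
        Q.ord_mul (mul_ne_zero (hγ0 _ hπ₁0) (hγ0 _ hβ₁0)) (hγ0 _ (hs0 su hsu)),
        Q.ord_mul (hγ0 _ hπ₁0) (hγ0 _ hβ₁0)]
    rw [h1, h3, hπord Q hQS, hord β₁ hβ₁pt, hord su hsu, hord sw hsw] at h2
    rw [hord sβ hsβ] at h2
    have h4 := s34x_ord_nonneg_of_mem_ring (s34x_infRing O₂) S₂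
      (s36q_chartMap O₁ O₂ S₁ S₂ γ hγ u₁) Q hQS
    rw [s36q_chartMap_coe] at h4
    omega

/-- **purely inseparable ⇒ injective on points**, one inclusion.  `𝔫`, `𝔫₂` primes of `B₂` over the same
point `𝔭` of `B₁` with `𝔪_𝔭 = (u', w')`, `w'` a non-unit of the component `i₂`; `j` over `i₂` purely
inseparable of exponent `q`, through both `𝔫` and `𝔫₂`.  Then `𝔫 ≤ 𝔫₂`. -/
theorem s36q_fibre_le [hB₁ : IsNoetherianRing (s34x_ring (s34x_infRing O₁) S₁)]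
    (𝔭 : Ideal (s34x_ring (s34x_infRing O₁) S₁)) [h𝔭 : 𝔭.IsPrime]
    (h1 : s36q_pt O₁ O₂ S₁ S₂ γ hγ 𝔫 = 𝔭) (h2 : s36q_pt O₁ O₂ S₁ S₂ γ hγ 𝔫₂ = 𝔭)
    (i₂ : ι₁) (j : ι₂) (hcomap : ∀ x : 𝓕₁, γ x ∈ O₂ j ↔ x ∈ O₁ i₂)
    (hj : s36q_compThrough O₂ S₂ 𝔫 j) (hj₂ : s36q_compThrough O₂ S₂ 𝔫₂ j)
    (u' w' : Localization.AtPrime 𝔭)
    (hm' : maximalIdeal (Localization.AtPrime 𝔭) = Ideal.span {u', w'})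
    (hw' : s34f_iota (s34x_infRing O₁) S₁ 𝔭 w' ∈ (O₁ i₂).nonunits)
    (q : ℕ) (hq : 0 < q)
    (hfracq : ∀ y ∈ O₂ j, ∃ b c : s34x_ring (s34x_infRing O₁) S₁,
      (c : 𝓕₁) ∉ (O₁ i₂).nonunits ∧ y ^ q * γ (c : 𝓕₁) - γ (b : 𝓕₁) ∈ (O₂ j).nonunits) :
    𝔫 ≤ 𝔫₂ := by
  subst h1
  intro b hb
  obtain ⟨c', hc'⟩ := s36q_S2_chart O₁ O₂ S₁ S₂ γ hγ 𝔫 i₂ j hcomap hj u' w' hm' hw' q hfracq
    (algebraMap _ _ b)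
  rw [s34f_iota_algebraMap] at hc'
  obtain ⟨c₁, c₂, hc₂, hc₁⟩ := s34f_exists_frac (s34x_infRing O₁) S₁ _ c'
  have e := congrArg (s34f_iota (s34x_infRing O₁) S₁ (s36q_pt O₁ O₂ S₁ S₂ γ hγ 𝔫)) hc₁
  rw [map_mul, s34f_iota_algebraMap, s34f_iota_algebraMap] at e
  -- `d = b ^ q * χ c₂ - χ c₁` is a non-unit of `O₂ j`
  set d : s34x_ring (s34x_infRing O₂) S₂ :=
    b ^ q * s36q_chartMap O₁ O₂ S₁ S₂ γ hγ c₂ - s36q_chartMap O₁ O₂ S₁ S₂ γ hγ c₁ with hd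
  have hdcoe : (d : 𝓕₂) = ((b : 𝓕₂) ^ q -
      γ (s34f_iota (s34x_infRing O₁) S₁ (s36q_pt O₁ O₂ S₁ S₂ γ hγ 𝔫) c')) * γ (c₂ : 𝓕₁) := by
    rw [hd]
    push_cast
    rw [s36q_chartMap_coe, s36q_chartMap_coe, ← e, map_mul]
    ring
  have hc₂j : γ (c₂ : 𝓕₁) ∈ O₂ j :=
    (hcomap _).mpr ((s34x_mem_infRing O₁ _).mp c₂.2.1 i₂)
  have hdnu : (d : 𝓕₂) ∈ (O₂ j).nonunits := by
    rw [hdcoe]
    rw [(O₂ j).mem_nonunits_iff] at hc' ⊢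
    rw [map_mul]
    have h3 : (O₂ j).valuation (γ (c₂ : 𝓕₁)) ≤ 1 := ((O₂ j).valuation_le_one_iff _).mpr hc₂j
    calc _ ≤ (O₂ j).valuation ((b : 𝓕₂) ^ q -
          γ (s34f_iota (s34x_infRing O₁) S₁ (s36q_pt O₁ O₂ S₁ S₂ γ hγ 𝔫) c')) * 1 := by gcongr
      _ < 1 := by rw [mul_one]; exact hc'
  have hd𝔫 : d ∈ 𝔫 := hj d hdnu
  have hd𝔫₂ : d ∈ 𝔫₂ := hj₂ d hdnu
  -- `χ c₁ ∈ 𝔫`
  have hc₁𝔫 : s36q_chartMap O₁ O₂ S₁ S₂ γ hγ c₁ ∈ 𝔫 := by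
    have h4 : s36q_chartMap O₁ O₂ S₁ S₂ γ hγ c₁ =
        b ^ q * s36q_chartMap O₁ O₂ S₁ S₂ γ hγ c₂ - d := by rw [hd]; ring
    rw [h4]
    exact Ideal.sub_mem _ (Ideal.mul_mem_right _ _ (Ideal.pow_mem_of_mem _ hb q hq)) hd𝔫
  have hc₁𝔫₂ : s36q_chartMap O₁ O₂ S₁ S₂ γ hγ c₁ ∈ 𝔫₂ := by
    have : c₁ ∈ s36q_pt O₁ O₂ S₁ S₂ γ hγ 𝔫₂ := by rw [h2]; exact hc₁𝔫
    exact this
  have hc₂𝔫₂ : s36q_chartMap O₁ O₂ S₁ S₂ γ hγ c₂ ∉ 𝔫₂ := by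
    intro hmem
    have : c₂ ∈ s36q_pt O₁ O₂ S₁ S₂ γ hγ 𝔫₂ := hmem
    rw [h2] at this
    exact hc₂ this
  have h5 : b ^ q * s36q_chartMap O₁ O₂ S₁ S₂ γ hγ c₂ ∈ 𝔫₂ := by
    have h6 : b ^ q * s36q_chartMap O₁ O₂ S₁ S₂ γ hγ c₂ =
        d + s36q_chartMap O₁ O₂ S₁ S₂ γ hγ c₁ := by rw [hd]; ring
    rw [h6]
    exact Ideal.add_mem _ hd𝔫₂ hc₁𝔫₂
  rcases h𝔫₂.mem_or_mem h5 with h7 | h7
  · exact h𝔫₂.mem_of_pow_mem q h7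
  · exact absurd h7 hc₂𝔫₂

/-- **the fibre of a degeneracy map over a regular crossing is ONE point**: if the image of `𝔫` is a
regular crossing of `i₁`, `i₂`, the component `j` is the only one over `i₂` and is purely inseparable
of exponent `q` over it, then every prime `𝔫₂` of `B₂` with the same image is `𝔫`. -/
theorem s36q_fibre_unique [hB₁ : IsNoetherianRing (s34x_ring (s34x_infRing O₁) S₁)]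
    (hA : s36q_Arch O₂)
    (hfin : ∀ y : 𝓕₂, y ≠ 0 → {Q : Place L₀ 𝓕₂ | Q ∈ S₂ ∧ Q.ord y ≠ 0}.Finite)
    (i₁ i₂ : ι₁) (j : ι₂) (π₁ : 𝓕₁) (hπ₁0 : π₁ ≠ 0)
    (hπ₁ : ∀ y ∈ (O₁ i₁).nonunits, ∃ c ∈ O₁ i₁, y = π₁ * c)
    (hcomap : ∀ x : 𝓕₁, γ x ∈ O₂ j ↔ x ∈ O₁ i₂)
    (hother : ∀ j', j' ≠ j → ∀ x : 𝓕₁, γ x ∈ O₂ j' ↔ x ∈ O₁ i₁)
    (hπord : ∀ Q ∈ S₂, Q.ord (γ π₁) = 0)
    (hi₁ : s36q_compThrough O₁ S₁ (s36q_pt O₁ O₂ S₁ S₂ γ hγ 𝔫) i₁)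
    (hX : s36q_RegCross O₁ S₁ (s36q_pt O₁ O₂ S₁ S₂ γ hγ 𝔫) i₁ i₂ π₁)
    (q : ℕ) (hq : 0 < q)
    (hfracq : ∀ y ∈ O₂ j, ∃ b c : s34x_ring (s34x_infRing O₁) S₁,
      (c : 𝓕₁) ∉ (O₁ i₂).nonunits ∧ y ^ q * γ (c : 𝓕₁) - γ (b : 𝓕₁) ∈ (O₂ j).nonunits)
    (hover : s36q_pt O₁ O₂ S₁ S₂ γ hγ 𝔫₂ = s36q_pt O₁ O₂ S₁ S₂ γ hγ 𝔫) :
    𝔫₂ = 𝔫 := by
  have hj : s36q_compThrough O₂ S₂ 𝔫 j :=
    s36q_comp_through_of_cross O₁ O₂ S₁ S₂ γ hγ 𝔫 𝔫 hA hfin i₁ i₂ j π₁ hπ₁0 hπ₁ hother hπord hi₁ hX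
      rfl
  have hj₂ : s36q_compThrough O₂ S₂ 𝔫₂ j :=
    s36q_comp_through_of_cross O₁ O₂ S₁ S₂ γ hγ 𝔫 𝔫₂ hA hfin i₁ i₂ j π₁ hπ₁0 hπ₁ hother hπord hi₁ hX
      hover
  obtain ⟨u, w, β, -, -, hw, -, hm⟩ := hX
  exact le_antisymm
    (s36q_fibre_le O₁ O₂ S₁ S₂ γ hγ 𝔫₂ 𝔫 _ hover rfl i₂ j hcomap hj₂ hj u w hm hw q hq hfracq)
    (s36q_fibre_le O₁ O₂ S₁ S₂ γ hγ 𝔫 𝔫₂ _ rfl hover i₂ j hcomap hj hj₂ u w hm hw q hq hfracq)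

end Fermat.Agent.Lib.S36
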