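/-
S36 mega-project, layer (R2) (helper5), part 13: **norms of local units are local units** ([S4] of
board #1718).

Two-level frame (`QTwo.lean`), `𝔫` a prime of `B₂`, `𝔭 = γ⁻¹𝔫`, `R = (B₂)_𝔫`, `R' = (B₁)_𝔭`.
Hypotheses: (INT) `B₂` integral over `γ(B₁)` (`(s36q_chartMap …).IsIntegral`) and
(FIB) `𝔫` is the only prime of `B₂` over `𝔭` (`s36q_fibre_unique`).

* `s36q_mem_of_isIntegralElem`   : valuation subrings are integrally closed (ring-hom form);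
* `s36q_iota_of_isIntegralElem`  : (IC) `x : 𝓕` integral over `ι(B_𝔫)` lies in `ι(B_𝔫)`;
* `s36q_exists_mul_eq_chart`     : (INT) + (FIB) ⇒ every `s ∉ 𝔫` divides some `χ c`, `c ∉ 𝔭`;
* `s36q_iota_isIntegralElem`     : `ι₂ z` is integral over `R'` (via `γ ∘ ι₁`) for every `z : R`;
* `s36q_norm_mem_iota`           : `N(ι₂ z) ∈ ι₁(R')`;
* `s36q_norm_unit`               : `N(ι₂ u) ∈ ι₁(R'ˣ)` for `u ∈ Rˣ`;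
* `s36q_norm_unit_ord`           : **[S4]** `ord_{Q'} N(ι₂ u) = 0` for the places `Q'` through `𝔭`.
-/
import Fermat.Agent.Lib.S36.QFibre

set_option autoImplicit false

noncomputable section

namespace Fermat.Agent.Lib.S36

open AlgebraicCurve Fermat.Agent.Lib.FF Fermat.Agent.Lib.S18 Fermat.Agent.Lib.S34 IsLocalRing

/-- valuation subrings are integrally closed, ring-hom form. -/
theorem s36q_mem_of_isIntegralElem {R K : Type*} [CommRing R] [Field K] (V : ValuationSubring K)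
    (f : R →+* K) (hf : ∀ r, f r ∈ V) (x : K) (hx : f.IsIntegralElem x) : x ∈ V := by
  obtain ⟨p, hp, hpx⟩ := hx
  have h1 : IsIntegral V x := by
    refine ⟨p.map (f.codRestrict V hf), hp.map _, ?_⟩
    rw [Polynomial.eval₂_map]
    exact hpx
  obtain ⟨y, hy⟩ := IsIntegrallyClosed.isIntegral_iff.mp h1
  rw [← hy]
  exact y.2

section OneLevel

variable {L₀ 𝓕 : Type*} [Field L₀] [Field 𝓕] [Algebra L₀ 𝓕]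
variable {ι : Type*} [Fintype ι] (O : ι → ValuationSubring 𝓕) (S : Set (Place L₀ 𝓕))
  (𝔫 : Ideal (s34x_ring (s34x_infRing O) S)) [h𝔫 : 𝔫.IsPrime]

/-- **(IC)**: `B_𝔫` is integrally closed in `𝓕` (element form). -/
theorem s36q_iota_of_isIntegralElem (hA : s36q_Arch O)
    (hfin : ∀ y : 𝓕, y ≠ 0 → {Q : Place L₀ 𝓕 | Q ∈ S ∧ Q.ord y ≠ 0}.Finite)
    (x : 𝓕) (hx : (s34f_iota (s34x_infRing O) S 𝔫).IsIntegralElem x) :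
    ∃ z : Localization.AtPrime 𝔫, s34f_iota (s34x_infRing O) S 𝔫 z = x := by
  by_cases hx0 : x = 0
  · exact ⟨0, by rw [hx0, map_zero]⟩
  refine s36q_exists_iota_eq O S 𝔫 hA x ?_ ?_ ?_
  · intro i hi
    exact s36q_mem_of_isIntegralElem (O i) _ (fun r => s36q_iota_mem_comp O S 𝔫 i hi r) x hx
  · intro Q hQS hth
    have hmem : x ∈ Q.toValuationSubring := by
      refine s36q_mem_of_isIntegralElem Q.toValuationSubring _ (fun r => ?_) x hx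
      by_cases hr0 : s34f_iota (s34x_infRing O) S 𝔫 r = 0
      · rw [hr0]; exact Subring.zero_mem _
      · exact (ff_mem_iff_ord_nonneg Q hr0).mpr
          (s34f_iota_ord_nonneg (s34x_infRing O) S 𝔫 r Q hQS hth)
    exact (ff_mem_iff_ord_nonneg Q hx0).mp hmem
  · refine (hfin x hx0).subset fun Q hQ => ⟨hQ.1, fun h => ?_⟩
    have h2 : Q.ord x < 0 := hQ.2
    rw [h] at h2
    exact lt_irrefl _ h2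

end OneLevel

variable {L₀ 𝓕₁ 𝓕₂ : Type*} [Field L₀] [Field 𝓕₁] [Field 𝓕₂] [Algebra L₀ 𝓕₁] [Algebra L₀ 𝓕₂]
variable {ι₁ ι₂ : Type*} (O₁ : ι₁ → ValuationSubring 𝓕₁) (O₂ : ι₂ → ValuationSubring 𝓕₂)
  (S₁ : Set (Place L₀ 𝓕₁)) (S₂ : Set (Place L₀ 𝓕₂)) (γ : 𝓕₁ →+* 𝓕₂)
  (hγ : ∀ b ∈ s34x_ring (s34x_infRing O₁) S₁, γ b ∈ s34x_ring (s34x_infRing O₂) S₂)
  (𝔫 : Ideal (s34x_ring (s34x_infRing O₂) S₂)) [h𝔫 : 𝔫.IsPrime]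

/-- (INT) + (FIB) ⇒ every `s ∉ 𝔫` divides the image of some `c ∉ γ⁻¹𝔫`. -/
theorem s36q_exists_mul_eq_chart (hint : (s36q_chartMap O₁ O₂ S₁ S₂ γ hγ).IsIntegral)
    (hfib : ∀ 𝔫₂ : Ideal (s34x_ring (s34x_infRing O₂) S₂), 𝔫₂.IsPrime →
      s36q_pt O₁ O₂ S₁ S₂ γ hγ 𝔫₂ = s36q_pt O₁ O₂ S₁ S₂ γ hγ 𝔫 → 𝔫₂ = 𝔫)
    (s : s34x_ring (s34x_infRing O₂) S₂) (hs : s ∉ 𝔫) :
    ∃ (b : s34x_ring (s34x_infRing O₂) S₂) (c : s34x_ring (s34x_infRing O₁) S₁),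
      c ∉ s36q_pt O₁ O₂ S₁ S₂ γ hγ 𝔫 ∧ s * b = s36q_chartMap O₁ O₂ S₁ S₂ γ hγ c := by
  by_contra hno
  push Not at hno
  letI : Algebra (s34x_ring (s34x_infRing O₁) S₁) (s34x_ring (s34x_infRing O₂) S₂) :=
    (s36q_chartMap O₁ O₂ S₁ S₂ γ hγ).toAlgebra
  haveI : Algebra.IsIntegral (s34x_ring (s34x_infRing O₁) S₁) (s34x_ring (s34x_infRing O₂) S₂) :=
    ⟨hint⟩
  obtain ⟨Q, hQs, hQp, hQ⟩ := Ideal.exists_ideal_over_prime_of_isIntegral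
    (s36q_pt O₁ O₂ S₁ S₂ γ hγ 𝔫) (Ideal.span {s}) (by
      intro c hc
      by_contra hc𝔭
      obtain ⟨b, hb⟩ := Ideal.mem_span_singleton'.mp (Ideal.mem_comap.mp hc)
      exact hno b c hc𝔭 (by rw [mul_comm]; exact hb))
  have hQ𝔫 : Q = 𝔫 := hfib Q hQp hQ
  apply hs
  rw [← hQ𝔫]
  exact hQs (Ideal.subset_span rfl)

/-- (INT) + (FIB) ⇒ `(B₂)_𝔫` is integral over `(B₁)_{γ⁻¹𝔫}` (inside `𝓕₂`). -/
theorem s36q_iota_isIntegralElem (hint : (s36q_chartMap O₁ O₂ S₁ S₂ γ hγ).IsIntegral)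
    (hfib : ∀ 𝔫₂ : Ideal (s34x_ring (s34x_infRing O₂) S₂), 𝔫₂.IsPrime →
      s36q_pt O₁ O₂ S₁ S₂ γ hγ 𝔫₂ = s36q_pt O₁ O₂ S₁ S₂ γ hγ 𝔫 → 𝔫₂ = 𝔫)
    (z : Localization.AtPrime 𝔫) :
    (γ.comp (s34f_iota (s34x_infRing O₁) S₁ (s36q_pt O₁ O₂ S₁ S₂ γ hγ 𝔫))).IsIntegralElem
      (s34f_iota (s34x_infRing O₂) S₂ 𝔫 z) := by
  obtain ⟨b, s, hs, hz⟩ := s34f_exists_frac (s34x_infRing O₂) S₂ 𝔫 z
  obtain ⟨b', c, hc, hsb⟩ := s36q_exists_mul_eq_chart O₁ O₂ S₁ S₂ γ hγ 𝔫 hint hfib s hs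
  have e := congrArg (s34f_iota (s34x_infRing O₂) S₂ 𝔫) hz
  rw [map_mul, s34f_iota_algebraMap, s34f_iota_algebraMap] at e
  have hsb' : (s : 𝓕₂) * (b' : 𝓕₂) = γ (c : 𝓕₁) := by
    have := congrArg (fun t : s34x_ring (s34x_infRing O₂) S₂ => (t : 𝓕₂)) hsb
    simpa using this
  have hc0 : (c : 𝓕₁) ≠ 0 := by
    intro h0
    apply hc
    have : c = 0 := Subtype.ext h0
    rw [this]; exact Ideal.zero_mem _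
  have hγc0 : γ (c : 𝓕₁) ≠ 0 := by rwa [Ne, map_eq_zero]
  have hs0 : (s : 𝓕₂) ≠ 0 := by
    intro h0; rw [h0, zero_mul] at hsb'; exact hγc0 hsb'.symm
  have hb'0 : (b' : 𝓕₂) ≠ 0 := by
    intro h0; rw [h0, mul_zero] at hsb'; exact hγc0 hsb'.symm
  -- `ι₂ z = (b b') * (γ c)⁻¹`
  have hzeq : s34f_iota (s34x_infRing O₂) S₂ 𝔫 z =
      ((b * b' : s34x_ring (s34x_infRing O₂) S₂) : 𝓕₂) * (γ (c : 𝓕₁))⁻¹ := by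
    push_cast
    rw [← hsb', ← e]
    field_simp
  rw [hzeq]
  refine RingHom.IsIntegralElem.mul _ ?_ ?_
  · -- `b b'` is integral over `B₁`
    obtain ⟨p, hp, hpy⟩ := hint (b * b')
    refine ⟨p.map (algebraMap _ (Localization.AtPrime (s36q_pt O₁ O₂ S₁ S₂ γ hγ 𝔫))),
      hp.map _, ?_⟩
    rw [Polynomial.eval₂_map]
    have h1 : (γ.comp (s34f_iota (s34x_infRing O₁) S₁ (s36q_pt O₁ O₂ S₁ S₂ γ hγ 𝔫))).comp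
        (algebraMap (s34x_ring (s34x_infRing O₁) S₁)
          (Localization.AtPrime (s36q_pt O₁ O₂ S₁ S₂ γ hγ 𝔫))) =
        (s34x_ring (s34x_infRing O₂) S₂).subtype.comp (s36q_chartMap O₁ O₂ S₁ S₂ γ hγ) := by
      ext t
      simp only [RingHom.comp_apply, s34f_iota_algebraMap]
      rfl
    rw [h1]
    have h5 := Polynomial.hom_eval₂ p (s36q_chartMap O₁ O₂ S₁ S₂ γ hγ)
      (s34x_ring (s34x_infRing O₂) S₂).subtype (b * b')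
    rw [hpy, map_zero] at h5
    exact h5.symm
  · -- `(γ c)⁻¹` is in the image
    have hu : IsUnit (algebraMap (s34x_ring (s34x_infRing O₁) S₁)
        (Localization.AtPrime (s36q_pt O₁ O₂ S₁ S₂ γ hγ 𝔫)) c) :=
      IsLocalization.map_units _ (⟨c, hc⟩ : (s36q_pt O₁ O₂ S₁ S₂ γ hγ 𝔫).primeCompl)
    obtain ⟨v, hv⟩ := hu
    have h2 : (γ.comp (s34f_iota (s34x_infRing O₁) S₁ (s36q_pt O₁ O₂ S₁ S₂ γ hγ 𝔫)))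
        ((v⁻¹ : (Localization.AtPrime (s36q_pt O₁ O₂ S₁ S₂ γ hγ 𝔫))ˣ) :
          Localization.AtPrime (s36q_pt O₁ O₂ S₁ S₂ γ hγ 𝔫)) = (γ (c : 𝓕₁))⁻¹ := by
      have h3 : (γ.comp (s34f_iota (s34x_infRing O₁) S₁ (s36q_pt O₁ O₂ S₁ S₂ γ hγ 𝔫)))
          (v : Localization.AtPrime (s36q_pt O₁ O₂ S₁ S₂ γ hγ 𝔫)) = γ (c : 𝓕₁) := by
        rw [hv, RingHom.comp_apply, s34f_iota_algebraMap]
      have h4 : (γ.comp (s34f_iota (s34x_infRing O₁) S₁ (s36q_pt O₁ O₂ S₁ S₂ γ hγ 𝔫)))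
          (v : Localization.AtPrime (s36q_pt O₁ O₂ S₁ S₂ γ hγ 𝔫)) *
          (γ.comp (s34f_iota (s34x_infRing O₁) S₁ (s36q_pt O₁ O₂ S₁ S₂ γ hγ 𝔫)))
          ((v⁻¹ : (Localization.AtPrime (s36q_pt O₁ O₂ S₁ S₂ γ hγ 𝔫))ˣ) :
            Localization.AtPrime (s36q_pt O₁ O₂ S₁ S₂ γ hγ 𝔫)) = 1 := by
        rw [← map_mul, Units.mul_inv, map_one]
      rw [h3] at h4
      exact eq_inv_of_mul_eq_one_right h4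
    rw [← h2]
    exact RingHom.isIntegralElem_map _

variable [Fintype ι₁] [Algebra 𝓕₁ 𝓕₂]

/-- (INT) + (FIB) ⇒ the norm of an element of `(B₂)_𝔫` lies in `(B₁)_{γ⁻¹𝔫}`. -/
theorem s36q_norm_mem_iota (halg : ∀ x, algebraMap 𝓕₁ 𝓕₂ x = γ x) (hA₁ : s36q_Arch O₁)
    (hfin₁ : ∀ y : 𝓕₁, y ≠ 0 → {Q : Place L₀ 𝓕₁ | Q ∈ S₁ ∧ Q.ord y ≠ 0}.Finite)
    (hint : (s36q_chartMap O₁ O₂ S₁ S₂ γ hγ).IsIntegral)
    (hfib : ∀ 𝔫₂ : Ideal (s34x_ring (s34x_infRing O₂) S₂), 𝔫₂.IsPrime →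
      s36q_pt O₁ O₂ S₁ S₂ γ hγ 𝔫₂ = s36q_pt O₁ O₂ S₁ S₂ γ hγ 𝔫 → 𝔫₂ = 𝔫)
    (z : Localization.AtPrime 𝔫) :
    ∃ a : Localization.AtPrime (s36q_pt O₁ O₂ S₁ S₂ γ hγ 𝔫),
      s34f_iota (s34x_infRing O₁) S₁ (s36q_pt O₁ O₂ S₁ S₂ γ hγ 𝔫) a =
        Algebra.norm 𝓕₁ (s34f_iota (s34x_infRing O₂) S₂ 𝔫 z) := by
  have hz := s36q_iota_isIntegralElem O₁ O₂ S₁ S₂ γ hγ 𝔫 hint hfib z
  apply s36q_iota_of_isIntegralElem O₁ S₁ _ hA₁ hfin₁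
  letI a1 : Algebra (Localization.AtPrime (s36q_pt O₁ O₂ S₁ S₂ γ hγ 𝔫)) 𝓕₁ :=
    (s34f_iota (s34x_infRing O₁) S₁ (s36q_pt O₁ O₂ S₁ S₂ γ hγ 𝔫)).toAlgebra
  letI a2 : Algebra (Localization.AtPrime (s36q_pt O₁ O₂ S₁ S₂ γ hγ 𝔫)) 𝓕₂ :=
    (γ.comp (s34f_iota (s34x_infRing O₁) S₁ (s36q_pt O₁ O₂ S₁ S₂ γ hγ 𝔫))).toAlgebra
  haveI : IsScalarTower (Localization.AtPrime (s36q_pt O₁ O₂ S₁ S₂ γ hγ 𝔫)) 𝓕₁ 𝓕₂ :=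
    IsScalarTower.of_algebraMap_eq fun x => by
      rw [halg]; rfl
  have h1 : IsIntegral (Localization.AtPrime (s36q_pt O₁ O₂ S₁ S₂ γ hγ 𝔫))
      (s34f_iota (s34x_infRing O₂) S₂ 𝔫 z) := hz
  exact Algebra.isIntegral_norm 𝓕₁ h1

/-- (INT) + (FIB) ⇒ the norm of a unit of `(B₂)_𝔫` is a unit of `(B₁)_{γ⁻¹𝔫}`. -/
theorem s36q_norm_unit (halg : ∀ x, algebraMap 𝓕₁ 𝓕₂ x = γ x) (hA₁ : s36q_Arch O₁)
    (hfin₁ : ∀ y : 𝓕₁, y ≠ 0 → {Q : Place L₀ 𝓕₁ | Q ∈ S₁ ∧ Q.ord y ≠ 0}.Finite)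
    (hint : (s36q_chartMap O₁ O₂ S₁ S₂ γ hγ).IsIntegral)
    (hfib : ∀ 𝔫₂ : Ideal (s34x_ring (s34x_infRing O₂) S₂), 𝔫₂.IsPrime →
      s36q_pt O₁ O₂ S₁ S₂ γ hγ 𝔫₂ = s36q_pt O₁ O₂ S₁ S₂ γ hγ 𝔫 → 𝔫₂ = 𝔫)
    (u : Localization.AtPrime 𝔫) (hu : IsUnit u) :
    ∃ a : Localization.AtPrime (s36q_pt O₁ O₂ S₁ S₂ γ hγ 𝔫), IsUnit a ∧
      s34f_iota (s34x_infRing O₁) S₁ (s36q_pt O₁ O₂ S₁ S₂ γ hγ 𝔫) a =
        Algebra.norm 𝓕₁ (s34f_iota (s34x_infRing O₂) S₂ 𝔫 u) := by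
  obtain ⟨v, rfl⟩ := hu
  obtain ⟨a, ha⟩ := s36q_norm_mem_iota O₁ O₂ S₁ S₂ γ hγ 𝔫 halg hA₁ hfin₁ hint hfib
    (v : Localization.AtPrime 𝔫)
  obtain ⟨a', ha'⟩ := s36q_norm_mem_iota O₁ O₂ S₁ S₂ γ hγ 𝔫 halg hA₁ hfin₁ hint hfib
    ((v⁻¹ : (Localization.AtPrime 𝔫)ˣ) : Localization.AtPrime 𝔫)
  refine ⟨a, ?_, ha⟩
  have h1 : a * a' = 1 := by
    apply s34f_iota_injective (s34x_infRing O₁) S₁ (s36q_pt O₁ O₂ S₁ S₂ γ hγ 𝔫)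
    rw [map_mul, ha, ha', ← map_mul, ← map_mul, Units.mul_inv, map_one, map_one, map_one]
  exact IsUnit.of_mul_eq_one _ h1

/-- **[S4]**: the norm of a unit of `(B₂)_𝔫` has order zero at the places through `γ⁻¹𝔫`. -/
theorem s36q_norm_unit_ord (halg : ∀ x, algebraMap 𝓕₁ 𝓕₂ x = γ x) (hA₁ : s36q_Arch O₁)
    (hfin₁ : ∀ y : 𝓕₁, y ≠ 0 → {Q : Place L₀ 𝓕₁ | Q ∈ S₁ ∧ Q.ord y ≠ 0}.Finite)
    (hint : (s36q_chartMap O₁ O₂ S₁ S₂ γ hγ).IsIntegral)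
    (hfib : ∀ 𝔫₂ : Ideal (s34x_ring (s34x_infRing O₂) S₂), 𝔫₂.IsPrime →
      s36q_pt O₁ O₂ S₁ S₂ γ hγ 𝔫₂ = s36q_pt O₁ O₂ S₁ S₂ γ hγ 𝔫 → 𝔫₂ = 𝔫)
    (u : Localization.AtPrime 𝔫) (hu : IsUnit u) (Q' : Place L₀ 𝓕₁) (hQ'S : Q' ∈ S₁)
    (hth : s34f_through (s34x_infRing O₁) S₁ (s36q_pt O₁ O₂ S₁ S₂ γ hγ 𝔫) Q') :
    Q'.ord (Algebra.norm 𝓕₁ (s34f_iota (s34x_infRing O₂) S₂ 𝔫 u)) = 0 := by
  obtain ⟨a, hau, ha⟩ := s36q_norm_unit O₁ O₂ S₁ S₂ γ hγ 𝔫 halg hA₁ hfin₁ hint hfib u hu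
  rw [← ha]
  exact s36q_unit_ord_zero O₁ S₁ _ a hau Q' hQ'S hth

end Fermat.Agent.Lib.S36
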