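/-
S36 mega-project, layer (R2) (helper5), part 14: **classification of the points of the chart by the
components through them** (GAP 2 of board #1689): through a prime `𝔫` of `B₂` pass either ALL THREE
components or AT MOST ONE.

* `s36q_compIdeal O S i`        : the prime of the chart ring cut out by the component `i`;
* `s36q_compThrough_iff`        : `s36q_compThrough O S 𝔫 i ↔ s36q_compIdeal O S i ≤ 𝔫`;
* `s36q_compIdeal_comap`        : `χ⁻¹ (P_j) = P'_i` when `(O₂ j).comap γ = O₁ i`;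
* `s36q_comp_through_of_integral` : **going-up**: (INT) + (FIB) + the component `i` passes through
  `γ⁻¹𝔫` ⇒ every component `j` over `i` passes through `𝔫`;
* `s36q_all_through`            : two components through `𝔫` with different images under `γ`, (INT),
  (FIB at crossings) ⇒ all components pass through `𝔫`;
* `s36q_classify`               : the classification for `O₂ : Fin 3 → _` and two frames `α`, `β`
  (`α`: `0, 1 ↦ iI`, `2 ↦ i0`; `β`: `0 ↦ iI`, `1, 2 ↦ i0`).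
-/
import Fermat.Agent.Lib.S36.QNorm

set_option autoImplicit false

noncomputable section

namespace Fermat.Agent.Lib.S36

open AlgebraicCurve Fermat.Agent.Lib.FF Fermat.Agent.Lib.S18 Fermat.Agent.Lib.S34 IsLocalRing

section OneLevel

variable {L₀ 𝓕 : Type*} [Field L₀] [Field 𝓕] [Algebra L₀ 𝓕]
variable {ι : Type*} (O : ι → ValuationSubring 𝓕) (S : Set (Place L₀ 𝓕))

/-- the prime of the chart ring cut out by the component `i`. -/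
def s36q_compIdeal (i : ι) : Ideal (s34x_ring (s34x_infRing O) S) where
  carrier := {b | (b : 𝓕) ∈ (O i).nonunits}
  add_mem' := by
    intro a b ha hb
    simp only [Set.mem_setOf_eq] at ha hb ⊢
    rw [(O i).mem_nonunits_iff] at ha hb ⊢
    push_cast
    exact lt_of_le_of_lt (Valuation.map_add _ _ _) (max_lt ha hb)
  zero_mem' := by
    simp only [Set.mem_setOf_eq]
    rw [(O i).mem_nonunits_iff]
    simp
  smul_mem' := by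
    intro c b hb
    simp only [Set.mem_setOf_eq] at hb ⊢
    rw [(O i).mem_nonunits_iff] at hb ⊢
    rw [smul_eq_mul]
    push_cast
    rw [map_mul]
    have hc : (O i).valuation (c : 𝓕) ≤ 1 :=
      ((O i).valuation_le_one_iff _).mpr ((s34x_mem_infRing O _).mp c.2.1 i)
    calc _ ≤ 1 * (O i).valuation (b : 𝓕) := by gcongr
      _ < 1 := by rw [one_mul]; exact hb

theorem s36q_mem_compIdeal (i : ι) (b : s34x_ring (s34x_infRing O) S) :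
    b ∈ s36q_compIdeal O S i ↔ (b : 𝓕) ∈ (O i).nonunits := Iff.rfl

theorem s36q_compThrough_iff (𝔫 : Ideal (s34x_ring (s34x_infRing O) S)) (i : ι) :
    s36q_compThrough O S 𝔫 i ↔ s36q_compIdeal O S i ≤ 𝔫 :=
  ⟨fun h b hb => h b hb, fun h b hb => h hb⟩

end OneLevel

variable {L₀ 𝓕₁ 𝓕₂ : Type*} [Field L₀] [Field 𝓕₁] [Field 𝓕₂] [Algebra L₀ 𝓕₁] [Algebra L₀ 𝓕₂]
variable {ι₁ ι₂ : Type*} (O₁ : ι₁ → ValuationSubring 𝓕₁) (O₂ : ι₂ → ValuationSubring 𝓕₂)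
  (S₁ : Set (Place L₀ 𝓕₁)) (S₂ : Set (Place L₀ 𝓕₂)) (γ : 𝓕₁ →+* 𝓕₂)
  (hγ : ∀ b ∈ s34x_ring (s34x_infRing O₁) S₁, γ b ∈ s34x_ring (s34x_infRing O₂) S₂)
  (𝔫 : Ideal (s34x_ring (s34x_infRing O₂) S₂)) [h𝔫 : 𝔫.IsPrime]

/-- the component prime of `j` contracts to the component prime of `i` when `j` lies over `i`. -/
theorem s36q_compIdeal_comap (i : ι₁) (j : ι₂) (hcomap : ∀ x : 𝓕₁, γ x ∈ O₂ j ↔ x ∈ O₁ i) :
    (s36q_compIdeal O₂ S₂ j).comap (s36q_chartMap O₁ O₂ S₁ S₂ γ hγ) = s36q_compIdeal O₁ S₁ i := by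
  ext c
  rw [Ideal.mem_comap, s36q_mem_compIdeal, s36q_mem_compIdeal, s36q_chartMap_coe]
  exact s36q_nonunits_comap O₁ O₂ γ i j hcomap _

/-- **going-up**: (INT) + (FIB) ⇒ every component over a component through `γ⁻¹𝔫` passes through
`𝔫`. -/
theorem s36q_comp_through_of_integral (hint : (s36q_chartMap O₁ O₂ S₁ S₂ γ hγ).IsIntegral)
    (hfib : ∀ 𝔫₂ : Ideal (s34x_ring (s34x_infRing O₂) S₂), 𝔫₂.IsPrime →
      s36q_pt O₁ O₂ S₁ S₂ γ hγ 𝔫₂ = s36q_pt O₁ O₂ S₁ S₂ γ hγ 𝔫 → 𝔫₂ = 𝔫)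
    (i : ι₁) (j : ι₂) (hcomap : ∀ x : 𝓕₁, γ x ∈ O₂ j ↔ x ∈ O₁ i)
    (hi : s36q_compThrough O₁ S₁ (s36q_pt O₁ O₂ S₁ S₂ γ hγ 𝔫) i) :
    s36q_compThrough O₂ S₂ 𝔫 j := by
  letI : Algebra (s34x_ring (s34x_infRing O₁) S₁) (s34x_ring (s34x_infRing O₂) S₂) :=
    (s36q_chartMap O₁ O₂ S₁ S₂ γ hγ).toAlgebra
  haveI : Algebra.IsIntegral (s34x_ring (s34x_infRing O₁) S₁) (s34x_ring (s34x_infRing O₂) S₂) :=
    ⟨hint⟩
  obtain ⟨Q, hQs, hQp, hQ⟩ := Ideal.exists_ideal_over_prime_of_isIntegral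
    (s36q_pt O₁ O₂ S₁ S₂ γ hγ 𝔫) (s36q_compIdeal O₂ S₂ j) (by
      have h1 := s36q_compIdeal_comap O₁ O₂ S₁ S₂ γ hγ i j hcomap
      have h2 := (s36q_compThrough_iff O₁ S₁ _ i).mp hi
      intro c hc
      apply h2
      rw [← h1]
      exact hc)
  have hQ𝔫 : Q = 𝔫 := hfib Q hQp hQ
  rw [s36q_compThrough_iff, ← hQ𝔫]
  exact hQs

/-- two components through `𝔫` with different images `iI ≠ i0` under `γ`: if the fibre over a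
crossing is one point and `B₂` is integral over `γ(B₁)`, ALL components pass through `𝔫`. -/
theorem s36q_all_through (hint : (s36q_chartMap O₁ O₂ S₁ S₂ γ hγ).IsIntegral)
    (iI i0 : ι₁)
    (hfib : s36q_compThrough O₁ S₁ (s36q_pt O₁ O₂ S₁ S₂ γ hγ 𝔫) iI →
      s36q_compThrough O₁ S₁ (s36q_pt O₁ O₂ S₁ S₂ γ hγ 𝔫) i0 →
      ∀ 𝔫₂ : Ideal (s34x_ring (s34x_infRing O₂) S₂), 𝔫₂.IsPrime →
        s36q_pt O₁ O₂ S₁ S₂ γ hγ 𝔫₂ = s36q_pt O₁ O₂ S₁ S₂ γ hγ 𝔫 → 𝔫₂ = 𝔫)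
    (idx : ι₂ → ι₁) (hidx : ∀ j, idx j = iI ∨ idx j = i0)
    (hc : ∀ j, ∀ x : 𝓕₁, γ x ∈ O₂ j ↔ x ∈ O₁ (idx j))
    (a b : ι₂) (ha : s36q_compThrough O₂ S₂ 𝔫 a) (hb : s36q_compThrough O₂ S₂ 𝔫 b)
    (hia : idx a = iI) (hib : idx b = i0) :
    ∀ j, s36q_compThrough O₂ S₂ 𝔫 j := by
  have h1 : s36q_compThrough O₁ S₁ (s36q_pt O₁ O₂ S₁ S₂ γ hγ 𝔫) iI := by
    rw [← hia]
    exact s36q_compThrough_comap O₁ O₂ S₁ S₂ γ hγ 𝔫 (idx a) a (hc a) ha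
  have h2 : s36q_compThrough O₁ S₁ (s36q_pt O₁ O₂ S₁ S₂ γ hγ 𝔫) i0 := by
    rw [← hib]
    exact s36q_compThrough_comap O₁ O₂ S₁ S₂ γ hγ 𝔫 (idx b) b (hc b) hb
  intro j
  refine s36q_comp_through_of_integral O₁ O₂ S₁ S₂ γ hγ 𝔫 hint (hfib h1 h2) (idx j) j (hc j) ?_
  rcases hidx j with h | h
  · rw [h]; exact h1
  · rw [h]; exact h2

/-! ### The classification for three components and two degeneracy maps -/

section Classify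

variable {L₀ 𝓕₁ 𝓕₂ : Type*} [Field L₀] [Field 𝓕₁] [Field 𝓕₂] [Algebra L₀ 𝓕₁] [Algebra L₀ 𝓕₂]
variable {ι₁ : Type*} (O₁ : ι₁ → ValuationSubring 𝓕₁) (O₂ : Fin 3 → ValuationSubring 𝓕₂)
  (S₁a S₁b : Set (Place L₀ 𝓕₁)) (S₂ : Set (Place L₀ 𝓕₂)) (α β : 𝓕₁ →+* 𝓕₂)
  (hα : ∀ b ∈ s34x_ring (s34x_infRing O₁) S₁a, α b ∈ s34x_ring (s34x_infRing O₂) S₂)
  (hβ : ∀ b ∈ s34x_ring (s34x_infRing O₁) S₁b, β b ∈ s34x_ring (s34x_infRing O₂) S₂)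
  (𝔫 : Ideal (s34x_ring (s34x_infRing O₂) S₂)) [h𝔫 : 𝔫.IsPrime]

/-- **Classification**: through a prime `𝔫` of the chart of level `q²` pass all three components or
at most one.  `α : 0, 1 ↦ iI, 2 ↦ i0`; `β : 0 ↦ iI, 1, 2 ↦ i0`; (INT) for both maps; the fibres of
both maps over crossings are single points. -/
theorem s36q_classify (iI i0 : ι₁)
    (hc0α : ∀ x : 𝓕₁, α x ∈ O₂ 0 ↔ x ∈ O₁ iI) (hc1α : ∀ x : 𝓕₁, α x ∈ O₂ 1 ↔ x ∈ O₁ iI)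
    (hc2α : ∀ x : 𝓕₁, α x ∈ O₂ 2 ↔ x ∈ O₁ i0)
    (hc0β : ∀ x : 𝓕₁, β x ∈ O₂ 0 ↔ x ∈ O₁ iI) (hc1β : ∀ x : 𝓕₁, β x ∈ O₂ 1 ↔ x ∈ O₁ i0)
    (hc2β : ∀ x : 𝓕₁, β x ∈ O₂ 2 ↔ x ∈ O₁ i0)
    (hintα : (s36q_chartMap O₁ O₂ S₁a S₂ α hα).IsIntegral)
    (hintβ : (s36q_chartMap O₁ O₂ S₁b S₂ β hβ).IsIntegral)
    (hfibα : s36q_compThrough O₁ S₁a (s36q_pt O₁ O₂ S₁a S₂ α hα 𝔫) iI →
      s36q_compThrough O₁ S₁a (s36q_pt O₁ O₂ S₁a S₂ α hα 𝔫) i0 →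
      ∀ 𝔫₂ : Ideal (s34x_ring (s34x_infRing O₂) S₂), 𝔫₂.IsPrime →
        s36q_pt O₁ O₂ S₁a S₂ α hα 𝔫₂ = s36q_pt O₁ O₂ S₁a S₂ α hα 𝔫 → 𝔫₂ = 𝔫)
    (hfibβ : s36q_compThrough O₁ S₁b (s36q_pt O₁ O₂ S₁b S₂ β hβ 𝔫) iI →
      s36q_compThrough O₁ S₁b (s36q_pt O₁ O₂ S₁b S₂ β hβ 𝔫) i0 →
      ∀ 𝔫₂ : Ideal (s34x_ring (s34x_infRing O₂) S₂), 𝔫₂.IsPrime →
        s36q_pt O₁ O₂ S₁b S₂ β hβ 𝔫₂ = s36q_pt O₁ O₂ S₁b S₂ β hβ 𝔫 → 𝔫₂ = 𝔫) :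
    (∀ j, s36q_compThrough O₂ S₂ 𝔫 j) ∨
    (¬ s36q_compThrough O₂ S₂ 𝔫 0 ∧ ¬ s36q_compThrough O₂ S₂ 𝔫 1) ∨
    (¬ s36q_compThrough O₂ S₂ 𝔫 0 ∧ ¬ s36q_compThrough O₂ S₂ 𝔫 2) ∨
    (¬ s36q_compThrough O₂ S₂ 𝔫 1 ∧ ¬ s36q_compThrough O₂ S₂ 𝔫 2) := by
  classical
  -- the index functions
  set idxα : Fin 3 → ι₁ := fun j => if j = 2 then i0 else iI with hidxα
  set idxβ : Fin 3 → ι₁ := fun j => if j = 0 then iI else i0 with hidxβ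
  have hcα : ∀ j, ∀ x : 𝓕₁, α x ∈ O₂ j ↔ x ∈ O₁ (idxα j) := by
    intro j
    have h0 : ∀ x : 𝓕₁, α x ∈ O₂ 0 ↔ x ∈ O₁ (idxα 0) := by simpa [hidxα] using hc0α
    have h1 : ∀ x : 𝓕₁, α x ∈ O₂ 1 ↔ x ∈ O₁ (idxα 1) := by simpa [hidxα] using hc1α
    have h2 : ∀ x : 𝓕₁, α x ∈ O₂ 2 ↔ x ∈ O₁ (idxα 2) := by simpa [hidxα] using hc2α
    fin_cases j
    · exact h0
    · exact h1
    · exact h2
  have hcβ : ∀ j, ∀ x : 𝓕₁, β x ∈ O₂ j ↔ x ∈ O₁ (idxβ j) := by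
    intro j
    have h0 : ∀ x : 𝓕₁, β x ∈ O₂ 0 ↔ x ∈ O₁ (idxβ 0) := by simpa [hidxβ] using hc0β
    have h1 : ∀ x : 𝓕₁, β x ∈ O₂ 1 ↔ x ∈ O₁ (idxβ 1) := by simpa [hidxβ] using hc1β
    have h2 : ∀ x : 𝓕₁, β x ∈ O₂ 2 ↔ x ∈ O₁ (idxβ 2) := by simpa [hidxβ] using hc2β
    fin_cases j
    · exact h0
    · exact h1
    · exact h2
  have hallα : ∀ j, idxα j = iI ∨ idxα j = i0 := by
    intro j
    by_cases h : j = 2
    · right; simp [hidxα, h]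
    · left; simp [hidxα, h]
  have hallβ : ∀ j, idxβ j = iI ∨ idxβ j = i0 := by
    intro j
    by_cases h : j = 0
    · left; simp [hidxβ, h]
    · right; simp [hidxβ, h]
  by_cases t0 : s36q_compThrough O₂ S₂ 𝔫 0
  · by_cases t1 : s36q_compThrough O₂ S₂ 𝔫 1
    · -- `0, 1` : use `β`
      left
      exact s36q_all_through O₁ O₂ S₁b S₂ β hβ 𝔫 hintβ iI i0 hfibβ idxβ hallβ hcβ 0 1 t0 t1
        (by simp [hidxβ]) (by simp [hidxβ])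
    · by_cases t2 : s36q_compThrough O₂ S₂ 𝔫 2
      · -- `0, 2` : use `α`
        left
        exact s36q_all_through O₁ O₂ S₁a S₂ α hα 𝔫 hintα iI i0 hfibα idxα hallα hcα 0 2 t0 t2
          (by simp [hidxα]) (by simp [hidxα])
      · right; right; right; exact ⟨t1, t2⟩
  · by_cases t1 : s36q_compThrough O₂ S₂ 𝔫 1
    · by_cases t2 : s36q_compThrough O₂ S₂ 𝔫 2
      · -- `1, 2` : use `α`
        left
        exact s36q_all_through O₁ O₂ S₁a S₂ α hα 𝔫 hintα iI i0 hfibα idxα hallα hcα 1 2 t1 t2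
          (by simp [hidxα]) (by simp [hidxα])
      · right; right; left; exact ⟨t0, t2⟩
    · right; left; exact ⟨t0, t1⟩

end Classify

end Fermat.Agent.Lib.S36
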