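/-
S36 mega-project, layer (R2) (helper5), part 15: **the kind "cusp"** (board #1746 (c)): through a
polar closed point of chart 2 passes EXACTLY ONE component.

Abstract one-level frame (`QMem.lean`): `O : ι → ValuationSubring 𝓕`, chart `S`, `𝔫` a prime of the
chart ring, `R = B_𝔫`.

* `s36q_mem_max_of_nonunit` : `a : R` with `ι a ∈ (O i).nonunits`, `i` through `𝔫` ⇒ `a ∈ 𝔪_R`;
* `s36q_not_both`           : SEPARATION: `g : R` with `g ≡ 1` on the component `i` and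
  `g ^ n ≡ y ∈ 𝔪_R` on the component `i'` ⇒ `i`, `i'` do not both pass through `𝔫`;
* `s36q_exists_through`     : a uniformiser of the base (a nonzero constant of `𝔫`) ⇒ some component
  passes through `𝔫`;
* `s36q_cusp_single`        : `O : Fin 3 → _`, `z ∈ 𝔪_R` (`= 1 / j`), `f` (`= j_q / j ^ q`) with
  `f ≡ 1` on `0`, `1` and `f ^ q ≡ z ^ k` on `2`, `h` (`= j_{q²} / j ^ q²`) with `h ≡ 1` on `0` and
  `h ≡ z ^ k'` on `1` ⇒ at most one of the three components passes through `𝔫`.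
-/
import Fermat.Agent.Lib.S36.QClass

set_option autoImplicit false

noncomputable section

namespace Fermat.Agent.Lib.S36

open AlgebraicCurve Fermat.Agent.Lib.FF Fermat.Agent.Lib.S18 Fermat.Agent.Lib.S34 IsLocalRing

variable {L₀ 𝓕 : Type*} [Field L₀] [Field 𝓕] [Algebra L₀ 𝓕]

section General

variable {ι : Type*} (O : ι → ValuationSubring 𝓕) (S : Set (Place L₀ 𝓕))
  (𝔫 : Ideal (s34x_ring (s34x_infRing O) S)) [h𝔫 : 𝔫.IsPrime]

/-- an element of `B_𝔫` vanishing on a component through `𝔫` lies in the maximal ideal. -/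
theorem s36q_mem_max_of_nonunit (i : ι) (hi : s36q_compThrough O S 𝔫 i)
    (a : Localization.AtPrime 𝔫) (ha : s34f_iota (s34x_infRing O) S 𝔫 a ∈ (O i).nonunits) :
    a ∈ maximalIdeal (Localization.AtPrime 𝔫) :=
  s36q_red_ker_le O S 𝔫 i hi a ((s36q_red_eq_zero_iff O S 𝔫 i hi a).mpr ha)

/-- **separation of two components** by a function of `B_𝔫`. -/
theorem s36q_not_both (i i' : ι) (g y : Localization.AtPrime 𝔫) (n : ℕ)
    (hy : y ∈ maximalIdeal (Localization.AtPrime 𝔫))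
    (hi : s34f_iota (s34x_infRing O) S 𝔫 g - 1 ∈ (O i).nonunits)
    (hi' : s34f_iota (s34x_infRing O) S 𝔫 g ^ n - s34f_iota (s34x_infRing O) S 𝔫 y ∈
      (O i').nonunits) :
    ¬ (s36q_compThrough O S 𝔫 i ∧ s36q_compThrough O S 𝔫 i') := by
  rintro ⟨t, t'⟩
  have h1 : g - 1 ∈ maximalIdeal (Localization.AtPrime 𝔫) :=
    s36q_mem_max_of_nonunit O S 𝔫 i t _ (by rw [map_sub, map_one]; exact hi)
  have h2 : g ^ n - y ∈ maximalIdeal (Localization.AtPrime 𝔫) :=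
    s36q_mem_max_of_nonunit O S 𝔫 i' t' _ (by rw [map_sub, map_pow]; exact hi')
  have h3 : g ^ n ∈ maximalIdeal (Localization.AtPrime 𝔫) := by
    have := Ideal.add_mem _ h2 hy
    rwa [sub_add_cancel] at this
  have h4 : g ∈ maximalIdeal (Localization.AtPrime 𝔫) :=
    (IsLocalRing.maximalIdeal.isMaximal _).isPrime.mem_of_pow_mem n h3
  have h5 : (1 : Localization.AtPrime 𝔫) ∈ maximalIdeal (Localization.AtPrime 𝔫) := by
    have := Ideal.sub_mem _ h4 h1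
    rwa [sub_sub_cancel] at this
  exact (mem_maximalIdeal _).mp h5 isUnit_one

variable [Fintype ι]

/-- a nonzero constant of `𝔫` ⇒ some component passes through `𝔫`. -/
theorem s36q_exists_through (hA : s36q_Arch O)
    (hfin : ∀ y : 𝓕, y ≠ 0 → {Q : Place L₀ 𝓕 | Q ∈ S ∧ Q.ord y ≠ 0}.Finite)
    (π : L₀) (hπ0 : π ≠ 0) (πB : s34x_ring (s34x_infRing O) S)
    (hπB : (πB : 𝓕) = algebraMap L₀ 𝓕 π) (hπ𝔫 : πB ∈ 𝔫) :
    ∃ i, s36q_compThrough O S 𝔫 i := by
  set z := algebraMap _ (Localization.AtPrime 𝔫) πB with hz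
  have hιz : s34f_iota (s34x_infRing O) S 𝔫 z = algebraMap L₀ 𝓕 π := by
    rw [hz, s34f_iota_algebraMap, hπB]
  have hπF : algebraMap L₀ 𝓕 π ≠ 0 := by simpa using hπ0
  have hz0 : z ≠ 0 := by
    intro h0
    rw [h0, map_zero] at hιz
    exact hπF hιz.symm
  have hznu : ¬ IsUnit z := by
    have : z ∈ maximalIdeal (Localization.AtPrime 𝔫) := by
      rw [← Localization.AtPrime.under_maximalIdeal (I := 𝔫)] at hπ𝔫
      exact hπ𝔫
    exact (mem_maximalIdeal _).mp this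
  rcases s36q_nonunit_vanishes O S 𝔫 hA z hz0 hznu (hfin _ (by rw [hιz]; exact hπF)) with
    ⟨i, hi, -⟩ | ⟨Q, -, -, hpos⟩
  · exact ⟨i, hi⟩
  · exfalso
    rw [hιz, ff_ord_algebraMap] at hpos
    exact lt_irrefl _ hpos

end General

/-- **the kind "cusp"**: at most one of the three components passes through a polar point. -/
theorem s36q_cusp_single (O : Fin 3 → ValuationSubring 𝓕) (S : Set (Place L₀ 𝓕))
    (𝔫 : Ideal (s34x_ring (s34x_infRing O) S)) [h𝔫 : 𝔫.IsPrime]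
    (z f h : Localization.AtPrime 𝔫) (hz : z ∈ maximalIdeal (Localization.AtPrime 𝔫))
    (q k k' : ℕ) (hk : 0 < k) (hk' : 0 < k')
    (hf0 : s34f_iota (s34x_infRing O) S 𝔫 f - 1 ∈ (O 0).nonunits)
    (hf1 : s34f_iota (s34x_infRing O) S 𝔫 f - 1 ∈ (O 1).nonunits)
    (hf2 : s34f_iota (s34x_infRing O) S 𝔫 f ^ q - s34f_iota (s34x_infRing O) S 𝔫 z ^ k ∈
      (O 2).nonunits)
    (hh0 : s34f_iota (s34x_infRing O) S 𝔫 h - 1 ∈ (O 0).nonunits)
    (hh1 : s34f_iota (s34x_infRing O) S 𝔫 h - s34f_iota (s34x_infRing O) S 𝔫 z ^ k' ∈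
      (O 1).nonunits) :
    ¬ (s36q_compThrough O S 𝔫 0 ∧ s36q_compThrough O S 𝔫 1) ∧
    ¬ (s36q_compThrough O S 𝔫 0 ∧ s36q_compThrough O S 𝔫 2) ∧
    ¬ (s36q_compThrough O S 𝔫 1 ∧ s36q_compThrough O S 𝔫 2) := by
  have hzk : z ^ k ∈ maximalIdeal (Localization.AtPrime 𝔫) := Ideal.pow_mem_of_mem _ hz k hk
  have hzk' : z ^ k' ∈ maximalIdeal (Localization.AtPrime 𝔫) := Ideal.pow_mem_of_mem _ hz k' hk'
  refine ⟨?_, ?_, ?_⟩
  · exact s36q_not_both O S 𝔫 0 1 h (z ^ k') 1 hzk' hh0 (by rw [pow_one, map_pow]; exact hh1)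
  · exact s36q_not_both O S 𝔫 0 2 f (z ^ k) q hzk hf0 (by rw [map_pow]; exact hf2)
  · exact s36q_not_both O S 𝔫 1 2 f (z ^ k) q hzk hf1 (by rw [map_pow]; exact hf2)

end Fermat.Agent.Lib.S36
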