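/-
S36 mega-project, layer (R2) (helper5), part 15b: the kind "cusp" for CHART 2 of a base function `w`
(board #1746 (c)), in terms of five congruences and one regularity statement.

`O : Fin 3 → ValuationSubring 𝓕` (`0 ↦ V_∞`, `1 ↦ V_mid`, `2 ↦ V_0`), `w` the base function (a unit of
all `O i`), `A` (`= α' β x = j_q`), `Bq` (`= β' β x = j_{q²}`) with

  `A ≡ w ^ q` on `O 0`, `O 1`;  `w ≡ A ^ q` on `O 2`;  `Bq ≡ w ^ (q * q)` on `O 0`;  `Bq ≡ w` on `O 1`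

and `A / w ^ q`, `Bq / w ^ (q * q)` regular wherever `w⁻¹` is regular (cusp types [CT]).  Then through a
prime `𝔫` of the ring of chart 2 containing `w⁻¹` passes AT MOST ONE component
(`s36q_cusp_chart2`).
-/
import Fermat.Agent.Lib.S36.QCusp

set_option autoImplicit false

noncomputable section

namespace Fermat.Agent.Lib.S36

open AlgebraicCurve Fermat.Agent.Lib.FF Fermat.Agent.Lib.S18 Fermat.Agent.Lib.S34 IsLocalRing

variable {L₀ 𝓕 : Type*} [Field L₀] [Field 𝓕] [Algebra L₀ 𝓕]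

/-- non-units of a valuation ring are stable under multiplication by elements of the ring. -/
theorem s36q_mul_mem_nonunits {K : Type*} [Field K] (V : ValuationSubring K) (x y : K)
    (hx : x ∈ V.nonunits) (hy : y ∈ V) : x * y ∈ V.nonunits := by
  rw [V.mem_nonunits_iff] at hx ⊢
  rw [map_mul]
  have h1 : V.valuation y ≤ 1 := (V.valuation_le_one_iff _).mpr hy
  calc _ ≤ V.valuation x * 1 := by gcongr
    _ < 1 := by rw [mul_one]; exact hx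

/-- **the kind "cusp" in chart 2.** -/
theorem s36q_cusp_chart2 (O : Fin 3 → ValuationSubring 𝓕) (w A Bq : 𝓕) (hw0 : w ≠ 0)
    (hwinv : ∀ i, w⁻¹ ∈ O i) (hA : ∀ i, A ∈ O i) (hB : ∀ i, Bq ∈ O i) (q : ℕ) (hq : 2 ≤ q)
    (hC0a : A - w ^ q ∈ (O 0).nonunits) (hC1a : A - w ^ q ∈ (O 1).nonunits)
    (hC2a : w - A ^ q ∈ (O 2).nonunits)
    (hC0b : Bq - w ^ (q * q) ∈ (O 0).nonunits) (hC1t : Bq - w ∈ (O 1).nonunits)
    (hreg : ∀ Q : Place L₀ 𝓕, w⁻¹ ∈ Q.toValuationSubring →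
      A * w⁻¹ ^ q ∈ Q.toValuationSubring ∧ Bq * w⁻¹ ^ (q * q) ∈ Q.toValuationSubring)
    (𝔫 : Ideal (s34x_ring (L₀ := L₀) (s34x_infRing O) (s18_chart2 w))) [h𝔫 : 𝔫.IsPrime]
    (hpolar : ∀ zB : s34x_ring (L₀ := L₀) (s34x_infRing O) (s18_chart2 w),
      (zB : 𝓕) = w⁻¹ → zB ∈ 𝔫) :
    ¬ (s36q_compThrough O (s18_chart2 w) 𝔫 0 ∧ s36q_compThrough O (s18_chart2 w) 𝔫 1) ∧
    ¬ (s36q_compThrough O (s18_chart2 w) 𝔫 0 ∧ s36q_compThrough O (s18_chart2 w) 𝔫 2) ∧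
    ¬ (s36q_compThrough O (s18_chart2 w) 𝔫 1 ∧ s36q_compThrough O (s18_chart2 w) 𝔫 2) := by
  have hwi0 : w⁻¹ ≠ 0 := inv_ne_zero hw0
  have hpowmem : ∀ i n, w⁻¹ ^ n ∈ O i := fun i n => (O i).pow_mem (hwinv i) n
  -- the three elements of the chart ring
  have hzmem : w⁻¹ ∈ s34x_ring (L₀ := L₀) (s34x_infRing O) (s18_chart2 w) :=
    ⟨(s34x_mem_infRing O _).mpr hwinv, fun Q hQ => hQ⟩
  have hfmem : A * w⁻¹ ^ q ∈ s34x_ring (L₀ := L₀) (s34x_infRing O) (s18_chart2 w) :=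
    ⟨(s34x_mem_infRing O _).mpr fun i => (O i).mul_mem _ _ (hA i) (hpowmem i q),
      fun Q hQ => (hreg Q hQ).1⟩
  have hhmem : Bq * w⁻¹ ^ (q * q) ∈ s34x_ring (L₀ := L₀) (s34x_infRing O) (s18_chart2 w) :=
    ⟨(s34x_mem_infRing O _).mpr fun i => (O i).mul_mem _ _ (hB i) (hpowmem i (q * q)),
      fun Q hQ => (hreg Q hQ).2⟩
  set zB : s34x_ring (L₀ := L₀) (s34x_infRing O) (s18_chart2 w) := ⟨_, hzmem⟩ with hzB
  set fB : s34x_ring (L₀ := L₀) (s34x_infRing O) (s18_chart2 w) := ⟨_, hfmem⟩ with hfB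
  set hBB : s34x_ring (L₀ := L₀) (s34x_infRing O) (s18_chart2 w) := ⟨_, hhmem⟩ with hhB
  have hz𝔫 : zB ∈ 𝔫 := hpolar zB rfl
  have hzmax : algebraMap _ (Localization.AtPrime 𝔫) zB ∈
      maximalIdeal (Localization.AtPrime 𝔫) := by
    rw [← Localization.AtPrime.under_maximalIdeal (I := 𝔫)] at hz𝔫
    exact hz𝔫
  have hιz : s34f_iota (s34x_infRing O) (s18_chart2 w) 𝔫 (algebraMap _ _ zB) = w⁻¹ := by
    rw [s34f_iota_algebraMap]
  have hιf : s34f_iota (s34x_infRing O) (s18_chart2 w) 𝔫 (algebraMap _ _ fB) = A * w⁻¹ ^ q := by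
    rw [s34f_iota_algebraMap]
  have hιh : s34f_iota (s34x_infRing O) (s18_chart2 w) 𝔫 (algebraMap _ _ hBB) =
      Bq * w⁻¹ ^ (q * q) := by
    rw [s34f_iota_algebraMap]
  have hqq : 0 < q * q - 1 := by
    have : 4 ≤ q * q := by nlinarith
    omega
  have hsplit : q * q = (q * q - 1) + 1 := by omega
  have hwk : w * w⁻¹ ^ (q * q) = w⁻¹ ^ (q * q - 1) := by
    conv_lhs => rw [hsplit, pow_succ]
    rw [mul_comm (w⁻¹ ^ (q * q - 1)) w⁻¹, ← mul_assoc, mul_inv_cancel₀ hw0, one_mul]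
  have hone : ∀ n : ℕ, w ^ n * w⁻¹ ^ n = 1 := fun n => by
    rw [← mul_pow, mul_inv_cancel₀ hw0, one_pow]
  have hC2a' : A ^ q - w ∈ (O 2).nonunits := by
    have h1 := hC2a
    rw [(O 2).mem_nonunits_iff] at h1 ⊢
    rwa [← neg_sub, Valuation.map_neg]
  refine s36q_cusp_single O (s18_chart2 w) 𝔫 (algebraMap _ _ zB) (algebraMap _ _ fB)
    (algebraMap _ _ hBB) hzmax q (q * q - 1) (q * q - 1) hqq hqq ?_ ?_ ?_ ?_ ?_
  · rw [hιf]
    have e1 : A * w⁻¹ ^ q - 1 = (A - w ^ q) * w⁻¹ ^ q := by rw [sub_mul, hone]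
    rw [e1]
    exact s36q_mul_mem_nonunits (O 0) _ _ hC0a (hpowmem 0 q)
  · rw [hιf]
    have e1 : A * w⁻¹ ^ q - 1 = (A - w ^ q) * w⁻¹ ^ q := by rw [sub_mul, hone]
    rw [e1]
    exact s36q_mul_mem_nonunits (O 1) _ _ hC1a (hpowmem 1 q)
  · rw [hιf, hιz]
    have e1 : (A * w⁻¹ ^ q) ^ q - w⁻¹ ^ (q * q - 1) = (A ^ q - w) * w⁻¹ ^ (q * q) := by
      rw [sub_mul, hwk, mul_pow, ← pow_mul]
    rw [e1]
    exact s36q_mul_mem_nonunits (O 2) _ _ hC2a' (hpowmem 2 (q * q))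
  · rw [hιh]
    have e1 : Bq * w⁻¹ ^ (q * q) - 1 = (Bq - w ^ (q * q)) * w⁻¹ ^ (q * q) := by
      rw [sub_mul, hone]
    rw [e1]
    exact s36q_mul_mem_nonunits (O 0) _ _ hC0b (hpowmem 0 (q * q))
  · rw [hιh, hιz]
    have e1 : Bq * w⁻¹ ^ (q * q) - w⁻¹ ^ (q * q - 1) = (Bq - w) * w⁻¹ ^ (q * q) := by
      rw [sub_mul, hwk]
    rw [e1]
    exact s36q_mul_mem_nonunits (O 1) _ _ hC1t (hpowmem 1 (q * q))

end Fermat.Agent.Lib.S36
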