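/-
S36 mega-project, layer (R2) (helper5), part 15c: the kind "cusp" in the frame of `GeoFrame.lean`.

`x ∈ V_M` a function of level `M` whose reduction `e` has coefficients in the prime field
(`qExpand κ q e = e ^ q`; e.g. `x = j`, `t₂`, `t₃`), `a = α x`, `b = β x` (level `M q`),
`w = α' a` the base function of level `M q²`, `A = α' b` (`= β' a`), `Bq = β' b`.
From `s36g_ValComap` + `s36g_ValRed`: the five congruences of `QCusp2.lean`
(`s36q_cusp_congruences`), hence (`s36q_cusp_geo`): through a prime of the ring of chart 2 of `w`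
containing `w⁻¹` passes at most one of the three components — given the regularity (REG) of
`A / w ^ q` and `Bq / w ^ (q * q)` on chart 2 (cusp types).
-/
import Fermat.Agent.Lib.S36.QCusp2
import Fermat.Agent.Lib.S36.GeoFrame

set_option autoImplicit false
set_option linter.unusedSectionVars false

noncomputable section

namespace Fermat.Agent.Lib.S36

open ModularCurve AlgebraicCurve HahnSeries Fermat.Agent.Lib.FF Fermat.Agent.Lib.S18
  Fermat.Agent.Lib.S37 Fermat.Agent.Lib.S34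

local notation "Kb" => AlgebraicClosure ℚ

variable {K₀ : Type} [Field K₀] [Algebra ℚ K₀] {κ : Type} [Field κ] (G : s18g_GaussData K₀ κ)
  (φ : K₀ →+* Kb) (M q : ℕ) [NeZero M] [NeZero q] (hq : q.Prime) (hqM : ¬ q ∣ M)
  (V : Fin 3 → ValuationSubring (s34m_F K₀ (M * q * q)))

/-- **the five congruences** for `w = α' α x`, `A = α' β x`, `Bq = β' β x`. -/
theorem s36q_cusp_congruences (hC : s36g_ValComap G φ M q hq hqM V)
    (hR : s36g_ValRed G φ M q hq hqM V) (x : s34m_F K₀ M) (hx : x ∈ s34m_Vinf G M)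
    (hfrob : qExpand κ q (s34m_redInf G M ⟨x, hx⟩) = s34m_redInf G M ⟨x, hx⟩ ^ q) :
    (∀ i, s36g_alpha M q (heckeBetaBar K₀ M q x) ∈ V i) ∧
    (∀ i, s36g_beta M q (heckeBetaBar K₀ M q x) ∈ V i) ∧
    s36g_alpha M q (heckeBetaBar K₀ M q x) - s36g_alpha M q (heckeAlphaBar K₀ M q x) ^ q ∈
      (V 0).nonunits ∧
    s36g_alpha M q (heckeBetaBar K₀ M q x) - s36g_alpha M q (heckeAlphaBar K₀ M q x) ^ q ∈
      (V 1).nonunits ∧
    s36g_alpha M q (heckeAlphaBar K₀ M q x) - s36g_alpha M q (heckeBetaBar K₀ M q x) ^ q ∈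
      (V 2).nonunits ∧
    s36g_beta M q (heckeBetaBar K₀ M q x) - s36g_alpha M q (heckeAlphaBar K₀ M q x) ^ (q * q) ∈
      (V 0).nonunits ∧
    s36g_beta M q (heckeBetaBar K₀ M q x) - s36g_alpha M q (heckeAlphaBar K₀ M q x) ∈
      (V 1).nonunits := by
  obtain ⟨-, hc0α, hc0β, hc1α, hc1β, hc2α, hc2β⟩ := hC
  obtain ⟨r, hker, h0α, h0β, h1α, h1β, h2α, h2β⟩ := hR
  set e := s34m_redInf G M ⟨x, hx⟩ with he
  set a := heckeAlphaBar K₀ M q x with ha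
  set b := heckeBetaBar K₀ M q x with hb
  have haI : a ∈ s34m_Vinf G (M * q) := s34m_alpha_mem_Vinf G M q hx
  have hbI : b ∈ s34m_Vinf G (M * q) := s34m_beta_mem_Vinf G M q hx
  have haZ : a ∈ s34m_Vzero G φ M q hq hqM := s34m_alpha_mem_Vzero G φ M q hq hqM hx
  have hbZ : b ∈ s34m_Vzero G φ M q hq hqM := s34m_beta_mem_Vzero G φ M q hq hqM hx
  have rIa : s34m_redInf G (M * q) ⟨a, haI⟩ = e := s34m_redInf_alpha G M q ⟨x, hx⟩
  have rIb : s34m_redInf G (M * q) ⟨b, hbI⟩ = qExpand κ q e := s34m_redInf_beta G M q ⟨x, hx⟩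
  have rZa : s34m_redZero G φ M q hq hqM ⟨a, haZ⟩ = qExpand κ q e :=
    s34m_redZero_alpha G φ M q hq hqM ⟨x, hx⟩
  have rZb : s34m_redZero G φ M q hq hqM ⟨b, hbZ⟩ = e :=
    s34m_redZero_beta G φ M q hq hqM ⟨x, hx⟩
  -- memberships
  have m0αa : s36g_alpha M q a ∈ V 0 := by
    rw [← ValuationSubring.mem_comap, hc0α]; exact haI
  have m0αb : s36g_alpha M q b ∈ V 0 := by
    rw [← ValuationSubring.mem_comap, hc0α]; exact hbI
  have m0βb : s36g_beta M q b ∈ V 0 := by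
    rw [← ValuationSubring.mem_comap, hc0β]; exact hbI
  have m1αa : s36g_alpha M q a ∈ V 1 := by
    rw [← ValuationSubring.mem_comap, hc1α]; exact haI
  have m1αb : s36g_alpha M q b ∈ V 1 := by
    rw [← ValuationSubring.mem_comap, hc1α]; exact hbI
  have m1βb : s36g_beta M q b ∈ V 1 := by
    rw [← ValuationSubring.mem_comap, hc1β]; exact hbZ
  have m2αa : s36g_alpha M q a ∈ V 2 := by
    rw [← ValuationSubring.mem_comap, hc2α]; exact haZ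
  have m2αb : s36g_alpha M q b ∈ V 2 := by
    rw [← ValuationSubring.mem_comap, hc2α]; exact hbZ
  have m2βb : s36g_beta M q b ∈ V 2 := by
    rw [← ValuationSubring.mem_comap, hc2β]; exact hbZ
  -- the reductions
  have r0w : r 0 ⟨_, m0αa⟩ = e := (h0α ⟨a, haI⟩ m0αa).trans rIa
  have r0A : r 0 ⟨_, m0αb⟩ = qExpand κ q e := (h0α ⟨b, hbI⟩ m0αb).trans rIb
  have r0B : r 0 ⟨_, m0βb⟩ = qExpand κ q (qExpand κ q e) := by
    rw [h0β ⟨b, hbI⟩ m0βb, rIb]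
  have r1w : r 1 ⟨_, m1αa⟩ = e := (h1α ⟨a, haI⟩ m1αa).trans rIa
  have r1A : r 1 ⟨_, m1αb⟩ = qExpand κ q e := (h1α ⟨b, hbI⟩ m1αb).trans rIb
  have r1B : r 1 ⟨_, m1βb⟩ = e := (h1β ⟨b, hbZ⟩ m1βb).trans rZb
  have r2w : r 2 ⟨_, m2αa⟩ = qExpand κ q (qExpand κ q e) := by
    rw [h2α ⟨a, haZ⟩ m2αa, rZa]
  have r2A : r 2 ⟨_, m2αb⟩ = qExpand κ q e := by
    rw [h2α ⟨b, hbZ⟩ m2αb, rZb]
  have hΦΦ : qExpand κ q (qExpand κ q e) = e ^ (q * q) := by
    rw [hfrob, map_pow, hfrob, ← pow_mul]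
  refine ⟨?_, ?_, ?_, ?_, ?_, ?_, ?_⟩
  · intro i
    fin_cases i
    · exact m0αb
    · exact m1αb
    · exact m2αb
  · intro i
    fin_cases i
    · exact m0βb
    · exact m1βb
    · exact m2βb
  · have hmem : s36g_alpha M q b - s36g_alpha M q a ^ q ∈ V 0 :=
      sub_mem m0αb (pow_mem m0αa q)
    refine (hker 0 ⟨_, hmem⟩).mp ?_
    have : (⟨_, hmem⟩ : V 0) = ⟨_, m0αb⟩ - ⟨_, m0αa⟩ ^ q := Subtype.ext rfl
    rw [this, map_sub, map_pow, r0A, r0w, hfrob, sub_self]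
  · have hmem : s36g_alpha M q b - s36g_alpha M q a ^ q ∈ V 1 :=
      sub_mem m1αb (pow_mem m1αa q)
    refine (hker 1 ⟨_, hmem⟩).mp ?_
    have : (⟨_, hmem⟩ : V 1) = ⟨_, m1αb⟩ - ⟨_, m1αa⟩ ^ q := Subtype.ext rfl
    rw [this, map_sub, map_pow, r1A, r1w, hfrob, sub_self]
  · have hmem : s36g_alpha M q a - s36g_alpha M q b ^ q ∈ V 2 :=
      sub_mem m2αa (pow_mem m2αb q)
    refine (hker 2 ⟨_, hmem⟩).mp ?_
    have : (⟨_, hmem⟩ : V 2) = ⟨_, m2αa⟩ - ⟨_, m2αb⟩ ^ q := Subtype.ext rfl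
    rw [this, map_sub, map_pow, r2w, r2A, hΦΦ, hfrob, ← pow_mul, sub_self]
  · have hmem : s36g_beta M q b - s36g_alpha M q a ^ (q * q) ∈ V 0 :=
      sub_mem m0βb (pow_mem m0αa (q * q))
    refine (hker 0 ⟨_, hmem⟩).mp ?_
    have : (⟨_, hmem⟩ : V 0) = ⟨_, m0βb⟩ - ⟨_, m0αa⟩ ^ (q * q) := Subtype.ext rfl
    rw [this, map_sub, map_pow, r0B, r0w, hΦΦ, sub_self]
  · have hmem : s36g_beta M q b - s36g_alpha M q a ∈ V 1 := sub_mem m1βb m1αa
    refine (hker 1 ⟨_, hmem⟩).mp ?_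
    have : (⟨_, hmem⟩ : V 1) = ⟨_, m1βb⟩ - ⟨_, m1αa⟩ := Subtype.ext rfl
    rw [this, map_sub, r1B, r1w, sub_self]

/-- **the kind "cusp"** in the frame of `GeoFrame.lean`. -/
theorem s36q_cusp_geo (hC : s36g_ValComap G φ M q hq hqM V)
    (hR : s36g_ValRed G φ M q hq hqM V) (x : s34m_F K₀ M) (hx : x ∈ s34m_Vinf G M)
    (hfrob : qExpand κ q (s34m_redInf G M ⟨x, hx⟩) = s34m_redInf G M ⟨x, hx⟩ ^ q)
    (hw0 : s36g_alpha M q (heckeAlphaBar K₀ M q x) ≠ 0)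
    (hwinv : ∀ i, (s36g_alpha M q (heckeAlphaBar K₀ M q x))⁻¹ ∈ V i)
    (hreg : ∀ Q : Place K₀ (s34m_F K₀ (M * q * q)),
      (s36g_alpha M q (heckeAlphaBar K₀ M q x))⁻¹ ∈ Q.toValuationSubring →
      s36g_alpha M q (heckeBetaBar K₀ M q x) *
        (s36g_alpha M q (heckeAlphaBar K₀ M q x))⁻¹ ^ q ∈ Q.toValuationSubring ∧
      s36g_beta M q (heckeBetaBar K₀ M q x) *
        (s36g_alpha M q (heckeAlphaBar K₀ M q x))⁻¹ ^ (q * q) ∈ Q.toValuationSubring)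
    (𝔫 : Ideal (s34x_ring (L₀ := K₀) (s34x_infRing V)
      (s18_chart2 (s36g_alpha M q (heckeAlphaBar K₀ M q x))))) [h𝔫 : 𝔫.IsPrime]
    (hpolar : ∀ zB : s34x_ring (L₀ := K₀) (s34x_infRing V)
        (s18_chart2 (s36g_alpha M q (heckeAlphaBar K₀ M q x))),
      (zB : s34m_F K₀ (M * q * q)) = (s36g_alpha M q (heckeAlphaBar K₀ M q x))⁻¹ → zB ∈ 𝔫) :
    ¬ (s36q_compThrough V (s18_chart2 (s36g_alpha M q (heckeAlphaBar K₀ M q x))) 𝔫 0 ∧
        s36q_compThrough V (s18_chart2 (s36g_alpha M q (heckeAlphaBar K₀ M q x))) 𝔫 1) ∧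
    ¬ (s36q_compThrough V (s18_chart2 (s36g_alpha M q (heckeAlphaBar K₀ M q x))) 𝔫 0 ∧
        s36q_compThrough V (s18_chart2 (s36g_alpha M q (heckeAlphaBar K₀ M q x))) 𝔫 2) ∧
    ¬ (s36q_compThrough V (s18_chart2 (s36g_alpha M q (heckeAlphaBar K₀ M q x))) 𝔫 1 ∧
        s36q_compThrough V (s18_chart2 (s36g_alpha M q (heckeAlphaBar K₀ M q x))) 𝔫 2) := by
  obtain ⟨hA, hB, c0a, c1a, c2a, c0b, c1t⟩ :=
    s36q_cusp_congruences G φ M q hq hqM V hC hR x hx hfrob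
  exact s36q_cusp_chart2 V _ _ _ hw0 hwinv hA hB q hq.two_le c0a c1a c2a c0b c1t hreg 𝔫 hpolar

end Fermat.Agent.Lib.S36
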