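/-
S36 mega-project, layer (R2) (helper5), part 15d: the kind "cusp" in the `hone` shape of
`s36y_nodeGenRad_of_single` and with the polar condition of `s36b_zero_of_nodeGenRad`
(`∃ b ∈ 𝔫, (b : 𝓕₂) = w⁻¹`).
-/
import Fermat.Agent.Lib.S36.QCuspGeo

set_option autoImplicit false
set_option linter.unusedSectionVars false

noncomputable section

namespace Fermat.Agent.Lib.S36

open ModularCurve AlgebraicCurve HahnSeries Fermat.Agent.Lib.FF Fermat.Agent.Lib.S18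
  Fermat.Agent.Lib.S37 Fermat.Agent.Lib.S34

local notation "Kb" => AlgebraicClosure ℚ

/-- "at most one of three" in the `hone` shape. -/
theorem s36q_hone_of_not_both {L₀ 𝓕 : Type*} [Field L₀] [Field 𝓕] [Algebra L₀ 𝓕]
    (O : Fin 3 → ValuationSubring 𝓕) (S : Set (Place L₀ 𝓕))
    (𝔫 : Ideal (s34x_ring (s34x_infRing O) S))
    (h : ¬ (s36q_compThrough O S 𝔫 0 ∧ s36q_compThrough O S 𝔫 1) ∧
      ¬ (s36q_compThrough O S 𝔫 0 ∧ s36q_compThrough O S 𝔫 2) ∧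
      ¬ (s36q_compThrough O S 𝔫 1 ∧ s36q_compThrough O S 𝔫 2)) :
    ∀ i k, s36q_compThrough O S 𝔫 i → s36q_compThrough O S 𝔫 k → i = k := by
  obtain ⟨h01, h02, h12⟩ := h
  have key : ∀ i k : Fin 3, i ≠ k → ¬ (s36q_compThrough O S 𝔫 i ∧ s36q_compThrough O S 𝔫 k) := by
    intro i k hik
    have c01 : ¬ (s36q_compThrough O S 𝔫 0 ∧ s36q_compThrough O S 𝔫 1) := h01
    have c10 : ¬ (s36q_compThrough O S 𝔫 1 ∧ s36q_compThrough O S 𝔫 0) := fun ⟨a, b⟩ => h01 ⟨b, a⟩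
    have c02 : ¬ (s36q_compThrough O S 𝔫 0 ∧ s36q_compThrough O S 𝔫 2) := h02
    have c20 : ¬ (s36q_compThrough O S 𝔫 2 ∧ s36q_compThrough O S 𝔫 0) := fun ⟨a, b⟩ => h02 ⟨b, a⟩
    have c12 : ¬ (s36q_compThrough O S 𝔫 1 ∧ s36q_compThrough O S 𝔫 2) := h12
    have c21 : ¬ (s36q_compThrough O S 𝔫 2 ∧ s36q_compThrough O S 𝔫 1) := fun ⟨a, b⟩ => h12 ⟨b, a⟩
    fin_cases i <;> fin_cases k
    · exact absurd rfl hik
    · exact c01
    · exact c02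
    · exact c10
    · exact absurd rfl hik
    · exact c12
    · exact c20
    · exact c21
    · exact absurd rfl hik
  intro i k hi hk
  by_contra hik
  exact key i k hik ⟨hi, hk⟩

variable {K₀ : Type} [Field K₀] [Algebra ℚ K₀] {κ : Type} [Field κ] (G : s18g_GaussData K₀ κ)
  (φ : K₀ →+* Kb) (M q : ℕ) [NeZero M] [NeZero q] (hq : q.Prime) (hqM : ¬ q ∣ M)
  (V : Fin 3 → ValuationSubring (s34m_F K₀ (M * q * q)))

/-- **the kind "cusp"**, `hone` shape, polar condition `∃ b ∈ 𝔫, (b : 𝓕₂) = w⁻¹`. -/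
theorem s36q_cusp_hone (hC : s36g_ValComap G φ M q hq hqM V)
    (hR : s36g_ValRed G φ M q hq hqM V) (x : s34m_F K₀ M) (hx : x ∈ s34m_Vinf G M)
    (hfrob : qExpand κ q (s34m_redInf G M ⟨x, hx⟩) = s34m_redInf G M ⟨x, hx⟩ ^ q)
    (hw0 : s36g_alpha M q (heckeAlphaBar K₀ M q x) ≠ 0)
    (hwinv : ∀ i, (s36g_alpha M q (heckeAlphaBar K₀ M q x))⁻¹ ∈ V i)
    (hreg : ∀ Q : Place K₀ (s34m_F K₀ (M * q * q)),
      (s36g_alpha M q (heckeAlphaBar K₀ M q x))⁻¹ ∈ Q.toValuationSubring →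
      s36g_alpha M q (heckeBetaBar K₀ M q x) *
        (s36g_alpha M q (heckeAlphaBar K₀ M q x))⁻¹ ^ q ∈ Q.toValuationSubring ∧
      s36g_beta M q (heckeBetaBar K₀ M q x) *
        (s36g_alpha M q (heckeAlphaBar K₀ M q x))⁻¹ ^ (q * q) ∈ Q.toValuationSubring)
    (𝔫 : Ideal (s34x_ring (L₀ := K₀) (s34x_infRing V)
      (s18_chart2 (s36g_alpha M q (heckeAlphaBar K₀ M q x))))) [h𝔫 : 𝔫.IsPrime]
    (hpolar : ∃ b ∈ 𝔫, (b : s34m_F K₀ (M * q * q)) =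
      (s36g_alpha M q (heckeAlphaBar K₀ M q x))⁻¹) :
    ∀ i k, s36q_compThrough V (s18_chart2 (s36g_alpha M q (heckeAlphaBar K₀ M q x))) 𝔫 i →
      s36q_compThrough V (s18_chart2 (s36g_alpha M q (heckeAlphaBar K₀ M q x))) 𝔫 k → i = k := by
  obtain ⟨b, hb𝔫, hb⟩ := hpolar
  refine s36q_hone_of_not_both V _ 𝔫
    (s36q_cusp_geo G φ M q hq hqM V hC hR x hx hfrob hw0 hwinv hreg 𝔫 ?_)
  intro zB hzB
  have : zB = b := Subtype.ext (hzB.trans hb.symm)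
  rw [this]; exact hb𝔫

end Fermat.Agent.Lib.S36
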