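/-
S36 project, geometry layer (X1) (helper1, prefix `s36b_`), ABSTRACT PART (Mathlib + `CFund.lean`).

`i : F₁ →+* F₂` an algebraic field extension, `W₁ ≠ W₂` two discrete valuation subrings of `F₁`
with a common uniformiser `ϖ`, `𝒱 k` a family of valuation subrings of `F₂` containing ALL the
valuation subrings of `F₂` lying over `W₁` or over `W₂`.  Then

  `s36b_integral_of_complete` : every `y ∈ ⋂ 𝒱 k` is integral over `i (W₁ ∩ W₂)`
  (sum form: `y ^ n + ∑_{k < n} i (c k) * y ^ k = 0` with all `c k ∈ W₁ ∩ W₂`).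

Route: Mathlib's `iInf_valuationSubring_superset` (the integral closure of a subring of a field is
the intersection of the valuation subrings containing it) + the classification of the valuation
subrings `W ⊇ W₁ ∩ W₂` of `F₁` (`W = W₁`, `W₂` or `⊤`: two-valuation approximation, and a discrete
valuation ring is a maximal proper subring).

Also `s36b_isIntegral_of_rel`: a root of a monic relation with integral coefficients is integral.
-/
import Mathlib
import Fermat.Agent.Lib.S36.CFund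

set_option autoImplicit false

namespace Fermat.Agent.Lib.S36

open Polynomial

section OneField

variable {F : Type*} [Field F]

/-- a root of a monic relation with coefficients in a valuation ring lies in the ring. -/
theorem s36b_mem_of_monic_rel (A : ValuationSubring F) (n : ℕ)
    (b : ℕ → F) (hb : ∀ i < n, b i ∈ A) (Z : F)
    (h : Z ^ n + ∑ i ∈ Finset.range n, b i * Z ^ i = 0) : Z ∈ A := by
  by_contra hZ
  have hv : 1 < A.valuation Z := by
    rw [← not_le, A.valuation_le_one_iff]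
    exact hZ
  have hZn : Z ^ n = -∑ i ∈ Finset.range n, b i * Z ^ i := eq_neg_of_add_eq_zero_left h
  have h0 : A.valuation Z ^ n ≠ 0 := pow_ne_zero _ (ne_of_gt (lt_trans zero_lt_one hv))
  have hlt : A.valuation (∑ i ∈ Finset.range n, b i * Z ^ i) < A.valuation Z ^ n := by
    refine Valuation.map_sum_lt _ h0 fun i hi => ?_
    have hi' : i < n := Finset.mem_range.mp hi
    rw [Valuation.map_mul, Valuation.map_pow]
    have h1 : A.valuation (b i) ≤ 1 := (A.valuation_le_one_iff _).mpr (hb i hi')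
    have h2 : A.valuation Z ^ i < A.valuation Z ^ n := pow_lt_pow_right₀ hv hi'
    calc A.valuation (b i) * A.valuation Z ^ i ≤ 1 * A.valuation Z ^ i :=
          mul_le_mul' h1 le_rfl
      _ = A.valuation Z ^ i := one_mul _
      _ < A.valuation Z ^ n := h2
  have : A.valuation (Z ^ n) = A.valuation Z ^ n := Valuation.map_pow _ _ _
  rw [hZn, Valuation.map_neg] at this
  exact (ne_of_lt hlt) this

/-- two-valuation approximation for incomparable valuation subrings. -/
theorem s36b_approx_two {V W : ValuationSubring F} (h1 : ¬ V ≤ W) (h2 : ¬ W ≤ V) :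
    ∃ y₀ : F, V.valuation y₀ < 1 ∧ W.valuation (1 - y₀) < 1 := by
  obtain ⟨a, haV, haW⟩ := SetLike.not_le_iff_exists.mp h1
  obtain ⟨b, hbW, hbV⟩ := SetLike.not_le_iff_exists.mp h2
  have ha0 : a ≠ 0 := by rintro rfl; exact haW W.zero_mem
  have hb0 : b ≠ 0 := by rintro rfl; exact hbV V.zero_mem
  have hva : V.valuation a ≤ 1 := (V.valuation_le_one_iff a).mpr haV
  have hvb : 1 < V.valuation b := by rw [← not_le, V.valuation_le_one_iff]; exact hbV
  have hwa : 1 < W.valuation a := by rw [← not_le, W.valuation_le_one_iff]; exact haW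
  have hwb : W.valuation b ≤ 1 := (W.valuation_le_one_iff b).mpr hbW
  set y' := a / b with hy'
  have hvy' : V.valuation y' < 1 := by
    rw [hy', map_div₀]
    have hpos : (0 : V.ValueGroup) < V.valuation b := lt_trans one_pos hvb
    rw [div_lt_one₀ hpos]
    exact lt_of_le_of_lt hva hvb
  have hwy' : 1 < W.valuation y' := by
    rw [hy', map_div₀]
    have hpos : (0 : W.ValueGroup) < W.valuation b :=
      zero_lt_iff.mpr ((_root_.map_ne_zero _).mpr hb0)
    rw [one_lt_div₀ hpos]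
    exact lt_of_le_of_lt hwb hwa
  have hv1 : V.valuation (1 + y') = 1 := by
    have := Valuation.map_add_eq_of_lt_left V.valuation (x := 1) (y := y')
      (by rw [map_one]; exact hvy')
    rw [this, map_one]
  have hw1 : W.valuation (1 + y') = W.valuation y' :=
    Valuation.map_add_eq_of_lt_right W.valuation (by rw [map_one]; exact hwy')
  have hne : 1 + y' ≠ 0 := by
    intro h0
    rw [h0, map_zero] at hv1
    exact zero_ne_one hv1
  refine ⟨y' / (1 + y'), ?_, ?_⟩
  · rw [map_div₀, hv1, div_one]; exact hvy'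
  · have : 1 - y' / (1 + y') = (1 + y')⁻¹ := by
      field_simp
      ring
    rw [this, map_inv₀, hw1]
    exact inv_lt_one_of_one_lt₀ hwy'

/-- a discrete valuation subring is a maximal proper subring. -/
theorem s36b_dvr_max {O W : ValuationSubring F} {ϖ : F} (h : s36c_IsUnif O ϖ) (hle : O ≤ W) :
    W = O ∨ W = ⊤ := by
  have hϖ0 := s36c_unif_ne_zero h
  by_cases hϖW : ϖ⁻¹ ∈ W
  · right
    refine eq_top_iff.mpr fun x _ => ?_
    by_cases hx0 : x = 0
    · rw [hx0]; exact W.zero_mem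
    obtain ⟨n, u, hu, -, e⟩ := h.2.2 x hx0
    rw [e]
    refine W.mul_mem _ _ ?_ (hle hu)
    rcases le_or_gt 0 n with hn | hn
    · obtain ⟨k, hk⟩ := Int.eq_ofNat_of_zero_le hn
      rw [hk, zpow_natCast]
      exact pow_mem (hle h.1) k
    · obtain ⟨k, hk⟩ := Int.eq_ofNat_of_zero_le (by omega : 0 ≤ -n)
      have : ϖ ^ n = ϖ⁻¹ ^ k := by
        rw [← zpow_natCast, ← hk, inv_zpow, zpow_neg, inv_inv]
      rw [this]
      exact pow_mem hϖW k
  · left
    refine le_antisymm (fun x hx => ?_) hle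
    by_cases hx0 : x = 0
    · rw [hx0]; exact O.zero_mem
    obtain ⟨n, u, hu, hu', e⟩ := h.2.2 x hx0
    rcases le_or_gt 0 n with hn | hn
    · obtain ⟨k, hk⟩ := Int.eq_ofNat_of_zero_le hn
      rw [e, hk, zpow_natCast]
      exact O.mul_mem _ _ (pow_mem h.1 k) hu
    · exfalso
      apply hϖW
      have hu0 : u ≠ 0 := by
        rintro rfl
        rw [mul_zero] at e
        exact hx0 e
      have h1 : ϖ ^ n = x * u⁻¹ := by
        rw [e, mul_assoc, mul_inv_cancel₀ hu0, mul_one]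
      have h2 : ϖ ^ n ∈ W := by
        rw [h1]
        exact W.mul_mem _ _ hx (hle hu')
      obtain ⟨k, hk⟩ := Int.eq_ofNat_of_zero_le (by omega : 0 ≤ -n - 1)
      have h3 : ϖ⁻¹ = ϖ ^ n * ϖ ^ k := by
        rw [← zpow_natCast, ← hk, ← zpow_add₀ hϖ0, ← zpow_neg_one]
        congr 1
        ring
      rw [h3]
      exact W.mul_mem _ _ h2 (pow_mem (hle h.1) k)

theorem s36b_dvr_ne_top {O : ValuationSubring F} {ϖ : F} (h : s36c_IsUnif O ϖ) : O ≠ ⊤ := by
  intro htop
  apply h.2.1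
  rw [htop]
  exact ValuationSubring.mem_top _

/-- distinct discrete valuation subrings are incomparable. -/
theorem s36b_dvr_not_le {O₁ O₂ : ValuationSubring F} {ϖ : F} (h₁ : s36c_IsUnif O₁ ϖ)
    (h₂ : s36c_IsUnif O₂ ϖ) (hne : O₁ ≠ O₂) : ¬ O₁ ≤ O₂ := by
  intro hle
  rcases s36b_dvr_max h₁ hle with h | h
  · exact hne h.symm
  · exact s36b_dvr_ne_top h₂ h

/-- an element of `O₁` times a high power of a non-unit of `O₂` lies in `O₁ ∩ O₂`. -/
theorem s36b_mul_pow_mem {O₂ : ValuationSubring F} {ϖ : F} (h₂ : s36c_IsUnif O₂ ϖ) (a z : F)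
    (hz : O₂.valuation z < 1) : ∃ N : ℕ, a * z ^ N ∈ O₂ := by
  have hϖ0 := s36c_unif_ne_zero h₂
  by_cases ha0 : a = 0
  · exact ⟨0, by rw [ha0, zero_mul]; exact O₂.zero_mem⟩
  have hzO : z ∈ O₂ := (O₂.valuation_le_one_iff z).mp hz.le
  have hzn : z = 0 ∨ z⁻¹ ∉ O₂ := by
    by_cases hz0 : z = 0
    · exact Or.inl hz0
    · right
      intro hinv
      have h1 : O₂.valuation z⁻¹ ≤ 1 := (O₂.valuation_le_one_iff _).mpr hinv
      rw [map_inv₀] at h1
      have h2 : 1 ≤ O₂.valuation z := by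
        have hpos : (0 : O₂.ValueGroup) < O₂.valuation z :=
          zero_lt_iff.mpr ((_root_.map_ne_zero _).mpr hz0)
        exact (inv_le_one₀ hpos).mp h1
      exact absurd hz (not_lt.mpr h2)
  obtain ⟨z', hz', ez⟩ := s36c_nonunit_eq_mul h₂ z hzn hzO
  obtain ⟨n, u, hu, -, e⟩ := h₂.2.2 a ha0
  refine ⟨(-n).toNat, ?_⟩
  have hnn : 0 ≤ n + ((-n).toNat : ℤ) := by
    have := Int.self_le_toNat (-n)
    omega
  obtain ⟨k, hk⟩ := Int.eq_ofNat_of_zero_le hnn
  have e2 : a * z ^ (-n).toNat = ϖ ^ k * (u * z' ^ (-n).toNat) := by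
    rw [e, ez, mul_pow, ← zpow_natCast ϖ k, ← hk, zpow_add₀ hϖ0, zpow_natCast]
    ring
  rw [e2]
  exact O₂.mul_mem _ _ (pow_mem h₂.1 k) (O₂.mul_mem _ _ hu (pow_mem hz' _))

/-- a valuation subring containing `O₁ ∩ O₂` (two distinct discrete valuation subrings) contains
`O₁` or `O₂`. -/
theorem s36b_le_of_inter_le {O₁ O₂ W : ValuationSubring F} {ϖ : F} (h₁ : s36c_IsUnif O₁ ϖ)
    (h₂ : s36c_IsUnif O₂ ϖ) (hne : O₁ ≠ O₂) (hW : ∀ x, x ∈ O₁ → x ∈ O₂ → x ∈ W) :
    O₁ ≤ W ∨ O₂ ≤ W := by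
  obtain ⟨e, he1, he2⟩ := s36b_approx_two (s36b_dvr_not_le h₁ h₂ hne)
    (s36b_dvr_not_le h₂ h₁ hne.symm)
  have heO1 : e ∈ O₁ := (O₁.valuation_le_one_iff e).mp he1.le
  have h1eO2 : 1 - e ∈ O₂ := (O₂.valuation_le_one_iff _).mp he2.le
  have h1eO1 : 1 - e ∈ O₁ := sub_mem O₁.one_mem heO1
  have heO2 : e ∈ O₂ := by
    have : e = 1 - (1 - e) := by ring
    rw [this]
    exact sub_mem O₂.one_mem h1eO2
  have heW : e ∈ W := hW e heO1 heO2
  have h1eW : 1 - e ∈ W := hW _ h1eO1 h1eO2
  by_cases hinv : e⁻¹ ∈ W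
  · right
    intro b hb
    obtain ⟨N, hN⟩ := s36b_mul_pow_mem h₁ b e he1
    have hmem : b * e ^ N ∈ W := hW _ hN (O₂.mul_mem _ _ hb (pow_mem heO2 N))
    have he0 : e ≠ 0 := by
      rintro rfl
      rw [sub_zero, map_one] at he2
      exact lt_irrefl _ he2
    have : b = b * e ^ N * e⁻¹ ^ N := by
      rw [mul_assoc, ← mul_pow, mul_inv_cancel₀ he0, one_pow, mul_one]
    rw [this]
    exact W.mul_mem _ _ hmem (pow_mem hinv N)
  · left
    intro a ha
    have hval : W.valuation e < 1 := by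
      rw [lt_iff_le_and_ne]
      refine ⟨(W.valuation_le_one_iff e).mpr heW, fun h1 => hinv ?_⟩
      rw [← W.valuation_le_one_iff, map_inv₀, h1, inv_one]
    have hunit : W.valuation (1 - e) = 1 := by
      have := Valuation.map_sub_eq_of_lt_left W.valuation (x := 1) (y := e)
        (by rw [map_one]; exact hval)
      rw [this, map_one]
    have hinv' : (1 - e)⁻¹ ∈ W := by
      rw [← W.valuation_le_one_iff, map_inv₀, hunit, inv_one]
    have h1e0 : 1 - e ≠ 0 := by
      intro h0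
      rw [h0, map_zero] at hunit
      exact zero_ne_one hunit
    obtain ⟨N, hN⟩ := s36b_mul_pow_mem h₂ a (1 - e) he2
    have hmem : a * (1 - e) ^ N ∈ W := hW _ (O₁.mul_mem _ _ ha (pow_mem h1eO1 N)) hN
    have : a = a * (1 - e) ^ N * (1 - e)⁻¹ ^ N := by
      rw [mul_assoc, ← mul_pow, mul_inv_cancel₀ h1e0, one_pow, mul_one]
    rw [this]
    exact W.mul_mem _ _ hmem (pow_mem hinv' N)

end OneField

section TwoFields

variable {F₁ F₂ : Type*} [Field F₁] [Field F₂]

/-- a valuation subring of an algebraic extension containing the base field is everything. -/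
theorem s36b_mem_of_comap_top (i : F₁ →+* F₂) (U : ValuationSubring F₂)
    (hU : ∀ a : F₁, i a ∈ U) (z : F₂) (hz : ∃ p : F₁[X], p ≠ 0 ∧ p.eval₂ i z = 0) : z ∈ U := by
  obtain ⟨p, hp0, hpz⟩ := hz
  set n := p.natDegree with hn
  have hlc : p.leadingCoeff ≠ 0 := leadingCoeff_ne_zero.mpr hp0
  refine s36b_mem_of_monic_rel U n (fun k => i (p.coeff k / p.leadingCoeff)) (fun k _ => hU _) z ?_
  rw [eval₂_eq_sum_range, Finset.sum_range_succ] at hpz
  have h1 : i p.leadingCoeff ≠ 0 := (map_ne_zero i).mpr hlc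
  have h2 : i p.leadingCoeff * (z ^ n + ∑ k ∈ Finset.range n,
      i (p.coeff k / p.leadingCoeff) * z ^ k) = 0 := by
    rw [mul_add, Finset.mul_sum, add_comm]
    refine Eq.trans ?_ hpz
    congr 1
    refine Finset.sum_congr rfl fun k _ => ?_
    rw [← mul_assoc, ← map_mul, mul_div_cancel₀ _ hlc]
  exact (mul_eq_zero.mp h2).resolve_left h1

/-- **integrality over `i (W₁ ∩ W₂)` of the elements lying in all the valuation subrings over
`W₁`, `W₂`.** -/
theorem s36b_integral_of_complete (i : F₁ →+* F₂)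
    (halg : ∀ z : F₂, ∃ p : F₁[X], p ≠ 0 ∧ p.eval₂ i z = 0)
    {W₁ W₂ : ValuationSubring F₁} {ϖ : F₁} (h₁ : s36c_IsUnif W₁ ϖ) (h₂ : s36c_IsUnif W₂ ϖ)
    (hne : W₁ ≠ W₂) {ι : Type*} (𝒱 : ι → ValuationSubring F₂)
    (hcompl : ∀ U : ValuationSubring F₂, U.comap i = W₁ ∨ U.comap i = W₂ → ∃ k, U = 𝒱 k)
    (y : F₂) (hy : ∀ k, y ∈ 𝒱 k) :
    ∃ (n : ℕ) (c : ℕ → F₁), (∀ k, c k ∈ W₁ ∧ c k ∈ W₂) ∧
      y ^ n + ∑ k ∈ Finset.range n, i (c k) * y ^ k = 0 := by
  set R₀ : Subring F₂ := (W₁.toSubring ⊓ W₂.toSubring).map i with hR₀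
  -- `y` lies in every valuation subring containing `R₀`
  have hall : ∀ U : ValuationSubring F₂, (R₀ : Set F₂) ⊆ U.toSubring → y ∈ U := by
    intro U hU
    have hUW : ∀ x, x ∈ W₁ → x ∈ W₂ → x ∈ U.comap i := by
      intro x hx1 hx2
      rw [ValuationSubring.mem_comap]
      exact hU (Subring.mem_map.mpr ⟨x, Subring.mem_inf.mpr ⟨hx1, hx2⟩, rfl⟩)
    have hcase : U.comap i = W₁ ∨ U.comap i = W₂ ∨ U.comap i = ⊤ := by
      rcases s36b_le_of_inter_le h₁ h₂ hne hUW with hle | hle
      · rcases s36b_dvr_max h₁ hle with h | h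
        · exact Or.inl h
        · exact Or.inr (Or.inr h)
      · rcases s36b_dvr_max h₂ hle with h | h
        · exact Or.inr (Or.inl h)
        · exact Or.inr (Or.inr h)
    rcases hcase with h | h | h
    · obtain ⟨k, hk⟩ := hcompl U (Or.inl h)
      rw [hk]; exact hy k
    · obtain ⟨k, hk⟩ := hcompl U (Or.inr h)
      rw [hk]; exact hy k
    · refine s36b_mem_of_comap_top i U (fun a => ?_) y (halg y)
      have : a ∈ U.comap i := by rw [h]; exact ValuationSubring.mem_top _
      exact this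
  have hmem : y ∈ (⨅ V : {V : ValuationSubring F₂ // (R₀ : Set F₂) ⊆ V.toSubring},
      V.1.toSubring) := by
    rw [Subring.mem_iInf]
    rintro ⟨U, hU⟩
    exact hall U hU
  rw [iInf_valuationSubring_superset] at hmem
  have hint : IsIntegral (Subring.closure (R₀ : Set F₂)) y := hmem
  obtain ⟨P, hPm, hP⟩ := hint
  have hcoeff : ∀ k, ∃ c : F₁, (c ∈ W₁ ∧ c ∈ W₂) ∧
      i c = ((P.coeff k : Subring.closure (R₀ : Set F₂)) : F₂) := by
    intro k
    have h1 : ((P.coeff k : Subring.closure (R₀ : Set F₂)) : F₂) ∈ R₀ := by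
      exact (Subring.closure_le.mpr (le_refl (R₀ : Set F₂))) (P.coeff k).2
    obtain ⟨c, hc, e⟩ := Subring.mem_map.mp h1
    exact ⟨c, Subring.mem_inf.mp hc, e⟩
  choose c hc hce using hcoeff
  refine ⟨P.natDegree, c, hc, ?_⟩
  rw [eval₂_eq_sum_range, Finset.sum_range_succ, hPm.coeff_natDegree, map_one, one_mul,
    add_comm] at hP
  refine Eq.trans ?_ hP
  congr 1
  refine Finset.sum_congr rfl fun k _ => ?_
  rw [hce k]
  rfl

end TwoFields

section Integral

/-- a root of a monic relation with integral coefficients is integral. -/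
theorem s36b_isIntegral_of_rel {R B : Type*} [CommRing R] [CommRing B] [Algebra R B] (n : ℕ)
    (d : ℕ → B) (hd : ∀ k < n, IsIntegral R (d k)) (z : B)
    (h : z ^ n + ∑ k ∈ Finset.range n, d k * z ^ k = 0) : IsIntegral R z := by
  classical
  set IC := integralClosure R B with hIC
  let d' : Fin n → IC := fun k => ⟨d k, hd k k.2⟩
  set p : IC[X] := ∑ k : Fin n, C (d' k) * X ^ (k : ℕ) with hp
  have hdeg : p.degree < n := degree_sum_fin_lt d'
  have hmonic : (X ^ n + p).Monic := monic_X_pow_add hdeg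
  have hz : IsIntegral IC z := by
    refine ⟨X ^ n + p, hmonic, ?_⟩
    rw [eval₂_add, eval₂_pow, eval₂_X, hp, eval₂_finsetSum]
    refine Eq.trans ?_ h
    congr 1
    rw [← Fin.sum_univ_eq_sum_range (fun k => d k * z ^ k) n]
    refine Finset.sum_congr rfl fun k _ => ?_
    rw [eval₂_mul, eval₂_C, eval₂_pow, eval₂_X]
    rfl
  exact isIntegral_trans z hz

end Integral

end Fermat.Agent.Lib.S36
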