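/-
S36 project, geometry layer (X1) (helper1, prefix `s36b_`): THE BASE FUNCTION, THE DICTIONARIES AND
THE ČECH INPUT AT LEVEL `M q²`, for an ARBITRARY family `V : Fin 3 → ValuationSubring F₂`
satisfying helper8's sub-contracts `s36g_ValComap`, `s36g_ValUnif`, `s36g_ValComplete`,
`s36g_ValIndep` (`GeoFrame.lean`).  Twin of `Lib/S35/Geo.lean` (`s35g_dict₁/₂`, `s35g_hH`).

Base function: `w := α'(w₁)`, `w₁` ANY function of level `M q` with the non-[D] facts of
`s35g_BaseData` (`w₁ ≠ 0`, `FFGen`, `w₁^{±1} ∈ V'_∞ ⊓ V'_0`, Galois-fixed, (α) for `w₁^{±1}`).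

* `s36b_const_mem`, `s36b_alpha_mem_iff`, `s36b_alpha_mem`, `s36b_unif_mem`, `s36b_hJe` (`e = q - 1`);
* `s36b_halg` (`F₂` is algebraic over `α' F₁`), `s36b_ffGen`, `s36b_galois_fixed`;
* **`s36b_alphaW`** : (α) for the family `V` w.r.t. `α'(w₁)` from (α) of level `M q` w.r.t. `w₁`
  ((α)-transfer: every `y ∈ ⋂ V i` is integral over `α'(V'_∞ ⊓ V'_0)`, `XBaseAbs.lean`);
* **`s36b_dict₁`, `s36b_dict₂`, `s36b_hH`** : the dictionaries `s35f_Dict` of the two charts of `w`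
  and the Čech input of lead's `s36x_zero_inf`, for every function.
-/
import Fermat.Agent.Lib.S35.Geo
import Fermat.Agent.Lib.S34.FFinal
import Fermat.Agent.Lib.S36.GeoFrame
import Fermat.Agent.Lib.S36.XBaseAbs

set_option autoImplicit false
set_option linter.unusedSectionVars false
set_option linter.style.haveILetI false
set_option synthInstance.maxHeartbeats 400000

noncomputable section

namespace Fermat.Agent.Lib.S36

open ModularCurve AlgebraicCurve HahnSeries Polynomial Fermat.Agent.Lib.FF Fermat.Agent.Lib.S18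
  Fermat.Agent.Lib.S37 Fermat.Agent.Lib.S34 Fermat.Agent.Lib.S35

local notation "Kb" => AlgebraicClosure ℚ

variable {K₀ : Type} [Field K₀] [Algebra ℚ K₀] {κ : Type} [Field κ] (G : s18g_GaussData K₀ κ)
  (φ : K₀ →+* Kb) (M q : ℕ) [NeZero M] [NeZero q] (hq : q.Prime) (hqM : ¬ q ∣ M)
  (V : Fin 3 → ValuationSubring (s34m_F K₀ (M * q * q))) (t : s34m_F K₀ (M * q * q))

local notation "𝓕₁" => laurentBaseChange K₀ (modularFunctionFieldFull (M * q))
local notation "𝓕₂" => laurentBaseChange K₀ (modularFunctionFieldFull (M * q * q))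

/-! ### Level `M q`: the two discrete valuation rings -/

/-- `ϖ` is a uniformiser of `V'_∞` and of `V'_0`. -/
theorem s36b_isUnif_VV (i : Bool) :
    s36c_IsUnif (s34m_VV G φ M q hq hqM i) (s34m_unif G (M * q)) := by
  refine ⟨s34m_unif_mem_VV G φ M q hq hqM i, fun hinv => ?_,
    fun x hx => s34m_exists_zpow_VV G φ M q hq hqM i x hx⟩
  apply s34f_unif_not_unit_VV G φ M q hq hqM i
  refine ⟨_, hinv, ?_⟩
  exact (mul_inv_cancel₀ (s34m_unif_ne_zero G (M * q))).symm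

/-! ### Memberships -/

variable {V}

/-- `α' x ∈ V i ↔ x ∈ V'_∞` (`i = 0, 1`) resp. `x ∈ V'_0` (`i = 2`). -/
theorem s36b_alpha_mem_iff (hC : s36g_ValComap G φ M q hq hqM V) (x : s34m_F K₀ (M * q)) :
    (s36g_alpha M q x ∈ V 0 ↔ x ∈ s34m_Vinf G (M * q)) ∧
    (s36g_alpha M q x ∈ V 1 ↔ x ∈ s34m_Vinf G (M * q)) ∧
    (s36g_alpha M q x ∈ V 2 ↔ x ∈ s34m_Vzero G φ M q hq hqM) := by
  obtain ⟨-, h0, -, h1, -, h2, -⟩ := hC
  have e0 : x ∈ (V 0).comap (s36g_alpha M q) ↔ s36g_alpha M q x ∈ V 0 :=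
    ValuationSubring.mem_comap
  have e1 : x ∈ (V 1).comap (s36g_alpha M q) ↔ s36g_alpha M q x ∈ V 1 :=
    ValuationSubring.mem_comap
  have e2 : x ∈ (V 2).comap (s36g_alpha M q) ↔ s36g_alpha M q x ∈ V 2 :=
    ValuationSubring.mem_comap
  rw [h0] at e0
  rw [h1] at e1
  rw [h2] at e2
  exact ⟨e0.symm, e1.symm, e2.symm⟩

/-- an element of `V'_∞ ⊓ V'_0` goes to `⋂ V i` under `α'`. -/
theorem s36b_alpha_mem (hC : s36g_ValComap G φ M q hq hqM V) (x : s34m_F K₀ (M * q))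
    (hx : ∀ i, x ∈ s34m_VV G φ M q hq hqM i) (i : Fin 3) : s36g_alpha M q x ∈ V i := by
  obtain ⟨h0, h1, h2⟩ := s36b_alpha_mem_iff G φ M q hq hqM hC x
  fin_cases i
  · exact h0.mpr (hx true)
  · exact h1.mpr (hx true)
  · exact h2.mpr (hx false)

/-- the constants of `A` lie in every `V i`. -/
theorem s36b_const_mem (hC : s36g_ValComap G φ M q hq hqM V) (i : Fin 3) (a : G.A) :
    algebraMap K₀ (s34m_F K₀ (M * q * q)) (a : K₀) ∈ V i := by
  have h := s36b_alpha_mem G φ M q hq hqM hC (algebraMap K₀ (s34m_F K₀ (M * q)) (a : K₀))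
    (fun j => s34c_const_mem_VV G φ M q hq hqM j a) i
  have e : s36g_alpha M q (algebraMap K₀ (s34m_F K₀ (M * q)) (a : K₀)) =
      algebraMap K₀ (s34m_F K₀ (M * q * q)) (a : K₀) :=
    (heckeAlphaBar K₀ (M * q) q).commutes _
  rwa [e] at h

variable {t}

/-- `ϖ ∈ V i`. -/
theorem s36b_unif_mem (hU : s36g_ValUnif G M q V t) (i : Fin 3) :
    algebraMap K₀ (s34m_F K₀ (M * q * q)) ((G.ϖ : G.A) : K₀) ∈ V i :=
  (ValuationSubring.nonunits_le (A := V i)) (hU.1 i)

/-- `ϖ` is a non-unit of every `V i`. -/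
theorem s36b_unif_mem_nonunits (hU : s36g_ValUnif G M q V t) (i : Fin 3) :
    algebraMap K₀ (s34m_F K₀ (M * q * q)) ((G.ϖ : G.A) : K₀) ∈ (V i).nonunits :=
  hU.1 i

/-- every element has a `ϖ`-power multiple in `V i`. -/
theorem s36b_hU (hU : s36g_ValUnif G M q V t) (i : Fin 3) (y : s34m_F K₀ (M * q * q)) :
    ∃ k : ℕ, algebraMap K₀ (s34m_F K₀ (M * q * q)) ((G.ϖ : G.A) : K₀) ^ k * y ∈ V i :=
  hU.2.2.2.2.2.2 i y

include hq in
/-- **`hJe`** of `s36x_zero_inf` with `e = q - 1`: a product of `q - 1` non-units of `V i` is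
divisible by `ϖ` in `V i`. -/
theorem s36b_hJe (hU : s36g_ValUnif G M q V t) (i : Fin 3)
    (l : Fin (q - 1) → s34m_F K₀ (M * q * q)) (hl : ∀ k, l k ∈ (V i).nonunits) :
    ∃ y ∈ V i, ∏ k, l k =
      algebraMap K₀ (s34m_F K₀ (M * q * q)) ((G.ϖ : G.A) : K₀) * y := by
  obtain ⟨-, h0, h2, -, h1, ⟨u, hu, hu', eu⟩, -⟩ := hU
  have hq1 : 0 < q - 1 := by have := hq.two_le; omega
  -- the case of a uniformiser `ϖ`
  have key : ∀ j : Fin 3, (∀ y ∈ (V j).nonunits, ∃ z ∈ V j, y = s34m_unif G (M * q * q) * z) →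
      (∀ k, l k ∈ (V j).nonunits) →
      ∃ y ∈ V j, ∏ k, l k = s34m_unif G (M * q * q) * y := by
    intro j hj hlj
    set k₀ : Fin (q - 1) := ⟨0, hq1⟩
    obtain ⟨z, hz, ez⟩ := hj (l k₀) (hlj k₀)
    refine ⟨z * ∏ k ∈ Finset.univ.erase k₀, l k, (V j).mul_mem _ _ hz ?_, ?_⟩
    · exact prod_mem fun k _ => ValuationSubring.nonunits_le (hlj k)
    · rw [← Finset.mul_prod_erase Finset.univ l (Finset.mem_univ k₀), ez]
      exact mul_assoc _ _ _
  fin_cases i
  · exact key 0 h0 hl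
  · -- `V 1`: uniformiser `t`, `ϖ = u t^(q-1)`
    choose z hz ez using fun k => h1 (l k) (hl k)
    refine ⟨u⁻¹ * ∏ k, z k, (V 1).mul_mem _ _ hu' (prod_mem fun k _ => hz k), ?_⟩
    have hu0 : u ≠ 0 := by
      rintro rfl
      rw [zero_mul] at eu
      exact s34m_unif_ne_zero G (M * q * q) eu
    have e1 : ∏ k, l k = t ^ (q - 1) * ∏ k, z k := by
      rw [Finset.prod_congr rfl fun k _ => ez k, Finset.prod_mul_distrib, Finset.prod_const,
        Finset.card_univ, Fintype.card_fin]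
    show ∏ k, l k = s34m_unif G (M * q * q) * (u⁻¹ * ∏ k, z k)
    rw [e1, eu]
    field_simp
  · exact key 2 h2 hl

/-! ### Algebraicity and the generator -/

theorem s36b_alpha_apply (x : s34m_F K₀ (M * q)) :
    s36g_alpha M q x = heckeAlphaBar K₀ (M * q) q x := rfl

theorem s36b_coe_alpha (x : s34m_F K₀ (M * q)) :
    ((s36g_alpha M q x : s34m_F K₀ (M * q * q)) : LaurentSeries K₀) = (x : LaurentSeries K₀) := by
  rw [s36b_alpha_apply]
  exact coe_heckeAlphaBar (M * q) q x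

/-- `α' j = j`. -/
theorem s36b_alpha_jF :
    s36g_alpha M q (s18g_jF (K := K₀) (M * q)) = s18g_jF (K := K₀) (M * q * q) := by
  apply Subtype.ext
  rw [s36b_coe_alpha]
  rfl

/-- `α'` commutes with polynomial evaluation. -/
theorem s36b_alpha_aeval (x : s34m_F K₀ (M * q)) (p : K₀[X]) :
    s36g_alpha M q (aeval x p) = aeval (s36g_alpha M q x) p :=
  (Polynomial.aeval_algHom_apply (heckeAlphaBar K₀ (M * q) q) x p).symm

include φ in
/-- `F₂` is algebraic over `α' F₁`. -/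
theorem s36b_halg (z : s34m_F K₀ (M * q * q)) :
    ∃ p : (s34m_F K₀ (M * q))[X], p ≠ 0 ∧ p.eval₂ (s36g_alpha M q) z = 0 := by
  classical
  set n := dedekindPsi (M * q * q) + 1 with hn
  obtain ⟨c, hc0, hrel⟩ := s18g_exists_relation (M * q * q) φ (Nat.lt_succ_self _)
    (fun i : Fin n => ((z ^ (i : ℕ) : s34m_F K₀ (M * q * q)) : LaurentSeries K₀))
    (fun i => (z ^ (i : ℕ)).2)
  set j₁ := s18g_jF (K := K₀) (M * q) with hj₁
  refine ⟨∑ i : Fin n, Polynomial.C (aeval j₁ (c i)) * X ^ (i : ℕ), ?_, ?_⟩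
  · intro h0
    apply hc0
    funext i
    have h1 := congrArg (fun p : (s34m_F K₀ (M * q))[X] => p.coeff (i : ℕ)) h0
    simp only [finsetSum_coeff, coeff_C_mul, coeff_X_pow, Polynomial.coeff_zero] at h1
    rw [Finset.sum_eq_single i] at h1
    · simp only [if_true, mul_one] at h1
      have htr : Transcendental K₀ j₁ := s18b_transcendental_jF (M * q)
      have h2 : aeval j₁ (c i) = aeval j₁ (0 : K₀[X]) := by rw [h1, map_zero]
      exact (transcendental_iff_injective.mp htr) h2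
    · intro b _ hb
      have : (i : ℕ) ≠ (b : ℕ) := fun h => hb (Fin.ext h.symm)
      rw [if_neg this, mul_zero]
    · intro h
      exact absurd (Finset.mem_univ i) h
  · rw [eval₂_finsetSum]
    apply Subtype.ext
    rw [AddSubmonoidClass.coe_finsetSum, ZeroMemClass.coe_zero, ← hrel]
    refine Finset.sum_congr rfl fun i _ => ?_
    rw [eval₂_mul, eval₂_C, eval₂_pow, eval₂_X, s36b_alpha_aeval, s36b_alpha_jF,
      MulMemClass.coe_mul, s18b_coe_aeval_jF]

include φ in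
/-- `α'(w₁)` is a generator of the function field of level `M q²`. -/
theorem s36b_ffGen (w₁ : s34m_F K₀ (M * q)) (hgen : FFGen K₀ w₁) :
    FFGen K₀ (s36g_alpha M q w₁) := by
  haveI : FFGen K₀ (s18g_jF (K := K₀) (M * q * q)) :=
    s18b_ffGen_jF (M * q * q) (fun _ b hb hn => s18g_exists_relation (M * q * q) φ hn b hb)
  refine ff_gen_of_transcendental (x := s18g_jF (K := K₀) (M * q * q)) ?_
  intro halg
  apply hgen.transc
  exact (isAlgebraic_algHom_iff (heckeAlphaBar K₀ (M * q) q)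
    (heckeAlphaBar K₀ (M * q) q).toRingHom.injective).mp halg

/-- `α'(w₁)` is fixed by the coefficientwise Galois action if `w₁` is. -/
theorem s36b_galois_fixed (w₁ : s34m_F K₀ (M * q)) (σ₀ : K₀ ≃ₐ[ℚ] K₀)
    (hfix : arithmeticGalois (modularFunctionFieldFull (M * q)) σ₀ • w₁ = w₁) :
    arithmeticGalois (modularFunctionFieldFull (M * q * q)) σ₀ • s36g_alpha M q w₁ =
      s36g_alpha M q w₁ := by
  apply Subtype.ext
  rw [coe_arithmeticGalois_smul, s36b_coe_alpha]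
  have h1 := congrArg Subtype.val hfix
  rw [coe_arithmeticGalois_smul] at h1
  exact h1

/-! ### The (α)-transfer -/

/-- `α' ∘ ev_{w₁} = ev_{α' w₁}`. -/
theorem s36b_alpha_comp_ev (w₁ : s34m_F K₀ (M * q)) :
    (s36g_alpha M q).comp (s18g_ev G w₁) = s18g_ev G (s36g_alpha M q w₁) := by
  apply Polynomial.ringHom_ext
  · intro a
    simp [s18g_ev]
  · simp [s18g_ev]

include hq hqM in
/-- `V'_∞ ≠ V'_0` (from completeness and independence at level `M q²`). -/
theorem s36b_VV_ne (hC : s36g_ValComap G φ M q hq hqM V)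
    (hCompl : s36g_ValComplete G φ M q hq hqM V) (hInd : s36g_ValIndep M q V) :
    s34m_VV G φ M q hq hqM true ≠ s34m_VV G φ M q hq hqM false := by
  intro heq
  obtain ⟨-, h0, -, -, -, -, -⟩ := hC
  have h1 : (V 0).comap (s36g_alpha M q) = s34m_Vzero G φ M q hq hqM := h0.trans heq
  exact hInd.2.1 (hCompl.2.1 (V 0) h1)

variable [CharZero K₀] [IsDiscreteValuationRing G.A]

/-- **(α) for the family `V` w.r.t. `α'(w₁)`** from (α) of level `M q` w.r.t. `w₁`. -/
theorem s36b_alphaW (hC : s36g_ValComap G φ M q hq hqM V)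
    (hCompl : s36g_ValComplete G φ M q hq hqM V) (hInd : s36g_ValIndep M q V)
    (w₁ : s34m_F K₀ (M * q)) (hα₁ : s34f_AlphaW G φ M q hq hqM w₁) :
    ∀ y ∈ s34x_infRing V, ∃ s : G.A[X], s.map G.π ≠ 0 ∧
      (s18b_ev G 𝓕₂ (s36g_alpha M q w₁)).IsIntegralElem
        (s18b_ev G 𝓕₂ (s36g_alpha M q w₁) s * y) := by
  intro y hy
  have hy' : ∀ i, y ∈ V i := (s34x_mem_infRing V y).mp hy
  obtain ⟨n, c, hc, hrel⟩ := s36b_integral_of_complete (s36g_alpha M q) (s36b_halg φ M q)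
    (s36b_isUnif_VV G φ M q hq hqM true) (s36b_isUnif_VV G φ M q hq hqM false)
    (s36b_VV_ne G φ M q hq hqM hC hCompl hInd) V
    (fun U hU => by
      rcases hU with h | h
      · rcases hCompl.1 U h with h' | h'
        · exact ⟨0, h'⟩
        · exact ⟨1, h'⟩
      · exact ⟨2, hCompl.2.1 U h⟩) y hy'
  -- multipliers
  have hcm : ∀ k, c k ∈ s34x_infRing (s34m_VV G φ M q hq hqM) := fun k =>
    (s34x_mem_infRing _ _).mpr (fun i => by
      cases i
      · exact (hc k).2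
      · exact (hc k).1)
  choose s hs hint using fun k => hα₁ (c k) (hcm k)
  set S : G.A[X] := ∏ k ∈ Finset.range n, s k with hS
  set ev₁ : G.A[X] →+* s34m_F K₀ (M * q) := s18b_ev G 𝓕₁ w₁ with hev₁
  set ev₂ : G.A[X] →+* s34m_F K₀ (M * q * q) := s18b_ev G 𝓕₂ (s36g_alpha M q w₁) with hev₂
  have hSπ : S.map G.π ≠ 0 := by
    rw [hS, Polynomial.map_prod]
    exact Finset.prod_ne_zero_iff.mpr (fun k _ => hs k)
  have hσc : ∀ k < n, ev₁.IsIntegralElem (ev₁ S * c k) := by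
    intro k hk
    have hk' : k ∈ Finset.range n := Finset.mem_range.mpr hk
    rw [hS, ← Finset.mul_prod_erase _ _ hk', map_mul, mul_comm (ev₁ (s k)), mul_assoc]
    exact RingHom.IsIntegralElem.mul _ ev₁.isIntegralElem_map (hint k)
  have hcomp : (s36g_alpha M q).comp ev₁ = ev₂ := s36b_alpha_comp_ev G M q w₁
  have hev : ev₂ S = s36g_alpha M q (ev₁ S) := (RingHom.congr_fun hcomp S).symm
  -- transport of integrality
  have htr : ∀ x, ev₁.IsIntegralElem x → ev₂.IsIntegralElem (s36g_alpha M q x) := by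
    rintro x ⟨p, hp, h0⟩
    refine ⟨p, hp, ?_⟩
    have h1 := Polynomial.hom_eval₂ p ev₁ (s36g_alpha M q) x
    rw [h0, map_zero, hcomp] at h1
    exact h1.symm
  refine ⟨S, hSπ, ?_⟩
  letI alg : Algebra G.A[X] (s34m_F K₀ (M * q * q)) := ev₂.toAlgebra
  set σ := ev₁ S with hσ
  have hd : ∀ k < n, IsIntegral G.A[X] (s36g_alpha M q (σ ^ (n - k) * c k)) := by
    intro k hk
    have e : σ ^ (n - k) * c k = σ ^ (n - k - 1) * (σ * c k) := by
      rw [← mul_assoc, ← pow_succ]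
      congr 2
      omega
    rw [e]
    exact htr _ (RingHom.IsIntegralElem.mul _
      (s18g_isIntegralElem_pow _ ev₁.isIntegralElem_map _) (hσc k hk))
  have hzrel : (ev₂ S * y) ^ n + ∑ k ∈ Finset.range n,
      s36g_alpha M q (σ ^ (n - k) * c k) * (ev₂ S * y) ^ k = 0 := by
    have h1 : (ev₂ S * y) ^ n + ∑ k ∈ Finset.range n,
        s36g_alpha M q (σ ^ (n - k) * c k) * (ev₂ S * y) ^ k =
        (s36g_alpha M q σ) ^ n *
          (y ^ n + ∑ k ∈ Finset.range n, s36g_alpha M q (c k) * y ^ k) := by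
      rw [mul_add, Finset.mul_sum, hev, mul_pow]
      congr 1
      refine Finset.sum_congr rfl fun k hk => ?_
      have hk' := Finset.mem_range.mp hk
      rw [map_mul, map_pow, mul_pow]
      have hn : n = (n - k) + k := by omega
      conv_rhs => rw [hn, _root_.pow_add]
      ring
    rw [h1, hrel, mul_zero]
  exact s36b_isIntegral_of_rel n _ hd _ hzrel

/-! ### The base data at level `M q²`, the dictionaries and the Čech input -/

variable (V) in
/-- **A base function of level `M q²` for the family `V`**: the non-local facts. -/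
def s36b_BaseData₂ (w : s34m_F K₀ (M * q * q)) : Prop :=
  w ≠ 0 ∧ FFGen K₀ w ∧ (∀ i, w ∈ V i) ∧ (∀ i, w⁻¹ ∈ V i) ∧
    (∀ σ₀ : K₀ ≃ₐ[ℚ] K₀, arithmeticGalois (modularFunctionFieldFull (M * q * q)) σ₀ • w = w) ∧
    (∀ y ∈ s34x_infRing V, ∃ s : G.A[X], s.map G.π ≠ 0 ∧
      (s18b_ev G 𝓕₂ w).IsIntegralElem (s18b_ev G 𝓕₂ w s * y)) ∧
    (∀ y ∈ s34x_infRing V, ∃ s : G.A[X], s.map G.π ≠ 0 ∧
      (s18b_ev G 𝓕₂ w⁻¹).IsIntegralElem (s18b_ev G 𝓕₂ w⁻¹ s * y))

/-- **`α'(w₁)` is a base function of level `M q²`** for every base function `w₁` of level `M q`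
(only the non-[D] facts of `s35g_BaseData` are used). -/
theorem s36b_baseData₂_alpha (hC : s36g_ValComap G φ M q hq hqM V)
    (hCompl : s36g_ValComplete G φ M q hq hqM V) (hInd : s36g_ValIndep M q V)
    (w₁ : s34m_F K₀ (M * q)) (hw0 : w₁ ≠ 0) (hgen : FFGen K₀ w₁)
    (hwO : ∀ i, w₁ ∈ s34m_VV G φ M q hq hqM i) (hwO' : ∀ i, w₁⁻¹ ∈ s34m_VV G φ M q hq hqM i)
    (hfix : ∀ σ₀ : K₀ ≃ₐ[ℚ] K₀,
      arithmeticGalois (modularFunctionFieldFull (M * q)) σ₀ • w₁ = w₁)
    (hα : s34f_AlphaW G φ M q hq hqM w₁) (hα' : s34f_AlphaW G φ M q hq hqM w₁⁻¹) :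
    s36b_BaseData₂ G M q V (s36g_alpha M q w₁) := by
  refine ⟨(_root_.map_ne_zero (s36g_alpha M q)).mpr hw0, s36b_ffGen φ M q w₁ hgen,
    s36b_alpha_mem G φ M q hq hqM hC w₁ hwO, fun i => ?_,
    fun σ₀ => s36b_galois_fixed M q w₁ σ₀ (hfix σ₀),
    s36b_alphaW G φ M q hq hqM hC hCompl hInd w₁ hα, ?_⟩
  · rw [← map_inv₀]
    exact s36b_alpha_mem G φ M q hq hqM hC w₁⁻¹ hwO' i
  · have h := s36b_alphaW G φ M q hq hqM hC hCompl hInd w₁⁻¹ hα'
    rw [map_inv₀] at h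
    exact h

/-- the same from helper4's `s35g_BaseData`. -/
theorem s36b_baseData₂_of_base (hC : s36g_ValComap G φ M q hq hqM V)
    (hCompl : s36g_ValComplete G φ M q hq hqM V) (hInd : s36g_ValIndep M q V)
    (w₁ : s34m_F K₀ (M * q)) (hB : s35g_BaseData G φ M q hq hqM w₁) :
    s36b_BaseData₂ G M q V (s36g_alpha M q w₁) := by
  obtain ⟨hw0, hgen, hwO, hwO', hfix, hα, hα', -, -⟩ := hB
  exact s36b_baseData₂_alpha G φ M q hq hqM hC hCompl hInd w₁ hw0 hgen hwO hwO' hfix hα hα'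

/-- **The dictionary of chart 1** of a base function of level `M q²`. -/
theorem s36b_dict₁ (hC : s36g_ValComap G φ M q hq hqM V) (hU : s36g_ValUnif G M q V t)
    (w : s34m_F K₀ (M * q * q)) (hB : s36b_BaseData₂ G M q V w) :
    s35f_Dict V (s18_chart1 (L₀ := K₀) w) := by
  obtain ⟨-, hgen, hwO, -, -, hα, -⟩ := hB
  haveI := hgen
  obtain ⟨F1, F2, F3⟩ := s34x_dict1 w (s34x_infRing V)
    ((G.ϖ : G.A) : K₀) (s18g_unifK_ne_zero G)
    (s34c_hO_inf V ((G.ϖ : G.A) : K₀) (fun i => s36b_unif_mem G M q hU i)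
      (fun i => s36b_hU G M q hU i))
  exact ⟨s34x_isNoetherianRing_ring G 𝓕₂ w V (s36b_const_mem G φ M q hq hqM hC) hwO hα,
    F1, F2, F3⟩

/-- **The dictionary of chart 2** of a base function of level `M q²`. -/
theorem s36b_dict₂ (hC : s36g_ValComap G φ M q hq hqM V) (hU : s36g_ValUnif G M q V t)
    (w : s34m_F K₀ (M * q * q)) (hB : s36b_BaseData₂ G M q V w) :
    s35f_Dict V (s18_chart2 (L₀ := K₀) w) := by
  obtain ⟨-, hgen, -, hwO', -, -, hα'⟩ := hB
  haveI := hgen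
  haveI : FFGen K₀ w⁻¹ := ff_gen_inv
  obtain ⟨F1, F2, F3⟩ := s34x_dict2 w (s34x_infRing V)
    ((G.ϖ : G.A) : K₀) (s18g_unifK_ne_zero G)
    (s34c_hO_inf V ((G.ϖ : G.A) : K₀) (fun i => s36b_unif_mem G M q hU i)
      (fun i => s36b_hU G M q hU i))
  exact ⟨s34x_isNoetherianRing_ring G 𝓕₂ w⁻¹ V (s36b_const_mem G φ M q hq hqM hC) hwO' hα',
    F1, F2, F3⟩

/-- **The Čech input `hH`** of `s36x_zero_inf` for every function. -/
theorem s36b_hH (hC : s36g_ValComap G φ M q hq hqM V) (hU : s36g_ValUnif G M q V t)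
    (w : s34m_F K₀ (M * q * q)) (hB : s36b_BaseData₂ G M q V w)
    {f : s34m_F K₀ (M * q * q)} (hf0 : f ≠ 0) (m : ℕ) :
    ∃ H : Submodule G.A (s34m_F K₀ (M * q * q)), H.FG ∧
      s34x_lat G.A (s34x_infRing V)
          (s34x_inf_const_mem V G.A (s36b_const_mem G φ M q hq hqM hC))
          (s18_chart12 w) (s18_E f m) ≤
        H ⊔ (s34x_lat G.A (s34x_infRing V)
              (s34x_inf_const_mem V G.A (s36b_const_mem G φ M q hq hqM hC))
              (s18_chart1 w) (s18_E f m) ⊔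
          s34x_lat G.A (s34x_infRing V)
              (s34x_inf_const_mem V G.A (s36b_const_mem G φ M q hq hqM hC))
              (s18_chart2 w) (s18_E f m)) := by
  obtain ⟨hw0, hgen, hwO, hwO', -, hα, -⟩ := hB
  haveI := hgen
  haveI : IsNoetherianRing G.A := inferInstance
  obtain ⟨Z, -, hZ⟩ := s34x_exists_span_adjoin G 𝓕₂ w V
    (s36b_const_mem G φ M q hq hqM hC) hwO hα
  exact s34c_hH_inf V ((G.ϖ : G.A) : K₀) w G.A
    (s36b_const_mem G φ M q hq hqM hC) (s18g_unifK_ne_zero G)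
    (fun i => s36b_unif_mem G M q hU i) (fun i => s36b_hU G M q hU i)
    hw0 hwO hwO' Z hZ hf0 m

end Fermat.Agent.Lib.S36
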