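/-
S36 project, geometry layer (X1) (helper9, prefix `s36p_`): THE BASE FUNCTION OF LEVEL `M q²` WITH ALL
ITS GLOBAL PROPERTIES, on the three S18-good branches, and the kind "cusp" of the classification.

* **`s36p_base_full`** : `∃ x ∈ V_M` (`x = j` for `q ≥ 5`, series `t₂` for `q = 3`, `t₃` for `q = 2`)
  such that `w₁ = α x` has `s35g_BaseData`, chart 1 of `α' w₁` is saturated under the Hecke
  correspondence (`PSat.lean`), the reduction of `x` has coefficients in the prime field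
  (`x̄(T^q) = x̄^q`) and (REG) holds (`PReg.lean`);
* **`s36p_polar_hone`** : for every valuation package `V` (`s36g_ValComap`, `s36g_ValRed`), the polar
  closed points of chart 2 of `w = α'(α x)` lie on at most one component — the hypothesis `hOne2` of
  `s36p_zero_of_cases` (via helper5's `s36q_cusp_hone`).
-/
import Fermat.Agent.Lib.S36.PReg
import Fermat.Agent.Lib.S36.QCuspOne
import Fermat.Agent.Lib.S36.XBase

set_option autoImplicit false
set_option linter.unusedSectionVars false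
set_option linter.style.haveILetI false
set_option synthInstance.maxHeartbeats 400000

noncomputable section

namespace Fermat.Agent.Lib.S36

open ModularCurve AlgebraicCurve Polynomial Fermat.Agent.Lib.FF Fermat.Agent.Lib.S18
  Fermat.Agent.Lib.S28 Fermat.Agent.Lib.S37 Fermat.Agent.Lib.S34 Fermat.Agent.Lib.S35

local notation "Kb" => AlgebraicClosure ℚ

section Branches

variable (K₀ : Type) [Field K₀] [NumberField K₀] (φ : K₀ →+* Kb)

/-- **The base function with all its global properties** on the three S18-good branches. -/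
theorem s36p_base_full (M q : ℕ) [NeZero M] [NeZero q] (hq : q.Prime) (hqM : ¬ q ∣ M)
    (h : 5 ≤ q ∨ (q = 3 ∧ 2 ∣ M) ∨ (q = 2 ∧ 3 ∣ M))
    (κ : Type) [Field κ] [CharP κ q] [PerfectField κ]
    (G : s18g_GaussData K₀ κ) [IsDiscreteValuationRing G.A] (hπ : Function.Surjective G.π) :
    ∃ (x : s34m_F K₀ M) (hx : x ∈ s34m_Vinf G M),
      s35g_BaseData G φ M q hq hqM (heckeAlphaBar K₀ M q x) ∧
      (∀ Q : Place K₀ (s34m_F K₀ (M * q * q)),
        s36g_alpha M q (heckeAlphaBar K₀ M q x) ∈ Q.toValuationSubring ↔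
          s36g_beta M q (heckeAlphaBar K₀ M q x) ∈ Q.toValuationSubring) ∧
      qExpand κ q (s34m_redInf G M ⟨x, hx⟩) = s34m_redInf G M ⟨x, hx⟩ ^ q ∧
      (∀ Q : Place K₀ (s34m_F K₀ (M * q * q)),
        (s36g_alpha M q (heckeAlphaBar K₀ M q x))⁻¹ ∈ Q.toValuationSubring →
        s36g_alpha M q (heckeBetaBar K₀ M q x) *
            (s36g_alpha M q (heckeAlphaBar K₀ M q x))⁻¹ ^ q ∈ Q.toValuationSubring ∧
          s36g_beta M q (heckeBetaBar K₀ M q x) *
            (s36g_alpha M q (heckeAlphaBar K₀ M q x))⁻¹ ^ (q * q) ∈ Q.toValuationSubring) := by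
  haveI : Fact q.Prime := ⟨hq⟩
  rcases h with h5 | ⟨rfl, h2M⟩ | ⟨rfl, h3M⟩
  · have hdeg : s18g_HDeg K₀ (M * q) := fun n b hb hn => s18g_exists_relation (M * q) φ hn b hb
    have e : heckeAlphaBar K₀ M q (s18g_jF (K := K₀) M) = s18g_jF (K := K₀) (M * q) :=
      s34d2_alpha_j M q
    refine ⟨s18g_jF (K := K₀) M, s34m_jF_mem_Vinf G M, ?_, ?_, ?_,
      fun Q hQ => s36p_reg_j φ M q hq hqM Q hQ⟩
    · rw [e]
      exact ⟨s18g_jF_ne_zero (M * q), s18b_ffGen_jF (M * q) hdeg,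
        s34m_jF_mem_VV G φ M q hq hqM, s34m_jF_inv_mem_VV G φ M q hq hqM,
        fun σ₀ => s34f_galois_jF (M * q) σ₀, s34f_alpha_j G φ M q hq hqM,
        s34f_alpha_inv G φ M q hq hqM, s35g_chartData_five_j1 M q hq hqM K₀ φ κ G hπ h5,
        s35g_chartData_five_j2 M q hq hqM K₀ φ κ G hπ h5⟩
    · rw [e]
      exact s36p_sat_j φ M q hq
    · rw [s34m_redInf_jF]
      exact s34df_qExpand_jqModC q hq
  · obtain ⟨tM, htM, ⟨hwV, hred⟩, hwinvV, hgen, hgeninv, hwt, hw0, hgenN, hwO, hwO', hfix, hα,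
      hα'⟩ := s34m_base_t2 G φ M 3 hq hqM h2M (by norm_num)
    haveI := hgen
    haveI := hgeninv
    refine ⟨tM, hwV, ⟨hw0, hgenN, hwO, hwO', hfix, hα, hα',
      s35g_chartData_t2_1 M 3 hq hqM K₀ φ κ G hπ rfl h2M tM htM hwV hred,
      s35g_chartData_t2_2 M 3 hq hqM K₀ φ κ G hπ rfl h2M tM htM hwV hwinvV hred⟩,
      s36p_sat_t2 G φ M 3 hq (by norm_num) _ hwt, ?_,
      fun Q hQ => s36p_reg_t2 φ M 3 hq hqM Q tM htM hQ⟩
    have hred' : s34m_redInf G M ⟨tM, hwV⟩ = s18u_t2 κ := hred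
    rw [hred']
    exact s34e_cusp_frob_t2 3
  · obtain ⟨tM, htM, ⟨hwV, hred⟩, hwinvV, hgen, hgeninv, hwt, hw0, hgenN, hwO, hwO', hfix, hα,
      hα'⟩ := s34m_base_t3 G φ M 2 hq hqM h3M (by norm_num)
    haveI := hgen
    haveI := hgeninv
    refine ⟨tM, hwV, ⟨hw0, hgenN, hwO, hwO', hfix, hα, hα',
      s35g_chartData_t3_1 M 2 hq hqM K₀ φ κ G hπ rfl h3M tM htM hwV hred,
      s35g_chartData_t3_2 M 2 hq hqM K₀ φ κ G hπ rfl h3M tM htM hwV hwinvV hred⟩,
      s36p_sat_t3 G φ M 2 hq (by norm_num) _ hwt, ?_,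
      fun Q hQ => s36p_reg_t3 φ M 2 hq hqM Q tM htM hQ⟩
    have hred' : s34m_redInf G M ⟨tM, hwV⟩ = s18u_t3 κ := hred
    rw [hred']
    exact s34e_cusp_frob_t3 2

end Branches

section Polar

variable {K₀ : Type} [Field K₀] [Algebra ℚ K₀] {κ : Type} [Field κ] (G : s18g_GaussData K₀ κ)
  (φ : K₀ →+* Kb) (M q : ℕ) [NeZero M] [NeZero q] (hq : q.Prime) (hqM : ¬ q ∣ M)
  {V : Fin 3 → ValuationSubring (s34m_F K₀ (M * q * q))}
  [CharZero K₀] [IsDiscreteValuationRing G.A]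

/-- **The kind "cusp"**: the polar closed points of chart 2 of `w = α'(α x)` lie on at most one
component (`hOne2` of `s36p_zero_of_cases`). -/
theorem s36p_polar_hone (hC : s36g_ValComap G φ M q hq hqM V)
    (hR : s36g_ValRed G φ M q hq hqM V) (x : s34m_F K₀ M) (hx : x ∈ s34m_Vinf G M)
    (hB : s35g_BaseData G φ M q hq hqM (heckeAlphaBar K₀ M q x))
    (hfrob : qExpand κ q (s34m_redInf G M ⟨x, hx⟩) = s34m_redInf G M ⟨x, hx⟩ ^ q)
    (hreg : ∀ Q : Place K₀ (s34m_F K₀ (M * q * q)),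
      (s36g_alpha M q (heckeAlphaBar K₀ M q x))⁻¹ ∈ Q.toValuationSubring →
      s36g_alpha M q (heckeBetaBar K₀ M q x) *
        (s36g_alpha M q (heckeAlphaBar K₀ M q x))⁻¹ ^ q ∈ Q.toValuationSubring ∧
      s36g_beta M q (heckeBetaBar K₀ M q x) *
        (s36g_alpha M q (heckeAlphaBar K₀ M q x))⁻¹ ^ (q * q) ∈ Q.toValuationSubring)
    (𝔫 : Ideal (s34x_ring (L₀ := K₀) (s34x_infRing V)
      (s18_chart2 (s36g_alpha M q (heckeAlphaBar K₀ M q x))))) [h𝔫 : 𝔫.IsPrime]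
    (hpolar : ∃ b ∈ 𝔫, (b : s34m_F K₀ (M * q * q)) =
      (s36g_alpha M q (heckeAlphaBar K₀ M q x))⁻¹) :
    ∀ i k, s36q_compThrough V (s18_chart2 (s36g_alpha M q (heckeAlphaBar K₀ M q x))) 𝔫 i →
      s36q_compThrough V (s18_chart2 (s36g_alpha M q (heckeAlphaBar K₀ M q x))) 𝔫 k → i = k := by
  obtain ⟨hw0, -, -, hwO', -, -, -, -, -⟩ := hB
  refine s36q_cusp_hone G φ M q hq hqM V hC hR x hx hfrob
    ((_root_.map_ne_zero (s36g_alpha M q)).mpr hw0) (fun i => ?_) hreg 𝔫 hpolar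
  rw [← map_inv₀]
  exact s36b_alpha_mem G φ M q hq hqM hC _ hwO' i

end Polar

end Fermat.Agent.Lib.S36
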