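/-
S36 project, GEOMETRY side (lead, prefix `s36g_`): ROOTS OF CONSTANTS in `κ((T))` (Mathlib only) — the
analytic input of the field `root'` of `s36g_RootFrame`.

* `s36g_ps_root`      : `p ^ m = C b` in `κ⟦X⟧`, `m ≠ 0` (the characteristic may divide `m`) ⇒ `p = C e`;
* `s36g_laurent_root` : the same in `LaurentSeries κ`.
-/
import Mathlib

set_option autoImplicit false

namespace Fermat.Agent.Lib.S36

open PowerSeries

section root

variable {κ : Type*} [Field κ]

/-- binomial expansion up to second order. -/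
theorem s36g_add_pow_two_terms {R : Type*} [CommRing R] (x r : R) (m : ℕ) :
    ∃ Q : R, (x + r) ^ (m + 1) = x ^ (m + 1) + ((m + 1 : ℕ) : R) * x ^ m * r + r ^ 2 * Q := by
  induction m with
  | zero => exact ⟨0, by push_cast; ring⟩
  | succ m ih =>
    obtain ⟨Q, hQ⟩ := ih
    refine ⟨(x + r) * Q + ((m + 1 : ℕ) : R) * x ^ m, ?_⟩
    rw [pow_succ, hQ]
    push_cast
    ring

/-- a power series whose `m`-th power is a constant is a constant, when `m` is invertible in
the coefficient field. -/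
theorem s36g_ps_root_of_ne {m : ℕ} (hm : (m : κ) ≠ 0) (p : κ⟦X⟧) (b : κ)
    (h : p ^ m = PowerSeries.C b) : ∃ e : κ, p = PowerSeries.C e := by
  have hm0 : m ≠ 0 := by
    rintro rfl
    exact hm Nat.cast_zero
  obtain ⟨n, rfl⟩ := Nat.exists_eq_succ_of_ne_zero hm0
  by_cases hb : b = 0
  · rw [hb, map_zero] at h
    exact ⟨0, by rw [map_zero]; exact pow_eq_zero_iff (Nat.succ_ne_zero n) |>.mp h⟩
  set e := PowerSeries.constantCoeff p with he
  have hem : e ^ (n + 1) = b := by
    have := congrArg PowerSeries.constantCoeff h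
    rwa [map_pow, PowerSeries.constantCoeff_C] at this
  have he0 : e ≠ 0 := by
    rintro h0
    rw [h0, zero_pow (Nat.succ_ne_zero n)] at hem
    exact hb hem.symm
  refine ⟨e, ?_⟩
  by_contra hne
  set r := p - PowerSeries.C e with hr
  have hr0 : r ≠ 0 := sub_ne_zero.mpr hne
  have hrc : PowerSeries.coeff 0 r = 0 := by
    rw [hr, map_sub, PowerSeries.coeff_zero_eq_constantCoeff_apply, PowerSeries.coeff_zero_C,
      ← he, sub_self]
  set d := r.order.toNat with hd
  have ha : PowerSeries.coeff d r ≠ 0 := PowerSeries.coeff_order hr0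
  have hd0 : d ≠ 0 := by
    intro h0
    rw [h0] at ha
    exact ha hrc
  obtain ⟨u, hu⟩ : (PowerSeries.X : κ⟦X⟧) ^ d ∣ r := PowerSeries.X_pow_order_dvd
  have hp : p = PowerSeries.C e + r := by rw [hr]; ring
  obtain ⟨Q, hQ⟩ := s36g_add_pow_two_terms (PowerSeries.C e) r n
  rw [← hp, h] at hQ
  have h1 := congrArg (PowerSeries.coeff d) hQ
  have e1 : PowerSeries.coeff d (PowerSeries.C b : κ⟦X⟧) = 0 := by
    rw [PowerSeries.coeff_C, if_neg hd0]
  have e2 : PowerSeries.coeff d ((PowerSeries.C e : κ⟦X⟧) ^ (n + 1)) = 0 := by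
    rw [← map_pow, PowerSeries.coeff_C, if_neg hd0]
  have e3 : PowerSeries.coeff d (((n + 1 : ℕ) : κ⟦X⟧) * (PowerSeries.C e) ^ n * r)
      = ((n + 1 : ℕ) : κ) * e ^ n * PowerSeries.coeff d r := by
    have : ((n + 1 : ℕ) : κ⟦X⟧) * (PowerSeries.C e) ^ n
        = PowerSeries.C (((n + 1 : ℕ) : κ) * e ^ n) := by
      rw [map_mul, map_pow, map_natCast]
    rw [this, PowerSeries.coeff_C_mul]
  have e4 : PowerSeries.coeff d (r ^ 2 * Q) = 0 := by
    have : r ^ 2 * Q = PowerSeries.X ^ (2 * d) * (u ^ 2 * Q) := by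
      rw [hu]; ring
    rw [this, PowerSeries.coeff_X_pow_mul', if_neg (by omega)]
  rw [map_add, map_add, e1, e2, e3, e4, zero_add, add_zero] at h1
  exact mul_ne_zero (mul_ne_zero hm (pow_ne_zero n he0)) ha h1.symm

/-- a power series whose `m`-th power (`m ≠ 0`) is a constant is a constant. -/
theorem s36g_ps_root {m : ℕ} (hm : m ≠ 0) (p : κ⟦X⟧) (b : κ)
    (h : p ^ m = PowerSeries.C b) : ∃ e : κ, p = PowerSeries.C e := by
  induction m using Nat.strong_induction_on generalizing p b with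
  | _ m ih =>
    by_cases hmk : (m : κ) ≠ 0
    · exact s36g_ps_root_of_ne hmk p b h
    · rw [not_not] at hmk
      obtain ⟨ℓ, hℓ⟩ := CharP.exists κ
      have hℓm : ℓ ∣ m := (CharP.cast_eq_zero_iff κ ℓ m).mp hmk
      have hℓ0 : ℓ ≠ 0 := by
        rintro rfl
        exact hm (zero_dvd_iff.mp hℓm)
      have hℓp : ℓ.Prime := (CharP.char_is_prime_or_zero κ ℓ).resolve_right hℓ0
      obtain ⟨m₁, rfl⟩ := hℓm
      have hm₁0 : m₁ ≠ 0 := by
        rintro rfl
        exact hm (mul_zero _)
      have hlt : m₁ < ℓ * m₁ := by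
        have h2 := hℓp.two_le
        have h3 := Nat.pos_of_ne_zero hm₁0
        nlinarith
      have hw : (p ^ m₁) ^ ℓ = PowerSeries.C b := by
        rw [← pow_mul, mul_comm]
        exact h
      have : Fact ℓ.Prime := ⟨hℓp⟩
      have : CharP κ⟦X⟧ ℓ :=
        charP_of_injective_ringHom (f := (PowerSeries.C : κ →+* κ⟦X⟧)) PowerSeries.C_injective ℓ
      set w₀ := PowerSeries.constantCoeff (p ^ m₁) with hw₀
      have h1 : (p ^ m₁ - PowerSeries.C w₀) ^ ℓ = PowerSeries.C (b - w₀ ^ ℓ) := by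
        rw [sub_pow_char, hw, ← map_pow, ← map_sub]
      have h2 : b - w₀ ^ ℓ = 0 := by
        have := congrArg PowerSeries.constantCoeff h1
        rw [map_pow, map_sub, PowerSeries.constantCoeff_C, ← hw₀, sub_self,
          zero_pow hℓ0, PowerSeries.constantCoeff_C] at this
        exact this.symm
      rw [h2, map_zero] at h1
      have h3 : p ^ m₁ = PowerSeries.C w₀ := sub_eq_zero.mp (pow_eq_zero_iff hℓ0 |>.mp h1)
      exact ih m₁ hlt hm₁0 p w₀ h3

/-- **a Laurent series whose `m`-th power (`m ≠ 0`) is a constant is a constant.** -/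
theorem s36g_laurent_root {m : ℕ} (hm : m ≠ 0) (z : LaurentSeries κ) (b : κ)
    (h : z ^ m = HahnSeries.C b) : ∃ e : κ, z = HahnSeries.C e := by
  by_cases hb : b = 0
  · rw [hb, map_zero] at h
    exact ⟨0, by rw [map_zero]; exact pow_eq_zero_iff hm |>.mp h⟩
  have hz0 : z ≠ 0 := by
    rintro rfl
    rw [zero_pow hm] at h
    exact hb (HahnSeries.C_injective (by rw [← h, map_zero]))
  have hord : z.order = 0 := by
    have h1 := congrArg HahnSeries.order h
    rw [HahnSeries.order_pow, HahnSeries.order_C] at h1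
    rcases smul_eq_zero.mp h1 with h2 | h2
    · exact absurd h2 hm
    · exact h2
  have hz : HahnSeries.ofPowerSeries ℤ κ z.powerSeriesPart = z := by
    rw [LaurentSeries.ofPowerSeries_powerSeriesPart, hord, neg_zero]
    change (1 : LaurentSeries κ) * z = z
    rw [one_mul]
  have hp : z.powerSeriesPart ^ m = PowerSeries.C b := by
    apply HahnSeries.ofPowerSeries_injective (Γ := ℤ)
    rw [map_pow, hz, h, HahnSeries.ofPowerSeries_C]
  obtain ⟨e, he⟩ := s36g_ps_root hm _ b hp
  exact ⟨e, by rw [← hz, he, HahnSeries.ofPowerSeries_C]⟩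

end root

end Fermat.Agent.Lib.S36
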