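/-
S36 project, GEOMETRY side (helper8, prefix `s36g_`): THE ABSTRACT FRAME OF THE GLOBAL ROOT (G) AND OF
THE NORM CONDITION (N-C)  (Mathlib only).

Three valuation rings `V 0, V 1, V 2` (`= V_∞, V_mid, V_0`) of a field `𝓕` (level `M q²`), two
valuation rings `V' 0, V' 1` (`= V'_∞, V'_0`) of `𝓕'` (level `M q`), all over ONE valuation ring `A₀`
of the constant field `K₀`; two `K₀`-embeddings `α β : 𝓕' → 𝓕` with

  `V 0, V 1 | V' 0` and `V 2 | V' 1` along `α`,   `V 0 | V' 0` and `V 1, V 2 | V' 1` along `β`,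

and two multiplicative maps `Nα Nβ : 𝓕 → 𝓕'` (the norms) with the norm–residue formulas in element
form (for INTEGRAL elements).  `s36g_RootFrame` collects what the abstract arguments (N-C) and (G) use;
the contracts `s36g_RootNC` and `s36g_RootG` are their statements.

A "unit at `V`" is written `V.valuation x = 1`; "`x ≡ a` at `V`" is `x - a ∈ V.nonunits`.
-/
import Mathlib

set_option autoImplicit false

namespace Fermat.Agent.Lib.S36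

variable {K₀ 𝓕 𝓕' : Type*} [Field K₀] [Field 𝓕] [Field 𝓕'] [Algebra K₀ 𝓕] [Algebra K₀ 𝓕']

/-- **The frame of (N-C) and (G).** -/
structure s36g_RootFrame (A₀ : ValuationSubring K₀) (q : ℕ) (V : Fin 3 → ValuationSubring 𝓕)
    (V' : Fin 2 → ValuationSubring 𝓕') (α β : 𝓕' →ₐ[K₀] 𝓕) (Nα Nβ : 𝓕 →* 𝓕') : Prop where
  /-- the three rings restrict to `A₀` on the constants -/
  cstV : ∀ (i : Fin 3) (a : K₀), algebraMap K₀ 𝓕 a ∈ V i ↔ a ∈ A₀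
  cstV' : ∀ (j : Fin 2) (a : K₀), algebraMap K₀ 𝓕' a ∈ V' j ↔ a ∈ A₀
  /-- the six restrictions -/
  comapα0 : (V 0).comap (α : 𝓕' →+* 𝓕) = V' 0
  comapα1 : (V 1).comap (α : 𝓕' →+* 𝓕) = V' 0
  comapα2 : (V 2).comap (α : 𝓕' →+* 𝓕) = V' 1
  comapβ0 : (V 0).comap (β : 𝓕' →+* 𝓕) = V' 0
  comapβ1 : (V 1).comap (β : 𝓕' →+* 𝓕) = V' 1
  comapβ2 : (V 2).comap (β : 𝓕' →+* 𝓕) = V' 1
  /-- norm–residue formulas: `e = 1, q - 1`, `f = 1` over `V' 0`, purely inseparable over `V' 1`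
  (along `α`); the mirror image along `β`. -/
  normAα : ∀ (u : 𝓕) (c₀ c₁ : 𝓕'), u ∈ V 0 → u ∈ V 1 → c₀ ∈ V' 0 → c₁ ∈ V' 0 →
    u - α c₀ ∈ (V 0).nonunits → u - α c₁ ∈ (V 1).nonunits →
    Nα u - c₀ * c₁ ^ (q - 1) ∈ (V' 0).nonunits
  normBα : ∀ (u : 𝓕) (c : 𝓕'), u ∈ V 2 → c ∈ V' 1 → u ^ q - α c ∈ (V 2).nonunits →
    Nα u - c ∈ (V' 1).nonunits
  normAβ : ∀ (u : 𝓕) (c₂ c₁ : 𝓕'), u ∈ V 2 → u ∈ V 1 → c₂ ∈ V' 1 → c₁ ∈ V' 1 →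
    u - β c₂ ∈ (V 2).nonunits → u - β c₁ ∈ (V 1).nonunits →
    Nβ u - c₂ * c₁ ^ (q - 1) ∈ (V' 1).nonunits
  normBβ : ∀ (u : 𝓕) (c : 𝓕'), u ∈ V 0 → c ∈ V' 0 → u ^ q - β c ∈ (V 0).nonunits →
    Nβ u - c ∈ (V' 0).nonunits
  /-- residue fields: degree one, resp. purely inseparable of degree `q` -/
  resα0 : ∀ y ∈ V 0, ∃ r ∈ V' 0, y - α r ∈ (V 0).nonunits
  resα1 : ∀ y ∈ V 1, ∃ r ∈ V' 0, y - α r ∈ (V 1).nonunits
  resβ1 : ∀ y ∈ V 1, ∃ r ∈ V' 1, y - β r ∈ (V 1).nonunits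
  resβ2 : ∀ y ∈ V 2, ∃ r ∈ V' 1, y - β r ∈ (V 2).nonunits
  resα2 : ∀ y ∈ V 2, ∃ r ∈ V' 1, y ^ q - α r ∈ (V 2).nonunits
  resβ0 : ∀ y ∈ V 0, ∃ r ∈ V' 0, y ^ q - β r ∈ (V 0).nonunits
  /-- weak approximation for the three rings -/
  approx : ∀ g : Fin 3 → 𝓕, (∀ i, g i ∈ V i) → ∃ x : 𝓕, ∀ i, x - g i ∈ (V i).nonunits
  /-- `q` is a uniformiser of `V' 0` -/
  unif' : ∀ y : 𝓕', y ≠ 0 → ∃ (k : ℤ) (z : 𝓕'), (V' 0).valuation z = 1 ∧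
    y = algebraMap K₀ 𝓕' (q : K₀) ^ k * z
  /-- the constants are algebraically closed in the two residue fields of level `M q`
  (and `A₀ → κ` is onto): a root of a constant is a constant -/
  root' : ∀ (j : Fin 2) (m : ℕ), m ≠ 0 → ∀ (y : 𝓕') (a : K₀), A₀.valuation a = 1 →
    y ^ m - algebraMap K₀ 𝓕' a ∈ (V' j).nonunits →
    ∃ e : K₀, A₀.valuation e = 1 ∧ y - algebraMap K₀ 𝓕' e ∈ (V' j).nonunits

variable (A₀ : ValuationSubring K₀) (q : ℕ) (V : Fin 3 → ValuationSubring 𝓕)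
  (V' : Fin 2 → ValuationSubring 𝓕') (α β : 𝓕' →ₐ[K₀] 𝓕) (Nα Nβ : 𝓕 →* 𝓕')

/-- **Contract (N-C)**: a function `g`, unit at the three rings, whose norms along `α` and `β` are
constants times `m`-th powers (`m` prime to `q`): the three residues of `g ^ (q - 1)` are constants
(units of `A₀`) times `m`-th powers. -/
def s36g_RootNC : Prop :=
  0 < q → ∀ (m : ℕ), m ≠ 0 → Nat.Coprime q m → ∀ g : 𝓕, (∀ i, (V i).valuation g = 1) →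
    ∀ (Cα Cβ : K₀) (Hα Hβ : 𝓕'), Nα g = algebraMap K₀ 𝓕' Cα * Hα ^ m →
      Nβ g = algebraMap K₀ 𝓕' Cβ * Hβ ^ m →
      ∀ i, ∃ (c : K₀) (gi : 𝓕), A₀.valuation c = 1 ∧ (V i).valuation gi = 1 ∧
        g ^ (q - 1) - algebraMap K₀ 𝓕 c * gi ^ m ∈ (V i).nonunits

/-- **Contract (G)**, the global root: for `Φ` (unit at the three rings) whose residues are constants
times `m`-th powers and whose norms along `α`, `β` are constants times `m`-th powers there are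
`x₁`, `ξ` (units at the three rings) such that `f₁ = Φ / x₁ ^ m` has CONSTANT residues `c i`,
`Nα f₁ = cα yα ^ m`, `Nβ f₁ = cβ yβ ^ m` with `yα, yβ` of constant residues
(`eA'`, `eA` resp. `eB`, `eB'` at `V' 0`, `V' 1`), `ξ` has the constant residues
`θ₀ = eA eB^q / (eA' eB'^q)`, `1`, `θ₂ = eA^q eB / (eA'^q eB')`, and
`f = f₁ ^ (q² - 1) / (c₁ ^ (q² - 1) ξ ^ m)` has the three residues `1`. -/
def s36g_RootG : Prop :=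
  0 < q → ∀ (m : ℕ), m ≠ 0 → ∀ Φ : 𝓕, (∀ i, (V i).valuation Φ = 1) →
    (∀ i, ∃ (c : K₀) (gi : 𝓕), A₀.valuation c = 1 ∧ (V i).valuation gi = 1 ∧
      Φ - algebraMap K₀ 𝓕 c * gi ^ m ∈ (V i).nonunits) →
    ∀ (Cα Cβ : K₀) (Hα Hβ : 𝓕'), Nα Φ = algebraMap K₀ 𝓕' Cα * Hα ^ m →
      Nβ Φ = algebraMap K₀ 𝓕' Cβ * Hβ ^ m →
    ∃ (x₁ ξ : 𝓕) (c : Fin 3 → K₀) (cα cβ eA eA' eB eB' θ₀ θ₂ : K₀) (yα yβ : 𝓕'),
      (∀ i, (V i).valuation x₁ = 1) ∧ (∀ i, (V i).valuation ξ = 1) ∧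
      (∀ i, A₀.valuation (c i) = 1) ∧ A₀.valuation cα = 1 ∧ A₀.valuation cβ = 1 ∧
      A₀.valuation eA = 1 ∧ A₀.valuation eA' = 1 ∧ A₀.valuation eB = 1 ∧ A₀.valuation eB' = 1 ∧
      A₀.valuation θ₀ = 1 ∧ A₀.valuation θ₂ = 1 ∧
      (∀ i, Φ / x₁ ^ m - algebraMap K₀ 𝓕 (c i) ∈ (V i).nonunits) ∧
      Nα (Φ / x₁ ^ m) = algebraMap K₀ 𝓕' cα * yα ^ m ∧
      yα - algebraMap K₀ 𝓕' eA' ∈ (V' 0).nonunits ∧ yα - algebraMap K₀ 𝓕' eA ∈ (V' 1).nonunits ∧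
      Nβ (Φ / x₁ ^ m) = algebraMap K₀ 𝓕' cβ * yβ ^ m ∧
      yβ - algebraMap K₀ 𝓕' eB ∈ (V' 0).nonunits ∧ yβ - algebraMap K₀ 𝓕' eB' ∈ (V' 1).nonunits ∧
      θ₀ * (eA' * eB' ^ q) = eA * eB ^ q ∧ θ₂ * (eA' ^ q * eB') = eA ^ q * eB ∧
      ξ - algebraMap K₀ 𝓕 θ₀ ∈ (V 0).nonunits ∧ ξ - 1 ∈ (V 1).nonunits ∧
      ξ - algebraMap K₀ 𝓕 θ₂ ∈ (V 2).nonunits ∧
      ∀ i, (Φ / x₁ ^ m) ^ (q ^ 2 - 1) / (algebraMap K₀ 𝓕 (c 1 ^ (q ^ 2 - 1)) * ξ ^ m) - 1 ∈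
        (V i).nonunits

end Fermat.Agent.Lib.S36
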