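/-
S36 project, layer (T)/(G) (helper8, prefix `s36t_`), part 4: CONGRUENCES MODULO THE MAXIMAL IDEAL OF A
VALUATION SUBRING (Mathlib only).

`s36t_Cong V x a : Prop := x - a ∈ V.nonunits` ("`x ≡ a` modulo `𝔪_V`") for elements `x, a` of the
field; calculus: `refl/symm/trans`, `add/sub/mul/pow/inv/div`, membership and unit transfer.
-/
import Mathlib

set_option autoImplicit false

namespace Fermat.Agent.Lib.S36

variable {K : Type*} [Field K] (V : ValuationSubring K)

/-- `x ≡ a` modulo the maximal ideal of `V`. -/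
def s36t_Cong (x a : K) : Prop := x - a ∈ V.nonunits

variable {V}

theorem s36t_Cong.refl (x : K) : s36t_Cong V x x := by
  unfold s36t_Cong; rw [sub_self]; exact V.nonunits.zero_mem

theorem s36t_Cong.symm {x a : K} (h : s36t_Cong V x a) : s36t_Cong V a x := by
  unfold s36t_Cong at *
  have : a - x = -(x - a) := by ring
  rw [this]; exact V.nonunits.neg_mem h

theorem s36t_Cong.trans {x y z : K} (h₁ : s36t_Cong V x y) (h₂ : s36t_Cong V y z) :
    s36t_Cong V x z := by
  unfold s36t_Cong at *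
  have : x - z = (x - y) + (y - z) := by ring
  rw [this]; exact V.nonunits.add_mem h₁ h₂

theorem s36t_Cong.of_eq {x a : K} (h : x = a) : s36t_Cong V x a := h ▸ s36t_Cong.refl x

/-- a multiple of a non-unit is a non-unit. -/
theorem s36t_mul_mem_nonunits' {x y : K} (hx : x ∈ V) (hy : y ∈ V.nonunits) :
    x * y ∈ V.nonunits := by
  rw [ValuationSubring.mem_nonunits_iff, map_mul]
  have h1 : V.valuation x ≤ 1 := (V.valuation_le_one_iff x).mpr hx
  have h2 : V.valuation y < 1 := V.mem_nonunits_iff.mp hy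
  exact mul_lt_one_of_nonneg_of_lt_one_right h1 zero_le h2

theorem s36t_Cong.mem {x a : K} (h : s36t_Cong V x a) (ha : a ∈ V) : x ∈ V := by
  have : x = (x - a) + a := by ring
  rw [this]; exact V.add_mem _ _ (ValuationSubring.nonunits_subset h) ha

theorem s36t_Cong.mem' {x a : K} (h : s36t_Cong V x a) (hx : x ∈ V) : a ∈ V := h.symm.mem hx

theorem s36t_Cong.add {x a y b : K} (h₁ : s36t_Cong V x a) (h₂ : s36t_Cong V y b) :
    s36t_Cong V (x + y) (a + b) := by
  unfold s36t_Cong at *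
  have : x + y - (a + b) = (x - a) + (y - b) := by ring
  rw [this]; exact V.nonunits.add_mem h₁ h₂

theorem s36t_Cong.sub {x a y b : K} (h₁ : s36t_Cong V x a) (h₂ : s36t_Cong V y b) :
    s36t_Cong V (x - y) (a - b) := by
  unfold s36t_Cong at *
  have : x - y - (a - b) = (x - a) - (y - b) := by ring
  rw [this]; exact V.nonunits.sub_mem h₁ h₂

theorem s36t_Cong.mul {x a y b : K} (h₁ : s36t_Cong V x a) (h₂ : s36t_Cong V y b) (ha : a ∈ V)
    (hb : b ∈ V) : s36t_Cong V (x * y) (a * b) := by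
  have hy : y ∈ V := h₂.mem hb
  unfold s36t_Cong at *
  have : x * y - a * b = y * (x - a) + a * (y - b) := by ring
  rw [this]
  exact V.nonunits.add_mem (s36t_mul_mem_nonunits' hy h₁) (s36t_mul_mem_nonunits' ha h₂)

theorem s36t_Cong.pow {x a : K} (h : s36t_Cong V x a) (ha : a ∈ V) (n : ℕ) :
    s36t_Cong V (x ^ n) (a ^ n) := by
  induction n with
  | zero => simp only [pow_zero]; exact s36t_Cong.refl 1
  | succ n ih =>
    rw [pow_succ, pow_succ]
    exact ih.mul h (V.pow_mem ha n) ha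

/-- a unit of `V`: `a ∈ V` and `a⁻¹ ∈ V`. -/
theorem s36t_unit_not_mem_nonunits {a : K} (ha' : a⁻¹ ∈ V) (ha0 : a ≠ 0) : a ∉ V.nonunits := by
  intro h
  rw [ValuationSubring.mem_nonunits_iff_or] at h
  rcases h with h | h
  · exact ha0 h
  · exact h ha'

theorem s36t_val_eq_one {a : K} (ha : a ∈ V) (ha' : a⁻¹ ∈ V) (ha0 : a ≠ 0) :
    V.valuation a = 1 := by
  have h1 : V.valuation a ≤ 1 := (V.valuation_le_one_iff a).mpr ha
  have h2 : V.valuation a⁻¹ ≤ 1 := (V.valuation_le_one_iff a⁻¹).mpr ha'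
  rw [map_inv₀] at h2
  have h0 : V.valuation a ≠ 0 := (Valuation.ne_zero_iff _).mpr ha0
  have h3 : 1 ≤ V.valuation a := by
    by_contra hlt
    push Not at hlt
    have : 1 < (V.valuation a)⁻¹ := (one_lt_inv₀ (zero_lt_iff.mpr h0)).mpr hlt
    exact absurd h2 (not_le.mpr this)
  exact le_antisymm h1 h3

/-- congruent to a unit ⇒ unit. -/
theorem s36t_Cong.inv_mem {x a : K} (h : s36t_Cong V x a) (ha : a ∈ V) (ha' : a⁻¹ ∈ V)
    (ha0 : a ≠ 0) : x⁻¹ ∈ V := by
  have hva := s36t_val_eq_one ha ha' ha0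
  have hlt : V.valuation (x - a) < 1 := V.mem_nonunits_iff.mp h
  have hx : V.valuation x = 1 := by
    have : x = a + (x - a) := by ring
    rw [this, Valuation.map_add_eq_of_lt_left _ (by rw [hva]; exact hlt), hva]
  rw [← ValuationSubring.valuation_le_one_iff, map_inv₀, hx, inv_one]

theorem s36t_Cong.ne_zero {x a : K} (h : s36t_Cong V x a) (ha' : a⁻¹ ∈ V) (ha0 : a ≠ 0) :
    x ≠ 0 := by
  rintro rfl
  unfold s36t_Cong at h
  rw [zero_sub] at h
  have := V.nonunits.neg_mem h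
  rw [neg_neg] at this
  exact s36t_unit_not_mem_nonunits ha' ha0 this

theorem s36t_Cong.inv {x a : K} (h : s36t_Cong V x a) (ha : a ∈ V) (ha' : a⁻¹ ∈ V)
    (ha0 : a ≠ 0) : s36t_Cong V x⁻¹ a⁻¹ := by
  have hx' : x⁻¹ ∈ V := h.inv_mem ha ha' ha0
  have hx0 : x ≠ 0 := h.ne_zero ha' ha0
  unfold s36t_Cong at *
  have : x⁻¹ - a⁻¹ = (x⁻¹ * a⁻¹) * (-(x - a)) := by
    field_simp
    ring
  rw [this]
  exact s36t_mul_mem_nonunits' (V.mul_mem _ _ hx' ha') (V.nonunits.neg_mem h)

theorem s36t_Cong.div {x a y b : K} (h₁ : s36t_Cong V x a) (h₂ : s36t_Cong V y b) (ha : a ∈ V)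
    (hb : b ∈ V) (hb' : b⁻¹ ∈ V) (hb0 : b ≠ 0) : s36t_Cong V (x / y) (a / b) := by
  rw [div_eq_mul_inv, div_eq_mul_inv]
  exact h₁.mul (h₂.inv hb hb' hb0) ha hb'

/-- transport along a ring homomorphism under which `V` pulls back into `W`. -/
theorem s36t_Cong.map {L : Type*} [Field L] {W : ValuationSubring L} (i : K →+* L)
    (hi : ∀ z ∈ V.nonunits, i z ∈ W.nonunits) {x a : K} (h : s36t_Cong V x a) :
    s36t_Cong W (i x) (i a) := by
  unfold s36t_Cong at *
  rw [← map_sub]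
  exact hi _ h

end Fermat.Agent.Lib.S36
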