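/-
S36 project, GEOMETRY side (lead, prefix `s36g_`): THE ABSTRACT ARGUMENTS (N-C) AND (G)
in the frame `s36g_RootFrame` of `GRootFrame.lean` (Mathlib + `GRootFrame` + `TCong` only).

* `s36g_rootNC (F : s36g_RootFrame A₀ q V V' α β Nα Nβ) : s36g_RootNC A₀ q V Nα Nβ`
* `s36g_rootG  (F : s36g_RootFrame A₀ q V V' α β Nα Nβ) : s36g_RootG A₀ q V V' Nα Nβ`

Tools: unit/congruence calculus (`s36g_val_one_iff`, `s36g_unit_of_cong`, `s36g_cong_mul/pow/div`),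
transport along a restriction `V.comap i = V'` (`s36g_comap_mem/unit/nonunit/cong`), normalisation of a
norm `C · H ^ m` which is a unit at `V' 0`, `V' 1` (`s36g_normalise`, uses `unif'`), the norms of a
3-unit are units (`s36g_normα_unit`, `s36g_normβ_unit`), the Bezout step (`s36g_root_of_pow`), roots of
constant residues (`s36g_const_root`, uses `root'`) and the toric identities modulo the maximal ideal
of `A₀` (`s36g_toric`).
-/
import Mathlib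
import Fermat.Agent.Lib.S36.GRootFrame
import Fermat.Agent.Lib.S36.TCong

set_option autoImplicit false
set_option linter.unusedSimpArgs false

namespace Fermat.Agent.Lib.S36

section basic

variable {K : Type*} [Field K] {V : ValuationSubring K}

theorem s36g_val_one_iff {x : K} : V.valuation x = 1 ↔ x ∈ V ∧ x⁻¹ ∈ V ∧ x ≠ 0 := by
  constructor
  · intro h
    have h0 : x ≠ 0 := by
      rintro rfl
      rw [map_zero] at h
      exact zero_ne_one h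
    refine ⟨(V.valuation_le_one_iff x).mp h.le, ?_, h0⟩
    rw [← V.valuation_le_one_iff, map_inv₀, h, inv_one]
  · rintro ⟨h1, h2, h0⟩
    exact s36t_val_eq_one h1 h2 h0

theorem s36g_unit_mem {x : K} (h : V.valuation x = 1) : x ∈ V := (s36g_val_one_iff.mp h).1

theorem s36g_unit_inv_mem {x : K} (h : V.valuation x = 1) : x⁻¹ ∈ V := (s36g_val_one_iff.mp h).2.1

theorem s36g_unit_ne_zero {x : K} (h : V.valuation x = 1) : x ≠ 0 := (s36g_val_one_iff.mp h).2.2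

/-- congruent to a unit ⇒ unit. -/
theorem s36g_unit_of_cong {x a : K} (h : s36t_Cong V x a) (ha : V.valuation a = 1) :
    V.valuation x = 1 := by
  have hlt : V.valuation (x - a) < 1 := V.mem_nonunits_iff.mp h
  have : x = a + (x - a) := by ring
  rw [this, Valuation.map_add_eq_of_lt_left _ (by rw [ha]; exact hlt), ha]

theorem s36g_unit_of_cong' {x a : K} (h : s36t_Cong V x a) (hx : V.valuation x = 1) :
    V.valuation a = 1 := s36g_unit_of_cong h.symm hx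

theorem s36g_cong_mul {x a y b : K} (h₁ : s36t_Cong V x a) (h₂ : s36t_Cong V y b)
    (ha : V.valuation a = 1) (hb : V.valuation b = 1) : s36t_Cong V (x * y) (a * b) :=
  h₁.mul h₂ (s36g_unit_mem ha) (s36g_unit_mem hb)

theorem s36g_cong_pow {x a : K} (h : s36t_Cong V x a) (ha : V.valuation a = 1) (n : ℕ) :
    s36t_Cong V (x ^ n) (a ^ n) := h.pow (s36g_unit_mem ha) n

theorem s36g_cong_div {x a y b : K} (h₁ : s36t_Cong V x a) (h₂ : s36t_Cong V y b)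
    (ha : V.valuation a = 1) (hb : V.valuation b = 1) : s36t_Cong V (x / y) (a / b) :=
  h₁.div h₂ (s36g_unit_mem ha) (s36g_unit_mem hb) (s36g_unit_inv_mem hb) (s36g_unit_ne_zero hb)

/-- in a valuation, `v x ^ m = 1` with `m ≠ 0` forces `v x = 1`. -/
theorem s36g_val_one_of_pow {x : K} {m : ℕ} (hm : m ≠ 0) (h : V.valuation (x ^ m) = 1) :
    V.valuation x = 1 := by
  rw [map_pow] at h
  rcases lt_trichotomy (V.valuation x) 1 with hlt | heq | hgt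
  · exact absurd h (pow_lt_one₀ zero_le hlt hm).ne
  · exact heq
  · exact absurd h (one_lt_pow₀ hgt hm).ne'

/-- **The toric identities** modulo the maximal ideal. -/
theorem s36g_toric (A : ValuationSubring K) (n m : ℕ) (c₀ c₁ c₂ cα cβ eA eA' eB eB' : K)
    (hc₀ : A.valuation c₀ = 1) (hc₁ : A.valuation c₁ = 1) (hc₂ : A.valuation c₂ = 1)
    (hcα : A.valuation cα = 1) (hcβ : A.valuation cβ = 1) (heA : A.valuation eA = 1)
    (heA' : A.valuation eA' = 1) (heB : A.valuation eB = 1) (heB' : A.valuation eB' = 1)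
    (ha : s36t_Cong A (cα * eA' ^ m) (c₀ * c₁ ^ n))
    (hb : s36t_Cong A (cα * eA ^ m) (c₂ ^ (n + 1)))
    (hc : s36t_Cong A (cβ * eB ^ m) (c₀ ^ (n + 1)))
    (hd : s36t_Cong A (cβ * eB' ^ m) (c₂ * c₁ ^ n)) :
    s36t_Cong A (c₁ ^ (n * (n + 2)) * (eA * eB ^ (n + 1) / (eA' * eB' ^ (n + 1))) ^ m)
      (c₀ ^ (n * (n + 2))) ∧
    s36t_Cong A (c₁ ^ (n * (n + 2)) * (eA ^ (n + 1) * eB / (eA' ^ (n + 1) * eB')) ^ m)
      (c₂ ^ (n * (n + 2))) := by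
  have h0 : c₀ ≠ 0 := s36g_unit_ne_zero hc₀
  have h1 : c₁ ≠ 0 := s36g_unit_ne_zero hc₁
  have h2 : c₂ ≠ 0 := s36g_unit_ne_zero hc₂
  have h3 : cα ≠ 0 := s36g_unit_ne_zero hcα
  have h4 : cβ ≠ 0 := s36g_unit_ne_zero hcβ
  have h5 : eA ≠ 0 := s36g_unit_ne_zero heA
  have h6 : eA' ≠ 0 := s36g_unit_ne_zero heA'
  have h7 : eB ≠ 0 := s36g_unit_ne_zero heB
  have h8 : eB' ≠ 0 := s36g_unit_ne_zero heB'
  have va : A.valuation (c₀ * c₁ ^ n) = 1 := by rw [map_mul, map_pow, hc₀, hc₁, one_pow, one_mul]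
  have vb : A.valuation (c₂ ^ (n + 1)) = 1 := by rw [map_pow, hc₂, one_pow]
  have vc : A.valuation (c₀ ^ (n + 1)) = 1 := by rw [map_pow, hc₀, one_pow]
  have vd : A.valuation (c₂ * c₁ ^ n) = 1 := by rw [map_mul, map_pow, hc₂, hc₁, one_pow, one_mul]
  have vN : A.valuation (c₁ ^ (n * (n + 2))) = 1 := by rw [map_pow, hc₁, one_pow]
  constructor
  · have hX : s36t_Cong A ((cα * eA' ^ m) * (cβ * eB' ^ m) ^ (n + 1))
        ((c₀ * c₁ ^ n) * (c₂ * c₁ ^ n) ^ (n + 1)) :=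
      s36g_cong_mul ha (s36g_cong_pow hd vd _) va (by simp only [map_mul, map_pow, map_div₀, hc₀, hc₁, hc₂, hcα, hcβ, heA, heA', heB, heB', one_pow, mul_one, div_one])
    have hY : s36t_Cong A ((cα * eA ^ m) * (cβ * eB ^ m) ^ (n + 1))
        (c₂ ^ (n + 1) * (c₀ ^ (n + 1)) ^ (n + 1)) :=
      s36g_cong_mul hb (s36g_cong_pow hc vc _) vb (by simp only [map_mul, map_pow, map_div₀, hc₀, hc₁, hc₂, hcα, hcβ, heA, heA', heB, heB', one_pow, mul_one, div_one])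
    have hYX := s36g_cong_div hY hX (by simp only [map_mul, map_pow, map_div₀, hc₀, hc₁, hc₂, hcα, hcβ, heA, heA', heB, heB', one_pow, mul_one, div_one])
      (by simp only [map_mul, map_pow, map_div₀, hc₀, hc₁, hc₂, hcα, hcβ, heA, heA', heB, heB', one_pow, mul_one, div_one])
    have hfin := s36g_cong_mul (s36t_Cong.refl (c₁ ^ (n * (n + 2)))) hYX vN
      (by simp only [map_mul, map_pow, map_div₀, hc₀, hc₁, hc₂, hcα, hcβ, heA, heA', heB, heB', one_pow, mul_one, div_one])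
    have e1 : (eA * eB ^ (n + 1) / (eA' * eB' ^ (n + 1))) ^ m
        = (cα * eA ^ m) * (cβ * eB ^ m) ^ (n + 1) / ((cα * eA' ^ m) * (cβ * eB' ^ m) ^ (n + 1)) := by
      rw [div_pow, div_eq_div_iff (pow_ne_zero _ (mul_ne_zero h6 (pow_ne_zero _ h8)))
        (mul_ne_zero (mul_ne_zero h3 (pow_ne_zero _ h6))
          (pow_ne_zero _ (mul_ne_zero h4 (pow_ne_zero _ h8))))]
      ring
    have e2 : c₁ ^ (n * (n + 2)) * (c₂ ^ (n + 1) * (c₀ ^ (n + 1)) ^ (n + 1)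
        / ((c₀ * c₁ ^ n) * (c₂ * c₁ ^ n) ^ (n + 1))) = c₀ ^ (n * (n + 2)) := by
      field_simp
      ring
    rw [e1]
    rw [e2] at hfin
    exact hfin
  · have hX : s36t_Cong A ((cα * eA' ^ m) ^ (n + 1) * (cβ * eB' ^ m))
        ((c₀ * c₁ ^ n) ^ (n + 1) * (c₂ * c₁ ^ n)) :=
      s36g_cong_mul (s36g_cong_pow ha va _) hd (by simp only [map_mul, map_pow, map_div₀, hc₀, hc₁, hc₂, hcα, hcβ, heA, heA', heB, heB', one_pow, mul_one, div_one]) vd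
    have hY : s36t_Cong A ((cα * eA ^ m) ^ (n + 1) * (cβ * eB ^ m))
        ((c₂ ^ (n + 1)) ^ (n + 1) * c₀ ^ (n + 1)) :=
      s36g_cong_mul (s36g_cong_pow hb vb _) hc (by simp only [map_mul, map_pow, map_div₀, hc₀, hc₁, hc₂, hcα, hcβ, heA, heA', heB, heB', one_pow, mul_one, div_one]) vc
    have hYX := s36g_cong_div hY hX (by simp only [map_mul, map_pow, map_div₀, hc₀, hc₁, hc₂, hcα, hcβ, heA, heA', heB, heB', one_pow, mul_one, div_one])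
      (by simp only [map_mul, map_pow, map_div₀, hc₀, hc₁, hc₂, hcα, hcβ, heA, heA', heB, heB', one_pow, mul_one, div_one])
    have hfin := s36g_cong_mul (s36t_Cong.refl (c₁ ^ (n * (n + 2)))) hYX vN
      (by simp only [map_mul, map_pow, map_div₀, hc₀, hc₁, hc₂, hcα, hcβ, heA, heA', heB, heB', one_pow, mul_one, div_one])
    have e1 : (eA ^ (n + 1) * eB / (eA' ^ (n + 1) * eB')) ^ m
        = (cα * eA ^ m) ^ (n + 1) * (cβ * eB ^ m) / ((cα * eA' ^ m) ^ (n + 1) * (cβ * eB' ^ m)) := by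
      rw [div_pow, div_eq_div_iff (pow_ne_zero _ (mul_ne_zero (pow_ne_zero _ h6) h8))
        (mul_ne_zero (pow_ne_zero _ (mul_ne_zero h3 (pow_ne_zero _ h6)))
          (mul_ne_zero h4 (pow_ne_zero _ h8)))]
      ring
    have e2 : c₁ ^ (n * (n + 2)) * ((c₂ ^ (n + 1)) ^ (n + 1) * c₀ ^ (n + 1)
        / ((c₀ * c₁ ^ n) ^ (n + 1) * (c₂ * c₁ ^ n))) = c₂ ^ (n * (n + 2)) := by
      field_simp
      ring
    rw [e1]
    rw [e2] at hfin
    exact hfin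

end basic

section comap

variable {K K' : Type*} [Field K] [Field K'] {V : ValuationSubring K} {V' : ValuationSubring K'}
  (i : K' →+* K) (hc : V.comap i = V')

include hc

theorem s36g_comap_mem {r : K'} : r ∈ V' ↔ i r ∈ V := by
  rw [← hc, ValuationSubring.mem_comap]

theorem s36g_comap_unit {r : K'} : V'.valuation r = 1 ↔ V.valuation (i r) = 1 := by
  rw [s36g_val_one_iff, s36g_val_one_iff, s36g_comap_mem i hc, s36g_comap_mem i hc, map_inv₀,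
    _root_.map_ne_zero]

theorem s36g_comap_nonunit {r : K'} : r ∈ V'.nonunits ↔ i r ∈ V.nonunits := by
  rw [ValuationSubring.mem_nonunits_iff_or, ValuationSubring.mem_nonunits_iff_or,
    s36g_comap_mem i hc, map_inv₀, map_eq_zero]

theorem s36g_comap_cong {x a : K'} : s36t_Cong V' x a ↔ s36t_Cong V (i x) (i a) := by
  unfold s36t_Cong
  rw [s36g_comap_nonunit i hc, map_sub]

end comap

section generic

variable {K₀ 𝓕 : Type*} [Field K₀] [Field 𝓕] [Algebra K₀ 𝓕] {A₀ : ValuationSubring K₀}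

theorem s36g_bezout {q m : ℕ} (hq : 0 < q) (hm : m ≠ 0) (h : Nat.Coprime q m) :
    ∃ a b : ℕ, a * q = b * m + 1 := by
  rcases Nat.lt_or_ge 1 m with h1 | h1
  · obtain ⟨a, -, ha⟩ := Nat.exists_mul_mod_eq_one_of_coprime h h1
    refine ⟨a, q * a / m, ?_⟩
    have := Nat.div_add_mod (q * a) m
    rw [ha] at this
    calc a * q = q * a := mul_comm _ _
      _ = m * (q * a / m) + 1 := this.symm
      _ = q * a / m * m + 1 := by rw [mul_comm]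
  · have : m = 1 := by omega
    subst this
    exact ⟨1, q - 1, by omega⟩

/-- **The Bezout trick**: if `g ^ q ≡ c · h ^ m` and `a q = b m + 1` then
`g ≡ c ^ a · (h ^ a / g ^ b) ^ m`. -/
theorem s36g_root_of_pow (W : ValuationSubring 𝓕) (hW : W.comap (algebraMap K₀ 𝓕) = A₀)
    {q m a b : ℕ} (hab : a * q = b * m + 1) (g : 𝓕) (hg : W.valuation g = 1) (c : K₀)
    (hc : A₀.valuation c = 1) (h : 𝓕) (hh : W.valuation h = 1)
    (hcong : s36t_Cong W (g ^ q) (algebraMap K₀ 𝓕 c * h ^ m)) :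
    W.valuation (h ^ a / g ^ b) = 1 ∧
      s36t_Cong W g (algebraMap K₀ 𝓕 (c ^ a) * (h ^ a / g ^ b) ^ m) := by
  have hcW : W.valuation (algebraMap K₀ 𝓕 c) = 1 := (s36g_comap_unit _ hW).mp hc
  have hg0 : g ≠ 0 := s36g_unit_ne_zero hg
  have hunit : W.valuation (h ^ a / g ^ b) = 1 := by
    rw [map_div₀, map_pow, map_pow, hh, hg, one_pow, one_pow, div_one]
  refine ⟨hunit, ?_⟩
  have hrhs : W.valuation (algebraMap K₀ 𝓕 c * h ^ m) = 1 := by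
    rw [map_mul, map_pow, hcW, hh, one_pow, one_mul]
  have h1 : s36t_Cong W ((g ^ q) ^ a) ((algebraMap K₀ 𝓕 c * h ^ m) ^ a) :=
    s36g_cong_pow hcong hrhs a
  have hden : W.valuation ((g ^ b) ^ m) = 1 := by
    rw [map_pow, map_pow, hg, one_pow, one_pow]
  have h2 : s36t_Cong W ((g ^ q) ^ a / (g ^ b) ^ m)
      ((algebraMap K₀ 𝓕 c * h ^ m) ^ a / (g ^ b) ^ m) :=
    s36g_cong_div h1 (s36t_Cong.refl _) (by rw [map_pow, hrhs, one_pow]) hden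
  have e1 : (g ^ q) ^ a / (g ^ b) ^ m = g := by
    rw [← pow_mul, ← pow_mul, mul_comm q a, hab, pow_succ]
    field_simp
  have e2 : (algebraMap K₀ 𝓕 c * h ^ m) ^ a / (g ^ b) ^ m
      = algebraMap K₀ 𝓕 (c ^ a) * (h ^ a / g ^ b) ^ m := by
    rw [map_pow, div_pow, mul_pow, ← pow_mul, ← pow_mul, ← pow_mul, mul_comm m a]
    ring
  rw [e1, e2] at h2
  exact h2

end generic

section frame

variable {K₀ 𝓕 𝓕' : Type*} [Field K₀] [Field 𝓕] [Field 𝓕'] [Algebra K₀ 𝓕] [Algebra K₀ 𝓕']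
  {A₀ : ValuationSubring K₀} {q : ℕ} {V : Fin 3 → ValuationSubring 𝓕}
  {V' : Fin 2 → ValuationSubring 𝓕'} {α β : 𝓕' →ₐ[K₀] 𝓕} {Nα Nβ : 𝓕 →* 𝓕'}
  (F : s36g_RootFrame A₀ q V V' α β Nα Nβ)

include F

theorem s36g_cstV_comap (i : Fin 3) : (V i).comap (algebraMap K₀ 𝓕) = A₀ := by
  ext a; exact F.cstV i a

theorem s36g_cstV'_comap (j : Fin 2) : (V' j).comap (algebraMap K₀ 𝓕') = A₀ := by
  ext a; exact F.cstV' j a

/-- constants which are units of `A₀` are units of every `V i`. -/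
theorem s36g_cst_unit (i : Fin 3) {c : K₀} (hc : A₀.valuation c = 1) :
    (V i).valuation (algebraMap K₀ 𝓕 c) = 1 :=
  (s36g_comap_unit _ (s36g_cstV_comap F i)).mp hc

theorem s36g_cst_unit' (j : Fin 2) {c : K₀} (hc : A₀.valuation c = 1) :
    (V' j).valuation (algebraMap K₀ 𝓕' c) = 1 :=
  (s36g_comap_unit _ (s36g_cstV'_comap F j)).mp hc

/-- **Normalisation**: a unit of `V' 0` and `V' 1` of the form `C · H ^ m` is `c · y ^ m` with `c` a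
unit of `A₀` and `y` a unit of `V' 0` and `V' 1`. -/
theorem s36g_normalise {m : ℕ} (hm : m ≠ 0) (w : 𝓕') (h0 : (V' 0).valuation w = 1)
    (h1 : (V' 1).valuation w = 1) (C : K₀) (H : 𝓕') (hw : w = algebraMap K₀ 𝓕' C * H ^ m) :
    ∃ (c : K₀) (y : 𝓕'), A₀.valuation c = 1 ∧ (V' 0).valuation y = 1 ∧ (V' 1).valuation y = 1 ∧
      w = algebraMap K₀ 𝓕' c * y ^ m := by
  have hw0 : w ≠ 0 := s36g_unit_ne_zero h0
  have hH0 : H ≠ 0 := by
    rintro rfl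
    rw [zero_pow hm, mul_zero] at hw
    exact hw0 hw
  obtain ⟨k, z, hz, hH⟩ := F.unif' H hH0
  have hz0 : z ≠ 0 := s36g_unit_ne_zero hz
  have hw' : w = algebraMap K₀ 𝓕' (C * (q : K₀) ^ (k * (m : ℤ))) * z ^ m := by
    rw [hw, hH, map_mul, map_zpow₀, mul_pow, zpow_mul, zpow_natCast]
    ring
  have hcst0 : (V' 0).valuation (algebraMap K₀ 𝓕' (C * (q : K₀) ^ (k * (m : ℤ)))) = 1 := by
    have : algebraMap K₀ 𝓕' (C * (q : K₀) ^ (k * (m : ℤ))) = w / z ^ m := by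
      rw [hw']; field_simp
    rw [this, map_div₀, map_pow, h0, hz, one_pow, div_one]
  have hc : A₀.valuation (C * (q : K₀) ^ (k * (m : ℤ))) = 1 :=
    (s36g_comap_unit _ (s36g_cstV'_comap F 0)).mpr hcst0
  have hcst1 := s36g_cst_unit' F 1 hc
  have hzm : (V' 1).valuation (z ^ m) = 1 := by
    have : z ^ m = w / algebraMap K₀ 𝓕' (C * (q : K₀) ^ (k * (m : ℤ))) := by
      rw [hw']
      have := s36g_unit_ne_zero hcst1
      field_simp
    rw [this, map_div₀, h1, hcst1, div_one]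
  exact ⟨_, z, hc, hz, s36g_val_one_of_pow hm hzm, hw'⟩

/-- the norm along `α` of a 3-unit is a unit at `V' 0` and `V' 1`. -/
theorem s36g_normα_unit (u : 𝓕) (hu : ∀ i, (V i).valuation u = 1) :
    (V' 0).valuation (Nα u) = 1 ∧ (V' 1).valuation (Nα u) = 1 := by
  constructor
  · obtain ⟨r₀, hr₀, h₀⟩ := F.resα0 u (s36g_unit_mem (hu 0))
    obtain ⟨r₁, hr₁, h₁⟩ := F.resα1 u (s36g_unit_mem (hu 1))
    have hr₀u : (V' 0).valuation r₀ = 1 :=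
      (s36g_comap_unit _ F.comapα0).mpr (s36g_unit_of_cong' h₀ (hu 0))
    have hr₁u : (V' 0).valuation r₁ = 1 :=
      (s36g_comap_unit _ F.comapα1).mpr (s36g_unit_of_cong' h₁ (hu 1))
    have h := F.normAα u r₀ r₁ (s36g_unit_mem (hu 0)) (s36g_unit_mem (hu 1)) hr₀ hr₁ h₀ h₁
    refine s36g_unit_of_cong h ?_
    rw [map_mul, map_pow, hr₀u, hr₁u, one_pow, one_mul]
  · obtain ⟨r₂, hr₂, h₂⟩ := F.resα2 u (s36g_unit_mem (hu 2))
    have huq : (V 2).valuation (u ^ q) = 1 := by rw [map_pow, hu 2, one_pow]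
    have hr₂u : (V' 1).valuation r₂ = 1 :=
      (s36g_comap_unit _ F.comapα2).mpr (s36g_unit_of_cong' h₂ huq)
    have h := F.normBα u r₂ (s36g_unit_mem (hu 2)) hr₂ h₂
    exact s36g_unit_of_cong h hr₂u

/-- the norm along `β` of a 3-unit is a unit at `V' 0` and `V' 1`. -/
theorem s36g_normβ_unit (u : 𝓕) (hu : ∀ i, (V i).valuation u = 1) :
    (V' 0).valuation (Nβ u) = 1 ∧ (V' 1).valuation (Nβ u) = 1 := by
  constructor
  · obtain ⟨r₀, hr₀, h₀⟩ := F.resβ0 u (s36g_unit_mem (hu 0))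
    have huq : (V 0).valuation (u ^ q) = 1 := by rw [map_pow, hu 0, one_pow]
    have hr₀u : (V' 0).valuation r₀ = 1 :=
      (s36g_comap_unit _ F.comapβ0).mpr (s36g_unit_of_cong' h₀ huq)
    have h := F.normBβ u r₀ (s36g_unit_mem (hu 0)) hr₀ h₀
    exact s36g_unit_of_cong h hr₀u
  · obtain ⟨r₂, hr₂, h₂⟩ := F.resβ2 u (s36g_unit_mem (hu 2))
    obtain ⟨r₁, hr₁, h₁⟩ := F.resβ1 u (s36g_unit_mem (hu 1))
    have hr₂u : (V' 1).valuation r₂ = 1 :=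
      (s36g_comap_unit _ F.comapβ2).mpr (s36g_unit_of_cong' h₂ (hu 2))
    have hr₁u : (V' 1).valuation r₁ = 1 :=
      (s36g_comap_unit _ F.comapβ1).mpr (s36g_unit_of_cong' h₁ (hu 1))
    have h := F.normAβ u r₂ r₁ (s36g_unit_mem (hu 2)) (s36g_unit_mem (hu 1)) hr₂ hr₁ h₂ h₁
    refine s36g_unit_of_cong h ?_
    rw [map_mul, map_pow, hr₂u, hr₁u, one_pow, one_mul]

/-- from `w = cw · y ^ m` and `w ≡ d` (constants, units of `A₀`) to `y ≡ e` with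
`cw · e ^ m ≡ d` in `A₀`. -/
theorem s36g_const_root (j : Fin 2) {m : ℕ} (hm : m ≠ 0) (w y : 𝓕') (cw d : K₀)
    (hcw : A₀.valuation cw = 1) (hd : A₀.valuation d = 1)
    (hw : w = algebraMap K₀ 𝓕' cw * y ^ m)
    (hwd : s36t_Cong (V' j) w (algebraMap K₀ 𝓕' d)) :
    ∃ e : K₀, A₀.valuation e = 1 ∧ y - algebraMap K₀ 𝓕' e ∈ (V' j).nonunits ∧
      s36t_Cong A₀ (cw * e ^ m) d := by
  have hcwV := s36g_cst_unit' F j hcw
  have hdV := s36g_cst_unit' F j hd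
  have hcw0 : algebraMap K₀ 𝓕' cw ≠ 0 := s36g_unit_ne_zero hcwV
  have h1 : s36t_Cong (V' j) (w / algebraMap K₀ 𝓕' cw)
      (algebraMap K₀ 𝓕' d / algebraMap K₀ 𝓕' cw) :=
    s36g_cong_div hwd (s36t_Cong.refl _) hdV hcwV
  have e1 : w / algebraMap K₀ 𝓕' cw = y ^ m := by
    rw [hw]; field_simp
  have e2 : algebraMap K₀ 𝓕' d / algebraMap K₀ 𝓕' cw = algebraMap K₀ 𝓕' (d / cw) := by
    rw [map_div₀]
  rw [e1, e2] at h1
  have hdc : A₀.valuation (d / cw) = 1 := by rw [map_div₀, hd, hcw, div_one]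
  obtain ⟨e, he, hye⟩ := F.root' j m hm y (d / cw) hdc h1
  refine ⟨e, he, hye, ?_⟩
  have heV := s36g_cst_unit' F j he
  have h2 : s36t_Cong (V' j) (y ^ m) (algebraMap K₀ 𝓕' e ^ m) := s36g_cong_pow hye heV m
  have h3 : s36t_Cong (V' j) (algebraMap K₀ 𝓕' (e ^ m)) (algebraMap K₀ 𝓕' (d / cw)) := by
    rw [map_pow]
    exact h2.symm.trans h1
  have h4 : s36t_Cong A₀ (e ^ m) (d / cw) := (s36g_comap_cong _ (s36g_cstV'_comap F j)).mpr h3
  have h5 : s36t_Cong A₀ (cw * e ^ m) (cw * (d / cw)) :=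
    s36g_cong_mul (s36t_Cong.refl cw) h4 hcw hdc
  have hcwK : cw ≠ 0 := s36g_unit_ne_zero hcw
  have e3 : cw * (d / cw) = d := by field_simp
  rw [e3] at h5
  exact h5

/-- **Contract (N-C).** -/
theorem s36g_rootNC : s36g_RootNC A₀ q V Nα Nβ := by
  intro hq m hm hcop g hg Cα Cβ Hα Hβ hNα hNβ
  obtain ⟨a, b, hab⟩ := s36g_bezout hq hm hcop
  -- normalisation of the two norms
  obtain ⟨hα0, hα1⟩ := s36g_normα_unit F g hg
  obtain ⟨hβ0, hβ1⟩ := s36g_normβ_unit F g hg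
  obtain ⟨cα, zα, hcα, hzα0, hzα1, hNα'⟩ := s36g_normalise F hm (Nα g) hα0 hα1 Cα Hα hNα
  obtain ⟨cβ, zβ, hcβ, hzβ0, hzβ1, hNβ'⟩ := s36g_normalise F hm (Nβ g) hβ0 hβ1 Cβ Hβ hNβ
  -- `i = 2`
  have key2 : ∃ (c₂ : K₀) (g₂ : 𝓕), A₀.valuation c₂ = 1 ∧ (V 2).valuation g₂ = 1 ∧
      s36t_Cong (V 2) g (algebraMap K₀ 𝓕 c₂ * g₂ ^ m) := by
    obtain ⟨r₂, hr₂, h₂⟩ := F.resα2 g (s36g_unit_mem (hg 2))
    have hN := F.normBα g r₂ (s36g_unit_mem (hg 2)) hr₂ h₂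
    have h3 : s36t_Cong (V 2) (α (Nα g)) (α r₂) := (s36g_comap_cong _ F.comapα2).mp hN
    have h4 : s36t_Cong (V 2) (g ^ q) (α (Nα g)) := s36t_Cong.trans h₂ h3.symm
    have e : α (Nα g) = algebraMap K₀ 𝓕 cα * (α zα) ^ m := by
      rw [hNα', map_mul, map_pow, AlgHom.commutes]
    rw [e] at h4
    have hαz : (V 2).valuation (α zα) = 1 := (s36g_comap_unit _ F.comapα2).mp hzα1
    obtain ⟨hu, hc⟩ := s36g_root_of_pow (V 2) (s36g_cstV_comap F 2) hab g (hg 2) cα hcα (α zα)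
      hαz h4
    exact ⟨cα ^ a, _, by rw [map_pow, hcα, one_pow], hu, hc⟩
  -- `i = 0`
  have key0 : ∃ (c₀ : K₀) (g₀ : 𝓕), A₀.valuation c₀ = 1 ∧ (V 0).valuation g₀ = 1 ∧
      s36t_Cong (V 0) g (algebraMap K₀ 𝓕 c₀ * g₀ ^ m) := by
    obtain ⟨r₀, hr₀, h₀⟩ := F.resβ0 g (s36g_unit_mem (hg 0))
    have hN := F.normBβ g r₀ (s36g_unit_mem (hg 0)) hr₀ h₀
    have h3 : s36t_Cong (V 0) (β (Nβ g)) (β r₀) := (s36g_comap_cong _ F.comapβ0).mp hN
    have h4 : s36t_Cong (V 0) (g ^ q) (β (Nβ g)) := s36t_Cong.trans h₀ h3.symm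
    have e : β (Nβ g) = algebraMap K₀ 𝓕 cβ * (β zβ) ^ m := by
      rw [hNβ', map_mul, map_pow, AlgHom.commutes]
    rw [e] at h4
    have hβz : (V 0).valuation (β zβ) = 1 := (s36g_comap_unit _ F.comapβ0).mp hzβ0
    obtain ⟨hu, hc⟩ := s36g_root_of_pow (V 0) (s36g_cstV_comap F 0) hab g (hg 0) cβ hcβ (β zβ)
      hβz h4
    exact ⟨cβ ^ a, _, by rw [map_pow, hcβ, one_pow], hu, hc⟩
  -- raising to the power `q - 1`
  have raise : ∀ (i : Fin 3) (c : K₀) (gi : 𝓕), A₀.valuation c = 1 → (V i).valuation gi = 1 →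
      s36t_Cong (V i) g (algebraMap K₀ 𝓕 c * gi ^ m) →
      ∃ (c' : K₀) (gi' : 𝓕), A₀.valuation c' = 1 ∧ (V i).valuation gi' = 1 ∧
        g ^ (q - 1) - algebraMap K₀ 𝓕 c' * gi' ^ m ∈ (V i).nonunits := by
    intro i c gi hc hgi hcong
    have hcV := s36g_cst_unit F i hc
    have hrhs : (V i).valuation (algebraMap K₀ 𝓕 c * gi ^ m) = 1 := by
      rw [map_mul, map_pow, hcV, hgi, one_pow, one_mul]
    have h1 := s36g_cong_pow hcong hrhs (q - 1)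
    refine ⟨c ^ (q - 1), gi ^ (q - 1), by rw [map_pow, hc, one_pow],
      by rw [map_pow, hgi, one_pow], ?_⟩
    have e : (algebraMap K₀ 𝓕 c * gi ^ m) ^ (q - 1)
        = algebraMap K₀ 𝓕 (c ^ (q - 1)) * (gi ^ (q - 1)) ^ m := by
      rw [map_pow, mul_pow, ← pow_mul, ← pow_mul, mul_comm m (q - 1)]
    rw [e] at h1
    exact h1
  -- `i = 1`
  have key1 : ∃ (c₁ : K₀) (g₁ : 𝓕), A₀.valuation c₁ = 1 ∧ (V 1).valuation g₁ = 1 ∧
      g ^ (q - 1) - algebraMap K₀ 𝓕 c₁ * g₁ ^ m ∈ (V 1).nonunits := by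
    obtain ⟨c₀, g₀, hc₀, hg₀, hcong0⟩ := key0
    obtain ⟨z₀, hz₀, hz₀c⟩ := F.resα0 g₀ (s36g_unit_mem hg₀)
    have hαz₀ : (V 0).valuation (α z₀) = 1 := s36g_unit_of_cong' hz₀c hg₀
    have hz₀u : (V' 0).valuation z₀ = 1 := (s36g_comap_unit _ F.comapα0).mpr hαz₀
    have hc₀V' := s36g_cst_unit' F 0 hc₀
    have hc₀V := s36g_cst_unit F 0 hc₀
    have hc₀'u : (V' 0).valuation (algebraMap K₀ 𝓕' c₀ * z₀ ^ m) = 1 := by
      rw [map_mul, map_pow, hc₀V', hz₀u, one_pow, one_mul]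
    have eα : α (algebraMap K₀ 𝓕' c₀ * z₀ ^ m) = algebraMap K₀ 𝓕 c₀ * (α z₀) ^ m := by
      rw [map_mul, map_pow, AlgHom.commutes]
    have hg0 : s36t_Cong (V 0) g (α (algebraMap K₀ 𝓕' c₀ * z₀ ^ m)) := by
      rw [eα]
      refine hcong0.trans ?_
      exact s36g_cong_mul (s36t_Cong.refl _) (s36g_cong_pow hz₀c hαz₀ m) hc₀V
        (by rw [map_pow, hαz₀, one_pow])
    obtain ⟨r₁, hr₁, h₁⟩ := F.resα1 g (s36g_unit_mem (hg 1))
    have hαr₁ : (V 1).valuation (α r₁) = 1 := s36g_unit_of_cong' h₁ (hg 1)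
    have hr₁u : (V' 0).valuation r₁ = 1 := (s36g_comap_unit _ F.comapα1).mpr hαr₁
    have hN := F.normAα g (algebraMap K₀ 𝓕' c₀ * z₀ ^ m) r₁ (s36g_unit_mem (hg 0))
      (s36g_unit_mem (hg 1)) (s36g_unit_mem hc₀'u) hr₁ hg0 h₁
    -- `r₁ ^ (q - 1) ≡ Nα g / c₀'`
    have hr₁q : (V' 0).valuation (r₁ ^ (q - 1)) = 1 := by rw [map_pow, hr₁u, one_pow]
    have h5 : s36t_Cong (V' 0)
        ((algebraMap K₀ 𝓕' c₀ * z₀ ^ m) * r₁ ^ (q - 1) / (algebraMap K₀ 𝓕' c₀ * z₀ ^ m))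
        (Nα g / (algebraMap K₀ 𝓕' c₀ * z₀ ^ m)) :=
      s36g_cong_div (s36t_Cong.symm hN) (s36t_Cong.refl _) hα0 hc₀'u
    have hc₀'0 := s36g_unit_ne_zero hc₀'u
    have e5 : (algebraMap K₀ 𝓕' c₀ * z₀ ^ m) * r₁ ^ (q - 1) / (algebraMap K₀ 𝓕' c₀ * z₀ ^ m)
        = r₁ ^ (q - 1) := mul_div_cancel_left₀ _ hc₀'0
    have hc₀0 : algebraMap K₀ 𝓕' c₀ ≠ 0 := s36g_unit_ne_zero hc₀V'
    have hz₀0 : z₀ ≠ 0 := s36g_unit_ne_zero hz₀u
    have e6 : Nα g / (algebraMap K₀ 𝓕' c₀ * z₀ ^ m)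
        = algebraMap K₀ 𝓕' (cα / c₀) * (zα / z₀) ^ m := by
      rw [hNα', map_div₀, div_pow]
      field_simp
    rw [e5, e6] at h5
    have h6 : s36t_Cong (V 1) (α (r₁ ^ (q - 1))) (α (algebraMap K₀ 𝓕' (cα / c₀) * (zα / z₀) ^ m)) :=
      (s36g_comap_cong _ F.comapα1).mp h5
    have e7 : α (algebraMap K₀ 𝓕' (cα / c₀) * (zα / z₀) ^ m)
        = algebraMap K₀ 𝓕 (cα / c₀) * (α (zα / z₀)) ^ m := by
      rw [map_mul, map_pow, AlgHom.commutes]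
    rw [e7, map_pow] at h6
    have h7 : s36t_Cong (V 1) (g ^ (q - 1)) ((α r₁) ^ (q - 1)) := s36g_cong_pow h₁ hαr₁ (q - 1)
    refine ⟨cα / c₀, α (zα / z₀), by rw [map_div₀, hcα, hc₀, div_one], ?_, h7.trans h6⟩
    refine (s36g_comap_unit _ F.comapα1).mp ?_
    rw [map_div₀, hzα0, hz₀u, div_one]
  intro i
  fin_cases i
  · obtain ⟨c₀, g₀, hc₀, hg₀, hcong0⟩ := key0
    exact raise 0 c₀ g₀ hc₀ hg₀ hcong0
  · exact key1
  · obtain ⟨c₂, g₂, hc₂, hg₂, hcong2⟩ := key2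
    exact raise 2 c₂ g₂ hc₂ hg₂ hcong2

/-- **Contract (G).** -/
theorem s36g_rootG : s36g_RootG A₀ q V V' Nα Nβ := by
  intro hq m hm Φ hΦ hres Cα Cβ Hα Hβ hNα hNβ
  obtain ⟨n, rfl⟩ : ∃ n, q = n + 1 := ⟨q - 1, by omega⟩
  have hN2 : (n + 1) ^ 2 - 1 = n * (n + 2) := by
    have : (n + 1) ^ 2 = n * (n + 2) + 1 := by ring
    rw [this, Nat.add_sub_cancel]
  choose c g hc hg hcong using hres
  -- the global root `x₁`
  obtain ⟨x₁, hx₁⟩ := F.approx g (fun i => s36g_unit_mem (hg i))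
  have hx₁u : ∀ i, (V i).valuation x₁ = 1 := fun i => s36g_unit_of_cong (hx₁ i) (hg i)
  have hx₁0 : x₁ ≠ 0 := s36g_unit_ne_zero (hx₁u 0)
  have hcV : ∀ i, (V i).valuation (algebraMap K₀ 𝓕 (c i)) = 1 :=
    fun i => s36g_cst_unit F i (hc i)
  -- `f₁ = Φ / x₁ ^ m` has constant residues
  have hf₁c : ∀ i, s36t_Cong (V i) (Φ / x₁ ^ m) (algebraMap K₀ 𝓕 (c i)) := by
    intro i
    have hgm : (V i).valuation (g i ^ m) = 1 := by rw [map_pow, hg i, one_pow]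
    have h1 : s36t_Cong (V i) (Φ / x₁ ^ m) (algebraMap K₀ 𝓕 (c i) * g i ^ m / g i ^ m) :=
      s36g_cong_div (hcong i) (s36g_cong_pow (hx₁ i) (hg i) m)
        (by rw [map_mul, hcV i, hgm, one_mul]) hgm
    have e : algebraMap K₀ 𝓕 (c i) * g i ^ m / g i ^ m = algebraMap K₀ 𝓕 (c i) :=
      mul_div_cancel_right₀ _ (s36g_unit_ne_zero hgm)
    rw [e] at h1
    exact h1
  have hf₁u : ∀ i, (V i).valuation (Φ / x₁ ^ m) = 1 :=
    fun i => s36g_unit_of_cong (hf₁c i) (hcV i)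
  have hf₁m : ∀ i, Φ / x₁ ^ m ∈ V i := fun i => s36g_unit_mem (hf₁u i)
  -- the norms of `f₁`
  obtain ⟨hαx0, -⟩ := s36g_normα_unit F x₁ hx₁u
  obtain ⟨hβx0, -⟩ := s36g_normβ_unit F x₁ hx₁u
  have hNαx0 : Nα x₁ ≠ 0 := s36g_unit_ne_zero hαx0
  have hNβx0 : Nβ x₁ ≠ 0 := s36g_unit_ne_zero hβx0
  have hNαf : Nα (Φ / x₁ ^ m) = algebraMap K₀ 𝓕' Cα * (Hα / Nα x₁) ^ m := by
    have h1 : Nα (Φ / x₁ ^ m) * (Nα x₁) ^ m = Nα Φ := by
      rw [← map_pow, ← map_mul, div_mul_cancel₀ _ (pow_ne_zero m hx₁0)]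
    rw [div_pow, ← mul_div_assoc, ← hNα, ← h1, mul_div_cancel_right₀ _ (pow_ne_zero m hNαx0)]
  have hNβf : Nβ (Φ / x₁ ^ m) = algebraMap K₀ 𝓕' Cβ * (Hβ / Nβ x₁) ^ m := by
    have h1 : Nβ (Φ / x₁ ^ m) * (Nβ x₁) ^ m = Nβ Φ := by
      rw [← map_pow, ← map_mul, div_mul_cancel₀ _ (pow_ne_zero m hx₁0)]
    rw [div_pow, ← mul_div_assoc, ← hNβ, ← h1, mul_div_cancel_right₀ _ (pow_ne_zero m hNβx0)]
  obtain ⟨hα0, hα1⟩ := s36g_normα_unit F _ hf₁u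
  obtain ⟨hβ0, hβ1⟩ := s36g_normβ_unit F _ hf₁u
  obtain ⟨cα, yα, hcα, hyα0, hyα1, hNα'⟩ := s36g_normalise F hm _ hα0 hα1 Cα _ hNαf
  obtain ⟨cβ, yβ, hcβ, hyβ0, hyβ1, hNβ'⟩ := s36g_normalise F hm _ hβ0 hβ1 Cβ _ hNβf
  have hcV' : ∀ j i, (V' j).valuation (algebraMap K₀ 𝓕' (c i)) = 1 :=
    fun j i => s36g_cst_unit' F j (hc i)
  -- the four norm residues
  have hA' : s36t_Cong (V' 0) (Nα (Φ / x₁ ^ m)) (algebraMap K₀ 𝓕' (c 0 * c 1 ^ n)) := by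
    have h := F.normAα (Φ / x₁ ^ m) (algebraMap K₀ 𝓕' (c 0)) (algebraMap K₀ 𝓕' (c 1)) (hf₁m 0)
      (hf₁m 1) (s36g_unit_mem (hcV' 0 0)) (s36g_unit_mem (hcV' 0 1))
      (by rw [AlgHom.commutes]; exact hf₁c 0) (by rw [AlgHom.commutes]; exact hf₁c 1)
    rw [Nat.add_sub_cancel] at h
    rw [map_mul, map_pow]
    exact h
  have hA : s36t_Cong (V' 1) (Nα (Φ / x₁ ^ m)) (algebraMap K₀ 𝓕' (c 2 ^ (n + 1))) := by
    have hu : (V' 1).valuation (algebraMap K₀ 𝓕' (c 2 ^ (n + 1))) = 1 := by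
      rw [map_pow, map_pow, hcV' 1 2, one_pow]
    refine F.normBα (Φ / x₁ ^ m) (algebraMap K₀ 𝓕' (c 2 ^ (n + 1))) (hf₁m 2) (s36g_unit_mem hu) ?_
    rw [AlgHom.commutes, map_pow]
    exact s36g_cong_pow (hf₁c 2) (hcV 2) (n + 1)
  have hB : s36t_Cong (V' 0) (Nβ (Φ / x₁ ^ m)) (algebraMap K₀ 𝓕' (c 0 ^ (n + 1))) := by
    have hu : (V' 0).valuation (algebraMap K₀ 𝓕' (c 0 ^ (n + 1))) = 1 := by
      rw [map_pow, map_pow, hcV' 0 0, one_pow]
    refine F.normBβ (Φ / x₁ ^ m) (algebraMap K₀ 𝓕' (c 0 ^ (n + 1))) (hf₁m 0) (s36g_unit_mem hu) ?_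
    rw [AlgHom.commutes, map_pow]
    exact s36g_cong_pow (hf₁c 0) (hcV 0) (n + 1)
  have hB' : s36t_Cong (V' 1) (Nβ (Φ / x₁ ^ m)) (algebraMap K₀ 𝓕' (c 2 * c 1 ^ n)) := by
    have h := F.normAβ (Φ / x₁ ^ m) (algebraMap K₀ 𝓕' (c 2)) (algebraMap K₀ 𝓕' (c 1)) (hf₁m 2)
      (hf₁m 1) (s36g_unit_mem (hcV' 1 2)) (s36g_unit_mem (hcV' 1 1))
      (by rw [AlgHom.commutes]; exact hf₁c 2) (by rw [AlgHom.commutes]; exact hf₁c 1)
    rw [Nat.add_sub_cancel] at h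
    rw [map_mul, map_pow]
    exact h
  -- the constants `eA', eA, eB, eB'`
  have hd1 : A₀.valuation (c 0 * c 1 ^ n) = 1 := by rw [map_mul, map_pow, hc 0, hc 1, one_pow, one_mul]
  have hd2 : A₀.valuation (c 2 ^ (n + 1)) = 1 := by rw [map_pow, hc 2, one_pow]
  have hd3 : A₀.valuation (c 0 ^ (n + 1)) = 1 := by rw [map_pow, hc 0, one_pow]
  have hd4 : A₀.valuation (c 2 * c 1 ^ n) = 1 := by rw [map_mul, map_pow, hc 2, hc 1, one_pow, one_mul]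
  obtain ⟨eA', heA', hyA', ha⟩ := s36g_const_root F 0 hm _ yα cα _ hcα hd1 hNα' hA'
  obtain ⟨eA, heA, hyA, hb⟩ := s36g_const_root F 1 hm _ yα cα _ hcα hd2 hNα' hA
  obtain ⟨eB, heB, hyB, hcc⟩ := s36g_const_root F 0 hm _ yβ cβ _ hcβ hd3 hNβ' hB
  obtain ⟨eB', heB', hyB', hd⟩ := s36g_const_root F 1 hm _ yβ cβ _ hcβ hd4 hNβ' hB'
  obtain ⟨ht0, ht2⟩ := s36g_toric A₀ n m (c 0) (c 1) (c 2) cα cβ eA eA' eB eB' (hc 0) (hc 1) (hc 2)
    hcα hcβ heA heA' heB heB' ha hb hcc hd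
  have heA'0 : eA' ≠ 0 := s36g_unit_ne_zero heA'
  have heB'0 : eB' ≠ 0 := s36g_unit_ne_zero heB'
  -- the correction `ξ`
  let θ : Fin 3 → K₀ := ![eA * eB ^ (n + 1) / (eA' * eB' ^ (n + 1)), 1,
    eA ^ (n + 1) * eB / (eA' ^ (n + 1) * eB')]
  have hθ0 : θ 0 = eA * eB ^ (n + 1) / (eA' * eB' ^ (n + 1)) := rfl
  have hθ1 : θ 1 = 1 := rfl
  have hθ2 : θ 2 = eA ^ (n + 1) * eB / (eA' ^ (n + 1) * eB') := rfl
  have hθ : ∀ i, A₀.valuation (θ i) = 1 := by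
    intro i
    fin_cases i
    · change A₀.valuation (θ 0) = 1
      rw [hθ0]
      simp only [map_mul, map_pow, map_div₀, heA, heA', heB, heB', one_pow, mul_one, div_one]
    · change A₀.valuation (θ 1) = 1
      rw [hθ1, map_one]
    · change A₀.valuation (θ 2) = 1
      rw [hθ2]
      simp only [map_mul, map_pow, map_div₀, heA, heA', heB, heB', one_pow, mul_one, div_one]
  have hθV : ∀ i, (V i).valuation (algebraMap K₀ 𝓕 (θ i)) = 1 :=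
    fun i => s36g_cst_unit F i (hθ i)
  obtain ⟨ξ, hξ⟩ := F.approx (fun i => algebraMap K₀ 𝓕 (θ i)) (fun i => s36g_unit_mem (hθV i))
  have hξu : ∀ i, (V i).valuation ξ = 1 := fun i => s36g_unit_of_cong (hξ i) (hθV i)
  -- the toric congruences for all three indices
  have hclaim : ∀ i, s36t_Cong A₀ (c 1 ^ (n * (n + 2)) * θ i ^ m) (c i ^ (n * (n + 2))) := by
    intro i
    fin_cases i
    · change s36t_Cong A₀ (c 1 ^ (n * (n + 2)) * θ 0 ^ m) (c 0 ^ (n * (n + 2)))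
      rw [hθ0]
      exact ht0
    · change s36t_Cong A₀ (c 1 ^ (n * (n + 2)) * θ 1 ^ m) (c 1 ^ (n * (n + 2)))
      rw [hθ1, one_pow, mul_one]
      exact s36t_Cong.refl _
    · change s36t_Cong A₀ (c 1 ^ (n * (n + 2)) * θ 2 ^ m) (c 2 ^ (n * (n + 2)))
      rw [hθ2]
      exact ht2
  -- the final residues
  have hfinal : ∀ i, (Φ / x₁ ^ m) ^ ((n + 1) ^ 2 - 1) /
      (algebraMap K₀ 𝓕 (c 1 ^ ((n + 1) ^ 2 - 1)) * ξ ^ m) - 1 ∈ (V i).nonunits := by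
    intro i
    rw [hN2]
    have hD : A₀.valuation (c 1 ^ (n * (n + 2)) * θ i ^ m) = 1 := by
      rw [map_mul, map_pow, map_pow, hc 1, hθ i, one_pow, one_pow, one_mul]
    have hci : A₀.valuation (c i ^ (n * (n + 2))) = 1 := by rw [map_pow, hc i, one_pow]
    have h1 : s36t_Cong (V i) ((Φ / x₁ ^ m) ^ (n * (n + 2)))
        (algebraMap K₀ 𝓕 (c i) ^ (n * (n + 2))) := s36g_cong_pow (hf₁c i) (hcV i) _
    have h2 : s36t_Cong (V i) (ξ ^ m) (algebraMap K₀ 𝓕 (θ i) ^ m) :=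
      s36g_cong_pow (hξ i) (hθV i) m
    have hc1N : (V i).valuation (algebraMap K₀ 𝓕 (c 1 ^ (n * (n + 2)))) = 1 :=
      s36g_cst_unit F i (by rw [map_pow, hc 1, one_pow])
    have h3 : s36t_Cong (V i) (algebraMap K₀ 𝓕 (c 1 ^ (n * (n + 2))) * ξ ^ m)
        (algebraMap K₀ 𝓕 (c 1 ^ (n * (n + 2))) * algebraMap K₀ 𝓕 (θ i) ^ m) :=
      s36g_cong_mul (s36t_Cong.refl _) h2 hc1N (by rw [map_pow, hθV i, one_pow])
    have h4 := s36g_cong_div h1 h3 (by rw [map_pow, hcV i, one_pow])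
      (by rw [map_mul, hc1N, map_pow, hθV i, one_pow, one_mul])
    have e : algebraMap K₀ 𝓕 (c i) ^ (n * (n + 2)) /
        (algebraMap K₀ 𝓕 (c 1 ^ (n * (n + 2))) * algebraMap K₀ 𝓕 (θ i) ^ m)
        = algebraMap K₀ 𝓕 (c i ^ (n * (n + 2)) / (c 1 ^ (n * (n + 2)) * θ i ^ m)) := by
      rw [map_div₀, map_mul, map_pow, map_pow, map_pow]
    have h5 : s36t_Cong A₀ (c i ^ (n * (n + 2)) / (c 1 ^ (n * (n + 2)) * θ i ^ m))
        (c 1 ^ (n * (n + 2)) * θ i ^ m / (c 1 ^ (n * (n + 2)) * θ i ^ m)) :=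
      s36g_cong_div (hclaim i).symm (s36t_Cong.refl _) hD hD
    rw [div_self (s36g_unit_ne_zero hD)] at h5
    have h6 : s36t_Cong (V i)
        (algebraMap K₀ 𝓕 (c i ^ (n * (n + 2)) / (c 1 ^ (n * (n + 2)) * θ i ^ m)))
        (algebraMap K₀ 𝓕 1) := (s36g_comap_cong _ (s36g_cstV_comap F i)).mp h5
    rw [map_one] at h6
    rw [e] at h4
    exact h4.trans h6
  refine ⟨x₁, ξ, c, cα, cβ, eA, eA', eB, eB', θ 0, θ 2, yα, yβ, hx₁u, hξu, hc, hcα, hcβ, heA,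
    heA', heB, heB', hθ 0, hθ 2, hf₁c, hNα', hyA', hyA, hNβ', hyB, hyB', ?_, ?_, hξ 0, ?_, hξ 2,
    hfinal⟩
  · rw [hθ0]
    exact div_mul_cancel₀ _ (mul_ne_zero heA'0 (pow_ne_zero _ heB'0))
  · rw [hθ2]
    exact div_mul_cancel₀ _ (mul_ne_zero (pow_ne_zero _ heA'0) heB'0)
  · have := hξ 1
    rw [hθ1, map_one] at this
    exact this

end frame

end Fermat.Agent.Lib.S36
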