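/-
S36 project, GEOMETRY side (lead, prefix `s36g_`): THE NON-FORMAL FIELDS OF `s36g_RootFrame` at level
`M q` for the Gauss valuation rings `V'_∞ = s34m_Vinf G N`, `V'_0 = s34m_Vzero G φ M q hq hqM`
(general `G : s18g_GaussData K₀ κ`).

* `s36g_gauss_unit`            : `x ∈ G.A` with `G.π x ≠ 0` is a unit of `G.A`;
* `s36g_mem_nonunits_Vinf`     : non-units of `V'_∞` = kernel of `red_∞`;
* `s36g_root_Vinf`, `s36g_root_Vzero` : the field `root'` (needs `G.π` onto);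
* `s36g_unif_Vinf`             : the field `unif'` (`q = ϖ · unit` in `G.A`);
* `s36g_cst_mem_Vinf_iff`, `s36g_cst_mem_Vzero_iff` : the field `cstV'`.
-/
import Fermat.Agent.Lib.S36.GLaurentRoot
import Fermat.Agent.Lib.S36.GRootAbs
import Fermat.Agent.Lib.S34.MValRed

set_option autoImplicit false
set_option linter.unusedSectionVars false

noncomputable section

namespace Fermat.Agent.Lib.S36

open ModularCurve AlgebraicCurve HahnSeries Fermat.Agent.Lib.FF Fermat.Agent.Lib.S18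
  Fermat.Agent.Lib.S37 Fermat.Agent.Lib.S34

local notation "Kb" => AlgebraicClosure ℚ

variable {K₀ : Type*} [Field K₀] [Algebra ℚ K₀] {κ : Type*} [Field κ] (G : s18g_GaussData K₀ κ)

/-- an element of `G.A` with non-zero residue is a unit of `G.A`. -/
theorem s36g_gauss_unit (x : G.A) (hx : G.π x ≠ 0) : G.A.valuation (x : K₀) = 1 := by
  have hx0 : (x : K₀) ≠ 0 := by
    intro h
    have : x = 0 := Subtype.ext h
    rw [this, map_zero] at hx
    exact hx rfl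
  refine s36t_val_eq_one x.2 ?_ hx0
  rcases G.A.mem_or_inv_mem ((G.ϖ : K₀) * (x : K₀)⁻¹) with h | h
  · -- `ϖ = x * c`
    set c : G.A := ⟨(G.ϖ : K₀) * (x : K₀)⁻¹, h⟩ with hc
    have h1 : G.ϖ = x * c := by
      apply Subtype.ext
      change (G.ϖ : K₀) = (x : K₀) * ((G.ϖ : K₀) * (x : K₀)⁻¹)
      field_simp
    have h2 : G.π c = 0 := by
      have := congrArg G.π h1
      rw [s18g_pi_unif, map_mul] at this
      exact (mul_eq_zero.mp this.symm).resolve_left hx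
    obtain ⟨c', hc'⟩ := (G.π_eq_zero_iff c).mp h2
    have h3 : (x : K₀) * (c' : K₀) = 1 := by
      have h4 : (G.ϖ : K₀) = (x : K₀) * ((G.ϖ : K₀) * (c' : K₀)) := by
        have := congrArg (Subtype.val : G.A → K₀) h1
        rw [hc'] at this
        exact this
      have hϖ := s18g_unifK_ne_zero G
      have h5 : (G.ϖ : K₀) * 1 = (G.ϖ : K₀) * ((x : K₀) * (c' : K₀)) := by
        rw [mul_one]
        calc (G.ϖ : K₀) = (x : K₀) * ((G.ϖ : K₀) * (c' : K₀)) := h4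
          _ = (G.ϖ : K₀) * ((x : K₀) * (c' : K₀)) := by ring
      exact (mul_left_cancel₀ hϖ h5).symm
    have h6 : (x : K₀)⁻¹ = (c' : K₀) := (eq_inv_of_mul_eq_one_right h3).symm
    rw [h6]
    exact c'.2
  · -- `x = ϖ * c`: impossible
    exfalso
    rw [mul_inv, inv_inv] at h
    set c : G.A := ⟨(G.ϖ : K₀)⁻¹ * (x : K₀), h⟩ with hc
    have hϖ := s18g_unifK_ne_zero G
    have h1 : x = G.ϖ * c := by
      apply Subtype.ext
      change (x : K₀) = (G.ϖ : K₀) * ((G.ϖ : K₀)⁻¹ * (x : K₀))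
      field_simp
    exact hx ((G.π_eq_zero_iff x).mpr ⟨c, h1⟩)

/-- constants in `V'_∞`. -/
theorem s36g_cst_mem_Vinf_iff (N : ℕ) [NeZero N] (a : K₀) :
    algebraMap K₀ (s34m_F K₀ N) a ∈ s34m_Vinf G N ↔ a ∈ G.A :=
  s18g_algebraMap_mem_V_iff G _ (s34m_hF G N) a

/-- non-units of `V'_∞` = kernel of `red_∞`. -/
theorem s36g_mem_nonunits_Vinf (N : ℕ) [NeZero N] (y : s34m_F K₀ N) :
    y ∈ (s34m_Vinf G N).nonunits ↔
      ∃ hy : y ∈ s34m_Vinf G N, s34m_redInf G N ⟨y, hy⟩ = 0 := by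
  rw [ValuationSubring.mem_nonunits_iff_exists_mem_maximalIdeal]
  refine exists_congr fun hy => ?_
  rw [IsLocalRing.mem_maximalIdeal, mem_nonunits_iff]
  have := s18g_isUnit_V_iff G _ (s34m_hF G N) ⟨y, hy⟩
  constructor
  · intro h
    by_contra h0
    exact h (this.mpr h0)
  · intro h hu
    exact this.mp hu h

/-- **`root'` for `V'_∞`.** -/
theorem s36g_root_Vinf (hπ : Function.Surjective G.π) (N : ℕ) [NeZero N] (m : ℕ) (hm : m ≠ 0)
    (y : s34m_F K₀ N) (a : K₀) (ha : G.A.valuation a = 1)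
    (h : y ^ m - algebraMap K₀ (s34m_F K₀ N) a ∈ (s34m_Vinf G N).nonunits) :
    ∃ e : K₀, G.A.valuation e = 1 ∧
      y - algebraMap K₀ (s34m_F K₀ N) e ∈ (s34m_Vinf G N).nonunits := by
  have haA : a ∈ G.A := s36g_unit_mem ha
  have hcst : algebraMap K₀ (s34m_F K₀ N) a ∈ s34m_Vinf G N :=
    (s36g_cst_mem_Vinf_iff G N a).mpr haA
  have hym : y ^ m ∈ s34m_Vinf G N := s36t_Cong.mem h hcst
  have hy : y ∈ s34m_Vinf G N := by
    rw [← ValuationSubring.valuation_le_one_iff] at hym ⊢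
    rw [map_pow] at hym
    by_contra hlt
    rw [not_le] at hlt
    exact absurd hym (not_le.mpr (one_lt_pow₀ hlt hm))
  obtain ⟨hmem, hred⟩ := (s36g_mem_nonunits_Vinf G N _).mp h
  -- the reduction of `y ^ m` is the constant `π a`
  have h1 : s34m_redInf G N ⟨y, hy⟩ ^ m = HahnSeries.C (G.π ⟨a, haA⟩) := by
    have e1 : (⟨y, hy⟩ : s34m_Vinf G N) ^ m
        = ⟨y ^ m - algebraMap K₀ (s34m_F K₀ N) a, hmem⟩ + ⟨algebraMap K₀ (s34m_F K₀ N) a, hcst⟩ := by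
      apply Subtype.ext
      change y ^ m = y ^ m - algebraMap K₀ (s34m_F K₀ N) a + algebraMap K₀ (s34m_F K₀ N) a
      ring
    rw [← map_pow, e1, map_add, hred, zero_add]
    exact s18g_redV_constV G _ (s34m_hF G N) ⟨a, haA⟩
  obtain ⟨e₀, he₀⟩ := s36g_laurent_root hm _ _ h1
  have hπa : G.π ⟨a, haA⟩ ≠ 0 := by
    intro h0
    have ha' : a⁻¹ ∈ G.A := s36g_unit_inv_mem ha
    have h2 : (⟨a, haA⟩ : G.A) * ⟨a⁻¹, ha'⟩ = 1 := by
      apply Subtype.ext
      change a * a⁻¹ = 1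
      exact mul_inv_cancel₀ (s36g_unit_ne_zero ha)
    have := congrArg G.π h2
    rw [map_mul, h0, zero_mul, map_one] at this
    exact zero_ne_one this
  have he₀0 : e₀ ≠ 0 := by
    rintro rfl
    rw [he₀, map_zero, zero_pow hm] at h1
    exact hπa (HahnSeries.C_injective (by rw [← h1, map_zero]))
  obtain ⟨e', he'⟩ := hπ e₀
  refine ⟨(e' : K₀), s36g_gauss_unit G e' (by rw [he']; exact he₀0), ?_⟩
  have hcst' : algebraMap K₀ (s34m_F K₀ N) (e' : K₀) ∈ s34m_Vinf G N :=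
    (s36g_cst_mem_Vinf_iff G N _).mpr e'.2
  refine (s36g_mem_nonunits_Vinf G N _).mpr ⟨(s34m_Vinf G N).sub_mem hy hcst', ?_⟩
  have e2 : (⟨y - algebraMap K₀ (s34m_F K₀ N) (e' : K₀), (s34m_Vinf G N).sub_mem hy hcst'⟩ :
      s34m_Vinf G N) = ⟨y, hy⟩ - ⟨algebraMap K₀ (s34m_F K₀ N) (e' : K₀), hcst'⟩ := rfl
  rw [e2, map_sub, he₀, sub_eq_zero, ← he']
  exact (s18g_redV_constV G _ (s34m_hF G N) e').symm

/-- **`unif'` for `V'_∞`** over an unramified base: `q = ϖ · unit`. -/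
theorem s36g_unif_Vinf (q : ℕ) (hunr : ∃ u : G.A, IsUnit u ∧ ((q : ℕ) : G.A) = G.ϖ * u)
    (N : ℕ) [NeZero N] (y : s34m_F K₀ N) (hy : y ≠ 0) :
    ∃ (k : ℤ) (z : s34m_F K₀ N), (s34m_Vinf G N).valuation z = 1 ∧
      y = algebraMap K₀ (s34m_F K₀ N) (q : K₀) ^ k * z := by
  obtain ⟨u₀, hu₀, hq⟩ := hunr
  obtain ⟨v₀, hv₀⟩ := hu₀.exists_right_inv
  have hqK : (q : K₀) = (G.ϖ : K₀) * (u₀ : K₀) := by
    have := congrArg (Subtype.val : G.A → K₀) hq
    simpa using this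
  have huv : (u₀ : K₀) * (v₀ : K₀) = 1 := by
    have := congrArg (Subtype.val : G.A → K₀) hv₀
    simpa using this
  have hu₀0 : (u₀ : K₀) ≠ 0 := left_ne_zero_of_mul_eq_one huv
  have hv : (v₀ : K₀) = (u₀ : K₀)⁻¹ := eq_inv_of_mul_eq_one_right huv
  -- the constant `u₀` is a unit of `V'_∞`
  have hcu : (s34m_Vinf G N).valuation (algebraMap K₀ (s34m_F K₀ N) (u₀ : K₀)) = 1 := by
    refine s36t_val_eq_one ((s36g_cst_mem_Vinf_iff G N _).mpr u₀.2) ?_
      ((map_ne_zero _).mpr hu₀0)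
    rw [← map_inv₀, ← hv]
    exact (s36g_cst_mem_Vinf_iff G N _).mpr v₀.2
  obtain ⟨n, u, hu, hu', e⟩ := s34m_exists_zpow_Vinf G N y hy
  have hu0 : u ≠ 0 := by
    rintro rfl
    rw [mul_zero] at e
    exact hy e
  have huu : (s34m_Vinf G N).valuation u = 1 := s36t_val_eq_one hu hu' hu0
  have hunif : s34m_unif G N = algebraMap K₀ (s34m_F K₀ N) (q : K₀) *
      (algebraMap K₀ (s34m_F K₀ N) (u₀ : K₀))⁻¹ := by
    have hcu0 : algebraMap K₀ (s34m_F K₀ N) (u₀ : K₀) ≠ 0 := (map_ne_zero _).mpr hu₀0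
    rw [hqK, map_mul, mul_assoc, mul_inv_cancel₀ hcu0, mul_one]
    rfl
  refine ⟨n, (algebraMap K₀ (s34m_F K₀ N) (u₀ : K₀))⁻¹ ^ n * u, ?_, ?_⟩
  · rw [map_mul, map_zpow₀, map_inv₀, hcu, huu, inv_one, one_zpow, one_mul]
  · rw [e, hunif, mul_zpow, mul_assoc]

variable (φ : K₀ →+* Kb) (M q : ℕ) [NeZero M] [NeZero q] (hq : q.Prime) (hqM : ¬ q ∣ M)

/-- `V'_0` is the pull-back of `V'_∞` under `w_q`. -/
theorem s36g_Vzero_comap :
    (s34m_Vinf G (M * q)).comap ((s34m_al φ M q hq hqM).toRingEquiv : _ →+* _) =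
      s34m_Vzero G φ M q hq hqM := rfl

/-- constants in `V'_0`. -/
theorem s36g_cst_mem_Vzero_iff (a : K₀) :
    algebraMap K₀ (s34m_F K₀ (M * q)) a ∈ s34m_Vzero G φ M q hq hqM ↔ a ∈ G.A := by
  rw [s34m_mem_Vzero, (s34m_al φ M q hq hqM).commutes]
  exact s36g_cst_mem_Vinf_iff G (M * q) a

/-- **`root'` for `V'_0`.** -/
theorem s36g_root_Vzero (hπ : Function.Surjective G.π) (m : ℕ) (hm : m ≠ 0)
    (y : s34m_F K₀ (M * q)) (a : K₀) (ha : G.A.valuation a = 1)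
    (h : y ^ m - algebraMap K₀ (s34m_F K₀ (M * q)) a ∈ (s34m_Vzero G φ M q hq hqM).nonunits) :
    ∃ e : K₀, G.A.valuation e = 1 ∧
      y - algebraMap K₀ (s34m_F K₀ (M * q)) e ∈ (s34m_Vzero G φ M q hq hqM).nonunits := by
  have hc := s36g_Vzero_comap G φ M q hq hqM
  have h1 := (s36g_comap_nonunit _ hc).mp h
  have e1 : ((s34m_al φ M q hq hqM).toRingEquiv : _ →+* _)
      (y ^ m - algebraMap K₀ (s34m_F K₀ (M * q)) a)
      = (s34m_al φ M q hq hqM y) ^ m - algebraMap K₀ (s34m_F K₀ (M * q)) a := by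
    change s34m_al φ M q hq hqM (y ^ m - algebraMap K₀ (s34m_F K₀ (M * q)) a) = _
    rw [map_sub, map_pow, (s34m_al φ M q hq hqM).commutes]
  rw [e1] at h1
  obtain ⟨e, he, hye⟩ := s36g_root_Vinf G hπ (M * q) m hm _ a ha h1
  refine ⟨e, he, (s36g_comap_nonunit _ hc).mpr ?_⟩
  have e2 : ((s34m_al φ M q hq hqM).toRingEquiv : _ →+* _)
      (y - algebraMap K₀ (s34m_F K₀ (M * q)) e)
      = s34m_al φ M q hq hqM y - algebraMap K₀ (s34m_F K₀ (M * q)) e := by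
    change s34m_al φ M q hq hqM (y - algebraMap K₀ (s34m_F K₀ (M * q)) e) = _
    rw [map_sub, (s34m_al φ M q hq hqM).commutes]
  rw [e2]
  exact hye

end Fermat.Agent.Lib.S36
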