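/-
S36 mega-project, layer (Q)/(R) common leaf (lead, prefix `s36qf_`): **(FRAC), abstract part.**

* `s36qf_ev_not_mem_nonunits` : for a valuation ring `V ⊂ 𝓕` with a reduction `red : V → κ((T))`
  (constants `a ∈ A` going to `C (π a)`), `w ∈ V` with `red w` transcendental over `κ` and
  `s ∈ A[X]` with `s mod ϖ ≠ 0`: `s(w)` is a unit of `V`;
* `s36qf_frac_level` : (F1) in the frame of `XFin.lean` (`B = s34x_ring (⨅ O) (chart1 w)`, (α)):
  every `r ∈ O i` is, modulo the non-units of `O i`, a fraction `b / c` with `b, c ∈ B`, `c` a unit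
  of `O i`;
* `s36qf_frac_of_res`, `s36qf_fracq_of_res` : (F2) two-level transfer along `γ : 𝓕₁ → 𝓕₂` from a
  residue statement `y ≡ γ r` (resp. `y ^ q ≡ γ r`).
-/
import Fermat.Agent.Lib.S34.XFin
import Fermat.Prelude.Def_ModularCurve_LaurentCoeff

set_option autoImplicit false
set_option linter.unusedSectionVars false
set_option linter.style.haveILetI false

noncomputable section

namespace Fermat.Agent.Lib.S36

open Polynomial AlgebraicCurve Fermat.Agent.Lib.FF Fermat.Agent.Lib.S18 Fermat.Agent.Lib.S34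

/-- a product of a non-unit and an element of a valuation ring is a non-unit. -/
theorem s36qf_mul_mem_nonunits {F : Type*} [Field F] (V : ValuationSubring F) {a b : F}
    (ha : a ∈ V.nonunits) (hb : b ∈ V) : a * b ∈ V.nonunits := by
  rw [ValuationSubring.mem_nonunits_iff, map_mul]
  have h1 : V.valuation a < 1 := (ValuationSubring.mem_nonunits_iff (A := V)).mp ha
  have h2 : V.valuation b ≤ 1 := (V.valuation_le_one_iff b).mpr hb
  calc V.valuation a * V.valuation b ≤ V.valuation a * 1 := by gcongr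
    _ < 1 := by rwa [mul_one]

/-- a sum of two non-units of a valuation ring is a non-unit. -/
theorem s36qf_add_mem_nonunits {F : Type*} [Field F] (V : ValuationSubring F) {a b : F}
    (ha : a ∈ V.nonunits) (hb : b ∈ V.nonunits) : a + b ∈ V.nonunits := by
  rw [ValuationSubring.mem_nonunits_iff] at ha hb ⊢
  exact lt_of_le_of_lt (V.valuation.map_add a b) (max_lt ha hb)

section Unit

variable {K κ 𝓕 : Type*} [Field K] [Field κ] [Field 𝓕] [Algebra K 𝓕]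

/-- **`s(w)` is a unit of `V`** when `s mod ϖ ≠ 0` and the reduction of `w` is transcendental. -/
theorem s36qf_ev_not_mem_nonunits (A : ValuationSubring K) (π : A →+* κ)
    (V : ValuationSubring 𝓕) (cst : A →+* V)
    (hcst : ∀ a : A, ((cst a : V) : 𝓕) = algebraMap K 𝓕 (a : K))
    (red : V →+* LaurentSeries κ) (hker : ∀ y : V, (y : 𝓕) ∈ V.nonunits → red y = 0)
    (hred : ∀ a : A, red (cst a) = HahnSeries.C (π a))
    (w : V) (htr : Transcendental κ (red w)) (s : A[X]) (hs : s.map π ≠ 0) :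
    s18b_evA A K (w : 𝓕) s ∉ V.nonunits := by
  intro hmem
  set y : V := Polynomial.eval₂ cst w s with hy
  have hycoe : (y : 𝓕) = s18b_evA A K (w : 𝓕) s := by
    have h := Polynomial.hom_eval₂ s cst V.subtype w
    rw [s18b_evA_apply, Polynomial.aeval_def, Polynomial.eval₂_map]
    have hcomp : (V.subtype : V →+* 𝓕).comp cst = (algebraMap K 𝓕).comp (algebraMap A K) :=
      RingHom.ext fun a => hcst a
    rw [← hcomp]
    exact h
  have h0 : red y = 0 := hker y (by rw [hycoe]; exact hmem)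
  have h1 : red y = Polynomial.aeval (red w) (s.map π) := by
    rw [hy, Polynomial.hom_eval₂, Polynomial.aeval_def, Polynomial.eval₂_map]
    congr 1
    exact RingHom.ext fun a => by
      rw [RingHom.comp_apply, RingHom.comp_apply, hred a,
        ModularCurve.algebraMap_laurentSeries_eq_single]
      rfl
  rw [h1] at h0
  exact hs ((transcendental_iff.mp htr) _ h0)

end Unit

section Level

variable {K : Type*} [Field K] {κ : Type*} [Field κ] (G : s18g_GaussData K κ)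
variable (𝓕 : IntermediateField K (LaurentSeries K)) (w : 𝓕)
variable {ι : Type*} (O : ι → ValuationSubring 𝓕)

/-- **(F1)**: every `r ∈ O i` is congruent modulo the non-units of `O i` to a fraction `b / c` of
elements of the chart ring with `c` a unit of `O i`. -/
theorem s36qf_frac_level
    (hAO : ∀ i, ∀ a : G.A, algebraMap K 𝓕 (a : K) ∈ O i) (hwO : ∀ i, w ∈ O i)
    (hα : ∀ y ∈ s34x_infRing O, ∃ s : G.A[X], s.map G.π ≠ 0 ∧
      (s18b_ev G 𝓕 w).IsIntegralElem (s18b_ev G 𝓕 w s * y))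
    (i : ι) (hunit : ∀ s : G.A[X], s.map G.π ≠ 0 → s18b_ev G 𝓕 w s ∉ (O i).nonunits)
    (happ : ∀ r ∈ O i, ∃ r' ∈ s34x_infRing O, r - r' ∈ (O i).nonunits)
    (r : 𝓕) (hr : r ∈ O i) :
    ∃ b c : s34x_ring (L₀ := K) (s34x_infRing O) (s18_chart1 w),
      (c : 𝓕) ∉ (O i).nonunits ∧ r * (c : 𝓕) - (b : 𝓕) ∈ (O i).nonunits := by
  obtain ⟨r', hr', hrr'⟩ := happ r hr
  obtain ⟨s, hs, hsy⟩ := hα r' hr'
  have hc : s18b_ev G 𝓕 w s ∈ s34x_ring (L₀ := K) (s34x_infRing O) (s18_chart1 w) :=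
    s34x_mem_ring_of_isIntegralElem G 𝓕 w O hAO hwO _ ((s18b_ev G 𝓕 w).isIntegralElem_map)
  have hb : s18b_ev G 𝓕 w s * r' ∈ s34x_ring (L₀ := K) (s34x_infRing O) (s18_chart1 w) :=
    s34x_mem_ring_of_isIntegralElem G 𝓕 w O hAO hwO _ hsy
  refine ⟨⟨_, hb⟩, ⟨_, hc⟩, hunit s hs, ?_⟩
  have hcO : s18b_ev G 𝓕 w s ∈ O i := (s34x_mem_infRing O _).mp hc.1 i
  have e : r * s18b_ev G 𝓕 w s - s18b_ev G 𝓕 w s * r' = (r - r') * s18b_ev G 𝓕 w s := by ring
  show r * s18b_ev G 𝓕 w s - s18b_ev G 𝓕 w s * r' ∈ (O i).nonunits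
  rw [e]
  exact s36qf_mul_mem_nonunits (O i) hrr' hcO

end Level

section Two

variable {L₀ 𝓕₁ 𝓕₂ : Type*} [Field L₀] [Field 𝓕₁] [Field 𝓕₂] [Algebra L₀ 𝓕₁]
variable {ι₁ ι₂ : Type*} (O₁ : ι₁ → ValuationSubring 𝓕₁) (O₂ : ι₂ → ValuationSubring 𝓕₂)
  (S₁ : Set (Place L₀ 𝓕₁)) (γ : 𝓕₁ →+* 𝓕₂) (i : ι₁) (j : ι₂)

/-- **(F2)**: (FRAC) along `γ` from residue degree one and (F1). -/
theorem s36qf_frac_of_res (hcomap : (O₂ j).comap γ = O₁ i)
    (hF1 : ∀ r ∈ O₁ i, ∃ b c : s34x_ring (s34x_infRing O₁) S₁,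
      (c : 𝓕₁) ∉ (O₁ i).nonunits ∧ r * (c : 𝓕₁) - (b : 𝓕₁) ∈ (O₁ i).nonunits)
    (hres : ∀ y ∈ O₂ j, ∃ r ∈ O₁ i, y - γ r ∈ (O₂ j).nonunits) :
    ∀ y ∈ O₂ j, ∃ b c : s34x_ring (s34x_infRing O₁) S₁,
      (c : 𝓕₁) ∉ (O₁ i).nonunits ∧ y * γ (c : 𝓕₁) - γ (b : 𝓕₁) ∈ (O₂ j).nonunits := by
  intro y hy
  obtain ⟨r, hr, hyr⟩ := hres y hy
  obtain ⟨b, c, hc, hrc⟩ := hF1 r hr
  refine ⟨b, c, hc, ?_⟩
  have hmem : ∀ x : 𝓕₁, x ∈ O₁ i → γ x ∈ O₂ j := fun x hx => by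
    rw [← hcomap] at hx; exact ValuationSubring.mem_comap.mp hx
  have hnu : ∀ x : 𝓕₁, x ∈ (O₁ i).nonunits → γ x ∈ (O₂ j).nonunits := by
    intro x hx
    rw [ValuationSubring.mem_nonunits_iff_or] at hx ⊢
    rcases hx with rfl | hx
    · left; exact map_zero γ
    · right
      intro h
      apply hx
      rw [← hcomap]
      exact ValuationSubring.mem_comap.mpr (by rwa [map_inv₀])
  have hcO : (c : 𝓕₁) ∈ O₁ i := (s34x_mem_infRing O₁ _).mp c.2.1 i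
  have e : y * γ (c : 𝓕₁) - γ (b : 𝓕₁) =
      (y - γ r) * γ (c : 𝓕₁) + γ (r * (c : 𝓕₁) - (b : 𝓕₁)) := by
    rw [map_sub, map_mul]; ring
  rw [e]
  exact s36qf_add_mem_nonunits (O₂ j) (s36qf_mul_mem_nonunits (O₂ j) hyr (hmem _ hcO)) (hnu _ hrc)

/-- **(F2), purely inseparable branch**: the same for `q`-th powers. -/
theorem s36qf_fracq_of_res (q : ℕ) (hcomap : (O₂ j).comap γ = O₁ i)
    (hF1 : ∀ r ∈ O₁ i, ∃ b c : s34x_ring (s34x_infRing O₁) S₁,
      (c : 𝓕₁) ∉ (O₁ i).nonunits ∧ r * (c : 𝓕₁) - (b : 𝓕₁) ∈ (O₁ i).nonunits)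
    (hres : ∀ y ∈ O₂ j, ∃ r ∈ O₁ i, y ^ q - γ r ∈ (O₂ j).nonunits) :
    ∀ y ∈ O₂ j, ∃ b c : s34x_ring (s34x_infRing O₁) S₁,
      (c : 𝓕₁) ∉ (O₁ i).nonunits ∧ y ^ q * γ (c : 𝓕₁) - γ (b : 𝓕₁) ∈ (O₂ j).nonunits := by
  intro y hy
  obtain ⟨r, hr, hyr⟩ := hres y hy
  obtain ⟨b, c, hc, hrc⟩ := hF1 r hr
  refine ⟨b, c, hc, ?_⟩
  have hmem : ∀ x : 𝓕₁, x ∈ O₁ i → γ x ∈ O₂ j := fun x hx => by
    rw [← hcomap] at hx; exact ValuationSubring.mem_comap.mp hx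
  have hnu : ∀ x : 𝓕₁, x ∈ (O₁ i).nonunits → γ x ∈ (O₂ j).nonunits := by
    intro x hx
    rw [ValuationSubring.mem_nonunits_iff_or] at hx ⊢
    rcases hx with rfl | hx
    · left; exact map_zero γ
    · right
      intro h
      apply hx
      rw [← hcomap]
      exact ValuationSubring.mem_comap.mpr (by rwa [map_inv₀])
  have hcO : (c : 𝓕₁) ∈ O₁ i := (s34x_mem_infRing O₁ _).mp c.2.1 i
  have e : y ^ q * γ (c : 𝓕₁) - γ (b : 𝓕₁) =
      (y ^ q - γ r) * γ (c : 𝓕₁) + γ (r * (c : 𝓕₁) - (b : 𝓕₁)) := by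
    rw [map_sub, map_mul]; ring
  rw [e]
  exact s36qf_add_mem_nonunits (O₂ j) (s36qf_mul_mem_nonunits (O₂ j) hyr (hmem _ hcO)) (hnu _ hrc)

end Two

end Fermat.Agent.Lib.S36
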