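/-
S36 mega-project, sub-layer (R-mid) (helper2, prefix `s36e_`), part 4: `Θ^{log}_j` OVER `K₀` AND ITS
UNIT-NESS AT THE POINTS OF THE LEVEL-`M q` FIBRE LYING ON `C'_∞` ONLY.

`F₁ = s34m_F K₀ (M q)`, `j = s18g_jF (M q)`, `j_q = β j = heckeBetaBar K₀ M q (s18g_jF M)`.  Let
`Θ ∈ F₁` satisfy, as Laurent series over `K₀`,
  `θ(j_q) * j = q * Θ * θ(j) * j_q`        (`Θ = dlog(j_q) / (q dlog j)`).
* `s36e_coeffMap_theta`     : `θ` commutes with coefficientwise maps;
* `s36e_theta_of_D`         : a Kähler relation `D x = h • D y` in `Ω[F̄(N)/Kb]` gives `θ x = h * θ y`;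
* `s36e_theta_log_ord_K`    : `ord_Q Θ = 0` at every place `Q` of `F₁/K₀` which is not a zero of `j`,
  `j - 1728`, `j_q`, `j_q - 1728` (from `s36e_theta_log_ord` over `Kb` and `s18r_exists_restrict`);
* `s36e_theta_log_unit`     : in the frame of `QMem.lean` for the two valuations
  `s34m_VV G φ M q hq hqM`: if only `V'_∞` passes through `𝔫`, `Θ` is a unit of `V'_∞` and no place of
  the chart through `𝔫` is a zero of `j`, `j - 1728`, `j_q`, `j_q - 1728`, then `Θ` is (the image of) a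
  UNIT of `B_𝔫`.
-/
import Fermat.Agent.Lib.S36.REisTheta
import Fermat.Agent.Lib.S36.QMem
import Fermat.Agent.Lib.S18.RWave2
import Fermat.Agent.Lib.S34.CChart

set_option autoImplicit false
set_option linter.unusedSectionVars false
set_option linter.style.haveILetI false

noncomputable section

namespace Fermat.Agent.Lib.S36

open AlgebraicCurve ModularCurve KaehlerDifferential HahnSeries
open Fermat.Agent.Lib.FF Fermat.Agent.Lib.S18 Fermat.Agent.Lib.S34 Fermat.Agent.Lib.S37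

local notation "Kb" => AlgebraicClosure ℚ

/-- `θ` commutes with coefficientwise maps. -/
theorem s36e_coeffMap_theta {R S : Type*} [Field R] [Field S] (f : R →+* S)
    (x : LaurentSeries R) : coeffMap f (ffd_theta x) = ffd_theta (coeffMap f x) := by
  ext n
  rw [coeffMap_coeff, ffd_theta_coeff, ffd_theta_coeff, coeffMap_coeff, map_mul, map_intCast]

/-- a Kähler relation gives the corresponding relation between the `θ`-derivatives. -/
theorem s36e_theta_of_D (N : ℕ) (x y h : ffi_F N)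
    (hrel : D Kb (ffi_F N) x = h • D Kb (ffi_F N) y) :
    ffd_theta (x : LaurentSeries Kb) = (h : LaurentSeries Kb) * ffd_theta (y : LaurentSeries Kb) := by
  haveI := ffd_isScalarTower (modularFunctionFieldBar N)
  let d : Derivation Kb (ffi_F N) (LaurentSeries Kb) :=
    (ffd_thetaDeriv (K := Kb)).compAlgebraMap (modularFunctionFieldBar N)
  have h1 : d x = d.liftKaehlerDifferential (D Kb (ffi_F N) x) :=
    (Derivation.liftKaehlerDifferential_comp_D d x).symm
  have h2 : d y = d.liftKaehlerDifferential (D Kb (ffi_F N) y) :=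
    (Derivation.liftKaehlerDifferential_comp_D d y).symm
  have h3 : d x = h • d y := by
    rw [h1, hrel, map_smul, ← h2]
  exact h3

section Places

variable {K₀ : Type*} [Field K₀] [Algebra ℚ K₀] (φ : K₀ →+* Kb) (M q : ℕ) [NeZero M] [NeZero q]

include φ in
/-- **`ord_Q Θ^{log}_j = 0`** at the places of `F₁/K₀` away from `j, j_q ∈ {0, 1728}`. -/
theorem s36e_theta_log_ord_K (hq : q.Prime) (hqM : ¬ q ∣ M) (h2 : nuTwo M = 0)
    (h3 : nuThree M = 0) (Θ : s34m_F K₀ (M * q))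
    (hΘ : ffd_theta ((heckeBetaBar K₀ M q (s18g_jF (K := K₀) M) : s34m_F K₀ (M * q)) :
        LaurentSeries K₀) * ((s18g_jF (K := K₀) (M * q) : s34m_F K₀ (M * q)) : LaurentSeries K₀) =
      ((q : ℕ) : LaurentSeries K₀) * (Θ : LaurentSeries K₀) *
        ffd_theta ((s18g_jF (K := K₀) (M * q) : s34m_F K₀ (M * q)) : LaurentSeries K₀) *
        ((heckeBetaBar K₀ M q (s18g_jF (K := K₀) M) : s34m_F K₀ (M * q)) : LaurentSeries K₀))
    (Q : Place K₀ (s34m_F K₀ (M * q)))
    (hA0 : ¬ 0 < Q.ord (s18g_jF (K := K₀) (M * q)))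
    (hA1 : ¬ 0 < Q.ord (s18g_jF (K := K₀) (M * q) - algebraMap K₀ (s34m_F K₀ (M * q)) 1728))
    (hB0 : ¬ 0 < Q.ord (heckeBetaBar K₀ M q (s18g_jF (K := K₀) M)))
    (hB1 : ¬ 0 < Q.ord (heckeBetaBar K₀ M q (s18g_jF (K := K₀) M) -
      algebraMap K₀ (s34m_F K₀ (M * q)) 1728)) :
    Q.ord Θ = 0 := by
  obtain ⟨ρ, hsurj, hord⟩ := s18r_exists_restrict φ (M * q)
  obtain ⟨P, rfl⟩ := hsurj Q
  set ι := s34m_iota φ (M * q) with hι
  have hιA : ι (s18g_jF (K := K₀) (M * q)) = ffd_jBar (M * q) := s18r_map_jF φ (M * q)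
  have hιB : ι (heckeBetaBar K₀ M q (s18g_jF (K := K₀) M)) =
      heckeBetaBar Kb M q (ffd_jBar M) := by
    rw [hι, s34m_iota_beta]
    congr 1
    exact s18r_map_jF φ M
  have hι1728 : ι (algebraMap K₀ (s34m_F K₀ (M * q)) 1728) =
      algebraMap Kb (ffi_F (M * q)) 1728 := by
    rw [hι, s18q_map_algebraMap, map_ofNat]
  -- the Kähler relation over `Kb`
  have hgen : FFGen ffi_K (ffd_jBar (M * q)) := s18r_ffGen (M * q)
  obtain ⟨hEFT, hres⟩ := ff_ifaceLocal ffi_K (ffd_jBar (M * q)) P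
  haveI := hEFT
  obtain ⟨h, hh⟩ := ffd_exists_eq_smul_D P hres (ffd_D_jBar_ne_zero (M * q))
    (D Kb (ffi_F (M * q)) (heckeBetaBar Kb M q (ffd_jBar M)))
  have hθ := s36e_theta_of_D (M * q) _ _ h hh
  -- the transferred Laurent identity
  have hΘ' := congrArg (coeffMap φ) hΘ
  simp only [map_mul, s36e_coeffMap_theta, map_natCast] at hΘ'
  have e1 : coeffMap φ ((heckeBetaBar K₀ M q (s18g_jF (K := K₀) M) : s34m_F K₀ (M * q)) :
      LaurentSeries K₀) = ((heckeBetaBar Kb M q (ffd_jBar M) : ffi_F (M * q)) :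
        LaurentSeries Kb) := by
    rw [← hιB]; rfl
  have e2 : coeffMap φ ((s18g_jF (K := K₀) (M * q) : s34m_F K₀ (M * q)) : LaurentSeries K₀) =
      ((ffd_jBar (M * q) : ffi_F (M * q)) : LaurentSeries Kb) := by
    rw [← hιA]; rfl
  have e3 : coeffMap φ (Θ : LaurentSeries K₀) = ((ι Θ : ffi_F (M * q)) : LaurentSeries Kb) := rfl
  rw [e1, e2, e3, hθ] at hΘ'
  -- `θ j ≠ 0`
  have hθj : ffd_theta ((ffd_jBar (M * q) : ffi_F (M * q)) : LaurentSeries Kb) ≠ 0 := by
    intro h0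
    have := congrArg (fun s => HahnSeries.coeff s (-1)) h0
    simp only [ffd_theta_coeff, HahnSeries.coeff_zero, ffd_jBar_coe] at this
    rw [← ffd_jSeries, ffd_jSeries_coeff_neg_one] at this
    norm_num at this
  -- hence `h * j = q * ιΘ * j_q` in `F̄`
  have hkey : h * ffd_jBar (M * q) =
      ((q : ℕ) : ffi_F (M * q)) * ι Θ * heckeBetaBar Kb M q (ffd_jBar M) := by
    apply Subtype.ext
    push_cast
    have : ((h : LaurentSeries Kb) * (ffd_jBar (M * q) : ffi_F (M * q)) -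
        (q : LaurentSeries Kb) * (ι Θ : ffi_F (M * q)) *
          (heckeBetaBar Kb M q (ffd_jBar M) : ffi_F (M * q))) *
        ffd_theta ((ffd_jBar (M * q) : ffi_F (M * q)) : LaurentSeries Kb) = 0 := by
      linear_combination hΘ'
    rcases mul_eq_zero.mp this with h0 | h0
    · exact sub_eq_zero.mp h0
    · exact absurd h0 hθj
  have hjA0 : ffd_jBar (M * q) ≠ 0 := by
    intro h0
    have := ffd_D_jBar_ne_zero (M * q)
    rw [h0, map_zero] at this
    exact this rfl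
  have hjB0 : heckeBetaBar Kb M q (ffd_jBar M) ≠ 0 := by
    rw [Ne, map_eq_zero]
    intro h0
    have := ffd_D_jBar_ne_zero M
    rw [h0, map_zero] at this
    exact this rfl
  have hq0 : ((q : ℕ) : ffi_F (M * q)) ≠ 0 := by
    exact_mod_cast (NeZero.ne q)
  have hh0 : h ≠ 0 := by
    rintro rfl
    rw [zero_smul] at hh
    -- then `D j_q = 0`, so `θ j_q = 0`, i.e. `q * ιΘ * j_q * θ j ...`; use `hkey`
    rw [zero_mul] at hkey
    have hΘ0 : ι Θ = 0 := by
      rcases mul_eq_zero.mp hkey.symm with h1 | h1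
      · rcases mul_eq_zero.mp h1 with h2 | h2
        · exact absurd h2 hq0
        · exact h2
      · exact absurd h1 hjB0
    -- but `θ (j_q) ≠ 0`
    have hθB : ffd_theta ((heckeBetaBar Kb M q (ffd_jBar M) : ffi_F (M * q)) :
        LaurentSeries Kb) = 0 := by rw [hθ]; simp
    have := congrArg (fun s => HahnSeries.coeff s (-(q : ℤ))) hθB
    simp only [ffd_theta_coeff, HahnSeries.coeff_zero, coe_heckeBetaBar, ffd_jBar_coe] at this
    have hc : (qExpand Kb q (coeffEmb Kb jq)).coeff (-(q : ℤ)) = 1 := by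
      have h1 := qExpand_coeff_mul (R := Kb) (N := q) (coeffEmb Kb jq) (-1)
      rw [mul_neg_one] at h1
      rw [h1, ← ffd_jSeries, ffd_jSeries_coeff_neg_one]
    rw [hc, mul_one] at this
    have hq' : ((-(q : ℤ) : ℤ) : Kb) ≠ 0 := by
      push_cast
      rw [neg_ne_zero]
      exact_mod_cast (NeZero.ne q)
    exact hq' this
  -- the four conditions at `P`
  have cA0 : ¬ 0 < P.ord (ffd_jBar (M * q)) := by rw [← hιA, hord]; exact hA0
  have cA1 : ¬ 0 < P.ord (ffd_jBar (M * q) - algebraMap Kb (ffi_F (M * q)) 1728) := by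
    rw [← hιA, ← hι1728, ← map_sub, hord]; exact hA1
  have cB0 : ¬ 0 < P.ord (heckeBetaBar Kb M q (ffd_jBar M)) := by rw [← hιB, hord]; exact hB0
  have cB1 : ¬ 0 < P.ord (heckeBetaBar Kb M q (ffd_jBar M) -
      algebraMap Kb (ffi_F (M * q)) 1728) := by
    rw [← hιB, ← hι1728, ← map_sub, hord]; exact hB1
  have hmain := (s36e_theta_log_ord M q hq hqM h2 h3 h hh0 hh P cA0 cA1 cB0 cB1).1
  -- `ιΘ = (h * j / j_q) / q`
  have hΘeq : ι Θ = (h * ffd_jBar (M * q) / heckeBetaBar Kb M q (ffd_jBar M)) *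
      ((q : ℕ) : ffi_F (M * q))⁻¹ := by
    rw [hkey]; field_simp
  rw [← hord, hΘeq]
  have hne : h * ffd_jBar (M * q) / heckeBetaBar Kb M q (ffd_jBar M) ≠ 0 :=
    div_ne_zero (mul_ne_zero hh0 hjA0) hjB0
  rw [P.ord_mul hne (inv_ne_zero hq0), hmain, P.ord_inv, zero_add, neg_eq_zero]
  have : ((q : ℕ) : ffi_F (M * q)) = algebraMap Kb (ffi_F (M * q)) ((q : ℕ) : Kb) := by
    rw [map_natCast]
  rw [this]
  exact ffh_ord_algebraMap P (by exact_mod_cast (NeZero.ne q))

end Places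

/-! ### Unit-ness in the local ring of a point on `C'_∞` only -/

section Unit

variable {K₀ : Type*} [Field K₀] [Algebra ℚ K₀] {κ : Type*} [Field κ] (G : s18g_GaussData K₀ κ)
  (φ : K₀ →+* Kb) (M q : ℕ) [NeZero M] [NeZero q] (hq : q.Prime) (hqM : ¬ q ∣ M)

/-- the uniformiser is a non-unit of both valuation rings of level `M q`. -/
theorem s36e_unif_mem_nonunits_VV (i : Bool) :
    s34m_unif G (M * q) ∈ (s34m_VV G φ M q hq hqM i).nonunits := by
  have hinf : s34m_unif G (M * q) ∈ (s34m_Vinf G (M * q)).nonunits := by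
    have h1 := s18g_not_isUnit_unifV G (laurentBaseChange K₀ (modularFunctionFieldFull (M * q)))
      (s34m_hF G (M * q))
    have h2 : (s18g_unifV G (laurentBaseChange K₀ (modularFunctionFieldFull (M * q)))
        (s34m_hF G (M * q))) ∈ nonunits (s34m_Vinf G (M * q)) := h1
    exact (ValuationSubring.coe_mem_nonunits_iff (A := s34m_Vinf G (M * q))).mpr h2
  cases i
  · show s34m_unif G (M * q) ∈ (s34m_Vzero G φ M q hq hqM).nonunits
    rw [ValuationSubring.mem_nonunits_iff_or]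
    rw [ValuationSubring.mem_nonunits_iff_or] at hinf
    rcases hinf with h0 | h0
    · exact Or.inl h0
    · right
      intro hmem
      apply h0
      have := (s34m_mem_Vzero G φ M q hq hqM _).mp hmem
      rwa [map_inv₀, s34m_al_unif] at this
  · exact hinf

/-- rank one for the two valuations of level `M q`. -/
theorem s36e_arch_VV : s36q_Arch (s34m_VV G φ M q hq hqM) :=
  s36q_arch_of_unif _ fun i => ⟨s34m_unif G (M * q), s36e_unif_mem_nonunits_VV G φ M q hq hqM i,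
    fun U hU => s34m_exists_zpow_VV G φ M q hq hqM i U hU⟩

/-- **`Θ^{log}_j` is a unit of `B_𝔫`** at a point `𝔫` of the level-`M q` chart lying on `C'_∞` only,
away from `j, j_q ∈ {0, 1728}`. -/
theorem s36e_theta_log_unit (h2 : nuTwo M = 0) (h3 : nuThree M = 0)
    (S : Set (Place K₀ (s34m_F K₀ (M * q))))
    (𝔫 : Ideal (s34x_ring (s34x_infRing (s34m_VV G φ M q hq hqM)) S)) [h𝔫 : 𝔫.IsPrime]
    (honly : ∀ i, s36q_compThrough (s34m_VV G φ M q hq hqM) S 𝔫 i → i = true)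
    (F3 : ∀ y : s34m_F K₀ (M * q), y ≠ 0 →
      {Q : Place K₀ (s34m_F K₀ (M * q)) | Q ∈ S ∧ Q.ord y ≠ 0}.Finite)
    (Θ : s34m_F K₀ (M * q))
    (hΘ : ffd_theta ((heckeBetaBar K₀ M q (s18g_jF (K := K₀) M) : s34m_F K₀ (M * q)) :
        LaurentSeries K₀) * ((s18g_jF (K := K₀) (M * q) : s34m_F K₀ (M * q)) : LaurentSeries K₀) =
      ((q : ℕ) : LaurentSeries K₀) * (Θ : LaurentSeries K₀) *
        ffd_theta ((s18g_jF (K := K₀) (M * q) : s34m_F K₀ (M * q)) : LaurentSeries K₀) *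
        ((heckeBetaBar K₀ M q (s18g_jF (K := K₀) M) : s34m_F K₀ (M * q)) : LaurentSeries K₀))
    (hΘ0 : Θ ≠ 0) (hΘV : Θ ∈ s34m_Vinf G (M * q)) (hΘV' : Θ⁻¹ ∈ s34m_Vinf G (M * q))
    (hpl : ∀ Q ∈ S, s34f_through (s34x_infRing (s34m_VV G φ M q hq hqM)) S 𝔫 Q →
      ¬ 0 < Q.ord (s18g_jF (K := K₀) (M * q)) ∧
      ¬ 0 < Q.ord (s18g_jF (K := K₀) (M * q) - algebraMap K₀ (s34m_F K₀ (M * q)) 1728) ∧
      ¬ 0 < Q.ord (heckeBetaBar K₀ M q (s18g_jF (K := K₀) M)) ∧
      ¬ 0 < Q.ord (heckeBetaBar K₀ M q (s18g_jF (K := K₀) M) -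
        algebraMap K₀ (s34m_F K₀ (M * q)) 1728)) :
    ∃ z : Localization.AtPrime 𝔫, IsUnit z ∧
      s34f_iota (s34x_infRing (s34m_VV G φ M q hq hqM)) S 𝔫 z = Θ := by
  refine s36q_exists_unit_iota_eq (s34m_VV G φ M q hq hqM) S 𝔫
    (s36e_arch_VV G φ M q hq hqM) Θ hΘ0 ?_ ?_ (F3 Θ hΘ0)
  · intro i hi
    rw [honly i hi]
    exact ⟨hΘV, hΘV'⟩
  · intro Q hQS hth
    obtain ⟨c1, c2, c3, c4⟩ := hpl Q hQS hth
    exact s36e_theta_log_ord_K φ M q hq hqM h2 h3 Θ hΘ Q c1 c2 c3 c4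

end Unit

end Fermat.Agent.Lib.S36
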