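/-
S36 mega-project, layer (M) (helper6): Galois stability of the Gauss valuation rings for
automorphisms of `K₀` that only PRESERVE the valuation ring `G.A` (decomposition group; no
hypothesis on the residue action, unlike `s34m_galois_mem_Vinf`).

* `s36m_gal_mem_O` : `coeffMap σ₀` maps the Gauss ring `s18g_O G` into itself (`σ₀ A ⊆ A`).
* `s36m_gal_mem_O_iff` : iff version (`σ₀ a ∈ A ↔ a ∈ A`).
* `s36m_galois_mem_Vinf_iff`, `s36m_galois_mem_Vzero_iff` : the valuation rings `V_∞` (any level) and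
  `V_0` (level `M q`) are stable under the arithmetic Galois action, `smul` versions
  `s36m_galois_smul_mem_Vinf_iff`, `s36m_galois_smul_mem_Vzero_iff`.
-/
import Fermat.Agent.Lib.S34.MVal

set_option autoImplicit false
set_option linter.unusedSectionVars false

noncomputable section

namespace Fermat.Agent.Lib.S36

open ModularCurve AlgebraicCurve HahnSeries Fermat.Agent.Lib.FF Fermat.Agent.Lib.S18
  Fermat.Agent.Lib.S37 Fermat.Agent.Lib.S34

local notation "Kb" => AlgebraicClosure ℚ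

section Gauss

variable {K : Type*} [Field K] {κ : Type*} [Field κ] (G : s18g_GaussData K κ)

/-- An element of `A` not divisible by `ϖ` is a unit. -/
theorem s36m_gal_isUnit_of_not_dvd (y : G.A) (hy : ¬ G.ϖ ∣ y) : IsUnit y := by
  rcases ValuationRing.dvd_total y G.ϖ with h | h
  · obtain ⟨c, hc⟩ := h
    have hc0 : G.π c = 0 := by
      have h0 : G.π y * G.π c = 0 := by rw [← map_mul, ← hc, s18g_pi_unif]
      rcases mul_eq_zero.mp h0 with h1 | h1
      · exact absurd ((G.π_eq_zero_iff _).mp h1) hy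
      · exact h1
    obtain ⟨d, hd⟩ := (G.π_eq_zero_iff _).mp hc0
    have h1 : G.ϖ * 1 = G.ϖ * (y * d) := by
      rw [mul_one]
      conv_lhs => rw [hc, hd]
      ring
    have h2 := mul_left_cancel₀ G.ϖ_ne_zero h1
    exact IsUnit.of_mul_eq_one d h2.symm
  · exact absurd h hy

variable (σ₀ : K ≃+* K) (hσA : ∀ a : K, a ∈ G.A → σ₀ a ∈ G.A)

/-- `σ₀` maps units of `A` to units of `A`: `π (σ₀ a) = 0 → π a = 0`. -/
theorem s36m_gal_pi_eq_zero (a : G.A) (h : G.π (s34m_sigmaA G σ₀ hσA a) = 0) : G.π a = 0 := by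
  by_contra hne
  have hnd : ¬ G.ϖ ∣ a := fun hd => hne ((G.π_eq_zero_iff _).mpr hd)
  have hu : IsUnit a := s36m_gal_isUnit_of_not_dvd G a hnd
  have hu' : IsUnit (s34m_sigmaA G σ₀ hσA a) := hu.map _
  have := hu'.map G.π
  rw [h] at this
  exact not_isUnit_zero this

include hσA in
/-- `coeffMap σ₀` maps the Gauss ring into itself. -/
theorem s36m_gal_mem_O {f : LaurentSeries K} (hf : f ∈ s18g_O G) :
    coeffMap (σ₀ : K →+* K) f ∈ s18g_O G := by
  obtain ⟨P, Q, hQ, h⟩ := hf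
  refine ⟨coeffMap (s34m_sigmaA G σ₀ hσA) P, coeffMap (s34m_sigmaA G σ₀ hσA) Q, ?_, ?_⟩
  · intro h0
    apply hQ
    ext n
    have hn := congrArg (fun g : LaurentSeries κ => g.coeff n) h0
    simp only [s18g_rho_coeff, HahnSeries.coeff_zero] at hn ⊢
    exact s36m_gal_pi_eq_zero G σ₀ hσA _ hn
  · rw [s34m_iota_sigmaA, s34m_iota_sigmaA, ← h, map_mul]

end Gauss

section GaussIff

variable {K : Type*} [Field K] {κ : Type*} [Field κ] (G : s18g_GaussData K κ)
variable (σ₀ : K ≃+* K) (hσ : ∀ a : K, σ₀ a ∈ G.A ↔ a ∈ G.A)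

include hσ in
theorem s36m_gal_mem_O_iff (f : LaurentSeries K) :
    coeffMap (σ₀ : K →+* K) f ∈ s18g_O G ↔ f ∈ s18g_O G := by
  constructor
  · intro h
    have hσ' : ∀ a : K, a ∈ G.A → σ₀.symm a ∈ G.A := fun a ha => by
      rw [← hσ, RingEquiv.apply_symm_apply]; exact ha
    have := s36m_gal_mem_O G σ₀.symm hσ' h
    have e : coeffMap (σ₀.symm : K →+* K) (coeffMap (σ₀ : K →+* K) f) = f := by
      ext n
      simp
    rw [e] at this
    exact this
  · exact s36m_gal_mem_O G σ₀ (fun a ha => (hσ a).mpr ha)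

end GaussIff

variable {K₀ : Type*} [Field K₀] [Algebra ℚ K₀] {κ : Type*} [Field κ] (G : s18g_GaussData K₀ κ)
  (φ : K₀ →+* Kb) (M q : ℕ) [NeZero M] [NeZero q] (hq : q.Prime) (hqM : ¬ q ∣ M)
  (σ₀ : K₀ ≃ₐ[ℚ] K₀) (hσ : ∀ a : K₀, σ₀ a ∈ G.A ↔ a ∈ G.A)

include hσ in
/-- **`V_∞` is stable under the decomposition group** (any level). -/
theorem s36m_galois_mem_Vinf_iff (N : ℕ) [NeZero N] (y : s34m_F K₀ N) :
    arithmeticRingAut (modularFunctionFieldFull N) σ₀ y ∈ s34m_Vinf G N ↔ y ∈ s34m_Vinf G N := by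
  rw [s34m_mem_Vinf, s34m_mem_Vinf, coe_arithmeticRingAut_apply]
  exact s36m_gal_mem_O_iff G (σ₀ : K₀ ≃+* K₀) hσ _

include hσ in
theorem s36m_galois_smul_mem_Vinf_iff (N : ℕ) [NeZero N] (y : s34m_F K₀ N) :
    arithmeticGalois (modularFunctionFieldFull N) σ₀ • y ∈ s34m_Vinf G N ↔ y ∈ s34m_Vinf G N :=
  s36m_galois_mem_Vinf_iff G σ₀ hσ N y

include hσ in
/-- **`V_0` (level `M q`) is stable under the decomposition group.** -/
theorem s36m_galois_mem_Vzero_iff (y : s34m_F K₀ (M * q)) :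
    arithmeticRingAut (modularFunctionFieldFull (M * q)) σ₀ y ∈ s34m_Vzero G φ M q hq hqM ↔
      y ∈ s34m_Vzero G φ M q hq hqM := by
  rw [s34m_mem_Vzero, s34m_mem_Vzero, s34m_al_galois]
  exact s36m_galois_mem_Vinf_iff G σ₀ hσ (M * q) _

include hσ in
theorem s36m_galois_smul_mem_Vzero_iff (y : s34m_F K₀ (M * q)) :
    arithmeticGalois (modularFunctionFieldFull (M * q)) σ₀ • y ∈ s34m_Vzero G φ M q hq hqM ↔
      y ∈ s34m_Vzero G φ M q hq hqM :=
  s36m_galois_mem_Vzero_iff G φ M q hq hqM σ₀ hσ y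

end Fermat.Agent.Lib.S36
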