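/-
S36 mega-project, layer (M) (helper6), part 3: the TWIST `T ↦ ξ T` of Laurent series
(`n`-th coefficient multiplied by `ξ ^ n`), a ring automorphism of `K((T))` for a unit `ξ` of a commutative ring `K`.
It is the formal counterpart of the translation `z ↦ z + r` of the upper half plane
(`ξ = exp(2πi r)`), and describes the `q`-expansions of modular functions at the middle cusps.
-/
import Mathlib.RingTheory.LaurentSeries
import Fermat.Prelude.Def_ModularCurve_X0
import Fermat.Prelude.Def_ModularCurve_LaurentCoeff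

set_option autoImplicit false

noncomputable section

namespace Fermat.Agent.Lib.S36

open HahnSeries ModularCurve

variable {K : Type*} [CommRing K]

/-- The underlying function of the twist. -/
def s36m_twistFun (ξ : Kˣ) (f : LaurentSeries K) : LaurentSeries K where
  coeff n := ((ξ ^ n : Kˣ) : K) * f.coeff n
  isPWO_support' := f.isPWO_support.mono (fun n hn => by
    simp only [Function.mem_support, ne_eq] at hn ⊢
    intro h
    exact hn (by rw [h, mul_zero]))

@[simp] theorem s36m_twistFun_coeff (ξ : Kˣ) (f : LaurentSeries K) (n : ℤ) :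
    (s36m_twistFun ξ f).coeff n = ((ξ ^ n : Kˣ) : K) * f.coeff n := rfl

theorem s36m_twistFun_support (ξ : Kˣ) (f : LaurentSeries K) :
    (s36m_twistFun ξ f).support = f.support := by
  ext n
  simp only [HahnSeries.mem_support, s36m_twistFun_coeff, ne_eq, Units.mul_right_eq_zero]

/-- **The twist `T ↦ ξ T`.** -/
def s36m_twist (ξ : Kˣ) : LaurentSeries K →+* LaurentSeries K where
  toFun := s36m_twistFun ξ
  map_zero' := by
    ext n
    simp
  map_one' := by
    ext n
    rw [s36m_twistFun_coeff, HahnSeries.coeff_one]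
    split_ifs with h
    · subst h; simp
    · simp
  map_add' x y := by
    ext n
    simp [mul_add]
  map_mul' x y := by
    ext n
    rw [s36m_twistFun_coeff, HahnSeries.coeff_mul, HahnSeries.coeff_mul, Finset.mul_sum]
    have hs : ∀ z : LaurentSeries K, (s36m_twistFun ξ z).support = z.support :=
      s36m_twistFun_support ξ
    have hset : Finset.antidiagonal (s36m_twistFun ξ x).isPWO_support
        (s36m_twistFun ξ y).isPWO_support n =
        Finset.antidiagonal x.isPWO_support y.isPWO_support n := by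
      ext ij
      simp only [Finset.mem_antidiagonal, hs]
    rw [hset]
    refine Finset.sum_congr rfl fun ij hij => ?_
    have hsum : ij.1 + ij.2 = n := (Finset.mem_antidiagonal.mp hij).2.2
    rw [s36m_twistFun_coeff, s36m_twistFun_coeff, ← hsum, zpow_add, Units.val_mul]
    ring

@[simp] theorem s36m_twist_coeff (ξ : Kˣ) (f : LaurentSeries K) (n : ℤ) :
    (s36m_twist ξ f).coeff n = ((ξ ^ n : Kˣ) : K) * f.coeff n := rfl

theorem s36m_twist_twist (ξ η : Kˣ) (f : LaurentSeries K) :
    s36m_twist ξ (s36m_twist η f) = s36m_twist (ξ * η) f := by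
  ext n
  simp only [s36m_twist_coeff, mul_zpow, Units.val_mul]
  ring

@[simp] theorem s36m_twist_one (f : LaurentSeries K) : s36m_twist (1 : Kˣ) f = f := by
  ext n
  simp

theorem s36m_twist_inv_twist (ξ : Kˣ) (f : LaurentSeries K) :
    s36m_twist ξ⁻¹ (s36m_twist ξ f) = f := by
  rw [s36m_twist_twist, inv_mul_cancel, s36m_twist_one]

theorem s36m_twist_twist_inv (ξ : Kˣ) (f : LaurentSeries K) :
    s36m_twist ξ (s36m_twist ξ⁻¹ f) = f := by
  rw [s36m_twist_twist, mul_inv_cancel, s36m_twist_one]

theorem s36m_twist_injective (ξ : Kˣ) : Function.Injective (s36m_twist (K := K) ξ) :=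
  Function.LeftInverse.injective (s36m_twist_inv_twist ξ)

theorem s36m_twist_C (ξ : Kˣ) (c : K) :
    s36m_twist ξ (HahnSeries.C c : LaurentSeries K) = HahnSeries.C c := by
  ext n
  rw [s36m_twist_coeff]
  by_cases h : n = 0
  · subst h; simp
  · rw [HahnSeries.C_apply, HahnSeries.coeff_single_of_ne h, mul_zero]

/-- Twisting commutes with `T ↦ T ^ d` up to `ξ ↦ ξ ^ d`:
`(f(T^d))(ξ T) = (f(ξ^d T))(T^d)`. -/
theorem s36m_twist_qExpand (ξ : Kˣ) (d : ℕ) [NeZero d] (f : LaurentSeries K) :
    s36m_twist ξ (qExpand K d f) = qExpand K d (s36m_twist (ξ ^ d) f) := by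
  ext n
  rw [s36m_twist_coeff]
  by_cases h : (d : ℤ) ∣ n
  · obtain ⟨k, rfl⟩ := h
    rw [qExpand_coeff_mul, qExpand_coeff_mul, s36m_twist_coeff, zpow_mul, zpow_natCast]
  · rw [qExpand_coeff_of_not_dvd d _ h, qExpand_coeff_of_not_dvd d _ h, mul_zero]

/-- The twist commutes with coefficientwise ring homomorphisms. -/
theorem s36m_coeffMap_twist {R S : Type*} [CommRing R] [CommRing S] (f : R →+* S) (ξ : Rˣ)
    (x : LaurentSeries R) :
    coeffMap f (s36m_twist ξ x) = s36m_twist (Units.map (f : R →* S) ξ) (coeffMap f x) := by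
  ext n
  rw [coeffMap_coeff, s36m_twist_coeff, s36m_twist_coeff, coeffMap_coeff, map_mul, ← map_zpow]
  rfl

/-- A twist by a `d`-th root of unity fixes the series in `T ^ d`. -/
theorem s36m_twist_qExpand_of_pow_eq_one (ξ : Kˣ) (d : ℕ) [NeZero d] (h : ξ ^ d = 1)
    (f : LaurentSeries K) : s36m_twist ξ (qExpand K d f) = qExpand K d f := by
  rw [s36m_twist_qExpand, h, s36m_twist_one]

end Fermat.Agent.Lib.S36
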