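/-
S36 mega-project, layer (M) (helper6), part 5: TRANSPORT of the Gauss ring `s18g_O`, the Gauss
fraction field `s18g_Frac` and the reduction `s18g_red` along a ring homomorphism
`Θ : K((T)) → K'((T))` which is induced by a homomorphism `θ : A((T)) → A'((T))` of the integral
series compatible with the reductions; two instances: coefficientwise BASE CHANGE along
`ψ : K → K'` (`ψ A ⊆ A'`, same residue field) and the TWIST `T ↦ ξ T` by a unit `ξ` of `A` with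
`π ξ = 1`.
-/
import Fermat.Agent.Lib.S18.GO
import Fermat.Agent.Lib.S36.MTwist

set_option autoImplicit false

noncomputable section

namespace Fermat.Agent.Lib.S36

open ModularCurve HahnSeries Fermat.Agent.Lib.S18

section Transport

variable {K K' : Type*} [Field K] [Field K'] {κ κ' : Type*} [Field κ] [Field κ']
  (G : s18g_GaussData K κ) (G' : s18g_GaussData K' κ')
  (Θ : LaurentSeries K →+* LaurentSeries K') (θ : LaurentSeries G.A →+* LaurentSeries G'.A)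
  (ρ : LaurentSeries κ →+* LaurentSeries κ')
  (hΘ : ∀ P, Θ (s18g_iota G P) = s18g_iota G' (θ P))
  (hρ : ∀ P, s18g_rho G' (θ P) = ρ (s18g_rho G P))

include hΘ hρ in
theorem s36m_tr_mem_O {f : LaurentSeries K} (hf : f ∈ s18g_O G) : Θ f ∈ s18g_O G' := by
  obtain ⟨P, Q, hQ, h⟩ := hf
  refine ⟨θ P, θ Q, ?_, ?_⟩
  · rw [hρ]
    exact (map_ne_zero ρ).mpr hQ
  · rw [← hΘ, ← hΘ, ← map_mul, h]

include hΘ hρ in
theorem s36m_tr_red (f : s18g_O G) :
    s18g_red G' ⟨Θ (f : LaurentSeries K), s36m_tr_mem_O G G' Θ θ ρ hΘ hρ f.2⟩ =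
      ρ (s18g_red G f) := by
  obtain ⟨P, Q, hQ, h⟩ := f.2
  have hQ' : s18g_rho G' (θ Q) ≠ 0 := by
    rw [hρ]
    exact (map_ne_zero ρ).mpr hQ
  rw [s18g_red_eq G f P Q hQ h, s18g_red_eq G' _ (θ P) (θ Q) hQ'
    (by
      show s18g_iota G' (θ Q) * Θ (f : LaurentSeries K) = _
      rw [← hΘ, ← hΘ, ← map_mul, h]),
    hρ, hρ, map_div₀]

include hΘ in
theorem s36m_tr_mem_Frac (hθ : ∀ Q, Q ≠ 0 → θ Q ≠ 0) {f : LaurentSeries K}
    (hf : f ∈ s18g_Frac G) : Θ f ∈ s18g_Frac G' := by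
  obtain ⟨P, Q, hQ, h⟩ := hf
  exact ⟨θ P, θ Q, hθ Q hQ, by rw [← hΘ, ← hΘ, ← map_mul, h]⟩

include hΘ hρ in
/-- Converse: an element of the Gauss fraction field whose transport is integral is integral
(the transport of the uniformiser is a non-unit automatically). -/
theorem s36m_tr_mem_O_iff {f : LaurentSeries K} (hf : f ∈ s18g_Frac G) :
    Θ f ∈ s18g_O G' ↔ f ∈ s18g_O G := by
  refine ⟨fun h => ?_, s36m_tr_mem_O G G' Θ θ ρ hΘ hρ⟩
  by_cases hf0 : f = 0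
  · rw [hf0]; exact (s18g_O G).zero_mem
  obtain ⟨n, u, hu, hu', -, e⟩ := s18g_exists_zpow_mul G hf hf0
  have hϖO : (HahnSeries.C ((G.ϖ : G.A) : K) : LaurentSeries K) ∈ s18g_O G := s18g_C_mem_O G G.ϖ
  rcases le_or_gt 0 n with hn | hn
  · obtain ⟨k, rfl⟩ := Int.eq_ofNat_of_zero_le hn
    rw [e, zpow_natCast]
    exact (s18g_O G).mul_mem ((s18g_O G).pow_mem hϖO k) hu
  · exfalso
    obtain ⟨k, hk⟩ : ∃ k : ℕ, n = -((k : ℤ) + 1) := by
      refine ⟨(-n - 1).toNat, ?_⟩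
      rw [Int.toNat_of_nonneg (by omega)]
      ring
    set p : LaurentSeries K := HahnSeries.C ((G.ϖ : G.A) : K) with hp
    have hp0 : p ≠ 0 := s18g_C_unifK_ne_zero G
    have hu0 : u ≠ 0 := by
      rintro rfl
      exact hf0 (by rw [e, mul_zero])
    -- `Θ p ^ (k+1) * Θ f = Θ u`
    have e1 : p ^ (k + 1) * f = u := by
      rw [e, hk, zpow_neg, ← zpow_natCast p (k + 1), ← mul_assoc]
      have : p ^ (((k + 1 : ℕ) : ℤ)) * (p ^ ((k : ℤ) + 1))⁻¹ = 1 := by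
        push_cast
        exact mul_inv_cancel₀ (zpow_ne_zero _ hp0)
      rw [this, one_mul]
    -- in `O'`: `Θ u` is a unit but `Θ p ^ (k+1) * Θ f` has zero reduction
    have hpO' : Θ p ∈ s18g_O G' := s36m_tr_mem_O G G' Θ θ ρ hΘ hρ hϖO
    have hredp : s18g_red G' ⟨Θ p, hpO'⟩ = 0 := by
      have := s36m_tr_red G G' Θ θ ρ hΘ hρ ⟨p, hϖO⟩
      rw [this]
      have h0 : s18g_red G ⟨p, hϖO⟩ = 0 := s18g_red_unifO G
      rw [h0, map_zero]
    have huO' : Θ u ∈ s18g_O G' := s36m_tr_mem_O G G' Θ θ ρ hΘ hρ hu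
    have hu'O' : Θ u⁻¹ ∈ s18g_O G' := s36m_tr_mem_O G G' Θ θ ρ hΘ hρ hu'
    have hmul : (⟨Θ p, hpO'⟩ : s18g_O G') ^ (k + 1) * ⟨Θ f, h⟩ * ⟨Θ u⁻¹, hu'O'⟩ = 1 := by
      apply Subtype.ext
      show Θ p ^ (k + 1) * Θ f * Θ u⁻¹ = 1
      rw [← map_pow, ← map_mul, ← map_mul, e1, mul_inv_cancel₀ hu0, map_one]
    have := congrArg (s18g_red G') hmul
    rw [map_mul, map_mul, map_pow, hredp, zero_pow (Nat.succ_ne_zero k), zero_mul, zero_mul,
      map_one] at this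
    exact zero_ne_one this

end Transport

/-! ### Instance 1: base change -/

section BaseChange

variable {K K' : Type*} [Field K] [Field K'] {κ : Type*} [Field κ]
  (G : s18g_GaussData K κ) (G' : s18g_GaussData K' κ) (ψ : K →+* K')
  (hA : ∀ a : K, a ∈ G.A → ψ a ∈ G'.A)
  (hπ : ∀ (a : K) (h : a ∈ G.A), G'.π ⟨ψ a, hA a h⟩ = G.π ⟨a, h⟩)

/-- `ψ` restricted to the valuation rings. -/
def s36m_bcA : G.A →+* G'.A where
  toFun a := ⟨ψ (a : K), hA a a.2⟩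
  map_one' := Subtype.ext (map_one ψ)
  map_mul' a b := Subtype.ext (map_mul ψ (a : K) (b : K))
  map_zero' := Subtype.ext (map_zero ψ)
  map_add' a b := Subtype.ext (map_add ψ (a : K) (b : K))

theorem s36m_bc_iota (P : LaurentSeries G.A) :
    coeffMap ψ (s18g_iota G P) = s18g_iota G' (coeffMap (s36m_bcA G G' ψ hA) P) := by
  ext n
  rfl

include hπ in
theorem s36m_bc_rho (P : LaurentSeries G.A) :
    s18g_rho G' (coeffMap (s36m_bcA G G' ψ hA) P) = RingHom.id _ (s18g_rho G P) := by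
  ext n
  show G'.π ⟨ψ (P.coeff n), _⟩ = G.π (P.coeff n)
  exact hπ _ (P.coeff n).2

include hπ in
theorem s36m_bc_mem_O {f : LaurentSeries K} (hf : f ∈ s18g_O G) : coeffMap ψ f ∈ s18g_O G' :=
  s36m_tr_mem_O G G' (coeffMap ψ) (coeffMap (s36m_bcA G G' ψ hA)) (RingHom.id _)
    (s36m_bc_iota G G' ψ hA) (s36m_bc_rho G G' ψ hA hπ) hf

include hπ in
theorem s36m_bc_mem_O_iff {f : LaurentSeries K} (hf : f ∈ s18g_Frac G) :
    coeffMap ψ f ∈ s18g_O G' ↔ f ∈ s18g_O G :=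
  s36m_tr_mem_O_iff G G' (coeffMap ψ) (coeffMap (s36m_bcA G G' ψ hA)) (RingHom.id _)
    (s36m_bc_iota G G' ψ hA) (s36m_bc_rho G G' ψ hA hπ) hf

include hπ in
theorem s36m_bc_red (f : s18g_O G) :
    s18g_red G' ⟨coeffMap ψ (f : LaurentSeries K), s36m_bc_mem_O G G' ψ hA hπ f.2⟩ =
      s18g_red G f :=
  s36m_tr_red G G' (coeffMap ψ) (coeffMap (s36m_bcA G G' ψ hA)) (RingHom.id _)
    (s36m_bc_iota G G' ψ hA) (s36m_bc_rho G G' ψ hA hπ) f

include hA in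
theorem s36m_bc_mem_Frac {f : LaurentSeries K} (hf : f ∈ s18g_Frac G) :
    coeffMap ψ f ∈ s18g_Frac G' := by
  refine s36m_tr_mem_Frac G G' (coeffMap ψ) (coeffMap (s36m_bcA G G' ψ hA))
    (s36m_bc_iota G G' ψ hA) (fun Q hQ h0 => hQ ?_) hf
  ext n
  have := congrArg (fun x => x.coeff n) h0
  simp only [coeffMap_coeff, HahnSeries.coeff_zero] at this
  have h1 : ψ ((Q.coeff n : G.A) : K) = 0 := congrArg Subtype.val this
  have h2 : ((Q.coeff n : G.A) : K) = 0 := (map_eq_zero ψ).mp h1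
  rw [HahnSeries.coeff_zero]
  exact h2.trans (ZeroMemClass.coe_zero G.A).symm

end BaseChange

/-! ### Instance 2: the twist -/

section Twist

variable {K : Type*} [Field K] {κ : Type*} [Field κ] (G : s18g_GaussData K κ)
  (ξ : Kˣ) (hξ : (ξ : K) ∈ G.A) (hξ' : ((ξ⁻¹ : Kˣ) : K) ∈ G.A)

/-- `ξ` as a unit of the valuation ring. -/
def s36m_unitA : (G.A)ˣ where
  val := ⟨(ξ : K), hξ⟩
  inv := ⟨((ξ⁻¹ : Kˣ) : K), hξ'⟩
  val_inv := Subtype.ext (by simp)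
  inv_val := Subtype.ext (by simp)

theorem s36m_tw_iota (P : LaurentSeries G.A) :
    s36m_twist ξ (s18g_iota G P) = s18g_iota G (s36m_twist (s36m_unitA G ξ hξ hξ') P) := by
  have h := s36m_coeffMap_twist G.A.subtype (s36m_unitA G ξ hξ hξ') P
  have e : Units.map (G.A.subtype : G.A →* K) (s36m_unitA G ξ hξ hξ') = ξ := Units.ext rfl
  rw [e] at h
  exact h.symm

variable (hπξ : G.π ⟨(ξ : K), hξ⟩ = 1)

include hπξ in
theorem s36m_tw_rho (P : LaurentSeries G.A) :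
    s18g_rho G (s36m_twist (s36m_unitA G ξ hξ hξ') P) = RingHom.id _ (s18g_rho G P) := by
  have h := s36m_coeffMap_twist G.π (s36m_unitA G ξ hξ hξ') P
  have e : Units.map (G.π : G.A →* κ) (s36m_unitA G ξ hξ hξ') = 1 := Units.ext hπξ
  rw [e, s36m_twist_one] at h
  exact h

include hξ hξ' hπξ in
theorem s36m_tw_mem_O {f : LaurentSeries K} (hf : f ∈ s18g_O G) : s36m_twist ξ f ∈ s18g_O G :=
  s36m_tr_mem_O G G (s36m_twist ξ) (s36m_twist (s36m_unitA G ξ hξ hξ')) (RingHom.id _)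
    (s36m_tw_iota G ξ hξ hξ') (s36m_tw_rho G ξ hξ hξ' hπξ) hf

include hπξ in
theorem s36m_tw_red (f : s18g_O G) :
    s18g_red G ⟨s36m_twist ξ (f : LaurentSeries K), s36m_tw_mem_O G ξ hξ hξ' hπξ f.2⟩ =
      s18g_red G f :=
  s36m_tr_red G G (s36m_twist ξ) (s36m_twist (s36m_unitA G ξ hξ hξ')) (RingHom.id _)
    (s36m_tw_iota G ξ hξ hξ') (s36m_tw_rho G ξ hξ hξ' hπξ) f

include hξ hξ' in
theorem s36m_tw_mem_Frac {f : LaurentSeries K} (hf : f ∈ s18g_Frac G) :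
    s36m_twist ξ f ∈ s18g_Frac G :=
  s36m_tr_mem_Frac G G (s36m_twist ξ) (s36m_twist (s36m_unitA G ξ hξ hξ'))
    (s36m_tw_iota G ξ hξ hξ')
    (fun Q hQ h0 => hQ (s36m_twist_injective _ (by rw [h0, map_zero]))) hf

include hξ hξ' hπξ in
theorem s36m_tw_mem_O_iff {f : LaurentSeries K} (hf : f ∈ s18g_Frac G) :
    s36m_twist ξ f ∈ s18g_O G ↔ f ∈ s18g_O G :=
  s36m_tr_mem_O_iff G G (s36m_twist ξ) (s36m_twist (s36m_unitA G ξ hξ hξ')) (RingHom.id _)
    (s36m_tw_iota G ξ hξ hξ') (s36m_tw_rho G ξ hξ hξ' hπξ) hf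

end Twist

end Fermat.Agent.Lib.S36
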