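/-
S36 project, valuation package (M), piece (D1) (helper1 for helper6, prefix `s36w_`): **THE OUTER
VALUATION RINGS `V 0 = V_∞`, `V 2 = V_0` OF LEVEL `M q²`.**

`F₁ = s34m_F K₀ (M q)`, `F₂ = s34m_F K₀ (M q q)`, `α' = s36g_alpha M q`, `β' = s36g_beta M q`,
`w₂ = s36m_al2 φ M q hq hqM` (Atkin–Lehner `w_{q²}`), `V0 := s34m_Vinf G (M q q)` (Gauss valuation at
`∞`), `s36w_V2 := V0.comap w₂`.

* generic (any level `N`): `s36w_unif_mem_nonunits`, `s36w_mem_nonunits_iff` (non-units `= ϖ V_∞`),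
  `s36w_redInf_eq_zero_iff` (kernel of the reduction `=` non-units);
* (O1) `s36w_V0_comap_alpha`, `s36w_V0_comap_beta`, `s36w_V2_comap_alpha`, `s36w_V2_comap_beta`
  (clauses 2, 3, 6, 7 of `s36g_ValComap`);
* (O2) (H3) for `V0` and `s36w_V2`;
* (O3) `s36w_red2 : s36w_V2 →+* κ((T))`, kernels, the four formulas of `s36g_ValRed`;
* (O4) Galois stability (H8) of `V0`, `s36w_V2`;
* (O5) `s36w_Vinf_ne_Vzero`, `s36w_indep_of_comap`.
-/
import Fermat.Agent.Lib.S36.MAlQ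
import Fermat.Agent.Lib.S36.GeoFrame
import Fermat.Agent.Lib.S36.MGaussMap
import Fermat.Agent.Lib.S36.MGal
import Fermat.Agent.Lib.S34.DFibreF

set_option autoImplicit false
set_option linter.unusedSectionVars false
set_option linter.style.haveILetI false

noncomputable section

namespace Fermat.Agent.Lib.S36

open ModularCurve AlgebraicCurve HahnSeries Fermat.Agent.Lib.FF Fermat.Agent.Lib.S18
  Fermat.Agent.Lib.S37 Fermat.Agent.Lib.S34

local notation "Kb" => AlgebraicClosure ℚ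

variable {K₀ : Type} [Field K₀] [Algebra ℚ K₀] {κ : Type} [Field κ] (G : s18g_GaussData K₀ κ)
  (φ : K₀ →+* Kb) (M q : ℕ) [NeZero M] [NeZero q] (hq : q.Prime) (hqM : ¬ q ∣ M)

/-! ### Generic facts on the Gauss ring of level `N` -/

section Generic

variable (N : ℕ) [NeZero N]

/-- the reduction of the uniformiser vanishes. -/
theorem s36w_redInf_unif :
    s34m_redInf G N ⟨s34m_unif G N, s34m_unif_mem_Vinf G N⟩ = 0 :=
  (s34m_redInf_eq_zero_iff G N _).mpr ⟨1, (s34m_Vinf G N).one_mem, (mul_one _).symm⟩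

/-- `ϖ` is a non-unit of `V_∞`. -/
theorem s36w_unif_mem_nonunits : s34m_unif G N ∈ (s34m_Vinf G N).nonunits := by
  rw [ValuationSubring.mem_nonunits_iff_or]
  right
  intro hinv
  have h1 : (⟨s34m_unif G N, s34m_unif_mem_Vinf G N⟩ : s34m_Vinf G N) * ⟨_, hinv⟩ = 1 :=
    Subtype.ext (mul_inv_cancel₀ (s34m_unif_ne_zero G N))
  have h2 := congrArg (s34m_redInf G N) h1
  rw [map_mul, s36w_redInf_unif, zero_mul, map_one] at h2
  exact zero_ne_one h2

/-- **the non-units of `V_∞` are `ϖ V_∞`.** -/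
theorem s36w_mem_nonunits_iff (y : s34m_F K₀ N) :
    y ∈ (s34m_Vinf G N).nonunits ↔ ∃ z ∈ s34m_Vinf G N, y = s34m_unif G N * z := by
  constructor
  · intro hy
    by_cases hy0 : y = 0
    · exact ⟨0, (s34m_Vinf G N).zero_mem, by rw [hy0, mul_zero]⟩
    obtain ⟨n, u, hu, hu', e⟩ := s34m_exists_zpow_Vinf G N y hy0
    have hϖ0 := s34m_unif_ne_zero G N
    have hn : 1 ≤ n := by
      by_contra hlt
      have hle : n ≤ 0 := by omega
      rcases ((s34m_Vinf G N).mem_nonunits_iff_or).mp hy with h | h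
      · exact hy0 h
      · apply h
        have : y⁻¹ = s34m_unif G N ^ (-n).toNat * u⁻¹ := by
          rw [e, mul_inv, ← zpow_neg, ← zpow_natCast, Int.toNat_of_nonneg (by omega)]
        rw [this]
        exact (s34m_Vinf G N).mul_mem _ _
          ((s34m_Vinf G N).pow_mem (s34m_unif_mem_Vinf G N) _) hu'
    refine ⟨s34m_unif G N ^ (n - 1).toNat * u, (s34m_Vinf G N).mul_mem _ _
      ((s34m_Vinf G N).pow_mem (s34m_unif_mem_Vinf G N) _) hu, ?_⟩
    rw [e, ← mul_assoc, ← zpow_natCast, Int.toNat_of_nonneg (by omega), ← zpow_one_add₀ hϖ0]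
    congr 2
    ring
  · rintro ⟨z, hz, rfl⟩
    rw [ValuationSubring.mem_nonunits_iff, map_mul]
    exact mul_lt_one_of_nonneg_of_lt_one_left zero_le
      ((s34m_Vinf G N).mem_nonunits_iff.mp (s36w_unif_mem_nonunits G N))
      (((s34m_Vinf G N).valuation_le_one_iff z).mpr hz)

/-- **the kernel of `red_∞` is the set of non-units.** -/
theorem s36w_redInf_eq_zero_iff (y : s34m_Vinf G N) :
    s34m_redInf G N y = 0 ↔ (y : s34m_F K₀ N) ∈ (s34m_Vinf G N).nonunits := by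
  rw [s34m_redInf_eq_zero_iff, s36w_mem_nonunits_iff]

end Generic

/-! ### (O1) the four comaps -/

theorem s36w_coe_alpha (x : s34m_F K₀ (M * q)) :
    ((s36g_alpha M q x : s34m_F K₀ (M * q * q)) : LaurentSeries K₀) = (x : LaurentSeries K₀) :=
  coe_heckeAlphaBar (M * q) q x

theorem s36w_coe_beta (x : s34m_F K₀ (M * q)) :
    ((s36g_beta M q x : s34m_F K₀ (M * q * q)) : LaurentSeries K₀) =
      qExpand K₀ q (x : LaurentSeries K₀) :=
  coe_heckeBetaBar (M * q) q x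

/-- **`V0.comap α' = V'_∞`** (clause 2 of `s36g_ValComap`). -/
theorem s36w_V0_comap_alpha :
    (s34m_Vinf G (M * q * q)).comap (s36g_alpha M q) = s34m_Vinf G (M * q) := by
  ext x
  rw [ValuationSubring.mem_comap, s34m_mem_Vinf, s34m_mem_Vinf, s36w_coe_alpha]

/-- **`V0.comap β' = V'_∞`** (clause 3 of `s36g_ValComap`): `f(T^q)` Gauss-integral iff `f` is. -/
theorem s36w_V0_comap_beta :
    (s34m_Vinf G (M * q * q)).comap (s36g_beta M q) = s34m_Vinf G (M * q) := by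
  ext x
  rw [ValuationSubring.mem_comap, s34m_mem_Vinf, s34m_mem_Vinf, s36w_coe_beta]
  exact s36m_tr_mem_O_iff G G (qExpand K₀ q) (qExpand G.A q) (qExpand κ q)
    (fun P => (s34m_iota_qExpand G q P).symm) (fun P => s34m_rho_qExpand G q P)
    (s34m_hF G (M * q) _ x.2)

/-- **`V_0` of level `M q²`**: the Atkin–Lehner transform (`w_{q²}`) of the Gauss valuation. -/
def s36w_V2 : ValuationSubring (s34m_F K₀ (M * q * q)) :=
  (s34m_Vinf G (M * q * q)).comap ((s36m_al2 φ M q hq hqM).toRingEquiv : _ →+* _)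

theorem s36w_mem_V2 (y : s34m_F K₀ (M * q * q)) :
    y ∈ s36w_V2 G φ M q hq hqM ↔ s36m_al2 φ M q hq hqM y ∈ s34m_Vinf G (M * q * q) := Iff.rfl

theorem s36w_al2_mem_V2_iff (y : s34m_F K₀ (M * q * q)) :
    s36m_al2 φ M q hq hqM y ∈ s36w_V2 G φ M q hq hqM ↔ y ∈ s34m_Vinf G (M * q * q) := by
  rw [s36w_mem_V2, s36m_al2_al2]

theorem s36w_al2_unif :
    s36m_al2 φ M q hq hqM (s34m_unif G (M * q * q)) = s34m_unif G (M * q * q) :=
  (s36m_al2 φ M q hq hqM).commutes _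

/-- **`V2.comap α' = V'_0`** (clause 6 of `s36g_ValComap`). -/
theorem s36w_V2_comap_alpha :
    (s36w_V2 G φ M q hq hqM).comap (s36g_alpha M q) = s34m_Vzero G φ M q hq hqM := by
  ext x
  rw [ValuationSubring.mem_comap, s36w_mem_V2, s34m_mem_Vzero]
  have e : s36m_al2 φ M q hq hqM (s36g_alpha M q x) =
      s36g_beta M q (s34m_al φ M q hq hqM x) := s36m_al2_alpha φ M q hq hqM x
  rw [e, ← s36w_V0_comap_beta G M q, ValuationSubring.mem_comap]

/-- **`V2.comap β' = V'_0`** (clause 7 of `s36g_ValComap`). -/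
theorem s36w_V2_comap_beta :
    (s36w_V2 G φ M q hq hqM).comap (s36g_beta M q) = s34m_Vzero G φ M q hq hqM := by
  ext x
  rw [ValuationSubring.mem_comap, s36w_mem_V2, s34m_mem_Vzero]
  have e : s36m_al2 φ M q hq hqM (s36g_beta M q x) =
      s36g_alpha M q (s34m_al φ M q hq hqM x) := s36m_al2_beta φ M q hq hqM x
  rw [e, ← s36w_V0_comap_alpha G M q, ValuationSubring.mem_comap]

/-! ### (O2) the discrete valuation structure (H3) -/

/-- non-units of `V2` are the `w₂`-transforms of the non-units of `V0`. -/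
theorem s36w_mem_V2_nonunits (y : s34m_F K₀ (M * q * q)) :
    y ∈ (s36w_V2 G φ M q hq hqM).nonunits ↔
      s36m_al2 φ M q hq hqM y ∈ (s34m_Vinf G (M * q * q)).nonunits := by
  rw [ValuationSubring.mem_nonunits_iff_or, ValuationSubring.mem_nonunits_iff_or, s36w_mem_V2,
    map_inv₀, map_eq_zero]

/-- (H3) for `V0`: `ϖ₂` is a non-unit. -/
theorem s36w_V0_unif : s34m_unif G (M * q * q) ∈ (s34m_Vinf G (M * q * q)).nonunits :=
  s36w_unif_mem_nonunits G (M * q * q)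

/-- (H3) for `V0`: the non-units are `ϖ₂ V0`. -/
theorem s36w_V0_gen : ∀ y ∈ (s34m_Vinf G (M * q * q)).nonunits,
    ∃ z ∈ s34m_Vinf G (M * q * q), y = s34m_unif G (M * q * q) * z :=
  fun y hy => (s36w_mem_nonunits_iff G (M * q * q) y).mp hy

/-- (H3) for `V0`: rank one. -/
theorem s36w_V0_arch : ∀ y : s34m_F K₀ (M * q * q),
    ∃ k : ℕ, s34m_unif G (M * q * q) ^ k * y ∈ s34m_Vinf G (M * q * q) :=
  fun y => s34m_exists_pow_mul_mem G (M * q * q) y

/-- (H3) for `V2`: `ϖ₂` is a non-unit. -/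
theorem s36w_V2_unif : s34m_unif G (M * q * q) ∈ (s36w_V2 G φ M q hq hqM).nonunits := by
  rw [s36w_mem_V2_nonunits, s36w_al2_unif]
  exact s36w_unif_mem_nonunits G (M * q * q)

/-- (H3) for `V2`: the non-units are `ϖ₂ V2`. -/
theorem s36w_V2_gen : ∀ y ∈ (s36w_V2 G φ M q hq hqM).nonunits,
    ∃ z ∈ s36w_V2 G φ M q hq hqM, y = s34m_unif G (M * q * q) * z := by
  intro y hy
  rw [s36w_mem_V2_nonunits] at hy
  obtain ⟨z, hz, e⟩ := (s36w_mem_nonunits_iff G (M * q * q) _).mp hy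
  refine ⟨s36m_al2 φ M q hq hqM z, (s36w_al2_mem_V2_iff G φ M q hq hqM z).mpr hz, ?_⟩
  have := congrArg (s36m_al2 φ M q hq hqM) e
  rw [s36m_al2_al2, map_mul, s36w_al2_unif] at this
  exact this

/-- (H3) for `V2`: rank one. -/
theorem s36w_V2_arch : ∀ y : s34m_F K₀ (M * q * q),
    ∃ k : ℕ, s34m_unif G (M * q * q) ^ k * y ∈ s36w_V2 G φ M q hq hqM := by
  intro y
  obtain ⟨k, hk⟩ := s34m_exists_pow_mul_mem G (M * q * q) (s36m_al2 φ M q hq hqM y)
  refine ⟨k, ?_⟩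
  rw [s36w_mem_V2, map_mul, map_pow, s36w_al2_unif]
  exact hk

/-! ### (O3) the reductions -/

/-- `w₂` as a ring homomorphism `V2 → V0`. -/
def s36w_alV2 : s36w_V2 G φ M q hq hqM →+* s34m_Vinf G (M * q * q) where
  toFun y := ⟨s36m_al2 φ M q hq hqM y, y.2⟩
  map_one' := Subtype.ext (map_one _)
  map_mul' _ _ := Subtype.ext (map_mul (s36m_al2 φ M q hq hqM) _ _)
  map_zero' := Subtype.ext (map_zero _)
  map_add' _ _ := Subtype.ext (map_add (s36m_al2 φ M q hq hqM) _ _)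

/-- **`red_2 := red_∞ ∘ w₂`**, the reduction of `V2`. -/
def s36w_red2 : s36w_V2 G φ M q hq hqM →+* LaurentSeries κ :=
  (s34m_redInf G (M * q * q)).comp (s36w_alV2 G φ M q hq hqM)

theorem s36w_red2_apply (y : s36w_V2 G φ M q hq hqM) :
    s36w_red2 G φ M q hq hqM y =
      s34m_redInf G (M * q * q) ⟨s36m_al2 φ M q hq hqM y, y.2⟩ := rfl

/-- the kernel of `red_0 = red_∞` of level `M q²` is the set of non-units of `V0`. -/
theorem s36w_red0_eq_zero_iff (y : s34m_Vinf G (M * q * q)) :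
    s34m_redInf G (M * q * q) y = 0 ↔
      (y : s34m_F K₀ (M * q * q)) ∈ (s34m_Vinf G (M * q * q)).nonunits :=
  s36w_redInf_eq_zero_iff G (M * q * q) y

/-- the kernel of `red_2` is the set of non-units of `V2`. -/
theorem s36w_red2_eq_zero_iff (y : s36w_V2 G φ M q hq hqM) :
    s36w_red2 G φ M q hq hqM y = 0 ↔
      (y : s34m_F K₀ (M * q * q)) ∈ (s36w_V2 G φ M q hq hqM).nonunits := by
  rw [s36w_red2_apply, s36w_redInf_eq_zero_iff, s36w_mem_V2_nonunits]

/-- `red_0 (α' x) = red_∞ x` (clause 2 of `s36g_ValRed`). -/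
theorem s36w_red0_alpha (x : s34m_Vinf G (M * q))
    (h : s36g_alpha M q x ∈ s34m_Vinf G (M * q * q)) :
    s34m_redInf G (M * q * q) ⟨_, h⟩ = s34m_redInf G (M * q) x :=
  s34m_redInf_alpha G (M * q) q x

/-- `red_0 (β' x) = (red_∞ x)(T^q)` (clause 3 of `s36g_ValRed`). -/
theorem s36w_red0_beta (x : s34m_Vinf G (M * q))
    (h : s36g_beta M q x ∈ s34m_Vinf G (M * q * q)) :
    s34m_redInf G (M * q * q) ⟨_, h⟩ = qExpand κ q (s34m_redInf G (M * q) x) :=
  s34m_redInf_beta G (M * q) q x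

/-- `red_2 (α' x) = (red_0 x)(T^q)` (clause 6 of `s36g_ValRed`). -/
theorem s36w_red2_alpha (x : s34m_Vzero G φ M q hq hqM)
    (h : s36g_alpha M q x ∈ s36w_V2 G φ M q hq hqM) :
    s36w_red2 G φ M q hq hqM ⟨_, h⟩ = qExpand κ q (s34m_redZero G φ M q hq hqM x) := by
  rw [s36w_red2_apply, s34m_redZero_apply,
    ← s34m_redInf_beta G (M * q) q ⟨s34m_al φ M q hq hqM x, x.2⟩]
  exact congrArg (s34m_redInf G (M * q * q)) (Subtype.ext (s36m_al2_alpha φ M q hq hqM x))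

/-- `red_2 (β' x) = red_0 x` (clause 7 of `s36g_ValRed`). -/
theorem s36w_red2_beta (x : s34m_Vzero G φ M q hq hqM)
    (h : s36g_beta M q x ∈ s36w_V2 G φ M q hq hqM) :
    s36w_red2 G φ M q hq hqM ⟨_, h⟩ = s34m_redZero G φ M q hq hqM x := by
  rw [s36w_red2_apply, s34m_redZero_apply,
    ← s34m_redInf_alpha G (M * q) q ⟨s34m_al φ M q hq hqM x, x.2⟩]
  exact congrArg (s34m_redInf G (M * q * q)) (Subtype.ext (s36m_al2_beta φ M q hq hqM x))

/-! ### (O4) Galois stability (H8) -/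

section Galois

variable (σ₀ : K₀ ≃ₐ[ℚ] K₀) (hσ : ∀ a : K₀, σ₀ a ∈ G.A ↔ a ∈ G.A)

include hσ in
/-- (H8) for `V0`. -/
theorem s36w_galois_V0 (y : s34m_F K₀ (M * q * q)) :
    arithmeticGalois (modularFunctionFieldFull (M * q * q)) σ₀ • y ∈ s34m_Vinf G (M * q * q) ↔
      y ∈ s34m_Vinf G (M * q * q) :=
  s36m_galois_smul_mem_Vinf_iff G σ₀ hσ (M * q * q) y

include hσ in
/-- (H8) for `V2`. -/
theorem s36w_galois_V2 (y : s34m_F K₀ (M * q * q)) :
    arithmeticGalois (modularFunctionFieldFull (M * q * q)) σ₀ • y ∈ s36w_V2 G φ M q hq hqM ↔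
      y ∈ s36w_V2 G φ M q hq hqM := by
  rw [s36w_mem_V2, s36w_mem_V2]
  have e : s36m_al2 φ M q hq hqM
      (arithmeticGalois (modularFunctionFieldFull (M * q * q)) σ₀ • y) =
      arithmeticRingAut (modularFunctionFieldFull (M * q * q)) σ₀ (s36m_al2 φ M q hq hqM y) :=
    s36m_al2_galois φ M q hq hqM σ₀ y
  rw [e]
  exact s36m_galois_mem_Vinf_iff G σ₀ hσ (M * q * q) _

end Galois

/-! ### (O5) `V'_∞ ≠ V'_0` and the independence of the three rings -/

section Indep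

variable [CharP κ q]

include hq hqM in
/-- **`V'_∞ ≠ V'_0`** at level `M q`: `x = j_q - j^q` is a non-unit of `V'_∞` (Kronecker) and a unit
of `V'_0` (orders). -/
theorem s36w_Vinf_ne_Vzero : s34m_Vinf G (M * q) ≠ s34m_Vzero G φ M q hq hqM := by
  intro heq
  have : Fact q.Prime := ⟨hq⟩
  set jM : s34m_Vinf G M := ⟨s18g_jF (K := K₀) M, s34m_jF_mem_Vinf G M⟩ with hjM
  set a : s34m_F K₀ (M * q) := heckeAlphaBar K₀ M q (s18g_jF (K := K₀) M) with ha
  set b : s34m_F K₀ (M * q) := heckeBetaBar K₀ M q (s18g_jF (K := K₀) M) with hb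
  have haI : a ∈ s34m_Vinf G (M * q) := s34m_alpha_mem_Vinf G M q jM.2
  have hbI : b ∈ s34m_Vinf G (M * q) := s34m_beta_mem_Vinf G M q jM.2
  have ha0 : a ∈ s34m_Vzero G φ M q hq hqM := s34m_alpha_mem_Vzero G φ M q hq hqM jM.2
  have hb0 : b ∈ s34m_Vzero G φ M q hq hqM := s34m_beta_mem_Vzero G φ M q hq hqM jM.2
  set J := jqModC κ with hJ
  have hJord : J.order = -1 := s18t_order_jqModC κ
  have hJ0 : J ≠ 0 := jqModC_ne_zero_of_nontrivial κ
  have hredJ : s34m_redInf G M jM = J := s34m_redInf_jF G M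
  have e1 : s34m_redInf G (M * q) ⟨a, haI⟩ = J := by
    rw [← hredJ]; exact s34m_redInf_alpha G M q jM
  have e2 : s34m_redInf G (M * q) ⟨b, hbI⟩ = qExpand κ q J := by
    rw [← hredJ]; exact s34m_redInf_beta G M q jM
  have e3 : s34m_redZero G φ M q hq hqM ⟨a, ha0⟩ = qExpand κ q J := by
    rw [← hredJ]; exact s34m_redZero_alpha G φ M q hq hqM jM
  have e4 : s34m_redZero G φ M q hq hqM ⟨b, hb0⟩ = J := by
    rw [← hredJ]; exact s34m_redZero_beta G φ M q hq hqM jM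
  set x : s34m_F K₀ (M * q) := b - a ^ q with hx
  have hxI : x ∈ s34m_Vinf G (M * q) := sub_mem hbI (pow_mem haI q)
  have hx0 : x ∈ s34m_Vzero G φ M q hq hqM := sub_mem hb0 (pow_mem ha0 q)
  have hredI : s34m_redInf G (M * q) ⟨x, hxI⟩ = 0 := by
    have e : (⟨x, hxI⟩ : s34m_Vinf G (M * q)) = ⟨b, hbI⟩ - ⟨a, haI⟩ ^ q := Subtype.ext rfl
    rw [e, map_sub, map_pow, e1, e2, s34df_qExpand_jqModC q hq, sub_self]
  have hred0 : s34m_redZero G φ M q hq hqM ⟨x, hx0⟩ ≠ 0 := by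
    have e : (⟨x, hx0⟩ : s34m_Vzero G φ M q hq hqM) = ⟨b, hb0⟩ - ⟨a, ha0⟩ ^ q := Subtype.ext rfl
    rw [e, map_sub, map_pow, e3, e4]
    intro h
    have h1 : J = qExpand κ q J ^ q := sub_eq_zero.mp h
    have h2 := congrArg HahnSeries.order h1
    rw [HahnSeries.order_pow, s34x_order_qExpand q hJ0, hJord] at h2
    have hq2 : (2 : ℤ) ≤ (q : ℤ) := by exact_mod_cast hq.two_le
    simp only [nsmul_eq_mul] at h2
    nlinarith
  have hxnu : x ∈ (s34m_Vinf G (M * q)).nonunits :=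
    (s36w_redInf_eq_zero_iff G (M * q) ⟨x, hxI⟩).mp hredI
  have hwx : s34m_al φ M q hq hqM x ∉ (s34m_Vinf G (M * q)).nonunits := by
    intro h
    apply hred0
    rw [s34m_redZero_apply]
    exact (s36w_redInf_eq_zero_iff G (M * q) ⟨_, hx0⟩).mpr h
  rw [ValuationSubring.mem_nonunits_iff_or, not_or, not_not] at hwx
  obtain ⟨hwx0, hwxinv⟩ := hwx
  have hxne : x ≠ 0 := fun h => hwx0 (by rw [h, map_zero])
  have hxinv0 : x⁻¹ ∈ s34m_Vzero G φ M q hq hqM := by
    rw [s34m_mem_Vzero, map_inv₀]; exact hwxinv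
  rcases ((s34m_Vinf G (M * q)).mem_nonunits_iff_or).mp hxnu with h | h
  · exact hxne h
  · apply h
    rw [heq]
    exact hxinv0

include hq hqM in
/-- **(H9) from (H1)+(H2)**: the three rings are pairwise different, each pair being separated by a
comap. -/
theorem s36w_indep_of_comap (V : Fin 3 → ValuationSubring (s34m_F K₀ (M * q * q)))
    (hC : s36g_ValComap G φ M q hq hqM V) : s36g_ValIndep M q V := by
  obtain ⟨-, h0α, h0β, h1α, h1β, h2α, -⟩ := hC
  have hne := s36w_Vinf_ne_Vzero G φ M q hq hqM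
  refine ⟨fun h => hne ?_, fun h => hne ?_, fun h => hne ?_⟩
  · rw [← h0β, ← h1β, h]
  · rw [← h0α, ← h2α, h]
  · rw [← h1α, ← h2α, h]

end Indep

end Fermat.Agent.Lib.S36
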