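/-
S36 mega-project, layer (Q)/(R) common leaf (lead, prefix `s36qf_`): **(FRAC), instantiation.**

Level `M q`: `O₁ = s34m_VV G φ M q hq hqM` (`true ↦ V'_∞`, `false ↦ V'_0`), base function
`w₁ = α x` (`x ∈ V_M` with transcendental reduction: `x = j, t₂, t₃`), `B₁ = chart 1 of w₁`.

* `s36qf_unit_inf`, `s36qf_unit_zero` : `s(w₁)` is a unit of `V'_∞`, `V'_0` for `s mod ϖ ≠ 0`;
* `s36qf_approx_VV`  : approximation of an element of `V'_i` by an element of `V'_∞ ⊓ V'_0`;
* `s36qf_frac_VV`    : (F1) every `r ∈ V'_i` is a fraction of elements of `B₁` modulo `𝔪(V'_i)`;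
* `s36qf_frac_alpha0/_alpha1/_beta1/_beta2` : the four `s36q_Frac` for a valuation package;
* `s36qf_fracq_alpha2/_beta0` : the two purely inseparable versions.
-/
import Fermat.Agent.Lib.S36.QFracAbs
import Fermat.Agent.Lib.S36.GApprox
import Fermat.Agent.Lib.S36.GeoFrame
import Fermat.Agent.Lib.S36.REisUnit
import Fermat.Agent.Lib.S36.WOuter
import Fermat.Agent.Lib.S36.GRootInst
import Fermat.Agent.Lib.S36.QTriple2
import Fermat.Agent.Lib.S35.Geo

set_option autoImplicit false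
set_option linter.unusedSectionVars false
set_option linter.style.haveILetI false

noncomputable section

namespace Fermat.Agent.Lib.S36

open Polynomial ModularCurve AlgebraicCurve HahnSeries Fermat.Agent.Lib.FF Fermat.Agent.Lib.S18
  Fermat.Agent.Lib.S37 Fermat.Agent.Lib.S34 Fermat.Agent.Lib.S35

local notation "Kb" => AlgebraicClosure ℚ

variable {K₀ : Type} [Field K₀] [Algebra ℚ K₀] {κ : Type} [Field κ] (G : s18g_GaussData K₀ κ)
  (φ : K₀ →+* Kb) (M q : ℕ) [NeZero M] [NeZero q] (hq : q.Prime) (hqM : ¬ q ∣ M)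

/-! ### Units `s(w₁)` -/

/-- `s(w)` is a unit of `V_∞` of level `N` when the reduction of `w` is transcendental. -/
theorem s36qf_unit_Vinf (N : ℕ) [NeZero N] (w : s34m_F K₀ N) (hw : w ∈ s34m_Vinf G N)
    (htr : Transcendental κ (s34m_redInf G N ⟨w, hw⟩)) (s : G.A[X]) (hs : s.map G.π ≠ 0) :
    s18b_ev G (laurentBaseChange K₀ (modularFunctionFieldFull N)) w s ∉
      (s34m_Vinf G N).nonunits :=
  s36qf_ev_not_mem_nonunits G.A G.π (s34m_Vinf G N)
    (s18g_constV G (laurentBaseChange K₀ (modularFunctionFieldFull N)) (s34m_hF G N))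
    (fun _ => rfl) (s34m_redInf G N)
    (fun y hy => (s36w_redInf_eq_zero_iff G N y).mpr hy)
    (fun a => s18g_redV_constV G _ (s34m_hF G N) a) ⟨w, hw⟩ htr s hs

/-- transcendence is preserved by `T ↦ T^q`. -/
theorem s36qf_transcendental_qExpand (x : LaurentSeries κ) (htr : Transcendental κ x) :
    Transcendental κ (qExpand κ q x) := by
  rw [transcendental_iff] at htr ⊢
  intro p hp
  apply htr p
  have h1 : Polynomial.aeval (qExpandAlgHomC κ q x) p = qExpandAlgHomC κ q (Polynomial.aeval x p) :=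
    Polynomial.aeval_algHom_apply _ _ _
  rw [qExpandAlgHomC_apply, qExpandAlgHomC_apply, hp] at h1
  exact qExpand_injective q (by rw [← h1, map_zero])

variable (x : s34m_F K₀ M) (hx : x ∈ s34m_Vinf G M)

/-- `s(α x)` is a unit of `V'_∞`. -/
theorem s36qf_unit_inf (htr : Transcendental κ (s34m_redInf G M ⟨x, hx⟩)) (s : G.A[X])
    (hs : s.map G.π ≠ 0) :
    s18b_ev G (laurentBaseChange K₀ (modularFunctionFieldFull (M * q)))
      (heckeAlphaBar K₀ M q x) s ∉ (s34m_VV G φ M q hq hqM true).nonunits := by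
  refine s36qf_unit_Vinf G (M * q) _ (s34m_alpha_mem_Vinf G M q hx) ?_ s hs
  rw [s34m_redInf_alpha G M q ⟨x, hx⟩]
  exact htr

/-- `s(α x)` is a unit of `V'_0`. -/
theorem s36qf_unit_zero (htr : Transcendental κ (s34m_redInf G M ⟨x, hx⟩)) (s : G.A[X])
    (hs : s.map G.π ≠ 0) :
    s18b_ev G (laurentBaseChange K₀ (modularFunctionFieldFull (M * q)))
      (heckeAlphaBar K₀ M q x) s ∉ (s34m_VV G φ M q hq hqM false).nonunits := by
  -- transport by `w_q`: `w_q (s(α x)) = s(β x)`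
  intro hmem
  have hc := s36g_Vzero_comap G φ M q hq hqM
  have h1 : s34m_al φ M q hq hqM (s18b_ev G (laurentBaseChange K₀ (modularFunctionFieldFull (M * q)))
      (heckeAlphaBar K₀ M q x) s) ∈ (s34m_Vinf G (M * q)).nonunits :=
    (s36g_comap_nonunit _ hc).mp hmem
  have e : s34m_al φ M q hq hqM (s18b_ev G (laurentBaseChange K₀ (modularFunctionFieldFull (M * q)))
      (heckeAlphaBar K₀ M q x) s) =
      s18b_ev G (laurentBaseChange K₀ (modularFunctionFieldFull (M * q)))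
        (heckeBetaBar K₀ M q x) s := by
    rw [s18b_evA_apply, s18b_evA_apply, ← s34m_al_alpha φ M q hq hqM x]
    exact (Polynomial.aeval_algHom_apply (s34m_al φ M q hq hqM).toAlgHom _ _).symm
  rw [e] at h1
  refine s36qf_unit_Vinf G (M * q) _ (s34m_beta_mem_Vinf G M q hx) ?_ s hs h1
  rw [s34m_redInf_beta G M q ⟨x, hx⟩]
  exact s36qf_transcendental_qExpand q _ htr

/-! ### Approximation at level `M q` and (F1) -/

/-- `V'_∞` and `V'_0` are different, indexed form. -/
theorem s36qf_VV_ne [CharP κ q] (i j : Bool) (hij : i ≠ j) :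
    s34m_VV G φ M q hq hqM i ≠ s34m_VV G φ M q hq hqM j := by
  cases i <;> cases j
  · exact absurd rfl hij
  · exact (s36w_Vinf_ne_Vzero G φ M q hq hqM).symm
  · exact s36w_Vinf_ne_Vzero G φ M q hq hqM
  · exact absurd rfl hij

/-- every element of `V'_i` is congruent modulo `𝔪(V'_i)` to an element of `V'_∞ ⊓ V'_0`. -/
theorem s36qf_approx_VV [CharP κ q] (i : Bool) (r : s34m_F K₀ (M * q))
    (hr : r ∈ s34m_VV G φ M q hq hqM i) :
    ∃ r' ∈ s34x_infRing (s34m_VV G φ M q hq hqM),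
      r - r' ∈ (s34m_VV G φ M q hq hqM i).nonunits := by
  classical
  obtain ⟨y, hy⟩ := s36g_approx_fintype (s34m_VV G φ M q hq hqM)
    (s36e_arch_VV G φ M q hq hqM)
    (fun k => ⟨_, s36e_unif_mem_nonunits_VV G φ M q hq hqM k, s34m_unif_ne_zero G (M * q)⟩)
    (s36qf_VV_ne G φ M q hq hqM) (fun k => if k = i then r else 0)
    (fun k => by
      by_cases hk : k = i
      · subst hk; simpa using hr
      · simp only [hk, if_false]; exact (s34m_VV G φ M q hq hqM k).zero_mem)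
  have hyi : y - r ∈ (s34m_VV G φ M q hq hqM i).nonunits := by
    have := hy i
    simpa using this
  refine ⟨y, (s34x_mem_infRing _ y).mpr fun k => ?_, ?_⟩
  · by_cases hk : k = i
    · subst hk
      have h1 : y - r ∈ s34m_VV G φ M q hq hqM k := (s34m_VV G φ M q hq hqM k).nonunits_le hyi
      have : y = (y - r) + r := by ring
      rw [this]
      exact (s34m_VV G φ M q hq hqM k).add_mem _ _ h1 hr
    · have h1 := hy k
      simp only [hk, if_false, sub_zero] at h1
      exact (s34m_VV G φ M q hq hqM k).nonunits_le h1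
  · have : r - y = -(y - r) := by ring
    rw [this, ValuationSubring.mem_nonunits_iff, Valuation.map_neg]
    exact (ValuationSubring.mem_nonunits_iff (A := s34m_VV G φ M q hq hqM i)).mp hyi

variable [CharZero K₀] [IsDiscreteValuationRing G.A]

/-- **(F1)**: every `r ∈ V'_i` is, modulo `𝔪(V'_i)`, a fraction `b / c` of elements of the chart
ring of chart 1 of `w₁ = α x`, `c` a unit of `V'_i`. -/
theorem s36qf_frac_VV [CharP κ q] (hB : s35g_BaseData G φ M q hq hqM (heckeAlphaBar K₀ M q x))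
    (htr : Transcendental κ (s34m_redInf G M ⟨x, hx⟩)) (i : Bool)
    (r : s34m_F K₀ (M * q)) (hr : r ∈ s34m_VV G φ M q hq hqM i) :
    ∃ b c : s34x_ring (L₀ := K₀) (s34x_infRing (s34m_VV G φ M q hq hqM))
        (s18_chart1 (heckeAlphaBar K₀ M q x)),
      (c : s34m_F K₀ (M * q)) ∉ (s34m_VV G φ M q hq hqM i).nonunits ∧
      r * (c : s34m_F K₀ (M * q)) - (b : s34m_F K₀ (M * q)) ∈
        (s34m_VV G φ M q hq hqM i).nonunits := by
  obtain ⟨-, hgen, hwO, -, -, hα, -, -, -⟩ := hB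
  haveI := hgen
  refine s36qf_frac_level G (laurentBaseChange K₀ (modularFunctionFieldFull (M * q)))
    (heckeAlphaBar K₀ M q x) (s34m_VV G φ M q hq hqM) (s34c_const_mem_VV G φ M q hq hqM) hwO hα i
    ?_ (s36qf_approx_VV G φ M q hq hqM i) r hr
  cases i
  · exact s36qf_unit_zero G φ M q hq hqM x hx htr
  · exact s36qf_unit_inf G φ M q hq hqM x hx htr

/-! ### (F2): the six instances for a valuation package -/

variable (V : Fin 3 → ValuationSubring (s34m_F K₀ (M * q * q)))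

local notation "S₁x" => s18_chart1 (L₀ := K₀) (heckeAlphaBar K₀ M q x)

/-- (FRAC) for `V 0 | V'_∞` along `α'`. -/
theorem s36qf_frac_alpha0 [CharP κ q]
    (hB : s35g_BaseData G φ M q hq hqM (heckeAlphaBar K₀ M q x))
    (htr : Transcendental κ (s34m_redInf G M ⟨x, hx⟩))
    (hC : s36g_ValComap G φ M q hq hqM V) (hRes : s36g_ValRes G φ M q hq hqM V) :
    s36q_Frac (s34m_VV G φ M q hq hqM) V S₁x (s36g_alpha M q) true 0 :=
  s36qf_frac_of_res (s34m_VV G φ M q hq hqM) V S₁x (s36g_alpha M q) true 0 hC.2.1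
    (s36qf_frac_VV G φ M q hq hqM x hx hB htr true) hRes.1

/-- (FRAC) for `V 1 | V'_∞` along `α'`. -/
theorem s36qf_frac_alpha1 [CharP κ q]
    (hB : s35g_BaseData G φ M q hq hqM (heckeAlphaBar K₀ M q x))
    (htr : Transcendental κ (s34m_redInf G M ⟨x, hx⟩))
    (hC : s36g_ValComap G φ M q hq hqM V) (hRes : s36g_ValRes G φ M q hq hqM V) :
    s36q_Frac (s34m_VV G φ M q hq hqM) V S₁x (s36g_alpha M q) true 1 :=
  s36qf_frac_of_res (s34m_VV G φ M q hq hqM) V S₁x (s36g_alpha M q) true 1 hC.2.2.2.1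
    (s36qf_frac_VV G φ M q hq hqM x hx hB htr true) hRes.2.1

/-- (FRAC) for `V 1 | V'_0` along `β'`. -/
theorem s36qf_frac_beta1 [CharP κ q]
    (hB : s35g_BaseData G φ M q hq hqM (heckeAlphaBar K₀ M q x))
    (htr : Transcendental κ (s34m_redInf G M ⟨x, hx⟩))
    (hC : s36g_ValComap G φ M q hq hqM V) (hRes : s36g_ValRes G φ M q hq hqM V) :
    s36q_Frac (s34m_VV G φ M q hq hqM) V S₁x (s36g_beta M q) false 1 :=
  s36qf_frac_of_res (s34m_VV G φ M q hq hqM) V S₁x (s36g_beta M q) false 1 hC.2.2.2.2.1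
    (s36qf_frac_VV G φ M q hq hqM x hx hB htr false) hRes.2.2.1

/-- (FRAC) for `V 2 | V'_0` along `β'`. -/
theorem s36qf_frac_beta2 [CharP κ q]
    (hB : s35g_BaseData G φ M q hq hqM (heckeAlphaBar K₀ M q x))
    (htr : Transcendental κ (s34m_redInf G M ⟨x, hx⟩))
    (hC : s36g_ValComap G φ M q hq hqM V) (hRes : s36g_ValRes G φ M q hq hqM V) :
    s36q_Frac (s34m_VV G φ M q hq hqM) V S₁x (s36g_beta M q) false 2 :=
  s36qf_frac_of_res (s34m_VV G φ M q hq hqM) V S₁x (s36g_beta M q) false 2 hC.2.2.2.2.2.2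
    (s36qf_frac_VV G φ M q hq hqM x hx hB htr false) hRes.2.2.2.1

/-- (FRAC), purely inseparable, for `V 2 | V'_0` along `α'` (`hfracq` of `QFibre.lean`). -/
theorem s36qf_fracq_alpha2 [CharP κ q]
    (hB : s35g_BaseData G φ M q hq hqM (heckeAlphaBar K₀ M q x))
    (htr : Transcendental κ (s34m_redInf G M ⟨x, hx⟩))
    (hC : s36g_ValComap G φ M q hq hqM V) (hRes : s36g_ValRes G φ M q hq hqM V) :
    ∀ y ∈ V 2, ∃ b c : s34x_ring (L₀ := K₀) (s34x_infRing (s34m_VV G φ M q hq hqM)) S₁x,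
      (c : s34m_F K₀ (M * q)) ∉ (s34m_VV G φ M q hq hqM false).nonunits ∧
      y ^ q * s36g_alpha M q (c : s34m_F K₀ (M * q)) - s36g_alpha M q (b : s34m_F K₀ (M * q)) ∈
        (V 2).nonunits :=
  s36qf_fracq_of_res (s34m_VV G φ M q hq hqM) V S₁x (s36g_alpha M q) false 2 q hC.2.2.2.2.2.1
    (s36qf_frac_VV G φ M q hq hqM x hx hB htr false) hRes.2.2.2.2.1

/-- (FRAC), purely inseparable, for `V 0 | V'_∞` along `β'`. -/
theorem s36qf_fracq_beta0 [CharP κ q]
    (hB : s35g_BaseData G φ M q hq hqM (heckeAlphaBar K₀ M q x))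
    (htr : Transcendental κ (s34m_redInf G M ⟨x, hx⟩))
    (hC : s36g_ValComap G φ M q hq hqM V) (hRes : s36g_ValRes G φ M q hq hqM V) :
    ∀ y ∈ V 0, ∃ b c : s34x_ring (L₀ := K₀) (s34x_infRing (s34m_VV G φ M q hq hqM)) S₁x,
      (c : s34m_F K₀ (M * q)) ∉ (s34m_VV G φ M q hq hqM true).nonunits ∧
      y ^ q * s36g_beta M q (c : s34m_F K₀ (M * q)) - s36g_beta M q (b : s34m_F K₀ (M * q)) ∈
        (V 0).nonunits :=
  s36qf_fracq_of_res (s34m_VV G φ M q hq hqM) V S₁x (s36g_beta M q) true 0 q hC.2.2.1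
    (s36qf_frac_VV G φ M q hq hqM x hx hB htr true) hRes.2.2.2.2.2

end Fermat.Agent.Lib.S36
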