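/-
S36 mega-project, layer (X1) (helper1), part 9: **the regularity input (REG)** of helper5's
`s36q_cusp_hone` (`QCuspOne.lean`): for every `K₀`-place `Q` of the function field of level `M q²`
at which `w⁻¹` is regular (`w = α'(α x)`, the base function),
`α'(β x) · w⁻ᵠ` and `β'(β x) · w^{-q²}` are regular at `Q`,

* `s36b_reg_jF`  : for `x = j` (`s18g_jF M`);
* `s36b_reg_haupt` : for `x` of Hauptmodul type (`j tᵃ = P(t)`, `P` monic of degree `a + 1`);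
* `s36b_reg_t2`, `s36b_reg_t3` : for `x` with series `t₂` resp. `t₃`.

Ingredients: the modular relations `s36b_modRel_10/_21` between `j(z)`, `j(qz)`, `j(q²z)` of
`XCuspRel.lean` (integrality and the pole-order estimate [CT]), and for the Hauptmodul case the
observation that at a pole of `t` the function `j = P(t)/tᵃ` has a pole of the same order.
-/
import Fermat.Agent.Lib.S36.XCuspRel
import Fermat.Agent.Lib.S36.PSat

set_option autoImplicit false
set_option linter.unusedSectionVars false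

noncomputable section

namespace Fermat.Agent.Lib.S36

open Polynomial ModularCurve AlgebraicCurve Fermat.Agent.Lib.FF Fermat.Agent.Lib.S18
  Fermat.Agent.Lib.S28 Fermat.Agent.Lib.S37 Fermat.Agent.Lib.S34

local notation "Kb" => AlgebraicClosure ℚ

/-! ### Abstract part -/

section Abs

variable {K F : Type*} [Field K] [Field F] [Algebra K F]

theorem s36b_reg_id₁ {j t : F} (ht0 : t ≠ 0) (a : ℕ) : j * t⁻¹ * t ^ (a + 1) = j * t ^ a := by
  rw [pow_succ, mul_assoc, mul_comm (t ^ a) t, ← mul_assoc t⁻¹, inv_mul_cancel₀ ht0, one_mul]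

theorem s36b_reg_id₂ {x b c : F} (hc : c ≠ 0) (q : ℕ) :
    x * b⁻¹ ^ (q * q) = x * c⁻¹ ^ q * (c * b⁻¹ ^ q) ^ q := by
  rw [mul_pow, ← pow_mul, mul_assoc, ← mul_assoc (c⁻¹ ^ q), ← mul_pow,
    inv_mul_cancel₀ hc, one_pow, one_mul]

theorem s36b_reg_id₃ {t t' j j' : F} (hj : j ≠ 0) (hj' : j' ≠ 0) (n : ℕ) :
    t' * t⁻¹ ^ n = t' * j'⁻¹ * (j' * j⁻¹ ^ n) * (j * t⁻¹) ^ n := by
  rw [mul_pow, mul_assoc (t' * j'⁻¹), mul_assoc t', ← mul_assoc j'⁻¹, ← mul_assoc j'⁻¹,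
    inv_mul_cancel₀ hj', one_mul, ← mul_assoc (j⁻¹ ^ n), ← mul_pow,
    inv_mul_cancel₀ hj, one_pow, one_mul]

/-- `u ≡ 1` modulo the non-units of a valuation ring ⇒ `u` is a unit of it. -/
theorem s36b_unit_of_sub_one (A : ValuationSubring F) {u : F} (hu : u - 1 ∈ A.nonunits) :
    u ≠ 0 ∧ u ∈ A ∧ u⁻¹ ∈ A := by
  have h1 : A.valuation (u - 1) < 1 := A.mem_nonunits_iff.mp hu
  have h2 : A.valuation u = 1 := by
    have := A.valuation.map_one_add_of_lt h1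
    rwa [add_sub_cancel] at this
  refine ⟨?_, ?_, ?_⟩
  · rintro rfl
    rw [map_zero] at h2
    exact zero_ne_one h2
  · exact (A.valuation_le_one_iff _).mp h2.le
  · apply (A.valuation_le_one_iff _).mp
    rw [map_inv₀, h2, inv_one]

/-- at a pole of `t` the function `j = P(t)/tᵃ` (`P` monic of degree `a + 1`) has a pole of the same
order: `j t⁻¹` is a unit. -/
theorem s36b_haupt_pole (A : ValuationSubring F) (hA : ∀ c : K, algebraMap K F c ∈ A)
    (P : K[X]) (hP : P.Monic) (a : ℕ) (hdeg : P.natDegree = a + 1) (j t : F) (ht0 : t ≠ 0)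
    (r : j * t ^ a = aeval t P) (ht : t⁻¹ ∈ A.nonunits) :
    j ≠ 0 ∧ j * t⁻¹ ∈ A ∧ t * j⁻¹ ∈ A := by
  haveI : Invertible t := invertibleOfNonzero ht0
  have h1 : aeval t⁻¹ P.reverse * t ^ (a + 1) = aeval t P := by
    have := Polynomial.eval₂_reverse_mul_pow (algebraMap K F) t P
    rw [invOf_eq_inv, hdeg] at this
    exact this
  have hu : j * t⁻¹ = aeval t⁻¹ P.reverse := by
    have h2 : j * t⁻¹ * t ^ (a + 1) = aeval t⁻¹ P.reverse * t ^ (a + 1) := by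
      rw [h1, ← r]
      exact s36b_reg_id₁ ht0 a
    exact mul_right_cancel₀ (pow_ne_zero _ ht0) h2
  obtain ⟨B, hB⟩ : ∃ B : K[X], P.reverse = Polynomial.C 1 + X * B := by
    refine ⟨P.reverse.divX, ?_⟩
    conv_lhs => rw [← Polynomial.divX_mul_X_add P.reverse]
    rw [coeff_zero_reverse, hP.leadingCoeff]
    ring
  have hti : t⁻¹ ∈ A := A.nonunits_subset ht
  have hsub : j * t⁻¹ - 1 ∈ A.nonunits := by
    rw [hu, hB, map_add, aeval_C, map_one, map_mul, aeval_X, add_sub_cancel_left,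
      A.mem_nonunits_iff, map_mul]
    calc A.valuation t⁻¹ * A.valuation (aeval t⁻¹ B) ≤ A.valuation t⁻¹ * 1 :=
          mul_le_mul_right ((A.valuation_le_one_iff _).mpr (s36u_cusp_aeval_mem A hA _ hti B)) _
      _ = A.valuation t⁻¹ := mul_one _
      _ < 1 := A.mem_nonunits_iff.mp ht
  obtain ⟨hne, hmem, hinv⟩ := s36b_unit_of_sub_one A hsub
  have hj0 : j ≠ 0 := by
    rintro rfl
    exact hne (zero_mul _)
  refine ⟨hj0, hmem, ?_⟩
  have e : t * j⁻¹ = (j * t⁻¹)⁻¹ := by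
    rw [mul_inv_rev, inv_inv]
  rw [e]
  exact hinv

/-- **(REG), abstract Hauptmodul transfer**: from `j`, `j'` to `t`, `t'`. -/
theorem s36b_reg_haupt_abs (A : ValuationSubring F) (hA : ∀ c : K, algebraMap K F c ∈ A)
    (P : K[X]) (hP : P.Monic) (a : ℕ) (ha0 : 0 < a) (hdeg : P.natDegree = a + 1)
    (hP0 : P.coeff 0 ≠ 0) (j j' t t' : F) (ht0 : t ≠ 0) (ht'0 : t' ≠ 0)
    (r : j * t ^ a = aeval t P) (r' : j' * t' ^ a = aeval t' P) (n : ℕ)
    (hint : j ∈ A → j' ∈ A) (hreg : j⁻¹ ∈ A → j' * j⁻¹ ^ n ∈ A)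
    (ht : t⁻¹ ∈ A) : t' * t⁻¹ ^ n ∈ A := by
  have haD : a < P.natDegree := by rw [hdeg]; exact Nat.lt_succ_self a
  by_cases hu : t ∈ A
  · have hj : j ∈ A := s36p_j_mem_of_unit A hA P a j t ht0 r hu ht
    have ht' : t' ∈ A := (s36p_unit_of_haupt A hA P hP a ha0 haD hP0 j' t' ht'0 r' (hint hj)).1
    exact A.mul_mem _ _ ht' (A.toSubring.pow_mem ht n)
  · have htn : t⁻¹ ∈ A.nonunits := A.inv_mem_nonunits_iff.mpr (Or.inr hu)
    obtain ⟨hj0, h1, h2⟩ := s36b_haupt_pole A hA P hP a hdeg j t ht0 r htn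
    have hji : j⁻¹ ∈ A := by
      have e : j⁻¹ = t * j⁻¹ * t⁻¹ := by
        rw [mul_comm t, mul_assoc, mul_inv_cancel₀ ht0, mul_one]
      rw [e]
      exact A.mul_mem _ _ h2 ht
    have h3 := hreg hji
    by_cases hu' : t' ∈ A
    · exact A.mul_mem _ _ hu' (A.toSubring.pow_mem ht n)
    · have htn' : t'⁻¹ ∈ A.nonunits := A.inv_mem_nonunits_iff.mpr (Or.inr hu')
      obtain ⟨hj0', h1', h2'⟩ := s36b_haupt_pole A hA P hP a hdeg j' t' ht'0 r' htn'
      rw [s36b_reg_id₃ hj0 hj0' n]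
      exact A.mul_mem _ _ (A.mul_mem _ _ h2' h3) (A.toSubring.pow_mem h1 n)

end Abs

/-! ### The `j`-line at level `M q²` -/

section OverK

variable {K₀ : Type} [Field K₀] [Algebra ℚ K₀] (φ : K₀ →+* Kb)
  (M q : ℕ) [NeZero M] [NeZero q] (hq : q.Prime) (hqM : ¬ q ∣ M)

include φ in
/-- **transfer of the integrality part of a `Q̄`-relation to the places over `K₀`.** -/
theorem s36b_modRel_int_K (N : ℕ) [NeZero N] (x y : s34m_F K₀ N) (hx0 : x ≠ 0) (hy0 : y ≠ 0)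
    (hrel : s36b_ModRel Kb q (s34m_iota φ N x) (s34m_iota φ N y))
    (Q : Place K₀ (s34m_F K₀ N)) (hy : y ∈ Q.toValuationSubring) :
    x ∈ Q.toValuationSubring := by
  obtain ⟨ρ, hsurj, hord⟩ := s18r_exists_restrict φ N
  obtain ⟨P, rfl⟩ := hsurj Q
  set ι := s34m_iota φ N with hι
  have hιy0 : ι y ≠ 0 := (_root_.map_ne_zero ι).mpr hy0
  have hιx0 : ι x ≠ 0 := (_root_.map_ne_zero ι).mpr hx0
  have h1 : ι y ∈ P.toValuationSubring := by
    rw [ff_mem_iff_ord_nonneg P hιy0, hord]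
    exact (ff_mem_iff_ord_nonneg _ hy0).mp hy
  obtain ⟨Φ, hm, -, -, hΦ⟩ := hrel
  have h2 := s36p_mem_of_monic_rel P.toValuationSubring P.algebraMap_mem' Φ hm _ _ h1 hΦ
  rw [ff_mem_iff_ord_nonneg _ hx0, ← hord]
  exact (ff_mem_iff_ord_nonneg P hιx0).mp h2

variable (Q : Place K₀ (s34m_F K₀ (M * q * q)))

include φ hq hqM in
/-- `j₀` regular at `Q` ⇒ `j₁` regular at `Q`. -/
theorem s36b_cusp_int_10 (h : s36b_j0 (K₀ := K₀) M q ∈ Q.toValuationSubring) :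
    s36b_j1 (K₀ := K₀) M q ∈ Q.toValuationSubring :=
  s36b_modRel_int_K φ q (M * q * q) _ _ (s36b_j1_ne_zero M q) (s36b_j0_ne_zero M q)
    (by rw [s36b_iota_j0, s36b_iota_j1]; exact s36b_modRel_10 M q hq hqM) Q h

include φ hq hqM in
/-- `j₁` regular at `Q` ⇒ `j₂` regular at `Q`. -/
theorem s36b_cusp_int_21 (h : s36b_j1 (K₀ := K₀) M q ∈ Q.toValuationSubring) :
    s36b_j2 (K₀ := K₀) M q ∈ Q.toValuationSubring :=
  s36b_modRel_int_K φ q (M * q * q) _ _ (s36b_j2_ne_zero M q) (s36b_j1_ne_zero M q)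
    (by rw [s36b_iota_j2, s36b_iota_j1]; exact s36b_modRel_21 M q hq hqM) Q h

include φ hq hqM in
/-- `j₀` regular at `Q` ⇒ `j₂` regular at `Q`. -/
theorem s36b_cusp_int_20 (h : s36b_j0 (K₀ := K₀) M q ∈ Q.toValuationSubring) :
    s36b_j2 (K₀ := K₀) M q ∈ Q.toValuationSubring :=
  s36b_cusp_int_21 φ M q hq hqM Q (s36b_cusp_int_10 φ M q hq hqM Q h)

include φ hq hqM in
/-- `1/j₀` regular at `Q` ⇒ `j₂ / j₀^{q²}` regular at `Q`. -/
theorem s36b_cusp_reg_20 (h : (s36b_j0 (K₀ := K₀) M q)⁻¹ ∈ Q.toValuationSubring) :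
    s36b_j2 (K₀ := K₀) M q * (s36b_j0 (K₀ := K₀) M q)⁻¹ ^ (q * q) ∈ Q.toValuationSubring := by
  have h10 := s36b_cusp_reg_10 φ M q hq hqM Q h
  by_cases h1 : s36b_j1 (K₀ := K₀) M q ∈ Q.toValuationSubring
  · exact Q.toValuationSubring.mul_mem _ _ (s36b_cusp_int_21 φ M q hq hqM Q h1)
      (Q.toValuationSubring.toSubring.pow_mem h _)
  · have h1i : (s36b_j1 (K₀ := K₀) M q)⁻¹ ∈ Q.toValuationSubring :=
      (Q.toValuationSubring.mem_or_inv_mem _).resolve_left h1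
    have h21 := s36b_cusp_reg_21 φ M q hq hqM Q h1i
    rw [s36b_reg_id₂ (s36b_j1_ne_zero (K₀ := K₀) M q) q]
    exact Q.toValuationSubring.mul_mem _ _ h21 (Q.toValuationSubring.toSubring.pow_mem h10 q)

/-- `α'(α j) = j₀`. -/
theorem s36b_alpha_alpha_jF :
    s36g_alpha M q (heckeAlphaBar K₀ M q (s18g_jF (K := K₀) M)) = s36b_j0 (K₀ := K₀) M q := by
  rw [s34m_alpha_jF (K₀ := K₀) M q]
  exact (s36b_j0_eq M q).symm

include φ hq hqM in
/-- **(REG) for `x = j`.** -/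
theorem s36b_reg_jF
    (h : (s36g_alpha M q (heckeAlphaBar K₀ M q (s18g_jF (K := K₀) M)))⁻¹ ∈
      Q.toValuationSubring) :
    s36g_alpha M q (heckeBetaBar K₀ M q (s18g_jF (K := K₀) M)) *
        (s36g_alpha M q (heckeAlphaBar K₀ M q (s18g_jF (K := K₀) M)))⁻¹ ^ q ∈
          Q.toValuationSubring ∧
      s36g_beta M q (heckeBetaBar K₀ M q (s18g_jF (K := K₀) M)) *
        (s36g_alpha M q (heckeAlphaBar K₀ M q (s18g_jF (K := K₀) M)))⁻¹ ^ (q * q) ∈
          Q.toValuationSubring := by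
  rw [s36b_alpha_alpha_jF] at h ⊢
  exact ⟨s36b_cusp_reg_10 φ M q hq hqM Q h, s36b_cusp_reg_20 φ M q hq hqM Q h⟩

end OverK

/-! ### Base functions of Hauptmodul type -/

section Haupt

variable {K₀ : Type} [Field K₀] [Algebra ℚ K₀] (φ : K₀ →+* Kb)
  (M q : ℕ) [NeZero M] [NeZero q] (hq : q.Prime) (hqM : ¬ q ∣ M)

include φ hq hqM in
/-- **(REG) for a base function of Hauptmodul type**: `x` of level `M` with series `t`,
`j tᵃ = P(t)`, `P` monic of degree `a + 1`, `P(0) ≠ 0`. -/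
theorem s36b_reg_haupt (P : K₀[X]) (hP : P.Monic) (a : ℕ) (ha0 : 0 < a)
    (hdeg : P.natDegree = a + 1) (hP0 : P.coeff 0 ≠ 0) (t : LaurentSeries K₀) (ht0 : t ≠ 0)
    (hrel : jqModC K₀ * t ^ a = aeval t P)
    (x : s34m_F K₀ M) (hcoe : (x : LaurentSeries K₀) = t)
    (Q : Place K₀ (s34m_F K₀ (M * q * q)))
    (h : (s36g_alpha M q (heckeAlphaBar K₀ M q x))⁻¹ ∈ Q.toValuationSubring) :
    s36g_alpha M q (heckeBetaBar K₀ M q x) *
        (s36g_alpha M q (heckeAlphaBar K₀ M q x))⁻¹ ^ q ∈ Q.toValuationSubring ∧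
      s36g_beta M q (heckeBetaBar K₀ M q x) *
        (s36g_alpha M q (heckeAlphaBar K₀ M q x))⁻¹ ^ (q * q) ∈ Q.toValuationSubring := by
  have hx0 : x ≠ 0 := by
    rintro rfl
    exact ht0 hcoe.symm
  have hw0 : s36g_alpha M q (heckeAlphaBar K₀ M q x) ≠ 0 :=
    (_root_.map_ne_zero (s36g_alpha M q)).mpr
      ((_root_.map_ne_zero (heckeAlphaBar K₀ M q)).mpr hx0)
  have hA0 : s36g_alpha M q (heckeBetaBar K₀ M q x) ≠ 0 :=
    (_root_.map_ne_zero (s36g_alpha M q)).mpr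
      ((_root_.map_ne_zero (heckeBetaBar K₀ M q)).mpr hx0)
  have hB0 : s36g_beta M q (heckeBetaBar K₀ M q x) ≠ 0 :=
    (_root_.map_ne_zero (s36g_beta M q)).mpr
      ((_root_.map_ne_zero (heckeBetaBar K₀ M q)).mpr hx0)
  have hcw : ((s36g_alpha M q (heckeAlphaBar K₀ M q x) : s34m_F K₀ (M * q * q)) :
      LaurentSeries K₀) = t := by
    rw [← hcoe]
    exact (coe_heckeAlphaBar (M * q) q (heckeAlphaBar K₀ M q x)).trans (coe_heckeAlphaBar M q x)
  have rM : s18g_jF (K := K₀) M * x ^ a = aeval x P := s34e_cusp_rel_of_coe M P a t hrel x hcoe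
  have r₀ : s36b_j0 (K₀ := K₀) M q * (s36g_alpha M q (heckeAlphaBar K₀ M q x)) ^ a =
      aeval (s36g_alpha M q (heckeAlphaBar K₀ M q x)) P :=
    s34e_cusp_rel_of_coe (M * q * q) P a t hrel _ hcw
  have rβ : heckeBetaBar K₀ M q (s18g_jF (K := K₀) M) * (heckeBetaBar K₀ M q x) ^ a =
      aeval (heckeBetaBar K₀ M q x) P := by
    have h1 := congrArg (heckeBetaBar K₀ M q) rM
    rw [map_mul, map_pow, ← Polynomial.aeval_algHom_apply] at h1
    exact h1
  have r₁ : s36b_j1 (K₀ := K₀) M q * (s36g_alpha M q (heckeBetaBar K₀ M q x)) ^ a =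
      aeval (s36g_alpha M q (heckeBetaBar K₀ M q x)) P := by
    have h2 := congrArg (heckeAlphaBar K₀ (M * q) q) rβ
    rw [map_mul, map_pow, ← Polynomial.aeval_algHom_apply] at h2
    exact h2
  have r₂ : s36b_j2 (K₀ := K₀) M q * (s36g_beta M q (heckeBetaBar K₀ M q x)) ^ a =
      aeval (s36g_beta M q (heckeBetaBar K₀ M q x)) P := by
    have h2 := congrArg (heckeBetaBar K₀ (M * q) q) rβ
    rw [map_mul, map_pow, ← Polynomial.aeval_algHom_apply] at h2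
    exact h2
  exact ⟨s36b_reg_haupt_abs Q.toValuationSubring Q.algebraMap_mem' P hP a ha0 hdeg hP0
      (s36b_j0 (K₀ := K₀) M q) (s36b_j1 (K₀ := K₀) M q) _ _ hw0 hA0 r₀ r₁ q
      (s36b_cusp_int_10 φ M q hq hqM Q) (s36b_cusp_reg_10 φ M q hq hqM Q) h,
    s36b_reg_haupt_abs Q.toValuationSubring Q.algebraMap_mem' P hP a ha0 hdeg hP0
      (s36b_j0 (K₀ := K₀) M q) (s36b_j2 (K₀ := K₀) M q) _ _ hw0 hB0 r₀ r₂ (q * q)
      (s36b_cusp_int_20 φ M q hq hqM Q) (s36b_cusp_reg_20 φ M q hq hqM Q) h⟩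

variable [CharZero K₀]

include φ hq hqM in
/-- **(REG) for a base function with series `t₂`.** -/
theorem s36b_reg_t2 (x : s34m_F K₀ M) (hcoe : (x : LaurentSeries K₀) = s18u_t2 K₀)
    (Q : Place K₀ (s34m_F K₀ (M * q * q)))
    (h : (s36g_alpha M q (heckeAlphaBar K₀ M q x))⁻¹ ∈ Q.toValuationSubring) :
    s36g_alpha M q (heckeBetaBar K₀ M q x) *
        (s36g_alpha M q (heckeAlphaBar K₀ M q x))⁻¹ ^ q ∈ Q.toValuationSubring ∧
      s36g_beta M q (heckeBetaBar K₀ M q x) *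
        (s36g_alpha M q (heckeAlphaBar K₀ M q x))⁻¹ ^ (q * q) ∈ Q.toValuationSubring := by
  have hH := s18b_haupt_two K₀
  have hA0 : ((X + Polynomial.C (256 : K₀)) ^ 3 : K₀[X]).coeff 0 ≠ 0 := by
    rw [Polynomial.coeff_zero_eq_eval_zero]
    simp
  exact s36b_reg_haupt φ M q hq hqM _ hH.monic 2 (by norm_num) hH.deg hA0 (s18u_t2 K₀)
    (s18b_t2_ne_zero K₀) hH.rel x hcoe Q h

include φ hq hqM in
/-- **(REG) for a base function with series `t₃`.** -/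
theorem s36b_reg_t3 (x : s34m_F K₀ M) (hcoe : (x : LaurentSeries K₀) = s18u_t3 K₀)
    (Q : Place K₀ (s34m_F K₀ (M * q * q)))
    (h : (s36g_alpha M q (heckeAlphaBar K₀ M q x))⁻¹ ∈ Q.toValuationSubring) :
    s36g_alpha M q (heckeBetaBar K₀ M q x) *
        (s36g_alpha M q (heckeAlphaBar K₀ M q x))⁻¹ ^ q ∈ Q.toValuationSubring ∧
      s36g_beta M q (heckeBetaBar K₀ M q x) *
        (s36g_alpha M q (heckeAlphaBar K₀ M q x))⁻¹ ^ (q * q) ∈ Q.toValuationSubring := by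
  have hH := s18b_haupt_three K₀
  have hA0 : ((X + Polynomial.C (27 : K₀)) * (X + Polynomial.C (243 : K₀)) ^ 3 : K₀[X]).coeff 0
      ≠ 0 := by
    rw [Polynomial.coeff_zero_eq_eval_zero]
    simp
  exact s36b_reg_haupt φ M q hq hqM _ hH.monic 3 (by norm_num) hH.deg hA0 (s18u_t3 K₀)
    (s18b_t3_ne_zero K₀) hH.rel x hcoe Q h

end Haupt

end Fermat.Agent.Lib.S36
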