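/-
S36 mega-project, layer (M) (helper6), part 0: GENERIC DESCENT of a `Q̄`-algebra homomorphism
`w̄ : F̄(L) → F̄(L')` of modular function fields which maps every generator `j(q^d)`, `d ∣ L`, to an
element with RATIONAL `q`-expansion, along the coefficientwise base change `s18q_map φ`
(`φ : K₀ →+* Q̄`): there is a unique `K₀`-algebra homomorphism `w : F_{K₀}(L) → F_{K₀}(L')` with
`ι ∘ w = w̄ ∘ ι`; it commutes with the coefficientwise Galois action.
(Generalisation of the construction of `s34m_al` in Lib/S34/MValAL.)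
-/
import Fermat.Agent.Lib.S34.MValAL

set_option autoImplicit false

noncomputable section

namespace Fermat.Agent.Lib.S36

open ModularCurve AlgebraicCurve Fermat.Agent.Lib.FF Fermat.Agent.Lib.S18 Fermat.Agent.Lib.S28
  Fermat.Agent.Lib.S37 Fermat.Agent.Lib.S34

local notation "Kb" => AlgebraicClosure ℚ

variable {K₀ : Type*} [Field K₀] [Algebra ℚ K₀] (φ : K₀ →+* Kb)
variable (L L' : ℕ) [NeZero L] [NeZero L'] (wb : ffi_F L →ₐ[Kb] ffi_F L')

/-- The hypothesis: generators go to elements with rational `q`-expansion. -/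
def s36m_RatGen : Prop :=
  ∀ (d : s28w_Idx L) (y : ffi_F L), (y : LaurentSeries Kb) = s37w_gen L d →
    ∃ z' ∈ modularFunctionFieldFull L',
      ((wb y : ffi_F L') : LaurentSeries Kb) = coeffEmb Kb z'

variable {L L' wb}

/-- `w̄` maps the rational subfield `coeffEmb '' F₀(L)` into `coeffEmb '' F₀(L')`. -/
theorem s36m_desc_coeffEmb (hgen : s36m_RatGen L L' wb) (z : LaurentSeries ℚ)
    (hz : z ∈ modularFunctionFieldFull L) :
    ∀ y : ffi_F L, (y : LaurentSeries Kb) = coeffEmb Kb z →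
    ∃ z' ∈ modularFunctionFieldFull L',
      ((wb y : ffi_F L') : LaurentSeries Kb) = coeffEmb Kb z' := by
  rw [modularFunctionFieldFull] at hz
  induction hz using IntermediateField.adjoin_induction with
  | mem x hx =>
    intro y hy
    obtain ⟨d, hne, hd, rfl⟩ := hx
    exact hgen ⟨d, hd⟩ y hy
  | algebraMap r =>
    intro y hy
    refine ⟨algebraMap ℚ (LaurentSeries ℚ) r, IntermediateField.algebraMap_mem _ r, ?_⟩
    have e : y = algebraMap Kb (ffi_F L) (algebraMap ℚ Kb r) := by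
      apply Subtype.ext
      rw [hy, s34m_coeffEmb_algebraMap]
      rfl
    rw [e, AlgHom.commutes, s34m_coeffEmb_algebraMap]
    rfl
  | add x y hx hy ihx ihy =>
    intro u hu
    have hx' : coeffEmb Kb x ∈ laurentBaseChange Kb (modularFunctionFieldFull L) :=
      coeffEmb_mem_laurentBaseChange Kb hx
    have hy' : coeffEmb Kb y ∈ laurentBaseChange Kb (modularFunctionFieldFull L) :=
      coeffEmb_mem_laurentBaseChange Kb hy
    obtain ⟨x', hx'', ex⟩ := ihx ⟨_, hx'⟩ rfl
    obtain ⟨y', hy'', ey⟩ := ihy ⟨_, hy'⟩ rfl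
    refine ⟨x' + y', add_mem hx'' hy'', ?_⟩
    have e : u = (⟨_, hx'⟩ : ffi_F L) + ⟨_, hy'⟩ := by
      apply Subtype.ext
      rw [hu, map_add]
      rfl
    rw [e, map_add, map_add, ← ex, ← ey]
    rfl
  | inv x hx ihx =>
    intro u hu
    have hx' : coeffEmb Kb x ∈ laurentBaseChange Kb (modularFunctionFieldFull L) :=
      coeffEmb_mem_laurentBaseChange Kb hx
    obtain ⟨x', hx'', ex⟩ := ihx ⟨_, hx'⟩ rfl
    refine ⟨x'⁻¹, inv_mem hx'', ?_⟩
    have e : u = (⟨_, hx'⟩ : ffi_F L)⁻¹ := by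
      apply Subtype.ext
      rw [hu, map_inv₀]
      rfl
    rw [e, map_inv₀, map_inv₀, ← ex]
    rfl
  | mul x y hx hy ihx ihy =>
    intro u hu
    have hx' : coeffEmb Kb x ∈ laurentBaseChange Kb (modularFunctionFieldFull L) :=
      coeffEmb_mem_laurentBaseChange Kb hx
    have hy' : coeffEmb Kb y ∈ laurentBaseChange Kb (modularFunctionFieldFull L) :=
      coeffEmb_mem_laurentBaseChange Kb hy
    obtain ⟨x', hx'', ex⟩ := ihx ⟨_, hx'⟩ rfl
    obtain ⟨y', hy'', ey⟩ := ihy ⟨_, hy'⟩ rfl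
    refine ⟨x' * y', mul_mem hx'' hy'', ?_⟩
    have e : u = (⟨_, hx'⟩ : ffi_F L) * ⟨_, hy'⟩ := by
      apply Subtype.ext
      rw [hu, map_mul]
      rfl
    rw [e, map_mul, map_mul, ← ex, ← ey]
    rfl

/-- `w̄` maps the image of `F_{K₀}(L)` in `F̄(L)` into the image of `F_{K₀}(L')`. -/
theorem s36m_desc_range (hgen : s36m_RatGen L L' wb) (x : LaurentSeries K₀)
    (hx : x ∈ laurentBaseChange K₀ (modularFunctionFieldFull L)) :
    ∀ y : ffi_F L, (y : LaurentSeries Kb) = coeffMap φ x →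
      wb y ∈ Set.range (s34m_iota φ L') := by
  rw [mem_laurentBaseChange_iff] at hx
  induction hx using Subfield.closure_induction with
  | mem u hu =>
    intro y hy
    rcases hu with ⟨c, rfl⟩ | ⟨z, hz, rfl⟩
    · refine ⟨algebraMap K₀ _ c, ?_⟩
      have e : y = algebraMap Kb (ffi_F L) (φ c) := by
        apply Subtype.ext
        rw [hy, s18q_coeffMap_algebraMap]
        rfl
      rw [e, AlgHom.commutes]
      exact s18q_map_algebraMap φ _ c
    · obtain ⟨z', hz', e⟩ := s36m_desc_coeffEmb hgen z hz y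
        (by rw [hy, s18q_coeffMap_coeffEmb])
      refine ⟨⟨coeffEmb K₀ z', coeffEmb_mem_laurentBaseChange K₀ hz'⟩, ?_⟩
      apply Subtype.ext
      rw [e]
      exact s34m_iota_coeffEmb φ L' z' hz'
  | one =>
    intro y hy
    refine ⟨1, ?_⟩
    have e : y = 1 := by
      apply Subtype.ext
      rw [hy, map_one]
      rfl
    rw [e, map_one, map_one]
  | add u v hu hv ihu ihv =>
    intro y hy
    obtain ⟨a, ha⟩ := ihu ⟨coeffMap φ u, s18q_coeffMap_mem φ hu⟩ rfl
    obtain ⟨b, hb⟩ := ihv ⟨coeffMap φ v, s18q_coeffMap_mem φ hv⟩ rfl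
    refine ⟨a + b, ?_⟩
    have e : y = (⟨coeffMap φ u, s18q_coeffMap_mem φ hu⟩ : ffi_F L) +
        ⟨coeffMap φ v, s18q_coeffMap_mem φ hv⟩ := by
      apply Subtype.ext
      rw [hy, map_add]
      rfl
    rw [e, map_add, map_add, ha, hb]
  | neg u hu ihu =>
    intro y hy
    obtain ⟨a, ha⟩ := ihu ⟨coeffMap φ u, s18q_coeffMap_mem φ hu⟩ rfl
    refine ⟨-a, ?_⟩
    have e : y = -(⟨coeffMap φ u, s18q_coeffMap_mem φ hu⟩ : ffi_F L) := by
      apply Subtype.ext
      rw [hy, map_neg]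
      rfl
    rw [e, map_neg, map_neg, ha]
  | inv u hu ihu =>
    intro y hy
    obtain ⟨a, ha⟩ := ihu ⟨coeffMap φ u, s18q_coeffMap_mem φ hu⟩ rfl
    refine ⟨a⁻¹, ?_⟩
    have e : y = (⟨coeffMap φ u, s18q_coeffMap_mem φ hu⟩ : ffi_F L)⁻¹ := by
      apply Subtype.ext
      rw [hy, map_inv₀]
      rfl
    rw [e, map_inv₀, map_inv₀, ha]
  | mul u v hu hv ihu ihv =>
    intro y hy
    obtain ⟨a, ha⟩ := ihu ⟨coeffMap φ u, s18q_coeffMap_mem φ hu⟩ rfl
    obtain ⟨b, hb⟩ := ihv ⟨coeffMap φ v, s18q_coeffMap_mem φ hv⟩ rfl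
    refine ⟨a * b, ?_⟩
    have e : y = (⟨coeffMap φ u, s18q_coeffMap_mem φ hu⟩ : ffi_F L) *
        ⟨coeffMap φ v, s18q_coeffMap_mem φ hv⟩ := by
      apply Subtype.ext
      rw [hy, map_mul]
      rfl
    rw [e, map_mul, map_mul, ha, hb]

theorem s36m_exists_desc (hgen : s36m_RatGen L L' wb) (x : s34m_F K₀ L) :
    ∃ y : s34m_F K₀ L', s34m_iota φ L' y = wb (s34m_iota φ L x) :=
  s36m_desc_range φ hgen x.1 x.2 _ rfl

/-- The underlying function of the descended homomorphism. -/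
def s36m_descFun (hgen : s36m_RatGen L L' wb) (x : s34m_F K₀ L) : s34m_F K₀ L' :=
  (s36m_exists_desc φ hgen x).choose

theorem s36m_iota_descFun (hgen : s36m_RatGen L L' wb) (x : s34m_F K₀ L) :
    s34m_iota φ L' (s36m_descFun φ hgen x) = wb (s34m_iota φ L x) :=
  (s36m_exists_desc φ hgen x).choose_spec

/-- **The descended homomorphism** `w : F_{K₀}(L) →ₐ[K₀] F_{K₀}(L')`. -/
def s36m_desc (hgen : s36m_RatGen L L' wb) : s34m_F K₀ L →ₐ[K₀] s34m_F K₀ L' where
  toFun := s36m_descFun φ hgen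
  map_one' := by
    apply s34m_iota_injective φ
    rw [s36m_iota_descFun, map_one, map_one, map_one]
  map_zero' := by
    apply s34m_iota_injective φ
    rw [s36m_iota_descFun, map_zero, map_zero, map_zero]
  map_mul' x y := by
    apply s34m_iota_injective φ
    rw [map_mul, s36m_iota_descFun, s36m_iota_descFun, s36m_iota_descFun, map_mul, map_mul]
  map_add' x y := by
    apply s34m_iota_injective φ
    rw [map_add, s36m_iota_descFun, s36m_iota_descFun, s36m_iota_descFun, map_add, map_add]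
  commutes' c := by
    apply s34m_iota_injective φ
    rw [s36m_iota_descFun, s18q_map_algebraMap, AlgHom.commutes]
    exact (s18q_map_algebraMap φ _ c).symm

/-- **The defining property** `ι (w x) = w̄ (ι x)`. -/
theorem s36m_iota_desc (hgen : s36m_RatGen L L' wb) (x : s34m_F K₀ L) :
    s34m_iota φ L' (s36m_desc φ hgen x) = wb (s34m_iota φ L x) :=
  s36m_iota_descFun φ hgen x

/-- `w` maps the rational subfield to the rational subfield. -/
theorem s36m_desc_rat (hgen : s36m_RatGen L L' wb) (z : LaurentSeries ℚ)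
    (hz : z ∈ modularFunctionFieldFull L) :
    ∃ (z' : LaurentSeries ℚ) (hz' : z' ∈ modularFunctionFieldFull L'),
      s36m_desc φ hgen ⟨coeffEmb K₀ z, coeffEmb_mem_laurentBaseChange K₀ hz⟩ =
        ⟨coeffEmb K₀ z', coeffEmb_mem_laurentBaseChange K₀ hz'⟩ := by
  obtain ⟨z', hz', e⟩ := s36m_desc_coeffEmb hgen z hz
    (s34m_iota φ L ⟨coeffEmb K₀ z, coeffEmb_mem_laurentBaseChange K₀ hz⟩)
    (s34m_iota_coeffEmb φ L z hz)
  refine ⟨z', hz', ?_⟩
  apply s34m_iota_injective φ
  apply Subtype.ext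
  rw [s36m_iota_desc, e]
  exact (s34m_iota_coeffEmb φ L' z' hz').symm

/-- **`w` commutes with the coefficientwise Galois action.** -/
theorem s36m_desc_galois (hgen : s36m_RatGen L L' wb) (σ₀ : K₀ ≃ₐ[ℚ] K₀) (x : s34m_F K₀ L) :
    s36m_desc φ hgen (arithmeticRingAut (modularFunctionFieldFull L) σ₀ x) =
      arithmeticRingAut (modularFunctionFieldFull L') σ₀ (s36m_desc φ hgen x) := by
  set w : s34m_F K₀ L →ₐ[K₀] s34m_F K₀ L' := s36m_desc φ hgen with hw
  set τ := arithmeticRingAut (L := K₀) (modularFunctionFieldFull L) σ₀ with hτ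
  set τ' := arithmeticRingAut (L := K₀) (modularFunctionFieldFull L') σ₀ with hτ'
  obtain ⟨u, hu⟩ := x
  have key : ∀ (u : LaurentSeries K₀)
      (hu : u ∈ laurentBaseChange K₀ (modularFunctionFieldFull L)),
      w (τ ⟨u, hu⟩) = τ' (w ⟨u, hu⟩) := by
    intro u hu
    have hu' := hu
    rw [mem_laurentBaseChange_iff] at hu'
    induction hu' using Subfield.closure_induction with
    | mem v hv =>
      rcases hv with ⟨c, rfl⟩ | ⟨z, hz, rfl⟩
      · have e : (⟨algebraMap K₀ (LaurentSeries K₀) c, hu⟩ : s34m_F K₀ L) =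
            algebraMap K₀ (s34m_F K₀ L) c := rfl
        rw [e, hτ, arithmeticRingAut_algebraMap, AlgHom.commutes, AlgHom.commutes, hτ',
          arithmeticRingAut_algebraMap]
      · obtain ⟨z', hz', e'⟩ := s36m_desc_rat φ hgen z hz
        rw [hτ, s34m_galois_coeffEmb L σ₀ z hz, hw, e', hτ',
          s34m_galois_coeffEmb L' σ₀ z' hz']
    | one =>
      have e : (⟨1, hu⟩ : s34m_F K₀ L) = 1 := rfl
      rw [e, map_one, map_one, map_one]
    | add a b ha hb iha ihb =>
      have ha' : a ∈ laurentBaseChange K₀ (modularFunctionFieldFull L) :=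
        mem_laurentBaseChange_iff.mpr ha
      have hb' : b ∈ laurentBaseChange K₀ (modularFunctionFieldFull L) :=
        mem_laurentBaseChange_iff.mpr hb
      have e : (⟨a + b, hu⟩ : s34m_F K₀ L) = ⟨a, ha'⟩ + ⟨b, hb'⟩ := rfl
      rw [e, map_add, map_add, map_add, map_add, iha ha', ihb hb']
    | neg a ha iha =>
      have ha' : a ∈ laurentBaseChange K₀ (modularFunctionFieldFull L) :=
        mem_laurentBaseChange_iff.mpr ha
      have e : (⟨-a, hu⟩ : s34m_F K₀ L) = -⟨a, ha'⟩ := rfl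
      rw [e, map_neg, map_neg, map_neg, map_neg, iha ha']
    | inv a ha iha =>
      have ha' : a ∈ laurentBaseChange K₀ (modularFunctionFieldFull L) :=
        mem_laurentBaseChange_iff.mpr ha
      have e : (⟨a⁻¹, hu⟩ : s34m_F K₀ L) = (⟨a, ha'⟩ : s34m_F K₀ L)⁻¹ := rfl
      rw [e, map_inv₀, map_inv₀, map_inv₀, map_inv₀, iha ha']
    | mul a b ha hb iha ihb =>
      have ha' : a ∈ laurentBaseChange K₀ (modularFunctionFieldFull L) :=
        mem_laurentBaseChange_iff.mpr ha
      have hb' : b ∈ laurentBaseChange K₀ (modularFunctionFieldFull L) :=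
        mem_laurentBaseChange_iff.mpr hb
      have e : (⟨a * b, hu⟩ : s34m_F K₀ L) = ⟨a, ha'⟩ * ⟨b, hb'⟩ := rfl
      rw [e, map_mul, map_mul, map_mul, map_mul, iha ha', ihb hb']
  exact key u hu

end Fermat.Agent.Lib.S36
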