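/-
S36 mega-project, layer (M) (helper6), part 1: the ATKIN–LEHNER involution `w_ℓ` of
`F̄(L) = Q̄(j(q^D) : D ∣ L)` for an ARBITRARY exact divisor `ℓ ∥ L` (`ℓ ∣ L`, `gcd(ℓ, L/ℓ) = 1`;
in the application `ℓ = q²`, `L = M q q`):  `j(q^D) ↦ j(q^(co D))`,
`co D = (ℓ / gcd(D,ℓ)) · (D / gcd(D,ℓ))`, and its descent to any `K₀ ⊆ Q̄`.

Analytic input: `W z = γ₀ • (ℓ z)` with `γ₀ = (1, -y; N, ℓ x) ∈ SL₂(ℤ)`, `N = L/ℓ`, `ℓ x + N y = 1`;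
for `D = g d` (`g = gcd(D,ℓ)`, `ℓ = g g'`, `N = d c`): `D · W z = γ' • (g' d z)` with
`γ' = (g, -d y; c, g' x) ∈ SL₂(ℤ)` (one uniform computation, no case distinction).
-/
import Fermat.Agent.Lib.S37.WAtkin
import Fermat.Agent.Lib.S36.MDescent

set_option autoImplicit false

namespace Fermat.Agent.Lib.S36

open UpperHalfPlane hiding I
open Complex ModularCurve Fermat.Agent.Lib.FF Fermat.Agent.Lib.S28 Fermat.Agent.Lib.S37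
  Fermat.Agent.Lib.S34 Fermat.Agent.Lib.S18
open scoped MatrixGroups

noncomputable section

set_option linter.unusedSectionVars false

local notation "Kb" => AlgebraicClosure ℚ

variable (L ℓ : ℕ) [NeZero L] [NeZero ℓ]

/-- Arithmetic of an index `D ∣ L` relative to an exact divisor `ℓ ∥ L`:
`D = g d`, `ℓ = g g'`, `L / ℓ = d c`, `gcd(D, ℓ) = g`. -/
theorem s36m_idx_decomp (hℓL : ℓ ∣ L) (hcop : Nat.Coprime ℓ (L / ℓ)) (D : s28w_Idx L) :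
    ∃ g d g' c : ℕ, D.1 = g * d ∧ ℓ = g * g' ∧ L / ℓ = d * c ∧ Nat.gcd D.1 ℓ = g ∧
      Nat.Coprime d ℓ := by
  set g := Nat.gcd D.1 ℓ with hg
  have hgpos : 0 < g := Nat.gcd_pos_of_pos_right _ (NeZero.pos ℓ)
  obtain ⟨d, hd⟩ := Nat.gcd_dvd_left D.1 ℓ
  obtain ⟨g', hg'⟩ := Nat.gcd_dvd_right D.1 ℓ
  rw [← hg] at hd hg'
  have hcop1 : Nat.Coprime d g' := by
    have h := Nat.coprime_div_gcd_div_gcd (m := D.1) (n := ℓ) hgpos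
    rw [← hg] at h
    have e1 : D.1 / g = d := by rw [hd]; exact Nat.mul_div_cancel_left d hgpos
    have e2 : ℓ / g = g' := by rw [hg']; exact Nat.mul_div_cancel_left g' hgpos
    rwa [e1, e2] at h
  have hL : L = (L / ℓ) * ℓ := (Nat.div_mul_cancel hℓL).symm
  -- `d ∣ L / ℓ`
  have hdN : d ∣ L / ℓ := by
    have h1 : g * d ∣ (L / ℓ) * (g * g') := by
      rw [← hd, ← hg', ← hL]; exact D.2
    have h2 : g * d ∣ g * ((L / ℓ) * g') := by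
      have : (L / ℓ) * (g * g') = g * ((L / ℓ) * g') := by ring
      rwa [this] at h1
    have h3 : d ∣ (L / ℓ) * g' := (Nat.mul_dvd_mul_iff_left hgpos).mp h2
    exact hcop1.dvd_of_dvd_mul_right h3
  obtain ⟨c, hc⟩ := hdN
  refine ⟨g, d, g', c, hd, hg', hc, rfl, ?_⟩
  -- `d ∣ L/ℓ` is coprime to `ℓ`
  exact (hcop.coprime_dvd_right ⟨c, hc⟩).symm

/-- The Atkin–Lehner involution on the divisors of `L`:
`D ↦ (ℓ / gcd(D,ℓ)) · (D / gcd(D,ℓ))`. -/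
def s36m_alCo (hℓL : ℓ ∣ L) (hcop : Nat.Coprime ℓ (L / ℓ)) (D : s28w_Idx L) : s28w_Idx L :=
  ⟨(ℓ / Nat.gcd D.1 ℓ) * (D.1 / Nat.gcd D.1 ℓ), by
    obtain ⟨g, d, g', c, hD, hl, hN, hg, -⟩ := s36m_idx_decomp L ℓ hℓL hcop D
    have hgpos : 0 < g := by rw [← hg]; exact Nat.gcd_pos_of_pos_right _ (NeZero.pos ℓ)
    rw [hg]
    have e1 : D.1 / g = d := by rw [hD]; exact Nat.mul_div_cancel_left d hgpos
    have e2 : ℓ / g = g' := by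
      conv_lhs => rw [hl]
      exact Nat.mul_div_cancel_left g' hgpos
    rw [e1, e2]
    have hL : L = (L / ℓ) * ℓ := (Nat.div_mul_cancel hℓL).symm
    rw [hL, hN, hl]
    exact ⟨c * g, by ring⟩⟩

theorem s36m_alCo_val (hℓL : ℓ ∣ L) (hcop : Nat.Coprime ℓ (L / ℓ)) (D : s28w_Idx L)
    (g d g' : ℕ) (hD : D.1 = g * d) (hl : ℓ = g * g') (hg : Nat.gcd D.1 ℓ = g) :
    (s36m_alCo L ℓ hℓL hcop D).1 = g' * d := by
  have hgpos : 0 < g := by rw [← hg]; exact Nat.gcd_pos_of_pos_right _ (NeZero.pos ℓ)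
  show (ℓ / Nat.gcd D.1 ℓ) * (D.1 / Nat.gcd D.1 ℓ) = g' * d
  rw [hg]
  have e1 : D.1 / g = d := by rw [hD]; exact Nat.mul_div_cancel_left d hgpos
  have e2 : ℓ / g = g' := by
    conv_lhs => rw [hl]
    exact Nat.mul_div_cancel_left g' hgpos
  rw [e1, e2]

theorem s36m_alCo_alCo (hℓL : ℓ ∣ L) (hcop : Nat.Coprime ℓ (L / ℓ)) (D : s28w_Idx L) :
    s36m_alCo L ℓ hℓL hcop (s36m_alCo L ℓ hℓL hcop D) = D := by
  obtain ⟨g, d, g', c, hD, hl, hN, hg, hdl⟩ := s36m_idx_decomp L ℓ hℓL hcop D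
  have h1 : (s36m_alCo L ℓ hℓL hcop D).1 = g' * d := s36m_alCo_val L ℓ hℓL hcop D g d g' hD hl hg
  have hg2 : Nat.gcd (s36m_alCo L ℓ hℓL hcop D).1 ℓ = g' := by
    rw [h1]
    have h2 : Nat.gcd (g' * d) ℓ = Nat.gcd g' ℓ := by
      rw [mul_comm]
      exact Nat.Coprime.gcd_mul_left_cancel g' hdl
    rw [h2]
    exact Nat.gcd_eq_left ⟨g, by rw [hl]; ring⟩
  apply Subtype.ext
  rw [s36m_alCo_val L ℓ hℓL hcop _ g' d g h1 (by rw [hl]; ring) hg2, hD]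

/-- **The analytic Atkin–Lehner substitution** for an exact divisor `ℓ ∥ L`. -/
theorem s36m_exists_alH (hℓL : ℓ ∣ L) (hcop : Nat.Coprime ℓ (L / ℓ)) :
    ∃ W : ℍ → ℍ, ∀ (D : s28w_Idx L) (z : ℍ),
      ffb_jd D.1 (W z) = ffb_jd (s36m_alCo L ℓ hℓL hcop D).1 z := by
  -- Bezout
  obtain ⟨x, y, hxy⟩ : ∃ x y : ℤ, (ℓ : ℤ) * x + ((L / ℓ : ℕ) : ℤ) * y = 1 := by
    have h := Int.gcd_eq_gcd_ab (ℓ : ℤ) ((L / ℓ : ℕ) : ℤ)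
    have hg : Int.gcd (ℓ : ℤ) ((L / ℓ : ℕ) : ℤ) = 1 := by
      rw [Int.gcd_natCast_natCast]; exact hcop
    rw [hg] at h
    exact ⟨Int.gcdA ℓ (L / ℓ : ℕ), Int.gcdB ℓ (L / ℓ : ℕ), by rw [← h]; rfl⟩
  let γ₀ : SL(2, ℤ) := ⟨!![1, -y; ((L / ℓ : ℕ) : ℤ), (ℓ : ℤ) * x], by
    rw [Matrix.det_fin_two_of]; linear_combination hxy⟩
  refine ⟨fun z => γ₀ • ffb_dmul ℓ z, fun D z => ?_⟩
  have g00 : γ₀ 0 0 = 1 := rfl
  have g01 : γ₀ 0 1 = -y := rfl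
  have g10 : γ₀ 1 0 = ((L / ℓ : ℕ) : ℤ) := rfl
  have g11 : γ₀ 1 1 = (ℓ : ℤ) * x := rfl
  obtain ⟨g, d, g', c, hD, hl, hN, hg, -⟩ := s36m_idx_decomp L ℓ hℓL hcop D
  have hco : (s36m_alCo L ℓ hℓL hcop D).1 = g' * d :=
    s36m_alCo_val L ℓ hℓL hcop D g d g' hD hl hg
  have hgne : g ≠ 0 := by
    intro h0; rw [h0, zero_mul] at hl; exact NeZero.ne ℓ hl
  have hne : NeZero (g' * d) := ⟨by
    rw [← hco]; exact NeZero.ne _⟩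
  have hNz : ((L / ℓ : ℕ) : ℤ) = (d : ℤ) * (c : ℤ) := by exact_mod_cast hN
  have hlz : (ℓ : ℤ) = (g : ℤ) * (g' : ℤ) := by exact_mod_cast hl
  have hDz : (D.1 : ℤ) = (g : ℤ) * (d : ℤ) := by exact_mod_cast hD
  let γ' : SL(2, ℤ) := ⟨!![(g : ℤ), -((d : ℤ) * y); (c : ℤ), (g' : ℤ) * x], by
    rw [Matrix.det_fin_two_of]
    rw [hNz, hlz] at hxy
    linear_combination hxy⟩
  have key : ffb_dmul D.1 (γ₀ • ffb_dmul ℓ z) = γ' • ffb_dmul (g' * d) z := by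
    refine s37w_dmul_smul_dmul D.1 ℓ (g' * d) γ₀ γ' (g : ℤ)
      (Int.natCast_ne_zero.mpr hgne) ?_ ?_ ?_ ?_ z
    · rw [g00]
      show (D.1 : ℤ) * 1 * (ℓ : ℤ) = (g : ℤ) * ((g : ℤ) * ((g' * d : ℕ) : ℤ))
      rw [hDz, hlz]; push_cast; ring
    · rw [g01]
      show (D.1 : ℤ) * -y = (g : ℤ) * -((d : ℤ) * y)
      rw [hDz]; ring
    · rw [g10]
      show ((L / ℓ : ℕ) : ℤ) * (ℓ : ℤ) = (g : ℤ) * ((c : ℤ) * ((g' * d : ℕ) : ℤ))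
      rw [hNz, hlz]; push_cast; ring
    · rw [g11]
      show (ℓ : ℤ) * x = (g : ℤ) * ((g' : ℤ) * x)
      rw [hlz]; ring
  have e1 : ffb_jd (s36m_alCo L ℓ hℓL hcop D).1 z = ffb_jd (g' * d) z := by
    congr 1
  rw [e1, ffb_jd_apply, ffb_jd_apply, key, ffj_smul]

/-! ### The involution `w_ℓ` over `Q̄` -/

/-- **The Atkin–Lehner involution** `w_ℓ` of `F̄(L)` for an exact divisor `ℓ ∥ L`. -/
def s36m_alK (hℓL : ℓ ∣ L) (hcop : Nat.Coprime ℓ (L / ℓ)) : ffi_F L ≃ₐ[Kb] ffi_F L :=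
  s37w_substEquiv L (s36m_alCo L ℓ hℓL hcop) (s36m_exists_alH L ℓ hℓL hcop).choose
    (s36m_exists_alH L ℓ hℓL hcop).choose_spec (s36m_alCo_alCo L ℓ hℓL hcop)

theorem s36m_alK_alK (hℓL : ℓ ∣ L) (hcop : Nat.Coprime ℓ (L / ℓ)) (x : ffi_F L) :
    s36m_alK L ℓ hℓL hcop (s36m_alK L ℓ hℓL hcop x) = x :=
  s37w_substEquiv_substEquiv _ _ _ _ _ x

theorem s36m_alK_gen (hℓL : ℓ ∣ L) (hcop : Nat.Coprime ℓ (L / ℓ)) (D : s28w_Idx L)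
    (x : ffi_F L) (hx : (x : LaurentSeries Kb) = s37w_gen L D) :
    ((s36m_alK L ℓ hℓL hcop x : ffi_F L) : LaurentSeries Kb) =
      s37w_gen L (s36m_alCo L ℓ hℓL hcop D) :=
  s37w_substEquiv_gen _ _ _ _ _ D x hx

theorem s36m_alK_ratGen (hℓL : ℓ ∣ L) (hcop : Nat.Coprime ℓ (L / ℓ)) :
    s36m_RatGen L L (s36m_alK L ℓ hℓL hcop : ffi_F L →ₐ[Kb] ffi_F L) := by
  intro D y hy
  refine ⟨qExpand ℚ (s36m_alCo L ℓ hℓL hcop D).1 jq,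
    jqd_mem_full L (s36m_alCo L ℓ hℓL hcop D).2, ?_⟩
  exact s36m_alK_gen L ℓ hℓL hcop D y hy

/-! ### Descent to `K₀` -/

variable {K₀ : Type*} [Field K₀] [Algebra ℚ K₀] (φ : K₀ →+* Kb)

/-- `w_ℓ` over `K₀` as an algebra endomorphism. -/
def s36m_alHom (hℓL : ℓ ∣ L) (hcop : Nat.Coprime ℓ (L / ℓ)) : s34m_F K₀ L →ₐ[K₀] s34m_F K₀ L :=
  s36m_desc φ (s36m_alK_ratGen L ℓ hℓL hcop)

theorem s36m_iota_alHom (hℓL : ℓ ∣ L) (hcop : Nat.Coprime ℓ (L / ℓ)) (x : s34m_F K₀ L) :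
    s34m_iota φ L (s36m_alHom L ℓ φ hℓL hcop x) = s36m_alK L ℓ hℓL hcop (s34m_iota φ L x) :=
  s36m_iota_desc φ (s36m_alK_ratGen L ℓ hℓL hcop) x

theorem s36m_alHom_alHom (hℓL : ℓ ∣ L) (hcop : Nat.Coprime ℓ (L / ℓ)) (x : s34m_F K₀ L) :
    s36m_alHom L ℓ φ hℓL hcop (s36m_alHom L ℓ φ hℓL hcop x) = x := by
  apply s34m_iota_injective φ
  rw [s36m_iota_alHom, s36m_iota_alHom, s36m_alK_alK]

/-- **The Atkin–Lehner involution `w_ℓ` over `K₀`** (`ℓ ∥ L`). -/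
def s36m_alE (hℓL : ℓ ∣ L) (hcop : Nat.Coprime ℓ (L / ℓ)) : s34m_F K₀ L ≃ₐ[K₀] s34m_F K₀ L :=
  AlgEquiv.ofAlgHom (s36m_alHom L ℓ φ hℓL hcop) (s36m_alHom L ℓ φ hℓL hcop)
    (AlgHom.ext (s36m_alHom_alHom L ℓ φ hℓL hcop))
    (AlgHom.ext (s36m_alHom_alHom L ℓ φ hℓL hcop))

theorem s36m_iota_alE (hℓL : ℓ ∣ L) (hcop : Nat.Coprime ℓ (L / ℓ)) (x : s34m_F K₀ L) :
    s34m_iota φ L (s36m_alE L ℓ φ hℓL hcop x) = s36m_alK L ℓ hℓL hcop (s34m_iota φ L x) :=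
  s36m_iota_alHom L ℓ φ hℓL hcop x

theorem s36m_alE_alE (hℓL : ℓ ∣ L) (hcop : Nat.Coprime ℓ (L / ℓ)) (x : s34m_F K₀ L) :
    s36m_alE L ℓ φ hℓL hcop (s36m_alE L ℓ φ hℓL hcop x) = x :=
  s36m_alHom_alHom L ℓ φ hℓL hcop x

theorem s36m_alE_galois (hℓL : ℓ ∣ L) (hcop : Nat.Coprime ℓ (L / ℓ)) (σ₀ : K₀ ≃ₐ[ℚ] K₀)
    (x : s34m_F K₀ L) :
    s36m_alE L ℓ φ hℓL hcop (arithmeticRingAut (modularFunctionFieldFull L) σ₀ x) =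
      arithmeticRingAut (modularFunctionFieldFull L) σ₀ (s36m_alE L ℓ φ hℓL hcop x) :=
  s36m_desc_galois φ (s36m_alK_ratGen L ℓ hℓL hcop) σ₀ x

end

end Fermat.Agent.Lib.S36
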