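/-
S36 mega-project, layer (M) (helper6), part 2: the Atkin–Lehner involution `w_{q²}` of the function
field of level `M q q` (`q` prime, `q ∤ M`) over `Q̄` and over `K₀`:
`j(q^(qⁱ d)) ↦ j(q^(q^(2-i) d))` (`d ∣ M`), with `w_{q²} ∘ α' = β' ∘ w_q`, `w_{q²} ∘ β' = α' ∘ w_q`
for the two degeneracy maps `α', β' : F(M q) → F(M q q)`.
-/
import Fermat.Agent.Lib.S36.MAl2

set_option autoImplicit false

namespace Fermat.Agent.Lib.S36

open ModularCurve AlgebraicCurve Fermat.Agent.Lib.FF Fermat.Agent.Lib.S28 Fermat.Agent.Lib.S37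
  Fermat.Agent.Lib.S34 Fermat.Agent.Lib.S18

noncomputable section

set_option linter.unusedSectionVars false

local notation "Kb" => AlgebraicClosure ℚ

variable (M q : ℕ) [NeZero M] [NeZero q]

theorem s36m_qq_dvd : q * q ∣ M * q * q := ⟨M, by ring⟩

theorem s36m_div_qq : M * q * q / (q * q) = M := by
  have h : M * q * q = M * (q * q) := by ring
  rw [h]
  exact Nat.mul_div_cancel M (Nat.mul_pos (NeZero.pos q) (NeZero.pos q))

theorem s36m_qq_coprime (hq : q.Prime) (hqM : ¬ q ∣ M) :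
    Nat.Coprime (q * q) (M * q * q / (q * q)) := by
  rw [s36m_div_qq]
  have h : Nat.Coprime q M := (Nat.Prime.coprime_iff_not_dvd hq).mpr hqM
  exact Nat.Coprime.mul_left h h

/-- `w_{q²}` over `Q̄`. -/
def s36m_al2K (hq : q.Prime) (hqM : ¬ q ∣ M) : ffi_F (M * q * q) ≃ₐ[Kb] ffi_F (M * q * q) :=
  s36m_alK (M * q * q) (q * q) (s36m_qq_dvd M q) (s36m_qq_coprime M q hq hqM)

theorem s36m_al2K_al2K (hq : q.Prime) (hqM : ¬ q ∣ M) (x : ffi_F (M * q * q)) :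
    s36m_al2K M q hq hqM (s36m_al2K M q hq hqM x) = x :=
  s36m_alK_alK _ _ _ _ x

/-- The value of the index involution of `w_{q²}` on an index coming from level `M q`. -/
theorem s36m_alCo_qq (hq : q.Prime) (hqM : ¬ q ∣ M) (d : s28w_Idx (M * q)) :
    (s36m_alCo (M * q * q) (q * q) (s36m_qq_dvd M q) (s36m_qq_coprime M q hq hqM)
      ⟨d.1, d.2.trans (dvd_mul_right (M * q) q)⟩).1 = (s37w_alCo M q hq d).1 * q := by
  by_cases h : q ∣ d.1
  · rw [s37w_alCo_of_dvd M q hq d h]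
    obtain ⟨d₀, hd₀⟩ := h
    have hd₀M : d₀ ∣ M := by
      have := s37w_div_dvd_of_dvd M q hq d ⟨d₀, hd₀⟩
      rwa [hd₀, Nat.mul_div_cancel_left d₀ hq.pos] at this
    have hqd₀ : ¬ q ∣ d₀ := fun h2 => hqM (h2.trans hd₀M)
    have hcop : Nat.Coprime d₀ q := ((Nat.Prime.coprime_iff_not_dvd hq).mpr hqd₀).symm
    have hg : Nat.gcd d.1 (q * q) = q := by
      rw [hd₀, Nat.gcd_mul_left, hcop.gcd_eq_one, mul_one]
    rw [s36m_alCo_val (M * q * q) (q * q) _ _ _ q d₀ q hd₀ rfl hg, hd₀,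
      Nat.mul_div_cancel_left d₀ hq.pos, mul_comm]
  · rw [s37w_alCo_of_not_dvd M q hq d h]
    have hcop : Nat.Coprime d.1 q := ((Nat.Prime.coprime_iff_not_dvd hq).mpr h).symm
    have hg : Nat.gcd d.1 (q * q) = 1 := Nat.Coprime.mul_right hcop hcop
    rw [s36m_alCo_val (M * q * q) (q * q) _ _ _ 1 d.1 (q * q) (one_mul _).symm (one_mul _).symm hg]
    ring

/-- **`w_{q²} ∘ α' = β' ∘ w_q`** over `Q̄`. -/
theorem s36m_al2K_alpha (hq : q.Prime) (hqM : ¬ q ∣ M) (y : ffi_F (M * q)) :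
    s36m_al2K M q hq hqM (heckeAlphaBar Kb (M * q) q y) =
      heckeBetaBar Kb (M * q) q (s37w_al M q hq hqM y) := by
  have key : ((s36m_al2K M q hq hqM : ffi_F (M * q * q) →ₐ[Kb] ffi_F (M * q * q)).comp
      (heckeAlphaBar Kb (M * q) q)) =
      (heckeBetaBar Kb (M * q) q).comp
        (s37w_al M q hq hqM : ffi_F (M * q) →ₐ[Kb] ffi_F (M * q)) := by
    refine s37w_algHom_ext (M * q) _ _ fun d x hx => ?_
    apply Subtype.ext
    let D : s28w_Idx (M * q * q) := ⟨d.1, d.2.trans (dvd_mul_right (M * q) q)⟩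
    have h1 : ((heckeAlphaBar Kb (M * q) q x : ffi_F (M * q * q)) : LaurentSeries Kb) =
        s37w_gen (M * q * q) D := by
      rw [coe_heckeAlphaBar, hx]; rfl
    rw [AlgHom.comp_apply, AlgHom.comp_apply]
    show ((s36m_al2K M q hq hqM (heckeAlphaBar Kb (M * q) q x) : ffi_F (M * q * q)) :
      LaurentSeries Kb) = ((heckeBetaBar Kb (M * q) q (s37w_al M q hq hqM x) :
        ffi_F (M * q * q)) : LaurentSeries Kb)
    rw [s36m_al2K, s36m_alK_gen _ _ _ _ D _ h1, coe_heckeBetaBar,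
      s37w_al_gen M q hq hqM d x hx, s37w_gen_qExpand, s37w_gen]
    exact congrArg _ (qExpand_congr (s36m_alCo_qq M q hq hqM d) jq)
  exact AlgHom.congr_fun key y

/-- **`w_{q²} ∘ β' = α' ∘ w_q`** over `Q̄`. -/
theorem s36m_al2K_beta (hq : q.Prime) (hqM : ¬ q ∣ M) (y : ffi_F (M * q)) :
    s36m_al2K M q hq hqM (heckeBetaBar Kb (M * q) q y) =
      heckeAlphaBar Kb (M * q) q (s37w_al M q hq hqM y) := by
  have h := s36m_al2K_alpha M q hq hqM (s37w_al M q hq hqM y)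
  rw [s37w_al_al] at h
  rw [← h, s36m_al2K_al2K]

end

/-! ### Over `K₀` -/

noncomputable section

set_option linter.unusedSectionVars false

variable {K₀ : Type*} [Field K₀] [Algebra ℚ K₀] (φ : K₀ →+* AlgebraicClosure ℚ)
variable (M q : ℕ) [NeZero M] [NeZero q]

/-- **The Atkin–Lehner involution `w_{q²}` of `F_{K₀}(M q q)`.** -/
def s36m_al2 (hq : q.Prime) (hqM : ¬ q ∣ M) :
    s34m_F K₀ (M * q * q) ≃ₐ[K₀] s34m_F K₀ (M * q * q) :=
  s36m_alE (M * q * q) (q * q) φ (s36m_qq_dvd M q) (s36m_qq_coprime M q hq hqM)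

theorem s36m_iota_al2 (hq : q.Prime) (hqM : ¬ q ∣ M) (x : s34m_F K₀ (M * q * q)) :
    s34m_iota φ (M * q * q) (s36m_al2 φ M q hq hqM x) =
      s36m_al2K M q hq hqM (s34m_iota φ (M * q * q) x) :=
  s36m_iota_alE _ _ φ _ _ x

theorem s36m_al2_al2 (hq : q.Prime) (hqM : ¬ q ∣ M) (x : s34m_F K₀ (M * q * q)) :
    s36m_al2 φ M q hq hqM (s36m_al2 φ M q hq hqM x) = x :=
  s36m_alE_alE _ _ φ _ _ x

/-- **`w_{q²} ∘ α' = β' ∘ w_q`.** -/
theorem s36m_al2_alpha (hq : q.Prime) (hqM : ¬ q ∣ M) (y : s34m_F K₀ (M * q)) :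
    s36m_al2 φ M q hq hqM (heckeAlphaBar K₀ (M * q) q y) =
      heckeBetaBar K₀ (M * q) q (s34m_al φ M q hq hqM y) := by
  apply s34m_iota_injective φ
  rw [s36m_iota_al2, s34m_iota_alpha, s34m_iota_beta, s34m_iota_al, s36m_al2K_alpha]

/-- **`w_{q²} ∘ β' = α' ∘ w_q`.** -/
theorem s36m_al2_beta (hq : q.Prime) (hqM : ¬ q ∣ M) (y : s34m_F K₀ (M * q)) :
    s36m_al2 φ M q hq hqM (heckeBetaBar K₀ (M * q) q y) =
      heckeAlphaBar K₀ (M * q) q (s34m_al φ M q hq hqM y) := by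
  apply s34m_iota_injective φ
  rw [s36m_iota_al2, s34m_iota_alpha, s34m_iota_beta, s34m_iota_al, s36m_al2K_beta]

theorem s36m_al2_galois (hq : q.Prime) (hqM : ¬ q ∣ M) (σ₀ : K₀ ≃ₐ[ℚ] K₀)
    (x : s34m_F K₀ (M * q * q)) :
    s36m_al2 φ M q hq hqM (arithmeticRingAut (modularFunctionFieldFull (M * q * q)) σ₀ x) =
      arithmeticRingAut (modularFunctionFieldFull (M * q * q)) σ₀ (s36m_al2 φ M q hq hqM x) :=
  s36m_alE_galois _ _ φ _ _ σ₀ x

end

end Fermat.Agent.Lib.S36
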