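/-
S36 mega-project, layer (M) (helper6), part 4: the two INPUT CONTRACTS of the construction of the
middle valuation `V_mid` of the function field of level `M q q` (Gauss valuation of the
`q`-expansion at the middle cusp `1/(qM)`, coefficients in `K₀(ζ_q)`), and the uniformiser
`s36m_t = j_{q²} - j`.

* `s36m_CuspEmb M q` (analytic, over `Q̄`): the expansion at the middle cusp, a `Q̄`-algebra
  embedding `ι̂ : F̄(M q q) → Q̄((T))` with `j(T^D) ↦ j(T^D)` for `D ∣ M q` and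
  `j(T^(d q q)) ↦ j((ξ T)^d)` for `d ∣ M`, `ξ` a primitive `q`-th root of unity
  (`f ↦ f ∘ γ`, `γ = (1,0;qM,1)`: `j(D γ z) = j(D z)` for `D ∣ M q`,
  `j(q² d γ z) = j(d z + b_d / q)`, `b_d (M/d) ≡ 1 (q)`; `ξ = ζ^c`, `c M ≡ 1 (q)`).
* `s36m_CycloExt G φ q ξ` (arithmetic): the totally ramified extension `K₁ = K₀(ξ) ⊆ Q̄` of the
  discretely valued field `(K₀, G.A)` (unramified over `q`) with its Gauss data `G₁`:
  uniformiser `ξ - 1`, same residue field, `ϖ = unit · (ξ - 1)^(q-1)`.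
-/
import Fermat.Agent.Lib.S36.MTwist
import Fermat.Agent.Lib.S36.MAlQ
import Fermat.Agent.Lib.S34.MValAlpha

set_option autoImplicit false

noncomputable section

namespace Fermat.Agent.Lib.S36

open ModularCurve AlgebraicCurve HahnSeries Fermat.Agent.Lib.FF Fermat.Agent.Lib.S18
  Fermat.Agent.Lib.S37 Fermat.Agent.Lib.S34

local notation "Kb" => AlgebraicClosure ℚ

/-- **Contract (C1)**: the `q`-expansion at the middle cusp of level `M q q` over `Q̄`. -/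
def s36m_CuspEmb (M q : ℕ) [NeZero M] [NeZero q] : Prop :=
  ∃ ξ : Kbˣ, IsPrimitiveRoot (ξ : Kb) q ∧
    ∃ ih : ffi_F (M * q * q) →ₐ[Kb] LaurentSeries Kb,
      (∀ (D : ℕ) [NeZero D], D ∣ M * q → ∀ x : ffi_F (M * q * q),
        (x : LaurentSeries Kb) = coeffEmb Kb (qExpand ℚ D jq) →
          ih x = coeffEmb Kb (qExpand ℚ D jq)) ∧
      (∀ (d : ℕ) [NeZero d], d ∣ M → ∀ x : ffi_F (M * q * q),
        (x : LaurentSeries Kb) = coeffEmb Kb (qExpand ℚ (d * q * q) jq) →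
          ih x = s36m_twist ξ (coeffEmb Kb (qExpand ℚ d jq)))

/-- **Contract (C2)**: the totally ramified cyclotomic extension of the Gauss data. -/
def s36m_CycloExt {K₀ κ : Type} [Field K₀] [Field κ] (G : s18g_GaussData K₀ κ)
    (φ : K₀ →+* Kb) (q : ℕ) (ξ : Kbˣ) : Prop :=
  ∃ (K₁ : Type) (_ : Field K₁) (ψ : K₀ →+* K₁) (φ₁ : K₁ →+* Kb) (ξ₁ : K₁ˣ)
    (G₁ : s18g_GaussData K₁ κ),
    φ₁.comp ψ = φ ∧ φ₁ (ξ₁ : K₁) = (ξ : Kb) ∧
    (∀ a : K₀, ψ a ∈ G₁.A ↔ a ∈ G.A) ∧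
    (∀ (a : K₀) (h : a ∈ G.A) (h' : ψ a ∈ G₁.A), G₁.π ⟨ψ a, h'⟩ = G.π ⟨a, h⟩) ∧
    (ξ₁ : K₁) ∈ G₁.A ∧ ((G₁.ϖ : G₁.A) : K₁) = (ξ₁ : K₁) - 1 ∧
    ∃ u : K₁, u ∈ G₁.A ∧ u⁻¹ ∈ G₁.A ∧ ψ ((G.ϖ : G.A) : K₀) = u * ((ξ₁ : K₁) - 1) ^ (q - 1)

variable {K₀ : Type*} [Field K₀] [Algebra ℚ K₀] (M q : ℕ) [NeZero M] [NeZero q]

/-- `j_{q²} = j(T^(q²))` as an element of the function field of level `M q q`. -/
def s36m_jqq : s34m_F K₀ (M * q * q) :=
  heckeBetaBar K₀ (M * q) q (s34m_betaJ (K₀ := K₀) M q)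

/-- **The uniformiser of `V_mid`**: `t = j_{q²} - j`. -/
def s36m_t : s34m_F K₀ (M * q * q) :=
  s36m_jqq (K₀ := K₀) M q - s18g_jF (K := K₀) (M * q * q)

theorem s36m_coe_jqq :
    ((s36m_jqq (K₀ := K₀) M q : s34m_F K₀ (M * q * q)) : LaurentSeries K₀) =
      qExpand K₀ q (qExpand K₀ q (jqModC K₀)) := rfl

end Fermat.Agent.Lib.S36
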