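/-
S36 (lead), layer (X), abstract core: **Theorem X₀ of `Lib/S34/XCore.lean` / `XLocal.lean` with the
congruence ideal `πO` replaced by an ideal `J` of `O` lying in the Jacobson radical, containing `π`,
with `J ^ e ⊆ πO`** (in the application `O = V₁ ⊓ V₂ ⊓ V₃` at level `q²N'`, `J = rad(πO)` = the
elements that are non-units of all three valuation rings, `e = q - 1` because the middle component
has multiplicity `q - 1`).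

`J` is given as an additive subgroup of the function field with
* `hJO  : ∀ a ∈ J, a ∈ O`,                `hOJ : ∀ b ∈ O, ∀ a ∈ J, b * a ∈ J`   (an ideal of `O`),
* `hJjac : ∀ y ∈ J, ∃ u ∈ O, (1 + y) * u = 1`                                  (`J ⊆ Jac(O)`),
* `hπJ  : π ∈ J`,  `hJe : ∀ l : Fin e → 𝓕, (∀ k, l k ∈ J) → ∃ y ∈ O, ∏ k, l k = π * y`  (`J^e ⊆ πO`).

Main statements (all are the verbatim analogues of the `s34x_*` ones, `≡ 1 mod πO` ↦ `≡ 1 mod J`):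
* `s36x_pow_le`, `s36x_exists_inv_root`   : pure algebra;
* `s36x_approx_of_one`                     : `s18k_approx_of_one` for `J`;
* `s36x_sub_mem`                           : uniqueness of approximate `m`-th roots in `O`;
* `s36x_exists_section`, `s36x_chart_approx_of_one`, `s36x_zero` : Theorem X₀ for `J`;
* `s36x_one_of_local`, `s36x_zero_of_local` : the local form (LOC₁), (LOC₂), (H).
-/
import Fermat.Agent.Lib.S34.XInf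
import Fermat.Agent.Lib.S36.CNewtonRad

set_option autoImplicit false

noncomputable section

namespace Fermat.Agent.Lib.S36

open AlgebraicCurve Fermat.Agent.Lib.FF Fermat.Agent.Lib.S18 Fermat.Agent.Lib.S34

section PureAlgebra

variable {B : Type*} [CommRing B]

/-- If all `e`-fold products of elements of `I` lie in `K` then `I ^ e ≤ K`. -/
theorem s36x_pow_le (I : Ideal B) (e : ℕ) :
    ∀ K : Ideal B, (∀ l : Fin e → B, (∀ k, l k ∈ I) → ∏ k, l k ∈ K) → I ^ e ≤ K := by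
  induction e with
  | zero =>
    intro K h
    have h1 : (1 : B) ∈ K := by
      have := h Fin.elim0 (fun k => k.elim0)
      simpa using this
    rw [(Ideal.eq_top_iff_one K).mpr h1]
    exact le_top
  | succ e ih =>
    intro K h
    rw [pow_succ', Ideal.mul_le]
    intro a ha b hb
    let K' : Ideal B :=
      { carrier := {b | a * b ∈ K}
        zero_mem' := by simp
        add_mem' := by
          intro x y hx hy
          show a * (x + y) ∈ K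
          rw [mul_add]; exact K.add_mem hx hy
        smul_mem' := by
          intro c x hx
          show a * (c • x) ∈ K
          rw [smul_eq_mul, mul_left_comm]
          exact K.mul_mem_left _ hx }
    have hK' : I ^ e ≤ K' := by
      apply ih K'
      intro l hl
      show a * ∏ k, l k ∈ K
      have := h (Fin.cons a l) (by
        intro k
        refine Fin.cases ?_ (fun k' => ?_) k
        · simpa using ha
        · simpa using hl k')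
      rwa [Fin.prod_univ_succ, Fin.cons_zero] at this
      
    exact hK' hb

/-- Inverse `m`-th roots modulo `π ^ n` for `b₀ ∈ 1 + I`, `I ^ e ≤ (π)`. -/
theorem s36x_exists_inv_root (I : Ideal B) (π : B) (hπI : π ∈ I) (e : ℕ)
    (hIe : I ^ e ≤ Ideal.span {π}) (m : ℕ) (hm : IsUnit (m : B)) (b₀ : B) (hb₀ : b₀ - 1 ∈ I)
    (n : ℕ) : ∃ w : B, w - 1 ∈ I ∧ w ^ m * b₀ - 1 ∈ Ideal.span {π ^ n} := by
  by_cases hN : e * n = 0
  · -- then `(π ^ n) = ⊤`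
    have htop : Ideal.span {π ^ n} = (⊤ : Ideal B) := by
      rcases Nat.mul_eq_zero.mp hN with h | h
      · subst h
        have h1 : (1 : B) ∈ Ideal.span {π} := hIe (by simp)
        have hu : IsUnit π := Ideal.span_singleton_eq_top.mp ((Ideal.eq_top_iff_one _).mpr h1)
        exact Ideal.span_singleton_eq_top.mpr (hu.pow n)
      · subst h
        simp
    exact ⟨1, by simp, by rw [htop]; trivial⟩
  set N := e * n with hNdef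
  set x : B := 1 - b₀ with hx
  have hxI : x ∈ I := by
    have : x = -(b₀ - 1) := by rw [hx]; ring
    rw [this]; exact I.neg_mem hb₀
  set ε : B := ∑ i ∈ Finset.range N, x ^ i with hε
  have hεb : ε * b₀ = 1 - x ^ N := by
    have h1 : (1 - x) * ε = 1 - x ^ N := mul_neg_geom_sum x N
    have h2 : b₀ = 1 - x := by rw [hx]; ring
    rw [h2, mul_comm]; exact h1
  have hxN : x ^ N ∈ Ideal.span {π ^ n} := by
    have h1 : x ^ N ∈ I ^ N := Ideal.pow_mem_pow hxI N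
    have h2 : I ^ N ≤ Ideal.span {π ^ n} := by
      rw [hNdef, pow_mul, ← Ideal.span_singleton_pow]
      exact Ideal.pow_right_mono hIe n
    exact h2 h1
  have hxNI : x ^ N ∈ I := by
    obtain ⟨k, hk⟩ := Nat.exists_eq_succ_of_ne_zero hN
    rw [hk, pow_succ]
    exact I.mul_mem_left _ hxI
  have hε1 : ε - 1 ∈ I := by
    have : ε - 1 = ε * x - x ^ N := by
      have h2 : b₀ = 1 - x := by rw [hx]; ring
      rw [h2] at hεb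
      linear_combination hεb
    rw [this]
    exact I.sub_mem (I.mul_mem_left _ hxI) hxNI
  obtain ⟨w, hw1, hw⟩ := s36c_exists_pow_sub_mem I π hπI e hIe m hm ε hε1 n
  refine ⟨w, hw1, ?_⟩
  have : w ^ m * b₀ - 1 = (w ^ m - ε) * b₀ - x ^ N := by
    linear_combination hεb
  rw [this]
  exact Ideal.sub_mem _ (Ideal.mul_mem_right _ _ hw) hxN

end PureAlgebra

section Field

variable {𝓕 : Type*} [Field 𝓕]

/-- **`s18k_approx_of_one` for a radical-type ideal `J`.** -/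
theorem s36x_approx_of_one (O B : Subring 𝓕) (hBO : B ≤ O) (π f : 𝓕) (m : ℕ)
    (J : AddSubgroup 𝓕) (hOJ : ∀ b ∈ O, ∀ a ∈ J, b * a ∈ J) (hπJ : π ∈ J)
    (e : ℕ) (hJe : ∀ l : Fin e → 𝓕, (∀ k, l k ∈ J) → ∃ y ∈ O, ∏ k, l k = π * y)
    (I : AddSubgroup 𝓕)
    (hπB : π ∈ B)
    (hIO : ∀ a ∈ I, a ∈ O)
    (hBI : ∀ b ∈ B, ∀ a ∈ I, b * a ∈ I)
    (hpureB : ∀ b ∈ B, (∃ x ∈ O, b = π * x) → ∃ b' ∈ B, b = π * b')
    (hg : ∃ g ∈ I, g - 1 ∈ J)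
    (hpowI : ∀ a ∈ I, ∃ b ∈ B, a ^ m = f * b)
    (hf : f ∈ O) (hf1 : f - 1 ∈ J)
    (hm : ∃ m' ∈ B, (m : 𝓕) * m' = 1) :
    ∀ n : ℕ, ∃ a ∈ I, a - 1 ∈ J ∧ ∃ y ∈ O, a ^ m - f = π ^ n * y := by
  classical
  obtain ⟨g, hgI, hg1⟩ := hg
  have hgO : g ∈ O := hIO g hgI
  obtain ⟨b₀, hb₀, eb₀⟩ := hpowI g hgI
  have hb₀O : b₀ ∈ O := hBO hb₀
  have hgm : g ^ m - 1 ∈ J := by
    have h := (Commute.all g 1).geom_sum₂_mul m
    rw [one_pow] at h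
    rw [← h]
    exact hOJ _ (O.sum_mem fun i _ => O.mul_mem (O.pow_mem hgO _) (O.pow_mem O.one_mem _)) _ hg1
  have hb₀J : b₀ - 1 ∈ J := by
    have : b₀ - 1 = (g ^ m - 1) - b₀ * (f - 1) := by rw [eb₀]; ring
    rw [this]
    exact J.sub_mem hgm (hOJ _ hb₀O _ hf1)
  -- the ideal `J ∩ B` of `B`
  let IB : Ideal B :=
    { carrier := {b | (b : 𝓕) ∈ J}
      zero_mem' := J.zero_mem
      add_mem' := fun {x y} hx hy => by
        show ((x + y : B) : 𝓕) ∈ J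
        push_cast; exact J.add_mem hx hy
      smul_mem' := fun c x hx => by
        show ((c • x : B) : 𝓕) ∈ J
        rw [smul_eq_mul]; push_cast
        exact hOJ _ (hBO c.2) _ hx }
  have hIBe : IB ^ e ≤ Ideal.span {(⟨π, hπB⟩ : B)} := by
    apply s36x_pow_le IB e
    intro l hl
    obtain ⟨y, hy, ey⟩ := hJe (fun k => (l k : 𝓕)) hl
    have hprodB : ((∏ k, l k : B) : 𝓕) = ∏ k, (l k : 𝓕) := by
      push_cast; rfl
    obtain ⟨b', hb', eb'⟩ := hpureB ((∏ k, l k : B) : 𝓕) (∏ k, l k : B).2 ⟨y, hy, by rw [hprodB, ey]⟩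
    refine Ideal.mem_span_singleton'.mpr ⟨⟨b', hb'⟩, ?_⟩
    apply Subtype.ext
    show b' * π = ((∏ k, l k : B) : 𝓕)
    rw [eb']; ring
  obtain ⟨m', hm'B, em'⟩ := hm
  have hmB : IsUnit ((m : ℕ) : B) := by
    refine IsUnit.of_mul_eq_one (⟨m', hm'B⟩ : B) ?_
    apply Subtype.ext
    simpa using em'
  intro n
  obtain ⟨w, hw1, hw⟩ := s36x_exists_inv_root IB (⟨π, hπB⟩ : B) hπJ e hIBe m hmB ⟨b₀, hb₀⟩
    (by
      show (((⟨b₀, hb₀⟩ : B) - 1 : B) : 𝓕) ∈ J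
      push_cast; exact hb₀J) n
  obtain ⟨c, hc⟩ := Ideal.mem_span_singleton'.mp hw
  have e2 : (c : 𝓕) * π ^ n = (w : 𝓕) ^ m * b₀ - 1 := by
    have := congrArg Subtype.val hc
    simpa using this
  have hw1' : (w : 𝓕) - 1 ∈ J := by
    have : (((w - 1 : B)) : 𝓕) ∈ J := hw1
    simpa using this
  refine ⟨(w : 𝓕) * g, hBI _ w.2 _ hgI, ?_, ?_⟩
  · have : (w : 𝓕) * g - 1 = (w : 𝓕) * (g - 1) + ((w : 𝓕) - 1) := by ring
    rw [this]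
    exact J.add_mem (hOJ _ (hBO w.2) _ hg1) hw1'
  · refine ⟨f * c, O.mul_mem hf (hBO c.2), ?_⟩
    have : ((w : 𝓕) * g) ^ m - f = f * ((w : 𝓕) ^ m * b₀ - 1) := by
      rw [mul_pow, eb₀]; ring
    rw [this, ← e2]; ring

/-- `J ⊆ Jac(O)`, in ideal form. -/
theorem s36x_le_jacobson (O : Subring 𝓕) (J : AddSubgroup 𝓕) (hOJ : ∀ b ∈ O, ∀ a ∈ J, b * a ∈ J)
    (hJjac : ∀ y ∈ J, ∃ u ∈ O, (1 + y) * u = 1) (x : O) (hx : (x : 𝓕) ∈ J) :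
    x ∈ (⊥ : Ideal O).jacobson := by
  rw [Ideal.mem_jacobson_bot]
  intro y
  obtain ⟨u, hu, eu⟩ := hJjac ((x : 𝓕) * y) (by
    rw [mul_comm]; exact hOJ _ y.2 _ hx)
  refine IsUnit.of_mul_eq_one (⟨u, hu⟩ : O) (Subtype.ext ?_)
  show ((x : 𝓕) * y + 1) * u = 1
  rw [add_comm]; exact eu

/-- `1 ∉ J`. -/
theorem s36x_one_not_mem (O : Subring 𝓕) (J : AddSubgroup 𝓕)
    (hJjac : ∀ y ∈ J, ∃ u ∈ O, (1 + y) * u = 1) : (1 : 𝓕) ∉ J := by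
  intro h1
  obtain ⟨u, _, eu⟩ := hJjac (-1) (J.neg_mem h1)
  have : (1 : 𝓕) + -1 = 0 := by ring
  rw [this, zero_mul] at eu
  exact zero_ne_one eu

/-- If `f ≡ 1 mod J` then `f⁻¹ ∈ O`. -/
theorem s36x_inv_mem (O : Subring 𝓕) (J : AddSubgroup 𝓕)
    (hJjac : ∀ y ∈ J, ∃ u ∈ O, (1 + y) * u = 1) (f : 𝓕) (hf1 : f - 1 ∈ J) : f⁻¹ ∈ O := by
  obtain ⟨u, hu, eu⟩ := hJjac (f - 1) hf1
  have hf : f = 1 + (f - 1) := by ring
  have : f⁻¹ = u := by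
    rw [hf]; exact inv_eq_of_mul_eq_one_right eu
  rw [this]; exact hu

/-- Uniqueness of approximate `m`-th roots in `O`, for `J`. -/
theorem s36x_sub_mem (O : Subring 𝓕) (π : 𝓕) (hπO : π ∈ O)
    (J : AddSubgroup 𝓕) (hJO : ∀ a ∈ J, a ∈ O) (hOJ : ∀ b ∈ O, ∀ a ∈ J, b * a ∈ J)
    (hJjac : ∀ y ∈ J, ∃ u ∈ O, (1 + y) * u = 1)
    (m : ℕ) (hm : ∃ u ∈ O, (m : 𝓕) * u = 1)
    {a₁ a₂ : 𝓕} (h₁ : a₁ - 1 ∈ J) (h₂ : a₂ - 1 ∈ J)
    (n : ℕ) (h : ∃ y ∈ O, a₁ ^ m - a₂ ^ m = π ^ n * y) : ∃ y ∈ O, a₁ - a₂ = π ^ n * y := by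
  obtain ⟨y, hy, e⟩ := h
  obtain ⟨u, hu, eu⟩ := hm
  have ha₁ : a₁ ∈ O := by
    have : a₁ = 1 + (a₁ - 1) := by ring
    rw [this]; exact O.add_mem O.one_mem (hJO _ h₁)
  have ha₂ : a₂ ∈ O := by
    have : a₂ = 1 + (a₂ - 1) := by ring
    rw [this]; exact O.add_mem O.one_mem (hJO _ h₂)
  have hmu : IsUnit ((m : ℕ) : O) := by
    refine IsUnit.of_mul_eq_one (⟨u, hu⟩ : O) ?_
    apply Subtype.ext
    simpa using eu
  let IO : Ideal O :=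
    { carrier := {b | (b : 𝓕) ∈ J}
      zero_mem' := J.zero_mem
      add_mem' := fun {x y} hx hy => by
        show ((x + y : O) : 𝓕) ∈ J
        push_cast; exact J.add_mem hx hy
      smul_mem' := fun c x hx => by
        show ((c • x : O) : 𝓕) ∈ J
        rw [smul_eq_mul]; push_cast
        exact hOJ _ c.2 _ hx }
  have hIO : IO ≤ (⊥ : Ideal O).jacobson := fun x hx => s36x_le_jacobson O J hOJ hJjac x hx
  have key := s36c_sub_mem_of_pow_sub_mem (B := O) IO hIO m hmu ⟨a₁, ha₁⟩ ⟨a₂, ha₂⟩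
    (by
      show (((⟨a₁, ha₁⟩ : O) - 1 : O) : 𝓕) ∈ J
      push_cast; exact h₁)
    (by
      show (((⟨a₂, ha₂⟩ : O) - 1 : O) : 𝓕) ∈ J
      push_cast; exact h₂)
    (Ideal.span {(⟨π, hπO⟩ : O) ^ n})
    (Ideal.mem_span_singleton'.mpr ⟨⟨y, hy⟩, by
      apply Subtype.ext
      show y * π ^ n = a₁ ^ m - a₂ ^ m
      rw [e]; ring⟩)
  obtain ⟨c, hc⟩ := Ideal.mem_span_singleton'.mp key
  refine ⟨c, c.2, ?_⟩
  have h2 : (c : 𝓕) * π ^ n = a₁ - a₂ := by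
    have := congrArg Subtype.val hc
    simpa using this
  rw [← h2]; ring

end Field

section Curve

variable {L₀ 𝓕 : Type*} [Field L₀] [Field 𝓕] [Algebra L₀ 𝓕]

/-- **Abstract assembly for `J`** (copy of `s34x_exists_section`). -/
theorem s36x_exists_section (A₀ : ValuationSubring L₀) [IsNoetherianRing A₀]
    (O : Subring 𝓕) (hAO : ∀ a : A₀, algebraMap L₀ 𝓕 (a : L₀) ∈ O)
    (ϖ : A₀) (hϖ0 : (ϖ : L₀) ≠ 0)
    (J : AddSubgroup 𝓕) (hJO : ∀ a ∈ J, a ∈ O) (hOJ : ∀ b ∈ O, ∀ a ∈ J, b * a ∈ J)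
    (hJjac : ∀ y ∈ J, ∃ u ∈ O, (1 + y) * u = 1)
    (hπJ : algebraMap L₀ 𝓕 (ϖ : L₀) ∈ J)
    (t f : 𝓕) (m : ℕ) (hm : ∃ u ∈ O, (m : 𝓕) * u = 1) (E : Place L₀ 𝓕 → ℤ)
    (h1 : ∀ n : ℕ, ∃ a ∈ s34x_latSet O (s18_chart1 t) E,
      a - 1 ∈ J ∧ ∃ y ∈ O, a ^ m - f = algebraMap L₀ 𝓕 (ϖ : L₀) ^ n * y)
    (h2 : ∀ n : ℕ, ∃ a ∈ s34x_latSet O (s18_chart2 t) E,
      a - 1 ∈ J ∧ ∃ y ∈ O, a ^ m - f = algebraMap L₀ 𝓕 (ϖ : L₀) ^ n * y)
    (hH : ∃ G : Submodule A₀ 𝓕, G.FG ∧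
      s34x_lat A₀ O hAO (s18_chart12 t) E ≤
        G ⊔ (s34x_lat A₀ O hAO (s18_chart1 t) E ⊔ s34x_lat A₀ O hAO (s18_chart2 t) E)) :
    ∃ x : 𝓕, x ≠ 0 ∧ x ∈ O ∧ ∀ Q : Place L₀ 𝓕, E Q ≤ Q.ord x := by
  set π : 𝓕 := algebraMap L₀ 𝓕 (ϖ : L₀) with hπdef
  have hπO : π ∈ O := hAO ϖ
  have h1J : (1 : 𝓕) ∉ J := s36x_one_not_mem O J hJjac
  obtain ⟨G, hG, hcover⟩ := hH
  have hsmul : ∀ (n : ℕ) (c : 𝓕), (ϖ ^ n) • c = π ^ n * c := by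
    intro n c
    rw [Algebra.smul_def, hπdef, ← map_pow]; rfl
  have hsmul1 : ∀ c : 𝓕, ϖ • c = π * c := by
    intro c
    rw [Algebra.smul_def]; rfl
  have h12_1 : s34x_lat A₀ O hAO (s18_chart1 t) E ≤ s34x_lat A₀ O hAO (s18_chart12 t) E :=
    s34x_lat_mono A₀ O hAO Set.inter_subset_left E
  have h12_2 : s34x_lat A₀ O hAO (s18_chart2 t) E ≤ s34x_lat A₀ O hAO (s18_chart12 t) E :=
    s34x_lat_mono A₀ O hAO Set.inter_subset_right E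
  obtain ⟨x, hx, hx0⟩ := s18a_core_fg ϖ (s34x_lat A₀ O hAO (s18_chart1 t) E)
    (s34x_lat A₀ O hAO (s18_chart2 t) E) (s34x_lat A₀ O hAO (s18_chart12 t) E) G h12_1 hG hcover
    (by
      intro n
      obtain ⟨a₁, ha₁, ha₁1, ha₁f⟩ := h1 n
      obtain ⟨a₂, ha₂, ha₂1, ha₂f⟩ := h2 n
      refine ⟨a₁, ha₁, a₂, ha₂, ?_, ?_⟩
      · rintro ⟨y, hy, hay⟩
        apply h1J
        rw [hsmul1] at hay
        have : (1 : 𝓕) = y * π - (a₁ - 1) := by rw [hay]; ring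
        rw [this]
        exact J.sub_mem (hOJ _ hy.1 _ hπJ) ha₁1
      · have hdiff : ∃ y ∈ O, a₁ ^ m - a₂ ^ m = π ^ n * y := by
          obtain ⟨y₁, hy₁, e₁⟩ := ha₁f
          obtain ⟨y₂, hy₂, e₂⟩ := ha₂f
          refine ⟨y₁ - y₂, O.sub_mem hy₁ hy₂, ?_⟩
          rw [mul_sub, ← e₁, ← e₂]; ring
        obtain ⟨c, hc, hceq⟩ := s36x_sub_mem O π hπO J hJO hOJ hJjac m hm ha₁1 ha₂1 n hdiff
        refine ⟨c, ?_, by rw [hsmul]; exact hceq⟩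
        have hmem : a₁ - a₂ ∈ s34x_lat A₀ O hAO (s18_chart12 t) E :=
          Submodule.sub_mem _ (h12_1 ha₁) (h12_2 ha₂)
        have hpow : (ϖ : L₀) ^ n ≠ 0 := pow_ne_zero _ hϖ0
        exact s34x_lat_pure O (s18_chart12 t) E ((ϖ : L₀) ^ n) hpow hmem hc
          (by rw [hceq, map_pow]))
  refine ⟨x, hx0, hx.1.1, fun Q => ?_⟩
  have hQ : Q ∈ s18_chart1 t ∪ s18_chart2 t := by
    rw [s18_chart1_union_chart2]; trivial
  rcases hQ with hQ | hQ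
  · exact (hx.1.2 Q hQ).resolve_left hx0
  · exact (hx.2.2 Q hQ).resolve_left hx0

/-- Chart-wise approximation from an element of the lattice congruent to `1` modulo `J`
(copy of `s34x_chart_approx_of_one`). -/
theorem s36x_chart_approx_of_one (A₀ : ValuationSubring L₀) (O : Subring 𝓕)
    (hAO : ∀ a : A₀, algebraMap L₀ 𝓕 (a : L₀) ∈ O)
    (ϖ : A₀) (hϖ0 : (ϖ : L₀) ≠ 0)
    (J : AddSubgroup 𝓕) (hOJ : ∀ b ∈ O, ∀ a ∈ J, b * a ∈ J)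
    (hJjac : ∀ y ∈ J, ∃ u ∈ O, (1 + y) * u = 1)
    (hπJ : algebraMap L₀ 𝓕 (ϖ : L₀) ∈ J)
    (e : ℕ) (hJe : ∀ l : Fin e → 𝓕, (∀ k, l k ∈ J) →
      ∃ y ∈ O, ∏ k, l k = algebraMap L₀ 𝓕 (ϖ : L₀) * y)
    (S : Set (Place L₀ 𝓕)) (f : 𝓕) (m : ℕ) (hm0 : m ≠ 0) (hmA : ((m : L₀))⁻¹ ∈ A₀)
    (hmL : (m : L₀) ≠ 0)
    (hdiv : ∀ Q : Place L₀ 𝓕, (m : ℤ) ∣ Q.ord f)
    (hfO : f ∈ O) (hf1 : f - 1 ∈ J)
    (hg : ∃ g ∈ s34x_latSet O S (s18_E f m), g - 1 ∈ J) :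
    ∀ n : ℕ, ∃ a ∈ s34x_latSet O S (s18_E f m),
      a - 1 ∈ J ∧ ∃ y ∈ O, a ^ m - f = algebraMap L₀ 𝓕 (ϖ : L₀) ^ n * y := by
  set π : 𝓕 := algebraMap L₀ 𝓕 (ϖ : L₀) with hπdef
  have hπO : π ∈ O := hAO ϖ
  have h1J : (1 : 𝓕) ∉ J := s36x_one_not_mem O J hJjac
  have hfinv : f⁻¹ ∈ O := s36x_inv_mem O J hJjac f hf1
  have hf0 : f ≠ 0 := by
    rintro rfl
    apply h1J
    have : (1 : 𝓕) = -(0 - 1) := by ring
    rw [this]; exact J.neg_mem hf1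
  have hE : ∀ Q : Place L₀ 𝓕, (m : ℤ) * s18_E f m Q = Q.ord f := s18_E_mul f m hdiv
  have hconst : ∀ a : A₀, algebraMap L₀ 𝓕 (a : L₀) ∈ s34x_ring O S := fun a =>
    ⟨hAO a, fun Q _ => Q.algebraMap_mem' _⟩
  exact s36x_approx_of_one (𝓕 := 𝓕) O (s34x_ring O S) (s34x_ring_le O S) π f m J hOJ hπJ e hJe
    (s34x_latAdd O S (s18_E f m))
    (hconst ϖ) (fun a ha => ha.1)
    (by
      intro b hb a ha
      exact s34x_ring_mul_lat O S _ hb ha)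
    (by
      intro b hb ⟨x, hx, hbx⟩
      have hb' : b ∈ s34x_latSet O S (fun _ => 0) := by
        rw [← s34x_ringSet_eq_latSet_zero]; exact hb
      have hx' := s34x_lat_pure O S (fun _ => 0) (ϖ : L₀) hϖ0 hb' hx hbx
      rw [← s34x_ringSet_eq_latSet_zero] at hx'
      exact ⟨x, hx', hbx⟩)
    hg
    (by
      intro a ha
      refine ⟨f⁻¹ * a ^ m, ?_, by rw [← mul_assoc, mul_inv_cancel₀ hf0, one_mul]⟩
      refine ⟨O.mul_mem hfinv (O.pow_mem ha.1 m), fun Q hQ => ?_⟩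
      by_cases ha0 : a = 0
      · rw [ha0, zero_pow hm0, mul_zero]; exact Q.toValuationSubring.zero_mem
      have hne : f⁻¹ * a ^ m ≠ 0 := mul_ne_zero (inv_ne_zero hf0) (pow_ne_zero _ ha0)
      rw [ff_mem_iff_ord_nonneg Q hne, Q.ord_mul (inv_ne_zero hf0) (pow_ne_zero _ ha0),
        Q.ord_inv, ← zpow_natCast, Q.ord_zpow, ← hE Q]
      have h := (ha.2 Q hQ).resolve_left ha0
      have hm' : (0 : ℤ) ≤ (m : ℤ) := Int.natCast_nonneg m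
      nlinarith [mul_le_mul_of_nonneg_left h hm'])
    hfO hf1
    (by
      refine ⟨algebraMap L₀ 𝓕 ((m : L₀))⁻¹, hconst ⟨_, hmA⟩, ?_⟩
      rw [← map_natCast (algebraMap L₀ 𝓕) m, ← map_mul, mul_inv_cancel₀ hmL, map_one])

/-- **Theorem X₀ for `J`** (copy of `s34x_zero`). -/
theorem s36x_zero (A₀ : ValuationSubring L₀) [IsNoetherianRing A₀]
    (O : Subring 𝓕) (hAO : ∀ a : A₀, algebraMap L₀ 𝓕 (a : L₀) ∈ O)
    (ϖ : A₀) (hϖ0 : (ϖ : L₀) ≠ 0)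
    (J : AddSubgroup 𝓕) (hJO : ∀ a ∈ J, a ∈ O) (hOJ : ∀ b ∈ O, ∀ a ∈ J, b * a ∈ J)
    (hJjac : ∀ y ∈ J, ∃ u ∈ O, (1 + y) * u = 1)
    (hπJ : algebraMap L₀ 𝓕 (ϖ : L₀) ∈ J)
    (e : ℕ) (hJe : ∀ l : Fin e → 𝓕, (∀ k, l k ∈ J) →
      ∃ y ∈ O, ∏ k, l k = algebraMap L₀ 𝓕 (ϖ : L₀) * y)
    (t f : 𝓕) (m : ℕ) (hm0 : m ≠ 0) (hmA : ((m : L₀))⁻¹ ∈ A₀) (hmL : (m : L₀) ≠ 0)
    (hdiv : ∀ Q : Place L₀ 𝓕, (m : ℤ) ∣ Q.ord f)
    (hf1 : f - 1 ∈ J)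
    (hg1 : ∃ g ∈ s34x_latSet O (s18_chart1 (L₀ := L₀) t) (s18_E f m), g - 1 ∈ J)
    (hg2 : ∃ g ∈ s34x_latSet O (s18_chart2 (L₀ := L₀) t) (s18_E f m), g - 1 ∈ J)
    (hH : ∃ G : Submodule A₀ 𝓕, G.FG ∧
      s34x_lat A₀ O hAO (s18_chart12 t) (s18_E f m) ≤
        G ⊔ (s34x_lat A₀ O hAO (s18_chart1 t) (s18_E f m) ⊔
          s34x_lat A₀ O hAO (s18_chart2 t) (s18_E f m))) :
    ∃ x : 𝓕, x ≠ 0 ∧ x ∈ O ∧ ∀ Q : Place L₀ 𝓕, Q.ord f ≤ (m : ℤ) * Q.ord x := by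
  have hmO : ∃ u ∈ O, (m : 𝓕) * u = 1 := by
    refine ⟨algebraMap L₀ 𝓕 ((m : L₀))⁻¹, hAO ⟨_, hmA⟩, ?_⟩
    rw [← map_natCast (algebraMap L₀ 𝓕) m, ← map_mul, mul_inv_cancel₀ hmL, map_one]
  have hfO : f ∈ O := by
    have : f = 1 + (f - 1) := by ring
    rw [this]; exact O.add_mem O.one_mem (hJO _ hf1)
  obtain ⟨x, hx0, hxO, hx⟩ := s36x_exists_section A₀ O hAO ϖ hϖ0 J hJO hOJ hJjac hπJ t f m hmO
    (s18_E f m)
    (s36x_chart_approx_of_one A₀ O hAO ϖ hϖ0 J hOJ hJjac hπJ e hJe _ f m hm0 hmA hmL hdiv hfO hf1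
      hg1)
    (s36x_chart_approx_of_one A₀ O hAO ϖ hϖ0 J hOJ hJjac hπJ e hJe _ f m hm0 hmA hmL hdiv hfO hf1
      hg2) hH
  refine ⟨x, hx0, hxO, fun Q => ?_⟩
  rw [← s18_E_mul f m hdiv Q]
  exact mul_le_mul_of_nonneg_left (hx Q) (Int.natCast_nonneg m)

/-- The ideal of the chart ring of all `b` congruent modulo `J` to an element of the lattice. -/
def s36x_congIdeal (O : Subring 𝓕) (S : Set (Place L₀ 𝓕)) (E : Place L₀ 𝓕 → ℤ)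
    (J : AddSubgroup 𝓕) (hOJ : ∀ b ∈ O, ∀ a ∈ J, b * a ∈ J) :
    Ideal (s34x_ring O S) where
  carrier := {b | ∃ a ∈ s34x_latSet O S E, a - (b : 𝓕) ∈ J}
  zero_mem' := ⟨0, (s34x_latAdd O S E).zero_mem, by simp⟩
  add_mem' := by
    rintro b₁ b₂ ⟨a₁, ha₁, e₁⟩ ⟨a₂, ha₂, e₂⟩
    refine ⟨a₁ + a₂, (s34x_latAdd O S E).add_mem ha₁ ha₂, ?_⟩
    have : a₁ + a₂ - ((b₁ + b₂ : s34x_ring O S) : 𝓕) = (a₁ - (b₁ : 𝓕)) + (a₂ - (b₂ : 𝓕)) := by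
      push_cast; ring
    rw [this]
    exact J.add_mem e₁ e₂
  smul_mem' := by
    rintro r b ⟨a, ha, e⟩
    refine ⟨(r : 𝓕) * a, s34x_ring_mul_lat O S E r.2 ha, ?_⟩
    have : (r : 𝓕) * a - ((r • b : s34x_ring O S) : 𝓕) = (r : 𝓕) * (a - (b : 𝓕)) := by
      rw [smul_eq_mul]; push_cast; ring
    rw [this]
    exact hOJ _ r.2.1 _ e

/-- **Local to global for `J`.** -/
theorem s36x_one_of_local (O : Subring 𝓕) (S : Set (Place L₀ 𝓕)) (E : Place L₀ 𝓕 → ℤ)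
    (J : AddSubgroup 𝓕) (hOJ : ∀ b ∈ O, ∀ a ∈ J, b * a ∈ J)
    (π : L₀) (hπO : algebraMap L₀ 𝓕 π ∈ O) (hπJ : algebraMap L₀ 𝓕 π ∈ J)
    (hloc : ∀ 𝔫 : Ideal (s34x_ring O S), 𝔫.IsMaximal → s34x_const O S π hπO ∈ 𝔫 →
      ∃ a ∈ s34x_latSet O S E, ∃ s : s34x_ring O S, s ∉ 𝔫 ∧ a - (s : 𝓕) ∈ J) :
    ∃ g ∈ s34x_latSet O S E, g - 1 ∈ J := by
  set 𝔞 := s36x_congIdeal O S E J hOJ with h𝔞
  have hπ𝔞 : s34x_const O S π hπO ∈ 𝔞 := by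
    refine ⟨0, (s34x_latAdd O S E).zero_mem, ?_⟩
    rw [s34x_const_coe, zero_sub]
    exact J.neg_mem hπJ
  have htop : 𝔞 = ⊤ := by
    by_contra hne
    obtain ⟨𝔫, h𝔫, hle⟩ := Ideal.exists_le_maximal 𝔞 hne
    obtain ⟨a, ha, s, hs, e⟩ := hloc 𝔫 h𝔫 (hle hπ𝔞)
    exact hs (hle ⟨a, ha, e⟩)
  have h1 : (1 : s34x_ring O S) ∈ 𝔞 := by rw [htop]; exact Submodule.mem_top
  obtain ⟨g, hg, e⟩ := h1
  exact ⟨g, hg, by simpa using e⟩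

/-- **Theorem X₀ for `J`, local form** (copy of `s34x_zero_of_local`). -/
theorem s36x_zero_of_local (A₀ : ValuationSubring L₀) [IsNoetherianRing A₀]
    (O : Subring 𝓕) (hAO : ∀ a : A₀, algebraMap L₀ 𝓕 (a : L₀) ∈ O)
    (ϖ : A₀) (hϖ0 : (ϖ : L₀) ≠ 0)
    (J : AddSubgroup 𝓕) (hJO : ∀ a ∈ J, a ∈ O) (hOJ : ∀ b ∈ O, ∀ a ∈ J, b * a ∈ J)
    (hJjac : ∀ y ∈ J, ∃ u ∈ O, (1 + y) * u = 1)
    (hπJ : algebraMap L₀ 𝓕 (ϖ : L₀) ∈ J)
    (e : ℕ) (hJe : ∀ l : Fin e → 𝓕, (∀ k, l k ∈ J) →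
      ∃ y ∈ O, ∏ k, l k = algebraMap L₀ 𝓕 (ϖ : L₀) * y)
    (t f : 𝓕) (m : ℕ) (hm0 : m ≠ 0) (hmA : ((m : L₀))⁻¹ ∈ A₀) (hmL : (m : L₀) ≠ 0)
    (hdiv : ∀ Q : Place L₀ 𝓕, (m : ℤ) ∣ Q.ord f)
    (hf1 : f - 1 ∈ J)
    (hloc1 : ∀ 𝔫 : Ideal (s34x_ring O (s18_chart1 (L₀ := L₀) t)), 𝔫.IsMaximal →
      s34x_const O (s18_chart1 (L₀ := L₀) t) (ϖ : L₀) (hAO ϖ) ∈ 𝔫 →
      ∃ a ∈ s34x_latSet O (s18_chart1 (L₀ := L₀) t) (s18_E f m),
        ∃ s : s34x_ring O (s18_chart1 (L₀ := L₀) t), s ∉ 𝔫 ∧ a - (s : 𝓕) ∈ J)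
    (hloc2 : ∀ 𝔫 : Ideal (s34x_ring O (s18_chart2 (L₀ := L₀) t)), 𝔫.IsMaximal →
      s34x_const O (s18_chart2 (L₀ := L₀) t) (ϖ : L₀) (hAO ϖ) ∈ 𝔫 →
      ∃ a ∈ s34x_latSet O (s18_chart2 (L₀ := L₀) t) (s18_E f m),
        ∃ s : s34x_ring O (s18_chart2 (L₀ := L₀) t), s ∉ 𝔫 ∧ a - (s : 𝓕) ∈ J)
    (hH : ∃ G : Submodule A₀ 𝓕, G.FG ∧
      s34x_lat A₀ O hAO (s18_chart12 t) (s18_E f m) ≤
        G ⊔ (s34x_lat A₀ O hAO (s18_chart1 t) (s18_E f m) ⊔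
          s34x_lat A₀ O hAO (s18_chart2 t) (s18_E f m))) :
    ∃ x : 𝓕, x ≠ 0 ∧ x ∈ O ∧ ∀ Q : Place L₀ 𝓕, Q.ord f ≤ (m : ℤ) * Q.ord x :=
  s36x_zero A₀ O hAO ϖ hϖ0 J hJO hOJ hJjac hπJ e hJe t f m hm0 hmA hmL hdiv hf1
    (s36x_one_of_local O _ _ J hOJ (ϖ : L₀) (hAO ϖ) hπJ hloc1)
    (s36x_one_of_local O _ _ J hOJ (ϖ : L₀) (hAO ϖ) hπJ hloc2) hH

/-! ### The case `O = ⨅ O i`, `J = ⋂ (O i).nonunits` -/

/-- The radical of `⨅ O i`: elements that are non-units of every `O i`, as an additive subgroup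
of the function field. -/
def s36x_infRad {ι : Type*} (O : ι → ValuationSubring 𝓕) : AddSubgroup 𝓕 where
  carrier := {x | ∀ i, x ∈ (O i).nonunits}
  zero_mem' := fun i => (O i).nonunits.zero_mem
  add_mem' := fun hx hy i => (O i).nonunits.add_mem (hx i) (hy i)
  neg_mem' := fun hx i => (O i).nonunits.neg_mem (hx i)

theorem s36x_mem_infRad {ι : Type*} (O : ι → ValuationSubring 𝓕) (x : 𝓕) :
    x ∈ s36x_infRad O ↔ ∀ i, x ∈ (O i).nonunits := Iff.rfl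

theorem s36x_infRad_le {ι : Type*} (O : ι → ValuationSubring 𝓕) :
    ∀ a ∈ s36x_infRad O, a ∈ s34x_infRing O := fun a ha =>
  (s34x_mem_infRing O a).mpr fun i => ValuationSubring.nonunits_subset (ha i)

theorem s36x_infRad_mul {ι : Type*} (O : ι → ValuationSubring 𝓕) :
    ∀ b ∈ s34x_infRing O, ∀ a ∈ s36x_infRad O, b * a ∈ s36x_infRad O := by
  intro b hb a ha i
  rw [ValuationSubring.mem_nonunits_iff, map_mul]
  have h1 : (O i).valuation b ≤ 1 :=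
    ((O i).valuation_le_one_iff b).mpr ((s34x_mem_infRing O b).mp hb i)
  have h2 : (O i).valuation a < 1 := (O i).mem_nonunits_iff.mp (ha i)
  exact mul_lt_one_of_nonneg_of_lt_one_right h1 zero_le h2

theorem s36x_infRad_jac {ι : Type*} [Nonempty ι] (O : ι → ValuationSubring 𝓕) :
    ∀ y ∈ s36x_infRad O, ∃ u ∈ s34x_infRing O, (1 + y) * u = 1 := by
  intro y hy
  have hval : ∀ i, (O i).valuation (1 + y) = 1 := by
    intro i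
    have h2 : (O i).valuation y < 1 := (O i).mem_nonunits_iff.mp (hy i)
    have := Valuation.map_add_eq_of_lt_left (O i).valuation (x := 1) (y := y)
      (by rw [map_one]; exact h2)
    rw [this, map_one]
  have h0 : 1 + y ≠ 0 := by
    obtain ⟨i⟩ := ‹Nonempty ι›
    intro h
    have := hval i
    rw [h, map_zero] at this
    exact zero_ne_one this
  refine ⟨(1 + y)⁻¹, ?_, mul_inv_cancel₀ h0⟩
  rw [s34x_mem_infRing]
  intro i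
  rw [← ValuationSubring.valuation_le_one_iff, map_inv₀, hval i, inv_one]

/-- **Theorem X₀, local form, for `O = ⨅ O i` and `J = ⋂ (O i).nonunits`**: the three-valuation
version of `s34x_zero_inf`, allowing components of multiplicity `> 1` (`hJe`: every product of `e`
non-units of `O i` is divisible by `ϖ` in `O i`). -/
theorem s36x_zero_inf {ι : Type*} [Nonempty ι] (A₀ : ValuationSubring L₀) [IsNoetherianRing A₀]
    (O : ι → ValuationSubring 𝓕) (hAO : ∀ i, ∀ a : A₀, algebraMap L₀ 𝓕 (a : L₀) ∈ O i)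
    (ϖ : A₀) (hϖ0 : (ϖ : L₀) ≠ 0)
    (hϖ : ∀ i, algebraMap L₀ 𝓕 (ϖ : L₀) ∈ (O i).nonunits)
    (e : ℕ) (hJe : ∀ i, ∀ l : Fin e → 𝓕, (∀ k, l k ∈ (O i).nonunits) →
      ∃ y ∈ O i, ∏ k, l k = algebraMap L₀ 𝓕 (ϖ : L₀) * y)
    (t f : 𝓕) (m : ℕ) (hm0 : m ≠ 0) (hmA : ((m : L₀))⁻¹ ∈ A₀) (hmL : (m : L₀) ≠ 0)
    (hdiv : ∀ Q : Place L₀ 𝓕, (m : ℤ) ∣ Q.ord f)
    (hf1 : ∀ i, f - 1 ∈ (O i).nonunits)
    (hloc1 : ∀ 𝔫 : Ideal (s34x_ring (s34x_infRing O) (s18_chart1 (L₀ := L₀) t)), 𝔫.IsMaximal →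
      s34x_const (s34x_infRing O) (s18_chart1 (L₀ := L₀) t) (ϖ : L₀)
        (s34x_inf_const_mem O A₀ hAO ϖ) ∈ 𝔫 →
      ∃ a ∈ s34x_latSet (s34x_infRing O) (s18_chart1 (L₀ := L₀) t) (s18_E f m),
        ∃ s : s34x_ring (s34x_infRing O) (s18_chart1 (L₀ := L₀) t), s ∉ 𝔫 ∧
          ∀ i, a - (s : 𝓕) ∈ (O i).nonunits)
    (hloc2 : ∀ 𝔫 : Ideal (s34x_ring (s34x_infRing O) (s18_chart2 (L₀ := L₀) t)), 𝔫.IsMaximal →
      s34x_const (s34x_infRing O) (s18_chart2 (L₀ := L₀) t) (ϖ : L₀)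
        (s34x_inf_const_mem O A₀ hAO ϖ) ∈ 𝔫 →
      ∃ a ∈ s34x_latSet (s34x_infRing O) (s18_chart2 (L₀ := L₀) t) (s18_E f m),
        ∃ s : s34x_ring (s34x_infRing O) (s18_chart2 (L₀ := L₀) t), s ∉ 𝔫 ∧
          ∀ i, a - (s : 𝓕) ∈ (O i).nonunits)
    (hH : ∃ G : Submodule A₀ 𝓕, G.FG ∧
      s34x_lat A₀ (s34x_infRing O) (s34x_inf_const_mem O A₀ hAO) (s18_chart12 t) (s18_E f m) ≤
        G ⊔ (s34x_lat A₀ (s34x_infRing O) (s34x_inf_const_mem O A₀ hAO) (s18_chart1 t) (s18_E f m) ⊔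
          s34x_lat A₀ (s34x_infRing O) (s34x_inf_const_mem O A₀ hAO) (s18_chart2 t)
            (s18_E f m))) :
    ∃ x : 𝓕, x ≠ 0 ∧ (∀ i, x ∈ O i) ∧ ∀ Q : Place L₀ 𝓕, Q.ord f ≤ (m : ℤ) * Q.ord x := by
  have hπ0 : algebraMap L₀ 𝓕 (ϖ : L₀) ≠ 0 := by simpa using hϖ0
  have hJe' : ∀ l : Fin e → 𝓕, (∀ k, l k ∈ s36x_infRad O) →
      ∃ y ∈ s34x_infRing O, ∏ k, l k = algebraMap L₀ 𝓕 (ϖ : L₀) * y := by
    intro l hl
    apply (s34x_inf_cong O _ hπ0 _).mpr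
    intro i
    exact hJe i l (fun k => hl k i)
  obtain ⟨x, hx0, hxO, hx⟩ := s36x_zero_of_local A₀ (s34x_infRing O) (s34x_inf_const_mem O A₀ hAO)
    ϖ hϖ0 (s36x_infRad O) (s36x_infRad_le O) (s36x_infRad_mul O) (s36x_infRad_jac O) hϖ e hJe'
    t f m hm0 hmA hmL hdiv hf1 hloc1 hloc2 hH
  exact ⟨x, hx0, (s34x_mem_infRing O x).mp hxO, hx⟩

end Curve

end Fermat.Agent.Lib.S36
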