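/-
S36 project, geometry layer (X1) (helper1, prefix `s36b_`): (X0) + (X1) ASSEMBLED.

`s36b_zero_inf` = lead's `s36x_zero_inf` (`XRad.lean`) for the family `V` of level `M q²` and the
base function `w = α'(w₁)`, with ALL the non-local hypotheses (`hAO`, `hϖ`, `hJe` with `e = q - 1`,
the Čech input `hH`) discharged by `XBase.lean` from helper8's sub-contracts `s36g_ValComap`,
`s36g_ValUnif`, `s36g_ValComplete`, `s36g_ValIndep` and helper4's `s35g_BaseData` of level `M q`.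
What remains: `hdiv`, `hf1` (from (G)) and the local statements `hloc1`, `hloc2` at the closed
points of the two charts (from (X-loc)/(T)).
-/
import Fermat.Agent.Lib.S36.XBase
import Fermat.Agent.Lib.S36.XRad

set_option autoImplicit false
set_option linter.unusedSectionVars false
set_option linter.style.haveILetI false
set_option synthInstance.maxHeartbeats 400000

noncomputable section

namespace Fermat.Agent.Lib.S36

open ModularCurve AlgebraicCurve HahnSeries Polynomial Fermat.Agent.Lib.FF Fermat.Agent.Lib.S18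
  Fermat.Agent.Lib.S37 Fermat.Agent.Lib.S34 Fermat.Agent.Lib.S35

local notation "Kb" => AlgebraicClosure ℚ

variable {K₀ : Type} [Field K₀] [Algebra ℚ K₀] {κ : Type} [Field κ] (G : s18g_GaussData K₀ κ)
  (φ : K₀ →+* Kb) (M q : ℕ) [NeZero M] [NeZero q] (hq : q.Prime) (hqM : ¬ q ∣ M)
  {V : Fin 3 → ValuationSubring (s34m_F K₀ (M * q * q))} {t : s34m_F K₀ (M * q * q)}
  [CharZero K₀] [IsDiscreteValuationRing G.A]

/-- **Theorem X₀ at level `M q²`** for a base function `w` with `s36b_BaseData₂`: only the local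
statements at the closed points of the two charts, `hdiv` and `hf1` remain. -/
theorem s36b_zero_inf (hC : s36g_ValComap G φ M q hq hqM V) (hU : s36g_ValUnif G M q V t)
    (w : s34m_F K₀ (M * q * q)) (hB : s36b_BaseData₂ G M q V w)
    (f : s34m_F K₀ (M * q * q)) (m : ℕ) (hm0 : m ≠ 0) (hmA : ((m : K₀))⁻¹ ∈ G.A)
    (hmL : (m : K₀) ≠ 0)
    (hdiv : ∀ Q : Place K₀ (s34m_F K₀ (M * q * q)), (m : ℤ) ∣ Q.ord f)
    (hf1 : ∀ i, f - 1 ∈ (V i).nonunits)
    (hloc1 : ∀ 𝔫 : Ideal (s34x_ring (s34x_infRing V) (s18_chart1 (L₀ := K₀) w)), 𝔫.IsMaximal →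
      s34x_const (s34x_infRing V) (s18_chart1 (L₀ := K₀) w) ((G.ϖ : G.A) : K₀)
        (s34x_inf_const_mem V G.A (s36b_const_mem G φ M q hq hqM hC) G.ϖ) ∈ 𝔫 →
      ∃ a ∈ s34x_latSet (s34x_infRing V) (s18_chart1 (L₀ := K₀) w) (s18_E f m),
        ∃ s : s34x_ring (s34x_infRing V) (s18_chart1 (L₀ := K₀) w), s ∉ 𝔫 ∧
          ∀ i, a - (s : s34m_F K₀ (M * q * q)) ∈ (V i).nonunits)
    (hloc2 : ∀ 𝔫 : Ideal (s34x_ring (s34x_infRing V) (s18_chart2 (L₀ := K₀) w)), 𝔫.IsMaximal →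
      s34x_const (s34x_infRing V) (s18_chart2 (L₀ := K₀) w) ((G.ϖ : G.A) : K₀)
        (s34x_inf_const_mem V G.A (s36b_const_mem G φ M q hq hqM hC) G.ϖ) ∈ 𝔫 →
      ∃ a ∈ s34x_latSet (s34x_infRing V) (s18_chart2 (L₀ := K₀) w) (s18_E f m),
        ∃ s : s34x_ring (s34x_infRing V) (s18_chart2 (L₀ := K₀) w), s ∉ 𝔫 ∧
          ∀ i, a - (s : s34m_F K₀ (M * q * q)) ∈ (V i).nonunits) :
    ∃ x : s34m_F K₀ (M * q * q), x ≠ 0 ∧ (∀ i, x ∈ V i) ∧
      ∀ Q : Place K₀ (s34m_F K₀ (M * q * q)), Q.ord f ≤ (m : ℤ) * Q.ord x := by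
  have hf0 : f ≠ 0 := by
    rintro rfl
    have h := hf1 0
    rw [zero_sub, ValuationSubring.mem_nonunits_iff_or] at h
    have h1 : (-1 : s34m_F K₀ (M * q * q)) ∈ V 0 := neg_mem (V 0).one_mem
    have h2 : (-1 : s34m_F K₀ (M * q * q))⁻¹ ∈ V 0 := by
      rw [inv_neg, inv_one]; exact h1
    rcases h with h | h
    · exact neg_ne_zero.mpr one_ne_zero h
    · exact h h2
  haveI : IsNoetherianRing G.A := inferInstance
  exact s36x_zero_inf G.A V (s36b_const_mem G φ M q hq hqM hC) G.ϖ (s18g_unifK_ne_zero G)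
    (fun i => s36b_unif_mem_nonunits G M q hU i) (q - 1)
    (fun i l hl => s36b_hJe G M q hq hU i l hl) w f m hm0 hmA hmL hdiv hf1 hloc1 hloc2
    (s36b_hH G φ M q hq hqM hC hU w hB hf0 m)

end Fermat.Agent.Lib.S36
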