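/-
S36 mega-project, layer (X-loc) (helper3, prefix `s36y_`): **the local hypothesis (LOC) of lead's
`s36x_zero_inf` (`Lib/S36/XRad.lean`) MODULO THE RADICAL from a local generator.**

Frame of `Lib/S34/XLocGen.lean` / `Lib/S36/QMem.lean`: `O : ι → ValuationSubring 𝓕` the (finitely
many) vertical valuations, `B = s34x_ring (s34x_infRing O) S` the ring of a chart `S`, `𝔫` a prime of
`B`, `R = B_𝔫 ⊂ 𝓕` (`s34f_iota`).  A component `i` passes through `𝔫` if `B ∩ 𝔪(O i) ⊆ 𝔫`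
(helper5's `s36q_compThrough`).

* `s36y_NodeGenRad O S 𝔫 E`  : the local generator contract modulo the radical: `γ ≠ 0` with
  `E Q ≤ ord_Q γ` at the places of `S` through `𝔫` and `γ ≡ 1 mod 𝔪(O i)` for the components through
  `𝔫` (`s35f_NodeGen` with `π (O i)` replaced by `(O i).nonunits`);
* `s36y_loc_of_gen`, `s36y_loc_of_nodeGenRad` : NodeGenRad ⇒ the `hloc`-shape of `s36x_zero_inf`
  (`∃ a ∈ latSet, ∃ s ∉ 𝔫, ∀ i, a - s ∈ (O i).nonunits`); twin of `s34x_loc_of_gen`;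
Parts (3a), (3b) (`s36y_exists_gen_lifts`, `s36y_nodeGenRad_of_match`, one-component corollaries)
are in `Lib/S36/XLocLift.lean`.
-/
import Fermat.Agent.Lib.S36.QMem

set_option autoImplicit false
set_option linter.unusedSectionVars false
set_option linter.style.haveILetI false

noncomputable section

namespace Fermat.Agent.Lib.S36

open AlgebraicCurve Fermat.Agent.Lib.FF Fermat.Agent.Lib.S18 Fermat.Agent.Lib.S34 IsLocalRing

variable {L₀ 𝓕 : Type*} [Field L₀] [Field 𝓕] [Algebra L₀ 𝓕]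

/-! ### Valuation subrings: the ideal of non-units -/

section Val

omit [Field L₀] [Algebra L₀ 𝓕]

theorem s36y_mul_mem_nonunits (V : ValuationSubring 𝓕) {a b : 𝓕} (ha : a ∈ V)
    (hb : b ∈ V.nonunits) : a * b ∈ V.nonunits := by
  rw [ValuationSubring.mem_nonunits_iff, map_mul]
  exact mul_lt_one_of_nonneg_of_lt_one_right ((V.valuation_le_one_iff a).mpr ha) zero_le
    (V.mem_nonunits_iff.mp hb)

theorem s36y_mul_mem_nonunits' (V : ValuationSubring 𝓕) {a b : 𝓕} (ha : a ∈ V.nonunits)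
    (hb : b ∈ V) : a * b ∈ V.nonunits := by
  rw [mul_comm]; exact s36y_mul_mem_nonunits V hb ha

/-- `f ≡ 1` modulo the non-units: `f` is a unit. -/
theorem s36y_val_eq_one (V : ValuationSubring 𝓕) {f : 𝓕} (hf : f - 1 ∈ V.nonunits) :
    V.valuation f = 1 := by
  have h2 : V.valuation (f - 1) < 1 := V.mem_nonunits_iff.mp hf
  have := Valuation.map_add_eq_of_lt_left V.valuation (x := 1) (y := f - 1)
    (by rw [map_one]; exact h2)
  rw [map_one] at this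
  rw [← this]
  congr 1
  ring

theorem s36y_mem_of_val_eq_one (V : ValuationSubring 𝓕) {f : 𝓕} (hf : V.valuation f = 1) :
    f ∈ V ∧ f⁻¹ ∈ V := by
  constructor
  · exact (V.valuation_le_one_iff f).mp hf.le
  · rw [← V.valuation_le_one_iff, map_inv₀, hf, inv_one]

theorem s36y_val_eq_one_of_mem (V : ValuationSubring 𝓕) {f : 𝓕} (hf0 : f ≠ 0) (hf : f ∈ V)
    (hf' : f⁻¹ ∈ V) : V.valuation f = 1 := by
  apply le_antisymm ((V.valuation_le_one_iff f).mpr hf)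
  have h1 := (V.valuation_le_one_iff _).mpr hf'
  rw [map_inv₀] at h1
  have h0 : V.valuation f ≠ 0 := (_root_.map_ne_zero _).mpr hf0
  have hpos : (0 : V.ValueGroup) < V.valuation f := zero_lt_iff.mpr h0
  rwa [inv_le_one₀ hpos] at h1

theorem s36y_not_mem_nonunits_of_unit (V : ValuationSubring 𝓕) {f : 𝓕} (hf0 : f ≠ 0) (hf : f ∈ V)
    (hf' : f⁻¹ ∈ V) : f ∉ V.nonunits := by
  intro h
  have := V.mem_nonunits_iff.mp h
  rw [s36y_val_eq_one_of_mem V hf0 hf hf'] at this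
  exact lt_irrefl _ this

theorem s36y_pow_sub_pow_mem (V : ValuationSubring 𝓕) {a b : 𝓕} (ha : a ∈ V) (hb : b ∈ V)
    (hab : a - b ∈ V.nonunits) (m : ℕ) : a ^ m - b ^ m ∈ V.nonunits := by
  have h := (Commute.all a b).geom_sum₂_mul m
  rw [← h]
  refine s36y_mul_mem_nonunits V ?_ hab
  exact sum_mem fun i _ => mul_mem (pow_mem ha _) (pow_mem hb _)

end Val

variable {ι : Type*} (O : ι → ValuationSubring 𝓕) (S : Set (Place L₀ 𝓕))

/-- **The local generator contract modulo the radical** at `𝔫` for the exponent function `E`. -/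
def s36y_NodeGenRad (𝔫 : Ideal (s34x_ring (s34x_infRing O) S)) (E : Place L₀ 𝓕 → ℤ) : Prop :=
  ∃ γ : 𝓕, γ ≠ 0 ∧
    (∀ Q ∈ S, s34f_through (s34x_infRing O) S 𝔫 Q → E Q ≤ Q.ord γ) ∧
    ∀ i, s36q_compThrough O S 𝔫 i → γ - 1 ∈ (O i).nonunits

variable (𝔫 : Ideal (s34x_ring (s34x_infRing O) S)) [h𝔫 : 𝔫.IsPrime]

/-- Killing finitely many components not through `𝔫`, modulo the radical. -/
theorem s36y_exists_kill_comps (hA : s36q_Arch O) (x : 𝓕) (I : Finset ι)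
    (hI : ∀ i ∈ I, ¬ s36q_compThrough O S 𝔫 i) :
    ∃ s : s34x_ring (s34x_infRing O) S, s ∉ 𝔫 ∧
      ∀ i ∈ I, (s : 𝓕) ∈ (O i).nonunits ∧ (s : 𝓕) * x ∈ (O i).nonunits := by
  classical
  have hBO : ∀ (b : s34x_ring (s34x_infRing O) S) (i : ι), (b : 𝓕) ∈ O i := fun b i =>
    (s34x_mem_infRing O _).mp b.2.1 i
  induction I using Finset.induction_on with
  | empty =>
    refine ⟨1, ?_, fun i hi => by simp at hi⟩
    exact fun h => h𝔫.ne_top ((Ideal.eq_top_iff_one _).mpr h)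
  | insert i₀ I hi₀ ih =>
    obtain ⟨s, hs𝔫, hs⟩ := ih (fun i hi => hI i (Finset.mem_insert_of_mem hi))
    have hno := hI i₀ (Finset.mem_insert_self _ _)
    unfold s36q_compThrough at hno
    push Not at hno
    obtain ⟨b, hbnu, hb𝔫⟩ := hno
    have hb0 : (b : 𝓕) ≠ 0 := by
      intro h0
      apply hb𝔫
      have : b = 0 := Subtype.ext h0
      rw [this]; exact 𝔫.zero_mem
    obtain ⟨k, hk⟩ := hA i₀ _ hbnu hb0 ((s : 𝓕) * x)
    refine ⟨b ^ (k + 1) * s, ?_, ?_⟩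
    · intro hmem
      rcases h𝔫.mem_or_mem hmem with h | h
      · exact hb𝔫 (h𝔫.mem_of_pow_mem _ h)
      · exact hs𝔫 h
    · intro i hi
      have heq1 : ((b ^ (k + 1) * s : s34x_ring (s34x_infRing O) S) : 𝓕) =
          (b : 𝓕) * ((b : 𝓕) ^ k * (s : 𝓕)) := by push_cast; ring
      have heq2 : ((b ^ (k + 1) * s : s34x_ring (s34x_infRing O) S) : 𝓕) * x =
          (b : 𝓕) * ((b : 𝓕) ^ k * ((s : 𝓕) * x)) := by push_cast; ring
      rcases Finset.mem_insert.mp hi with rfl | hiI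
      · constructor
        · rw [heq1]
          exact s36y_mul_mem_nonunits' _ hbnu (mul_mem (pow_mem (hBO b i) _) (hBO s i))
        · rw [heq2]
          exact s36y_mul_mem_nonunits' _ hbnu hk
      · obtain ⟨h1, h2⟩ := hs i hiI
        constructor
        · rw [heq1, ← mul_assoc]
          exact s36y_mul_mem_nonunits _ (mul_mem (hBO b i) (pow_mem (hBO b i) _)) h1
        · rw [heq2, ← mul_assoc]
          exact s36y_mul_mem_nonunits _ (mul_mem (hBO b i) (pow_mem (hBO b i) _)) h2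

variable [Fintype ι]

/-- **(LOC) modulo the radical from a local generator**: twin of `s34x_loc_of_gen`. -/
theorem s36y_loc_of_gen (hA : s36q_Arch O) (E : Place L₀ 𝓕 → ℤ)
    (g : 𝓕) (hg0 : g ≠ 0)
    (hgQ : ∀ Q ∈ S, s34f_through (s34x_infRing O) S 𝔫 Q → E Q ≤ Q.ord g)
    (hgC : ∀ i, s36q_compThrough O S 𝔫 i → g - 1 ∈ (O i).nonunits)
    (hfin : {Q : Place L₀ 𝓕 | Q ∈ S ∧ Q.ord g < E Q}.Finite) :
    ∃ a ∈ s34x_latSet (s34x_infRing O) S E, ∃ s : s34x_ring (s34x_infRing O) S, s ∉ 𝔫 ∧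
      ∀ i, a - (s : 𝓕) ∈ (O i).nonunits := by
  classical
  have hBO : ∀ (b : s34x_ring (s34x_infRing O) S) (i : ι), (b : 𝓕) ∈ O i := fun b i =>
    (s34x_mem_infRing O _).mp b.2.1 i
  -- the bad places are not through `𝔫`
  obtain ⟨s₁, hs₁𝔫, hs₁0, hs₁⟩ := s34x_exists_kill_places (s34x_infRing O) S 𝔫
    (fun Q => E Q - Q.ord g) hfin.toFinset (by
      intro Q hQ
      rw [Set.Finite.mem_toFinset] at hQ
      refine ⟨hQ.1, ?_⟩
      by_contra hcon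
      push Not at hcon
      have := hgQ Q hQ.1 (fun b hb0 hbpos => hcon b hb0 hbpos)
      exact absurd hQ.2 (not_lt.mpr this))
  -- the components not through `𝔫`
  obtain ⟨s₂, hs₂𝔫, hs₂⟩ := s36y_exists_kill_comps O S 𝔫 hA g
    (Finset.univ.filter fun i => ¬ s36q_compThrough O S 𝔫 i)
    (fun i hi => (Finset.mem_filter.mp hi).2)
  have hs𝔫 : s₁ * s₂ ∉ 𝔫 := fun hmem => (h𝔫.mem_or_mem hmem).elim hs₁𝔫 hs₂𝔫
  have hs₂0 : (s₂ : 𝓕) ≠ 0 := by
    intro h0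
    apply hs₂𝔫
    have : s₂ = 0 := Subtype.ext h0
    rw [this]; exact 𝔫.zero_mem
  have hcomp : ∀ i, (s₁ : 𝓕) * s₂ * g ∈ O i ∧
      (s₁ : 𝓕) * s₂ * g - (s₁ : 𝓕) * s₂ ∈ (O i).nonunits := by
    intro i
    by_cases hi : s36q_compThrough O S 𝔫 i
    · have h1 := hgC i hi
      have hgO : g ∈ O i := (s36y_mem_of_val_eq_one _ (s36y_val_eq_one _ h1)).1
      refine ⟨mul_mem (mul_mem (hBO s₁ i) (hBO s₂ i)) hgO, ?_⟩
      have : (s₁ : 𝓕) * s₂ * g - (s₁ : 𝓕) * s₂ = (s₁ : 𝓕) * s₂ * (g - 1) := by ring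
      rw [this]
      exact s36y_mul_mem_nonunits _ (mul_mem (hBO s₁ i) (hBO s₂ i)) h1
    · obtain ⟨h1, h2⟩ := hs₂ i (Finset.mem_filter.mpr ⟨Finset.mem_univ _, hi⟩)
      have h3 : (s₁ : 𝓕) * s₂ * g ∈ (O i).nonunits := by
        rw [mul_assoc]; exact s36y_mul_mem_nonunits _ (hBO s₁ i) h2
      have h4 : (s₁ : 𝓕) * s₂ ∈ (O i).nonunits := s36y_mul_mem_nonunits _ (hBO s₁ i) h1
      exact ⟨ValuationSubring.nonunits_subset h3, (O i).nonunits.sub_mem h3 h4⟩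
  have hsg0 : (s₁ : 𝓕) * s₂ * g ≠ 0 := mul_ne_zero (mul_ne_zero hs₁0 hs₂0) hg0
  refine ⟨(s₁ : 𝓕) * s₂ * g, ⟨?_, ?_⟩, s₁ * s₂, hs𝔫, ?_⟩
  · rw [s34x_mem_infRing]
    exact fun i => (hcomp i).1
  · intro Q hQ
    right
    rw [Q.ord_mul (mul_ne_zero hs₁0 hs₂0) hg0, Q.ord_mul hs₁0 hs₂0]
    have h1 : 0 ≤ Q.ord (s₁ : 𝓕) := s34x_ord_nonneg_of_mem_ring _ S s₁ Q hQ
    have h2 : 0 ≤ Q.ord (s₂ : 𝓕) := s34x_ord_nonneg_of_mem_ring _ S s₂ Q hQ
    by_cases hbad : Q.ord g < E Q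
    · have := hs₁ Q ((Set.Finite.mem_toFinset hfin).mpr ⟨hQ, hbad⟩)
      omega
    · omega
  · intro i
    have hcoe : ((s₁ * s₂ : s34x_ring (s34x_infRing O) S) : 𝓕) = (s₁ : 𝓕) * s₂ := by
      push_cast; rfl
    rw [hcoe]
    exact (hcomp i).2

/-- **(LOC) modulo the radical from the local generator contract**: the `hloc`-shape of
`s36x_zero_inf`. -/
theorem s36y_loc_of_nodeGenRad (hA : s36q_Arch O)
    (F3 : ∀ y : 𝓕, y ≠ 0 → {Q : Place L₀ 𝓕 | Q ∈ S ∧ Q.ord y ≠ 0}.Finite)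
    (F : 𝓕) (hF0 : F ≠ 0) (m : ℕ) (h : s36y_NodeGenRad O S 𝔫 (s18_E F m)) :
    ∃ a ∈ s34x_latSet (s34x_infRing O) S (s18_E F m),
      ∃ s : s34x_ring (s34x_infRing O) S, s ∉ 𝔫 ∧ ∀ i, a - (s : 𝓕) ∈ (O i).nonunits := by
  obtain ⟨γ, hγ0, hγQ, hγC⟩ := h
  refine s36y_loc_of_gen O S 𝔫 hA (s18_E F m) γ hγ0 hγQ hγC ?_
  refine ((F3 γ hγ0).union (F3 F hF0)).subset ?_
  rintro Q ⟨hQS, hlt⟩
  by_cases h0 : Q.ord F = 0
  · left
    refine ⟨hQS, fun h => ?_⟩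
    rw [h, s18_E, h0, Int.zero_ediv] at hlt
    exact lt_irrefl _ hlt
  · right
    exact ⟨hQS, h0⟩

end Fermat.Agent.Lib.S36
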