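/-
S36 project, geometry layer (X1) (helper1, prefix `s36b_`): **the `hloc`-transfer from chart 1 to the
NON-POLAR closed points of chart 2, and Theorem X₀ at level `M q²` from the local generator
contract `s36y_NodeGenRad` at the closed points of chart 1 and at the POLAR closed points of chart 2
only** (helper8's decision (S-β), orders #1737 items (1), (2)).

* `s36b_exists_pow_bound`, `s36b_mul_pow_mem_lat2`, `s36b_mul_pow_mem_chart2` : multiplying by a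
  high power of `w⁻¹` moves the lattice (the ring) of chart 1 of `w` into that of chart 2;
* `s36b_hloc_transfer` (abstract frame of `XRad.lean`): the `hloc`-data at all maximal ideals
  `𝔫₁ ∋ ϖ` of chart 1 of `w` give the `hloc`-datum at EVERY prime `𝔫₂` of chart 2 of `w` which does
  not contain `w⁻¹` (local-to-global on chart 1: `g ∈ latSet`, `g ≡ 1`; then `a := g w⁻ᵏ`,
  `s := w⁻ᵏ`);
* `s36b_arch` : the rank-one property `s36q_Arch V` of the family of level `M q²`;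
* `s36b_zero_of_nodeGenRad` : `s36b_zero_inf` with `hloc1`, `hloc2` replaced by `s36y_NodeGenRad` at
  every maximal `𝔫 ∋ ϖ` of chart 1 and at every maximal `𝔫 ∋ ϖ` of chart 2 containing `w⁻¹`.
-/
import Fermat.Agent.Lib.S36.XBaseZero
import Fermat.Agent.Lib.S36.XLocRad

set_option autoImplicit false
set_option linter.unusedSectionVars false
set_option linter.style.haveILetI false
set_option synthInstance.maxHeartbeats 400000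

noncomputable section

namespace Fermat.Agent.Lib.S36

open ModularCurve AlgebraicCurve Fermat.Agent.Lib.FF Fermat.Agent.Lib.S18
  Fermat.Agent.Lib.S37 Fermat.Agent.Lib.S34 Fermat.Agent.Lib.S35

/-! ### Abstract part -/

section Abs

variable {L₀ 𝓕 : Type*} [Field L₀] [Field 𝓕] [Algebra L₀ 𝓕]

theorem s36b_ord_pow (Q : Place L₀ 𝓕) (x : 𝓕) (k : ℕ) : Q.ord (x ^ k) = (k : ℤ) * Q.ord x := by
  rw [← zpow_natCast, Q.ord_zpow]

/-- `ord_Q w < 0` happens at finitely many places. -/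
theorem s36b_finite_ord_neg (w : 𝓕) (hw0 : w ≠ 0)
    (F32 : ∀ y : 𝓕, y ≠ 0 →
      {Q : Place L₀ 𝓕 | Q ∈ s18_chart2 (L₀ := L₀) w ∧ Q.ord y ≠ 0}.Finite) :
    {Q : Place L₀ 𝓕 | Q.ord w < 0}.Finite := by
  refine (F32 w hw0).subset fun Q hQ => ⟨?_, ne_of_lt hQ⟩
  show w⁻¹ ∈ Q.toValuationSubring
  rw [ff_mem_iff_ord_nonneg Q (inv_ne_zero hw0), Q.ord_inv]
  have : Q.ord w < 0 := hQ
  omega

/-- A bound valid at the finitely many poles of `w`. -/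
theorem s36b_exists_pow_bound (w : 𝓕) (hfin : {Q : Place L₀ 𝓕 | Q.ord w < 0}.Finite)
    (g : Place L₀ 𝓕 → ℤ) :
    ∃ k₀ : ℕ, ∀ k : ℕ, k₀ ≤ k → ∀ Q : Place L₀ 𝓕, Q.ord w < 0 →
      g Q ≤ (k : ℤ) * (-Q.ord w) := by
  classical
  refine ⟨∑ Q ∈ hfin.toFinset, (g Q).toNat, fun k hk Q hQ => ?_⟩
  have h1 : (g Q).toNat ≤ ∑ Q ∈ hfin.toFinset, (g Q).toNat :=
    Finset.single_le_sum (f := fun Q => (g Q).toNat) (fun _ _ => Nat.zero_le _)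
      ((Set.Finite.mem_toFinset hfin).mpr hQ)
  have h2 : g Q ≤ ((g Q).toNat : ℤ) := Int.self_le_toNat _
  have h3 : ((g Q).toNat : ℤ) ≤ (k : ℤ) := by exact_mod_cast h1.trans hk
  have h4 : (k : ℤ) * 1 ≤ (k : ℤ) * (-Q.ord w) :=
    mul_le_mul_of_nonneg_left (by omega) (Int.natCast_nonneg k)
  omega

variable (O : Subring 𝓕) (w : 𝓕)

/-- **Chart 1 to chart 2, lattices**: for `k ≫ 0`, `a w⁻ᵏ` lies in the lattice of chart 2. -/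
theorem s36b_mul_pow_mem_lat2 (hw0 : w ≠ 0) (hwO' : w⁻¹ ∈ O)
    (hfin : {Q : Place L₀ 𝓕 | Q.ord w < 0}.Finite) (E : Place L₀ 𝓕 → ℤ) {a : 𝓕}
    (ha : a ∈ s34x_latSet O (s18_chart1 (L₀ := L₀) w) E) :
    ∃ k₀ : ℕ, ∀ k : ℕ, k₀ ≤ k → a * w⁻¹ ^ k ∈ s34x_latSet O (s18_chart2 (L₀ := L₀) w) E := by
  obtain ⟨k₀, hk₀⟩ := s36b_exists_pow_bound w hfin (fun Q => E Q - Q.ord a)
  refine ⟨k₀, fun k hk => ⟨O.mul_mem ha.1 (O.pow_mem hwO' k), fun Q hQ => ?_⟩⟩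
  by_cases ha0 : a = 0
  · left; rw [ha0, zero_mul]
  right
  have hwi0 : w⁻¹ ≠ 0 := inv_ne_zero hw0
  rw [Q.ord_mul ha0 (pow_ne_zero _ hwi0), s36b_ord_pow, Q.ord_inv]
  have hQ' : 0 ≤ Q.ord w⁻¹ := (ff_mem_iff_ord_nonneg Q hwi0).mp hQ
  rw [Q.ord_inv] at hQ'
  by_cases hlt : Q.ord w < 0
  · have := hk₀ k hk Q hlt
    omega
  · have h0 : Q.ord w = 0 := by omega
    have hQ1 : Q ∈ s18_chart1 (L₀ := L₀) w := by
      show w ∈ Q.toValuationSubring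
      rw [ff_mem_iff_ord_nonneg Q hw0, h0]
    have := (ha.2 Q hQ1).resolve_left ha0
    rw [h0, neg_zero, mul_zero, add_zero]
    exact this

/-- **Chart 1 to chart 2, rings**. -/
theorem s36b_mul_pow_mem_chart2 (hw0 : w ≠ 0) (hwO' : w⁻¹ ∈ O)
    (hfin : {Q : Place L₀ 𝓕 | Q.ord w < 0}.Finite) {c : 𝓕}
    (hc : c ∈ s34x_ring O (s18_chart1 (L₀ := L₀) w)) :
    ∃ k₀ : ℕ, ∀ k : ℕ, k₀ ≤ k → c * w⁻¹ ^ k ∈ s34x_ring O (s18_chart2 (L₀ := L₀) w) := by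
  have hc' : c ∈ s34x_latSet O (s18_chart1 (L₀ := L₀) w) (fun _ => 0) := by
    rw [← s34x_ringSet_eq_latSet_zero]; exact hc
  obtain ⟨k₀, hk₀⟩ := s36b_mul_pow_mem_lat2 O w hw0 hwO' hfin _ hc'
  refine ⟨k₀, fun k hk => ?_⟩
  have := hk₀ k hk
  rw [← s34x_ringSet_eq_latSet_zero] at this
  exact this

/-- `w⁻¹` is a function of chart 2 of `w`. -/
theorem s36b_inv_mem_chart2 (hwO' : w⁻¹ ∈ O) : w⁻¹ ∈ s34x_ring O (s18_chart2 (L₀ := L₀) w) :=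
  ⟨hwO', fun _ hQ => hQ⟩

/-- **The `hloc`-transfer, general form**: if some `g` of the lattice of chart 1 is `≡ 1 mod J`, then
at every prime `𝔫₂` of chart 2 not containing `w⁻¹` there is an `hloc`-datum modulo `J`. -/
theorem s36b_hloc_of_one (hw0 : w ≠ 0) (hwO' : w⁻¹ ∈ O)
    (hfin : {Q : Place L₀ 𝓕 | Q.ord w < 0}.Finite) (E : Place L₀ 𝓕 → ℤ)
    (J : AddSubgroup 𝓕) (hOJ : ∀ b ∈ O, ∀ a ∈ J, b * a ∈ J)
    (hg : ∃ g ∈ s34x_latSet O (s18_chart1 (L₀ := L₀) w) E, g - 1 ∈ J)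
    (𝔫₂ : Ideal (s34x_ring O (s18_chart2 (L₀ := L₀) w))) [h𝔫 : 𝔫₂.IsPrime]
    (hw𝔫 : ∀ b ∈ 𝔫₂, (b : 𝓕) ≠ w⁻¹) :
    ∃ a ∈ s34x_latSet O (s18_chart2 (L₀ := L₀) w) E,
      ∃ s : s34x_ring O (s18_chart2 (L₀ := L₀) w), s ∉ 𝔫₂ ∧ a - (s : 𝓕) ∈ J := by
  obtain ⟨g, hg, hg1⟩ := hg
  obtain ⟨k, hk⟩ := s36b_mul_pow_mem_lat2 O w hw0 hwO' hfin E hg
  set wi : s34x_ring O (s18_chart2 (L₀ := L₀) w) := ⟨w⁻¹, s36b_inv_mem_chart2 O w hwO'⟩ with hwi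
  have hwi𝔫 : wi ∉ 𝔫₂ := fun h => hw𝔫 wi h rfl
  refine ⟨g * w⁻¹ ^ k, hk k le_rfl, wi ^ k, fun h => hwi𝔫 (h𝔫.mem_of_pow_mem k h), ?_⟩
  have e : g * w⁻¹ ^ k - ((wi ^ k : s34x_ring O (s18_chart2 (L₀ := L₀) w)) : 𝓕) =
      w⁻¹ ^ k * (g - 1) := by
    rw [hwi]; push_cast; ring
  rw [e]
  exact hOJ _ (O.pow_mem hwO' k) _ hg1

/-- **(1) The `hloc`-transfer** in the frame of lead's `s36x_zero_inf`: the `hloc`-data at all maximal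
ideals `𝔫₁ ∋ π` of chart 1 of `w` give an `hloc`-datum at every prime `𝔫₂` of chart 2 of `w` which
does not contain `w⁻¹`. -/
theorem s36b_hloc_transfer {ι : Type*} (V : ι → ValuationSubring 𝓕) (hw0 : w ≠ 0)
    (hwV' : ∀ i, w⁻¹ ∈ V i)
    (F32 : ∀ y : 𝓕, y ≠ 0 →
      {Q : Place L₀ 𝓕 | Q ∈ s18_chart2 (L₀ := L₀) w ∧ Q.ord y ≠ 0}.Finite)
    (E : Place L₀ 𝓕 → ℤ) (π : L₀) (hπO : algebraMap L₀ 𝓕 π ∈ s34x_infRing V)
    (hπ : ∀ i, algebraMap L₀ 𝓕 π ∈ (V i).nonunits)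
    (hloc1 : ∀ 𝔫 : Ideal (s34x_ring (s34x_infRing V) (s18_chart1 (L₀ := L₀) w)), 𝔫.IsMaximal →
      s34x_const (s34x_infRing V) (s18_chart1 (L₀ := L₀) w) π hπO ∈ 𝔫 →
      ∃ a ∈ s34x_latSet (s34x_infRing V) (s18_chart1 (L₀ := L₀) w) E,
        ∃ s : s34x_ring (s34x_infRing V) (s18_chart1 (L₀ := L₀) w), s ∉ 𝔫 ∧
          ∀ i, a - (s : 𝓕) ∈ (V i).nonunits)
    (𝔫₂ : Ideal (s34x_ring (s34x_infRing V) (s18_chart2 (L₀ := L₀) w))) [𝔫₂.IsPrime]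
    (hw𝔫 : ∀ b ∈ 𝔫₂, (b : 𝓕) ≠ w⁻¹) :
    ∃ a ∈ s34x_latSet (s34x_infRing V) (s18_chart2 (L₀ := L₀) w) E,
      ∃ s : s34x_ring (s34x_infRing V) (s18_chart2 (L₀ := L₀) w), s ∉ 𝔫₂ ∧
        ∀ i, a - (s : 𝓕) ∈ (V i).nonunits :=
  s36b_hloc_of_one (s34x_infRing V) w hw0 ((s34x_mem_infRing V _).mpr hwV')
    (s36b_finite_ord_neg w hw0 F32) E (s36x_infRad V) (s36x_infRad_mul V)
    (s36x_one_of_local (s34x_infRing V) _ E (s36x_infRad V) (s36x_infRad_mul V) π hπO hπ hloc1)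
    𝔫₂ hw𝔫

end Abs

/-! ### Level `M q²` -/

local notation "Kb" => AlgebraicClosure ℚ

variable {K₀ : Type} [Field K₀] [Algebra ℚ K₀] {κ : Type} [Field κ] (G : s18g_GaussData K₀ κ)
  (φ : K₀ →+* Kb) (M q : ℕ) [NeZero M] [NeZero q] (hq : q.Prime) (hqM : ¬ q ∣ M)
  {V : Fin 3 → ValuationSubring (s34m_F K₀ (M * q * q))} {t : s34m_F K₀ (M * q * q)}
  [CharZero K₀] [IsDiscreteValuationRing G.A]

include hq in
/-- **The rank-one property** of the three valuation rings of level `M q²`. -/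
theorem s36b_arch (hU : s36g_ValUnif G M q V t) : s36q_Arch V := by
  intro i b hb _ y
  obtain ⟨k, hk⟩ := s36b_hU G M q hU i y
  obtain ⟨z, hz, ez⟩ := s36b_hJe G M q hq hU i (fun _ => b) (fun _ => hb)
  rw [Finset.prod_const, Finset.card_univ, Fintype.card_fin] at ez
  refine ⟨(q - 1) * k, ?_⟩
  have e : b ^ ((q - 1) * k) * y =
      z ^ k * (algebraMap K₀ (s34m_F K₀ (M * q * q)) ((G.ϖ : G.A) : K₀) ^ k * y) := by
    rw [pow_mul, ez, mul_pow]; ring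
  rw [e]
  exact (V i).mul_mem _ _ (pow_mem hz k) hk

/-- `f ≡ 1` modulo the non-units of `V 0`: `f ≠ 0`. -/
theorem s36b_ne_zero_of_sub_one {f : s34m_F K₀ (M * q * q)}
    (hf1 : ∀ i, f - 1 ∈ (V i).nonunits) : f ≠ 0 := by
  rintro rfl
  have h := hf1 0
  rw [zero_sub, ValuationSubring.mem_nonunits_iff_or] at h
  have h1 : (-1 : s34m_F K₀ (M * q * q)) ∈ V 0 := neg_mem (V 0).one_mem
  have h2 : (-1 : s34m_F K₀ (M * q * q))⁻¹ ∈ V 0 := by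
    rw [inv_neg, inv_one]; exact h1
  rcases h with h | h
  · exact neg_ne_zero.mpr one_ne_zero h
  · exact h h2

/-- **(2) Theorem X₀ at level `M q²` from the local generator contract modulo the radical**
(`s36y_NodeGenRad`) at every maximal ideal `𝔫 ∋ ϖ` of chart 1 of `w` and at the POLAR maximal ideals
`𝔫 ∋ ϖ, w⁻¹` of chart 2 of `w` only; the non-polar closed points of chart 2 are transferred from
chart 1 by `s36b_hloc_transfer`. -/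
theorem s36b_zero_of_nodeGenRad (hC : s36g_ValComap G φ M q hq hqM V)
    (hU : s36g_ValUnif G M q V t)
    (w : s34m_F K₀ (M * q * q)) (hB : s36b_BaseData₂ G M q V w)
    (f : s34m_F K₀ (M * q * q)) (m : ℕ) (hm0 : m ≠ 0) (hmA : ((m : K₀))⁻¹ ∈ G.A)
    (hmL : (m : K₀) ≠ 0)
    (hdiv : ∀ Q : Place K₀ (s34m_F K₀ (M * q * q)), (m : ℤ) ∣ Q.ord f)
    (hf1 : ∀ i, f - 1 ∈ (V i).nonunits)
    (hL1 : ∀ 𝔫 : Ideal (s34x_ring (s34x_infRing V) (s18_chart1 (L₀ := K₀) w)), 𝔫.IsMaximal →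
      s34x_const (s34x_infRing V) (s18_chart1 (L₀ := K₀) w) ((G.ϖ : G.A) : K₀)
        (s34x_inf_const_mem V G.A (s36b_const_mem G φ M q hq hqM hC) G.ϖ) ∈ 𝔫 →
      s36y_NodeGenRad V (s18_chart1 (L₀ := K₀) w) 𝔫 (s18_E f m))
    (hL2 : ∀ 𝔫 : Ideal (s34x_ring (s34x_infRing V) (s18_chart2 (L₀ := K₀) w)), 𝔫.IsMaximal →
      s34x_const (s34x_infRing V) (s18_chart2 (L₀ := K₀) w) ((G.ϖ : G.A) : K₀)
        (s34x_inf_const_mem V G.A (s36b_const_mem G φ M q hq hqM hC) G.ϖ) ∈ 𝔫 →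
      (∃ b ∈ 𝔫, (b : s34m_F K₀ (M * q * q)) = w⁻¹) →
      s36y_NodeGenRad V (s18_chart2 (L₀ := K₀) w) 𝔫 (s18_E f m)) :
    ∃ x : s34m_F K₀ (M * q * q), x ≠ 0 ∧ (∀ i, x ∈ V i) ∧
      ∀ Q : Place K₀ (s34m_F K₀ (M * q * q)), Q.ord f ≤ (m : ℤ) * Q.ord x := by
  have hf0 : f ≠ 0 := s36b_ne_zero_of_sub_one M q hf1
  have hA : s36q_Arch V := s36b_arch G M q hq hU
  have F31 := (s36b_dict₁ G φ M q hq hqM hC hU w hB).2.2.2
  have F32 := (s36b_dict₂ G φ M q hq hqM hC hU w hB).2.2.2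
  have hloc1 : ∀ 𝔫 : Ideal (s34x_ring (s34x_infRing V) (s18_chart1 (L₀ := K₀) w)), 𝔫.IsMaximal →
      s34x_const (s34x_infRing V) (s18_chart1 (L₀ := K₀) w) ((G.ϖ : G.A) : K₀)
        (s34x_inf_const_mem V G.A (s36b_const_mem G φ M q hq hqM hC) G.ϖ) ∈ 𝔫 →
      ∃ a ∈ s34x_latSet (s34x_infRing V) (s18_chart1 (L₀ := K₀) w) (s18_E f m),
        ∃ s : s34x_ring (s34x_infRing V) (s18_chart1 (L₀ := K₀) w), s ∉ 𝔫 ∧
          ∀ i, a - (s : s34m_F K₀ (M * q * q)) ∈ (V i).nonunits := by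
    intro 𝔫 h𝔫 hπ
    haveI := h𝔫.isPrime
    exact s36y_loc_of_nodeGenRad V _ 𝔫 hA F31 f hf0 m (hL1 𝔫 h𝔫 hπ)
  refine s36b_zero_inf G φ M q hq hqM hC hU w hB f m hm0 hmA hmL hdiv hf1 hloc1 ?_
  intro 𝔫 h𝔫 hπ
  haveI := h𝔫.isPrime
  by_cases hpol : ∃ b ∈ 𝔫, (b : s34m_F K₀ (M * q * q)) = w⁻¹
  · exact s36y_loc_of_nodeGenRad V _ 𝔫 hA F32 f hf0 m (hL2 𝔫 h𝔫 hπ hpol)
  · refine s36b_hloc_transfer w V hB.1 hB.2.2.2.1 F32 (s18_E f m) ((G.ϖ : G.A) : K₀)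
      (s34x_inf_const_mem V G.A (s36b_const_mem G φ M q hq hqM hC) G.ϖ)
      (fun i => s36b_unif_mem_nonunits G M q hU i) hloc1 𝔫 ?_
    intro b hb hbw
    exact hpol ⟨b, hb, hbw⟩

end Fermat.Agent.Lib.S36
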