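/-
S36 project, layer (T) (helper8, prefix `s36t_`), part 1: THE GLUING LEMMA (pure algebra, Mathlib only).

In a local ring `R` in which `m` is a unit:
* `s36t_sub_mem_of_pow_sub_pow_mem` : `a^m - b^m ∈ K`, `a ≡ b mod 𝔪`, `a` a unit ⇒ `a - b ∈ K`
  (uniqueness of `m`-th roots congruent modulo the maximal ideal, modulo ANY ideal `K`; no
  completeness);
* `s36t_glue_two` : `a^m ≡ w mod I`, `b^m ≡ w mod J`, `a ≡ b mod 𝔪`, `w` a unit
  ⇒ `∃ s, s ≡ a mod I ∧ s ≡ b mod J`  (`R/(I ⊓ J) = R/I ×_{R/(I ⊔ J)} R/J`);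
* `s36t_glue` : the same for a finite family of proper ideals `I i`, `i ∈ T`.

Application (layer (T2)): `R = B_𝔫` the local ring of the model at a triple point, `I i = ker (r_i|R)`
the three branches, `w = u⁻¹` where `f = u · Γ ^ m`, `s i` a lift to `R` of the residue of `Γ` on the
`i`-th branch: the three residues glue to ONE unit `s₀ ∈ R` as soon as their values at the point agree.
-/
import Mathlib

set_option autoImplicit false

namespace Fermat.Agent.Lib.S36

open IsLocalRing

variable {R : Type*} [CommRing R] [IsLocalRing R]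

/-- uniqueness of `m`-th roots congruent modulo the maximal ideal, modulo any ideal `K`. -/
theorem s36t_sub_mem_of_pow_sub_pow_mem (m : ℕ) (hm : IsUnit (m : R)) (K : Ideal R) (a b : R)
    (ha : IsUnit a) (hab : a - b ∈ maximalIdeal R) (h : a ^ m - b ^ m ∈ K) : a - b ∈ K := by
  have hgeom := Commute.geom_sum₂_mul (Commute.all a b) m
  -- the cofactor is congruent to `m * a ^ (m - 1)` modulo the maximal ideal, hence a unit
  set c : R := ∑ i ∈ Finset.range m, a ^ i * b ^ (m - 1 - i) with hc
  have hcong : c - (m : R) * a ^ (m - 1) ∈ maximalIdeal R := by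
    have h1 : ∀ i ∈ Finset.range m, a ^ i * b ^ (m - 1 - i) - a ^ (m - 1) ∈ maximalIdeal R := by
      intro i hi
      have hi' : i + (m - 1 - i) = m - 1 := by
        have := Finset.mem_range.mp hi
        omega
      have h2 : a ^ (m - 1) = a ^ i * a ^ (m - 1 - i) := by rw [← pow_add, hi']
      rw [h2, ← mul_sub]
      refine Ideal.mul_mem_left _ _ ?_
      have h3 : a - b ∣ a ^ (m - 1 - i) - b ^ (m - 1 - i) := sub_dvd_pow_sub_pow a b _
      obtain ⟨d, hd⟩ := h3
      have h4 : b ^ (m - 1 - i) - a ^ (m - 1 - i) = -((a - b) * d) := by rw [← hd]; ring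
      rw [h4]
      exact (maximalIdeal R).neg_mem (Ideal.mul_mem_right _ _ hab)
    have h5 : c - (m : R) * a ^ (m - 1) =
        ∑ i ∈ Finset.range m, (a ^ i * b ^ (m - 1 - i) - a ^ (m - 1)) := by
      rw [Finset.sum_sub_distrib, Finset.sum_const, Finset.card_range, nsmul_eq_mul]
    rw [h5]
    exact Ideal.sum_mem _ h1
  have hcu : IsUnit c := by
    have hu : IsUnit ((m : R) * a ^ (m - 1)) := hm.mul (ha.pow _)
    by_contra hnu
    have hcm : c ∈ maximalIdeal R := (mem_maximalIdeal c).mpr hnu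
    have : (m : R) * a ^ (m - 1) ∈ maximalIdeal R := by
      have := (maximalIdeal R).sub_mem hcm hcong
      simpa using this
    exact ((mem_maximalIdeal _).mp this) hu
  obtain ⟨c', hc'⟩ := hcu.exists_right_inv
  have : a - b = c' * (a ^ m - b ^ m) := by
    rw [← hgeom, ← mul_assoc, mul_comm c' c, hc', one_mul]
  rw [this]
  exact Ideal.mul_mem_left _ _ h

/-- **Gluing two branches.** -/
theorem s36t_glue_two (m : ℕ) (hm : IsUnit (m : R)) (w : R) (hw : IsUnit w) (I J : Ideal R)
    (a b : R) (ha : a ^ m - w ∈ I) (hb : b ^ m - w ∈ J) (hab : a - b ∈ maximalIdeal R) :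
    ∃ s : R, s - a ∈ I ∧ s - b ∈ J := by
  by_cases hI : I = ⊤
  · exact ⟨b, by rw [hI]; trivial, by simp⟩
  have hIm : I ≤ maximalIdeal R := le_maximalIdeal hI
  -- `a` is a unit
  have hau : IsUnit a := by
    by_contra hnu
    have h1 : a ∈ maximalIdeal R := (mem_maximalIdeal a).mpr hnu
    have hm0 : m ≠ 0 := by
      rintro rfl
      have : IsUnit (0 : R) := by
        simp at hm
      exact not_isUnit_zero this
    have h2 : a ^ m ∈ maximalIdeal R := Ideal.pow_mem_of_mem _ h1 m (Nat.pos_of_ne_zero hm0)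
    have h3 : w ∈ maximalIdeal R := by
      have := (maximalIdeal R).sub_mem h2 (hIm ha)
      simpa using this
    exact ((mem_maximalIdeal w).mp h3) hw
  have hK : a ^ m - b ^ m ∈ I ⊔ J := by
    have : a ^ m - b ^ m = (a ^ m - w) + -(b ^ m - w) := by ring
    rw [this]
    exact Submodule.add_mem_sup ha (J.neg_mem hb)
  have hsub := s36t_sub_mem_of_pow_sub_pow_mem m hm (I ⊔ J) a b hau hab hK
  obtain ⟨i, hi, j, hj, hij⟩ := Submodule.mem_sup.mp hsub
  refine ⟨a - i, ?_, ?_⟩
  · have : a - i - a = -i := by ring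
    rw [this]
    exact I.neg_mem hi
  · have : a - i - b = j := by linear_combination -hij
    rw [this]
    exact hj

/-- **Gluing finitely many branches**: `m`-th roots `s i` of the unit `w` modulo proper ideals `I i`
with the same value at the closed point come from ONE element of `R`. -/
theorem s36t_glue (m : ℕ) (hm : IsUnit (m : R)) (w : R) (hw : IsUnit w) {ι : Type*}
    (T : Finset ι) (I : ι → Ideal R) (s : ι → R) (hI : ∀ i ∈ T, I i ≠ ⊤)
    (hs : ∀ i ∈ T, s i ^ m - w ∈ I i)
    (hmatch : ∀ i ∈ T, ∀ j ∈ T, s i - s j ∈ maximalIdeal R) :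
    ∃ s₀ : R, ∀ i ∈ T, s₀ - s i ∈ I i := by
  classical
  induction T using Finset.induction_on with
  | empty => exact ⟨0, fun i hi => absurd hi (Finset.notMem_empty i)⟩
  | insert i₀ T' hi₀ ih =>
    have hI' : ∀ i ∈ T', I i ≠ ⊤ := fun i hi => hI i (Finset.mem_insert_of_mem hi)
    have hs' : ∀ i ∈ T', s i ^ m - w ∈ I i := fun i hi => hs i (Finset.mem_insert_of_mem hi)
    have hmatch' : ∀ i ∈ T', ∀ j ∈ T', s i - s j ∈ maximalIdeal R := fun i hi j hj =>
      hmatch i (Finset.mem_insert_of_mem hi) j (Finset.mem_insert_of_mem hj)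
    obtain ⟨s', hs'mem⟩ := ih hI' hs' hmatch'
    rcases T'.eq_empty_or_nonempty with hT' | ⟨j₀, hj₀⟩
    · subst hT'
      refine ⟨s i₀, fun i hi => ?_⟩
      rw [Finset.mem_insert] at hi
      rcases hi with rfl | hi
      · simp
      · exact absurd hi (Finset.notMem_empty i)
    · -- glue `s'` modulo `⨅ I j` with `s i₀` modulo `I i₀`
      have h1 : s' ^ m - w ∈ T'.inf I := by
        rw [Submodule.mem_finsetInf]
        intro j hj
        have h2 : s' - s j ∣ s' ^ m - s j ^ m := sub_dvd_pow_sub_pow _ _ _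
        obtain ⟨d, hd⟩ := h2
        have h3 : s' ^ m - w = (s' - s j) * d + (s j ^ m - w) := by rw [← hd]; ring
        rw [h3]
        exact (I j).add_mem (Ideal.mul_mem_right _ _ (hs'mem j hj)) (hs' j hj)
      have h2 : s' - s i₀ ∈ maximalIdeal R := by
        have h3 : s' - s j₀ ∈ maximalIdeal R := le_maximalIdeal (hI' j₀ hj₀) (hs'mem j₀ hj₀)
        have h4 : s j₀ - s i₀ ∈ maximalIdeal R :=
          hmatch j₀ (Finset.mem_insert_of_mem hj₀) i₀ (Finset.mem_insert_self _ _)
        have : s' - s i₀ = (s' - s j₀) + (s j₀ - s i₀) := by ring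
        rw [this]
        exact (maximalIdeal R).add_mem h3 h4
      obtain ⟨s₀, hs₀', hs₀i⟩ := s36t_glue_two m hm w hw (T'.inf I) (I i₀) s' (s i₀) h1
        (hs i₀ (Finset.mem_insert_self _ _)) h2
      refine ⟨s₀, fun i hi => ?_⟩
      rw [Finset.mem_insert] at hi
      rcases hi with rfl | hi
      · exact hs₀i
      · have h5 : s₀ - s' ∈ I i := (Submodule.mem_finsetInf.mp hs₀') i hi
        have : s₀ - s i = (s₀ - s') + (s' - s i) := by ring
        rw [this]
        exact (I i).add_mem h5 (hs'mem i hi)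

end Fermat.Agent.Lib.S36
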