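/-
S36 mega-project, layer (G) (helper2, prefix `s36g_`), part 2: DEGREE-FREE LOCAL GENERATORS.

Degree-free twin of `Lib/S34/FGen.lean` (`s34f_loc_of_almostAll`): there the hypothesis
`hdeg : ∀ Q ∈ S, Q.ord f ≠ 0 → Q.deg = 1` was only threaded to the local contract
`s34f_AlmostAll` (whose producers need a section `B_𝔫 → A₀`).  Over the unramified base of S36
every place through `𝔫`, of ANY degree, has a local equation (`s36g_locEq_of_two_free`), so the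
hypothesis becomes

  `hLE : ∀ Q ∈ S, s34f_through O S 𝔫 Q → Q.ord f ≠ 0 → s34f_LocEq O S 𝔫 Q`

and there is no exceptional place, no `g`-invariance argument.

* `s36g_exists_gen`       : for an exponent function `E` with finite support on the places through
  `𝔫` and local equations at the support: `∃ Φ ≠ 0, ∀ Q ∈ S through 𝔫, ord_Q Φ = E Q`;
* `s36g_exists_gen_div`   : the case `E = s18_E f m = ord f / m`;
* `s36g_exists_unit_quot` : if moreover `m ∣ ord_Q f` at the places through `𝔫`, then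
  `ord_Q (f / Φ ^ m) = 0` at all `Q ∈ S` through `𝔫` (`f = Φ ^ m · unit` locally at `𝔫`);
* `s36g_ord_f2_gen`       : the second difference of the generator has the orders of the second
  difference of `f` divided by `m`;
* `s36g_loc_of_locEq`     : **(LOC) at `𝔫` for the second difference `s34q_f2 g f`**, conclusion in
  the exact shape of `s34f_loc_of_almostAll` / `s34x_loc_of_gen` (what `s34x_zero_inf` consumes);
* `s36g_loc_of_gen_unit`  : (LOC) for `f` itself from a local generator `Φ` and the vertical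
  congruences of `Φ` (thin wrapper of `s34x_loc_of_gen`, stated with `s34f_through`).
-/
import Fermat.Agent.Lib.S34.FGen

set_option autoImplicit false

noncomputable section

namespace Fermat.Agent.Lib.S36

open AlgebraicCurve Fermat.Agent.Lib.FF Fermat.Agent.Lib.S18 Fermat.Agent.Lib.S34

variable {L₀ 𝓕 : Type*} [Field L₀] [Field 𝓕] [Algebra L₀ 𝓕]

/-- **Local generator for an exponent function** (degree-free). -/
theorem s36g_exists_gen (O : Subring 𝓕) (S : Set (Place L₀ 𝓕)) (𝔫 : Ideal (s34x_ring O S))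
    (E : Place L₀ 𝓕 → ℤ)
    (hfin : {Q : Place L₀ 𝓕 | Q ∈ S ∧ s34f_through O S 𝔫 Q ∧ E Q ≠ 0}.Finite)
    (hLE : ∀ Q ∈ S, s34f_through O S 𝔫 Q → E Q ≠ 0 → s34f_LocEq O S 𝔫 Q) :
    ∃ Φ : 𝓕, Φ ≠ 0 ∧ ∀ Q ∈ S, s34f_through O S 𝔫 Q → Q.ord Φ = E Q := by
  classical
  set T : Finset (Place L₀ 𝓕) := hfin.toFinset with hT
  have hTmem : ∀ P, P ∈ T ↔ P ∈ S ∧ s34f_through O S 𝔫 P ∧ E P ≠ 0 := by
    intro P
    rw [hT, Set.Finite.mem_toFinset]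
    rfl
  have hchoose : ∀ P : Place L₀ 𝓕, ∃ φ : 𝓕, P ∈ T → (φ ≠ 0 ∧ P.ord φ = 1 ∧
      ∀ Q' ∈ S, Q' ≠ P → s34f_through O S 𝔫 Q' → Q'.ord φ = 0) := by
    intro P
    by_cases hP : P ∈ T
    · obtain ⟨hPS, hPth, hPE⟩ := (hTmem P).mp hP
      obtain ⟨φ, h1, h2, h3⟩ := hLE P hPS hPth hPE
      exact ⟨φ, fun _ => ⟨h1, h2, h3⟩⟩
    · exact ⟨0, fun h => absurd h hP⟩
  choose φ hφ using hchoose
  have hφ0 : ∀ P ∈ T, φ P ≠ 0 := fun P hP => (hφ P hP).1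
  refine ⟨∏ P ∈ T, φ P ^ E P,
    Finset.prod_ne_zero_iff.mpr fun P hP => zpow_ne_zero _ (hφ0 P hP), ?_⟩
  intro Q hQS hth
  rw [s18i_ord_prod_zpow Q T φ E hφ0]
  by_cases hQT : Q ∈ T
  · rw [Finset.sum_eq_single_of_mem Q hQT, (hφ Q hQT).2.1, mul_one]
    intro P hP hne
    rw [(hφ P hP).2.2 Q hQS (Ne.symm hne) hth, mul_zero]
  · have hE0 : E Q = 0 := by
      by_contra hne
      exact hQT ((hTmem Q).mpr ⟨hQS, hth, hne⟩)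
    rw [hE0]
    refine Finset.sum_eq_zero fun P hP => ?_
    have hne : Q ≠ P := fun h => hQT (h ▸ hP)
    rw [(hφ P hP).2.2 Q hQS hne hth, mul_zero]

/-- **Local generator of `div f / m` at `𝔫`** (degree-free). -/
theorem s36g_exists_gen_div (O : Subring 𝓕) (S : Set (Place L₀ 𝓕)) (𝔫 : Ideal (s34x_ring O S))
    (f : 𝓕) (m : ℕ)
    (hfin : {Q : Place L₀ 𝓕 | Q ∈ S ∧ Q.ord f ≠ 0}.Finite)
    (hLE : ∀ Q ∈ S, s34f_through O S 𝔫 Q → Q.ord f ≠ 0 → s34f_LocEq O S 𝔫 Q) :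
    ∃ Φ : 𝓕, Φ ≠ 0 ∧ ∀ Q ∈ S, s34f_through O S 𝔫 Q → Q.ord Φ = s18_E f m Q := by
  have he0 : ∀ P : Place L₀ 𝓕, s18_E f m P ≠ 0 → P.ord f ≠ 0 := by
    intro P hP h0
    apply hP
    show P.ord f / (m : ℤ) = 0
    rw [h0, Int.zero_ediv]
  refine s36g_exists_gen O S 𝔫 (s18_E f m) (hfin.subset ?_) ?_
  · rintro Q ⟨hQS, _, hE⟩
    exact ⟨hQS, he0 Q hE⟩
  · intro Q hQS hth hE
    exact hLE Q hQS hth (he0 Q hE)

/-- **`f = Φ ^ m · (unit at the places through 𝔫)`** (degree-free). -/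
theorem s36g_exists_unit_quot (O : Subring 𝓕) (S : Set (Place L₀ 𝓕)) (𝔫 : Ideal (s34x_ring O S))
    (f : 𝓕) (hf0 : f ≠ 0) (m : ℕ) (hm0 : m ≠ 0)
    (hdiv : ∀ Q ∈ S, s34f_through O S 𝔫 Q → (m : ℤ) ∣ Q.ord f)
    (hfin : {Q : Place L₀ 𝓕 | Q ∈ S ∧ Q.ord f ≠ 0}.Finite)
    (hLE : ∀ Q ∈ S, s34f_through O S 𝔫 Q → Q.ord f ≠ 0 → s34f_LocEq O S 𝔫 Q) :
    ∃ Φ : 𝓕, Φ ≠ 0 ∧ (∀ Q ∈ S, s34f_through O S 𝔫 Q → Q.ord f = (m : ℤ) * Q.ord Φ) ∧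
      ∀ Q ∈ S, s34f_through O S 𝔫 Q → Q.ord (f / Φ ^ m) = 0 := by
  obtain ⟨Φ, hΦ0, hΦ⟩ := s36g_exists_gen_div O S 𝔫 f m hfin hLE
  have hmZ : (m : ℤ) ≠ 0 := by exact_mod_cast hm0
  have h1 : ∀ Q ∈ S, s34f_through O S 𝔫 Q → Q.ord f = (m : ℤ) * Q.ord Φ := by
    intro Q hQS hth
    rw [hΦ Q hQS hth]
    exact (Int.mul_ediv_cancel' (hdiv Q hQS hth)).symm
  refine ⟨Φ, hΦ0, h1, ?_⟩
  intro Q hQS hth
  have hpow : Φ ^ m ≠ 0 := pow_ne_zero m hΦ0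
  rw [div_eq_mul_inv, Q.ord_mul hf0 (inv_ne_zero hpow), Q.ord_inv, ← zpow_natCast, Q.ord_zpow,
    h1 Q hQS hth]
  ring

/-- The order of the second difference of a local generator. -/
theorem s36g_ord_f2_gen (O : Subring 𝓕) (S : Set (Place L₀ 𝓕)) {π : 𝓕}
    {𝔫 : Ideal (s34x_ring O S)} {g : SemilinearAut L₀ 𝓕} (hst : s34f_Stable O S π 𝔫 g)
    (f : 𝓕) (hf0 : f ≠ 0) (m : ℕ) (hm0 : m ≠ 0) (hdiv : ∀ Q : Place L₀ 𝓕, (m : ℤ) ∣ Q.ord f)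
    (Φ : 𝓕) (hΦ0 : Φ ≠ 0)
    (hΦ : ∀ Q ∈ S, s34f_through O S 𝔫 Q → Q.ord Φ = s18_E f m Q)
    (Q : Place L₀ 𝓕) (hQS : Q ∈ S) (hth : s34f_through O S 𝔫 Q) :
    Q.ord (s34q_f2 g Φ) = s18_E (s34q_f2 g f) m Q := by
  have hmZ : (m : ℤ) ≠ 0 := by exact_mod_cast hm0
  have hme : ∀ P : Place L₀ 𝓕, P.ord f = (m : ℤ) * s18_E f m P := fun P =>
    (Int.mul_ediv_cancel' (hdiv P)).symm
  have hQ1S : g⁻¹ • Q ∈ S := (hst.inv.chart Q).mp hQS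
  have hth1 : s34f_through O S 𝔫 (g⁻¹ • Q) := hst.inv.through_smul hth
  have hQ2S : g⁻¹ • g⁻¹ • Q ∈ S := (hst.inv.chart _).mp hQ1S
  have hth2 : s34f_through O S 𝔫 (g⁻¹ • g⁻¹ • Q) := hst.inv.through_smul hth1
  have hE : s18_E (s34q_f2 g f) m Q =
      s18_E f m (g⁻¹ • g⁻¹ • Q) + s18_E f m Q - 2 * s18_E f m (g⁻¹ • Q) := by
    have h0 : s18_E (s34q_f2 g f) m Q = Q.ord (s34q_f2 g f) / (m : ℤ) := rfl
    rw [h0, s34f_ord_f2 g Q hf0, hme, hme Q, hme (g⁻¹ • Q)]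
    have : (m : ℤ) * s18_E f m (g⁻¹ • g⁻¹ • Q) + (m : ℤ) * s18_E f m Q -
        2 * ((m : ℤ) * s18_E f m (g⁻¹ • Q)) =
        (m : ℤ) * (s18_E f m (g⁻¹ • g⁻¹ • Q) + s18_E f m Q - 2 * s18_E f m (g⁻¹ • Q)) := by ring
    rw [this, Int.mul_ediv_cancel_left _ hmZ]
  rw [hE, s34f_ord_f2 g Q hΦ0, hΦ _ hQ2S hth2, hΦ Q hQS hth, hΦ _ hQ1S hth1]

/-- **(LOC) at `𝔫` for the second difference `f₂ = s34q_f2 g f`, degree-free**: the twin of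
`s34f_loc_of_almostAll` with `hAA`/`hdeg` replaced by local equations at all places of the support
of `f` through `𝔫`. -/
theorem s36g_loc_of_locEq {ι : Type*} [Fintype ι] (O : ι → ValuationSubring 𝓕)
    (S : Set (Place L₀ 𝓕)) (π : 𝓕) (hπ0 : π ≠ 0) (hπO : ∀ i, π ∈ O i)
    (hU : ∀ i, ∀ y : 𝓕, ∃ k : ℕ, π ^ k * y ∈ O i)
    (F3 : ∀ y : 𝓕, y ≠ 0 → {Q : Place L₀ 𝓕 | Q ∈ S ∧ Q.ord y ≠ 0}.Finite)
    (𝔫 : Ideal (s34x_ring (s34x_infRing O) S)) [h𝔫 : 𝔫.IsPrime]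
    (g : SemilinearAut L₀ 𝓕) (hst : s34f_Stable (s34x_infRing O) S π 𝔫 g)
    (hsd : ∀ i, ∀ U : 𝓕, U ≠ 0 → ∃ z ∈ O i, s34q_f2 g U - 1 = π * z)
    (f : 𝓕) (hf0 : f ≠ 0) (m : ℕ) (hm0 : m ≠ 0) (hdiv : ∀ Q : Place L₀ 𝓕, (m : ℤ) ∣ Q.ord f)
    (hLE : ∀ Q ∈ S, s34f_through (s34x_infRing O) S 𝔫 Q → Q.ord f ≠ 0 →
      s34f_LocEq (s34x_infRing O) S 𝔫 Q) :
    ∃ a ∈ s34x_latSet (s34x_infRing O) S (s18_E (s34q_f2 g f) m),
      ∃ s : s34x_ring (s34x_infRing O) S, s ∉ 𝔫 ∧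
        ∃ y ∈ s34x_infRing O, a - (s : 𝓕) = π * y := by
  obtain ⟨Φ, hΦ0, hΦ⟩ := s36g_exists_gen_div (s34x_infRing O) S 𝔫 f m (F3 f hf0) hLE
  have hgx0 : s34q_f2 g Φ ≠ 0 := s34q_f2_ne_zero g hΦ0
  have hf20 : s34q_f2 g f ≠ 0 := s34q_f2_ne_zero g hf0
  refine s34x_loc_of_gen O S (s18_E (s34q_f2 g f) m) π hπ0 hπO hU 𝔫 (s34q_f2 g Φ) hgx0 ?_ ?_ ?_
  · intro Q hQS hth
    exact (s36g_ord_f2_gen (s34x_infRing O) S hst f hf0 m hm0 hdiv Φ hΦ0 hΦ Q hQS hth).ge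
  · intro i _
    exact hsd i Φ hΦ0
  · refine ((F3 _ hgx0).union (F3 _ hf20)).subset ?_
    rintro Q ⟨hQS, hlt⟩
    by_cases h0 : Q.ord (s34q_f2 g f) = 0
    · left
      refine ⟨hQS, fun h => ?_⟩
      have h1 : s18_E (s34q_f2 g f) m Q = 0 := by
        show Q.ord (s34q_f2 g f) / (m : ℤ) = 0
        rw [h0, Int.zero_ediv]
      rw [h, h1] at hlt
      exact lt_irrefl _ hlt
    · right
      exact ⟨hQS, h0⟩

/-- **(LOC) at `𝔫` for `f` itself from a local generator**: if `Φ` generates `div f / m` at the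
places through `𝔫` and `Φ ≡ 1 mod π (O i)` on the components through `𝔫`, then (LOC) holds for the
lattice of `s18_E f m`.  (Wrapper of `s34x_loc_of_gen` in the language of `s34f_through`.) -/
theorem s36g_loc_of_gen_unit {ι : Type*} [Fintype ι] (O : ι → ValuationSubring 𝓕)
    (S : Set (Place L₀ 𝓕)) (π : 𝓕) (hπ0 : π ≠ 0) (hπO : ∀ i, π ∈ O i)
    (hU : ∀ i, ∀ y : 𝓕, ∃ k : ℕ, π ^ k * y ∈ O i)
    (F3 : ∀ y : 𝓕, y ≠ 0 → {Q : Place L₀ 𝓕 | Q ∈ S ∧ Q.ord y ≠ 0}.Finite)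
    (𝔫 : Ideal (s34x_ring (s34x_infRing O) S)) [h𝔫 : 𝔫.IsPrime]
    (f : 𝓕) (hf0 : f ≠ 0) (m : ℕ)
    (Φ : 𝓕) (hΦ0 : Φ ≠ 0)
    (hΦ : ∀ Q ∈ S, s34f_through (s34x_infRing O) S 𝔫 Q → Q.ord Φ = s18_E f m Q)
    (hΦC : ∀ i, (∀ b : s34x_ring (s34x_infRing O) S, (∃ y ∈ O i, (b : 𝓕) = π * y) → b ∈ 𝔫) →
      ∃ y ∈ O i, Φ - 1 = π * y) :
    ∃ a ∈ s34x_latSet (s34x_infRing O) S (s18_E f m),
      ∃ s : s34x_ring (s34x_infRing O) S, s ∉ 𝔫 ∧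
        ∃ y ∈ s34x_infRing O, a - (s : 𝓕) = π * y := by
  refine s34x_loc_of_gen O S (s18_E f m) π hπ0 hπO hU 𝔫 Φ hΦ0 ?_ hΦC ?_
  · intro Q hQS hth
    exact (hΦ Q hQS hth).ge
  · refine ((F3 _ hΦ0).union (F3 _ hf0)).subset ?_
    rintro Q ⟨hQS, hlt⟩
    by_cases h0 : Q.ord f = 0
    · left
      refine ⟨hQS, fun h => ?_⟩
      have h1 : s18_E f m Q = 0 := by
        show Q.ord f / (m : ℤ) = 0
        rw [h0, Int.zero_ediv]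
      rw [h, h1] at hlt
      exact lt_irrefl _ hlt
    · right
      exact ⟨hQS, h0⟩

end Fermat.Agent.Lib.S36
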