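/-
S36 mega-project, layer (X-loc) (helper3, prefix `s36y_`), parts (3a), (3b): **the local generator
contract modulo the radical `s36y_NodeGenRad` from local equations, branch uniformisers and MATCH.**

Frame of `Lib/S36/XLocRad.lean`: `O : ι → ValuationSubring 𝓕` (finitely many vertical valuations),
`B = s34x_ring (s34x_infRing O) S`, `𝔫` a prime of `B`, `R = B_𝔫 ⊂ 𝓕` (`ι_R = s34f_iota`).

* `s36y_branchIdeal O S 𝔫 i`   : the ideal of `R` of the functions vanishing on the component `i`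
  (`a ∈ I_i ↔ ι_R a ∈ (O i).nonunits` for a component through `𝔫`: `s36y_mem_branchIdeal`);
* `s36y_exists_unit_comps`     : correcting a function by powers of the branch uniformisers `ℓ i` to a
  unit at all components through `𝔫`, without changing its orders at the places through `𝔫`;
* **`s36y_exists_gen_lifts`** (3a): from local equations at the support of `f` through `𝔫` (`hLE`,
  degree-free), branch uniformisers (`hℓ`: `ℓ i` uniformiser of `O i`, unit at the other components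
  through `𝔫`, no horizontal zero through `𝔫`) and normality of the branches (`hN`): a generator `Γ`
  of `div f / m` at `𝔫`, unit at the components through `𝔫`, `f = ι_R u * Γ ^ m` with `u ∈ Rˣ`, and
  units `s i ∈ Rˣ` with `Γ ≡ ι_R (s i) mod 𝔪(O i)`;
* **`s36y_nodeGenRad_of_match`** (3b): if the lifts agree at the closed point (`s i - s j ∈ 𝔪_R`)
  they glue (helper8's `s36t_glue`) to one unit `s₀`, and `γ = Γ / ι_R s₀` satisfies NodeGenRad;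
* `s36y_nodeGenRad_of_lifts`   : (3a) + (3b), MATCH asked for every output of (3a);
* `s36y_nodeGenRad_of_single`, `s36y_loc_of_single` : at a point on at most ONE component no MATCH
  condition remains.
-/
import Fermat.Agent.Lib.S36.XLocRad
import Fermat.Agent.Lib.S36.XGenFree
import Fermat.Agent.Lib.S36.TGlue

set_option autoImplicit false
set_option linter.unusedSectionVars false
set_option linter.style.haveILetI false

noncomputable section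

namespace Fermat.Agent.Lib.S36

open AlgebraicCurve Fermat.Agent.Lib.FF Fermat.Agent.Lib.S18 Fermat.Agent.Lib.S34 IsLocalRing

variable {L₀ 𝓕 : Type*} [Field L₀] [Field 𝓕] [Algebra L₀ 𝓕]

variable {ι : Type*} (O : ι → ValuationSubring 𝓕) (S : Set (Place L₀ 𝓕))
  (𝔫 : Ideal (s34x_ring (s34x_infRing O) S)) [h𝔫 : 𝔫.IsPrime]

/-! ### Units of `R = B_𝔫` -/

/-- a unit of `B_𝔫` is a unit of every component through `𝔫`. -/
theorem s36y_val_iota_unit (i : ι) (hi : s36q_compThrough O S 𝔫 i)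
    (z : Localization.AtPrime 𝔫) (hz : IsUnit z) :
    (O i).valuation (s34f_iota (s34x_infRing O) S 𝔫 z) = 1 := by
  obtain ⟨z', hz'⟩ := hz.exists_right_inv
  have h1 := congrArg (s34f_iota (s34x_infRing O) S 𝔫) hz'
  rw [map_mul, map_one] at h1
  have hz0 : s34f_iota (s34x_infRing O) S 𝔫 z ≠ 0 := left_ne_zero_of_mul_eq_one h1
  have hinv : (s34f_iota (s34x_infRing O) S 𝔫 z)⁻¹ = s34f_iota (s34x_infRing O) S 𝔫 z' :=
    (eq_inv_of_mul_eq_one_right h1).symm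
  apply s36y_val_eq_one_of_mem _ hz0 (s36q_iota_mem_comp O S 𝔫 i hi z)
  rw [hinv]
  exact s36q_iota_mem_comp O S 𝔫 i hi z'

/-- an element of `B_𝔫` vanishing on a component through `𝔫` lies in the maximal ideal. -/
theorem s36y_mem_maximalIdeal_of_nonunit (i : ι) (hi : s36q_compThrough O S 𝔫 i)
    (a : Localization.AtPrime 𝔫)
    (ha : s34f_iota (s34x_infRing O) S 𝔫 a ∈ (O i).nonunits) :
    a ∈ maximalIdeal (Localization.AtPrime 𝔫) := by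
  rw [mem_maximalIdeal, mem_nonunits_iff]
  intro hu
  have h1 := s36y_val_iota_unit O S 𝔫 i hi a hu
  have h2 := (O i).mem_nonunits_iff.mp ha
  rw [h1] at h2
  exact lt_irrefl _ h2

/-- a unit of `B_𝔫` has order zero at the places through `𝔫`. -/
theorem s36y_ord_iota_unit (z : Localization.AtPrime 𝔫) (hz : IsUnit z) (Q : Place L₀ 𝓕)
    (hQS : Q ∈ S) (hth : s34f_through (s34x_infRing O) S 𝔫 Q) :
    s34f_iota (s34x_infRing O) S 𝔫 z ≠ 0 ∧ Q.ord (s34f_iota (s34x_infRing O) S 𝔫 z) = 0 := by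
  obtain ⟨z', hz'⟩ := hz.exists_right_inv
  have h1 := congrArg (s34f_iota (s34x_infRing O) S 𝔫) hz'
  rw [map_mul, map_one] at h1
  have hz0 : s34f_iota (s34x_infRing O) S 𝔫 z ≠ 0 := left_ne_zero_of_mul_eq_one h1
  have hz'0 : s34f_iota (s34x_infRing O) S 𝔫 z' ≠ 0 := right_ne_zero_of_mul_eq_one h1
  refine ⟨hz0, ?_⟩
  have h2 := Q.ord_mul hz0 hz'0
  rw [h1, Place.ord_one] at h2
  have h3 := s34f_iota_ord_nonneg (s34x_infRing O) S 𝔫 z Q hQS hth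
  have h4 := s34f_iota_ord_nonneg (s34x_infRing O) S 𝔫 z' Q hQS hth
  omega

/-- a unit plus an element of the maximal ideal is a unit. -/
theorem s36y_isUnit_add {R : Type*} [CommRing R] [IsLocalRing R] {a x : R} (ha : IsUnit a)
    (hx : x ∈ maximalIdeal R) : IsUnit (a + x) := by
  by_contra hnu
  have h1 : a + x ∈ maximalIdeal R := (mem_maximalIdeal _).mpr hnu
  have h2 : a ∈ maximalIdeal R := by
    have := (maximalIdeal R).sub_mem h1 hx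
    simpa using this
  exact ((mem_maximalIdeal a).mp h2) ha

/-- `m` is a unit of `B_𝔫` as soon as it is invertible in the chart ring. -/
theorem s36y_isUnit_natCast (m : ℕ)
    (hm : ∃ b : s34x_ring (s34x_infRing O) S, (m : 𝓕) * (b : 𝓕) = 1) :
    IsUnit ((m : ℕ) : Localization.AtPrime 𝔫) := by
  obtain ⟨b, hb⟩ := hm
  refine IsUnit.of_mul_eq_one
    (algebraMap (s34x_ring (s34x_infRing O) S) (Localization.AtPrime 𝔫) b) ?_
  apply s34f_iota_injective (s34x_infRing O) S 𝔫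
  rw [map_mul, map_natCast, s34f_iota_algebraMap, map_one]
  exact hb

/-! ### The branch ideals -/

/-- **The ideal of the branch `i`** in `R = B_𝔫`: for a component through `𝔫` the functions of `R`
vanishing on it (`s36y_mem_branchIdeal`). -/
def s36y_branchIdeal (i : ι) : Ideal (Localization.AtPrime 𝔫) where
  carrier := {a | ∀ c : Localization.AtPrime 𝔫,
    s34f_iota (s34x_infRing O) S 𝔫 (c * a) ∈ (O i).nonunits}
  add_mem' := by
    intro a b ha hb c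
    rw [mul_add, map_add]
    exact (O i).nonunits.add_mem (ha c) (hb c)
  zero_mem' := by
    intro c
    rw [mul_zero, map_zero]
    exact (O i).nonunits.zero_mem
  smul_mem' := by
    intro c a ha c'
    rw [smul_eq_mul, ← mul_assoc]
    exact ha (c' * c)

theorem s36y_mem_branchIdeal (i : ι) (hi : s36q_compThrough O S 𝔫 i)
    (a : Localization.AtPrime 𝔫) :
    a ∈ s36y_branchIdeal O S 𝔫 i ↔ s34f_iota (s34x_infRing O) S 𝔫 a ∈ (O i).nonunits := by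
  constructor
  · intro h
    have := h 1
    rwa [one_mul] at this
  · intro h c
    rw [map_mul]
    exact s36y_mul_mem_nonunits _ (s36q_iota_mem_comp O S 𝔫 i hi c) h

theorem s36y_branchIdeal_le (i : ι) (hi : s36q_compThrough O S 𝔫 i) :
    s36y_branchIdeal O S 𝔫 i ≤ maximalIdeal (Localization.AtPrime 𝔫) := fun a ha =>
  s36y_mem_maximalIdeal_of_nonunit O S 𝔫 i hi a ((s36y_mem_branchIdeal O S 𝔫 i hi a).mp ha)

theorem s36y_branchIdeal_ne_top (i : ι) (hi : s36q_compThrough O S 𝔫 i) :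
    s36y_branchIdeal O S 𝔫 i ≠ ⊤ := by
  intro h
  have h1 := s36y_branchIdeal_le O S 𝔫 i hi
  rw [h] at h1
  exact (maximalIdeal.isMaximal (Localization.AtPrime 𝔫)).ne_top (top_le_iff.mp h1)

/-! ### (3b) gluing the lifts -/

variable [Fintype ι]

/-- **(3b) NodeGenRad from MATCH.**  `Γ` a generator of `E` at the places through `𝔫`,
`f = ι_R u * Γ ^ m` with `u ∈ Rˣ`, `f ≡ 1` on the components through `𝔫`, lifts `s i ∈ R` of the
residues of `Γ` on the branches which agree at the closed point. -/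
theorem s36y_nodeGenRad_of_match (E : Place L₀ 𝓕 → ℤ) (f : 𝓕) (m : ℕ)
    (hmR : IsUnit ((m : ℕ) : Localization.AtPrime 𝔫))
    (hf1 : ∀ i, s36q_compThrough O S 𝔫 i → f - 1 ∈ (O i).nonunits)
    (Γ : 𝓕) (hΓ0 : Γ ≠ 0)
    (hΓQ : ∀ Q ∈ S, s34f_through (s34x_infRing O) S 𝔫 Q → E Q ≤ Q.ord Γ)
    (u : Localization.AtPrime 𝔫) (hu : IsUnit u)
    (hfu : f = s34f_iota (s34x_infRing O) S 𝔫 u * Γ ^ m)
    (s : ι → Localization.AtPrime 𝔫)
    (hs : ∀ i, s36q_compThrough O S 𝔫 i →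
      Γ - s34f_iota (s34x_infRing O) S 𝔫 (s i) ∈ (O i).nonunits)
    (hmatch : ∀ i j, s36q_compThrough O S 𝔫 i → s36q_compThrough O S 𝔫 j →
      s i - s j ∈ maximalIdeal (Localization.AtPrime 𝔫)) :
    s36y_NodeGenRad O S 𝔫 E := by
  classical
  set ιR := s34f_iota (s34x_infRing O) S 𝔫 with hιR
  set T : Finset ι := Finset.univ.filter fun i => s36q_compThrough O S 𝔫 i with hT
  have hTmem : ∀ i, i ∈ T ↔ s36q_compThrough O S 𝔫 i := by
    intro i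
    rw [hT, Finset.mem_filter]
    exact ⟨fun h => h.2, fun h => ⟨Finset.mem_univ _, h⟩⟩
  rcases T.eq_empty_or_nonempty with hTe | ⟨i₀, hi₀T⟩
  · -- no component through `𝔫`
    refine ⟨Γ, hΓ0, hΓQ, fun i hi => ?_⟩
    have : i ∈ T := (hTmem i).mpr hi
    rw [hTe] at this
    exact absurd this (Finset.notMem_empty i)
  have hi₀ : s36q_compThrough O S 𝔫 i₀ := (hTmem i₀).mp hi₀T
  have hm0 : m ≠ 0 := by
    rintro rfl
    rw [Nat.cast_zero] at hmR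
    exact not_isUnit_zero hmR
  -- the inverse of `u`
  obtain ⟨w, hw⟩ := hu.exists_right_inv
  have hwu : IsUnit w := IsUnit.of_mul_eq_one u (by rw [mul_comm]; exact hw)
  have hιuw : ιR u * ιR w = 1 := by rw [← map_mul, hw, map_one]
  have hΓm : Γ ^ m = f * ιR w := by
    rw [hfu]
    calc Γ ^ m = (ιR u * ιR w) * Γ ^ m := by rw [hιuw, one_mul]
      _ = ιR u * Γ ^ m * ιR w := by ring
  -- the congruences `s i ^ m ≡ w` on the branches
  have hΓO : ∀ i, s36q_compThrough O S 𝔫 i → Γ ∈ O i := by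
    intro i hi
    have h1 : Γ = (Γ - ιR (s i)) + ιR (s i) := by ring
    rw [h1]
    exact add_mem (ValuationSubring.nonunits_subset (hs i hi)) (s36q_iota_mem_comp O S 𝔫 i hi (s i))
  have hsw : ∀ i ∈ T, s i ^ m - w ∈ s36y_branchIdeal O S 𝔫 i := by
    intro i hiT
    have hi := (hTmem i).mp hiT
    rw [s36y_mem_branchIdeal O S 𝔫 i hi, map_sub, map_pow]
    have h1 : Γ ^ m - ιR (s i) ^ m ∈ (O i).nonunits :=
      s36y_pow_sub_pow_mem _ (hΓO i hi) (s36q_iota_mem_comp O S 𝔫 i hi (s i)) (hs i hi) m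
    have h2 : Γ ^ m - ιR w ∈ (O i).nonunits := by
      have : Γ ^ m - ιR w = (f - 1) * ιR w := by rw [hΓm]; ring
      rw [this]
      exact s36y_mul_mem_nonunits' _ (hf1 i hi) (s36q_iota_mem_comp O S 𝔫 i hi w)
    have : ιR (s i) ^ m - ιR w = (Γ ^ m - ιR w) - (Γ ^ m - ιR (s i) ^ m) := by ring
    rw [this]
    exact (O i).nonunits.sub_mem h2 h1
  -- gluing
  obtain ⟨s₀, hs₀⟩ := s36t_glue m hmR w hwu T (s36y_branchIdeal O S 𝔫) s
    (fun i hiT => s36y_branchIdeal_ne_top O S 𝔫 i ((hTmem i).mp hiT)) hsw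
    (fun i hiT j hjT => hmatch i j ((hTmem i).mp hiT) ((hTmem j).mp hjT))
  -- `s i₀` and `s₀` are units
  have hsi₀ : IsUnit (s i₀) := by
    have h1 : s i₀ ^ m - w ∈ maximalIdeal (Localization.AtPrime 𝔫) :=
      s36y_branchIdeal_le O S 𝔫 i₀ hi₀ (hsw i₀ hi₀T)
    have h2 : IsUnit (s i₀ ^ m) := by
      have := s36y_isUnit_add hwu h1
      rwa [add_sub_cancel] at this
    exact (isUnit_pow_iff hm0).mp h2
  have hs₀u : IsUnit s₀ := by
    have h1 : s₀ - s i₀ ∈ maximalIdeal (Localization.AtPrime 𝔫) :=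
      s36y_branchIdeal_le O S 𝔫 i₀ hi₀ (hs₀ i₀ hi₀T)
    have := s36y_isUnit_add hsi₀ h1
    rwa [add_sub_cancel] at this
  have hs₀0 : ιR s₀ ≠ 0 := by
    intro h0
    have : s₀ = 0 := s34f_iota_injective (s34x_infRing O) S 𝔫 (by rw [← hιR, h0, map_zero])
    rw [this] at hs₀u
    exact not_isUnit_zero hs₀u
  refine ⟨Γ * (ιR s₀)⁻¹, mul_ne_zero hΓ0 (inv_ne_zero hs₀0), ?_, ?_⟩
  · intro Q hQS hth
    rw [Q.ord_mul hΓ0 (inv_ne_zero hs₀0), Q.ord_inv,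
      (s36y_ord_iota_unit O S 𝔫 s₀ hs₀u Q hQS hth).2, neg_zero, add_zero]
    exact hΓQ Q hQS hth
  · intro i hi
    have hiT := (hTmem i).mpr hi
    have h1 : Γ - ιR s₀ ∈ (O i).nonunits := by
      have h2 : ιR (s₀ - s i) ∈ (O i).nonunits :=
        (s36y_mem_branchIdeal O S 𝔫 i hi _).mp (hs₀ i hiT)
      rw [map_sub] at h2
      have : Γ - ιR s₀ = (Γ - ιR (s i)) - (ιR s₀ - ιR (s i)) := by ring
      rw [this]
      exact (O i).nonunits.sub_mem (hs i hi) h2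
    have h3 : (ιR s₀)⁻¹ ∈ O i :=
      (s36y_mem_of_val_eq_one _ (s36y_val_iota_unit O S 𝔫 i hi s₀ hs₀u)).2
    have : Γ * (ιR s₀)⁻¹ - 1 = (Γ - ιR s₀) * (ιR s₀)⁻¹ := by
      field_simp
    rw [this]
    exact s36y_mul_mem_nonunits' _ h1 h3

/-! ### (3a) the generator and the lifts of its residues -/

omit h𝔫 [Fintype ι] in
/-- **Correcting by branch uniformisers**: a function is made a unit at finitely many components
(satisfying `P`) by powers of their uniformisers `ℓ i`, which are units at the other components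
satisfying `P` and have no zero or pole at the places through `𝔫`. -/
theorem s36y_exists_unit_comps (P : ι → Prop)
    (hℓ : ∀ i, P i → ∃ ℓ : 𝓕, ℓ ≠ 0 ∧
      (∀ U : 𝓕, U ≠ 0 → ∃ (n : ℤ) (v : 𝓕), v ∈ O i ∧ v⁻¹ ∈ O i ∧ U = ℓ ^ n * v) ∧
      (∀ j, j ≠ i → P j → ℓ ∈ O j ∧ ℓ⁻¹ ∈ O j) ∧
      (∀ Q ∈ S, s34f_through (s34x_infRing O) S 𝔫 Q → Q.ord ℓ = 0))
    (x : 𝓕) (hx0 : x ≠ 0) (T : Finset ι) (hT : ∀ i ∈ T, P i) :
    ∃ x' : 𝓕, x' ≠ 0 ∧
      (∀ Q ∈ S, s34f_through (s34x_infRing O) S 𝔫 Q → Q.ord x' = Q.ord x) ∧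
      ∀ i ∈ T, (O i).valuation x' = 1 := by
  classical
  induction T using Finset.induction_on with
  | empty => exact ⟨x, hx0, fun _ _ _ => rfl, fun i hi => absurd hi (Finset.notMem_empty i)⟩
  | insert i₀ T hi₀ ih =>
    obtain ⟨x', hx'0, hx'Q, hx'T⟩ := ih (fun i hi => hT i (Finset.mem_insert_of_mem hi))
    have hPi₀ : P i₀ := hT i₀ (Finset.mem_insert_self _ _)
    obtain ⟨ℓ, hℓ0, hdec, hother, hℓQ⟩ := hℓ i₀ hPi₀
    obtain ⟨n, v, hv, hv', e⟩ := hdec x' hx'0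
    have hℓn0 : ℓ ^ n ≠ 0 := zpow_ne_zero _ hℓ0
    have hv0 : v ≠ 0 := by
      rintro rfl
      rw [mul_zero] at e
      exact hx'0 e
    have hxv : x' * (ℓ ^ n)⁻¹ = v := by
      rw [e]; field_simp
    refine ⟨x' * (ℓ ^ n)⁻¹, mul_ne_zero hx'0 (inv_ne_zero hℓn0), ?_, ?_⟩
    · intro Q hQS hth
      rw [Q.ord_mul hx'0 (inv_ne_zero hℓn0), Q.ord_inv, Q.ord_zpow, hℓQ Q hQS hth, mul_zero,
        neg_zero, add_zero]
      exact hx'Q Q hQS hth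
    · intro i hi
      rcases Finset.mem_insert.mp hi with rfl | hiT
      · rw [hxv]
        exact s36y_val_eq_one_of_mem _ hv0 hv hv'
      · have hne : i ≠ i₀ := fun h => hi₀ (h ▸ hiT)
        obtain ⟨h1, h2⟩ := hother i hne (hT i (Finset.mem_insert_of_mem hiT))
        have hvℓ : (O i).valuation ℓ = 1 := s36y_val_eq_one_of_mem _ hℓ0 h1 h2
        rw [map_mul, map_inv₀, map_zpow₀, hvℓ, one_zpow, inv_one, mul_one]
        exact hx'T i hiT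

/-- **(3a) The generator and the lifts of its residues.** -/
theorem s36y_exists_gen_lifts (hA : s36q_Arch O)
    (F3 : ∀ y : 𝓕, y ≠ 0 → {Q : Place L₀ 𝓕 | Q ∈ S ∧ Q.ord y ≠ 0}.Finite)
    (f : 𝓕) (hf0 : f ≠ 0) (m : ℕ) (hm0 : m ≠ 0)
    (hdiv : ∀ Q ∈ S, s34f_through (s34x_infRing O) S 𝔫 Q → (m : ℤ) ∣ Q.ord f)
    (hf1 : ∀ i, s36q_compThrough O S 𝔫 i → f - 1 ∈ (O i).nonunits)
    (hLE : ∀ Q ∈ S, s34f_through (s34x_infRing O) S 𝔫 Q → Q.ord f ≠ 0 →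
      s34f_LocEq (s34x_infRing O) S 𝔫 Q)
    (hℓ : ∀ i, s36q_compThrough O S 𝔫 i → ∃ ℓ : 𝓕, ℓ ≠ 0 ∧
      (∀ U : 𝓕, U ≠ 0 → ∃ (n : ℤ) (v : 𝓕), v ∈ O i ∧ v⁻¹ ∈ O i ∧ U = ℓ ^ n * v) ∧
      (∀ j, j ≠ i → s36q_compThrough O S 𝔫 j → ℓ ∈ O j ∧ ℓ⁻¹ ∈ O j) ∧
      (∀ Q ∈ S, s34f_through (s34x_infRing O) S 𝔫 Q → Q.ord ℓ = 0))
    (hN : ∀ i, s36q_compThrough O S 𝔫 i → ∀ y ∈ O i, ∀ a : Localization.AtPrime 𝔫, IsUnit a →
      y ^ m - s34f_iota (s34x_infRing O) S 𝔫 a ∈ (O i).nonunits →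
      ∃ s : Localization.AtPrime 𝔫, y - s34f_iota (s34x_infRing O) S 𝔫 s ∈ (O i).nonunits) :
    ∃ Γ : 𝓕, Γ ≠ 0 ∧
      (∀ Q ∈ S, s34f_through (s34x_infRing O) S 𝔫 Q → Q.ord Γ = s18_E f m Q) ∧
      (∀ i, s36q_compThrough O S 𝔫 i → Γ ∈ O i ∧ Γ⁻¹ ∈ O i) ∧
      ∃ u : Localization.AtPrime 𝔫, IsUnit u ∧
        f = s34f_iota (s34x_infRing O) S 𝔫 u * Γ ^ m ∧
        ∃ s : ι → Localization.AtPrime 𝔫, ∀ i, s36q_compThrough O S 𝔫 i →
          IsUnit (s i) ∧ Γ - s34f_iota (s34x_infRing O) S 𝔫 (s i) ∈ (O i).nonunits := by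
  classical
  set ιR := s34f_iota (s34x_infRing O) S 𝔫 with hιR
  have hmZ : (m : ℤ) ≠ 0 := by exact_mod_cast hm0
  -- the generator of `div f / m` from the local equations
  obtain ⟨Φ, hΦ0, hΦ⟩ := s36g_exists_gen_div (s34x_infRing O) S 𝔫 f m (F3 f hf0) hLE
  -- corrected to a unit at the components through `𝔫`
  obtain ⟨Γ, hΓ0, hΓQ, hΓT⟩ := s36y_exists_unit_comps O S 𝔫 (s36q_compThrough O S 𝔫) hℓ Φ hΦ0
    (Finset.univ.filter fun i => s36q_compThrough O S 𝔫 i) (fun i hi => (Finset.mem_filter.mp hi).2)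
  have hΓv : ∀ i, s36q_compThrough O S 𝔫 i → (O i).valuation Γ = 1 := fun i hi =>
    hΓT i (Finset.mem_filter.mpr ⟨Finset.mem_univ _, hi⟩)
  have hΓord : ∀ Q ∈ S, s34f_through (s34x_infRing O) S 𝔫 Q → Q.ord Γ = s18_E f m Q :=
    fun Q hQS hth => (hΓQ Q hQS hth).trans (hΦ Q hQS hth)
  have hΓm0 : Γ ^ m ≠ 0 := pow_ne_zero _ hΓ0
  -- the unit `u₀ = f / Γ ^ m`
  set u₀ : 𝓕 := f * (Γ ^ m)⁻¹ with hu₀
  have hu₀0 : u₀ ≠ 0 := mul_ne_zero hf0 (inv_ne_zero hΓm0)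
  have hfv : ∀ i, s36q_compThrough O S 𝔫 i → (O i).valuation f = 1 := fun i hi =>
    s36y_val_eq_one _ (hf1 i hi)
  have hu₀v : ∀ i, s36q_compThrough O S 𝔫 i → (O i).valuation u₀ = 1 := by
    intro i hi
    rw [hu₀, map_mul, map_inv₀, map_pow, hfv i hi, hΓv i hi, one_pow, inv_one, mul_one]
  have hu₀Q : ∀ Q ∈ S, s34f_through (s34x_infRing O) S 𝔫 Q → Q.ord u₀ = 0 := by
    intro Q hQS hth
    rw [hu₀, Q.ord_mul hf0 (inv_ne_zero hΓm0), Q.ord_inv, s18i_ord_pow, hΓord Q hQS hth]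
    have : (m : ℤ) * s18_E f m Q = Q.ord f := Int.mul_ediv_cancel' (hdiv Q hQS hth)
    rw [this]; ring
  obtain ⟨u, huu, hu⟩ := s36q_exists_unit_iota_eq O S 𝔫 hA u₀ hu₀0
    (fun i hi => s36y_mem_of_val_eq_one _ (hu₀v i hi)) hu₀Q (F3 u₀ hu₀0)
  have hfu : f = ιR u * Γ ^ m := by
    rw [hu, hu₀]; field_simp
  -- the inverse of `u`
  obtain ⟨w, hw⟩ := huu.exists_right_inv
  have hwu : IsUnit w := IsUnit.of_mul_eq_one u (by rw [mul_comm]; exact hw)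
  have hιuw : ιR u * ιR w = 1 := by rw [← map_mul, hw, map_one]
  have hΓm : Γ ^ m = f * ιR w := by
    rw [hfu]
    calc Γ ^ m = (ιR u * ιR w) * Γ ^ m := by rw [hιuw, one_mul]
      _ = ιR u * Γ ^ m * ιR w := by ring
  -- the lifts
  have hlift : ∀ i, ∃ s : Localization.AtPrime 𝔫, s36q_compThrough O S 𝔫 i →
      IsUnit s ∧ Γ - ιR s ∈ (O i).nonunits := by
    intro i
    by_cases hi : s36q_compThrough O S 𝔫 i
    · have hΓO : Γ ∈ O i := (s36y_mem_of_val_eq_one _ (hΓv i hi)).1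
      have h2 : Γ ^ m - ιR w ∈ (O i).nonunits := by
        have : Γ ^ m - ιR w = (f - 1) * ιR w := by rw [hΓm]; ring
        rw [this]
        exact s36y_mul_mem_nonunits' _ (hf1 i hi) (s36q_iota_mem_comp O S 𝔫 i hi w)
      obtain ⟨s, hs⟩ := hN i hi Γ hΓO w hwu h2
      refine ⟨s, fun _ => ⟨?_, hs⟩⟩
      -- `s ^ m ≡ w` modulo the maximal ideal
      have h1 : Γ ^ m - ιR s ^ m ∈ (O i).nonunits :=
        s36y_pow_sub_pow_mem _ hΓO (s36q_iota_mem_comp O S 𝔫 i hi s) hs m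
      have h3 : ιR (s ^ m - w) ∈ (O i).nonunits := by
        rw [map_sub, map_pow]
        have : ιR s ^ m - ιR w = (Γ ^ m - ιR w) - (Γ ^ m - ιR s ^ m) := by ring
        rw [this]
        exact (O i).nonunits.sub_mem h2 h1
      have h4 : s ^ m - w ∈ maximalIdeal (Localization.AtPrime 𝔫) :=
        s36y_mem_maximalIdeal_of_nonunit O S 𝔫 i hi _ h3
      have h5 : IsUnit (s ^ m) := by
        have := s36y_isUnit_add hwu h4
        rwa [add_sub_cancel] at this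
      exact (isUnit_pow_iff hm0).mp h5
    · exact ⟨1, fun h => absurd h hi⟩
  choose s hs using hlift
  exact ⟨Γ, hΓ0, hΓord, fun i hi => s36y_mem_of_val_eq_one _ (hΓv i hi), u, huu, hfu, s, hs⟩

/-- **(3a) + (3b)**: NodeGenRad at `𝔫` as soon as MATCH holds for every output of (3a). -/
theorem s36y_nodeGenRad_of_lifts (hA : s36q_Arch O)
    (F3 : ∀ y : 𝓕, y ≠ 0 → {Q : Place L₀ 𝓕 | Q ∈ S ∧ Q.ord y ≠ 0}.Finite)
    (f : 𝓕) (hf0 : f ≠ 0) (m : ℕ) (hmR : IsUnit ((m : ℕ) : Localization.AtPrime 𝔫))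
    (hdiv : ∀ Q ∈ S, s34f_through (s34x_infRing O) S 𝔫 Q → (m : ℤ) ∣ Q.ord f)
    (hf1 : ∀ i, s36q_compThrough O S 𝔫 i → f - 1 ∈ (O i).nonunits)
    (hLE : ∀ Q ∈ S, s34f_through (s34x_infRing O) S 𝔫 Q → Q.ord f ≠ 0 →
      s34f_LocEq (s34x_infRing O) S 𝔫 Q)
    (hℓ : ∀ i, s36q_compThrough O S 𝔫 i → ∃ ℓ : 𝓕, ℓ ≠ 0 ∧
      (∀ U : 𝓕, U ≠ 0 → ∃ (n : ℤ) (v : 𝓕), v ∈ O i ∧ v⁻¹ ∈ O i ∧ U = ℓ ^ n * v) ∧
      (∀ j, j ≠ i → s36q_compThrough O S 𝔫 j → ℓ ∈ O j ∧ ℓ⁻¹ ∈ O j) ∧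
      (∀ Q ∈ S, s34f_through (s34x_infRing O) S 𝔫 Q → Q.ord ℓ = 0))
    (hN : ∀ i, s36q_compThrough O S 𝔫 i → ∀ y ∈ O i, ∀ a : Localization.AtPrime 𝔫, IsUnit a →
      y ^ m - s34f_iota (s34x_infRing O) S 𝔫 a ∈ (O i).nonunits →
      ∃ s : Localization.AtPrime 𝔫, y - s34f_iota (s34x_infRing O) S 𝔫 s ∈ (O i).nonunits)
    (hmatch : ∀ (Γ : 𝓕) (u : Localization.AtPrime 𝔫) (s : ι → Localization.AtPrime 𝔫), Γ ≠ 0 →
      (∀ Q ∈ S, s34f_through (s34x_infRing O) S 𝔫 Q → Q.ord Γ = s18_E f m Q) →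
      (∀ i, s36q_compThrough O S 𝔫 i → Γ ∈ O i ∧ Γ⁻¹ ∈ O i) → IsUnit u →
      f = s34f_iota (s34x_infRing O) S 𝔫 u * Γ ^ m →
      (∀ i, s36q_compThrough O S 𝔫 i →
        IsUnit (s i) ∧ Γ - s34f_iota (s34x_infRing O) S 𝔫 (s i) ∈ (O i).nonunits) →
      ∀ i j, s36q_compThrough O S 𝔫 i → s36q_compThrough O S 𝔫 j →
        s i - s j ∈ maximalIdeal (Localization.AtPrime 𝔫)) :
    s36y_NodeGenRad O S 𝔫 (s18_E f m) := by
  have hm0 : m ≠ 0 := by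
    rintro rfl
    rw [Nat.cast_zero] at hmR
    exact not_isUnit_zero hmR
  obtain ⟨Γ, hΓ0, hΓord, hΓu, u, huu, hfu, s, hs⟩ :=
    s36y_exists_gen_lifts O S 𝔫 hA F3 f hf0 m hm0 hdiv hf1 hLE hℓ hN
  exact s36y_nodeGenRad_of_match O S 𝔫 (s18_E f m) f m hmR hf1 Γ hΓ0
    (fun Q hQS hth => (hΓord Q hQS hth).ge) u huu hfu s (fun i hi => (hs i hi).2)
    (hmatch Γ u s hΓ0 hΓord hΓu huu hfu hs)

/-- **NodeGenRad at a point on at most one component**: no MATCH condition. -/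
theorem s36y_nodeGenRad_of_single (hA : s36q_Arch O)
    (F3 : ∀ y : 𝓕, y ≠ 0 → {Q : Place L₀ 𝓕 | Q ∈ S ∧ Q.ord y ≠ 0}.Finite)
    (f : 𝓕) (hf0 : f ≠ 0) (m : ℕ) (hmR : IsUnit ((m : ℕ) : Localization.AtPrime 𝔫))
    (hdiv : ∀ Q ∈ S, s34f_through (s34x_infRing O) S 𝔫 Q → (m : ℤ) ∣ Q.ord f)
    (hf1 : ∀ i, s36q_compThrough O S 𝔫 i → f - 1 ∈ (O i).nonunits)
    (hLE : ∀ Q ∈ S, s34f_through (s34x_infRing O) S 𝔫 Q → Q.ord f ≠ 0 →
      s34f_LocEq (s34x_infRing O) S 𝔫 Q)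
    (hℓ : ∀ i, s36q_compThrough O S 𝔫 i → ∃ ℓ : 𝓕, ℓ ≠ 0 ∧
      (∀ U : 𝓕, U ≠ 0 → ∃ (n : ℤ) (v : 𝓕), v ∈ O i ∧ v⁻¹ ∈ O i ∧ U = ℓ ^ n * v) ∧
      (∀ j, j ≠ i → s36q_compThrough O S 𝔫 j → ℓ ∈ O j ∧ ℓ⁻¹ ∈ O j) ∧
      (∀ Q ∈ S, s34f_through (s34x_infRing O) S 𝔫 Q → Q.ord ℓ = 0))
    (hN : ∀ i, s36q_compThrough O S 𝔫 i → ∀ y ∈ O i, ∀ a : Localization.AtPrime 𝔫, IsUnit a →
      y ^ m - s34f_iota (s34x_infRing O) S 𝔫 a ∈ (O i).nonunits →
      ∃ s : Localization.AtPrime 𝔫, y - s34f_iota (s34x_infRing O) S 𝔫 s ∈ (O i).nonunits)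
    (hone : ∀ i j, s36q_compThrough O S 𝔫 i → s36q_compThrough O S 𝔫 j → i = j) :
    s36y_NodeGenRad O S 𝔫 (s18_E f m) := by
  refine s36y_nodeGenRad_of_lifts O S 𝔫 hA F3 f hf0 m hmR hdiv hf1 hLE hℓ hN ?_
  intro Γ u s _ _ _ _ _ _ i j hi hj
  rw [hone i j hi hj, sub_self]
  exact Ideal.zero_mem _

/-- **(LOC) modulo the radical at a point on at most one component.** -/
theorem s36y_loc_of_single (hA : s36q_Arch O)
    (F3 : ∀ y : 𝓕, y ≠ 0 → {Q : Place L₀ 𝓕 | Q ∈ S ∧ Q.ord y ≠ 0}.Finite)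
    (f : 𝓕) (hf0 : f ≠ 0) (m : ℕ) (hmR : IsUnit ((m : ℕ) : Localization.AtPrime 𝔫))
    (hdiv : ∀ Q ∈ S, s34f_through (s34x_infRing O) S 𝔫 Q → (m : ℤ) ∣ Q.ord f)
    (hf1 : ∀ i, s36q_compThrough O S 𝔫 i → f - 1 ∈ (O i).nonunits)
    (hLE : ∀ Q ∈ S, s34f_through (s34x_infRing O) S 𝔫 Q → Q.ord f ≠ 0 →
      s34f_LocEq (s34x_infRing O) S 𝔫 Q)
    (hℓ : ∀ i, s36q_compThrough O S 𝔫 i → ∃ ℓ : 𝓕, ℓ ≠ 0 ∧
      (∀ U : 𝓕, U ≠ 0 → ∃ (n : ℤ) (v : 𝓕), v ∈ O i ∧ v⁻¹ ∈ O i ∧ U = ℓ ^ n * v) ∧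
      (∀ j, j ≠ i → s36q_compThrough O S 𝔫 j → ℓ ∈ O j ∧ ℓ⁻¹ ∈ O j) ∧
      (∀ Q ∈ S, s34f_through (s34x_infRing O) S 𝔫 Q → Q.ord ℓ = 0))
    (hN : ∀ i, s36q_compThrough O S 𝔫 i → ∀ y ∈ O i, ∀ a : Localization.AtPrime 𝔫, IsUnit a →
      y ^ m - s34f_iota (s34x_infRing O) S 𝔫 a ∈ (O i).nonunits →
      ∃ s : Localization.AtPrime 𝔫, y - s34f_iota (s34x_infRing O) S 𝔫 s ∈ (O i).nonunits)
    (hone : ∀ i j, s36q_compThrough O S 𝔫 i → s36q_compThrough O S 𝔫 j → i = j) :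
    ∃ a ∈ s34x_latSet (s34x_infRing O) S (s18_E f m),
      ∃ s : s34x_ring (s34x_infRing O) S, s ∉ 𝔫 ∧ ∀ i, a - (s : 𝓕) ∈ (O i).nonunits :=
  s36y_loc_of_nodeGenRad O S 𝔫 hA F3 f hf0 m
    (s36y_nodeGenRad_of_single O S 𝔫 hA F3 f hf0 m hmR hdiv hf1 hLE hℓ hN hone)

end Fermat.Agent.Lib.S36
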