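/-
S36 project, geometry layer (X1) (helper9, prefix `s36p_`): THE CASE SPLIT — Theorem X₀ at level
`M q²` from the f-independent local regularity package, the classification of the closed points by
the components through them, and MATCH at the triple points (helper8's order #1737 (4)).

Abstract frame (`XLocLift.lean`): `O : ι → ValuationSubring 𝓕`, chart `S`, `𝔫` a prime of the chart
ring `B = s34x_ring (s34x_infRing O) S`, `R = B_𝔫`.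

* `s36p_LocalReg O S 𝔫 m` : the f-INDEPENDENT local package = the hypotheses `hLE` (for ALL places
  through `𝔫`), `hℓ`, `hN` of helper3's `s36y_exists_gen_lifts'` / `s36y_nodeGenRad_of_lifts`;
* `s36p_Match O S 𝔫 f m`  : the `hmatch` hypothesis of `s36y_nodeGenRad_of_lifts` = the CONCLUSION of
  helper8's `s36t_hmatch_chart` (`TWire.lean`);
* `s36p_nodeGenRad_of_one`, `s36p_nodeGenRad_of_match`, `s36p_nodeGenRad_of_class` : NodeGenRad at a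
  point on at most one component / at a point with MATCH / from helper5's classification
  (`s36q_classify`: all three components or at most one);
* **`s36p_zero_of_cases`** : Class + LocalReg + MATCH + `m ∣ div f` + `f ≡ 1` ⇒
  `∃ x ≠ 0, (∀ i, x ∈ V i) ∧ ∀ Q, ord_Q f ≤ m ord_Q x` (via helper1's `s36b_zero_of_nodeGenRad`).
-/
import Fermat.Agent.Lib.S36.XBaseLoc
import Fermat.Agent.Lib.S36.XLocLift

set_option autoImplicit false
set_option linter.unusedSectionVars false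
set_option linter.style.haveILetI false
set_option synthInstance.maxHeartbeats 400000

noncomputable section

namespace Fermat.Agent.Lib.S36

open ModularCurve AlgebraicCurve Polynomial Fermat.Agent.Lib.FF Fermat.Agent.Lib.S18
  Fermat.Agent.Lib.S37 Fermat.Agent.Lib.S34 Fermat.Agent.Lib.S35 IsLocalRing

section Abstract

variable {L₀ 𝓕 : Type*} [Field L₀] [Field 𝓕] [Algebra L₀ 𝓕]

variable {ι : Type*} (O : ι → ValuationSubring 𝓕) (S : Set (Place L₀ 𝓕))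
  (𝔫 : Ideal (s34x_ring (s34x_infRing O) S)) [h𝔫 : 𝔫.IsPrime]

/-- **The f-independent local regularity package at `𝔫`** (exponent `m`): local equations at ALL
horizontal places through `𝔫`, branch uniformisers, normality of the branches. -/
def s36p_LocalReg (m : ℕ) : Prop :=
  (∀ Q ∈ S, s34f_through (s34x_infRing O) S 𝔫 Q → s34f_LocEq (s34x_infRing O) S 𝔫 Q) ∧
  (∀ i, s36q_compThrough O S 𝔫 i → ∃ ℓ : 𝓕, ℓ ≠ 0 ∧
    (∀ U : 𝓕, U ≠ 0 → ∃ (n : ℤ) (v : 𝓕), v ∈ O i ∧ v⁻¹ ∈ O i ∧ U = ℓ ^ n * v) ∧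
    (∀ j, j ≠ i → s36q_compThrough O S 𝔫 j → ℓ ∈ O j ∧ ℓ⁻¹ ∈ O j) ∧
    (∀ Q ∈ S, s34f_through (s34x_infRing O) S 𝔫 Q → Q.ord ℓ = 0)) ∧
  (∀ i, s36q_compThrough O S 𝔫 i → ∀ y ∈ O i, ∀ a : Localization.AtPrime 𝔫, IsUnit a →
    y ^ m - s34f_iota (s34x_infRing O) S 𝔫 a ∈ (O i).nonunits →
    ∃ s : Localization.AtPrime 𝔫, y - s34f_iota (s34x_infRing O) S 𝔫 s ∈ (O i).nonunits)

/-- **MATCH at `𝔫`** for `f`, `m`: for every generator datum `(Γ, u, s)` of `f` at `𝔫` the lifts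
`s i` of the residues of `Γ` on the branches through `𝔫` agree at the closed point. -/
def s36p_Match (f : 𝓕) (m : ℕ) : Prop :=
  ∀ (Γ : 𝓕) (u : Localization.AtPrime 𝔫) (s : ι → Localization.AtPrime 𝔫), Γ ≠ 0 →
    (∀ Q ∈ S, s34f_through (s34x_infRing O) S 𝔫 Q → Q.ord Γ = s18_E f m Q) →
    (∀ i, s36q_compThrough O S 𝔫 i → Γ ∈ O i ∧ Γ⁻¹ ∈ O i) → IsUnit u →
    f = s34f_iota (s34x_infRing O) S 𝔫 u * Γ ^ m →
    (∀ i, s36q_compThrough O S 𝔫 i →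
      IsUnit (s i) ∧ Γ - s34f_iota (s34x_infRing O) S 𝔫 (s i) ∈ (O i).nonunits) →
    ∀ i j, s36q_compThrough O S 𝔫 i → s36q_compThrough O S 𝔫 j →
      s i - s j ∈ maximalIdeal (Localization.AtPrime 𝔫)

variable [Fintype ι]

/-- NodeGenRad at a point with MATCH. -/
theorem s36p_nodeGenRad_of_match (hA : s36q_Arch O)
    (F3 : ∀ y : 𝓕, y ≠ 0 → {Q : Place L₀ 𝓕 | Q ∈ S ∧ Q.ord y ≠ 0}.Finite)
    (f : 𝓕) (hf0 : f ≠ 0) (m : ℕ) (hmR : IsUnit ((m : ℕ) : Localization.AtPrime 𝔫))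
    (hdiv : ∀ Q : Place L₀ 𝓕, (m : ℤ) ∣ Q.ord f)
    (hf1 : ∀ i, f - 1 ∈ (O i).nonunits)
    (hReg : s36p_LocalReg O S 𝔫 m) (hmatch : s36p_Match O S 𝔫 f m) :
    s36y_NodeGenRad O S 𝔫 (s18_E f m) :=
  s36y_nodeGenRad_of_lifts O S 𝔫 hA F3 f hf0 m hmR (fun Q _ _ => hdiv Q) (fun i _ => hf1 i)
    (fun Q hQ hth _ => hReg.1 Q hQ hth) hReg.2.1 hReg.2.2 hmatch

/-- NodeGenRad at a point on at most one component. -/
theorem s36p_nodeGenRad_of_one (hA : s36q_Arch O)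
    (F3 : ∀ y : 𝓕, y ≠ 0 → {Q : Place L₀ 𝓕 | Q ∈ S ∧ Q.ord y ≠ 0}.Finite)
    (f : 𝓕) (hf0 : f ≠ 0) (m : ℕ) (hmR : IsUnit ((m : ℕ) : Localization.AtPrime 𝔫))
    (hdiv : ∀ Q : Place L₀ 𝓕, (m : ℤ) ∣ Q.ord f)
    (hf1 : ∀ i, f - 1 ∈ (O i).nonunits)
    (hReg : s36p_LocalReg O S 𝔫 m)
    (hone : ∀ i j, s36q_compThrough O S 𝔫 i → s36q_compThrough O S 𝔫 j → i = j) :
    s36y_NodeGenRad O S 𝔫 (s18_E f m) :=
  s36y_nodeGenRad_of_single O S 𝔫 hA F3 f hf0 m hmR (fun Q _ _ => hdiv Q) (fun i _ => hf1 i)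
    (fun Q hQ hth _ => hReg.1 Q hQ hth) hReg.2.1 hReg.2.2 hone

end Abstract

/-! ### Three components: the classification -/

section Three

variable {L₀ 𝓕 : Type*} [Field L₀] [Field 𝓕] [Algebra L₀ 𝓕]

variable (O : Fin 3 → ValuationSubring 𝓕) (S : Set (Place L₀ 𝓕))
  (𝔫 : Ideal (s34x_ring (s34x_infRing O) S)) [h𝔫 : 𝔫.IsPrime]

/-- "at most one component" in the three shapes of helper5's `s36q_classify`. -/
theorem s36p_one_of_class
    (h : (¬ s36q_compThrough O S 𝔫 0 ∧ ¬ s36q_compThrough O S 𝔫 1) ∨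
      (¬ s36q_compThrough O S 𝔫 0 ∧ ¬ s36q_compThrough O S 𝔫 2) ∨
      (¬ s36q_compThrough O S 𝔫 1 ∧ ¬ s36q_compThrough O S 𝔫 2)) :
    ∀ i j, s36q_compThrough O S 𝔫 i → s36q_compThrough O S 𝔫 j → i = j := by
  intro i j hi hj
  rcases h with ⟨h0, h1⟩ | ⟨h0, h2⟩ | ⟨h1, h2⟩
  · fin_cases i
    · exact absurd hi h0
    · exact absurd hi h1
    · fin_cases j
      · exact absurd hj h0
      · exact absurd hj h1
      · rfl
  · fin_cases i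
    · exact absurd hi h0
    · fin_cases j
      · exact absurd hj h0
      · rfl
      · exact absurd hj h2
    · exact absurd hi h2
  · fin_cases i
    · fin_cases j
      · rfl
      · exact absurd hj h1
      · exact absurd hj h2
    · exact absurd hi h1
    · exact absurd hi h2

/-- **NodeGenRad from the classification**: LocalReg at `𝔫`, all three components or at most one
through `𝔫`, MATCH in the first case. -/
theorem s36p_nodeGenRad_of_class (hA : s36q_Arch O)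
    (F3 : ∀ y : 𝓕, y ≠ 0 → {Q : Place L₀ 𝓕 | Q ∈ S ∧ Q.ord y ≠ 0}.Finite)
    (f : 𝓕) (hf0 : f ≠ 0) (m : ℕ) (hmR : IsUnit ((m : ℕ) : Localization.AtPrime 𝔫))
    (hdiv : ∀ Q : Place L₀ 𝓕, (m : ℤ) ∣ Q.ord f)
    (hf1 : ∀ i, f - 1 ∈ (O i).nonunits)
    (hReg : s36p_LocalReg O S 𝔫 m)
    (hClass : (∀ j, s36q_compThrough O S 𝔫 j) ∨
      (¬ s36q_compThrough O S 𝔫 0 ∧ ¬ s36q_compThrough O S 𝔫 1) ∨
      (¬ s36q_compThrough O S 𝔫 0 ∧ ¬ s36q_compThrough O S 𝔫 2) ∨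
      (¬ s36q_compThrough O S 𝔫 1 ∧ ¬ s36q_compThrough O S 𝔫 2))
    (hmatch : (∀ j, s36q_compThrough O S 𝔫 j) → s36p_Match O S 𝔫 f m) :
    s36y_NodeGenRad O S 𝔫 (s18_E f m) := by
  rcases hClass with hall | hone
  · exact s36p_nodeGenRad_of_match O S 𝔫 hA F3 f hf0 m hmR hdiv hf1 hReg (hmatch hall)
  · exact s36p_nodeGenRad_of_one O S 𝔫 hA F3 f hf0 m hmR hdiv hf1 hReg
      (s36p_one_of_class O S 𝔫 hone)

end Three

/-! ### Level `M q²` -/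

section Level

local notation "Kb" => AlgebraicClosure ℚ

variable {K₀ : Type} [Field K₀] [Algebra ℚ K₀] {κ : Type} [Field κ] (G : s18g_GaussData K₀ κ)
  (φ : K₀ →+* Kb) (M q : ℕ) [NeZero M] [NeZero q] (hq : q.Prime) (hqM : ¬ q ∣ M)
  {V : Fin 3 → ValuationSubring (s34m_F K₀ (M * q * q))} {t : s34m_F K₀ (M * q * q)}
  [CharZero K₀] [IsDiscreteValuationRing G.A]

/-- `m` is a unit of every local ring of a chart of level `M q²` if `m⁻¹ ∈ A`. -/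
theorem s36p_isUnit_natCast (hC : s36g_ValComap G φ M q hq hqM V)
    (S : Set (Place K₀ (s34m_F K₀ (M * q * q))))
    (𝔫 : Ideal (s34x_ring (s34x_infRing V) S)) [h𝔫 : 𝔫.IsPrime]
    (m : ℕ) (hmA : ((m : K₀))⁻¹ ∈ G.A) (hmL : (m : K₀) ≠ 0) :
    IsUnit ((m : ℕ) : Localization.AtPrime 𝔫) := by
  refine s36y_isUnit_natCast V S 𝔫 m
    ⟨s34x_const (s34x_infRing V) S ((m : K₀))⁻¹
      (s34x_inf_const_mem V G.A (s36b_const_mem G φ M q hq hqM hC) ⟨_, hmA⟩), ?_⟩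
  rw [s34x_const_coe, ← map_natCast (algebraMap K₀ (s34m_F K₀ (M * q * q))) m, ← map_mul,
    mul_inv_cancel₀ hmL, map_one]

/-- **Theorem X₀ at level `M q²` from the case split**: classification of the closed points `𝔫 ∋ ϖ`
of chart 1 (all three components or at most one through `𝔫`), one component at the polar closed
points of chart 2, the f-independent local package `s36p_LocalReg` at all these points, and MATCH at
the triple points of chart 1. -/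
theorem s36p_zero_of_cases (hC : s36g_ValComap G φ M q hq hqM V)
    (hU : s36g_ValUnif G M q V t)
    (w : s34m_F K₀ (M * q * q)) (hB : s36b_BaseData₂ G M q V w)
    (f : s34m_F K₀ (M * q * q)) (m : ℕ) (hm0 : m ≠ 0) (hmA : ((m : K₀))⁻¹ ∈ G.A)
    (hmL : (m : K₀) ≠ 0)
    (hdiv : ∀ Q : Place K₀ (s34m_F K₀ (M * q * q)), (m : ℤ) ∣ Q.ord f)
    (hf1 : ∀ i, f - 1 ∈ (V i).nonunits)
    -- chart 1
    (hClass1 : ∀ 𝔫 : Ideal (s34x_ring (s34x_infRing V) (s18_chart1 (L₀ := K₀) w)), 𝔫.IsMaximal →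
      s34x_const (s34x_infRing V) (s18_chart1 (L₀ := K₀) w) ((G.ϖ : G.A) : K₀)
        (s34x_inf_const_mem V G.A (s36b_const_mem G φ M q hq hqM hC) G.ϖ) ∈ 𝔫 →
      (∀ j, s36q_compThrough V (s18_chart1 (L₀ := K₀) w) 𝔫 j) ∨
      (¬ s36q_compThrough V (s18_chart1 (L₀ := K₀) w) 𝔫 0 ∧
        ¬ s36q_compThrough V (s18_chart1 (L₀ := K₀) w) 𝔫 1) ∨
      (¬ s36q_compThrough V (s18_chart1 (L₀ := K₀) w) 𝔫 0 ∧
        ¬ s36q_compThrough V (s18_chart1 (L₀ := K₀) w) 𝔫 2) ∨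
      (¬ s36q_compThrough V (s18_chart1 (L₀ := K₀) w) 𝔫 1 ∧
        ¬ s36q_compThrough V (s18_chart1 (L₀ := K₀) w) 𝔫 2))
    (hReg1 : ∀ (𝔫 : Ideal (s34x_ring (s34x_infRing V) (s18_chart1 (L₀ := K₀) w)))
      (h𝔫 : 𝔫.IsMaximal),
      s34x_const (s34x_infRing V) (s18_chart1 (L₀ := K₀) w) ((G.ϖ : G.A) : K₀)
        (s34x_inf_const_mem V G.A (s36b_const_mem G φ M q hq hqM hC) G.ϖ) ∈ 𝔫 →
      s36p_LocalReg V (s18_chart1 (L₀ := K₀) w) 𝔫 (h𝔫 := h𝔫.isPrime) m)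
    (hMatch1 : ∀ (𝔫 : Ideal (s34x_ring (s34x_infRing V) (s18_chart1 (L₀ := K₀) w)))
      (h𝔫 : 𝔫.IsMaximal),
      s34x_const (s34x_infRing V) (s18_chart1 (L₀ := K₀) w) ((G.ϖ : G.A) : K₀)
        (s34x_inf_const_mem V G.A (s36b_const_mem G φ M q hq hqM hC) G.ϖ) ∈ 𝔫 →
      (∀ j, s36q_compThrough V (s18_chart1 (L₀ := K₀) w) 𝔫 j) →
      s36p_Match V (s18_chart1 (L₀ := K₀) w) 𝔫 (h𝔫 := h𝔫.isPrime) f m)
    -- chart 2, polar closed points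
    (hOne2 : ∀ 𝔫 : Ideal (s34x_ring (s34x_infRing V) (s18_chart2 (L₀ := K₀) w)), 𝔫.IsMaximal →
      s34x_const (s34x_infRing V) (s18_chart2 (L₀ := K₀) w) ((G.ϖ : G.A) : K₀)
        (s34x_inf_const_mem V G.A (s36b_const_mem G φ M q hq hqM hC) G.ϖ) ∈ 𝔫 →
      (∃ b ∈ 𝔫, (b : s34m_F K₀ (M * q * q)) = w⁻¹) →
      ∀ i j, s36q_compThrough V (s18_chart2 (L₀ := K₀) w) 𝔫 i →
        s36q_compThrough V (s18_chart2 (L₀ := K₀) w) 𝔫 j → i = j)
    (hReg2 : ∀ (𝔫 : Ideal (s34x_ring (s34x_infRing V) (s18_chart2 (L₀ := K₀) w)))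
      (h𝔫 : 𝔫.IsMaximal),
      s34x_const (s34x_infRing V) (s18_chart2 (L₀ := K₀) w) ((G.ϖ : G.A) : K₀)
        (s34x_inf_const_mem V G.A (s36b_const_mem G φ M q hq hqM hC) G.ϖ) ∈ 𝔫 →
      (∃ b ∈ 𝔫, (b : s34m_F K₀ (M * q * q)) = w⁻¹) →
      s36p_LocalReg V (s18_chart2 (L₀ := K₀) w) 𝔫 (h𝔫 := h𝔫.isPrime) m) :
    ∃ x : s34m_F K₀ (M * q * q), x ≠ 0 ∧ (∀ i, x ∈ V i) ∧
      ∀ Q : Place K₀ (s34m_F K₀ (M * q * q)), Q.ord f ≤ (m : ℤ) * Q.ord x := by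
  have hf0 : f ≠ 0 := s36b_ne_zero_of_sub_one M q hf1
  have hA : s36q_Arch V := s36b_arch G M q hq hU
  have F31 := (s36b_dict₁ G φ M q hq hqM hC hU w hB).2.2.2
  have F32 := (s36b_dict₂ G φ M q hq hqM hC hU w hB).2.2.2
  refine s36b_zero_of_nodeGenRad G φ M q hq hqM hC hU w hB f m hm0 hmA hmL hdiv hf1 ?_ ?_
  · intro 𝔫 h𝔫 hπ
    haveI := h𝔫.isPrime
    exact s36p_nodeGenRad_of_class V _ 𝔫 hA F31 f hf0 m
      (s36p_isUnit_natCast G φ M q hq hqM hC _ 𝔫 m hmA hmL) hdiv hf1 (hReg1 𝔫 h𝔫 hπ)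
      (hClass1 𝔫 h𝔫 hπ) (hMatch1 𝔫 h𝔫 hπ)
  · intro 𝔫 h𝔫 hπ hpol
    haveI := h𝔫.isPrime
    exact s36p_nodeGenRad_of_one V _ 𝔫 hA F32 f hf0 m
      (s36p_isUnit_natCast G φ M q hq hqM hC _ 𝔫 m hmA hmL) hdiv hf1 (hReg2 𝔫 h𝔫 hπ hpol)
      (hOne2 𝔫 h𝔫 hπ hpol)

end Level

end Fermat.Agent.Lib.S36
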