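/-
S36 mega-project, layer (X1) (helper1), part 11: **CHANGE OF CHART along the special fibre.**

Abstract frame: `O : ι → ValuationSubring 𝓕`, two charts `S`, `S'` (sets of places),
`B = s34x_ring (⨅ O) S`, `B' = s34x_ring (⨅ O) S'`, a constant `ϖ`.  Hypothesis (⋆) in both
directions (`s36b_NoCentre`): a place of `S` outside `S'` has no centre on the fibre `ϖ = 0` of
`Spec B` (`∀ k, ∃ s ∈ B, (s = 0 ∨ k ≤ ord_Q s) ∧ 1 - s ∈ ϖ B`), and symmetrically.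

LOCAL form (one direction): `s36b_LocalIn O S S' 𝔫` := `B' ⊆ B_𝔫` inside `𝓕`; it follows from (⋆)
(`s36b_cc_exists`) or from a multiplier `u ∈ B ∖ 𝔫` vanishing on `S ∖ S'` (`s36b_localIn_of_mult`).
Under it: `s36b_ccIdeal 𝔫 hin = B' ∩ 𝔪(B_𝔫)` is a prime of `B'` (`s36b_ccIdeal_isPrime`,
`s36b_mem_ccIdeal_of_mem`, `s36b_unif_mem_ccIdeal`), the components through `𝔫` pass through it
(`s36b_cc_compThrough`), and `B'_𝔫' ⊆ B_𝔫` locally (`s36b_cc_le`, `s36b_cc_le_unit`).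

Then `B` and `B'` have the same localisation along `1 + ϖ B`; for every prime `𝔫 ∋ ϖ` of `B`:
* `s36b_ccIdeal` : the corresponding prime `𝔫' ∋ ϖ` of `B'` (`s36b_ccIdeal_isMaximal`);
* `s36b_cc_sameLocal` (`s36b_sameLocal_of_localIn`) : `B_𝔫` and `B'_𝔫'` are the SAME subring
  of `𝓕`;
* `s36b_compThrough_of_sameLocal`, `s36b_through_of_sameLocal` : same components / places through;
* **`s36b_localReg_of_sameLocal`** : `s36p_LocalReg O S' 𝔫' m → s36p_LocalReg O S 𝔫 m`;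
* **`s36b_chartChange`** : the package.
-/
import Fermat.Agent.Lib.S36.PCase
import Fermat.Agent.Lib.S36.QPlace
import Fermat.Agent.Lib.S36.QMem

set_option autoImplicit false
set_option linter.unusedSectionVars false
set_option linter.style.haveILetI false

noncomputable section

namespace Fermat.Agent.Lib.S36

open AlgebraicCurve Fermat.Agent.Lib.FF Fermat.Agent.Lib.S18 Fermat.Agent.Lib.S34 IsLocalRing

variable {L₀ 𝓕 : Type*} [Field L₀] [Field 𝓕] [Algebra L₀ 𝓕]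
variable {ι : Type*} (O : ι → ValuationSubring 𝓕) (S S' : Set (Place L₀ 𝓕)) (ϖ : 𝓕)

/-- **(⋆)**: the places of `S` outside `S'` have no centre on the fibre `ϖ = 0` of the chart `S`. -/
def s36b_NoCentre : Prop :=
  ∀ Q ∈ S, Q ∉ S' → ∀ k : ℕ, ∃ s ∈ s34x_ring (s34x_infRing O) S, (s = 0 ∨ (k : ℤ) ≤ Q.ord s) ∧
    ∃ z ∈ s34x_ring (s34x_infRing O) S, 1 - s = ϖ * z

variable {O S S' ϖ}

/-- (⋆) for finitely many places at once. -/
theorem s36b_noCentre_finset (h : s36b_NoCentre O S S' ϖ) (T : Finset (Place L₀ 𝓕))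
    (hT : ∀ Q ∈ T, Q ∈ S ∧ Q ∉ S') (k : ℕ) :
    ∃ s ∈ s34x_ring (s34x_infRing O) S, (∀ Q ∈ T, s = 0 ∨ (k : ℤ) ≤ Q.ord s) ∧
      ∃ z ∈ s34x_ring (s34x_infRing O) S, 1 - s = ϖ * z := by
  classical
  induction T using Finset.induction_on with
  | empty =>
    exact ⟨1, one_mem _, fun Q hQ => absurd hQ (Finset.notMem_empty Q), 0, zero_mem _, by ring⟩
  | insert Q₀ T hQ₀ ih =>
    obtain ⟨s₁, hs₁B, hs₁, z₁, hz₁B, e₁⟩ := ih (fun Q hQ => hT Q (Finset.mem_insert_of_mem hQ))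
    obtain ⟨hQ₀S, hQ₀S'⟩ := hT Q₀ (Finset.mem_insert_self _ _)
    obtain ⟨s₀, hs₀B, hs₀, z₀, hz₀B, e₀⟩ := h Q₀ hQ₀S hQ₀S' k
    refine ⟨s₀ * s₁, mul_mem hs₀B hs₁B, ?_, z₀ + s₀ * z₁, add_mem hz₀B (mul_mem hs₀B hz₁B), ?_⟩
    · intro Q hQ
      by_cases h0 : s₀ * s₁ = 0
      · exact Or.inl h0
      right
      have hs₀0 : s₀ ≠ 0 := left_ne_zero_of_mul h0
      have hs₁0 : s₁ ≠ 0 := right_ne_zero_of_mul h0
      have hQS : Q ∈ S := (hT Q hQ).1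
      have h0' : 0 ≤ Q.ord s₀ := s34x_ord_nonneg_of_mem_ring _ S ⟨s₀, hs₀B⟩ Q hQS
      have h1' : 0 ≤ Q.ord s₁ := s34x_ord_nonneg_of_mem_ring _ S ⟨s₁, hs₁B⟩ Q hQS
      rw [Q.ord_mul hs₀0 hs₁0]
      rcases Finset.mem_insert.mp hQ with rfl | hQT
      · have := hs₀.resolve_left hs₀0
        omega
      · have := (hs₁ Q hQT).resolve_left hs₁0
        omega
    · have e : 1 - s₀ * s₁ = (1 - s₀) + s₀ * (1 - s₁) := by ring
      rw [e, e₀, e₁]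
      ring

/-- **the multiplier**: every element of `B'` becomes an element of `B` after multiplication by
some `s ∈ 1 + ϖ B`. -/
theorem s36b_noCentre_mul (h : s36b_NoCentre O S S' ϖ)
    (hfin : ∀ y : 𝓕, y ≠ 0 → {Q : Place L₀ 𝓕 | Q.ord y < 0}.Finite)
    (b' : 𝓕) (hb' : b' ∈ s34x_ring (s34x_infRing O) S') :
    ∃ s ∈ s34x_ring (s34x_infRing O) S,
      (∃ z ∈ s34x_ring (s34x_infRing O) S, 1 - s = ϖ * z) ∧
      s * b' ∈ s34x_ring (s34x_infRing O) S := by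
  classical
  by_cases hb0 : b' = 0
  · exact ⟨1, one_mem _, ⟨0, zero_mem _, by ring⟩, by rw [hb0, mul_zero]; exact zero_mem _⟩
  set T : Finset (Place L₀ 𝓕) := (hfin b' hb0).toFinset.filter (fun Q => Q ∈ S) with hTdef
  have hTmem : ∀ Q, Q ∈ T ↔ Q.ord b' < 0 ∧ Q ∈ S := by
    intro Q
    rw [hTdef, Finset.mem_filter, Set.Finite.mem_toFinset, Set.mem_ofPred_eq]
  have hT : ∀ Q ∈ T, Q ∈ S ∧ Q ∉ S' := by
    intro Q hQ
    obtain ⟨hneg, hQS⟩ := (hTmem Q).mp hQ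
    refine ⟨hQS, fun hQS' => ?_⟩
    have := (ff_mem_iff_ord_nonneg Q hb0).mp (hb'.2 Q hQS')
    omega
  set k : ℕ := T.sup (fun Q => (-(Q.ord b')).toNat) with hk
  have hkQ : ∀ Q ∈ T, -(Q.ord b') ≤ (k : ℤ) := by
    intro Q hQ
    have h1 : (-(Q.ord b')).toNat ≤ k := Finset.le_sup (f := fun Q => (-(Q.ord b')).toNat) hQ
    have h2 : -(Q.ord b') ≤ ((-(Q.ord b')).toNat : ℤ) := Int.self_le_toNat _
    exact h2.trans (by exact_mod_cast h1)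
  obtain ⟨s, hsB, hsT, z, hzB, e⟩ := s36b_noCentre_finset h T hT k
  refine ⟨s, hsB, ⟨z, hzB, e⟩, ⟨(s34x_infRing O).mul_mem hsB.1 hb'.1, fun Q hQS => ?_⟩⟩
  by_cases hreg : b' ∈ Q.toValuationSubring
  · exact Q.toValuationSubring.mul_mem _ _ (hsB.2 Q hQS) hreg
  · have hneg : Q.ord b' < 0 := by
      by_contra hcon
      exact hreg ((ff_mem_iff_ord_nonneg Q hb0).mpr (not_lt.mp hcon))
    have hQT : Q ∈ T := (hTmem Q).mpr ⟨hneg, hQS⟩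
    rcases hsT Q hQT with h0 | hks
    · rw [h0, zero_mul]
      exact Q.toValuationSubring.zero_mem
    · by_cases hs0 : s = 0
      · rw [hs0, zero_mul]
        exact Q.toValuationSubring.zero_mem
      · rw [ff_mem_iff_ord_nonneg Q (mul_ne_zero hs0 hb0), Q.ord_mul hs0 hb0]
        have := hkQ Q hQT
        omega

/-! ### The corresponding prime -/

section Prime

variable (𝔫 : Ideal (s34x_ring (s34x_infRing O) S)) [h𝔫 : 𝔫.IsPrime]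

/-- an element of `1 + ϖ B` does not lie in a prime containing `ϖ`. -/
theorem s36b_cc_not_mem (hϖB : ϖ ∈ s34x_ring (s34x_infRing O) S)
    (hϖ𝔫 : (⟨ϖ, hϖB⟩ : s34x_ring (s34x_infRing O) S) ∈ 𝔫)
    (s : s34x_ring (s34x_infRing O) S)
    (hs : ∃ z ∈ s34x_ring (s34x_infRing O) S, 1 - (s : 𝓕) = ϖ * z) : s ∉ 𝔫 := by
  obtain ⟨z, hzB, e⟩ := hs
  intro hs𝔫
  apply h𝔫.ne_top
  rw [Ideal.eq_top_iff_one]
  have e1 : (1 : s34x_ring (s34x_infRing O) S) = s + ⟨ϖ, hϖB⟩ * ⟨z, hzB⟩ := by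
    apply Subtype.ext
    show (1 : 𝓕) = (s : 𝓕) + ϖ * z
    rw [← e]
    ring
  rw [e1]
  exact 𝔫.add_mem hs𝔫 (𝔫.mul_mem_right _ hϖ𝔫)

variable (O S S') in
/-- **`B' ⊆ B_𝔫`** inside `𝓕` (a LOCAL condition at `𝔫`). -/
def s36b_LocalIn : Prop :=
  ∀ b' ∈ s34x_ring (s34x_infRing O) S',
    ∃ z : Localization.AtPrime 𝔫, s34f_iota (s34x_infRing O) S 𝔫 z = b'

/-- **`B' ⊆ B_𝔫`** inside `𝓕`, from (⋆). -/
theorem s36b_cc_exists (h : s36b_NoCentre O S S' ϖ)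
    (hfin : ∀ y : 𝓕, y ≠ 0 → {Q : Place L₀ 𝓕 | Q.ord y < 0}.Finite)
    (hϖB : ϖ ∈ s34x_ring (s34x_infRing O) S)
    (hϖ𝔫 : (⟨ϖ, hϖB⟩ : s34x_ring (s34x_infRing O) S) ∈ 𝔫) :
    s36b_LocalIn O S S' 𝔫 := by
  intro b' hb'
  obtain ⟨s, hsB, hs1, hsb⟩ := s36b_noCentre_mul h hfin b' hb'
  have hs𝔫 : (⟨s, hsB⟩ : s34x_ring (s34x_infRing O) S) ∉ 𝔫 :=
    s36b_cc_not_mem 𝔫 hϖB hϖ𝔫 ⟨s, hsB⟩ hs1
  have hs0 : s ≠ 0 := by
    rintro rfl
    apply hs𝔫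
    have : (⟨0, hsB⟩ : s34x_ring (s34x_infRing O) S) = 0 := rfl
    rw [this]
    exact 𝔫.zero_mem
  refine ⟨IsLocalization.mk' (Localization.AtPrime 𝔫)
    (⟨s * b', hsb⟩ : s34x_ring (s34x_infRing O) S) (⟨⟨s, hsB⟩, hs𝔫⟩ : 𝔫.primeCompl), ?_⟩
  have h1 := IsLocalization.mk'_spec (Localization.AtPrime 𝔫)
    (⟨s * b', hsb⟩ : s34x_ring (s34x_infRing O) S) (⟨⟨s, hsB⟩, hs𝔫⟩ : 𝔫.primeCompl)
  have h2 := congrArg (s34f_iota (s34x_infRing O) S 𝔫) h1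
  rw [map_mul, s34f_iota_algebraMap, s34f_iota_algebraMap] at h2
  have h3 : s34f_iota (s34x_infRing O) S 𝔫 (IsLocalization.mk' (Localization.AtPrime 𝔫)
      (⟨s * b', hsb⟩ : s34x_ring (s34x_infRing O) S) (⟨⟨s, hsB⟩, hs𝔫⟩ : 𝔫.primeCompl)) * s =
      b' * s := by
    rw [mul_comm b' s]
    exact h2
  exact mul_right_cancel₀ hs0 h3

/-- **The prime of `B'` corresponding to `𝔫`**: `B' ∩ 𝔪(B_𝔫)`. -/
def s36b_ccIdeal (hin : s36b_LocalIn O S S' 𝔫) : Ideal (s34x_ring (s34x_infRing O) S') where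
  carrier := {b' | ∃ z ∈ maximalIdeal (Localization.AtPrime 𝔫),
    s34f_iota (s34x_infRing O) S 𝔫 z = (b' : 𝓕)}
  add_mem' := by
    rintro a b ⟨za, hza, ea⟩ ⟨zb, hzb, eb⟩
    exact ⟨za + zb, Ideal.add_mem _ hza hzb, by rw [map_add, ea, eb]; rfl⟩
  zero_mem' := ⟨0, Ideal.zero_mem _, by rw [map_zero]; rfl⟩
  smul_mem' := by
    rintro c b ⟨zb, hzb, eb⟩
    obtain ⟨zc, ec⟩ := hin (c : 𝓕) c.2
    exact ⟨zc * zb, Ideal.mul_mem_left _ _ hzb, by rw [map_mul, ec, eb]; rfl⟩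

theorem s36b_mem_ccIdeal (hin : s36b_LocalIn O S S' 𝔫)
    (b' : s34x_ring (s34x_infRing O) S') :
    b' ∈ s36b_ccIdeal 𝔫 hin ↔ ∃ z ∈ maximalIdeal (Localization.AtPrime 𝔫),
      s34f_iota (s34x_infRing O) S 𝔫 z = (b' : 𝓕) := Iff.rfl

/-- membership in `𝔫'` tested on ANY preimage in `B_𝔫`. -/
theorem s36b_mem_ccIdeal_iff (hin : s36b_LocalIn O S S' 𝔫)
    (b' : s34x_ring (s34x_infRing O) S') (z : Localization.AtPrime 𝔫)
    (hz : s34f_iota (s34x_infRing O) S 𝔫 z = (b' : 𝓕)) :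
    b' ∈ s36b_ccIdeal 𝔫 hin ↔ z ∈ maximalIdeal (Localization.AtPrime 𝔫) := by
  constructor
  · rintro ⟨z₁, hz₁, e₁⟩
    have : z₁ = z := s34f_iota_injective (s34x_infRing O) S 𝔫 (e₁.trans hz.symm)
    rw [← this]
    exact hz₁
  · intro hzm
    exact ⟨z, hzm, hz⟩

instance s36b_ccIdeal_isPrime (hin : s36b_LocalIn O S S' 𝔫) :
    (s36b_ccIdeal 𝔫 hin).IsPrime := by
  rw [Ideal.isPrime_iff]
  constructor
  · intro htop
    have h1 : (1 : s34x_ring (s34x_infRing O) S') ∈ s36b_ccIdeal 𝔫 hin := by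
      rw [htop]
      exact Submodule.mem_top
    have h2 := (s36b_mem_ccIdeal_iff 𝔫 hin 1 1 (by rw [map_one]; rfl)).mp h1
    exact (maximalIdeal.isMaximal (Localization.AtPrime 𝔫)).ne_top
      ((Ideal.eq_top_iff_one _).mpr h2)
  · intro x y hxy
    obtain ⟨zx, ex⟩ := hin (x : 𝓕) x.2
    obtain ⟨zy, ey⟩ := hin (y : 𝓕) y.2
    have h2 := (s36b_mem_ccIdeal_iff 𝔫 hin (x * y) (zx * zy)
      (by rw [map_mul, ex, ey]; rfl)).mp hxy
    rcases (maximalIdeal.isMaximal (Localization.AtPrime 𝔫)).isPrime.mem_or_mem h2 with h3 | h3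
    · exact Or.inl ⟨zx, h3, ex⟩
    · exact Or.inr ⟨zy, h3, ey⟩

/-- an element of `𝔫` which also lies in `B'` lies in `𝔫'`. -/
theorem s36b_mem_ccIdeal_of_mem (hin : s36b_LocalIn O S S' 𝔫)
    (b : s34x_ring (s34x_infRing O) S) (hb : b ∈ 𝔫) (b' : s34x_ring (s34x_infRing O) S')
    (e : (b : 𝓕) = (b' : 𝓕)) : b' ∈ s36b_ccIdeal 𝔫 hin :=
  ⟨algebraMap _ (Localization.AtPrime 𝔫) b,
    (IsLocalization.AtPrime.to_map_mem_maximal_iff (Localization.AtPrime 𝔫) 𝔫 _).mpr hb,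
    (s34f_iota_algebraMap _ _ _ _).trans e⟩

/-- `ϖ ∈ 𝔫'`. -/
theorem s36b_unif_mem_ccIdeal (hin : s36b_LocalIn O S S' 𝔫)
    (hϖB : ϖ ∈ s34x_ring (s34x_infRing O) S)
    (hϖ𝔫 : (⟨ϖ, hϖB⟩ : s34x_ring (s34x_infRing O) S) ∈ 𝔫)
    (hϖB' : ϖ ∈ s34x_ring (s34x_infRing O) S') :
    (⟨ϖ, hϖB'⟩ : s34x_ring (s34x_infRing O) S') ∈ s36b_ccIdeal 𝔫 hin :=
  s36b_mem_ccIdeal_of_mem 𝔫 hin _ hϖ𝔫 _ rfl

/-- the components through `𝔫` pass through `𝔫'`. -/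
theorem s36b_cc_compThrough (hin : s36b_LocalIn O S S' 𝔫) (i : ι)
    (hi : s36q_compThrough O S 𝔫 i) : s36q_compThrough O S' (s36b_ccIdeal 𝔫 hin) i := by
  intro b' hb'
  obtain ⟨z, hz⟩ := hin (b' : 𝓕) b'.2
  refine (s36b_mem_ccIdeal_iff 𝔫 hin b' z hz).mpr ?_
  obtain ⟨b, s, hs, hfrac⟩ := s34f_exists_frac (s34x_infRing O) S 𝔫 z
  have h1 := congrArg (s34f_iota (s34x_infRing O) S 𝔫) hfrac
  rw [map_mul, s34f_iota_algebraMap, s34f_iota_algebraMap, hz] at h1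
  -- `b = b' s ∈ 𝔪(O i) ∩ B ⊆ 𝔫`
  have hb𝔫 : b ∈ 𝔫 := by
    apply hi b
    rw [← h1]
    exact s36y_mul_mem_nonunits' (O i) hb' ((s34x_mem_infRing O _).mp s.2.1 i)
  have h2 : z * algebraMap _ (Localization.AtPrime 𝔫) s ∈
      maximalIdeal (Localization.AtPrime 𝔫) := by
    rw [hfrac]
    exact (IsLocalization.AtPrime.to_map_mem_maximal_iff (Localization.AtPrime 𝔫) 𝔫 _).mpr hb𝔫
  rcases (maximalIdeal.isMaximal (Localization.AtPrime 𝔫)).isPrime.mem_or_mem h2 with h3 | h3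
  · exact h3
  · exact absurd ((IsLocalization.AtPrime.to_map_mem_maximal_iff
      (Localization.AtPrime 𝔫) 𝔫 _).mp h3) hs

end Prime

/-! ### Same local ring -/

section Same

variable (O S S')

/-- `B_𝔫` and `B'_𝔫'` are the same subring of `𝓕`. -/
def s36b_SameLocal (𝔫 : Ideal (s34x_ring (s34x_infRing O) S)) [h𝔫 : 𝔫.IsPrime]
    (𝔫' : Ideal (s34x_ring (s34x_infRing O) S')) [h𝔫' : 𝔫'.IsPrime] : Prop :=
  ∀ x : 𝓕, (∃ z : Localization.AtPrime 𝔫, s34f_iota (s34x_infRing O) S 𝔫 z = x) ↔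
    (∃ z' : Localization.AtPrime 𝔫', s34f_iota (s34x_infRing O) S' 𝔫' z' = x)

variable {O S S'}

variable (𝔫 : Ideal (s34x_ring (s34x_infRing O) S)) [h𝔫 : 𝔫.IsPrime]

/-- `B'_𝔫' ⊆ B_𝔫`, and the inclusion is local. -/
theorem s36b_cc_le (hin : s36b_LocalIn O S S' 𝔫)
    (z' : Localization.AtPrime (s36b_ccIdeal 𝔫 hin)) :
    ∃ z : Localization.AtPrime 𝔫, s34f_iota (s34x_infRing O) S 𝔫 z =
        s34f_iota (s34x_infRing O) S' (s36b_ccIdeal 𝔫 hin) z' ∧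
      (z' ∈ maximalIdeal (Localization.AtPrime (s36b_ccIdeal 𝔫 hin)) →
        z ∈ maximalIdeal (Localization.AtPrime 𝔫)) := by
  set 𝔫' := s36b_ccIdeal 𝔫 hin with h𝔫'def
  obtain ⟨b', s', hs', hfrac⟩ := s34f_exists_frac (s34x_infRing O) S' 𝔫' z'
  have h1 := congrArg (s34f_iota (s34x_infRing O) S' 𝔫') hfrac
  rw [map_mul, s34f_iota_algebraMap, s34f_iota_algebraMap] at h1
  obtain ⟨zb, eb⟩ := hin (b' : 𝓕) b'.2
  obtain ⟨zs, es⟩ := hin (s' : 𝓕) s'.2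
  have hzs : zs ∉ maximalIdeal (Localization.AtPrime 𝔫) := fun hm =>
    hs' ((s36b_mem_ccIdeal_iff 𝔫 hin s' zs es).mpr hm)
  have hzsu : IsUnit zs := by
    by_contra hnu
    exact hzs ((mem_maximalIdeal _).mpr (mem_nonunits_iff.mpr hnu))
  obtain ⟨v, hv⟩ := hzsu.exists_right_inv
  have hs0 : (s' : 𝓕) ≠ 0 := by
    intro h0
    apply hs'
    have : s' = 0 := Subtype.ext h0
    rw [this]
    exact 𝔫'.zero_mem
  have hv' : s34f_iota (s34x_infRing O) S 𝔫 v = (s' : 𝓕)⁻¹ := by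
    have := congrArg (s34f_iota (s34x_infRing O) S 𝔫) hv
    rw [map_mul, es, map_one] at this
    exact eq_inv_of_mul_eq_one_right this
  have hz'val : s34f_iota (s34x_infRing O) S' 𝔫' z' = (b' : 𝓕) * (s' : 𝓕)⁻¹ := by
    rw [← h1, mul_assoc, mul_inv_cancel₀ hs0, mul_one]
  refine ⟨zb * v, by rw [map_mul, eb, hv', hz'val], ?_⟩
  intro hz'm
  have hb'mem : b' ∈ 𝔫' := by
    have h2 : algebraMap _ (Localization.AtPrime 𝔫') b' ∈
        maximalIdeal (Localization.AtPrime 𝔫') := by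
      rw [← hfrac]
      exact Ideal.mul_mem_right _ _ hz'm
    exact (IsLocalization.AtPrime.to_map_mem_maximal_iff (Localization.AtPrime 𝔫') 𝔫' _).mp h2
  have hzb : zb ∈ maximalIdeal (Localization.AtPrime 𝔫) :=
    (s36b_mem_ccIdeal_iff 𝔫 hin b' zb eb).mp hb'mem
  exact Ideal.mul_mem_right _ _ hzb

/-- units of `B'_𝔫'` are units of `B_𝔫`. -/
theorem s36b_cc_le_unit (hin : s36b_LocalIn O S S' 𝔫)
    (z' : Localization.AtPrime (s36b_ccIdeal 𝔫 hin)) (hz' : IsUnit z') :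
    ∃ z : Localization.AtPrime 𝔫, IsUnit z ∧ s34f_iota (s34x_infRing O) S 𝔫 z =
        s34f_iota (s34x_infRing O) S' (s36b_ccIdeal 𝔫 hin) z' := by
  obtain ⟨c', hc'⟩ := hz'.exists_right_inv
  obtain ⟨z, ez, -⟩ := s36b_cc_le 𝔫 hin z'
  obtain ⟨c, ec, -⟩ := s36b_cc_le 𝔫 hin c'
  refine ⟨z, ?_, ez⟩
  have : z * c = 1 := by
    apply s34f_iota_injective (s34x_infRing O) S 𝔫
    rw [map_mul, ez, ec, ← map_mul, hc', map_one, map_one]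
  exact IsUnit.of_mul_eq_one _ this

/-- **`B_𝔫 = B'_𝔫'`** inside `𝓕`, if also `B ⊆ B'_𝔫'`. -/
theorem s36b_sameLocal_of_localIn (hin : s36b_LocalIn O S S' 𝔫)
    (hin' : s36b_LocalIn O S' S (s36b_ccIdeal 𝔫 hin)) :
    s36b_SameLocal O S S' 𝔫 (s36b_ccIdeal 𝔫 hin) := by
  set 𝔫' := s36b_ccIdeal 𝔫 hin with h𝔫'def
  intro x
  constructor
  · rintro ⟨z, rfl⟩
    obtain ⟨b, s, hs, hfrac⟩ := s34f_exists_frac (s34x_infRing O) S 𝔫 z
    have h1 := congrArg (s34f_iota (s34x_infRing O) S 𝔫) hfrac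
    rw [map_mul, s34f_iota_algebraMap, s34f_iota_algebraMap] at h1
    obtain ⟨zb', eb'⟩ := hin' (b : 𝓕) b.2
    obtain ⟨zs', es'⟩ := hin' (s : 𝓕) s.2
    have hzs'u : IsUnit zs' := by
      by_contra hnu
      have hm : zs' ∈ maximalIdeal (Localization.AtPrime 𝔫') :=
        (mem_maximalIdeal _).mpr (mem_nonunits_iff.mpr hnu)
      obtain ⟨z₀, e₀, hloc⟩ := s36b_cc_le 𝔫 hin zs'
      have hz₀ : z₀ = algebraMap _ (Localization.AtPrime 𝔫) s :=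
        s34f_iota_injective (s34x_infRing O) S 𝔫
          (by rw [e₀, es', s34f_iota_algebraMap])
      have := hloc hm
      rw [hz₀] at this
      exact hs ((IsLocalization.AtPrime.to_map_mem_maximal_iff
        (Localization.AtPrime 𝔫) 𝔫 _).mp this)
    obtain ⟨v, hv⟩ := hzs'u.exists_right_inv
    have hs0 : (s : 𝓕) ≠ 0 := by
      intro h0
      apply hs
      have : s = 0 := Subtype.ext h0
      rw [this]
      exact 𝔫.zero_mem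
    have hv' : s34f_iota (s34x_infRing O) S' 𝔫' v = (s : 𝓕)⁻¹ := by
      have := congrArg (s34f_iota (s34x_infRing O) S' 𝔫') hv
      rw [map_mul, es', map_one] at this
      exact eq_inv_of_mul_eq_one_right this
    refine ⟨zb' * v, ?_⟩
    rw [map_mul, eb', hv', ← h1, mul_assoc, mul_inv_cancel₀ hs0, mul_one]
  · rintro ⟨z', rfl⟩
    obtain ⟨z, e, -⟩ := s36b_cc_le 𝔫 hin z'
    exact ⟨z, e⟩

/-- **`B_𝔫 = B'_𝔫'`** inside `𝓕`, from (⋆) in both directions. -/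
theorem s36b_cc_sameLocal (h : s36b_NoCentre O S S' ϖ) (h' : s36b_NoCentre O S' S ϖ)
    (hfin : ∀ y : 𝓕, y ≠ 0 → {Q : Place L₀ 𝓕 | Q.ord y < 0}.Finite)
    (hϖB : ϖ ∈ s34x_ring (s34x_infRing O) S)
    (hϖ𝔫 : (⟨ϖ, hϖB⟩ : s34x_ring (s34x_infRing O) S) ∈ 𝔫)
    (hϖB' : ϖ ∈ s34x_ring (s34x_infRing O) S') :
    s36b_SameLocal O S S' 𝔫 (s36b_ccIdeal 𝔫 (s36b_cc_exists 𝔫 h hfin hϖB hϖ𝔫)) :=
  s36b_sameLocal_of_localIn 𝔫 _ (s36b_cc_exists _ h' hfin hϖB'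
    (s36b_unif_mem_ccIdeal 𝔫 _ hϖB hϖ𝔫 hϖB'))

/-- **maximality is preserved.** -/
theorem s36b_ccIdeal_isMaximal (h : s36b_NoCentre O S S' ϖ) (h' : s36b_NoCentre O S' S ϖ)
    (hfin : ∀ y : 𝓕, y ≠ 0 → {Q : Place L₀ 𝓕 | Q.ord y < 0}.Finite)
    (hϖB : ϖ ∈ s34x_ring (s34x_infRing O) S)
    (hϖ𝔫 : (⟨ϖ, hϖB⟩ : s34x_ring (s34x_infRing O) S) ∈ 𝔫)
    (hmax : 𝔫.IsMaximal) :
    (s36b_ccIdeal 𝔫 (s36b_cc_exists 𝔫 h hfin hϖB hϖ𝔫)).IsMaximal := by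
  have hin := s36b_cc_exists 𝔫 h hfin hϖB hϖ𝔫
  set 𝔫' := s36b_ccIdeal 𝔫 (s36b_cc_exists 𝔫 h hfin hϖB hϖ𝔫) with h𝔫'def
  set R := Localization.AtPrime 𝔫 with hR
  set io := s34f_iota (s34x_infRing O) S 𝔫 with hio
  have hϖm : algebraMap _ R (⟨ϖ, hϖB⟩ : s34x_ring (s34x_infRing O) S) ∈ maximalIdeal R :=
    (IsLocalization.AtPrime.to_map_mem_maximal_iff R 𝔫 _).mpr hϖ𝔫
  -- elements of `1 + ϖ B` and of `1 + ϖ B'` are `≡ 1` modulo `𝔪(B_𝔫)`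
  have hone : ∀ (z : R) (s y : 𝓕), io z = s → (∃ zy : R, io zy = y) → 1 - s = ϖ * y →
      z - 1 ∈ maximalIdeal R := by
    rintro z s y hz ⟨zy, hzy⟩ e
    have : z - 1 = -(algebraMap _ R (⟨ϖ, hϖB⟩ : s34x_ring (s34x_infRing O) S) * zy) := by
      apply s34f_iota_injective (s34x_infRing O) S 𝔫
      rw [map_sub, map_one, map_neg, map_mul, s34f_iota_algebraMap]
      show io z - 1 = -(ϖ * io zy)
      rw [hz, hzy, ← e]
      ring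
    rw [this]
    exact neg_mem (Ideal.mul_mem_right _ _ hϖm)
  rw [Ideal.isMaximal_iff]
  constructor
  · intro h1
    exact (s36b_ccIdeal_isPrime 𝔫 hin).ne_top ((Ideal.eq_top_iff_one _).mpr h1)
  · intro J x hle hx𝔫' hxJ
    -- `x = b / s`, `b ∈ B ∖ 𝔫`
    obtain ⟨s, hsB, ⟨y, hyB, es⟩, hsb⟩ := s36b_noCentre_mul h hfin (x : 𝓕) x.2
    obtain ⟨zx, ezx⟩ := hin (x : 𝓕) x.2
    have hzx : zx ∉ maximalIdeal R := fun hm =>
      hx𝔫' ((s36b_mem_ccIdeal_iff 𝔫 hin x zx ezx).mpr hm)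
    set b : s34x_ring (s34x_infRing O) S := ⟨s * (x : 𝓕), hsb⟩ with hb
    set sB : s34x_ring (s34x_infRing O) S := ⟨s, hsB⟩ with hsBdef
    have hsm : algebraMap _ R sB - 1 ∈ maximalIdeal R :=
      hone _ s y (s34f_iota_algebraMap _ _ _ _)
        ⟨algebraMap _ R (⟨y, hyB⟩ : s34x_ring (s34x_infRing O) S),
          s34f_iota_algebraMap _ _ _ _⟩ es
    have hbz : algebraMap _ R b = algebraMap _ R sB * zx := by
      apply s34f_iota_injective (s34x_infRing O) S 𝔫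
      rw [map_mul, s34f_iota_algebraMap, s34f_iota_algebraMap]
      show s * (x : 𝓕) = s * io zx
      rw [ezx]
    have hb𝔫 : b ∉ 𝔫 := by
      intro hb𝔫
      have h1 : algebraMap _ R b ∈ maximalIdeal R :=
        (IsLocalization.AtPrime.to_map_mem_maximal_iff R 𝔫 _).mpr hb𝔫
      rw [hbz] at h1
      rcases (maximalIdeal.isMaximal R).isPrime.mem_or_mem h1 with h2 | h2
      · have : (1 : R) ∈ maximalIdeal R := by
          have := Ideal.sub_mem _ h2 hsm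
          rwa [sub_sub_cancel] at this
        exact (maximalIdeal.isMaximal R).ne_top ((Ideal.eq_top_iff_one _).mpr this)
      · exact hzx h2
    -- an inverse of `b` modulo `𝔫`
    obtain ⟨c, hc⟩ : ∃ c : s34x_ring (s34x_infRing O) S, b * c - 1 ∈ 𝔫 := by
      obtain ⟨c, n, hn, e⟩ := hmax.exists_inv hb𝔫
      refine ⟨c, ?_⟩
      have : b * c - 1 = -n := by rw [← e]; ring
      rw [this]
      exact 𝔫.neg_mem hn
    -- move `c` to `B'`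
    obtain ⟨s', hs'B, ⟨y', hy'B, es'⟩, hs'c⟩ := s36b_noCentre_mul h' hfin (c : 𝓕) c.2
    set c' : s34x_ring (s34x_infRing O) S' := ⟨s' * (c : 𝓕), hs'c⟩ with hc'
    obtain ⟨zs', ezs'⟩ := hin s' hs'B
    obtain ⟨zy', ezy'⟩ := hin y' hy'B
    have hs'm : zs' - 1 ∈ maximalIdeal R := hone zs' s' y' ezs' ⟨zy', ezy'⟩ es'
    -- `x * c' - 1 ∈ 𝔫'`
    have hkey : x * c' - 1 ∈ 𝔫' := by
      refine (s36b_mem_ccIdeal_iff 𝔫 hin (x * c' - 1)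
        (zx * (zs' * algebraMap _ R c) - 1) ?_).mpr ?_
      · rw [map_sub, map_mul, map_mul, map_one, s34f_iota_algebraMap]
        show io zx * (io zs' * (c : 𝓕)) - 1 = (x : 𝓕) * (s' * (c : 𝓕)) - 1
        rw [ezx, ezs']
      · -- modulo `𝔪`: `zs' ≡ 1`, `sB ≡ 1`, `sB zx c = b c ≡ 1`
        have h1 : algebraMap _ R (b * c - 1) ∈ maximalIdeal R :=
          (IsLocalization.AtPrime.to_map_mem_maximal_iff R 𝔫 _).mpr hc
        rw [map_sub, map_mul, map_one, hbz] at h1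
        have e : zx * (zs' * algebraMap _ R c) - 1 =
            (algebraMap _ R sB * zx * algebraMap _ R c - 1) +
              zx * algebraMap _ R c * (zs' - 1) -
              zx * algebraMap _ R c * (algebraMap _ R sB - 1) := by ring
        rw [e]
        exact Ideal.sub_mem _ (Ideal.add_mem _ h1 (Ideal.mul_mem_left _ _ hs'm))
          (Ideal.mul_mem_left _ _ hsm)
    have h2 : x * c' ∈ J := J.mul_mem_right _ hxJ
    have h3 : x * c' - 1 ∈ J := hle hkey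
    have := J.sub_mem h2 h3
    rwa [sub_sub_cancel] at this

end Same

/-! ### A local criterion for `B' ⊆ B_𝔫` -/

section Mult

variable (𝔫 : Ideal (s34x_ring (s34x_infRing O) S)) [h𝔫 : 𝔫.IsPrime]

/-- **`B' ⊆ B_𝔫`** if some `u ∈ B ∖ 𝔫` vanishes at every place of `S` outside `S'`. -/
theorem s36b_localIn_of_mult
    (hfin : ∀ y : 𝓕, y ≠ 0 → {Q : Place L₀ 𝓕 | Q.ord y < 0}.Finite)
    (u : s34x_ring (s34x_infRing O) S) (hu : u ∉ 𝔫)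
    (hpos : ∀ Q ∈ S, Q ∉ S' → 0 < Q.ord (u : 𝓕)) : s36b_LocalIn O S S' 𝔫 := by
  classical
  intro b' hb'
  have hu0 : (u : 𝓕) ≠ 0 := by
    intro h0
    apply hu
    have : u = 0 := Subtype.ext h0
    rw [this]
    exact 𝔫.zero_mem
  by_cases hb0 : b' = 0
  · exact ⟨0, by rw [map_zero, hb0]⟩
  set T : Finset (Place L₀ 𝓕) := (hfin b' hb0).toFinset with hTdef
  have hTmem : ∀ Q, Q ∈ T ↔ Q.ord b' < 0 := by
    intro Q
    rw [hTdef, Set.Finite.mem_toFinset, Set.mem_ofPred_eq]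
  set k : ℕ := T.sup (fun Q => (-(Q.ord b')).toNat) with hk
  have hkQ : ∀ Q ∈ T, -(Q.ord b') ≤ (k : ℤ) := by
    intro Q hQ
    have h1 : (-(Q.ord b')).toNat ≤ k := Finset.le_sup (f := fun Q => (-(Q.ord b')).toNat) hQ
    have h2 : -(Q.ord b') ≤ ((-(Q.ord b')).toNat : ℤ) := Int.self_le_toNat _
    exact h2.trans (by exact_mod_cast h1)
  have hsb : (u : 𝓕) ^ k * b' ∈ s34x_ring (s34x_infRing O) S := by
    refine ⟨(s34x_infRing O).mul_mem (pow_mem u.2.1 k) hb'.1, fun Q hQS => ?_⟩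
    by_cases hreg : b' ∈ Q.toValuationSubring
    · exact Q.toValuationSubring.mul_mem _ _ (pow_mem (u.2.2 Q hQS) k) hreg
    · have hneg : Q.ord b' < 0 := by
        by_contra hcon
        exact hreg ((ff_mem_iff_ord_nonneg Q hb0).mpr (not_lt.mp hcon))
      have hQS' : Q ∉ S' := fun hQS' => hreg (hb'.2 Q hQS')
      have h1 := hpos Q hQS hQS'
      have h2 := hkQ Q ((hTmem Q).mpr hneg)
      rw [ff_mem_iff_ord_nonneg Q (mul_ne_zero (pow_ne_zero _ hu0) hb0),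
        Q.ord_mul (pow_ne_zero _ hu0) hb0, s36b_ord_pow]
      have h3 : (k : ℤ) ≤ (k : ℤ) * Q.ord (u : 𝓕) := by nlinarith
      omega
  have huk : u ^ k ∉ 𝔫 := fun hm => hu (h𝔫.mem_of_pow_mem k hm)
  refine ⟨IsLocalization.mk' (Localization.AtPrime 𝔫)
    (⟨(u : 𝓕) ^ k * b', hsb⟩ : s34x_ring (s34x_infRing O) S) (⟨u ^ k, huk⟩ : 𝔫.primeCompl), ?_⟩
  have h1 := IsLocalization.mk'_spec (Localization.AtPrime 𝔫)
    (⟨(u : 𝓕) ^ k * b', hsb⟩ : s34x_ring (s34x_infRing O) S) (⟨u ^ k, huk⟩ : 𝔫.primeCompl)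
  have h2 := congrArg (s34f_iota (s34x_infRing O) S 𝔫) h1
  rw [map_mul, s34f_iota_algebraMap, s34f_iota_algebraMap] at h2
  have h3 : s34f_iota (s34x_infRing O) S 𝔫 (IsLocalization.mk' (Localization.AtPrime 𝔫)
      (⟨(u : 𝓕) ^ k * b', hsb⟩ : s34x_ring (s34x_infRing O) S) (⟨u ^ k, huk⟩ : 𝔫.primeCompl)) *
      (u : 𝓕) ^ k = b' * (u : 𝓕) ^ k := by
    rw [mul_comm b' _]
    exact h2
  exact mul_right_cancel₀ (pow_ne_zero _ hu0) h3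

end Mult

/-! ### Transfer along "same local ring" -/

section Transfer

variable (𝔫 : Ideal (s34x_ring (s34x_infRing O) S)) [h𝔫 : 𝔫.IsPrime]
  (𝔫' : Ideal (s34x_ring (s34x_infRing O) S')) [h𝔫' : 𝔫'.IsPrime]

theorem s36b_sameLocal_symm (hE : s36b_SameLocal O S S' 𝔫 𝔫') : s36b_SameLocal O S' S 𝔫' 𝔫 :=
  fun x => (hE x).symm

/-- the inverse of an element of `B' ∖ 𝔫'` lies in `B_𝔫`. -/
theorem s36b_inv_of_sameLocal (hE : s36b_SameLocal O S S' 𝔫 𝔫')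
    (b' : s34x_ring (s34x_infRing O) S') (hb' : b' ∉ 𝔫') :
    ∃ z : Localization.AtPrime 𝔫, (b' : 𝓕) * s34f_iota (s34x_infRing O) S 𝔫 z = 1 := by
  have hu : IsUnit (algebraMap _ (Localization.AtPrime 𝔫') b') :=
    IsLocalization.map_units (Localization.AtPrime 𝔫') (⟨b', hb'⟩ : 𝔫'.primeCompl)
  obtain ⟨v, hv⟩ := hu.exists_right_inv
  have h1 := congrArg (s34f_iota (s34x_infRing O) S' 𝔫') hv
  rw [map_mul, s34f_iota_algebraMap, map_one] at h1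
  obtain ⟨z, hz⟩ := (hE _).mpr ⟨v, rfl⟩
  exact ⟨z, by rw [hz]; exact h1⟩

/-- the components through `𝔫` pass through `𝔫'`. -/
theorem s36b_compThrough_of_sameLocal (hE : s36b_SameLocal O S S' 𝔫 𝔫') (i : ι)
    (hi : s36q_compThrough O S 𝔫 i) : s36q_compThrough O S' 𝔫' i := by
  intro b' hb'
  by_contra hb𝔫'
  obtain ⟨z, hz⟩ := s36b_inv_of_sameLocal 𝔫 𝔫' hE b' hb𝔫'
  have hmem : s34f_iota (s34x_infRing O) S 𝔫 z ∈ O i := s36q_iota_mem_comp O S 𝔫 i hi z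
  have h1 : (O i).valuation (b' : 𝓕) < 1 := (O i).mem_nonunits_iff.mp hb'
  have h2 : (O i).valuation (s34f_iota (s34x_infRing O) S 𝔫 z) ≤ 1 :=
    ((O i).valuation_le_one_iff _).mpr hmem
  have h3 : (O i).valuation ((b' : 𝓕) * s34f_iota (s34x_infRing O) S 𝔫 z) < 1 := by
    rw [map_mul]
    exact mul_lt_one_of_nonneg_of_lt_one_left zero_le h1 h2
  rw [hz, map_one] at h3
  exact lt_irrefl _ h3

/-- the places through `𝔫` (which lie in `S'`) pass through `𝔫'`. -/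
theorem s36b_through_of_sameLocal (hE : s36b_SameLocal O S S' 𝔫 𝔫') (Q : Place L₀ 𝓕)
    (hQS : Q ∈ S) (hth : s34f_through (s34x_infRing O) S 𝔫 Q) :
    s34f_through (s34x_infRing O) S' 𝔫' Q := by
  intro b' hb0 hpos
  by_contra hb𝔫'
  obtain ⟨z, hz⟩ := s36b_inv_of_sameLocal 𝔫 𝔫' hE b' hb𝔫'
  have hmem : s34f_iota (s34x_infRing O) S 𝔫 z ∈ Q.toValuationSubring :=
    s36q_iota_mem (s34x_infRing O) S 𝔫 Q hQS hth z
  have hz0 : s34f_iota (s34x_infRing O) S 𝔫 z ≠ 0 := by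
    intro h0
    rw [h0, mul_zero] at hz
    exact zero_ne_one hz
  have h1 := (ff_mem_iff_ord_nonneg Q hz0).mp hmem
  have h2 := Q.ord_mul hb0 hz0
  rw [hz, Place.ord_one] at h2
  omega

/-- units of `B_𝔫` are units of `B'_𝔫'`. -/
theorem s36b_unit_of_sameLocal (hE : s36b_SameLocal O S S' 𝔫 𝔫')
    (a : Localization.AtPrime 𝔫) (ha : IsUnit a) :
    ∃ a' : Localization.AtPrime 𝔫', IsUnit a' ∧
      s34f_iota (s34x_infRing O) S' 𝔫' a' = s34f_iota (s34x_infRing O) S 𝔫 a := by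
  obtain ⟨c, hc⟩ := ha.exists_right_inv
  obtain ⟨a', ea⟩ := (hE _).mp ⟨a, rfl⟩
  obtain ⟨c', ec⟩ := (hE _).mp ⟨c, rfl⟩
  refine ⟨a', ?_, ea⟩
  have : a' * c' = 1 := by
    apply s34f_iota_injective (s34x_infRing O) S' 𝔫'
    rw [map_mul, ea, ec, ← map_mul, hc, map_one, map_one]
  exact IsUnit.of_mul_eq_one _ this

/-- **Transfer of the local regularity package.** -/
theorem s36b_localReg_of_sameLocal (hE : s36b_SameLocal O S S' 𝔫 𝔫')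
    (hP : ∀ Q ∈ S, s34f_through (s34x_infRing O) S 𝔫 Q → Q ∈ S') (m : ℕ)
    (hReg : s36p_LocalReg O S' 𝔫' m) : s36p_LocalReg O S 𝔫 m := by
  obtain ⟨hLE, hℓ, hN⟩ := hReg
  refine ⟨?_, ?_, ?_⟩
  · intro Q hQS hth
    obtain ⟨φ, hφ0, hφ1, hφ⟩ := hLE Q (hP Q hQS hth)
      (s36b_through_of_sameLocal 𝔫 𝔫' hE Q hQS hth)
    exact ⟨φ, hφ0, hφ1, fun Q' hQ'S hne hth' => hφ Q' (hP Q' hQ'S hth') hne
      (s36b_through_of_sameLocal 𝔫 𝔫' hE Q' hQ'S hth')⟩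
  · intro i hi
    obtain ⟨ℓ, hℓ0, hdec, hother, hord⟩ := hℓ i (s36b_compThrough_of_sameLocal 𝔫 𝔫' hE i hi)
    exact ⟨ℓ, hℓ0, hdec,
      fun j hji hj => hother j hji (s36b_compThrough_of_sameLocal 𝔫 𝔫' hE j hj),
      fun Q hQS hth => hord Q (hP Q hQS hth) (s36b_through_of_sameLocal 𝔫 𝔫' hE Q hQS hth)⟩
  · intro i hi y hy a ha hya
    obtain ⟨a', ha', ea⟩ := s36b_unit_of_sameLocal 𝔫 𝔫' hE a ha
    obtain ⟨s', hs'⟩ := hN i (s36b_compThrough_of_sameLocal 𝔫 𝔫' hE i hi) y hy a' ha'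
      (by rw [ea]; exact hya)
    obtain ⟨s, hs⟩ := (hE _).mpr ⟨s', rfl⟩
    exact ⟨s, by rw [hs]; exact hs'⟩

end Transfer

/-! ### The package -/

/-- the places through a prime `𝔫 ∋ ϖ` of `B` lie in `S'`. -/
theorem s36b_cc_through_mem (h : s36b_NoCentre O S S' ϖ)
    (𝔫 : Ideal (s34x_ring (s34x_infRing O) S)) [h𝔫 : 𝔫.IsPrime]
    (hϖB : ϖ ∈ s34x_ring (s34x_infRing O) S)
    (hϖ𝔫 : (⟨ϖ, hϖB⟩ : s34x_ring (s34x_infRing O) S) ∈ 𝔫)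
    (Q : Place L₀ 𝓕) (hQS : Q ∈ S) (hth : s34f_through (s34x_infRing O) S 𝔫 Q) : Q ∈ S' := by
  by_contra hnot
  obtain ⟨s, hsB, hs, hz⟩ := h Q hQS hnot 1
  have hs𝔫 : (⟨s, hsB⟩ : s34x_ring (s34x_infRing O) S) ∉ 𝔫 :=
    s36b_cc_not_mem 𝔫 hϖB hϖ𝔫 ⟨s, hsB⟩ hz
  by_cases hs0 : s = 0
  · apply hs𝔫
    have : (⟨s, hsB⟩ : s34x_ring (s34x_infRing O) S) = 0 := Subtype.ext hs0
    rw [this]
    exact 𝔫.zero_mem
  · have hpos : 0 < Q.ord s := by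
      have := hs.resolve_left hs0
      omega
    exact hs𝔫 (hth ⟨s, hsB⟩ hs0 hpos)

/-- **CHANGE OF CHART**: for every prime `𝔫 ∋ ϖ` of `B` there is a prime `𝔫' ∋ ϖ` of `B'`, maximal
if `𝔫` is, with the same local ring inside `𝓕`, the same components through it, and
`LocalReg` at `𝔫'` implies `LocalReg` at `𝔫`. -/
theorem s36b_chartChange (h : s36b_NoCentre O S S' ϖ) (h' : s36b_NoCentre O S' S ϖ)
    (hfin : ∀ y : 𝓕, y ≠ 0 → {Q : Place L₀ 𝓕 | Q.ord y < 0}.Finite)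
    (hϖB : ϖ ∈ s34x_ring (s34x_infRing O) S) (hϖB' : ϖ ∈ s34x_ring (s34x_infRing O) S')
    (𝔫 : Ideal (s34x_ring (s34x_infRing O) S)) [h𝔫 : 𝔫.IsPrime]
    (hϖ𝔫 : (⟨ϖ, hϖB⟩ : s34x_ring (s34x_infRing O) S) ∈ 𝔫) :
    ∃ (𝔫' : Ideal (s34x_ring (s34x_infRing O) S')) (hp : 𝔫'.IsPrime),
      (⟨ϖ, hϖB'⟩ : s34x_ring (s34x_infRing O) S') ∈ 𝔫' ∧
      (𝔫.IsMaximal → 𝔫'.IsMaximal) ∧
      s36b_SameLocal O S S' 𝔫 𝔫' (h𝔫' := hp) ∧
      (∀ i, s36q_compThrough O S 𝔫 i ↔ s36q_compThrough O S' 𝔫' i) ∧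
      (∀ Q ∈ S, s34f_through (s34x_infRing O) S 𝔫 Q →
        Q ∈ S' ∧ s34f_through (s34x_infRing O) S' 𝔫' Q) ∧
      (∀ Q ∈ S', s34f_through (s34x_infRing O) S' 𝔫' Q →
        Q ∈ S ∧ s34f_through (s34x_infRing O) S 𝔫 Q) ∧
      (∀ m, s36p_LocalReg O S' 𝔫' (h𝔫 := hp) m → s36p_LocalReg O S 𝔫 m) := by
  have hin := s36b_cc_exists 𝔫 h hfin hϖB hϖ𝔫
  have hE := s36b_cc_sameLocal 𝔫 h h' hfin hϖB hϖ𝔫 hϖB'
  have hϖ𝔫' := s36b_unif_mem_ccIdeal 𝔫 hin hϖB hϖ𝔫 hϖB'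
  have hE' := s36b_sameLocal_symm 𝔫 (s36b_ccIdeal 𝔫 hin) hE
  refine ⟨s36b_ccIdeal 𝔫 hin, s36b_ccIdeal_isPrime 𝔫 hin, hϖ𝔫',
    s36b_ccIdeal_isMaximal 𝔫 h h' hfin hϖB hϖ𝔫, hE, fun i => ⟨fun hi =>
      s36b_compThrough_of_sameLocal 𝔫 _ hE i hi, fun hi =>
      s36b_compThrough_of_sameLocal _ 𝔫 hE' i hi⟩, ?_, ?_, ?_⟩
  · intro Q hQS hth
    exact ⟨s36b_cc_through_mem h 𝔫 hϖB hϖ𝔫 Q hQS hth,
      s36b_through_of_sameLocal 𝔫 _ hE Q hQS hth⟩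
  · intro Q hQS' hth'
    exact ⟨s36b_cc_through_mem h' _ hϖB' hϖ𝔫' Q hQS' hth',
      s36b_through_of_sameLocal _ 𝔫 hE' Q hQS' hth'⟩
  · intro m hReg
    exact s36b_localReg_of_sameLocal 𝔫 _ hE
      (fun Q hQS hth => s36b_cc_through_mem h 𝔫 hϖB hϖ𝔫 Q hQS hth) m hReg

end Fermat.Agent.Lib.S36
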