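/-
S36 project, geometry layer (X1) (helper9, prefix `s36p_`): CHART 1 AT THE TWO LEVELS — compatibility
of the chart rings with BOTH degeneracy maps `α'`, `β' : F₁ → F₂` and integrality of `B₂` over
`γ(B₁)` (helper8's order #1737 (3), helper5's (INT) of `QNormAlong.lean`).

Frame (`GeoFrame.lean`, `XBase.lean`): `V : Fin 3 → ValuationSubring F₂`, `w₁ : F₁` a base function,
`B₁ = s34x_ring (s34x_infRing (s34m_VV …)) (s18_chart1 w₁)`,
`B₂ = s34x_ring (s34x_infRing V) (s18_chart1 (α' w₁))`.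

Generic part (`γ : F₁ →ₐ[K₀] F₂` an arbitrary `K₀`-embedding):
* `s36p_comp_ev`, `s36p_tr_integral` : `γ ∘ ev_{w₁} = ev_{γ w₁}`, transport of integrality;
* `s36p_ffGen_gen`, `s36p_halg_gen`  : `γ w₁` is a generator, `F₂` is algebraic over `γ F₁`;
* `s36p_alphaW_gen` : (α) for the family `V` w.r.t. `γ w₁` (mirror of helper1's `s36b_alphaW`);
* `s36p_chart_mem_gen`, `s36p_chart_int_gen` : `γ(B₁) ⊆ s34x_ring (⨅ V) (chart1 w)` if
  `chart1 w ⊆ chart1 (γ w₁)`, and (INT) if `chart1 (γ w₁) ⊆ chart1 w`.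
-/
import Fermat.Agent.Lib.S36.XBase
import Fermat.Agent.Lib.S36.QTwo

set_option autoImplicit false
set_option linter.unusedSectionVars false
set_option linter.style.haveILetI false
set_option synthInstance.maxHeartbeats 400000

noncomputable section

namespace Fermat.Agent.Lib.S36

open ModularCurve AlgebraicCurve HahnSeries Polynomial IntermediateField Fermat.Agent.Lib.FF
  Fermat.Agent.Lib.S18
  Fermat.Agent.Lib.S37 Fermat.Agent.Lib.S34 Fermat.Agent.Lib.S35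

local notation "Kb" => AlgebraicClosure ℚ

variable {K₀ : Type} [Field K₀] [Algebra ℚ K₀] {κ : Type} [Field κ] (G : s18g_GaussData K₀ κ)
  (φ : K₀ →+* Kb) (M q : ℕ) [NeZero M] [NeZero q] (hq : q.Prime) (hqM : ¬ q ∣ M)
  (V : Fin 3 → ValuationSubring (s34m_F K₀ (M * q * q)))
  (γ : s34m_F K₀ (M * q) →ₐ[K₀] s34m_F K₀ (M * q * q))

local notation "𝓕₁" => laurentBaseChange K₀ (modularFunctionFieldFull (M * q))
local notation "𝓕₂" => laurentBaseChange K₀ (modularFunctionFieldFull (M * q * q))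

/-! ### Generic `K₀`-embeddings `γ : F₁ → F₂` -/

/-- `γ ∘ ev_{w₁} = ev_{γ w₁}`. -/
theorem s36p_comp_ev (w₁ : s34m_F K₀ (M * q)) :
    (γ : s34m_F K₀ (M * q) →+* s34m_F K₀ (M * q * q)).comp (s18g_ev G w₁) =
      s18g_ev G (γ w₁) := by
  apply Polynomial.ringHom_ext
  · intro a
    simp [s18g_ev]
  · simp [s18g_ev]

/-- transport of integrality over `A[w₁]` to integrality over `A[γ w₁]`. -/
theorem s36p_tr_integral (w₁ x : s34m_F K₀ (M * q))
    (hx : (s18b_ev G 𝓕₁ w₁).IsIntegralElem x) :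
    (s18b_ev G 𝓕₂ (γ w₁)).IsIntegralElem (γ x) := by
  obtain ⟨p, hp, h0⟩ := hx
  refine ⟨p, hp, ?_⟩
  have h1 := Polynomial.hom_eval₂ p (s18b_ev G 𝓕₁ w₁)
    (γ : s34m_F K₀ (M * q) →+* s34m_F K₀ (M * q * q)) x
  rw [h0, map_zero] at h1
  have hcomp : (γ : s34m_F K₀ (M * q) →+* s34m_F K₀ (M * q * q)).comp (s18b_ev G 𝓕₁ w₁) =
      s18b_ev G 𝓕₂ (γ w₁) := s36p_comp_ev G M q γ w₁
  rw [hcomp] at h1
  exact h1.symm

include φ in
/-- `γ w₁` is a generator of the function field of level `M q²`. -/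
theorem s36p_ffGen_gen (w₁ : s34m_F K₀ (M * q)) (hgen : FFGen K₀ w₁) :
    FFGen K₀ (γ w₁) := by
  haveI : FFGen K₀ (s18g_jF (K := K₀) (M * q * q)) :=
    s18b_ffGen_jF (M * q * q) (fun _ b hb hn => s18g_exists_relation (M * q * q) φ hn b hb)
  refine ff_gen_of_transcendental (x := s18g_jF (K := K₀) (M * q * q)) ?_
  intro halg
  apply hgen.transc
  exact (isAlgebraic_algHom_iff γ γ.toRingHom.injective).mp halg

include φ in
/-- `F₂` is algebraic over `γ F₁`. -/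
theorem s36p_halg_gen (z : s34m_F K₀ (M * q * q)) :
    ∃ p : (s34m_F K₀ (M * q))[X], p ≠ 0 ∧
      p.eval₂ (γ : s34m_F K₀ (M * q) →+* s34m_F K₀ (M * q * q)) z = 0 := by
  classical
  haveI hg1 : FFGen K₀ (s18g_jF (K := K₀) (M * q)) :=
    s18b_ffGen_jF (M * q) (fun _ b hb hn => s18g_exists_relation (M * q) φ hn b hb)
  set f : s34m_F K₀ (M * q * q) := γ (s18g_jF (K := K₀) (M * q)) with hf
  haveI hg2 : FFGen K₀ f := s36p_ffGen_gen φ M q γ _ hg1
  haveI : FiniteDimensional K₀⟮f⟯ (s34m_F K₀ (M * q * q)) := hg2.finite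
  have hz : IsAlgebraic K₀⟮f⟯ z := Algebra.IsAlgebraic.isAlgebraic z
  obtain ⟨p₀, hp₀, h0⟩ := hz
  -- the coefficients lie in the range of `γ`
  have hle : K₀⟮f⟯ ≤ γ.fieldRange := by
    rw [IntermediateField.adjoin_le_iff]
    rintro x hx
    rw [Set.mem_singleton_iff] at hx
    subst hx
    exact ⟨_, rfl⟩
  have hl : p₀.map (algebraMap K₀⟮f⟯ (s34m_F K₀ (M * q * q))) ∈
      Polynomial.lifts (γ : s34m_F K₀ (M * q) →+* s34m_F K₀ (M * q * q)) := by
    rw [Polynomial.lifts_iff_coeff_lifts]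
    intro n
    rw [Polynomial.coeff_map]
    obtain ⟨x, hx⟩ := hle (p₀.coeff n).2
    exact ⟨x, hx⟩
  obtain ⟨p, hp⟩ := hl
  replace hp : p.map (γ : s34m_F K₀ (M * q) →+* s34m_F K₀ (M * q * q)) =
      p₀.map (algebraMap K₀⟮f⟯ (s34m_F K₀ (M * q * q))) := hp
  refine ⟨p, ?_, ?_⟩
  · rintro rfl
    rw [Polynomial.map_zero] at hp
    apply hp₀
    exact (Polynomial.map_eq_zero_iff (algebraMap K₀⟮f⟯ (s34m_F K₀ (M * q * q))).injective).mp
      hp.symm
  · rw [← Polynomial.eval_map, hp, Polynomial.eval_map, ← Polynomial.aeval_def]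
    exact h0

variable {V}
variable [CharZero K₀] [IsDiscreteValuationRing G.A]

include φ in
/-- **(α) for the family `V` w.r.t. `γ w₁`** from (α) of level `M q` w.r.t. `w₁`, if the `V i` are
all the valuation subrings of `F₂` over `V'_∞`, `V'_0` along `γ` (mirror of `s36b_alphaW`). -/
theorem s36p_alphaW_gen
    (hne : s34m_VV G φ M q hq hqM true ≠ s34m_VV G φ M q hq hqM false)
    (hcompl : ∀ U : ValuationSubring (s34m_F K₀ (M * q * q)),
      U.comap (γ : s34m_F K₀ (M * q) →+* s34m_F K₀ (M * q * q)) = s34m_VV G φ M q hq hqM true ∨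
      U.comap (γ : s34m_F K₀ (M * q) →+* s34m_F K₀ (M * q * q)) = s34m_VV G φ M q hq hqM false →
        ∃ i, U = V i)
    (w₁ : s34m_F K₀ (M * q)) (hα₁ : s34f_AlphaW G φ M q hq hqM w₁) :
    ∀ y ∈ s34x_infRing V, ∃ s : G.A[X], s.map G.π ≠ 0 ∧
      (s18b_ev G 𝓕₂ (γ w₁)).IsIntegralElem (s18b_ev G 𝓕₂ (γ w₁) s * y) := by
  intro y hy
  have hy' : ∀ i, y ∈ V i := (s34x_mem_infRing V y).mp hy
  set γ' : s34m_F K₀ (M * q) →+* s34m_F K₀ (M * q * q) :=
    (γ : s34m_F K₀ (M * q) →+* s34m_F K₀ (M * q * q)) with hγ'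
  obtain ⟨n, c, hc, hrel⟩ := s36b_integral_of_complete γ' (s36p_halg_gen φ M q γ)
    (s36b_isUnif_VV G φ M q hq hqM true) (s36b_isUnif_VV G φ M q hq hqM false)
    hne V hcompl y hy'
  -- multipliers
  have hcm : ∀ k, c k ∈ s34x_infRing (s34m_VV G φ M q hq hqM) := fun k =>
    (s34x_mem_infRing _ _).mpr (fun i => by
      cases i
      · exact (hc k).2
      · exact (hc k).1)
  choose s hs hint using fun k => hα₁ (c k) (hcm k)
  set S : G.A[X] := ∏ k ∈ Finset.range n, s k with hS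
  set ev₁ : G.A[X] →+* s34m_F K₀ (M * q) := s18b_ev G 𝓕₁ w₁ with hev₁
  set ev₂ : G.A[X] →+* s34m_F K₀ (M * q * q) := s18b_ev G 𝓕₂ (γ w₁) with hev₂
  have hSπ : S.map G.π ≠ 0 := by
    rw [hS, Polynomial.map_prod]
    exact Finset.prod_ne_zero_iff.mpr (fun k _ => hs k)
  have hσc : ∀ k < n, ev₁.IsIntegralElem (ev₁ S * c k) := by
    intro k hk
    have hk' : k ∈ Finset.range n := Finset.mem_range.mpr hk
    rw [hS, ← Finset.mul_prod_erase _ _ hk', map_mul, mul_comm (ev₁ (s k)), mul_assoc]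
    exact RingHom.IsIntegralElem.mul _ ev₁.isIntegralElem_map (hint k)
  have hcomp : γ'.comp ev₁ = ev₂ := s36p_comp_ev G M q γ w₁
  have hev : ev₂ S = γ' (ev₁ S) := (RingHom.congr_fun hcomp S).symm
  -- transport of integrality
  have htr : ∀ x, ev₁.IsIntegralElem x → ev₂.IsIntegralElem (γ' x) := fun x hx =>
    s36p_tr_integral G M q γ w₁ x hx
  refine ⟨S, hSπ, ?_⟩
  letI alg : Algebra G.A[X] (s34m_F K₀ (M * q * q)) := ev₂.toAlgebra
  set σ := ev₁ S with hσ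
  have hd : ∀ k < n, IsIntegral G.A[X] (γ' (σ ^ (n - k) * c k)) := by
    intro k hk
    have e : σ ^ (n - k) * c k = σ ^ (n - k - 1) * (σ * c k) := by
      rw [← mul_assoc, ← pow_succ]
      congr 2
      omega
    rw [e]
    exact htr _ (RingHom.IsIntegralElem.mul _
      (s18g_isIntegralElem_pow _ ev₁.isIntegralElem_map _) (hσc k hk))
  have hzrel : (ev₂ S * y) ^ n + ∑ k ∈ Finset.range n,
      γ' (σ ^ (n - k) * c k) * (ev₂ S * y) ^ k = 0 := by
    have h1 : (ev₂ S * y) ^ n + ∑ k ∈ Finset.range n,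
        γ' (σ ^ (n - k) * c k) * (ev₂ S * y) ^ k =
        (γ' σ) ^ n *
          (y ^ n + ∑ k ∈ Finset.range n, γ' (c k) * y ^ k) := by
      rw [mul_add, Finset.mul_sum, hev, mul_pow]
      congr 1
      refine Finset.sum_congr rfl fun k hk => ?_
      have hk' := Finset.mem_range.mp hk
      rw [map_mul, map_pow, mul_pow]
      have hn : n = (n - k) + k := by omega
      conv_rhs => rw [hn, _root_.pow_add]
      ring
    rw [h1, hrel, mul_zero]
  exact s36b_isIntegral_of_rel n _ hd _ hzrel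

/-! ### The chart rings -/

/-- the constants of `A` lie in every `V i`, if `γ` maps `V'_∞ ⊓ V'_0` into `⨅ V i`. -/
theorem s36p_const_mem_gen
    (hVγ : ∀ x : s34m_F K₀ (M * q), (∀ i, x ∈ s34m_VV G φ M q hq hqM i) → ∀ i, γ x ∈ V i)
    (i : Fin 3) (a : G.A) : algebraMap K₀ (s34m_F K₀ (M * q * q)) (a : K₀) ∈ V i := by
  have h := hVγ (algebraMap K₀ (s34m_F K₀ (M * q)) (a : K₀))
    (fun j => s34c_const_mem_VV G φ M q hq hqM j a) i
  rwa [γ.commutes] at h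

/-- **`γ(B₁) ⊆ s34x_ring (⨅ V) (chart1 w)`** for every `w` with `chart1 w ⊆ chart1 (γ w₁)`. -/
theorem s36p_chart_mem_gen
    (hVγ : ∀ x : s34m_F K₀ (M * q), (∀ i, x ∈ s34m_VV G φ M q hq hqM i) → ∀ i, γ x ∈ V i)
    (w₁ : s34m_F K₀ (M * q)) (hgen : FFGen K₀ w₁) (hwO : ∀ i, w₁ ∈ s34m_VV G φ M q hq hqM i)
    (hα₁ : s34f_AlphaW G φ M q hq hqM w₁) (w : s34m_F K₀ (M * q * q))
    (hsat : ∀ Q : Place K₀ (s34m_F K₀ (M * q * q)),
      w ∈ Q.toValuationSubring → γ w₁ ∈ Q.toValuationSubring) :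
    ∀ b ∈ s34x_ring (L₀ := K₀) (s34x_infRing (s34m_VV G φ M q hq hqM)) (s18_chart1 w₁),
      γ b ∈ s34x_ring (L₀ := K₀) (s34x_infRing V) (s18_chart1 w) := by
  intro b hb
  haveI := hgen
  have h1 : (s18b_ev G 𝓕₁ w₁).IsIntegralElem b :=
    (s34x_mem_ring_iff G 𝓕₁ w₁ (s34m_VV G φ M q hq hqM)
      (fun i a => s34c_const_mem_VV G φ M q hq hqM i a) hwO hα₁ b).mp hb
  have h2 := s36p_tr_integral G M q γ w₁ b h1
  have h3 := s34x_mem_ring_of_isIntegralElem G 𝓕₂ (γ w₁) V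
    (s36p_const_mem_gen G φ M q hq hqM γ hVγ) (hVγ w₁ hwO) (γ b) h2
  exact ⟨h3.1, fun Q hQ => h3.2 Q (hsat Q hQ)⟩

include φ in
/-- **(INT)**: `s34x_ring (⨅ V) (chart1 w)` is integral over `γ(B₁)`, for every `w` with
`chart1 (γ w₁) ⊆ chart1 w`, if the `V i` are all the valuation subrings over `V'_∞`, `V'_0` along
`γ`. -/
theorem s36p_chart_int_gen
    (hVγ : ∀ x : s34m_F K₀ (M * q), (∀ i, x ∈ s34m_VV G φ M q hq hqM i) → ∀ i, γ x ∈ V i)
    (hne : s34m_VV G φ M q hq hqM true ≠ s34m_VV G φ M q hq hqM false)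
    (hcompl : ∀ U : ValuationSubring (s34m_F K₀ (M * q * q)),
      U.comap (γ : s34m_F K₀ (M * q) →+* s34m_F K₀ (M * q * q)) = s34m_VV G φ M q hq hqM true ∨
      U.comap (γ : s34m_F K₀ (M * q) →+* s34m_F K₀ (M * q * q)) = s34m_VV G φ M q hq hqM false →
        ∃ i, U = V i)
    (w₁ : s34m_F K₀ (M * q)) (hgen : FFGen K₀ w₁) (hwO : ∀ i, w₁ ∈ s34m_VV G φ M q hq hqM i)
    (hα₁ : s34f_AlphaW G φ M q hq hqM w₁) (w : s34m_F K₀ (M * q * q))
    (hsat' : ∀ Q : Place K₀ (s34m_F K₀ (M * q * q)),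
      γ w₁ ∈ Q.toValuationSubring → w ∈ Q.toValuationSubring)
    (hγ : ∀ b ∈ s34x_ring (L₀ := K₀) (s34x_infRing (s34m_VV G φ M q hq hqM)) (s18_chart1 w₁),
      (γ : s34m_F K₀ (M * q) →+* s34m_F K₀ (M * q * q)) b ∈
        s34x_ring (L₀ := K₀) (s34x_infRing V) (s18_chart1 w)) :
    (s36q_chartMap (s34m_VV G φ M q hq hqM) V (s18_chart1 (L₀ := K₀) w₁)
      (s18_chart1 (L₀ := K₀) w)
      (γ : s34m_F K₀ (M * q) →+* s34m_F K₀ (M * q * q)) hγ).IsIntegral := by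
  intro y
  haveI := hgen
  haveI hgen₂ : FFGen K₀ (γ w₁) := s36p_ffGen_gen φ M q γ w₁ hgen
  -- `y` is integral over `A[γ w₁]`
  have hy1 : (y : s34m_F K₀ (M * q * q)) ∈
      s34x_ring (L₀ := K₀) (s34x_infRing V) (s18_chart1 (γ w₁)) :=
    ⟨y.2.1, fun Q hQ => y.2.2 Q (hsat' Q hQ)⟩
  obtain ⟨p, hp, h0⟩ := (s34x_mem_ring_iff G 𝓕₂ (γ w₁) V
    (s36p_const_mem_gen G φ M q hq hqM γ hVγ) (hVγ w₁ hwO)
    (s36p_alphaW_gen G φ M q hq hqM γ hne hcompl w₁ hα₁) (y : s34m_F K₀ (M * q * q))).mp hy1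
  -- `A[w₁] ⊆ B₁`
  set e₁ : G.A[X] →+*
      s34x_ring (L₀ := K₀) (s34x_infRing (s34m_VV G φ M q hq hqM)) (s18_chart1 w₁) :=
    (s18b_ev G 𝓕₁ w₁).codRestrict _ (fun s =>
      s34x_mem_ring_of_isIntegralElem G 𝓕₁ w₁ (s34m_VV G φ M q hq hqM)
        (fun i a => s34c_const_mem_VV G φ M q hq hqM i a) hwO _
        (s18b_ev G 𝓕₁ w₁).isIntegralElem_map) with he₁
  refine ⟨p.map e₁, hp.map _, ?_⟩
  apply Subtype.ext
  have hcomp : ((s34x_ring (L₀ := K₀) (s34x_infRing V) (s18_chart1 w)).subtype.comp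
      ((s36q_chartMap (s34m_VV G φ M q hq hqM) V (s18_chart1 (L₀ := K₀) w₁)
        (s18_chart1 (L₀ := K₀) w)
        (γ : s34m_F K₀ (M * q) →+* s34m_F K₀ (M * q * q)) hγ).comp e₁)) =
      s18b_ev G 𝓕₂ (γ w₁) := by
    have h := s36p_comp_ev G M q γ w₁
    refine RingHom.ext fun s => ?_
    exact RingHom.congr_fun h s
  have h1 := Polynomial.hom_eval₂ (p.map e₁)
    (s36q_chartMap (s34m_VV G φ M q hq hqM) V (s18_chart1 (L₀ := K₀) w₁)
      (s18_chart1 (L₀ := K₀) w)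
      (γ : s34m_F K₀ (M * q) →+* s34m_F K₀ (M * q * q)) hγ)
    (s34x_ring (L₀ := K₀) (s34x_infRing V) (s18_chart1 w)).subtype y
  rw [Polynomial.eval₂_map, Polynomial.eval₂_map, RingHom.comp_assoc, hcomp] at h1
  rw [Polynomial.eval₂_map]
  exact h1.trans h0

/-! ### The two degeneracy maps -/

omit [CharZero K₀] [IsDiscreteValuationRing G.A] in
/-- `β'` maps `V'_∞ ⊓ V'_0` into `⨅ V i`. -/
theorem s36p_beta_mem (hC : s36g_ValComap G φ M q hq hqM V) (x : s34m_F K₀ (M * q))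
    (hx : ∀ i, x ∈ s34m_VV G φ M q hq hqM i) (i : Fin 3) : s36g_beta M q x ∈ V i := by
  obtain ⟨-, -, h0, -, h1, -, h2⟩ := hC
  have e0 : x ∈ (V 0).comap (s36g_beta M q) ↔ s36g_beta M q x ∈ V 0 :=
    ValuationSubring.mem_comap
  have e1 : x ∈ (V 1).comap (s36g_beta M q) ↔ s36g_beta M q x ∈ V 1 :=
    ValuationSubring.mem_comap
  have e2 : x ∈ (V 2).comap (s36g_beta M q) ↔ s36g_beta M q x ∈ V 2 :=
    ValuationSubring.mem_comap
  rw [h0] at e0
  rw [h1] at e1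
  rw [h2] at e2
  fin_cases i
  · exact e0.mp (hx true)
  · exact e1.mp (hx false)
  · exact e2.mp (hx false)

omit [CharZero K₀] [IsDiscreteValuationRing G.A] in
/-- completeness along `α'` in the shape of `s36p_alphaW_gen`. -/
theorem s36p_compl_alpha (hCompl : s36g_ValComplete G φ M q hq hqM V)
    (U : ValuationSubring (s34m_F K₀ (M * q * q)))
    (hU : U.comap (s36g_alpha M q) = s34m_VV G φ M q hq hqM true ∨
      U.comap (s36g_alpha M q) = s34m_VV G φ M q hq hqM false) : ∃ i, U = V i := by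
  rcases hU with h | h
  · rcases hCompl.1 U h with h' | h'
    · exact ⟨0, h'⟩
    · exact ⟨1, h'⟩
  · exact ⟨2, hCompl.2.1 U h⟩

omit [CharZero K₀] [IsDiscreteValuationRing G.A] in
/-- completeness along `β'` in the shape of `s36p_alphaW_gen`. -/
theorem s36p_compl_beta (hCompl : s36g_ValComplete G φ M q hq hqM V)
    (U : ValuationSubring (s34m_F K₀ (M * q * q)))
    (hU : U.comap (s36g_beta M q) = s34m_VV G φ M q hq hqM true ∨
      U.comap (s36g_beta M q) = s34m_VV G φ M q hq hqM false) : ∃ i, U = V i := by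
  rcases hU with h | h
  · exact ⟨0, hCompl.2.2.2 U h⟩
  · rcases hCompl.2.2.1 U h with h' | h'
    · exact ⟨1, h'⟩
    · exact ⟨2, h'⟩

/-- **(α) for the family `V` w.r.t. `β'(w₁)`**. -/
theorem s36p_betaW (hC : s36g_ValComap G φ M q hq hqM V)
    (hCompl : s36g_ValComplete G φ M q hq hqM V) (hInd : s36g_ValIndep M q V)
    (w₁ : s34m_F K₀ (M * q)) (hα₁ : s34f_AlphaW G φ M q hq hqM w₁) :
    ∀ y ∈ s34x_infRing V, ∃ s : G.A[X], s.map G.π ≠ 0 ∧
      (s18b_ev G 𝓕₂ (s36g_beta M q w₁)).IsIntegralElem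
        (s18b_ev G 𝓕₂ (s36g_beta M q w₁) s * y) :=
  s36p_alphaW_gen G φ M q hq hqM (heckeBetaBar K₀ (M * q) q)
    (s36b_VV_ne G φ M q hq hqM hC hCompl hInd) (s36p_compl_beta G φ M q hq hqM hCompl) w₁ hα₁

/-- **`α'(B₁) ⊆ B₂`** for chart 1. -/
theorem s36p_chart1_alpha (hC : s36g_ValComap G φ M q hq hqM V)
    (w₁ : s34m_F K₀ (M * q)) (hB : s35g_BaseData G φ M q hq hqM w₁) :
    ∀ b ∈ s34x_ring (L₀ := K₀) (s34x_infRing (s34m_VV G φ M q hq hqM)) (s18_chart1 w₁),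
      s36g_alpha M q b ∈
        s34x_ring (L₀ := K₀) (s34x_infRing V) (s18_chart1 (s36g_alpha M q w₁)) := by
  obtain ⟨-, hgen, hwO, -, -, hα, -, -, -⟩ := hB
  exact s36p_chart_mem_gen G φ M q hq hqM (heckeAlphaBar K₀ (M * q) q)
    (fun x hx => s36b_alpha_mem G φ M q hq hqM hC x hx) w₁ hgen hwO hα _ (fun _ h => h)

/-- **`β'(B₁) ⊆ B₂`** for chart 1, if the chart `{α' w₁ regular}` is `β'`-saturated. -/
theorem s36p_chart1_beta (hC : s36g_ValComap G φ M q hq hqM V)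
    (w₁ : s34m_F K₀ (M * q)) (hB : s35g_BaseData G φ M q hq hqM w₁)
    (hsat : ∀ Q : Place K₀ (s34m_F K₀ (M * q * q)),
      s36g_alpha M q w₁ ∈ Q.toValuationSubring → s36g_beta M q w₁ ∈ Q.toValuationSubring) :
    ∀ b ∈ s34x_ring (L₀ := K₀) (s34x_infRing (s34m_VV G φ M q hq hqM)) (s18_chart1 w₁),
      s36g_beta M q b ∈
        s34x_ring (L₀ := K₀) (s34x_infRing V) (s18_chart1 (s36g_alpha M q w₁)) := by
  obtain ⟨-, hgen, hwO, -, -, hα, -, -, -⟩ := hB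
  exact s36p_chart_mem_gen G φ M q hq hqM (heckeBetaBar K₀ (M * q) q)
    (fun x hx => s36p_beta_mem G φ M q hq hqM hC x hx) w₁ hgen hwO hα _ hsat

/-- **(INT) for `α'`**: `B₂` is integral over `α'(B₁)` (chart 1). -/
theorem s36p_chart1_int_alpha (hC : s36g_ValComap G φ M q hq hqM V)
    (hCompl : s36g_ValComplete G φ M q hq hqM V) (hInd : s36g_ValIndep M q V)
    (w₁ : s34m_F K₀ (M * q)) (hB : s35g_BaseData G φ M q hq hqM w₁)
    (hγ : ∀ b ∈ s34x_ring (L₀ := K₀) (s34x_infRing (s34m_VV G φ M q hq hqM)) (s18_chart1 w₁),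
      s36g_alpha M q b ∈
        s34x_ring (L₀ := K₀) (s34x_infRing V) (s18_chart1 (s36g_alpha M q w₁))) :
    (s36q_chartMap (s34m_VV G φ M q hq hqM) V (s18_chart1 (L₀ := K₀) w₁)
      (s18_chart1 (L₀ := K₀) (s36g_alpha M q w₁)) (s36g_alpha M q) hγ).IsIntegral := by
  obtain ⟨-, hgen, hwO, -, -, hα, -, -, -⟩ := hB
  exact s36p_chart_int_gen G φ M q hq hqM (heckeAlphaBar K₀ (M * q) q)
    (fun x hx => s36b_alpha_mem G φ M q hq hqM hC x hx)
    (s36b_VV_ne G φ M q hq hqM hC hCompl hInd) (s36p_compl_alpha G φ M q hq hqM hCompl)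
    w₁ hgen hwO hα _ (fun _ h => h) hγ

/-- **(INT) for `β'`**: `B₂` is integral over `β'(B₁)` (chart 1), if `{β' w₁ regular}` is contained
in the chart `{α' w₁ regular}`. -/
theorem s36p_chart1_int_beta (hC : s36g_ValComap G φ M q hq hqM V)
    (hCompl : s36g_ValComplete G φ M q hq hqM V) (hInd : s36g_ValIndep M q V)
    (w₁ : s34m_F K₀ (M * q)) (hB : s35g_BaseData G φ M q hq hqM w₁)
    (hsat' : ∀ Q : Place K₀ (s34m_F K₀ (M * q * q)),
      s36g_beta M q w₁ ∈ Q.toValuationSubring → s36g_alpha M q w₁ ∈ Q.toValuationSubring)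
    (hγ : ∀ b ∈ s34x_ring (L₀ := K₀) (s34x_infRing (s34m_VV G φ M q hq hqM)) (s18_chart1 w₁),
      s36g_beta M q b ∈
        s34x_ring (L₀ := K₀) (s34x_infRing V) (s18_chart1 (s36g_alpha M q w₁))) :
    (s36q_chartMap (s34m_VV G φ M q hq hqM) V (s18_chart1 (L₀ := K₀) w₁)
      (s18_chart1 (L₀ := K₀) (s36g_alpha M q w₁)) (s36g_beta M q) hγ).IsIntegral := by
  obtain ⟨-, hgen, hwO, -, -, hα, -, -, -⟩ := hB
  exact s36p_chart_int_gen G φ M q hq hqM (heckeBetaBar K₀ (M * q) q)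
    (fun x hx => s36p_beta_mem G φ M q hq hqM hC x hx)
    (s36b_VV_ne G φ M q hq hqM hC hCompl hInd) (s36p_compl_beta G φ M q hq hqM hCompl)
    w₁ hgen hwO hα _ hsat' hγ

end Fermat.Agent.Lib.S36
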