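/-
S36 mega-project, layer (X1) (helper1), part 10: **Lemma (⋆) at level `M q²`**.

helper7's abstract Lemma (⋆) (`s34d2_star_abs_pow`, `S34/DStar.lean`) instantiated with
`O = ⨅ V i` (the three vertical valuation rings of level `M q²`) and the pairs
`(j, u) ∈ {(j₀, j₁), (j₁, j₀), (j₁, j₂), (j₂, j₁)}` (`j₀ = j(z)`, `j₁ = j(qz)`, `j₂ = j(q²z)`):

  a place `Q` of the chart `{j ≠ 0}` with `u(Q) = 0` has NO centre on the special fibre of the chart:
  `∀ k, ∃ s ∈ B, (s = 0 ∨ k ≤ ord_Q s) ∧ ∃ z ∈ B, 1 - s = ϖ z`, `B = s34x_ring (⨅ V) (chart2 j)`.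

* `s36b_StarPair V ϖ a b` : this statement for a pair `(a, b)` of functions;
* `s36b_hKK_01`, `s36b_hKK_12` : the Kronecker congruences in product form in `⨅ V i`;
* `s36b_int_01/_10/_12/_21` : mutual integrality over `ℤ[·]`;
* `s36b_star_01/_10/_12/_21` : the four instances;
* `s36b_starPair_of_sat` : the statement is vacuous if `chart2 a ⊆ chart2 b` (the saturated case of
  the base functions `t₂`, `t₃`).
-/
import Fermat.Agent.Lib.S36.XCuspInst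
import Fermat.Agent.Lib.S36.PChart
import Fermat.Agent.Lib.S34.DStarInst

set_option autoImplicit false
set_option linter.unusedSectionVars false
set_option linter.style.haveILetI false

noncomputable section

namespace Fermat.Agent.Lib.S36

open ModularCurve AlgebraicCurve HahnSeries Fermat.Agent.Lib.FF Fermat.Agent.Lib.S18
  Fermat.Agent.Lib.S28 Fermat.Agent.Lib.S37 Fermat.Agent.Lib.S34

local notation "Kb" => AlgebraicClosure ℚ

/-! ### The abstract statement -/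

section Abs

variable {L₀ 𝓕 : Type*} [Field L₀] [Field 𝓕] [Algebra L₀ 𝓕]

/-- **(⋆) for the pair `(a, b)`**: the zeros of `b` in the chart `{a ≠ 0}` have no centre on the
special fibre `ϖ = 0` of the chart. -/
def s36b_StarPair {ι : Type*} (O : ι → ValuationSubring 𝓕) (ϖ a b : 𝓕) : Prop :=
  ∀ Q : Place L₀ 𝓕, Q ∈ s18_chart2 (L₀ := L₀) a → 0 < Q.ord b → ∀ k : ℕ,
    ∃ s ∈ s34x_ring (s34x_infRing O) (s18_chart2 (L₀ := L₀) a), (s = 0 ∨ (k : ℤ) ≤ Q.ord s) ∧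
      ∃ z ∈ s34x_ring (s34x_infRing O) (s18_chart2 (L₀ := L₀) a), 1 - s = ϖ * z

/-- (⋆) is vacuous if the chart `{a ≠ 0}` is contained in the chart `{b ≠ 0}`. -/
theorem s36b_starPair_of_sat {ι : Type*} (O : ι → ValuationSubring 𝓕) (ϖ a b : 𝓕)
    (hb0 : b ≠ 0)
    (hsat : ∀ Q : Place L₀ 𝓕, a⁻¹ ∈ Q.toValuationSubring → b⁻¹ ∈ Q.toValuationSubring) :
    s36b_StarPair (L₀ := L₀) O ϖ a b := by
  intro Q hQ hpos k
  exfalso
  have h1 := hsat Q hQ
  have h2 := (ff_mem_iff_ord_nonneg Q (inv_ne_zero hb0)).mp h1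
  rw [Q.ord_inv] at h2
  omega

end Abs

/-! ### Level `M q²` -/

section Level

variable {K₀ : Type} [Field K₀] [Algebra ℚ K₀] {κ : Type} [Field κ] (G : s18g_GaussData K₀ κ)
  (φ : K₀ →+* Kb) (M q : ℕ) [NeZero M] [NeZero q] (hq : q.Prime) (hqM : ¬ q ∣ M)
  {V : Fin 3 → ValuationSubring (s34m_F K₀ (M * q * q))}

theorem s36b_alpha_unif :
    s36g_alpha M q (s34m_unif G (M * q)) = s34m_unif G (M * q * q) :=
  (heckeAlphaBar K₀ (M * q) q).commutes _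

theorem s36b_beta_unif :
    s36g_beta M q (s34m_unif G (M * q)) = s34m_unif G (M * q * q) :=
  (heckeBetaBar K₀ (M * q) q).commutes _

/-- `j₁ = α'(u)`, `u = βj` of level `M q`. -/
theorem s36b_j1_eq_alpha_u : s36b_j1 (K₀ := K₀) M q = s36g_alpha M q (s34d2_u M q) := rfl

/-- `j₂ = β'(u)`. -/
theorem s36b_j2_eq_beta_u : s36b_j2 (K₀ := K₀) M q = s36g_beta M q (s34d2_u M q) := rfl

/-! #### Integrality -/

/-- `j₁` is integral over `ℤ[j₀]`. -/
theorem s36b_int_01 : s28d_IntOver (s36b_j0 (K₀ := K₀) M q) (s36b_j1 (K₀ := K₀) M q) := by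
  have h := s28d_intOver_map (s36g_alpha M q) (s34d2_intOver_u (K₀ := K₀) M q)
  rw [← s36b_j0_eq] at h
  exact h

include φ hq hqM in
/-- `j₀` is integral over `ℤ[j₁]`. -/
theorem s36b_int_10 : s28d_IntOver (s36b_j1 (K₀ := K₀) M q) (s36b_j0 (K₀ := K₀) M q) := by
  have h := s28d_intOver_map (s36g_alpha M q) (s34d2_intOver_j (K₀ := K₀) φ M q hq hqM)
  rw [← s36b_j0_eq] at h
  exact h

/-- `j₂` is integral over `ℤ[j₁]`. -/
theorem s36b_int_12 : s28d_IntOver (s36b_j1 (K₀ := K₀) M q) (s36b_j2 (K₀ := K₀) M q) := by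
  have h := s28d_intOver_map (s36g_beta M q) (s34d2_intOver_u (K₀ := K₀) M q)
  rw [← s36b_j1_eq] at h
  exact h

include φ hq hqM in
/-- `j₁` is integral over `ℤ[j₂]`. -/
theorem s36b_int_21 : s28d_IntOver (s36b_j2 (K₀ := K₀) M q) (s36b_j1 (K₀ := K₀) M q) := by
  have h := s28d_intOver_map (s36g_beta M q) (s34d2_intOver_j (K₀ := K₀) φ M q hq hqM)
  rw [← s36b_j1_eq] at h
  exact h

/-! #### Kronecker in product form -/

variable [CharP κ q]

include φ hq hqM in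
/-- `(j₁ - j₀ᵠ)(j₀ - j₁ᵠ) ∈ ϖ ⨅ V`. -/
theorem s36b_hKK_01 (hC : s36g_ValComap G φ M q hq hqM V) :
    ∃ z ∈ s34x_infRing V,
      (s36b_j1 (K₀ := K₀) M q - s36b_j0 (K₀ := K₀) M q ^ q) *
        (s36b_j0 (K₀ := K₀) M q - s36b_j1 (K₀ := K₀) M q ^ q) =
      s34m_unif G (M * q * q) * z := by
  obtain ⟨z, hz, e⟩ := s34d2_hKK G φ M q hq hqM
  refine ⟨s36g_alpha M q z, (s34x_mem_infRing V _).mpr fun i =>
    s36b_alpha_mem G φ M q hq hqM hC z ((s34x_mem_infRing _ _).mp hz) i, ?_⟩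
  have h := congrArg (s36g_alpha M q) e
  rw [map_mul, map_mul, map_sub, map_sub, map_pow, map_pow, s36b_alpha_unif, ← s36b_j0_eq] at h
  exact h

include φ hq hqM in
/-- `(j₂ - j₁ᵠ)(j₁ - j₂ᵠ) ∈ ϖ ⨅ V`. -/
theorem s36b_hKK_12 (hC : s36g_ValComap G φ M q hq hqM V) :
    ∃ z ∈ s34x_infRing V,
      (s36b_j2 (K₀ := K₀) M q - s36b_j1 (K₀ := K₀) M q ^ q) *
        (s36b_j1 (K₀ := K₀) M q - s36b_j2 (K₀ := K₀) M q ^ q) =
      s34m_unif G (M * q * q) * z := by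
  obtain ⟨z, hz, e⟩ := s34d2_hKK G φ M q hq hqM
  refine ⟨s36g_beta M q z, (s34x_mem_infRing V _).mpr fun i =>
    s36p_beta_mem G φ M q hq hqM hC z ((s34x_mem_infRing _ _).mp hz) i, ?_⟩
  have h := congrArg (s36g_beta M q) e
  rw [map_mul, map_mul, map_sub, map_sub, map_pow, map_pow, s36b_beta_unif, ← s36b_j1_eq] at h
  exact h

/-! #### The four instances of (⋆) -/

include φ hq hqM in
/-- **(⋆) for `(j₀, j₁)`**: zeros of `j₁` in the chart `{j₀ ≠ 0}`. -/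
theorem s36b_star_01 (hC : s36g_ValComap G φ M q hq hqM V) :
    s36b_StarPair (L₀ := K₀) V (s34m_unif G (M * q * q)) (s36b_j0 (K₀ := K₀) M q)
      (s36b_j1 (K₀ := K₀) M q) := by
  obtain ⟨h0, h1, -⟩ := s36b_j_units G φ M q hq hqM hC
  intro Q hQ2 hQu k
  exact s34d2_star_abs_pow _ _ _ _ q hq.pos (s34m_unif_ne_zero G (M * q * q))
    (fun Q => ff_ord_algebraMap Q _) (s36b_j0_ne_zero M q)
    ((s34x_mem_infRing V _).mpr fun i => (h0 i).2)
    ((s34x_mem_infRing V _).mpr fun i => (h1 i).1)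
    (s36b_hKK_01 G φ M q hq hqM hC) (s36b_int_01 M q) (s36b_int_10 φ M q hq hqM) Q hQ2 hQu k

include φ hq hqM in
/-- **(⋆) for `(j₁, j₀)`**: zeros of `j₀` in the chart `{j₁ ≠ 0}`. -/
theorem s36b_star_10 (hC : s36g_ValComap G φ M q hq hqM V) :
    s36b_StarPair (L₀ := K₀) V (s34m_unif G (M * q * q)) (s36b_j1 (K₀ := K₀) M q)
      (s36b_j0 (K₀ := K₀) M q) := by
  obtain ⟨h0, h1, -⟩ := s36b_j_units G φ M q hq hqM hC
  obtain ⟨z, hz, e⟩ := s36b_hKK_01 G φ M q hq hqM hC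
  intro Q hQ2 hQu k
  exact s34d2_star_abs_pow _ _ _ _ q hq.pos (s34m_unif_ne_zero G (M * q * q))
    (fun Q => ff_ord_algebraMap Q _) (s36b_j1_ne_zero M q)
    ((s34x_mem_infRing V _).mpr fun i => (h1 i).2)
    ((s34x_mem_infRing V _).mpr fun i => (h0 i).1)
    ⟨z, hz, (mul_comm _ _).trans e⟩ (s36b_int_10 φ M q hq hqM) (s36b_int_01 M q) Q hQ2 hQu k

include φ hq hqM in
/-- **(⋆) for `(j₁, j₂)`**: zeros of `j₂` in the chart `{j₁ ≠ 0}`. -/
theorem s36b_star_12 (hC : s36g_ValComap G φ M q hq hqM V) :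
    s36b_StarPair (L₀ := K₀) V (s34m_unif G (M * q * q)) (s36b_j1 (K₀ := K₀) M q)
      (s36b_j2 (K₀ := K₀) M q) := by
  obtain ⟨-, h1, h2⟩ := s36b_j_units G φ M q hq hqM hC
  intro Q hQ2 hQu k
  exact s34d2_star_abs_pow _ _ _ _ q hq.pos (s34m_unif_ne_zero G (M * q * q))
    (fun Q => ff_ord_algebraMap Q _) (s36b_j1_ne_zero M q)
    ((s34x_mem_infRing V _).mpr fun i => (h1 i).2)
    ((s34x_mem_infRing V _).mpr fun i => (h2 i).1)
    (s36b_hKK_12 G φ M q hq hqM hC) (s36b_int_12 M q) (s36b_int_21 φ M q hq hqM) Q hQ2 hQu k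

include φ hq hqM in
/-- **(⋆) for `(j₂, j₁)`**: zeros of `j₁` in the chart `{j₂ ≠ 0}`. -/
theorem s36b_star_21 (hC : s36g_ValComap G φ M q hq hqM V) :
    s36b_StarPair (L₀ := K₀) V (s34m_unif G (M * q * q)) (s36b_j2 (K₀ := K₀) M q)
      (s36b_j1 (K₀ := K₀) M q) := by
  obtain ⟨-, h1, h2⟩ := s36b_j_units G φ M q hq hqM hC
  obtain ⟨z, hz, e⟩ := s36b_hKK_12 G φ M q hq hqM hC
  intro Q hQ2 hQu k
  exact s34d2_star_abs_pow _ _ _ _ q hq.pos (s34m_unif_ne_zero G (M * q * q))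
    (fun Q => ff_ord_algebraMap Q _) (s36b_j2_ne_zero M q)
    ((s34x_mem_infRing V _).mpr fun i => (h2 i).2)
    ((s34x_mem_infRing V _).mpr fun i => (h1 i).1)
    ⟨z, hz, (mul_comm _ _).trans e⟩ (s36b_int_21 φ M q hq hqM) (s36b_int_12 M q) Q hQ2 hQu k

end Level

end Fermat.Agent.Lib.S36
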