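/-
S36 mega-project, layer (X1) (helper1), part 12: **the polar points of chart 2 — consequences of
Lemma (⋆)** (`XStar.lean`) **and of the chart change** (`XChartChange.lean`).

* `s36b_noCentre_of_starPair` : (⋆) for `(a, b)` is the hypothesis `s36b_NoCentre` of the chart
  change between `chart2 a` and `chart2 b`;
* `s36b_mid_ratio_abs` (abstract): at a point `𝔫` with `1/W₀ ∈ 𝔪(B_𝔫)`, `1/W₂ ∈ B_𝔫`, on a component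
  where `W₁ ≡ W₀ᵠ`, `W₁ ≡ W₂ᵠ`, `W₂ ≡ W₀`: `W₂ / W₀ ∈ B_𝔫ˣ`;
* level `M q²`, chart `{j₀ ≠ 0}`, `𝔫 ∋ ϖ` prime: `s36b_inv_j1_mem`, `s36b_inv_j2_mem`
  (`1/j₁, 1/j₂ ∈ B_𝔫`), `s36b_polar_change_j` (chart change `{j₀ ≠ 0} ↔ {j₁ ≠ 0}`);
* **`s36b_mid_ratio_j`** : `j₂ / j₀ ∈ B_𝔫ˣ` at a polar `𝔫 ∋ ϖ` with `V 1` through it;
  **`s36b_mid_ell_j`** : `∃ ℓ : B_𝔫, ι ℓ = t / j₀` (`t = j₂ - j₀`), the `ℓ` of helper2's
  `s36e_mid_reg`.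
-/
import Fermat.Agent.Lib.S36.XStar
import Fermat.Agent.Lib.S36.XChartChange
import Fermat.Agent.Lib.S36.MContracts

set_option autoImplicit false
set_option linter.unusedSectionVars false
set_option linter.style.haveILetI false

noncomputable section

namespace Fermat.Agent.Lib.S36

open ModularCurve AlgebraicCurve HahnSeries Fermat.Agent.Lib.FF Fermat.Agent.Lib.S18
  Fermat.Agent.Lib.S28 Fermat.Agent.Lib.S37 Fermat.Agent.Lib.S34 IsLocalRing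

local notation "Kb" => AlgebraicClosure ℚ

/-! ### Abstract part -/

section Abs

variable {L₀ 𝓕 : Type*} [Field L₀] [Field 𝓕] [Algebra L₀ 𝓕]

/-- (⋆) for `(a, b)` gives the chart-change hypothesis from `{a ≠ 0}` to `{b ≠ 0}`. -/
theorem s36b_noCentre_of_starPair {ι : Type*} (O : ι → ValuationSubring 𝓕) (ϖ a b : 𝓕)
    (hb0 : b ≠ 0) (h : s36b_StarPair (L₀ := L₀) O ϖ a b) :
    s36b_NoCentre O (s18_chart2 (L₀ := L₀) a) (s18_chart2 (L₀ := L₀) b) ϖ := by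
  intro Q hQa hQb k
  refine h Q hQa ?_ k
  by_contra hle
  apply hQb
  show b⁻¹ ∈ Q.toValuationSubring
  rw [ff_mem_iff_ord_nonneg Q (inv_ne_zero hb0), Q.ord_inv]
  omega

variable {ι : Type*} [Fintype ι] (O : ι → ValuationSubring 𝓕) (S : Set (Place L₀ 𝓕))
  (𝔫 : Ideal (s34x_ring (s34x_infRing O) S)) [h𝔫 : 𝔫.IsPrime]

/-- a unit of `B_𝔫` has neither zero nor pole at a place through `𝔫`. -/
theorem s36b_ord_unit (Z : Localization.AtPrime 𝔫) (hZ : IsUnit Z) (Q : Place L₀ 𝓕)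
    (hQS : Q ∈ S) (hth : s34f_through (s34x_infRing O) S 𝔫 Q) :
    Q.ord (s34f_iota (s34x_infRing O) S 𝔫 Z) = 0 := by
  obtain ⟨W, hW⟩ := hZ.exists_right_inv
  have h1 := congrArg (s34f_iota (s34x_infRing O) S 𝔫) hW
  rw [map_mul, map_one] at h1
  have hZ0 : s34f_iota (s34x_infRing O) S 𝔫 Z ≠ 0 := left_ne_zero_of_mul_eq_one h1
  have hW0 : s34f_iota (s34x_infRing O) S 𝔫 W ≠ 0 := right_ne_zero_of_mul_eq_one h1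
  have h2 := s34f_iota_ord_nonneg (s34x_infRing O) S 𝔫 Z Q hQS hth
  have h3 := s34f_iota_ord_nonneg (s34x_infRing O) S 𝔫 W Q hQS hth
  have h4 := Q.ord_mul hZ0 hW0
  rw [h1, Place.ord_one] at h4
  omega

/-- **`W₂ / W₀ ∈ B_𝔫ˣ`** at a polar point on a component of "middle" type. -/
theorem s36b_mid_ratio_abs (hA : s36q_Arch O)
    (F3 : ∀ y : 𝓕, y ≠ 0 → {Q : Place L₀ 𝓕 | Q ∈ S ∧ Q.ord y ≠ 0}.Finite)
    (q : ℕ) (hq : 1 ≤ q) (W₀ W₁ W₂ : 𝓕) (h0 : W₀ ≠ 0) (h1 : W₁ ≠ 0) (h2 : W₂ ≠ 0)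
    (hU0 : ∀ k, W₀ ∈ O k ∧ W₀⁻¹ ∈ O k) (hU1 : ∀ k, W₁ ∈ O k ∧ W₁⁻¹ ∈ O k)
    (hU2 : ∀ k, W₂ ∈ O k ∧ W₂⁻¹ ∈ O k)
    (i : ι) (hi : s36q_compThrough O S 𝔫 i)
    (ca : W₁ - W₀ ^ q ∈ (O i).nonunits) (cb : W₁ - W₂ ^ q ∈ (O i).nonunits)
    (cc : W₂ - W₀ ∈ (O i).nonunits)
    (r10 : ∀ Q ∈ S, W₀⁻¹ ∈ Q.toValuationSubring → W₁ * W₀⁻¹ ^ q ∈ Q.toValuationSubring)
    (r12 : ∀ Q ∈ S, W₂⁻¹ ∈ Q.toValuationSubring → W₁ * W₂⁻¹ ^ q ∈ Q.toValuationSubring)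
    (z₀ : Localization.AtPrime 𝔫) (hz₀m : z₀ ∈ maximalIdeal (Localization.AtPrime 𝔫))
    (hz₀ : s34f_iota (s34x_infRing O) S 𝔫 z₀ = W₀⁻¹)
    (z₂ : Localization.AtPrime 𝔫) (hz₂ : s34f_iota (s34x_infRing O) S 𝔫 z₂ = W₂⁻¹) :
    ∃ Z : Localization.AtPrime 𝔫, IsUnit Z ∧
      s34f_iota (s34x_infRing O) S 𝔫 Z = W₂ * W₀⁻¹ := by
  have hO : ∀ (x y : 𝓕), (∀ k, x ∈ O k) → (∀ k, y⁻¹ ∈ O k) → ∀ k, x * y⁻¹ ^ q ∈ O k :=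
    fun x y hx hy k => (O k).mul_mem _ _ (hx k) (pow_mem (hy k) q)
  obtain ⟨⟨Z10, hZ10u, hZ10⟩, -⟩ := s36b_cusp_step O S 𝔫 hA F3 q hq W₁ W₀ h1 h0
    (hO W₁ W₀ (fun k => (hU1 k).1) (fun k => (hU0 k).2)) r10 z₀ hz₀m hz₀ i hi
    (s36b_cong_one_of_kron (O i) q h0 (hU0 i).2 ca)
  obtain ⟨Z12, hZ12⟩ := s36b_cusp_lift O S 𝔫 hA F3 q W₁ W₂ h1 h2
    (hO W₁ W₂ (fun k => (hU1 k).1) (fun k => (hU2 k).2)) r12 z₂ hz₂
  have hZ12u : IsUnit Z12 := s36b_isUnit_of_cong_one O S 𝔫 i hi Z12 (by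
    rw [hZ12]; exact s36b_cong_one_of_kron (O i) q h2 (hU2 i).2 cb)
  have hne : W₂ * W₀⁻¹ ≠ 0 := mul_ne_zero h2 (inv_ne_zero h0)
  have hord : ∀ Q ∈ S, s34f_through (s34x_infRing O) S 𝔫 Q → Q.ord (W₂ * W₀⁻¹) = 0 := by
    intro Q hQS hth
    have e1 := s36b_ord_unit O S 𝔫 Z10 hZ10u Q hQS hth
    have e2 := s36b_ord_unit O S 𝔫 Z12 hZ12u Q hQS hth
    rw [hZ10, Q.ord_mul h1 (pow_ne_zero _ (inv_ne_zero h0)), s36b_ord_pow, Q.ord_inv] at e1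
    rw [hZ12, Q.ord_mul h1 (pow_ne_zero _ (inv_ne_zero h2)), s36b_ord_pow, Q.ord_inv] at e2
    rw [Q.ord_mul h2 (inv_ne_zero h0), Q.ord_inv]
    have e3 : (q : ℤ) * (Q.ord W₂ - Q.ord W₀) = 0 := by linarith
    have hq0 : (q : ℤ) ≠ 0 := by
      have : (1 : ℤ) ≤ q := by exact_mod_cast hq
      omega
    have := (mul_eq_zero.mp e3).resolve_left hq0
    omega
  obtain ⟨Z, hZ⟩ := s36q_exists_iota_eq O S 𝔫 hA (W₂ * W₀⁻¹)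
    (fun k _ => (O k).mul_mem _ _ (hU2 k).1 (hU0 k).2)
    (fun Q hQS hth => (hord Q hQS hth).ge)
    ((F3 _ hne).subset fun Q hQ => ⟨hQ.1, ne_of_lt hQ.2⟩)
  refine ⟨Z, s36b_isUnit_of_cong_one O S 𝔫 i hi Z ?_, hZ⟩
  rw [hZ]
  have e : W₂ * W₀⁻¹ - 1 = (W₂ - W₀) * W₀⁻¹ := by
    rw [sub_mul, mul_inv_cancel₀ h0]
  rw [e]
  exact s36y_mul_mem_nonunits' (O i) cc (hU0 i).2

end Abs

/-! ### Level `M q²`, the `j`-branch -/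

section Level

variable {K₀ : Type} [Field K₀] [Algebra ℚ K₀] {κ : Type} [Field κ] (G : s18g_GaussData K₀ κ)
  (φ : K₀ →+* Kb) (M q : ℕ) [NeZero M] [NeZero q] (hq : q.Prime) (hqM : ¬ q ∣ M)
  {V : Fin 3 → ValuationSubring (s34m_F K₀ (M * q * q))}

include φ in
/-- the poles of a nonzero function of level `M q²` are finite in number. -/
theorem s36b_finite_neg (y : s34m_F K₀ (M * q * q)) (hy : y ≠ 0) :
    {Q : Place K₀ (s34m_F K₀ (M * q * q)) | Q.ord y < 0}.Finite :=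
  (s34d2_finite_ord_ne_zero φ (M * q * q) y hy).subset fun _ hQ => ne_of_lt hQ

include φ in
/-- the zeros and poles of a nonzero function of level `M q²` in a chart are finite in number. -/
theorem s36b_finite_chart (S : Set (Place K₀ (s34m_F K₀ (M * q * q))))
    (y : s34m_F K₀ (M * q * q)) (hy : y ≠ 0) :
    {Q : Place K₀ (s34m_F K₀ (M * q * q)) | Q ∈ S ∧ Q.ord y ≠ 0}.Finite :=
  (s34d2_finite_ord_ne_zero φ (M * q * q) y hy).subset fun _ hQ => hQ.2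

/-- `t = j₂ - j₀`. -/
theorem s36b_t_eq : s36m_t (K₀ := K₀) M q = s36b_j2 (K₀ := K₀) M q - s36b_j0 (K₀ := K₀) M q :=
  rfl

variable [CharP κ q] [CharZero K₀] [IsDiscreteValuationRing G.A]

include φ hq hqM in
/-- **`B(chart2 j₂) ⊆ B_𝔫`** at a prime `𝔫 ∋ ϖ` of the chart `{j₀ ≠ 0}` (two chart changes:
`{j₀ ≠ 0} → {j₁ ≠ 0} → {j₂ ≠ 0}`, Lemma (⋆)). -/
theorem s36b_localIn_02 (hC : s36g_ValComap G φ M q hq hqM V)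
    (𝔫 : Ideal (s34x_ring (s34x_infRing V) (s18_chart2 (L₀ := K₀) (s36b_j0 (K₀ := K₀) M q))))
    [h𝔫 : 𝔫.IsPrime]
    (hϖ : s34x_const (s34x_infRing V) (s18_chart2 (L₀ := K₀) (s36b_j0 (K₀ := K₀) M q))
      ((G.ϖ : G.A) : K₀)
      (s34x_inf_const_mem V G.A (s36b_const_mem G φ M q hq hqM hC) G.ϖ) ∈ 𝔫) :
    s36b_LocalIn V (s18_chart2 (L₀ := K₀) (s36b_j0 (K₀ := K₀) M q))
      (s18_chart2 (L₀ := K₀) (s36b_j2 (K₀ := K₀) M q)) 𝔫 := by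
  have hfin := s36b_finite_neg (K₀ := K₀) φ M q
  have hcm := s34x_inf_const_mem V G.A (s36b_const_mem G φ M q hq hqM hC) G.ϖ
  have hϖB : ∀ S : Set (Place K₀ (s34m_F K₀ (M * q * q))),
      s34m_unif G (M * q * q) ∈ s34x_ring (s34x_infRing V) S := fun S =>
    (s34x_const (s34x_infRing V) S ((G.ϖ : G.A) : K₀) hcm).2
  have hin01 : s36b_LocalIn V (s18_chart2 (L₀ := K₀) (s36b_j0 (K₀ := K₀) M q))
      (s18_chart2 (L₀ := K₀) (s36b_j1 (K₀ := K₀) M q)) 𝔫 :=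
    s36b_cc_exists 𝔫 (s36b_noCentre_of_starPair V _ _ _ (s36b_j1_ne_zero M q)
      (s36b_star_01 G φ M q hq hqM hC)) hfin (hϖB _) hϖ
  have hϖ₁ := s36b_unif_mem_ccIdeal 𝔫 hin01 (hϖB _) hϖ (hϖB _)
  have hin12 : s36b_LocalIn V (s18_chart2 (L₀ := K₀) (s36b_j1 (K₀ := K₀) M q))
      (s18_chart2 (L₀ := K₀) (s36b_j2 (K₀ := K₀) M q)) (s36b_ccIdeal 𝔫 hin01) :=
    s36b_cc_exists _ (s36b_noCentre_of_starPair V _ _ _ (s36b_j2_ne_zero M q)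
      (s36b_star_12 G φ M q hq hqM hC)) hfin (hϖB _) hϖ₁
  intro b' hb'
  obtain ⟨z', hz'⟩ := hin12 b' hb'
  obtain ⟨z, hz, -⟩ := s36b_cc_le 𝔫 hin01 z'
  exact ⟨z, hz.trans hz'⟩

include φ hq hqM in
/-- `1/j₂ ∈ B_𝔫` at a prime `𝔫 ∋ ϖ` of the chart `{j₀ ≠ 0}`. -/
theorem s36b_inv_j2_mem (hC : s36g_ValComap G φ M q hq hqM V)
    (𝔫 : Ideal (s34x_ring (s34x_infRing V) (s18_chart2 (L₀ := K₀) (s36b_j0 (K₀ := K₀) M q))))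
    [h𝔫 : 𝔫.IsPrime]
    (hϖ : s34x_const (s34x_infRing V) (s18_chart2 (L₀ := K₀) (s36b_j0 (K₀ := K₀) M q))
      ((G.ϖ : G.A) : K₀)
      (s34x_inf_const_mem V G.A (s36b_const_mem G φ M q hq hqM hC) G.ϖ) ∈ 𝔫) :
    ∃ z : Localization.AtPrime 𝔫,
      s34f_iota (s34x_infRing V) (s18_chart2 (L₀ := K₀) (s36b_j0 (K₀ := K₀) M q)) 𝔫 z =
        (s36b_j2 (K₀ := K₀) M q)⁻¹ := by
  obtain ⟨-, -, h2⟩ := s36b_j_units G φ M q hq hqM hC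
  exact s36b_localIn_02 G φ M q hq hqM hC 𝔫 hϖ _
    ⟨(s34x_mem_infRing V _).mpr fun i => (h2 i).2, fun Q hQ => hQ⟩

include φ hq hqM in
/-- **`j₂ / j₀ ∈ B_𝔫ˣ`** at a polar prime `𝔫 ∋ ϖ` of the chart `{j₀ ≠ 0}` through which the middle
component passes. -/
theorem s36b_mid_ratio_j (hC : s36g_ValComap G φ M q hq hqM V)
    (hU : s36g_ValUnif G M q V (s36m_t (K₀ := K₀) M q))
    (𝔫 : Ideal (s34x_ring (s34x_infRing V) (s18_chart2 (L₀ := K₀) (s36b_j0 (K₀ := K₀) M q))))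
    [h𝔫 : 𝔫.IsPrime]
    (hϖ : s34x_const (s34x_infRing V) (s18_chart2 (L₀ := K₀) (s36b_j0 (K₀ := K₀) M q))
      ((G.ϖ : G.A) : K₀)
      (s34x_inf_const_mem V G.A (s36b_const_mem G φ M q hq hqM hC) G.ϖ) ∈ 𝔫)
    (hpol : ∃ b ∈ 𝔫, (b : s34m_F K₀ (M * q * q)) = (s36b_j0 (K₀ := K₀) M q)⁻¹)
    (h1 : s36q_compThrough V (s18_chart2 (L₀ := K₀) (s36b_j0 (K₀ := K₀) M q)) 𝔫 1) :
    ∃ Z : Localization.AtPrime 𝔫, IsUnit Z ∧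
      s34f_iota (s34x_infRing V) (s18_chart2 (L₀ := K₀) (s36b_j0 (K₀ := K₀) M q)) 𝔫 Z =
        s36b_j2 (K₀ := K₀) M q * (s36b_j0 (K₀ := K₀) M q)⁻¹ := by
  obtain ⟨hU0, hU1, hU2⟩ := s36b_j_units G φ M q hq hqM hC
  obtain ⟨-, -, c1a, c1b, -, -⟩ := s36b_kron₂ G φ M q hq hqM hC
  obtain ⟨z₂, hz₂⟩ := s36b_inv_j2_mem G φ M q hq hqM hC 𝔫 hϖ
  obtain ⟨b, hb, hbj⟩ := hpol
  have hcc : s36b_j2 (K₀ := K₀) M q - s36b_j0 (K₀ := K₀) M q ∈ (V 1).nonunits := by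
    rw [← s36b_t_eq]
    exact hU.2.2.2.1
  refine s36b_mid_ratio_abs V _ 𝔫 (s36b_arch G M q hq hU)
    (s36b_finite_chart (K₀ := K₀) φ M q _) q hq.one_le _ _ _
    (s36b_j0_ne_zero M q) (s36b_j1_ne_zero M q) (s36b_j2_ne_zero M q) hU0 hU1 hU2 1 h1
    c1a c1b hcc
    (fun Q _ h => s36b_cusp_reg_10 φ M q hq hqM Q h)
    (fun Q _ h => s36b_cusp_reg_12 φ M q hq hqM Q h)
    (algebraMap _ (Localization.AtPrime 𝔫) b) ?_ ?_ z₂ hz₂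
  · rw [← Localization.AtPrime.map_eq_maximalIdeal]
    exact Ideal.mem_map_of_mem _ hb
  · rw [s34f_iota_algebraMap, hbj]

include φ hq hqM in
/-- **the `ℓ` of `s36e_mid_reg` at a polar point of the middle component**:
`t / j₀ ∈ B_𝔫` (`t = j₂ - j₀`). -/
theorem s36b_mid_ell_j (hC : s36g_ValComap G φ M q hq hqM V)
    (hU : s36g_ValUnif G M q V (s36m_t (K₀ := K₀) M q))
    (𝔫 : Ideal (s34x_ring (s34x_infRing V) (s18_chart2 (L₀ := K₀) (s36b_j0 (K₀ := K₀) M q))))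
    [h𝔫 : 𝔫.IsPrime]
    (hϖ : s34x_const (s34x_infRing V) (s18_chart2 (L₀ := K₀) (s36b_j0 (K₀ := K₀) M q))
      ((G.ϖ : G.A) : K₀)
      (s34x_inf_const_mem V G.A (s36b_const_mem G φ M q hq hqM hC) G.ϖ) ∈ 𝔫)
    (hpol : ∃ b ∈ 𝔫, (b : s34m_F K₀ (M * q * q)) = (s36b_j0 (K₀ := K₀) M q)⁻¹)
    (h1 : s36q_compThrough V (s18_chart2 (L₀ := K₀) (s36b_j0 (K₀ := K₀) M q)) 𝔫 1) :
    ∃ ℓ : Localization.AtPrime 𝔫,
      s34f_iota (s34x_infRing V) (s18_chart2 (L₀ := K₀) (s36b_j0 (K₀ := K₀) M q)) 𝔫 ℓ =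
        s36m_t (K₀ := K₀) M q / s18g_jF (K := K₀) (M * q * q) := by
  obtain ⟨Z, -, hZ⟩ := s36b_mid_ratio_j G φ M q hq hqM hC hU 𝔫 hϖ hpol h1
  refine ⟨Z - 1, ?_⟩
  rw [map_sub, map_one, hZ, s36b_t_eq]
  have h0 : s36b_j0 (K₀ := K₀) M q ≠ 0 := s36b_j0_ne_zero M q
  show s36b_j2 (K₀ := K₀) M q * (s36b_j0 (K₀ := K₀) M q)⁻¹ - 1 =
    (s36b_j2 (K₀ := K₀) M q - s36b_j0 (K₀ := K₀) M q) / s36b_j0 (K₀ := K₀) M q
  rw [sub_div, div_self h0, div_eq_mul_inv]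

end Level

end Fermat.Agent.Lib.S36
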