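/-
S36 mega-project, layer (X1) (helper1), part 13: **the `ℓ = t / j₀` of the Eisenstein package at
the polar points of the middle component, for ALL base functions** (`j`, `t₂`, `t₃`).

* `s36b_HauptRel M x` : `x` of level `M` is of Hauptmodul type, `j · xᵃ = P(x)` with `P` monic of
  degree `a + 1` (`x = j`: `P = X`, `a = 0`; `x = t₂`: `P = (X + 256)³`, `a = 2`; `x = t₃`);
* `s36b_haupt_localIn` (abstract): at a polar point `𝔫` of the chart `{w ≠ 0}` (`w⁻¹ ∈ 𝔫`) with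
  `j wᵃ = P(w)`: the ring of the chart `{j ≠ 0}` lies in `B_𝔫` (multiplier `u = j / w ≡ 1 mod 𝔫`),
  and `1/j` lies in the corresponding prime `𝔫₀ = B(chart2 j) ∩ 𝔪(B_𝔫)`;
* `s36b_MidEll G φ M q hq hqM w` : for every valuation package, at every polar prime `𝔫 ∋ ϖ` of
  `chart2 w` through which the middle component passes, `t / j₀ ∈ B_𝔫` — the `ℓ`, `hℓ` of helper2's
  `s36e_mid_reg`;
* `s36b_midEll_j`, **`s36b_midEll_of_hauptRel`** : it holds for `w = j₀` and for `w = α'(α x)`,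
  `x` of Hauptmodul type with `α x` a unit of the valuation rings of level `M q`.
-/
import Fermat.Agent.Lib.S36.XMidPolar
import Fermat.Agent.Lib.S36.XCuspReg

set_option autoImplicit false
set_option linter.unusedSectionVars false
set_option linter.style.haveILetI false

noncomputable section

namespace Fermat.Agent.Lib.S36

open Polynomial ModularCurve AlgebraicCurve HahnSeries Fermat.Agent.Lib.FF Fermat.Agent.Lib.S18
  Fermat.Agent.Lib.S28 Fermat.Agent.Lib.S37 Fermat.Agent.Lib.S34 IsLocalRing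

local notation "Kb" => AlgebraicClosure ℚ

/-! ### Abstract part -/

section Abs

variable {L₀ 𝓕 : Type*} [Field L₀] [Field 𝓕] [Algebra L₀ 𝓕]

/-- `j / t = P^rev(1/t)` for `j tᵃ = P(t)`, `deg P = a + 1`. -/
theorem s36b_haupt_ratio (P : L₀[X]) (a : ℕ) (hdeg : P.natDegree = a + 1) (j t : 𝓕)
    (ht0 : t ≠ 0) (r : j * t ^ a = aeval t P) : j * t⁻¹ = aeval t⁻¹ P.reverse := by
  haveI : Invertible t := invertibleOfNonzero ht0
  have h1 : aeval t⁻¹ P.reverse * t ^ (a + 1) = aeval t P := by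
    have := Polynomial.eval₂_reverse_mul_pow (algebraMap L₀ 𝓕) t P
    rw [invOf_eq_inv, hdeg] at this
    exact this
  have h2 : j * t⁻¹ * t ^ (a + 1) = aeval t⁻¹ P.reverse * t ^ (a + 1) := by
    rw [h1, ← r]
    exact s36b_reg_id₁ ht0 a
  exact mul_right_cancel₀ (pow_ne_zero _ ht0) h2

/-- **the chart `{j ≠ 0}` at a polar point of the chart `{w ≠ 0}`**, `j wᵃ = P(w)`. -/
theorem s36b_haupt_localIn {ι : Type*} (O : ι → ValuationSubring 𝓕)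
    (hfin : ∀ y : 𝓕, y ≠ 0 → {Q : Place L₀ 𝓕 | Q.ord y < 0}.Finite)
    (P : L₀[X]) (hP : P.Monic) (a : ℕ) (hdeg : P.natDegree = a + 1) (j w : 𝓕)
    (hw0 : w ≠ 0) (hj0 : j ≠ 0) (r : j * w ^ a = aeval w P)
    (hwO : ∀ k, w ∈ O k ∧ w⁻¹ ∈ O k) (hjO : ∀ k, j ∈ O k ∧ j⁻¹ ∈ O k)
    (𝔫 : Ideal (s34x_ring (s34x_infRing O) (s18_chart2 (L₀ := L₀) w))) [h𝔫 : 𝔫.IsPrime]
    (hpol : ∃ b ∈ 𝔫, (b : 𝓕) = w⁻¹) :
    ∃ hin : s36b_LocalIn O (s18_chart2 (L₀ := L₀) w) (s18_chart2 (L₀ := L₀) j) 𝔫,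
      ∃ b₀ ∈ s36b_ccIdeal 𝔫 hin, (b₀ : 𝓕) = j⁻¹ := by
  classical
  obtain ⟨b, hb, hbw⟩ := hpol
  have hratio := s36b_haupt_ratio P a hdeg j w hw0 r
  obtain ⟨B, hB⟩ : ∃ B : L₀[X], P.reverse = Polynomial.C 1 + X * B := by
    refine ⟨P.reverse.divX, ?_⟩
    conv_lhs => rw [← Polynomial.divX_mul_X_add P.reverse]
    rw [coeff_zero_reverse, hP.leadingCoeff]
    ring
  have hpoly : ∀ (R : L₀[X]) (Q : Place L₀ 𝓕), Q ∈ s18_chart2 (L₀ := L₀) w →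
      aeval w⁻¹ R ∈ Q.toValuationSubring := fun R Q hQ =>
    s36u_cusp_aeval_mem Q.toValuationSubring Q.algebraMap_mem' _ hQ R
  have huB : j * w⁻¹ ∈ s34x_ring (s34x_infRing O) (s18_chart2 (L₀ := L₀) w) :=
    ⟨(s34x_mem_infRing O _).mpr fun k => (O k).mul_mem _ _ (hjO k).1 (hwO k).2, fun Q hQ => by
      rw [hratio]; exact hpoly _ Q hQ⟩
  have hc : aeval w⁻¹ B = (j * w⁻¹ - 1) * w := by
    rw [hratio, hB, map_add, aeval_C, map_one, map_mul, aeval_X, add_sub_cancel_left,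
      mul_comm w⁻¹, mul_assoc, inv_mul_cancel₀ hw0, mul_one]
  have hcB : aeval w⁻¹ B ∈ s34x_ring (s34x_infRing O) (s18_chart2 (L₀ := L₀) w) :=
    ⟨(s34x_mem_infRing O _).mpr fun k => by
      rw [hc]
      exact (O k).mul_mem _ _ ((O k).sub_mem ((O k).mul_mem _ _ (hjO k).1 (hwO k).2)
        (O k).one_mem) (hwO k).1, fun Q hQ => hpoly B Q hQ⟩
  set u : s34x_ring (s34x_infRing O) (s18_chart2 (L₀ := L₀) w) := ⟨j * w⁻¹, huB⟩ with hu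
  have hu1 : u - 1 = b * ⟨aeval w⁻¹ B, hcB⟩ := by
    apply Subtype.ext
    show j * w⁻¹ - 1 = (b : 𝓕) * aeval w⁻¹ B
    rw [hbw, hratio, hB, map_add, aeval_C, map_one, map_mul, aeval_X, add_sub_cancel_left]
  have hu𝔫 : u ∉ 𝔫 := by
    intro hmem
    apply h𝔫.ne_top
    rw [Ideal.eq_top_iff_one]
    have h1 : u - 1 ∈ 𝔫 := by rw [hu1]; exact 𝔫.mul_mem_right _ hb
    have := 𝔫.sub_mem hmem h1
    rwa [sub_sub_cancel] at this
  have hpos : ∀ Q ∈ s18_chart2 (L₀ := L₀) w, Q ∉ s18_chart2 (L₀ := L₀) j →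
      0 < Q.ord (u : 𝓕) := by
    intro Q hQ hQj
    have h1 : 0 ≤ Q.ord w⁻¹ := (ff_mem_iff_ord_nonneg Q (inv_ne_zero hw0)).mp hQ
    have h2 : Q.ord j⁻¹ < 0 := by
      by_contra hcon
      exact hQj ((ff_mem_iff_ord_nonneg Q (inv_ne_zero hj0)).mpr (not_lt.mp hcon))
    rw [Q.ord_inv] at h2
    show 0 < Q.ord (j * w⁻¹)
    rw [Q.ord_mul hj0 (inv_ne_zero hw0)]
    omega
  have hin : s36b_LocalIn O (s18_chart2 (L₀ := L₀) w) (s18_chart2 (L₀ := L₀) j) 𝔫 :=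
    s36b_localIn_of_mult 𝔫 hfin u hu𝔫 hpos
  have hjB : j⁻¹ ∈ s34x_ring (s34x_infRing O) (s18_chart2 (L₀ := L₀) j) :=
    ⟨(s34x_mem_infRing O _).mpr fun k => (hjO k).2, fun Q hQ => hQ⟩
  refine ⟨hin, ⟨j⁻¹, hjB⟩, ?_, rfl⟩
  have huu : IsUnit (algebraMap _ (Localization.AtPrime 𝔫) u) :=
    IsLocalization.map_units (Localization.AtPrime 𝔫) (⟨u, hu𝔫⟩ : 𝔫.primeCompl)
  obtain ⟨v, hv⟩ := huu.exists_right_inv
  have h1 := congrArg (s34f_iota (s34x_infRing O) (s18_chart2 (L₀ := L₀) w) 𝔫) hv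
  rw [map_mul, s34f_iota_algebraMap, map_one] at h1
  have hv' : s34f_iota (s34x_infRing O) (s18_chart2 (L₀ := L₀) w) 𝔫 v = (j * w⁻¹)⁻¹ :=
    eq_inv_of_mul_eq_one_right h1
  refine (s36b_mem_ccIdeal_iff 𝔫 hin ⟨j⁻¹, hjB⟩
    (algebraMap _ (Localization.AtPrime 𝔫) b * v) ?_).mpr (Ideal.mul_mem_right _ _
      ((IsLocalization.AtPrime.to_map_mem_maximal_iff (Localization.AtPrime 𝔫) 𝔫 _).mpr hb))
  rw [map_mul, s34f_iota_algebraMap, hbw, hv']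
  show w⁻¹ * (j * w⁻¹)⁻¹ = j⁻¹
  rw [mul_inv_rev, inv_inv, ← mul_assoc, inv_mul_cancel₀ hw0, one_mul]

end Abs

/-! ### Level `M q²` -/

section Level

variable {K₀ : Type} [Field K₀] [Algebra ℚ K₀] {κ : Type} [Field κ] (G : s18g_GaussData K₀ κ)
  (φ : K₀ →+* Kb) (M q : ℕ) [NeZero M] [NeZero q] (hq : q.Prime) (hqM : ¬ q ∣ M)

/-- `x` of level `M` is of Hauptmodul type: `j · xᵃ = P(x)`, `P` monic of degree `a + 1`. -/
def s36b_HauptRel (x : s34m_F K₀ M) : Prop :=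
  ∃ (P : K₀[X]) (a : ℕ), P.Monic ∧ P.natDegree = a + 1 ∧
    s18g_jF (K := K₀) M * x ^ a = aeval x P

theorem s36b_hauptRel_jF : s36b_HauptRel M (s18g_jF (K := K₀) M) :=
  ⟨X, 0, monic_X, natDegree_X, by rw [pow_zero, mul_one, aeval_X]⟩

/-- the relation transported to level `M q²`. -/
theorem s36b_hauptRel_level (x : s34m_F K₀ M) (P : K₀[X]) (a : ℕ)
    (rM : s18g_jF (K := K₀) M * x ^ a = aeval x P) :
    s36b_j0 (K₀ := K₀) M q * (s36g_alpha M q (heckeAlphaBar K₀ M q x)) ^ a =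
      aeval (s36g_alpha M q (heckeAlphaBar K₀ M q x)) P := by
  have h1 := congrArg (heckeAlphaBar K₀ M q) rM
  rw [map_mul, map_pow, ← Polynomial.aeval_algHom_apply, s34m_alpha_jF (K₀ := K₀) M q] at h1
  have h2 := congrArg (heckeAlphaBar K₀ (M * q) q) h1
  rw [map_mul, map_pow, ← Polynomial.aeval_algHom_apply] at h2
  rw [s36b_j0_eq]
  exact h2

variable [CharP κ q] [CharZero K₀] [IsDiscreteValuationRing G.A]

/-- **the `ℓ` of the Eisenstein package at the polar points of the middle component** in the chart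
`{w ≠ 0}` of level `M q²`. -/
def s36b_MidEll (w : s34m_F K₀ (M * q * q)) : Prop :=
  ∀ (V : Fin 3 → ValuationSubring (s34m_F K₀ (M * q * q)))
    (hC : s36g_ValComap G φ M q hq hqM V) (_ : s36g_ValUnif G M q V (s36m_t (K₀ := K₀) M q))
    (𝔫 : Ideal (s34x_ring (s34x_infRing V) (s18_chart2 (L₀ := K₀) w))) [h𝔫 : 𝔫.IsPrime],
    s34x_const (s34x_infRing V) (s18_chart2 (L₀ := K₀) w) ((G.ϖ : G.A) : K₀)
      (s34x_inf_const_mem V G.A (s36b_const_mem G φ M q hq hqM hC) G.ϖ) ∈ 𝔫 →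
    (∃ b ∈ 𝔫, (b : s34m_F K₀ (M * q * q)) = w⁻¹) →
    s36q_compThrough V (s18_chart2 (L₀ := K₀) w) 𝔫 1 →
    ∃ ℓ : Localization.AtPrime 𝔫,
      s34f_iota (s34x_infRing V) (s18_chart2 (L₀ := K₀) w) 𝔫 ℓ =
        s36m_t (K₀ := K₀) M q / s18g_jF (K := K₀) (M * q * q)

/-- the `j`-branch. -/
theorem s36b_midEll_j : s36b_MidEll G φ M q hq hqM (s36b_j0 (K₀ := K₀) M q) :=
  fun _ hC hU 𝔫 _ hϖ hpol h1 => s36b_mid_ell_j G φ M q hq hqM hC hU 𝔫 hϖ hpol h1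

/-- **the Hauptmodul branches** (and again the `j`-branch). -/
theorem s36b_midEll_of_hauptRel (x : s34m_F K₀ M) (hx0 : x ≠ 0) (hH : s36b_HauptRel M x)
    (hxO : ∀ i, heckeAlphaBar K₀ M q x ∈ s34m_VV G φ M q hq hqM i)
    (hxO' : ∀ i, (heckeAlphaBar K₀ M q x)⁻¹ ∈ s34m_VV G φ M q hq hqM i) :
    s36b_MidEll G φ M q hq hqM (s36g_alpha M q (heckeAlphaBar K₀ M q x)) := by
  intro V hC hU 𝔫 h𝔫 hϖ hpol h1
  obtain ⟨P, a, hP, hdeg, rM⟩ := hH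
  have hw0 : s36g_alpha M q (heckeAlphaBar K₀ M q x) ≠ 0 :=
    (_root_.map_ne_zero (s36g_alpha M q)).mpr
      ((_root_.map_ne_zero (heckeAlphaBar K₀ M q)).mpr hx0)
  have r₀ := s36b_hauptRel_level (K₀ := K₀) M q x P a rM
  have hwO : ∀ k, s36g_alpha M q (heckeAlphaBar K₀ M q x) ∈ V k ∧
      (s36g_alpha M q (heckeAlphaBar K₀ M q x))⁻¹ ∈ V k := fun k =>
    ⟨s36b_alpha_mem G φ M q hq hqM hC _ hxO k, by
      rw [← map_inv₀]; exact s36b_alpha_mem G φ M q hq hqM hC _ hxO' k⟩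
  obtain ⟨hU0, -, -⟩ := s36b_j_units G φ M q hq hqM hC
  obtain ⟨hin, b₀, hb₀, hb₀j⟩ := s36b_haupt_localIn V (s36b_finite_neg (K₀ := K₀) φ M q) P hP a
    hdeg (s36b_j0 (K₀ := K₀) M q) _ hw0 (s36b_j0_ne_zero M q) r₀ hwO hU0 𝔫 hpol
  have hcm := s34x_inf_const_mem V G.A (s36b_const_mem G φ M q hq hqM hC) G.ϖ
  have hϖB : ∀ S : Set (Place K₀ (s34m_F K₀ (M * q * q))),
      s34m_unif G (M * q * q) ∈ s34x_ring (s34x_infRing V) S := fun S =>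
    (s34x_const (s34x_infRing V) S ((G.ϖ : G.A) : K₀) hcm).2
  have hϖ₀ := s36b_unif_mem_ccIdeal 𝔫 hin (hϖB _) hϖ (hϖB _)
  obtain ⟨Z₀, hZ₀u, hZ₀⟩ := s36b_mid_ratio_j G φ M q hq hqM hC hU (s36b_ccIdeal 𝔫 hin) hϖ₀
    ⟨b₀, hb₀, hb₀j⟩ (s36b_cc_compThrough 𝔫 hin 1 h1)
  obtain ⟨Z, -, hZ⟩ := s36b_cc_le_unit 𝔫 hin Z₀ hZ₀u
  refine ⟨Z - 1, ?_⟩
  rw [map_sub, map_one, hZ, hZ₀, s36b_t_eq]
  have h0 : s36b_j0 (K₀ := K₀) M q ≠ 0 := s36b_j0_ne_zero M q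
  show s36b_j2 (K₀ := K₀) M q * (s36b_j0 (K₀ := K₀) M q)⁻¹ - 1 =
    (s36b_j2 (K₀ := K₀) M q - s36b_j0 (K₀ := K₀) M q) / s36b_j0 (K₀ := K₀) M q
  rw [sub_div, div_self h0, div_eq_mul_inv]

end Level

end Fermat.Agent.Lib.S36
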