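/-
S36 project, GEOMETRY side (helper8, prefix `s36g_`): THE BASE FUNCTION OF THE FINAL ASSEMBLY.

`s36g_BaseFull G φ M q hq hqM x hx` collects everything the local leaves may use about the base
function `w₁ = α x` (`x` of level `M`): the five outputs of lead's `s36qf_base_full`
(= helper9's `s36p_base_full` + transcendence) and the identification of the `q`-expansion of `x`
(`j`, resp. the Hauptmoduln `t₂` (`q = 3`), `t₃` (`q = 2`)) together with helper1's Hauptmodul relation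
`s36b_HauptRel M x` (`j x^a = P(x)`, `XMidHaupt.lean`; the explicit `P` is `s18b_haupt_two/_three`).

`s36g_base_full` : such an `x` exists at the good levels.
-/
import Fermat.Agent.Lib.S36.QFracBase
import Fermat.Agent.Lib.S36.XMidHaupt

set_option autoImplicit false
set_option linter.unusedSectionVars false
set_option linter.style.haveILetI false
set_option synthInstance.maxHeartbeats 400000

noncomputable section

namespace Fermat.Agent.Lib.S36

open ModularCurve AlgebraicCurve Polynomial Fermat.Agent.Lib.FF Fermat.Agent.Lib.S18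
  Fermat.Agent.Lib.S28 Fermat.Agent.Lib.S37 Fermat.Agent.Lib.S34 Fermat.Agent.Lib.S35

local notation "Kb" => AlgebraicClosure ℚ

section Defs

variable {K₀ : Type} [Field K₀] [Algebra ℚ K₀] [CharZero K₀] {κ : Type} [Field κ]
  (G : s18g_GaussData K₀ κ) [IsDiscreteValuationRing G.A]
  (φ : K₀ →+* Kb) (M q : ℕ) [NeZero M] [NeZero q] (hq : q.Prime) (hqM : ¬ q ∣ M)

/-- **The base function with all its global properties.** -/
def s36g_BaseFull (x : s34m_F K₀ M) (hx : x ∈ s34m_Vinf G M) : Prop :=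
  s35g_BaseData G φ M q hq hqM (heckeAlphaBar K₀ M q x) ∧
  (∀ Q : Place K₀ (s34m_F K₀ (M * q * q)),
    s36g_alpha M q (heckeAlphaBar K₀ M q x) ∈ Q.toValuationSubring ↔
      s36g_beta M q (heckeAlphaBar K₀ M q x) ∈ Q.toValuationSubring) ∧
  qExpand κ q (s34m_redInf G M ⟨x, hx⟩) = s34m_redInf G M ⟨x, hx⟩ ^ q ∧
  (∀ Q : Place K₀ (s34m_F K₀ (M * q * q)),
    (s36g_alpha M q (heckeAlphaBar K₀ M q x))⁻¹ ∈ Q.toValuationSubring →
    s36g_alpha M q (heckeBetaBar K₀ M q x) *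
        (s36g_alpha M q (heckeAlphaBar K₀ M q x))⁻¹ ^ q ∈ Q.toValuationSubring ∧
      s36g_beta M q (heckeBetaBar K₀ M q x) *
        (s36g_alpha M q (heckeAlphaBar K₀ M q x))⁻¹ ^ (q * q) ∈ Q.toValuationSubring) ∧
  Transcendental κ (s34m_redInf G M ⟨x, hx⟩) ∧
  ((5 ≤ q ∧ x = s18g_jF (K := K₀) M) ∨
    (q = 3 ∧ 2 ∣ M ∧ (x : LaurentSeries K₀) = s18u_t2 K₀) ∨
    (q = 2 ∧ 3 ∣ M ∧ (x : LaurentSeries K₀) = s18u_t3 K₀)) ∧
  s36b_HauptRel M x

end Defs

variable (K₀ : Type) [Field K₀] [NumberField K₀] (φ : K₀ →+* Kb)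

/-- **The base function exists at the good levels.** -/
theorem s36g_base_full (M q : ℕ) [NeZero M] [NeZero q] (hq : q.Prime) (hqM : ¬ q ∣ M)
    (h : 5 ≤ q ∨ (q = 3 ∧ 2 ∣ M) ∨ (q = 2 ∧ 3 ∣ M))
    (κ : Type) [Field κ] [CharP κ q] [PerfectField κ]
    (G : s18g_GaussData K₀ κ) [IsDiscreteValuationRing G.A] (hπ : Function.Surjective G.π) :
    ∃ (x : s34m_F K₀ M) (hx : x ∈ s34m_Vinf G M), s36g_BaseFull G φ M q hq hqM x hx := by
  haveI : Fact q.Prime := ⟨hq⟩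
  rcases h with h5 | ⟨rfl, h2M⟩ | ⟨rfl, h3M⟩
  · have hdeg : s18g_HDeg K₀ (M * q) := fun n b hb hn => s18g_exists_relation (M * q) φ hn b hb
    have e : heckeAlphaBar K₀ M q (s18g_jF (K := K₀) M) = s18g_jF (K := K₀) (M * q) :=
      s34d2_alpha_j M q
    refine ⟨s18g_jF (K := K₀) M, s34m_jF_mem_Vinf G M, ?_, ?_, ?_,
      fun Q hQ => s36p_reg_j φ M q hq hqM Q hQ, ?_, Or.inl ⟨h5, rfl⟩, s36b_hauptRel_jF M⟩
    · rw [e]
      exact ⟨s18g_jF_ne_zero (M * q), s18b_ffGen_jF (M * q) hdeg,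
        s34m_jF_mem_VV G φ M q hq hqM, s34m_jF_inv_mem_VV G φ M q hq hqM,
        fun σ₀ => s34f_galois_jF (M * q) σ₀, s34f_alpha_j G φ M q hq hqM,
        s34f_alpha_inv G φ M q hq hqM, s35g_chartData_five_j1 M q hq hqM K₀ φ κ G hπ h5,
        s35g_chartData_five_j2 M q hq hqM K₀ φ κ G hπ h5⟩
    · rw [e]
      exact s36p_sat_j φ M q hq
    · rw [s34m_redInf_jF]
      exact s34df_qExpand_jqModC q hq
    · rw [s34m_redInf_jF]
      exact s28v_transcendental_jqModC κ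
  · obtain ⟨tM, htM, ⟨hwV, hred⟩, hwinvV, hgen, hgeninv, hwt, hw0, hgenN, hwO, hwO', hfix, hα,
      hα'⟩ := s34m_base_t2 G φ M 3 hq hqM h2M (by norm_num)
    haveI := hgen
    haveI := hgeninv
    have hred' : s34m_redInf G M ⟨tM, hwV⟩ = s18u_t2 κ := hred
    have hH := s18b_haupt_two K₀
    refine ⟨tM, hwV, ⟨hw0, hgenN, hwO, hwO', hfix, hα, hα',
      s35g_chartData_t2_1 M 3 hq hqM K₀ φ κ G hπ rfl h2M tM htM hwV hred,
      s35g_chartData_t2_2 M 3 hq hqM K₀ φ κ G hπ rfl h2M tM htM hwV hwinvV hred⟩,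
      s36p_sat_t2 G φ M 3 hq (by norm_num) _ hwt, ?_,
      fun Q hQ => s36p_reg_t2 φ M 3 hq hqM Q tM htM hQ, ?_, Or.inr (Or.inl ⟨rfl, h2M, htM⟩),
      ⟨_, 2, hH.monic, hH.deg, s34e_cusp_rel_of_coe M _ 2 (s18u_t2 K₀) hH.rel tM htM⟩⟩
    · rw [hred']
      exact s34e_cusp_frob_t2 3
    · rw [hred']
      exact s18b_transcendental_t2 κ
  · obtain ⟨tM, htM, ⟨hwV, hred⟩, hwinvV, hgen, hgeninv, hwt, hw0, hgenN, hwO, hwO', hfix, hα,
      hα'⟩ := s34m_base_t3 G φ M 2 hq hqM h3M (by norm_num)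
    haveI := hgen
    haveI := hgeninv
    have hred' : s34m_redInf G M ⟨tM, hwV⟩ = s18u_t3 κ := hred
    have hH := s18b_haupt_three K₀
    refine ⟨tM, hwV, ⟨hw0, hgenN, hwO, hwO', hfix, hα, hα',
      s35g_chartData_t3_1 M 2 hq hqM K₀ φ κ G hπ rfl h3M tM htM hwV hred,
      s35g_chartData_t3_2 M 2 hq hqM K₀ φ κ G hπ rfl h3M tM htM hwV hwinvV hred⟩,
      s36p_sat_t3 G φ M 2 hq (by norm_num) _ hwt, ?_,
      fun Q hQ => s36p_reg_t3 φ M 2 hq hqM Q tM htM hQ, ?_, Or.inr (Or.inr ⟨rfl, h3M, htM⟩),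
      ⟨_, 3, hH.monic, hH.deg, s34e_cusp_rel_of_coe M _ 3 (s18u_t3 K₀) hH.rel tM htM⟩⟩
    · rw [hred']
      exact s34e_cusp_frob_t3 2
    · rw [hred']
      exact s18b_transcendental_t3 κ

end Fermat.Agent.Lib.S36
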