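/-
S36 project, GEOMETRY side (helper8, prefix `s36g_`): THE INPUT CONTRACTS OF THE CORE ASSEMBLY.

`s36g_Core` (GeoContracts.lean) is assembled in `GCore.lean` from three inputs, each quantified over all
Gauss data `(K₀, G)` with `K₀` a number field, `G.A` a discrete valuation ring with uniformiser `q`
and perfect residue field of characteristic `q`:

* `s36g_InPkg`   (helper6)            : the three valuation rings `V` of level `M q²` with
                                         `s36g_ValPkg` for `t = s36m_t M q = j_{q²} - j`;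
* `s36g_InRoot`  (lead + helper8)     : for such `V`, the abstract contracts `s36g_RootNC` (N-C) and
                                         `s36g_RootG` (global root) for
                                         `V' = (V'_∞, V'_0)`, `α', β'`, `Nα, Nβ` the norms;
* `s36g_InLocal` (local layers + (T)) : from the global-root data `s36g_RootData` of a function
                                         `f` to `x` with `div f ≤ m div x`.
-/
import Fermat.Agent.Lib.S36.GeoFrame
import Fermat.Agent.Lib.S36.GRootFrame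
import Fermat.Agent.Lib.S36.MContracts
import Fermat.Agent.Lib.S35.RTop

set_option autoImplicit false
set_option linter.unusedSectionVars false
set_option linter.style.haveILetI false

noncomputable section

namespace Fermat.Agent.Lib.S36

open ModularCurve AlgebraicCurve HahnSeries Fermat.Agent.Lib.FF Fermat.Agent.Lib.S18
  Fermat.Agent.Lib.S37 Fermat.Agent.Lib.S34 Fermat.Agent.Lib.S35

local notation "Kb" => AlgebraicClosure ℚ

section Defs

variable {K₀ : Type} [Field K₀] [Algebra ℚ K₀] {κ : Type} [Field κ] (G : s18g_GaussData K₀ κ)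
  (φ : K₀ →+* Kb) (M q : ℕ) [NeZero M] [NeZero q] (hq : q.Prime) (hqM : ¬ q ∣ M)

/-- the two valuation rings of level `M q`, indexed by `Fin 2` (`0 ↦ V'_∞`, `1 ↦ V'_0`). -/
def s36g_V' : Fin 2 → ValuationSubring (s34m_F K₀ (M * q)) :=
  ![s34m_Vinf G (M * q), s34m_Vzero G φ M q hq hqM]

/-- the norm along `α'` as a monoid homomorphism. -/
def s36g_Nα : s34m_F K₀ (M * q * q) →* s34m_F K₀ (M * q) where
  toFun := s35r_normAlong (heckeAlphaBar K₀ (M * q) q)
  map_one' := by
    unfold s35r_normAlong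
    letI := algebraAlong (heckeAlphaBar K₀ (M * q) q)
    exact map_one _
  map_mul' x y := by
    unfold s35r_normAlong
    letI := algebraAlong (heckeAlphaBar K₀ (M * q) q)
    exact map_mul _ x y

/-- the norm along `β'` as a monoid homomorphism. -/
def s36g_Nβ : s34m_F K₀ (M * q * q) →* s34m_F K₀ (M * q) where
  toFun := s35r_normAlong (heckeBetaBar K₀ (M * q) q)
  map_one' := by
    unfold s35r_normAlong
    letI := algebraAlong (heckeBetaBar K₀ (M * q) q)
    exact map_one _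
  map_mul' x y := by
    unfold s35r_normAlong
    letI := algebraAlong (heckeBetaBar K₀ (M * q) q)
    exact map_mul _ x y

theorem s36g_Nα_apply (x : s34m_F K₀ (M * q * q)) :
    s36g_Nα (K₀ := K₀) M q x = s35r_normAlong (heckeAlphaBar K₀ (M * q) q) x := rfl

theorem s36g_Nβ_apply (x : s34m_F K₀ (M * q * q)) :
    s36g_Nβ (K₀ := K₀) M q x = s35r_normAlong (heckeBetaBar K₀ (M * q) q) x := rfl

variable (V : Fin 3 → ValuationSubring (s34m_F K₀ (M * q * q)))

/-- **The global-root data** of `(f₁, ξ, f)` for the exponent `m`: the output of `s36g_RootG` in the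
concrete frame, `f = f₁ ^ (q² - 1) / (c₁ ^ (q² - 1) ξ ^ m)`. -/
def s36g_RootData (m : ℕ) (f₁ ξ f : s34m_F K₀ (M * q * q)) : Prop :=
  ∃ (c : Fin 3 → K₀) (cα cβ eA eA' eB eB' θ₀ θ₂ : K₀) (yα yβ : s34m_F K₀ (M * q)),
    (∀ i, (V i).valuation ξ = 1) ∧
    (∀ i, G.A.valuation (c i) = 1) ∧ G.A.valuation cα = 1 ∧ G.A.valuation cβ = 1 ∧
    G.A.valuation eA = 1 ∧ G.A.valuation eA' = 1 ∧ G.A.valuation eB = 1 ∧
    G.A.valuation eB' = 1 ∧ G.A.valuation θ₀ = 1 ∧ G.A.valuation θ₂ = 1 ∧
    (∀ i, f₁ - algebraMap K₀ _ (c i) ∈ (V i).nonunits) ∧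
    s35r_normAlong (heckeAlphaBar K₀ (M * q) q) f₁ = algebraMap K₀ _ cα * yα ^ m ∧
    yα - algebraMap K₀ _ eA' ∈ (s34m_Vinf G (M * q)).nonunits ∧
    yα - algebraMap K₀ _ eA ∈ (s34m_Vzero G φ M q hq hqM).nonunits ∧
    s35r_normAlong (heckeBetaBar K₀ (M * q) q) f₁ = algebraMap K₀ _ cβ * yβ ^ m ∧
    yβ - algebraMap K₀ _ eB ∈ (s34m_Vinf G (M * q)).nonunits ∧
    yβ - algebraMap K₀ _ eB' ∈ (s34m_Vzero G φ M q hq hqM).nonunits ∧
    θ₀ * (eA' * eB' ^ q) = eA * eB ^ q ∧ θ₂ * (eA' ^ q * eB') = eA ^ q * eB ∧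
    ξ - algebraMap K₀ _ θ₀ ∈ (V 0).nonunits ∧ ξ - 1 ∈ (V 1).nonunits ∧
    ξ - algebraMap K₀ _ θ₂ ∈ (V 2).nonunits ∧
    f = f₁ ^ (q ^ 2 - 1) / (algebraMap K₀ _ (c 1 ^ (q ^ 2 - 1)) * ξ ^ m) ∧
    ∀ i, f - 1 ∈ (V i).nonunits

end Defs

section Inputs

variable (M q : ℕ) [NeZero M] [NeZero q] (hq : q.Prime) (hqM : ¬ q ∣ M)

/-- **Input (M)** (helper6): the valuation package exists for all Gauss data with uniformiser `q`. -/
def s36g_InPkg : Prop :=
  ∀ (K₀ : Type) [Field K₀] [NumberField K₀] (φ : K₀ →+* Kb)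
    (κ : Type) [Field κ] [CharP κ q] [PerfectField κ]
    (G : s18g_GaussData K₀ κ) [IsDiscreteValuationRing G.A], Function.Surjective G.π →
    ((G.ϖ : G.A) : K₀) = (q : K₀) →
    ∃ V : Fin 3 → ValuationSubring (s34m_F K₀ (M * q * q)),
      s36g_ValPkg G φ M q hq hqM V (s36m_t M q)

/-- **Input (G)+(N-C)**: the two abstract contracts hold for every valuation package. -/
def s36g_InRoot : Prop :=
  ∀ (K₀ : Type) [Field K₀] [NumberField K₀] (φ : K₀ →+* Kb)
    (κ : Type) [Field κ] [CharP κ q] [PerfectField κ]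
    (G : s18g_GaussData K₀ κ) [IsDiscreteValuationRing G.A], Function.Surjective G.π →
    ((G.ϖ : G.A) : K₀) = (q : K₀) →
    ∀ V : Fin 3 → ValuationSubring (s34m_F K₀ (M * q * q)),
      s36g_ValPkg G φ M q hq hqM V (s36m_t M q) →
      s36g_RootNC G.A q V (s36g_Nα M q) (s36g_Nβ M q) ∧
        s36g_RootG G.A q V (s36g_V' G φ M q hq hqM) (s36g_Nα M q) (s36g_Nβ M q)

/-- **Input (X)+(T)+(R)+(Q)**, the local layers: from the global-root data to the global
function `x`. -/
def s36g_InLocal : Prop :=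
  ∀ (K₀ : Type) [Field K₀] [NumberField K₀] (φ : K₀ →+* Kb)
    (κ : Type) [Field κ] [CharP κ q] [PerfectField κ]
    (G : s18g_GaussData K₀ κ) [IsDiscreteValuationRing G.A], Function.Surjective G.π →
    ((G.ϖ : G.A) : K₀) = (q : K₀) →
    ∀ V : Fin 3 → ValuationSubring (s34m_F K₀ (M * q * q)),
      s36g_ValPkg G φ M q hq hqM V (s36m_t M q) →
      ∀ (m : ℕ), m ≠ 0 → ((m : K₀))⁻¹ ∈ G.A →
      ∀ (f₁ ξ f : s34m_F K₀ (M * q * q)), f₁ ≠ 0 →
        (∀ Q : Place K₀ (s34m_F K₀ (M * q * q)), (m : ℤ) ∣ Q.ord f₁) →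
        s36g_RootData G φ M q hq hqM V m f₁ ξ f →
        ∃ x : s34m_F K₀ (M * q * q), x ≠ 0 ∧
          ∀ Q : Place K₀ (s34m_F K₀ (M * q * q)), Q.ord f ≤ (m : ℤ) * Q.ord x

end Inputs

end Fermat.Agent.Lib.S36
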