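/-
S36 project, GEOMETRY side (helper8, prefix `s36g_`): (V) — `σ₀ f₀ / f₀` IS A UNIT AT THE THREE
VALUATION RINGS.

* `s36g_unif_decomp` : a valuation ring whose non-units are the multiples of `ϖ` and which is
  archimedean w.r.t. `ϖ` is discrete: `x = ϖ ^ n * unit`;
* `s36g_equiv_unit`  : if a ring automorphism `e` of the field stabilises `V` and fixes an element
  `p` with `p = unit * ϖ ^ k`, `k ≠ 0`, then `e x / x` is a unit of `V` for every `x ≠ 0`;
* `s36g_galois_unit` : the three rings of a valuation package, `e = arithmeticGalois σ₀`.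
-/
import Fermat.Agent.Lib.S36.GeoFrame

set_option autoImplicit false
set_option linter.unusedSectionVars false
set_option linter.style.haveILetI false

noncomputable section

namespace Fermat.Agent.Lib.S36

open ModularCurve AlgebraicCurve HahnSeries Fermat.Agent.Lib.FF Fermat.Agent.Lib.S18
  Fermat.Agent.Lib.S37 Fermat.Agent.Lib.S34

section Abstract

variable {F : Type*} [Field F] (V : ValuationSubring F)

theorem s36g_val_eq_one_iff {x : F} : V.valuation x = 1 ↔ x ∈ V ∧ x⁻¹ ∈ V ∧ x ≠ 0 := by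
  constructor
  · intro h
    have hx0 : x ≠ 0 := by
      rintro rfl
      rw [map_zero] at h
      exact zero_ne_one h
    refine ⟨(V.valuation_le_one_iff x).mp h.le, ?_, hx0⟩
    rw [← V.valuation_le_one_iff, map_inv₀, h, inv_one]
  · rintro ⟨h1, h2, h0⟩
    have a := (V.valuation_le_one_iff x).mpr h1
    have b := (V.valuation_le_one_iff x⁻¹).mpr h2
    rw [map_inv₀] at b
    have hpos : (0 : V.ValueGroup) < V.valuation x :=
      zero_lt_iff.mpr ((_root_.map_ne_zero _).mpr h0)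
    have c : 1 ≤ V.valuation x := by
      have := (inv_le_one₀ hpos).mp b
      exact this
    exact le_antisymm a c

/-- discreteness from "non-units are multiples of `ϖ`" and the archimedean property. -/
theorem s36g_unif_decomp (ϖ : F) (hgen : ∀ y ∈ V.nonunits, ∃ z ∈ V, y = ϖ * z)
    (harch : ∀ y : F, ∃ k : ℕ, ϖ ^ k * y ∈ V) (x : F) (hx0 : x ≠ 0) :
    ∃ (n : ℤ) (u : F), V.valuation u = 1 ∧ x = ϖ ^ n * u := by
  -- the integral case
  have key : ∀ (k : ℕ) (x : F), x ≠ 0 → x ∈ V → ϖ ^ k * x⁻¹ ∈ V →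
      ∃ (n : ℕ) (u : F), V.valuation u = 1 ∧ x = ϖ ^ n * u := by
    intro k
    induction k with
    | zero =>
      intro x hx0 hxV h
      rw [pow_zero, one_mul] at h
      exact ⟨0, x, (s36g_val_eq_one_iff V).mpr ⟨hxV, h, hx0⟩, by rw [pow_zero, one_mul]⟩
    | succ k ih =>
      intro x hx0 hxV h
      by_cases hxi : x⁻¹ ∈ V
      · exact ⟨0, x, (s36g_val_eq_one_iff V).mpr ⟨hxV, hxi, hx0⟩, by rw [pow_zero, one_mul]⟩
      · have hnu : x ∈ V.nonunits := by
          rw [V.mem_nonunits_iff_or]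
          exact Or.inr hxi
        obtain ⟨z, hzV, hz⟩ := hgen x hnu
        have hϖ0 : ϖ ≠ 0 := by
          rintro rfl
          rw [zero_mul] at hz
          exact hx0 hz
        have hz0 : z ≠ 0 := by
          rintro rfl
          rw [mul_zero] at hz
          exact hx0 hz
        have h' : ϖ ^ k * z⁻¹ ∈ V := by
          have : ϖ ^ k * z⁻¹ = ϖ ^ (k + 1) * x⁻¹ := by
            rw [hz, mul_inv, pow_succ]
            field_simp
          rw [this]
          exact h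
        obtain ⟨n, u, hu, hzu⟩ := ih z hz0 hzV h'
        exact ⟨n + 1, u, hu, by rw [hz, hzu, pow_succ]; ring⟩
  by_cases hxV : x ∈ V
  · obtain ⟨k, hk⟩ := harch x⁻¹
    obtain ⟨n, u, hu, hxu⟩ := key k x hx0 hxV hk
    exact ⟨n, u, hu, by rw [zpow_natCast]; exact hxu⟩
  · have hxi : x⁻¹ ∈ V := (V.mem_or_inv_mem x).resolve_left hxV
    obtain ⟨k, hk⟩ := harch x
    obtain ⟨n, u, hu, hxu⟩ := key k x⁻¹ (inv_ne_zero hx0) hxi (by rw [inv_inv]; exact hk)
    refine ⟨-(n : ℤ), u⁻¹, by rw [map_inv₀, hu, inv_one], ?_⟩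
    rw [zpow_neg, zpow_natCast, ← mul_inv, ← hxu, inv_inv]

/-- an automorphism stabilising `V` and fixing `p = unit * ϖ ^ k` (`k ≠ 0`) preserves the
valuation. -/
theorem s36g_equiv_unit (e : F ≃+* F) (he : ∀ y, e y ∈ V ↔ y ∈ V) (ϖ p : F) (k : ℕ) (hk : k ≠ 0)
    (hp : ∃ u, V.valuation u = 1 ∧ p = u * ϖ ^ k) (hep : e p = p) (hp0 : p ≠ 0)
    (hdec : ∀ x : F, x ≠ 0 → ∃ (n : ℤ) (u : F), V.valuation u = 1 ∧ x = ϖ ^ n * u)
    (x : F) (hx0 : x ≠ 0) : V.valuation (e x / x) = 1 := by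
  have hunit : ∀ u, V.valuation u = 1 → V.valuation (e u) = 1 := by
    intro u hu
    obtain ⟨h1, h2, h0⟩ := (s36g_val_eq_one_iff V).mp hu
    refine (s36g_val_eq_one_iff V).mpr ⟨(he u).mpr h1, ?_, ?_⟩
    · rw [← map_inv₀]
      exact (he u⁻¹).mpr h2
    · exact (map_ne_zero_iff e e.injective).mpr h0
  obtain ⟨n, u, hu, hxu⟩ := hdec x hx0
  obtain ⟨w, hw, hpw⟩ := hp
  have hϖ0 : ϖ ≠ 0 := by
    rintro rfl
    rw [zero_pow hk, mul_zero] at hpw
    exact hp0 hpw
  -- `x ^ k = p ^ n * unit`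
  have hw0 : w ≠ 0 := ((s36g_val_eq_one_iff V).mp hw).2.2
  have hxk : x ^ k = p ^ n * (u ^ k / w ^ n) := by
    rw [hxu, hpw, mul_pow, mul_zpow, ← zpow_natCast (ϖ ^ n) k, ← zpow_mul, ← zpow_natCast ϖ k,
      ← zpow_mul, mul_comm (k : ℤ) n]
    have : w ^ n ≠ 0 := zpow_ne_zero _ hw0
    field_simp
  set v := u ^ k / w ^ n with hv
  have hvu : V.valuation v = 1 := by
    rw [hv, map_div₀, map_pow, map_zpow₀, hu, hw, one_pow, one_zpow, div_one]
  have hexk : e x ^ k = p ^ n * e v := by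
    rw [← map_pow, hxk, map_mul, map_zpow₀, hep]
  have hp0n : p ^ n ≠ 0 := zpow_ne_zero _ hp0
  have hv0 : v ≠ 0 := ((s36g_val_eq_one_iff V).mp hvu).2.2
  have hratio : (e x / x) ^ k = e v / v := by
    rw [div_pow, hexk, hxk]
    field_simp
  have hval : V.valuation (e x / x) ^ k = 1 := by
    rw [← map_pow, hratio, map_div₀, hunit v hvu, hvu, div_one]
  exact (pow_eq_one_iff_of_nonneg zero_le hk).mp hval

end Abstract

section Concrete

variable {K₀ : Type} [Field K₀] [Algebra ℚ K₀] {κ : Type} [Field κ] (G : s18g_GaussData K₀ κ)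
  (M q : ℕ) [NeZero M] [NeZero q]
  (V : Fin 3 → ValuationSubring (s34m_F K₀ (M * q * q))) (t : s34m_F K₀ (M * q * q))

/-- **(V)**: `σ₀ f / f` is a unit at the three valuation rings. -/
theorem s36g_galois_unit (hq2 : 2 ≤ q) (hU : s36g_ValUnif G M q V t) (hGal : s36g_ValGal G M q V)
    (σ₀ : K₀ ≃ₐ[ℚ] K₀) (hσ : ∀ a : K₀, σ₀ a ∈ G.A ↔ a ∈ G.A)
    (hσϖ : σ₀ ((G.ϖ : G.A) : K₀) = ((G.ϖ : G.A) : K₀))
    (f : s34m_F K₀ (M * q * q)) (hf0 : f ≠ 0) (i : Fin 3) :
    (V i).valuation (arithmeticGalois (modularFunctionFieldFull (M * q * q)) σ₀ • f / f) = 1 := by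
  obtain ⟨hϖnu, hgen0, hgen2, htnu, hgen1, ⟨u, huV, huV', hϖt⟩, harch⟩ := hU
  set p := s34m_unif G (M * q * q) with hp
  have hp0 : p ≠ 0 := s34m_unif_ne_zero G (M * q * q)
  set e : s34m_F K₀ (M * q * q) ≃+* s34m_F K₀ (M * q * q) :=
    arithmeticRingAut (modularFunctionFieldFull (M * q * q)) σ₀ with he
  have hep : e p = p := by
    rw [he, hp, s34m_unif, arithmeticRingAut_algebraMap, hσϖ]
  have heV : ∀ j, ∀ y, e y ∈ V j ↔ y ∈ V j := fun j y => hGal σ₀ hσ j y
  show (V i).valuation (e f / f) = 1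
  have hone : ∀ j : Fin 3, (∀ y ∈ (V j).nonunits, ∃ z ∈ V j, y = p * z) →
      (V j).valuation (e f / f) = 1 := by
    intro j hgen
    exact s36g_equiv_unit (V j) e (heV j) p p 1 one_ne_zero
      ⟨1, by rw [map_one], by rw [pow_one, one_mul]⟩ hep hp0
      (s36g_unif_decomp (V j) p hgen (harch j)) f hf0
  fin_cases i
  · exact hone 0 hgen0
  · have hu0 : u ≠ 0 := by
      rintro rfl
      rw [zero_mul] at hϖt
      exact hp0 hϖt
    have huval : (V 1).valuation u = 1 := (s36g_val_eq_one_iff (V 1)).mpr ⟨huV, huV', hu0⟩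
    have ht0 : t ≠ 0 := by
      rintro rfl
      rw [zero_pow (by omega), mul_zero] at hϖt
      exact hp0 hϖt
    have harch1 : ∀ y : s34m_F K₀ (M * q * q), ∃ k : ℕ, t ^ k * y ∈ V 1 := by
      intro y
      obtain ⟨k, hk⟩ := harch 1 y
      refine ⟨(q - 1) * k, ?_⟩
      have : t ^ ((q - 1) * k) * y = (u⁻¹) ^ k * (p ^ k * y) := by
        rw [hϖt, mul_pow, ← pow_mul, inv_pow]
        have : u ^ k ≠ 0 := pow_ne_zero _ hu0
        field_simp
      rw [this]
      exact (V 1).mul_mem _ _ ((V 1).pow_mem huV' k) hk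
    exact s36g_equiv_unit (V 1) e (heV 1) t p (q - 1) (by omega) ⟨u, huval, hϖt⟩ hep hp0
      (s36g_unif_decomp (V 1) t hgen1 harch1) f hf0
  · exact hone 2 hgen2

end Concrete

end Fermat.Agent.Lib.S36
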