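/-
S36 project, GEOMETRY side (helper8, prefix `s36g_`): THE NORMS ALONG `α`, `β` COMMUTE WITH THE
ARITHMETIC GALOIS ACTION.

`s36g_normAlong_equiv` : abstract form (`Algebra.norm_eq_of_equiv_equiv`);
`s36g_normAlpha_smul`, `s36g_normBeta_smul` : for `heckeAlphaBar`, `heckeBetaBar` at any level.
-/
import Fermat.Agent.Lib.S35.RTop
import Fermat.Prelude.Thm_ModularCurve_coeffMap_qExpand

set_option autoImplicit false
set_option linter.style.haveILetI false
set_option linter.unusedSectionVars false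

noncomputable section

namespace Fermat.Agent.Lib.S36

open ModularCurve AlgebraicCurve HahnSeries Fermat.Agent.Lib.S35

/-- the norm along `φ` commutes with a pair of compatible ring automorphisms. -/
theorem s36g_normAlong_equiv {K F F₀ : Type*} [Field K] [Field F] [Field F₀] [Algebra K F]
    [Algebra K F₀] (φ : F₀ →ₐ[K] F) (e₁ : F₀ ≃+* F₀) (e₂ : F ≃+* F)
    (he : ∀ y : F₀, e₂ (φ y) = φ (e₁ y)) (f : F) :
    s35r_normAlong φ (e₂ f) = e₁ (s35r_normAlong φ f) := by
  unfold s35r_normAlong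
  letI := algebraAlong φ
  have h := Algebra.norm_eq_of_equiv_equiv (A₁ := F₀) (B₁ := F) (A₂ := F₀) (B₂ := F) e₁ e₂
    (by
      ext y
      show φ (e₁ y) = e₂ (φ y)
      exact (he y).symm) f
  rw [h, RingEquiv.apply_symm_apply]

variable {K₀ : Type*} [Field K₀] [Algebra ℚ K₀] (N q : ℕ) [NeZero N] [NeZero q]

theorem s36g_normAlpha_smul (σ₀ : K₀ ≃ₐ[ℚ] K₀)
    (f : ↥(laurentBaseChange K₀ (modularFunctionFieldFull (N * q)))) :
    s35r_normAlong (heckeAlphaBar K₀ N q)
        (arithmeticGalois (modularFunctionFieldFull (N * q)) σ₀ • f) =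
      arithmeticGalois (modularFunctionFieldFull N) σ₀ •
        s35r_normAlong (heckeAlphaBar K₀ N q) f :=
  s36g_normAlong_equiv (heckeAlphaBar K₀ N q) (arithmeticRingAut (modularFunctionFieldFull N) σ₀)
    (arithmeticRingAut (modularFunctionFieldFull (N * q)) σ₀)
    (fun y => Subtype.ext (by
      show coeffMap (σ₀ : K₀ →+* K₀) ((heckeAlphaBar K₀ N q y : _) : LaurentSeries K₀) =
        ((heckeAlphaBar K₀ N q (arithmeticRingAut (modularFunctionFieldFull N) σ₀ y) : _) :
          LaurentSeries K₀)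
      rw [coe_heckeAlphaBar, coe_heckeAlphaBar]
      rfl)) f

theorem s36g_normBeta_smul (σ₀ : K₀ ≃ₐ[ℚ] K₀)
    (f : ↥(laurentBaseChange K₀ (modularFunctionFieldFull (N * q)))) :
    s35r_normAlong (heckeBetaBar K₀ N q)
        (arithmeticGalois (modularFunctionFieldFull (N * q)) σ₀ • f) =
      arithmeticGalois (modularFunctionFieldFull N) σ₀ •
        s35r_normAlong (heckeBetaBar K₀ N q) f :=
  s36g_normAlong_equiv (heckeBetaBar K₀ N q) (arithmeticRingAut (modularFunctionFieldFull N) σ₀)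
    (arithmeticRingAut (modularFunctionFieldFull (N * q)) σ₀)
    (fun y => Subtype.ext (by
      show coeffMap (σ₀ : K₀ →+* K₀) (qExpand K₀ q (y : LaurentSeries K₀)) =
        qExpand K₀ q (coeffMap (σ₀ : K₀ →+* K₀) (y : LaurentSeries K₀))
      exact coeffMap_qExpand _ q _)) f

end Fermat.Agent.Lib.S36
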