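/-
S36 project, GEOMETRY side (helper8, prefix `s36g_`): THE CONTRACTS OF THE GEOMETRY LAYERS and their
assembly into helper1's `s36_NN1`.

* `s36g_NN1At M q lam`   : the body of `s36_NN1` at ONE level `M q²` (so that
  `s36_NN1 ↔ ∀ M' q lam, q prime → q ≠ lam → q ∤ M' → s36g_NN1At M' q lam`, `s36g_NN1_iff`).
* `s36g_GoodLevel q M`   : the levels `M` (prime to `q`) at which the geometry is done: no elliptic
  points (`nuTwo M = nuThree M = 0`, e.g. a prime `r ≡ 11 (12)` divides `M`) and the S18 branch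
  condition (`5 ≤ q`, or `q = 3 ∧ 2 ∣ M`, or `q = 2 ∧ 3 ∣ M`).
* `s36g_NFCore M q m C`  : **the number-field contract [NN₀]** in Frobenius shape, over a number field
  `K₀` with a discrete valuation ring `A₀` UNRAMIFIED over `q` (`q` generates the maximal ideal) and an
  automorphism `σ₀` of `K₀` stabilising `A₀` (a Frobenius): for `f₀ ∈ K₀(X₀(M q²))^×` with
  `m ∣ div f₀` whose norms along `α, β` to level `M q` are constant times an `m`-th power,
  `(σ₀ f₀ / f₀) ^ C` is, up to a constant, an `m`-th power.  NO degree-one hypothesis on the zeros and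
  poles of `f₀` (frame (I), lead #1689); the prover may ask for `n`-th roots of unity in `K₀` for ONE
  `n` prime to `q` (so that `K₀` can stay inside the inertia field).
* the three LAYER contracts of the top of the geometry side
    `s36g_LevelRaise` (helper9, (L2)) : `s36g_NN1At (M' r) q lam → s36g_NN1At M' q lam`, `r ∤ M' q` prime;
    `s36g_Descent`    (helper7, (D))  : `(∀ k, s36g_NFCore M q (lam ^ k) C) → s36g_NN1At M q lam`;
    `s36g_Core`       (geometry)      : at good levels, `∃ C ≠ 0, ∀ k, s36g_NFCore M q (lam ^ k) C`;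
  and the assembly `s36g_NN1_of_layers : s36g_LevelRaise → s36g_Descent → s36g_Core → s36_NN1`
  (Dirichlet: a prime `r ≡ 11 (12)` not dividing `M' q`, plus the prime `2` or `3` if `q = 3, 2`).
-/
import Fermat.Agent.Lib.S36.Defs
import Fermat.Agent.Lib.S35.RDesc

set_option autoImplicit false
set_option linter.unusedSectionVars false
set_option linter.style.haveILetI false

noncomputable section

namespace Fermat.Agent.Lib.S36

open ModularCurve AlgebraicCurve Polynomial Fermat.Agent.Lib.S18 Fermat.Agent.Lib.FF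
  Fermat.Agent.Lib.S29 Fermat.Agent.Lib.S30 Fermat.Agent.Lib.S34 Fermat.Agent.Lib.S35

/-- **[NN₁] at one level** `M q²`: the body of `s36_NN1`. -/
def s36g_NN1At (M q lam : ℕ) [NeZero M] [NeZero q] : Prop :=
  ∃ c : ℕ, ∀ P : ValuationSubring (AlgebraicClosure ℚ), P.LiesOverPrime q →
    ∀ φ : s29k_G, P.IsFrobeniusAt φ q →
      ∀ (k : ℕ) (z : JZero (M * q * q)), (lam ^ k) • z = 0 →
        (∀ σ ∈ P.inertiaSubgroupIn ℚ, σ • z = z) →
        s36w_alphaPush (M * q) q z = 0 → s36w_betaPush (M * q) q z = 0 →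
        (lam ^ c) • (φ • z - z) = 0

theorem s36g_NN1_iff :
    s36_NN1 ↔ ∀ (M' q lam : ℕ) [NeZero M'] [NeZero q] [Fact lam.Prime], q.Prime → q ≠ lam →
      ¬ q ∣ M' → s36g_NN1At M' q lam :=
  Iff.rfl

/-- **The good levels** for the prime `q`. -/
def s36g_GoodLevel (q M : ℕ) : Prop :=
  ¬ q ∣ M ∧ nuTwo M = 0 ∧ nuThree M = 0 ∧ (5 ≤ q ∨ (q = 3 ∧ 2 ∣ M) ∨ (q = 2 ∧ 3 ∣ M))

/-- **The number-field contract [NN₀]** (Frobenius shape) at level `M q²`, for the exponent `m` and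
the loss factor `C`. -/
def s36g_NFCore (M q m C : ℕ) [NeZero M] [NeZero q] : Prop :=
  ∃ n : ℕ, 0 < n ∧ ¬ q ∣ n ∧
    ∀ (K₀ : Type) [Field K₀] [NumberField K₀], (∃ ζ : K₀, IsPrimitiveRoot ζ n) →
      ∀ (A₀ : ValuationSubring K₀) [IsDiscreteValuationRing ↥A₀], (q : K₀) ∈ A₀.nonunits →
        (∀ a ∈ A₀.nonunits, ∃ b ∈ A₀, a = (q : K₀) * b) →
      ∀ σ₀ : K₀ ≃ₐ[ℚ] K₀, (∀ a : K₀, σ₀ a ∈ A₀ ↔ a ∈ A₀) →
        (∀ a ∈ A₀, σ₀ a - a ^ q ∈ A₀.nonunits) →
      ∀ f₀ : ↥(laurentBaseChange K₀ (modularFunctionFieldFull (M * q * q))), f₀ ≠ 0 →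
        (∀ Q : Place K₀ ↥(laurentBaseChange K₀ (modularFunctionFieldFull (M * q * q))),
          (m : ℤ) ∣ Q.ord f₀) →
        (∃ (c : K₀) (h : ↥(laurentBaseChange K₀ (modularFunctionFieldFull (M * q)))),
          s35r_normAlong (heckeAlphaBar K₀ (M * q) q) f₀ = algebraMap K₀ _ c * h ^ m) →
        (∃ (c : K₀) (h : ↥(laurentBaseChange K₀ (modularFunctionFieldFull (M * q)))),
          s35r_normAlong (heckeBetaBar K₀ (M * q) q) f₀ = algebraMap K₀ _ c * h ^ m) →
        ∃ x₀ : ↥(laurentBaseChange K₀ (modularFunctionFieldFull (M * q * q))), x₀ ≠ 0 ∧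
          ∀ Q : Place K₀ ↥(laurentBaseChange K₀ (modularFunctionFieldFull (M * q * q))),
            Q.ord (((arithmeticGalois (modularFunctionFieldFull (M * q * q)) σ₀ • f₀) / f₀) ^ C) ≤
              (m : ℤ) * Q.ord x₀

/-- **Layer (L2)** (helper9): raising the level by an auxiliary prime `r ∤ M' q`
(`π^*`, `π_* π^* = r + 1`, base-change squares with `α_*, β_*`). -/
def s36g_LevelRaise : Prop :=
  ∀ (M' q lam r : ℕ) [NeZero M'] [NeZero q] [NeZero (M' * r)] [Fact lam.Prime], q.Prime →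
    q ≠ lam → ¬ q ∣ M' → r.Prime → ¬ r ∣ M' * q →
    s36g_NN1At (M' * r) q lam → s36g_NN1At M' q lam

/-- **Layer (D)** (helper7): descent to the inertia field (Hilbert 90, leading coefficients) and
passage from the Kummer form over number fields to points of `J₀(M q²)`. -/
def s36g_Descent : Prop :=
  ∀ (M q lam C : ℕ) [NeZero M] [NeZero q] [Fact lam.Prime], q.Prime → q ≠ lam → ¬ q ∣ M → C ≠ 0 →
    (∀ k : ℕ, s36g_NFCore M q (lam ^ k) C) → s36g_NN1At M q lam

/-- **The core of the geometry**: at the good levels the number-field contract holds for all powers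
of `lam` with ONE loss factor `C`. -/
def s36g_Core : Prop :=
  ∀ (M q lam : ℕ) [NeZero M] [NeZero q] [Fact lam.Prime], q.Prime → q ≠ lam → s36g_GoodLevel q M →
    ∃ C : ℕ, C ≠ 0 ∧ ∀ k : ℕ, s36g_NFCore M q (lam ^ k) C

/-! ### Assembly of the top layers -/

theorem s36g_nuTwo_eq_zero (M r : ℕ) [NeZero M] (hr : r.Prime) (hr4 : r % 4 = 3) (hrM : r ∣ M) :
    nuTwo M = 0 := by
  haveI : Fact r.Prime := ⟨hr⟩
  unfold nuTwo
  rw [Nat.card_eq_zero]
  left
  constructor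
  rintro ⟨x, hx⟩
  have h1 : (ZMod.castHom hrM (ZMod r) x) ^ 2 + 1 = 0 := by
    rw [← map_pow, ← map_one (ZMod.castHom hrM (ZMod r)), ← map_add, hx, map_zero]
  have h2 : IsSquare (-1 : ZMod r) := by
    refine ⟨ZMod.castHom hrM (ZMod r) x, ?_⟩
    rw [← pow_two]
    exact (eq_neg_of_add_eq_zero_left h1).symm
  exact (ZMod.exists_sq_eq_neg_one_iff.mp h2) hr4

theorem s36g_nuThree_eq_zero (M r : ℕ) [NeZero M] (hr : r.Prime) (hr3 : r % 3 = 2) (hrM : r ∣ M) :
    nuThree M = 0 := by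
  haveI : Fact r.Prime := ⟨hr⟩
  unfold nuThree
  rw [Nat.card_eq_zero]
  left
  constructor
  rintro ⟨x, hx⟩
  set y : ZMod r := ZMod.castHom hrM (ZMod r) x with hy
  have h1 : y ^ 2 + y + 1 = 0 := by
    rw [hy, ← map_pow, ← map_one (ZMod.castHom hrM (ZMod r)), ← map_add, ← map_add, hx, map_zero]
  have h3 : y ^ 3 = 1 := by
    have : y ^ 3 - 1 = (y - 1) * (y ^ 2 + y + 1) := by ring
    rw [h1, mul_zero, sub_eq_zero] at this
    exact this
  have hy1 : y ≠ 1 := by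
    intro h
    rw [h] at h1
    have h31 : ((3 : ℕ) : ZMod r) = 0 := by
      push_cast
      linear_combination h1
    rw [ZMod.natCast_eq_zero_iff] at h31
    have : r = 3 := (Nat.prime_dvd_prime_iff_eq hr Nat.prime_three).mp h31
    omega
  have hy0 : y ≠ 0 := by
    intro h
    rw [h] at h3
    simp at h3
  haveI : Fact (Nat.Prime 3) := ⟨Nat.prime_three⟩
  have hord : orderOf y = 3 := orderOf_eq_prime h3 hy1
  have hdvd := ZMod.orderOf_dvd_card_sub_one hy0
  rw [hord] at hdvd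
  have hr2 : 2 ≤ r := hr.two_le
  omega

/-- a level divisible by a prime `r ≡ 11 (12)`, prime to `q` and satisfying the branch condition,
is good. -/
theorem s36g_goodLevel_of_prime (q M r : ℕ) [NeZero M] (hqM : ¬ q ∣ M) (hr : r.Prime)
    (hr12 : r % 12 = 11) (hrM : r ∣ M) (hbr : 5 ≤ q ∨ (q = 3 ∧ 2 ∣ M) ∨ (q = 2 ∧ 3 ∣ M)) :
    s36g_GoodLevel q M :=
  ⟨hqM, s36g_nuTwo_eq_zero M r hr (by omega) hrM, s36g_nuThree_eq_zero M r hr (by omega) hrM, hbr⟩

/-- Dirichlet: a prime `r ≡ 11 (12)` not dividing a given `n ≠ 0`. -/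
theorem s36g_exists_aux_prime (n : ℕ) (hn : n ≠ 0) :
    ∃ r : ℕ, r.Prime ∧ r % 12 = 11 ∧ ¬ r ∣ n := by
  have hu : IsUnit ((11 : ℕ) : ZMod 12) := (ZMod.isUnit_iff_coprime 11 12).mpr (by norm_num)
  have hinf := Nat.infinite_setOfPred_prime_and_eq_mod hu
  obtain ⟨r, ⟨hr, hr12⟩, hgt⟩ := hinf.exists_gt n
  refine ⟨r, hr, ?_, fun hdvd => ?_⟩
  · have := (ZMod.natCast_eq_natCast_iff' r 11 12).mp hr12
    omega
  · exact absurd (Nat.le_of_dvd (Nat.pos_of_ne_zero hn) hdvd) (not_le.mpr hgt)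

/-- **Assembly of the top of the geometry side.** -/
theorem s36g_NN1_of_layers (hL : s36g_LevelRaise) (hD : s36g_Descent) (hC : s36g_Core) :
    s36_NN1 := by
  intro M' q lam _ _ _ hq hql hqM'
  -- at a good level
  have good : ∀ (M : ℕ) [NeZero M], s36g_GoodLevel q M → s36g_NN1At M q lam := by
    intro M _ hg
    obtain ⟨C, hC0, hCk⟩ := hC M q lam hq hql hg
    exact hD M q lam C hq hql hg.1 hC0 hCk
  have hM'0 : M' ≠ 0 := NeZero.ne M'
  have hq0 : q ≠ 0 := hq.ne_zero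
  obtain ⟨r, hr, hr12, hrn⟩ := s36g_exists_aux_prime (M' * q * 6) (by positivity)
  have hrM'q : ¬ r ∣ M' * q := fun h => hrn (Dvd.dvd.mul_right h 6)
  have hr6 : ¬ r ∣ 6 := fun h => hrn (Dvd.dvd.mul_left h (M' * q))
  have hrq : ¬ q ∣ r := by
    intro h
    have : q = r := (Nat.prime_dvd_prime_iff_eq hq hr).mp h
    exact hrM'q (this ▸ Dvd.intro_left M' rfl)
  by_cases hbr : 5 ≤ q ∨ (q = 3 ∧ 2 ∣ M') ∨ (q = 2 ∧ 3 ∣ M')
  · -- one auxiliary prime
    haveI : NeZero (M' * r) := ⟨mul_ne_zero hM'0 hr.ne_zero⟩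
    refine hL M' q lam r hq hql hqM' hr hrM'q (good (M' * r) ?_)
    refine s36g_goodLevel_of_prime q (M' * r) r ?_ hr hr12 (Dvd.intro_left M' rfl) ?_
    · intro h
      rcases (Nat.Prime.dvd_mul hq).mp h with h | h
      · exact hqM' h
      · exact hrq h
    · rcases hbr with h | ⟨h1, h2⟩ | ⟨h1, h2⟩
      · exact Or.inl h
      · exact Or.inr (Or.inl ⟨h1, Dvd.dvd.mul_right h2 r⟩)
      · exact Or.inr (Or.inr ⟨h1, Dvd.dvd.mul_right h2 r⟩)
  · -- `q ∈ {2, 3}`, a second auxiliary prime `s ∈ {3, 2}`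
    push Not at hbr
    obtain ⟨hq5, hq3, hq2⟩ := hbr
    have hq23 : q = 2 ∨ q = 3 := by
      have h2 := hq.two_le
      have : q ≠ 4 := fun h => by rw [h] at hq; exact absurd hq (by norm_num)
      omega
    obtain ⟨s, hs, hsM', hsq, hsbr⟩ : ∃ s : ℕ, s.Prime ∧ ¬ s ∣ M' ∧ s ≠ q ∧
        ((q = 3 ∧ s = 2) ∨ (q = 2 ∧ s = 3)) := by
      rcases hq23 with h | h
      · exact ⟨3, Nat.prime_three, hq2 h, by omega, Or.inr ⟨h, rfl⟩⟩
      · exact ⟨2, Nat.prime_two, hq3 h, by omega, Or.inl ⟨h, rfl⟩⟩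
    have hsM'q : ¬ s ∣ M' * q := by
      intro h
      rcases (Nat.Prime.dvd_mul hs).mp h with h | h
      · exact hsM' h
      · exact hsq ((Nat.prime_dvd_prime_iff_eq hs hq).mp h)
    have hs6 : s ∣ 6 := by
      rcases hsbr with ⟨-, rfl⟩ | ⟨-, rfl⟩ <;> norm_num
    have hrs : r ≠ s := fun h => hr6 (h ▸ hs6)
    haveI : NeZero (M' * s) := ⟨mul_ne_zero hM'0 hs.ne_zero⟩
    haveI : NeZero (M' * s * r) := ⟨mul_ne_zero (mul_ne_zero hM'0 hs.ne_zero) hr.ne_zero⟩
    have hqM's : ¬ q ∣ M' * s := by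
      intro h
      rcases (Nat.Prime.dvd_mul hq).mp h with h | h
      · exact hqM' h
      · exact hsq ((Nat.prime_dvd_prime_iff_eq hq hs).mp h).symm
    have hrM'sq : ¬ r ∣ M' * s * q := by
      intro h
      have h' : r ∣ M' * q * s := by
        rw [mul_right_comm]; exact h
      rcases (Nat.Prime.dvd_mul hr).mp h' with h | h
      · exact hrM'q h
      · exact hrs ((Nat.prime_dvd_prime_iff_eq hr hs).mp h)
    refine hL M' q lam s hq hql hqM' hs hsM'q ?_
    refine hL (M' * s) q lam r hq hql hqM's hr hrM'sq (good (M' * s * r) ?_)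
    refine s36g_goodLevel_of_prime q (M' * s * r) r ?_ hr hr12 (Dvd.intro_left (M' * s) rfl) ?_
    · intro h
      rcases (Nat.Prime.dvd_mul hq).mp h with h | h
      · exact hqM's h
      · exact hrq h
    · have hsdvd : s ∣ M' * s * r := Dvd.dvd.mul_right (Dvd.intro_left M' rfl) r
      rcases hsbr with ⟨h1, h2⟩ | ⟨h1, h2⟩
      · exact Or.inr (Or.inl ⟨h1, h2 ▸ hsdvd⟩)
      · exact Or.inr (Or.inr ⟨h1, h2 ▸ hsdvd⟩)

end Fermat.Agent.Lib.S36
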