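/-
S36 mega-project, layer (D)/(E) (helper3 for helper7, prefix `s36v_`): **NORM COMPATIBILITY WITH BASE
CHANGE AT ARBITRARY LEVEL.**  For a field `K₀` of characteristic zero with an embedding
`φ : K₀ →+* ℚ̄`, levels `N, N'` and embeddings of function fields `ψ₀ : 𝓕_{N,K₀} → 𝓕_{N',K₀}`,
`ψ : 𝓕_{N,ℚ̄} → 𝓕_{N',ℚ̄}` compatible with the coefficientwise base change `ι` (`ι ∘ ψ₀ = ψ ∘ ι`),
`ψ` finite:

  `ι (Nm_{ψ₀} f) = Nm_ψ (ι f)`.

No hypothesis on the levels (twin of `Lib/S35/RNorm.lean` `s35q_norm_alpha_iota/_beta_iota` without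
`q` prime, `q ∤ M`, and without the Atkin–Lehner involution for `β`).

* `s36v_indep_along`     : linear independence over `𝓕_{N,K₀}` (along `ψ₀`) is preserved by `ι`;
* `s36v_finite_along`    : `ψ₀` is finite as soon as `ψ` is;
* `s36v_span_along`      : `𝓕_{N',ℚ̄}` is spanned over `ψ(𝓕_{N,ℚ̄})` by the image of `ι`;
* `s36v_norm_along_iota` : the norm compatibility;
* `s36v_norm_alpha_iota`, `s36v_norm_beta_iota` : the two degeneracy maps `α, β` at level `M q`,
  `M, q` arbitrary (finiteness from helper1's `s36w_finite_alpha/beta`).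
-/
import Fermat.Agent.Lib.S35.RNorm
import Fermat.Agent.Lib.S36.WFinite

set_option autoImplicit false
set_option linter.style.haveILetI false
set_option linter.unusedSectionVars false
set_option synthInstance.maxHeartbeats 400000

noncomputable section

namespace Fermat.Agent.Lib.S36

open Module AlgebraicCurve ModularCurve Fermat.Agent.Lib.S18 Fermat.Agent.Lib.FF
  Fermat.Agent.Lib.S34 Fermat.Agent.Lib.S35 Fermat.Agent.Lib.S37 Fermat.Agent.Lib.S28

local notation "Kb" => AlgebraicClosure ℚ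

variable {K₀ : Type*} [Field K₀] [Algebra ℚ K₀] (φ : K₀ →+* Kb)
variable (N N' : ℕ) [NeZero N] [NeZero N']
variable (ψ₀ : s34m_F K₀ N →ₐ[K₀] s34m_F K₀ N') (ψ : ffi_F N →ₐ[Kb] ffi_F N')

/-- **Linear independence over `𝓕_{N,K₀}` along `ψ₀` is preserved by the base change `ι`.** -/
theorem s36v_indep_along
    (hcomm : ∀ y : s34m_F K₀ N, s34m_iota φ N' (ψ₀ y) = ψ (s34m_iota φ N y))
    {I : Type*} (x : I → s34m_F K₀ N')
    (hx : letI := algebraAlong ψ₀
      LinearIndependent (s34m_F K₀ N) x) :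
    letI := algebraAlong ψ
    LinearIndependent (ffi_F N) (fun i => s34m_iota φ N' (x i)) := by
  classical
  letI : Algebra K₀ Kb := φ.toAlgebra
  haveI : Algebra.IsAlgebraic ℚ Kb := s18q_isAlgebraic_bar
  haveI : Algebra.IsAlgebraic K₀ Kb := s18q_isAlgebraic_toAlgebra φ
  letI a0 : Algebra (s34m_F K₀ N) (s34m_F K₀ N') := algebraAlong ψ₀
  haveI t0 : IsScalarTower K₀ (s34m_F K₀ N) (s34m_F K₀ N') := isScalarTower_along ψ₀
  letI a1 : Algebra (ffi_F N) (ffi_F N') := algebraAlong ψ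
  haveI t1 : IsScalarTower Kb (ffi_F N) (ffi_F N') := isScalarTower_along ψ
  let 𝔅 := Module.Basis.ofVectorSpace K₀ (s34m_F K₀ N)
  -- the products are `K₀`-independent
  have h1 : LinearIndependent K₀ (fun p : _ × I => 𝔅 p.1 • x p.2) :=
    linearIndependent_smul 𝔅.linearIndependent hx
  -- in the ambient Laurent series
  let v : s34m_F K₀ N' →ₗ[K₀] LaurentSeries K₀ :=
    { toFun := fun y => (y : LaurentSeries K₀)
      map_add' := fun _ _ => rfl
      map_smul' := fun c y => by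
        show ((c • y : s34m_F K₀ N') : LaurentSeries K₀) = c • (y : LaurentSeries K₀)
        rw [IntermediateField.coe_smul, Algebra.smul_def, s34r_deg_smul_eq] }
  have h2 : LinearIndependent K₀ (fun p : _ × I => v (𝔅 p.1 • x p.2)) :=
    h1.map' v (LinearMap.ker_eq_bot.mpr Subtype.val_injective)
  have h3 := ffk_linearIndependent_coeffMap (algebraMap K₀ Kb) _ h2
  -- back in `𝓕_{N',ℚ̄}`
  let v' : ffi_F N' →ₗ[Kb] LaurentSeries Kb :=
    { toFun := fun y => (y : LaurentSeries Kb)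
      map_add' := fun _ _ => rfl
      map_smul' := fun c y => by
        show ((c • y : ffi_F N') : LaurentSeries Kb) = c • (y : LaurentSeries Kb)
        rw [IntermediateField.coe_smul, Algebra.smul_def, s34r_deg_smul_eq] }
  have h4 : LinearIndependent Kb
      (fun p : _ × I => s34m_iota φ N (𝔅 p.1) • s34m_iota φ N' (x p.2)) := by
    refine LinearIndependent.of_comp v' ?_
    have h5 : (v' ∘ fun p : _ × I => s34m_iota φ N (𝔅 p.1) • s34m_iota φ N' (x p.2)) =
        fun p => coeffMap (algebraMap K₀ Kb) (v (𝔅 p.1 • x p.2)) := by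
      funext p
      show ((ψ (s34m_iota φ N (𝔅 p.1)) * s34m_iota φ N' (x p.2) : ffi_F N') : LaurentSeries Kb) =
        coeffMap φ (((ψ₀ (𝔅 p.1) * x p.2 : s34m_F K₀ N')) : LaurentSeries K₀)
      rw [← hcomm, ← map_mul, s18q_map_coe]
    rw [h5]
    exact h3
  refine s34r_deg_tower_conv (R := Kb) (fun j => s34m_iota φ N (𝔅 j)) ?_ _ h4
  intro y
  refine Submodule.span_le.mpr ?_ (s34r_deg_span (K₀ := K₀) (K := Kb) (modularFunctionFieldFull N) y)
  rintro _ ⟨e, rfl⟩
  have he : e ∈ Submodule.span K₀ (Set.range 𝔅) := 𝔅.mem_span e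
  induction he using Submodule.span_induction with
  | mem z hz =>
      obtain ⟨j, rfl⟩ := hz
      exact Submodule.subset_span ⟨j, rfl⟩
  | zero =>
      rw [map_zero]
      exact zero_mem _
  | add u w _ _ hu hw =>
      rw [map_add]
      exact add_mem hu hw
  | smul a u _ hu =>
      rw [Algebra.smul_def, map_mul, s18q_map_algebraMap, ← Algebra.smul_def]
      exact Submodule.smul_mem _ _ hu

/-- **`ψ₀` is finite as soon as `ψ` is.** -/
theorem s36v_finite_along
    (hcomm : ∀ y : s34m_F K₀ N, s34m_iota φ N' (ψ₀ y) = ψ (s34m_iota φ N y))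
    (hfin : FiniteAlong Kb ψ) : FiniteAlong K₀ ψ₀ := by
  letI a0 : Algebra (s34m_F K₀ N) (s34m_F K₀ N') := algebraAlong ψ₀
  letI a1 : Algebra (ffi_F N) (ffi_F N') := algebraAlong ψ
  haveI : Module.Finite (ffi_F N) (ffi_F N') := hfin
  have hrank : Module.rank (s34m_F K₀ N) (s34m_F K₀ N') ≤
      ((Module.finrank (ffi_F N) (ffi_F N') : ℕ) : Cardinal) := by
    apply rank_le
    intro s hs
    have h1 := s36v_indep_along φ N N' ψ₀ ψ hcomm (fun i : ↥s => (i : s34m_F K₀ N')) hs
    have h2 := h1.fintype_card_le_finrank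
    rwa [Fintype.card_coe] at h2
  exact Module.rank_lt_aleph0_iff.mp (lt_of_le_of_lt hrank Cardinal.natCast_lt_aleph0)

/-- `𝓕_{N',ℚ̄}` is spanned over `ψ(𝓕_{N,ℚ̄})` by the image of the base change. -/
theorem s36v_span_along (y : ffi_F N') :
    letI := algebraAlong ψ
    y ∈ Submodule.span (ffi_F N) (Set.range (s34m_iota φ N')) := by
  letI : Algebra K₀ Kb := φ.toAlgebra
  haveI : Algebra.IsAlgebraic ℚ Kb := s18q_isAlgebraic_bar
  haveI : Algebra.IsAlgebraic K₀ Kb := s18q_isAlgebraic_toAlgebra φ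
  letI a1 : Algebra (ffi_F N) (ffi_F N') := algebraAlong ψ
  haveI t1 : IsScalarTower Kb (ffi_F N) (ffi_F N') := isScalarTower_along ψ
  have h1 := s34r_deg_span (K₀ := K₀) (K := Kb) (modularFunctionFieldFull N') y
  exact Submodule.span_le_restrictScalars Kb (ffi_F N) _ h1

/-- **Norms commute with the base change `ι`**, along any compatible pair of embeddings of
function fields, `ψ` finite. -/
theorem s36v_norm_along_iota
    (hcomm : ∀ y : s34m_F K₀ N, s34m_iota φ N' (ψ₀ y) = ψ (s34m_iota φ N y))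
    (hfin : FiniteAlong Kb ψ) (f : s34m_F K₀ N') :
    s34m_iota φ N (s35r_normAlong ψ₀ f) = s35r_normAlong ψ (s34m_iota φ N' f) := by
  letI i1 : Algebra (s34m_F K₀ N) (s34m_F K₀ N') := algebraAlong ψ₀
  letI i2 : Algebra (s34m_F K₀ N) (ffi_F N) := (s34m_iota φ N).toAlgebra
  letI i3 : Algebra (s34m_F K₀ N') (ffi_F N') := (s34m_iota φ N').toAlgebra
  letI i4 : Algebra (ffi_F N) (ffi_F N') := algebraAlong ψ
  letI i5 : Algebra (s34m_F K₀ N) (ffi_F N') :=
    (ψ.toRingHom.comp (s34m_iota φ N)).toAlgebra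
  haveI t1 : IsScalarTower (s34m_F K₀ N) (ffi_F N) (ffi_F N') :=
    IsScalarTower.of_algebraMap_eq fun x => rfl
  haveI t2 : IsScalarTower (s34m_F K₀ N) (s34m_F K₀ N') (ffi_F N') :=
    IsScalarTower.of_algebraMap_eq fun x => (hcomm x).symm
  haveI : FiniteDimensional (s34m_F K₀ N) (s34m_F K₀ N') :=
    s36v_finite_along φ N N' ψ₀ ψ hcomm hfin
  have hli : ∀ (n : ℕ) (b : Fin n → s34m_F K₀ N'), LinearIndependent (s34m_F K₀ N) b →
      LinearIndependent (ffi_F N) (fun i => algebraMap (s34m_F K₀ N') (ffi_F N') (b i)) :=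
    fun n b hb => s36v_indep_along φ N N' ψ₀ ψ hcomm b hb
  have hsp : ∀ y : ffi_F N', y ∈ Submodule.span (ffi_F N)
      (Set.range (algebraMap (s34m_F K₀ N') (ffi_F N'))) :=
    fun y => s36v_span_along φ N N' ψ y
  exact (s35q_norm_baseChange_of_span (F := s34m_F K₀ N) (F₁ := s34m_F K₀ N')
    (F₂ := ffi_F N) (F₃ := ffi_F N') hli hsp f).symm

section Modular

variable (M q : ℕ) [NeZero M] [NeZero q]

/-- **`ι (Nm_α f) = Nm_ᾱ (ι f)`**, `M, q` arbitrary. -/
theorem s36v_norm_alpha_iota (f : s34m_F K₀ (M * q)) :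
    s34m_iota φ M (s35r_normAlong (heckeAlphaBar K₀ M q) f) =
      s35r_normAlong (heckeAlphaBar Kb M q) (s34m_iota φ (M * q) f) :=
  s36v_norm_along_iota φ M (M * q) (heckeAlphaBar K₀ M q) (heckeAlphaBar Kb M q)
    (fun y => s34m_iota_alpha φ M q y) (s36w_finite_alpha M q) f

/-- **`ι (Nm_β f) = Nm_β̄ (ι f)`**, `M, q` arbitrary (no Atkin–Lehner involution). -/
theorem s36v_norm_beta_iota (f : s34m_F K₀ (M * q)) :
    s34m_iota φ M (s35r_normAlong (heckeBetaBar K₀ M q) f) =
      s35r_normAlong (heckeBetaBar Kb M q) (s34m_iota φ (M * q) f) :=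
  s36v_norm_along_iota φ M (M * q) (heckeBetaBar K₀ M q) (heckeBetaBar Kb M q)
    (fun y => s34m_iota_beta φ M q y) (s36w_finite_beta M q) f

include φ in
/-- `α` is finite over `K₀`. -/
theorem s36v_finite_alpha : FiniteAlong K₀ (heckeAlphaBar K₀ M q) :=
  s36v_finite_along φ M (M * q) _ _ (fun y => s34m_iota_alpha φ M q y) (s36w_finite_alpha M q)

include φ in
/-- `β` is finite over `K₀`. -/
theorem s36v_finite_beta : FiniteAlong K₀ (heckeBetaBar K₀ M q) :=
  s36v_finite_along φ M (M * q) _ _ (fun y => s34m_iota_beta φ M q y) (s36w_finite_beta M q)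

end Modular

end Fermat.Agent.Lib.S36
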