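/-
S36 project, GEOMETRY side (helper8, prefix `s36g_`): THE CORE ASSEMBLY.

`s36g_nfCore_of_inputs` : the number-field contract `s36g_NFCore M q m C` with
`C = (q - 1)(q² - 1)` and `n = 1` (no roots of unity needed) from the three inputs of
`GCoreDefs.lean`:

  `g = σ₀ f₀ / f₀` is a unit at the three valuation rings ((V), `GGalUnit.lean`); its norms are
  constants times `m`-th powers (`GNormGal.lean`); (N-C) gives the residues of `Φ = g ^ (q - 1)`;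
  (G) gives `x₁, ξ` and `f = f₁ ^ (q² - 1) / (c ξ ^ m)`, `f₁ = Φ / x₁ ^ m`, with residues `1`;
  the local layers give `x` with `div f ≤ m div x`; then
  `g ^ C = Φ ^ (q² - 1) = f · c · (ξ x₁ ^ (q² - 1)) ^ m`, so `x₀ = x ξ x₁ ^ (q² - 1)`.
-/
import Fermat.Agent.Lib.S36.GCoreDefs
import Fermat.Agent.Lib.S36.GGalUnit
import Fermat.Agent.Lib.S36.GNormGal
import Fermat.Agent.Lib.S36.GeoContracts
import Fermat.Agent.Lib.S36.VNormCompat
import Fermat.Agent.Lib.S35.Final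

set_option autoImplicit false
set_option linter.unusedSectionVars false
set_option linter.style.haveILetI false
set_option synthInstance.maxHeartbeats 400000

noncomputable section

namespace Fermat.Agent.Lib.S36

open ModularCurve AlgebraicCurve HahnSeries Polynomial Fermat.Agent.Lib.FF Fermat.Agent.Lib.S18
  Fermat.Agent.Lib.S37 Fermat.Agent.Lib.S34 Fermat.Agent.Lib.S35 IsLocalRing

local notation "Kb" => AlgebraicClosure ℚ

/-- the norm along a finite embedding of a nonzero element is nonzero. -/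
theorem s36g_normAlong_ne_zero {K F F₀ : Type*} [Field K] [Field F] [Field F₀] [Algebra K F]
    [Algebra K F₀] (ψ : F₀ →ₐ[K] F) (hfin : FiniteAlong K ψ) {f : F} (hf : f ≠ 0) :
    s35r_normAlong ψ f ≠ 0 := by
  unfold s35r_normAlong
  letI := algebraAlong ψ
  haveI : Module.Finite F₀ F := hfin
  exact Algebra.norm_ne_zero_iff.mpr hf

theorem s36g_smul_eq {L : Type*} [Field L] [Algebra ℚ L]
    (F₀ : IntermediateField ℚ (LaurentSeries ℚ)) (σ : L ≃ₐ[ℚ] L) (y : ↥(laurentBaseChange L F₀)) :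
    arithmeticGalois F₀ σ • y = arithmeticRingAut F₀ σ y := rfl

/-- the norm of `e f / f` when the norm of `f` is `C h ^ m` (abstract form). -/
theorem s36g_norm_ratio_abs {K F F₀ : Type*} [Field K] [Field F] [Field F₀] [Algebra K F]
    [Algebra K F₀] (ψ : F₀ →ₐ[K] F) (hfin : FiniteAlong K ψ) (e₁ : F₀ ≃+* F₀) (e₂ : F ≃+* F)
    (he : ∀ y : F₀, e₂ (ψ y) = ψ (e₁ y)) (f₀ : F) (hf₀ : f₀ ≠ 0) (m : ℕ) (C h : F₀)
    (hn : s35r_normAlong ψ f₀ = C * h ^ m) :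
    s35r_normAlong ψ (e₂ f₀ / f₀) = (e₁ C / C) * (e₁ h / h) ^ m := by
  have hN0 : s35r_normAlong ψ f₀ ≠ 0 := s36g_normAlong_ne_zero ψ hfin hf₀
  have hmul : ∀ x y : F, s35r_normAlong ψ (x * y) = s35r_normAlong ψ x * s35r_normAlong ψ y := by
    intro x y
    unfold s35r_normAlong
    letI := algebraAlong ψ
    exact map_mul _ x y
  have h1 : s35r_normAlong ψ (e₂ f₀ / f₀) * s35r_normAlong ψ f₀ = s35r_normAlong ψ (e₂ f₀) := by
    rw [← hmul, div_mul_cancel₀ _ hf₀]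
  rw [s36g_normAlong_equiv ψ e₁ e₂ he, hn, map_mul, map_pow] at h1
  rw [hn] at hN0
  rw [eq_div_of_mul_eq hN0 h1, div_pow, mul_div_mul_comm]

theorem s36g_final_identity {F : Type*} [Field F] (Φ x₁ ξ c : F) (m N : ℕ) (hx₁ : x₁ ≠ 0)
    (hξ : ξ ≠ 0) (hc : c ≠ 0) :
    Φ ^ N = ((Φ / x₁ ^ m) ^ N / (c * ξ ^ m)) * (c * (ξ * x₁ ^ N) ^ m) := by
  have h2 : ξ ^ m ≠ 0 := pow_ne_zero _ hξ
  have h3 : x₁ ^ (N * m) ≠ 0 := pow_ne_zero _ hx₁
  rw [div_pow, mul_pow, ← pow_mul, ← pow_mul, mul_comm m N]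
  field_simp

theorem s36g_pow_norm_form {F₀ : Type*} [Field F₀] (X C H : F₀) (m k : ℕ) (h : X = C * H ^ m) :
    X ^ k = C ^ k * (H ^ k) ^ m := by
  rw [h, mul_pow, ← pow_mul, mul_comm m, pow_mul]

/-- `α` commutes with the arithmetic Galois action. -/
theorem s36g_alpha_comm {K₀ : Type*} [Field K₀] [Algebra ℚ K₀] (N q : ℕ) [NeZero N] [NeZero q]
    (σ₀ : K₀ ≃ₐ[ℚ] K₀) (y : ↥(laurentBaseChange K₀ (modularFunctionFieldFull N))) :
    arithmeticRingAut (modularFunctionFieldFull (N * q)) σ₀ (heckeAlphaBar K₀ N q y) =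
      heckeAlphaBar K₀ N q (arithmeticRingAut (modularFunctionFieldFull N) σ₀ y) :=
  Subtype.ext (by
    show coeffMap (σ₀ : K₀ →+* K₀) ((heckeAlphaBar K₀ N q y : _) : LaurentSeries K₀) =
      ((heckeAlphaBar K₀ N q (arithmeticRingAut (modularFunctionFieldFull N) σ₀ y) : _) :
        LaurentSeries K₀)
    rw [coe_heckeAlphaBar, coe_heckeAlphaBar]
    rfl)

/-- `β` commutes with the arithmetic Galois action. -/
theorem s36g_beta_comm {K₀ : Type*} [Field K₀] [Algebra ℚ K₀] (N q : ℕ) [NeZero N] [NeZero q]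
    (σ₀ : K₀ ≃ₐ[ℚ] K₀) (y : ↥(laurentBaseChange K₀ (modularFunctionFieldFull N))) :
    arithmeticRingAut (modularFunctionFieldFull (N * q)) σ₀ (heckeBetaBar K₀ N q y) =
      heckeBetaBar K₀ N q (arithmeticRingAut (modularFunctionFieldFull N) σ₀ y) :=
  Subtype.ext (by
    show coeffMap (σ₀ : K₀ →+* K₀) (qExpand K₀ q (y : LaurentSeries K₀)) =
      qExpand K₀ q (coeffMap (σ₀ : K₀ →+* K₀) (y : LaurentSeries K₀))
    exact coeffMap_qExpand _ q _)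

section Main

variable (M q : ℕ) [NeZero M] [NeZero q] (hq : q.Prime) (hqM : ¬ q ∣ M)

set_option maxHeartbeats 3200000 in
include hq hqM in
/-- **The number-field contract at level `M q²`** from the three inputs. -/
theorem s36g_nfCore_of_inputs (hPkg : s36g_InPkg M q hq hqM) (hRoot : s36g_InRoot M q hq hqM)
    (hLocal : s36g_InLocal M q hq hqM) (m : ℕ) (hm0 : m ≠ 0) (hqm : Nat.Coprime q m) :
    s36g_NFCore M q m ((q - 1) * (q ^ 2 - 1)) := by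
  classical
  refine ⟨1, one_pos, fun h => hq.one_lt.ne' (Nat.dvd_one.mp h), ?_⟩
  intro K₀ _ _ _ A₀ _ hqA hunram σ₀ hσiff hσres f₀ hf₀ hdiv hnα hnβ
  haveI : Algebra.IsAlgebraic ℚ K₀ := Algebra.IsAlgebraic.of_finite ℚ K₀
  let φ : K₀ →+* Kb := (IsAlgClosed.lift (R := ℚ) (S := K₀) (M := Kb) : K₀ →ₐ[ℚ] Kb)
  -- the uniformiser `q`
  have hqmem : (q : K₀) ∈ A₀ := ValuationSubring.nonunits_subset hqA
  set ϖ : A₀ := ⟨(q : K₀), hqmem⟩ with hϖdef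
  have hϖ : Irreducible ϖ := by
    rw [IsDiscreteValuationRing.irreducible_iff_uniformizer]
    apply le_antisymm
    · intro a ha
      have ha' : (a : K₀) ∈ A₀.nonunits := by
        rw [A₀.mem_nonunits_iff_exists_mem_maximalIdeal]
        exact ⟨a.2, ha⟩
      obtain ⟨b, hb, hab⟩ := hunram _ ha'
      rw [Ideal.mem_span_singleton]
      exact ⟨⟨b, hb⟩, Subtype.ext hab⟩
    · rw [Ideal.span_singleton_le_iff_mem]
      obtain ⟨h1, h2⟩ := (A₀.mem_nonunits_iff_exists_mem_maximalIdeal).mp hqA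
      exact h2
  let G : s18g_GaussData K₀ (ResidueField A₀) := s18g_GaussData.ofResidue A₀ ϖ hϖ
  haveI hdvr : IsDiscreteValuationRing G.A := ‹IsDiscreteValuationRing A₀›
  haveI hchar : CharP (ResidueField A₀) q := s18x_charP_residueField A₀ hq hqA
  haveI hperf : PerfectField (ResidueField A₀) := s18x_perfectField_residue A₀ hq hqA
  have hGϖ : ((G.ϖ : G.A) : K₀) = (q : K₀) := rfl
  -- the valuation package
  obtain ⟨V, hpkg⟩ := hPkg K₀ φ (ResidueField A₀) G residue_surjective hGϖ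
  obtain ⟨hNC, hG⟩ := hRoot K₀ φ (ResidueField A₀) G residue_surjective hGϖ V hpkg
  obtain ⟨hC, hU, hRes, hCompl, hInd, hGal, hRed⟩ := hpkg
  set gσ : SemilinearAut K₀ (s34m_F K₀ (M * q * q)) :=
    arithmeticGalois (modularFunctionFieldFull (M * q * q)) σ₀ with hgσ
  set gσ' : SemilinearAut K₀ (s34m_F K₀ (M * q)) :=
    arithmeticGalois (modularFunctionFieldFull (M * q)) σ₀ with hgσ'
  -- (V)
  set g : s34m_F K₀ (M * q * q) := gσ • f₀ / f₀ with hg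
  have hσf₀ : gσ • f₀ ≠ 0 := s35r_smul_ne_zero gσ hf₀
  have hg0 : g ≠ 0 := div_ne_zero hσf₀ hf₀
  have hgu : ∀ i, (V i).valuation g = 1 := fun i =>
    s36g_galois_unit G M q V (s36m_t M q) hq.two_le hU hGal σ₀ hσiff (by rw [hGϖ, map_natCast]) f₀ hf₀ i
  -- the norms of `g`
  have hfinα : FiniteAlong K₀ (heckeAlphaBar K₀ (M * q) q) := s36v_finite_alpha φ (M * q) q
  have hfinβ : FiniteAlong K₀ (heckeBetaBar K₀ (M * q) q) := s36v_finite_beta φ (M * q) q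
  obtain ⟨cα, hα, hnα⟩ := hnα
  obtain ⟨cβ, hβ, hnβ⟩ := hnβ
  set e₁ := arithmeticRingAut (L := K₀) (modularFunctionFieldFull (M * q)) σ₀ with he₁
  set e₂ := arithmeticRingAut (L := K₀) (modularFunctionFieldFull (M * q * q)) σ₀ with he₂
  have hgeq : g = e₂ f₀ / f₀ := rfl
  have hNgα : s36g_Nα M q g = algebraMap K₀ _ (σ₀ cα / cα) * (e₁ hα / hα) ^ m := by
    rw [s36g_Nα_apply, hgeq]
    have h := s36g_norm_ratio_abs (heckeAlphaBar K₀ (M * q) q) hfinα e₁ e₂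
      (s36g_alpha_comm (M * q) q σ₀) f₀ hf₀ m (algebraMap K₀ _ cα) hα hnα
    rw [he₁, arithmeticRingAut_algebraMap, ← map_div₀] at h
    exact h
  have hNgβ : s36g_Nβ M q g = algebraMap K₀ _ (σ₀ cβ / cβ) * (e₁ hβ / hβ) ^ m := by
    rw [s36g_Nβ_apply, hgeq]
    have h := s36g_norm_ratio_abs (heckeBetaBar K₀ (M * q) q) hfinβ e₁ e₂
      (s36g_beta_comm (M * q) q σ₀) f₀ hf₀ m (algebraMap K₀ _ cβ) hβ hnβ
    rw [he₁, arithmeticRingAut_algebraMap, ← map_div₀] at h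
    exact h
  -- (N-C)
  have hΦres := hNC hq.pos m hm0 hqm g hgu _ _ _ _ hNgα hNgβ
  set Φ : s34m_F K₀ (M * q * q) := g ^ (q - 1) with hΦ
  have hΦ0 : Φ ≠ 0 := pow_ne_zero _ hg0
  have hΦu : ∀ i, (V i).valuation Φ = 1 := fun i => by rw [hΦ, map_pow, hgu i, one_pow]
  have hΦα : s36g_Nα M q Φ = algebraMap K₀ _ ((σ₀ cα / cα) ^ (q - 1)) *
      ((e₁ hα / hα) ^ (q - 1)) ^ m := by
    have h1 : s36g_Nα M q Φ = (s36g_Nα M q g) ^ (q - 1) := map_pow (s36g_Nα M q) g (q - 1)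
    rw [h1, map_pow (algebraMap K₀ (s34m_F K₀ (M * q)))]
    exact s36g_pow_norm_form _ _ _ m (q - 1) hNgα
  have hΦβ : s36g_Nβ M q Φ = algebraMap K₀ _ ((σ₀ cβ / cβ) ^ (q - 1)) *
      ((e₁ hβ / hβ) ^ (q - 1)) ^ m := by
    have h1 : s36g_Nβ M q Φ = (s36g_Nβ M q g) ^ (q - 1) := map_pow (s36g_Nβ M q) g (q - 1)
    rw [h1, map_pow (algebraMap K₀ (s34m_F K₀ (M * q)))]
    exact s36g_pow_norm_form _ _ _ m (q - 1) hNgβ
  -- (G)
  obtain ⟨x₁, ξ, c, cα', cβ', eA, eA', eB, eB', θ₀, θ₂, yα, yβ, hx₁u, hξu, hcu, hcαu, hcβu, heA,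
    heA', heB, heB', hθ₀u, hθ₂u, hf₁c, hNf₁α, hyαI, hyα0, hNf₁β, hyβI, hyβ0, hθ₀, hθ₂, hξ0, hξ1,
    hξ2, hf1⟩ := hG hq.pos m hm0 Φ hΦu hΦres _ _ _ _ hΦα hΦβ
  have hx₁0 : x₁ ≠ 0 := ((s36g_val_eq_one_iff (V 0)).mp (hx₁u 0)).2.2
  have hξne : ξ ≠ 0 := ((s36g_val_eq_one_iff (V 0)).mp (hξu 0)).2.2
  have hc10 : c 1 ≠ 0 := ((s36g_val_eq_one_iff G.A).mp (hcu 1)).2.2
  set f₁ : s34m_F K₀ (M * q * q) := Φ / x₁ ^ m with hf₁
  have hf₁0 : f₁ ≠ 0 := div_ne_zero hΦ0 (pow_ne_zero _ hx₁0)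
  set N : ℕ := q ^ 2 - 1 with hN
  set f : s34m_F K₀ (M * q * q) :=
    f₁ ^ N / (algebraMap K₀ _ (c 1 ^ N) * ξ ^ m) with hf
  have hcst0 : algebraMap K₀ (s34m_F K₀ (M * q * q)) (c 1 ^ N) ≠ 0 :=
    (_root_.map_ne_zero (algebraMap K₀ (s34m_F K₀ (M * q * q)))).mpr (pow_ne_zero _ hc10)
  -- divisibility
  have hdivg : ∀ Q : Place K₀ (s34m_F K₀ (M * q * q)), (m : ℤ) ∣ Q.ord g := by
    intro Q
    rw [hg, div_eq_mul_inv, Q.ord_mul hσf₀ (inv_ne_zero hf₀), Q.ord_inv, s35r_ord_smul]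
    exact dvd_add (hdiv _) (Dvd.dvd.neg_right (hdiv _))
  have hdiv₁ : ∀ Q : Place K₀ (s34m_F K₀ (M * q * q)), (m : ℤ) ∣ Q.ord f₁ := by
    intro Q
    rw [hf₁, div_eq_mul_inv, Q.ord_mul hΦ0 (inv_ne_zero (pow_ne_zero _ hx₁0)), Q.ord_inv,
      s18i_ord_pow, s18i_ord_pow]
    exact dvd_add (Dvd.dvd.mul_left (hdivg Q) _) (Dvd.dvd.neg_right (Dvd.intro _ rfl))
  have hqm' : ¬ q ∣ m := (Nat.Prime.coprime_iff_not_dvd hq).mp hqm
  have hmA : ((m : K₀))⁻¹ ∈ G.A := s34f_natCast_inv_mem A₀ hq hqA m hqm'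
  -- the local layers
  obtain ⟨x, hx0, hx⟩ := hLocal K₀ φ (ResidueField A₀) G residue_surjective hGϖ V
    ⟨hC, hU, hRes, hCompl, hInd, hGal, hRed⟩ m hm0 hmA f₁ ξ f hf₁0 hdiv₁
    ⟨c, cα', cβ', eA, eA', eB, eB', θ₀, θ₂, yα, yβ, hξu, hcu, hcαu, hcβu, heA, heA', heB, heB',
      hθ₀u, hθ₂u, hf₁c, hNf₁α, hyαI, hyα0, hNf₁β, hyβI, hyβ0, hθ₀, hθ₂, hξ0, hξ1, hξ2, rfl, hf1⟩
  -- conclusion
  refine ⟨x * (ξ * x₁ ^ N), mul_ne_zero hx0 (mul_ne_zero hξne (pow_ne_zero _ hx₁0)), fun Q => ?_⟩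
  have hkey : g ^ ((q - 1) * N) =
      f * (algebraMap K₀ _ (c 1 ^ N) * (ξ * x₁ ^ N) ^ m) := by
    rw [pow_mul]
    exact s36g_final_identity Φ x₁ ξ _ m N hx₁0 hξne hcst0
  have hf0 : f ≠ 0 := div_ne_zero (pow_ne_zero _ hf₁0) (mul_ne_zero hcst0 (pow_ne_zero _ hξne))
  have hprod0 : ξ * x₁ ^ N ≠ 0 := mul_ne_zero hξne (pow_ne_zero _ hx₁0)
  rw [hkey, Q.ord_mul hf0 (mul_ne_zero hcst0 (pow_ne_zero _ hprod0)),
    Q.ord_mul hcst0 (pow_ne_zero _ hprod0), ff_ord_algebraMap, zero_add, s18i_ord_pow,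
    Q.ord_mul hx0 hprod0, mul_add]
  linarith [hx Q]

end Main

/-- **The layer `s36g_Core`** from the three inputs at every good level. -/
theorem s36g_core_of_inputs
    (h : ∀ (M q : ℕ) [NeZero M] [NeZero q] (hq : q.Prime) (hqM : ¬ q ∣ M), s36g_GoodLevel q M →
      s36g_InPkg M q hq hqM ∧ s36g_InRoot M q hq hqM ∧ s36g_InLocal M q hq hqM) :
    s36g_Core := by
  intro M q lam _ _ hlam hq hqlam hgood
  have hqM : ¬ q ∣ M := hgood.1
  have hq2 : 2 ≤ q := hq.two_le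
  refine ⟨(q - 1) * (q ^ 2 - 1), ?_, fun k => ?_⟩
  · have h1 : 1 ≤ q - 1 := by omega
    have h2 : 1 ≤ q ^ 2 - 1 := by
      have : 4 ≤ q ^ 2 := by nlinarith
      omega
    exact (Nat.mul_pos h1 h2).ne'
  · obtain ⟨h1, h2, h3⟩ := h M q hq hqM hgood
    exact s36g_nfCore_of_inputs M q hq hqM h1 h2 h3 (lam ^ k) (pow_ne_zero k hlam.out.ne_zero)
      (Nat.Coprime.pow_right k ((Nat.coprime_primes hq hlam.out).mpr hqlam))

end Fermat.Agent.Lib.S36
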