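/-
S36 mega-project, layer (M), piece (D2) of helper6 (#1756), ABSTRACT PART (helper3, prefix
`s36m_rc`): reductions and the purely inseparable branches.

Frame: `i : F₁ →+* F₂`, `O ⊂ F₁`, `V ⊂ F₂` valuation subrings with `i(O) ⊂ V`, reductions
`ρ : O →+* L`, `r : V →+* L` (kernel of `r` = non-units of `V`) with `r ∘ i = Φ ∘ ρ` for an
endomorphism `Φ` of `L` (`Φ = (T ↦ T^q)` on `κ((T))`).

* `s36m_rc_hind`  : the independence hypothesis `hind` of `s36c_fund_insep` from the independence of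
  `1, J, …, J^(n-1)` (`J = r y₀`) over `Φ(L)`.
* `s36m_rc_pow_q` : if `y = Σ i(c_k) y₀^k`, `c_k ∈ O`, `J^q = Φ(ρ x₀)` and `x ↦ x^q` is additive on
  `L`, then `y^q ≡ i(Σ c_k^q x₀^k)` modulo the non-units of `V`.
* `s36m_rc_cast`  : reindexing `Fin q → Fin (q - 1 + 1)` of a spanning family.
Mathlib only.
-/
import Mathlib

set_option autoImplicit false

namespace Fermat.Agent.Lib.S36

variable {F₁ F₂ L : Type*} [Field F₁] [Field F₂] [CommRing L]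

/-- the combination `Σ i(c_k) y₀^k` as an element of `V`. -/
theorem s36m_rc_sum_mem (i : F₁ →+* F₂) (O : ValuationSubring F₁) (V : ValuationSubring F₂)
    (hOV : ∀ x ∈ O, i x ∈ V) (y₀ : V) {n : ℕ} (c : Fin n → F₁) (hc : ∀ k, c k ∈ O) :
    (∑ k, i (c k) * (y₀ : F₂) ^ (k : ℕ)) ∈ V :=
  sum_mem fun k _ => mul_mem (hOV _ (hc k)) (pow_mem y₀.2 _)

/-- the reduction of the combination `Σ i(c_k) y₀^k`. -/
theorem s36m_rc_red_sum (i : F₁ →+* F₂) (O : ValuationSubring F₁) (V : ValuationSubring F₂)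
    (hOV : ∀ x ∈ O, i x ∈ V) (r : V →+* L) (ρ : O →+* L) (Φ : L →+* L)
    (hr : ∀ x : O, r ⟨i x, hOV x x.2⟩ = Φ (ρ x)) (y₀ : V) {n : ℕ} (c : Fin n → F₁)
    (hc : ∀ k, c k ∈ O) :
    r ⟨∑ k, i (c k) * (y₀ : F₂) ^ (k : ℕ), s36m_rc_sum_mem i O V hOV y₀ c hc⟩ =
      ∑ k, Φ (ρ ⟨c k, hc k⟩) * r y₀ ^ (k : ℕ) := by
  have e : (⟨∑ k, i (c k) * (y₀ : F₂) ^ (k : ℕ), s36m_rc_sum_mem i O V hOV y₀ c hc⟩ : V) =
      ∑ k, (⟨i (c k), hOV _ (hc k)⟩ : V) * y₀ ^ (k : ℕ) := by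
    apply Subtype.ext
    push_cast
    rfl
  rw [e, map_sum]
  refine Finset.sum_congr rfl fun k _ => ?_
  rw [map_mul, map_pow]
  exact congrArg (· * r y₀ ^ (k : ℕ)) (hr ⟨c k, hc k⟩)

/-- **`hind`** of `s36c_fund_insep` from the independence of the powers of `J = r y₀` over `Φ(L)`. -/
theorem s36m_rc_hind (i : F₁ →+* F₂) (O : ValuationSubring F₁) (V : ValuationSubring F₂)
    (hOV : ∀ x ∈ O, i x ∈ V) (r : V →+* L) (hker : ∀ y : V, (y : F₂) ∈ V.nonunits → r y = 0)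
    (ρ : O →+* L) (Φ : L →+* L) (hr : ∀ x : O, r ⟨i x, hOV x x.2⟩ = Φ (ρ x)) (ϖ : F₁)
    (hρ : ∀ x : O, ρ x = 0 → ∃ d ∈ O, (x : F₁) = ϖ * d) (y₀ : V) (n : ℕ)
    (hindep : ∀ a : Fin n → L, ∑ k, Φ (a k) * r y₀ ^ (k : ℕ) = 0 → ∀ k, a k = 0)
    (c : Fin n → F₁) (hc : ∀ k, c k ∈ O)
    (hnu : (∑ k, i (c k) * (y₀ : F₂) ^ (k : ℕ)) ∈ V.nonunits) :
    ∀ k, ∃ d ∈ O, c k = ϖ * d := by
  have h0 := hker ⟨_, s36m_rc_sum_mem i O V hOV y₀ c hc⟩ hnu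
  rw [s36m_rc_red_sum i O V hOV r ρ Φ hr y₀ c hc] at h0
  intro k
  exact hρ ⟨c k, hc k⟩ (hindep (fun k => ρ ⟨c k, hc k⟩) h0 k)

/-- **`y ^ q ≡ i(Σ c_k^q x₀^k)`** modulo the non-units of `V`. -/
theorem s36m_rc_pow_q (i : F₁ →+* F₂) (O : ValuationSubring F₁) (V : ValuationSubring F₂)
    (hOV : ∀ x ∈ O, i x ∈ V) (r : V →+* L) (hker : ∀ y : V, r y = 0 → (y : F₂) ∈ V.nonunits)
    (ρ : O →+* L) (Φ : L →+* L) (hr : ∀ x : O, r ⟨i x, hOV x x.2⟩ = Φ (ρ x))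
    (q : ℕ) (Fr : L →+* L) (hFr : ∀ x, Fr x = x ^ q) (y₀ : V) (x₀ : O)
    (hJ : r y₀ ^ q = Φ (ρ x₀)) {n : ℕ} (c : Fin n → F₁) (hc : ∀ k, c k ∈ O) (y : F₂)
    (hy : y = ∑ k, i (c k) * (y₀ : F₂) ^ (k : ℕ)) :
    ∃ x ∈ O, y ^ q - i x ∈ V.nonunits := by
  set x : O := ∑ k, (⟨c k, hc k⟩ : O) ^ q * x₀ ^ (k : ℕ) with hx
  have hyV : y ∈ V := by
    rw [hy]
    exact s36m_rc_sum_mem i O V hOV y₀ c hc
  refine ⟨x, x.2, ?_⟩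
  have hmem : y ^ q - i x ∈ V := sub_mem (pow_mem hyV q) (hOV _ x.2)
  refine hker ⟨_, hmem⟩ ?_
  have e : (⟨y ^ q - i x, hmem⟩ : V) = (⟨y, hyV⟩ : V) ^ q - ⟨i x, hOV _ x.2⟩ :=
    Subtype.ext rfl
  rw [e, map_sub, map_pow, hr x, sub_eq_zero]
  have e2 : (⟨y, hyV⟩ : V) =
      ⟨∑ k, i (c k) * (y₀ : F₂) ^ (k : ℕ), s36m_rc_sum_mem i O V hOV y₀ c hc⟩ :=
    Subtype.ext hy
  rw [e2, s36m_rc_red_sum i O V hOV r ρ Φ hr y₀ c hc, ← hFr, map_sum, hx, map_sum, map_sum]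
  refine Finset.sum_congr rfl fun k _ => ?_
  rw [map_mul, map_pow, hFr, hFr, hJ, map_mul, map_mul, map_pow, map_pow, map_pow, map_pow]

/-- reindexing a spanning family `Fin q → Fin (q - 1 + 1)`. -/
theorem s36m_rc_cast (i : F₁ →+* F₂) (q : ℕ) (hq : q ≠ 0) (b : Fin q → F₂)
    (hspan : ∀ y : F₂, ∃ c : Fin q → F₁, y = ∑ k, i (c k) * b k) :
    ∃ b' : Fin (q - 1 + 1) → F₂, ∀ y : F₂, ∃ c : Fin (q - 1 + 1) → F₁,
      y = ∑ k, i (c k) * b' k := by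
  have hq1 : q - 1 + 1 = q := Nat.sub_add_cancel (Nat.pos_of_ne_zero hq)
  refine ⟨fun k => b (Fin.cast hq1 k), fun y => ?_⟩
  obtain ⟨c, hc⟩ := hspan y
  refine ⟨fun k => c (Fin.cast hq1 k), ?_⟩
  rw [hc]
  exact (Fintype.sum_equiv (finCongr hq1) _ _ (fun k => rfl)).symm

end Fermat.Agent.Lib.S36
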