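/-
S36 project, layer (L1) (helper2): the GENERIC base-change square on divisors from a COMMON BASIS.

      F  --α-->  F₁
      |π         |π'
      v          v
      F₂ --α'--> F₃            α' ∘ π = π' ∘ α

If a family `b : Fin n → F₁` is a basis of `F₁` over `α F` and `π' ∘ b` is a basis of `F₃` over
`α' F₂` (`F₃ = F₂ ⊗_F F₁`), then norms commute with the base change
(`s36l_norm_of_basis : Nm_{α'} (π' f) = π (Nm_α f)`: same multiplication matrix), and hence
`π^* ∘ α_* = α'_* ∘ π'^*` on divisors of `F₁` (`s36l_square`, via helper8's `s37l_baseChange` and the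
weak approximation `s37l_weakApproxAlong`).  All hypotheses are instance-free (stated with the
homomorphisms, no `Algebra` instance, no `Basis` object).

`s36l_square_of_li` : the variant consumed by (L2): only the linear independence of `π' ∘ b` over
`α' F₂` and the two degrees `[F₁ : α F] = n = [F₃ : α' F₂]` are required.
-/
import Mathlib
import Fermat.Agent.Lib.S37.LBase
import Fermat.Agent.Lib.S37.LApprox

set_option autoImplicit false
set_option linter.style.haveILetI false
set_option linter.unusedSectionVars false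

open AlgebraicCurve

namespace Fermat.Agent.Lib.S36

open Fermat.Agent.Lib.S37

noncomputable section

/-! ### Bases from instance-free data -/

section Basis

variable {F F₁ : Type*} [Field F] [Field F₁]

/-- the basis of `F₁` over `F` (along `φ`) attached to an instance-free description. -/
def s36l_basis (φ : F →+* F₁) {n : ℕ} (b : Fin n → F₁)
    (hli : ∀ c : Fin n → F, ∑ i, φ (c i) * b i = 0 → c = 0)
    (hspan : ∀ x : F₁, ∃ c : Fin n → F, x = ∑ i, φ (c i) * b i) :
    letI := φ.toAlgebra
    Module.Basis (Fin n) F F₁ :=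
  letI := φ.toAlgebra
  Module.Basis.mk (v := b)
    (by
      rw [Fintype.linearIndependent_iff]
      intro c hc i
      have h : ∑ i, φ (c i) * b i = 0 := by
        rw [← hc]
        exact Finset.sum_congr rfl fun i _ => (Algebra.smul_def (c i) (b i)).symm
      exact congrFun (hli c h) i)
    (by
      intro x _
      obtain ⟨c, hc⟩ := hspan x
      rw [hc]
      refine Submodule.sum_mem _ fun i _ => ?_
      have : φ (c i) * b i = c i • b i := (Algebra.smul_def (c i) (b i)).symm
      rw [this]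
      exact Submodule.smul_mem _ _ (Submodule.subset_span ⟨i, rfl⟩))

theorem s36l_basis_apply (φ : F →+* F₁) {n : ℕ} (b : Fin n → F₁)
    (hli : ∀ c : Fin n → F, ∑ i, φ (c i) * b i = 0 → c = 0)
    (hspan : ∀ x : F₁, ∃ c : Fin n → F, x = ∑ i, φ (c i) * b i) (i : Fin n) :
    (letI := φ.toAlgebra; (s36l_basis φ b hli hspan : Module.Basis (Fin n) F F₁) i) = b i := by
  letI := φ.toAlgebra
  exact Module.Basis.mk_apply _ _ i

/-- coordinates w.r.t. `s36l_basis`. -/
theorem s36l_basis_repr (φ : F →+* F₁) {n : ℕ} (b : Fin n → F₁)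
    (hli : ∀ c : Fin n → F, ∑ i, φ (c i) * b i = 0 → c = 0)
    (hspan : ∀ x : F₁, ∃ c : Fin n → F, x = ∑ i, φ (c i) * b i) (c : Fin n → F) (i : Fin n) :
    (letI := φ.toAlgebra
     (s36l_basis φ b hli hspan : Module.Basis (Fin n) F F₁).repr (∑ i, φ (c i) * b i) i) = c i := by
  letI := φ.toAlgebra
  have h : ∑ i, φ (c i) * b i =
      ∑ i, c i • (s36l_basis φ b hli hspan : Module.Basis (Fin n) F F₁) i := by
    refine Finset.sum_congr rfl fun i _ => ?_
    rw [s36l_basis_apply, Algebra.smul_def]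
    rfl
  rw [h, Module.Basis.repr_sum_self]

end Basis

/-! ### Norms commute with the base change -/

section Norm

variable {F F₁ F₂ F₃ : Type*} [Field F] [Field F₁] [Field F₂] [Field F₃]

/-- linear independence downstairs follows from linear independence upstairs. -/
theorem s36l_li_down (α : F →+* F₁) (π : F →+* F₂) (α' : F₂ →+* F₃) (π' : F₁ →+* F₃)
    (hsq : ∀ x, α' (π x) = π' (α x)) {n : ℕ} (b : Fin n → F₁)
    (hli' : ∀ c : Fin n → F₂, ∑ i, α' (c i) * π' (b i) = 0 → c = 0)
    (c : Fin n → F) (hc : ∑ i, α (c i) * b i = 0) : c = 0 := by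
  have h := congrArg π' hc
  rw [map_sum, map_zero] at h
  have h2 : ∑ i, α' (π (c i)) * π' (b i) = 0 := by
    rw [← h]
    refine Finset.sum_congr rfl fun i _ => ?_
    rw [map_mul, hsq]
  have h3 := hli' (fun i => π (c i)) h2
  funext i
  have := congrFun h3 i
  exact (map_eq_zero π).mp this

/-- **Norm compatibility from a common basis**, for ring homomorphisms. -/
theorem s36l_norm_of_basis_ringHom (α : F →+* F₁) (π : F →+* F₂) (α' : F₂ →+* F₃)
    (π' : F₁ →+* F₃) (hsq : ∀ x, α' (π x) = π' (α x)) {n : ℕ} (b : Fin n → F₁)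
    (hspan : ∀ x : F₁, ∃ c : Fin n → F, x = ∑ i, α (c i) * b i)
    (hli' : ∀ c : Fin n → F₂, ∑ i, α' (c i) * π' (b i) = 0 → c = 0)
    (hspan' : ∀ y : F₃, ∃ c : Fin n → F₂, y = ∑ i, α' (c i) * π' (b i)) (f : F₁) :
    (letI := α'.toAlgebra; Algebra.norm F₂ (π' f)) = π (letI := α.toAlgebra; Algebra.norm F f) := by
  classical
  letI A1 : Algebra F F₁ := α.toAlgebra
  letI A3 : Algebra F₂ F₃ := α'.toAlgebra
  have hli : ∀ c : Fin n → F, ∑ i, α (c i) * b i = 0 → c = 0 :=
    s36l_li_down α π α' π' hsq b hli'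
  set B1 : Module.Basis (Fin n) F F₁ := s36l_basis α b hli hspan with hB1
  set B3 : Module.Basis (Fin n) F₂ F₃ :=
    s36l_basis α' (fun i => π' (b i)) hli' hspan' with hB3
  have hB1i : ∀ i, B1 i = b i := fun i => s36l_basis_apply α b hli hspan i
  have hB3i : ∀ i, B3 i = π' (b i) := fun i =>
    s36l_basis_apply α' (fun i => π' (b i)) hli' hspan' i
  rw [Algebra.norm_eq_matrix_det B1 f, Algebra.norm_eq_matrix_det B3 (π' f), RingHom.map_det]
  congr 1
  ext i j
  rw [RingHom.mapMatrix_apply, Matrix.map_apply, Algebra.leftMulMatrix_eq_repr_mul,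
    Algebra.leftMulMatrix_eq_repr_mul, hB3i, hB1i]
  -- coordinates of `f * b j`
  obtain ⟨c, hc⟩ := hspan (f * b j)
  have e1 : B1.repr (f * b j) i = c i := by
    rw [hc]
    exact s36l_basis_repr α b hli hspan c i
  have e3 : π' f * π' (b j) = ∑ i, α' (π (c i)) * π' (b i) := by
    rw [← map_mul, hc, map_sum]
    refine Finset.sum_congr rfl fun i _ => ?_
    rw [map_mul, hsq]
  rw [e1, e3]
  exact s36l_basis_repr α' (fun i => π' (b i)) hli' hspan' (fun i => π (c i)) i

end Norm

/-! ### The base-change square -/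

section Square

variable {K F F₁ F₂ F₃ : Type*} [Field K] [Field F] [Field F₁] [Field F₂] [Field F₃]
  [Algebra K F] [Algebra K F₁] [Algebra K F₂] [Algebra K F₃]

/-- **Norm compatibility from a common basis**, in the shape of the hypothesis `hnorm` of
`s37l_baseChange`. -/
theorem s36l_norm_of_basis (α : F →ₐ[K] F₁) (π : F →ₐ[K] F₂) (α' : F₂ →ₐ[K] F₃)
    (π' : F₁ →ₐ[K] F₃) (hsq : α'.comp π = π'.comp α) {n : ℕ} (b : Fin n → F₁)
    (hspan : ∀ x : F₁, ∃ c : Fin n → F, x = ∑ i, α (c i) * b i)
    (hli' : ∀ c : Fin n → F₂, ∑ i, α' (c i) * π' (b i) = 0 → c = 0)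
    (hspan' : ∀ y : F₃, ∃ c : Fin n → F₂, y = ∑ i, α' (c i) * π' (b i)) (f : F₁) :
    (letI := algebraAlong α'; Algebra.norm F₂ (π' f)) =
      π (letI := algebraAlong α; Algebra.norm F f) :=
  s36l_norm_of_basis_ringHom α.toRingHom π.toRingHom α'.toRingHom π'.toRingHom
    (fun x => DFunLike.congr_fun hsq x) b hspan hli' hspan' f

variable [HasPrincipalDivisors K F₁] [HasPrincipalDivisors K F₂] [HasPrincipalDivisors K F₃]
  [CharZero F]

/-- **(L1) The base-change square from a common basis**: `π^* ∘ α_* = α'_* ∘ π'^*` on divisors. -/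
theorem s36l_square (α : F →ₐ[K] F₁) (π : F →ₐ[K] F₂) (α' : F₂ →ₐ[K] F₃) (π' : F₁ →ₐ[K] F₃)
    (hsq : α'.comp π = π'.comp α)
    (hα : α.toRingHom.IsIntegral) (hπ : π.toRingHom.IsIntegral)
    (hα' : α'.toRingHom.IsIntegral) (hπ' : π'.toRingHom.IsIntegral)
    (hfinα : FiniteAlong K α) (hNα : NormFormulaAlong K α hfinα)
    (hfinα' : FiniteAlong K α') (hNα' : NormFormulaAlong K α' hfinα')
    {n : ℕ} (b : Fin n → F₁)
    (hspan : ∀ x : F₁, ∃ c : Fin n → F, x = ∑ i, α (c i) * b i)
    (hli' : ∀ c : Fin n → F₂, ∑ i, α' (c i) * π' (b i) = 0 → c = 0)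
    (hspan' : ∀ y : F₃, ∃ c : Fin n → F₂, y = ∑ i, α' (c i) * π' (b i))
    (E : Divisor K F₁) :
    Divisor.pullbackAlong π hπ (Divisor.pushforwardAlong α hα E) =
      Divisor.pushforwardAlong α' hα' (Divisor.pullbackAlong π' hπ' E) :=
  s37l_baseChange α π α' π' hsq hα hπ hα' hπ' hfinα hNα hfinα' hNα'
    (s36l_norm_of_basis α π α' π' hsq b hspan hli' hspan')
    (fun u => s37l_weakApproxAlong α hα hfinα u) E

end Square

/-! ### Variant: linear independence + degrees -/

section Degrees

variable {F F₁ : Type*} [Field F] [Field F₁]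

/-- a linearly independent family of the right cardinality spans. -/
theorem s36l_span_of_li (φ : F →+* F₁) {n : ℕ} (hn : 0 < n) (b : Fin n → F₁)
    (hli : ∀ c : Fin n → F, ∑ i, φ (c i) * b i = 0 → c = 0)
    (hdeg : (letI := φ.toAlgebra; Module.finrank F F₁) = n) (x : F₁) :
    ∃ c : Fin n → F, x = ∑ i, φ (c i) * b i := by
  classical
  letI := φ.toAlgebra
  have hLI : LinearIndependent F b := by
    rw [Fintype.linearIndependent_iff]
    intro c hc i
    have h : ∑ i, φ (c i) * b i = 0 := by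
      rw [← hc]
      exact Finset.sum_congr rfl fun i _ => (Algebra.smul_def (c i) (b i)).symm
    exact congrFun (hli c h) i
  have hcard : Fintype.card (Fin n) = Module.finrank F F₁ := by
    rw [Fintype.card_fin, hdeg]
  haveI : Module.Finite F F₁ := Module.finite_of_finrank_pos (by rw [hdeg]; exact hn)
  haveI : Nonempty (Fin n) := ⟨⟨0, hn⟩⟩
  set B := basisOfLinearIndependentOfCardEqFinrank hLI hcard with hB
  refine ⟨fun i => B.repr x i, ?_⟩
  have h := (B.sum_repr x).symm
  refine h.trans (Finset.sum_congr rfl fun i _ => ?_)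
  rw [hB, coe_basisOfLinearIndependentOfCardEqFinrank, Algebra.smul_def]
  rfl

end Degrees

section SquareLI

variable {K F F₁ F₂ F₃ : Type*} [Field K] [Field F] [Field F₁] [Field F₂] [Field F₃]
  [Algebra K F] [Algebra K F₁] [Algebra K F₂] [Algebra K F₃]
  [HasPrincipalDivisors K F₁] [HasPrincipalDivisors K F₂] [HasPrincipalDivisors K F₃]
  [CharZero F]

/-- **(L1), variant**: the base-change square from a family `b` whose image `π' ∘ b` is linearly
independent over `α' F₂`, when both extensions have degree `n = card b`. -/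
theorem s36l_square_of_li (α : F →ₐ[K] F₁) (π : F →ₐ[K] F₂) (α' : F₂ →ₐ[K] F₃)
    (π' : F₁ →ₐ[K] F₃) (hsq : α'.comp π = π'.comp α)
    (hα : α.toRingHom.IsIntegral) (hπ : π.toRingHom.IsIntegral)
    (hα' : α'.toRingHom.IsIntegral) (hπ' : π'.toRingHom.IsIntegral)
    (hfinα : FiniteAlong K α) (hNα : NormFormulaAlong K α hfinα)
    (hfinα' : FiniteAlong K α') (hNα' : NormFormulaAlong K α' hfinα')
    {n : ℕ} (hn : 0 < n) (b : Fin n → F₁)
    (hli' : ∀ c : Fin n → F₂, ∑ i, α' (c i) * π' (b i) = 0 → c = 0)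
    (hdeg : finrankAlong K α = n) (hdeg' : finrankAlong K α' = n)
    (E : Divisor K F₁) :
    Divisor.pullbackAlong π hπ (Divisor.pushforwardAlong α hα E) =
      Divisor.pushforwardAlong α' hα' (Divisor.pullbackAlong π' hπ' E) := by
  have hli : ∀ c : Fin n → F, ∑ i, α (c i) * b i = 0 → c = 0 :=
    s36l_li_down α.toRingHom π.toRingHom α'.toRingHom π'.toRingHom
      (fun x => DFunLike.congr_fun hsq x) b hli'
  exact s36l_square α π α' π' hsq hα hπ hα' hπ' hfinα hNα hfinα' hNα' b
    (s36l_span_of_li α.toRingHom hn b hli hdeg) hli'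
    (s36l_span_of_li α'.toRingHom hn (fun i => π' (b i)) hli' hdeg') E

end SquareLI

end

end Fermat.Agent.Lib.S36
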