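/-
S36 project, package (L2) (helper9), part 3: THE PULL-BACK `π^* : J₀(N) → J₀(N')` (`N ∣ N'`) AND THE
BASE-CHANGE SQUARES WITH `α_*`, `β_*`.

* `s36p_pull h : JZero N →+ JZero N'`, Galois equivariant (`s36p_pull_smul`), kernel killed by the
  degree `[F̄(N') : F̄(N)]` (`s36p_pull_eq_zero`);
* for a prime `q ∣ N` and `N ∣ N'`:
    `s36p_pull_betaPush  : β_* (π^* z) = π^* (β_* z)`            (no further hypothesis),
    `s36p_pull_alphaPush : α_* (π^* z) = π^* (α_* z)`            (if `N' q / (N q)` is prime to `q`),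
  with `α_*, β_*` helper1's `s36w_alphaPush`, `s36w_betaPush` at the levels `N q → N`, `N' q → N'`.
  Proof: helper2's `s36l_square_of_li` with the common bases `j^i` (β) resp. `j(q^(N q))^i` (α),
  `i < q`; independence from `PIndep.lean`, degrees from `MFricke.lean`.
-/
import Fermat.Agent.Lib.S36.PIndep
import Fermat.Agent.Lib.S36.LSquare
import Fermat.Agent.Lib.S36.WFinite
import Fermat.Agent.Lib.S37.LHecke

set_option autoImplicit false
set_option linter.unusedSectionVars false
set_option linter.style.haveILetI false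

noncomputable section

namespace Fermat.Agent.Lib.S36

open ModularCurve AlgebraicCurve Fermat.Agent.Lib.FF Fermat.Agent.Lib.S18
  Fermat.Agent.Lib.S28 Fermat.Agent.Lib.S29 Fermat.Agent.Lib.S35 Fermat.Agent.Lib.S37

local notation "Kb" => AlgebraicClosure ℚ

section Pull

variable {N N' : ℕ} [NeZero N] [NeZero N'] (h : N ∣ N')

theorem s36p_incl_integral : (s37l_incl N N' h).toRingHom.IsIntegral :=
  s37h_isIntegral_of_finiteAlong _ (s36w_finiteAlong _)

theorem s36p_incl_FI : FundamentalIdentityAlong Kb (s37l_incl N N' h) (s36p_incl_integral h) :=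
  s37h_fundamentalIdentityAlong _ (s36w_finiteAlong _) _

/-- **the pull-back of divisor classes** `π^* : J₀(N) → J₀(N')` along the level inclusion. -/
def s36p_pull : JZero N →+ JZero N' :=
  s37l_pic0Pullback (s37l_incl N N' h) (s36p_incl_integral h) (s36p_incl_FI h)

theorem s36p_pull_mk (D : Divisor.degZero (K := Kb) (F := ffi_F N)) :
    s36p_pull h (Pic0.mk D) =
      Pic0.mk (s37l_degZeroPullback (s37l_incl N N' h) (s36p_incl_integral h) (s36p_incl_FI h) D) :=
  rfl

/-- `π^*` is Galois equivariant. -/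
theorem s36p_pull_smul (σ : s29k_G) (x : JZero N) :
    s36p_pull h (σ • x) = σ • s36p_pull h x := by
  rw [galois_smul_pic0_def, galois_smul_pic0_def]
  exact s37l_pic0Pullback_smul _ _ _ _ _ (s37l_incl_intertwines N N' h σ) x

/-- the kernel of `π^*` is killed by the degree. -/
theorem s36p_pull_eq_zero (x : JZero N) (hx : s36p_pull h x = 0) :
    finrankAlong Kb (s37l_incl N N' h) • x = 0 := by
  refine s37l_pic0Pullback_eq_zero (s37l_incl N N' h) (s36p_incl_integral h) (s36p_incl_FI h)
    (s36w_finiteAlong _) (s37h_normFormulaAlong _ (s36w_finiteAlong _))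
    (finrankAlong Kb (s37l_incl N N' h)) (fun v => ?_) x hx
  exact s37l_sum_e_f _ _ (s36w_finiteAlong _) v

end Pull

theorem s36p_dvd_top (N N' q : ℕ) (h : N ∣ N') : N * q ∣ N' * q := Nat.mul_dvd_mul_right h q

section Squares

variable (N N' q : ℕ) [NeZero N] [NeZero N'] [NeZero q] (h : N ∣ N')

/-- the `α`-square commutes. -/
theorem s36p_sq_alpha :
    (heckeAlphaBar Kb N' q).comp (s37l_incl N N' h) =
      (s37l_incl (N * q) (N' * q) (s36p_dvd_top N N' q h)).comp (heckeAlphaBar Kb N q) := by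
  apply AlgHom.ext
  intro x
  apply Subtype.ext
  rw [AlgHom.comp_apply, AlgHom.comp_apply, coe_heckeAlphaBar, s37l_coe_incl, s37l_coe_incl,
    coe_heckeAlphaBar]

/-- the `β`-square commutes. -/
theorem s36p_sq_beta :
    (heckeBetaBar Kb N' q).comp (s37l_incl N N' h) =
      (s37l_incl (N * q) (N' * q) (s36p_dvd_top N N' q h)).comp (heckeBetaBar Kb N q) := by
  apply AlgHom.ext
  intro x
  apply Subtype.ext
  rw [AlgHom.comp_apply, AlgHom.comp_apply, coe_heckeBetaBar, s37l_coe_incl, s37l_coe_incl,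
    coe_heckeBetaBar]

/-- the level inclusion maps generators to generators. -/
theorem s36p_incl_jd {L L' : ℕ} [NeZero L] [NeZero L'] (hL : L ∣ L') (d : ℕ) [NeZero d]
    (hd : d ∣ L) :
    s37l_incl L L' hL (s36p_jd L d hd) = s36p_jd L' d (hd.trans hL) := by
  apply Subtype.ext
  rw [s37l_coe_incl]
  rfl

/-- **the `β`-square on divisors**, `q ∣ N` prime. -/
theorem s36p_div_square_beta (hq : q.Prime) (hqN : q ∣ N)
    (E : Divisor Kb (ffi_F (N * q))) :
    Divisor.pullbackAlong (s37l_incl N N' h) (s36p_incl_integral h)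
        (Divisor.pushforwardAlong (heckeBetaBar Kb N q) (s36w_betaIntegral N q) E) =
      Divisor.pushforwardAlong (heckeBetaBar Kb N' q) (s36w_betaIntegral N' q)
        (Divisor.pullbackAlong (s37l_incl (N * q) (N' * q) (s36p_dvd_top N N' q h))
          (s36p_incl_integral _) E) := by
  have hqN' : q ∣ N' := hqN.trans h
  refine s36l_square_of_li (heckeBetaBar Kb N q) (s37l_incl N N' h) (heckeBetaBar Kb N' q)
    (s37l_incl (N * q) (N' * q) (s36p_dvd_top N N' q h)) (s36p_sq_beta N N' q h)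
    (s36w_betaIntegral N q) (s36p_incl_integral h) (s36w_betaIntegral N' q)
    (s36p_incl_integral _) (s36w_finite_beta N q) (s37h_normFormulaAlong _ _)
    (s36w_finite_beta N' q) (s37h_normFormulaAlong _ _) hq.pos
    (fun i : Fin q => (s36p_jd (N * q) 1 (one_dvd _)) ^ (i : ℕ)) ?_
    (s36m_finrank_beta_of_dvd N q hq hqN) (s36m_finrank_beta_of_dvd N' q hq hqN') E
  intro c hc
  simp only [map_pow, s36p_incl_jd] at hc
  refine s36p_indep_beta N' q (s36p_jd (N' * q) 1 _) (s36p_jd_ne_zero _ _ _) ?_ c hc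
  rw [s36p_order_jd]
  exact (isCoprime_one_left).neg_left

/-- **the `α`-square on divisors**, `q ∣ N` prime, `N' q / (N q)` prime to `q`. -/
theorem s36p_div_square_alpha (hq : q.Prime) (hqN : q ∣ N)
    (hcop : Nat.Coprime (N' * q / (N * q)) q)
    (E : Divisor Kb (ffi_F (N * q))) :
    Divisor.pullbackAlong (s37l_incl N N' h) (s36p_incl_integral h)
        (Divisor.pushforwardAlong (heckeAlphaBar Kb N q) (s36w_alphaIntegral N q) E) =
      Divisor.pushforwardAlong (heckeAlphaBar Kb N' q) (s36w_alphaIntegral N' q)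
        (Divisor.pullbackAlong (s37l_incl (N * q) (N' * q) (s36p_dvd_top N N' q h))
          (s36p_incl_integral _) E) := by
  have hqN' : q ∣ N' := hqN.trans h
  refine s36l_square_of_li (heckeAlphaBar Kb N q) (s37l_incl N N' h) (heckeAlphaBar Kb N' q)
    (s37l_incl (N * q) (N' * q) (s36p_dvd_top N N' q h)) (s36p_sq_alpha N N' q h)
    (s36w_alphaIntegral N q) (s36p_incl_integral h) (s36w_alphaIntegral N' q)
    (s36p_incl_integral _) (s36w_finite_alpha N q) (s37h_normFormulaAlong _ _)
    (s36w_finite_alpha N' q) (s37h_normFormulaAlong _ _) hq.pos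
    (fun i : Fin q => (s36p_jd (N * q) (N * q) dvd_rfl) ^ (i : ℕ)) ?_
    (s36m_finrank_alpha_of_dvd N q hq hqN) (s36m_finrank_alpha_of_dvd N' q hq hqN') E
  intro c hc
  simp only [map_pow, s36p_incl_jd] at hc
  refine s36p_indep_alpha N' q (s36p_jd (N' * q) (N * q) _) (s36p_jd_ne_zero _ _ _) ?_ c hc
  rw [s36p_order_fricke_jd]
  exact (Nat.isCoprime_iff_coprime.mpr hcop).neg_left

end Squares

section Pic0Squares

variable (N N' q : ℕ) [NeZero N] [NeZero N'] [NeZero q] (h : N ∣ N')

/-- **`β_* ∘ π^* = π^* ∘ β_*`** on divisor classes, `q ∣ N` prime. -/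
theorem s36p_pull_betaPush (hq : q.Prime) (hqN : q ∣ N) (z : JZero (N * q)) :
    s36w_betaPush N' q (s36p_pull (s36p_dvd_top N N' q h) z) =
      s36p_pull h (s36w_betaPush N q z) := by
  obtain ⟨D, rfl⟩ := Pic0.mk_surjective z
  rw [s36p_pull_mk, s36w_betaPush_mk', s36w_betaPush_mk', s36p_pull_mk]
  refine congrArg Pic0.mk (Subtype.ext ?_)
  rw [s35c_coe_degZeroPush, s37l_coe_degZeroPullback, s37l_coe_degZeroPullback,
    s35c_coe_degZeroPush]
  exact (s36p_div_square_beta N N' q h hq hqN _).symm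

/-- **`α_* ∘ π^* = π^* ∘ α_*`** on divisor classes, `q ∣ N` prime, `N' q / (N q)` prime to `q`. -/
theorem s36p_pull_alphaPush (hq : q.Prime) (hqN : q ∣ N)
    (hcop : Nat.Coprime (N' * q / (N * q)) q) (z : JZero (N * q)) :
    s36w_alphaPush N' q (s36p_pull (s36p_dvd_top N N' q h) z) =
      s36p_pull h (s36w_alphaPush N q z) := by
  obtain ⟨D, rfl⟩ := Pic0.mk_surjective z
  rw [s36p_pull_mk, s36w_alphaPush_mk', s36w_alphaPush_mk', s36p_pull_mk]
  refine congrArg Pic0.mk (Subtype.ext ?_)
  rw [s35c_coe_degZeroPush, s37l_coe_degZeroPullback, s37l_coe_degZeroPullback,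
    s35c_coe_degZeroPush]
  exact (s36p_div_square_alpha N N' q h hq hqN hcop _).symm

end Pic0Squares

end Fermat.Agent.Lib.S36
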