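/-
S36 project, package (L2) (helper9), part 5: THE BASES OF `𝓕_{Nq}` OVER `α 𝓕_N` AND OVER `β 𝓕_N`
FOR A PRIME `q ∣ N`, OVER AN ARBITRARY FIELD OF CONSTANTS `K₀ ⊂ ℚ̄` (helper6's request #1734: the
`hspan` of lead's `s36c_fund` / `s36c_fund_insep`).

For `φ : K₀ →+* ℚ̄`, `q ∣ N` prime:
* `s36p_finrank_alphaK`, `s36p_finrank_betaK` : `[𝓕_{Nq,K₀} : α 𝓕_{N,K₀}] = [… : β …] = q`;
* `s36p_li_alphaK`, `s36p_li_betaK` : `j(q^(Nq))^k` resp. `j^k`, `k < q`, are linearly independent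
  over `α 𝓕_{N,K₀}` resp. `β 𝓕_{N,K₀}`;
* `s36p_span_alphaK`, `s36p_span_betaK` : they span; `s36p_exists_span_alphaK/_betaK` : the
  existential form.
Proof: base change `ι : 𝓕_{·,K₀} → 𝓕_{·,ℚ̄}`: the degrees can only drop (`s36v_indep_along`), and the
families stay independent over `ℚ̄` (`PIndep.lean`).
-/
import Fermat.Agent.Lib.S36.PSquare
import Fermat.Agent.Lib.S36.VNormCompat

set_option autoImplicit false
set_option linter.unusedSectionVars false
set_option linter.style.haveILetI false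

noncomputable section

namespace Fermat.Agent.Lib.S36

open Module ModularCurve AlgebraicCurve Fermat.Agent.Lib.FF Fermat.Agent.Lib.S18
  Fermat.Agent.Lib.S28 Fermat.Agent.Lib.S34 Fermat.Agent.Lib.S35 Fermat.Agent.Lib.S37

local notation "Kb" => AlgebraicClosure ℚ

variable {K₀ : Type*} [Field K₀] [Algebra ℚ K₀] (φ : K₀ →+* Kb)

section Generic

variable (N N' : ℕ) [NeZero N] [NeZero N']
variable (ψ₀ : s34m_F K₀ N →ₐ[K₀] s34m_F K₀ N') (ψ : ffi_F N →ₐ[Kb] ffi_F N')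

/-- the degree over `K₀` is at most the degree over `ℚ̄`. -/
theorem s36p_finrank_le
    (hcomm : ∀ y : s34m_F K₀ N, s34m_iota φ N' (ψ₀ y) = ψ (s34m_iota φ N y)) :
    finrankAlong K₀ ψ₀ ≤ finrankAlong Kb ψ := by
  have hfin : FiniteAlong Kb ψ := s36w_finiteAlong ψ
  have hfin₀ : FiniteAlong K₀ ψ₀ := s36v_finite_along φ N N' ψ₀ ψ hcomm hfin
  letI a0 : Algebra (s34m_F K₀ N) (s34m_F K₀ N') := algebraAlong ψ₀
  letI a1 : Algebra (ffi_F N) (ffi_F N') := algebraAlong ψ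
  haveI : Module.Finite (s34m_F K₀ N) (s34m_F K₀ N') := hfin₀
  haveI : Module.Finite (ffi_F N) (ffi_F N') := hfin
  haveI : Module.Free (s34m_F K₀ N) (s34m_F K₀ N') := Module.Free.of_divisionRing _ _
  let B := Module.finBasis (s34m_F K₀ N) (s34m_F K₀ N')
  have h1 := s36v_indep_along φ N N' ψ₀ ψ hcomm (fun i => B i) B.linearIndependent
  have h2 := h1.fintype_card_le_finrank
  rw [Fintype.card_fin] at h2
  exact h2

end Generic

section Gens

variable (N : ℕ) [NeZero N]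

/-- the generator `j(q^d) ∈ 𝓕_{N,K₀}`, `d ∣ N`. -/
def s36p_jdK (K₀ : Type*) [Field K₀] [Algebra ℚ K₀] (d : ℕ) [NeZero d] (hd : d ∣ N) :
    s34m_F K₀ N :=
  ⟨coeffEmb K₀ (qExpand ℚ d jq), coeffEmb_mem_laurentBaseChange K₀ (jqd_mem_full N hd)⟩

theorem s36p_jdK_coe (d : ℕ) [NeZero d] (hd : d ∣ N) :
    ((s36p_jdK N K₀ d hd : s34m_F K₀ N) : LaurentSeries K₀) = coeffEmb K₀ (qExpand ℚ d jq) := rfl

theorem s36p_iota_jdK (d : ℕ) [NeZero d] (hd : d ∣ N) :
    s34m_iota φ N (s36p_jdK N K₀ d hd) = s36p_jd N d hd :=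
  Subtype.ext (s34m_iota_coeffEmb φ N _ (jqd_mem_full N hd))

end Gens

section Prime

variable (N q : ℕ) [NeZero N] [NeZero q]

include φ in
/-- `j(q^(Nq))^k`, `k < q`, are linearly independent over `α 𝓕_{N,K₀}`. -/
theorem s36p_li_alphaK (c : Fin q → s34m_F K₀ N)
    (h : ∑ k : Fin q, heckeAlphaBar K₀ N q (c k) * (s36p_jdK (N * q) K₀ (N * q) dvd_rfl) ^ (k : ℕ)
      = 0) : c = 0 := by
  have h1 := congrArg (s34m_iota φ (N * q)) h
  rw [map_sum, map_zero] at h1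
  have h2 : ∑ k : Fin q, heckeAlphaBar Kb N q (s34m_iota φ N (c k)) *
      (s36p_jd (N * q) (N * q) dvd_rfl) ^ (k : ℕ) = 0 := by
    rw [← h1]
    refine Finset.sum_congr rfl fun k _ => ?_
    rw [map_mul, map_pow, s34m_iota_alpha, s36p_iota_jdK]
  have hcop : IsCoprime ((s36m_fricke (N * q) (s36p_jd (N * q) (N * q) dvd_rfl) :
      ffi_F (N * q)) : LaurentSeries Kb).order (q : ℤ) := by
    rw [s36p_order_fricke_jd, Nat.div_self (Nat.pos_of_ne_zero (NeZero.ne (N * q)))]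
    exact (isCoprime_one_left).neg_left
  have key := s36p_indep_alpha N q _ (s36p_jd_ne_zero _ _ _) hcop _ h2
  funext k
  exact s34m_iota_injective φ N (by rw [congrFun key k]; simp)

include φ in
/-- `j^k`, `k < q`, are linearly independent over `β 𝓕_{N,K₀}`. -/
theorem s36p_li_betaK (c : Fin q → s34m_F K₀ N)
    (h : ∑ k : Fin q, heckeBetaBar K₀ N q (c k) * (s36p_jdK (N * q) K₀ 1 (one_dvd _)) ^ (k : ℕ)
      = 0) : c = 0 := by
  have h1 := congrArg (s34m_iota φ (N * q)) h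
  rw [map_sum, map_zero] at h1
  have h2 : ∑ k : Fin q, heckeBetaBar Kb N q (s34m_iota φ N (c k)) *
      (s36p_jd (N * q) 1 (one_dvd _)) ^ (k : ℕ) = 0 := by
    rw [← h1]
    refine Finset.sum_congr rfl fun k _ => ?_
    rw [map_mul, map_pow, s34m_iota_beta, s36p_iota_jdK]
  have hcop : IsCoprime ((s36p_jd (N * q) 1 (one_dvd _) : ffi_F (N * q)) :
      LaurentSeries Kb).order (q : ℤ) := by
    rw [s36p_order_jd]
    exact (isCoprime_one_left).neg_left
  have key := s36p_indep_beta N q _ (s36p_jd_ne_zero _ _ _) hcop _ h2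
  funext k
  exact s34m_iota_injective φ N (by rw [congrFun key k]; simp)

/-- a family of `n` independent vectors bounds the degree from below. -/
theorem s36p_le_finrank_of_li {F F₁ : Type*} [Field F] [Field F₁] (ψ : F →+* F₁)
    (hfin : letI := ψ.toAlgebra; Module.Finite F F₁) {n : ℕ} (b : Fin n → F₁)
    (hli : ∀ c : Fin n → F, ∑ i, ψ (c i) * b i = 0 → c = 0) :
    n ≤ (letI := ψ.toAlgebra; Module.finrank F F₁) := by
  letI := ψ.toAlgebra
  haveI : Module.Finite F F₁ := hfin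
  have hLI : LinearIndependent F b := by
    rw [Fintype.linearIndependent_iff]
    intro c hc i
    have h : ∑ i, ψ (c i) * b i = 0 := by
      rw [← hc]
      exact Finset.sum_congr rfl fun i _ => (Algebra.smul_def (c i) (b i)).symm
    exact congrFun (hli c h) i
  have := hLI.fintype_card_le_finrank
  rwa [Fintype.card_fin] at this

include φ in
/-- **`[𝓕_{Nq,K₀} : α 𝓕_{N,K₀}] = q`** for a prime `q ∣ N`. -/
theorem s36p_finrank_alphaK (hq : q.Prime) (hqN : q ∣ N) :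
    finrankAlong K₀ (heckeAlphaBar K₀ N q) = q := by
  apply le_antisymm
  · have h := s36p_finrank_le φ N (N * q) (heckeAlphaBar K₀ N q) (heckeAlphaBar Kb N q)
      (fun y => s34m_iota_alpha φ N q y)
    rwa [s36m_finrank_alpha_of_dvd N q hq hqN] at h
  · exact s36p_le_finrank_of_li (heckeAlphaBar K₀ N q).toRingHom (s36v_finite_alpha φ N q) _
      (s36p_li_alphaK φ N q)

include φ in
/-- **`[𝓕_{Nq,K₀} : β 𝓕_{N,K₀}] = q`** for a prime `q ∣ N`. -/
theorem s36p_finrank_betaK (hq : q.Prime) (hqN : q ∣ N) :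
    finrankAlong K₀ (heckeBetaBar K₀ N q) = q := by
  apply le_antisymm
  · have h := s36p_finrank_le φ N (N * q) (heckeBetaBar K₀ N q) (heckeBetaBar Kb N q)
      (fun y => s34m_iota_beta φ N q y)
    rwa [s36m_finrank_beta_of_dvd N q hq hqN] at h
  · exact s36p_le_finrank_of_li (heckeBetaBar K₀ N q).toRingHom (s36v_finite_beta φ N q) _
      (s36p_li_betaK φ N q)

include φ in
/-- **`j(q^(Nq))^k`, `k < q`, span `𝓕_{Nq,K₀}` over `α 𝓕_{N,K₀}`** (`q ∣ N` prime). -/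
theorem s36p_span_alphaK (hq : q.Prime) (hqN : q ∣ N) (y : s34m_F K₀ (N * q)) :
    ∃ c : Fin q → s34m_F K₀ N,
      y = ∑ k : Fin q, heckeAlphaBar K₀ N q (c k) *
        (s36p_jdK (N * q) K₀ (N * q) dvd_rfl) ^ (k : ℕ) :=
  s36l_span_of_li (heckeAlphaBar K₀ N q).toRingHom hq.pos _ (s36p_li_alphaK φ N q)
    (s36p_finrank_alphaK φ N q hq hqN) y

include φ in
/-- **`j^k`, `k < q`, span `𝓕_{Nq,K₀}` over `β 𝓕_{N,K₀}`** (`q ∣ N` prime). -/
theorem s36p_span_betaK (hq : q.Prime) (hqN : q ∣ N) (y : s34m_F K₀ (N * q)) :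
    ∃ c : Fin q → s34m_F K₀ N,
      y = ∑ k : Fin q, heckeBetaBar K₀ N q (c k) *
        (s36p_jdK (N * q) K₀ 1 (one_dvd _)) ^ (k : ℕ) :=
  s36l_span_of_li (heckeBetaBar K₀ N q).toRingHom hq.pos _ (s36p_li_betaK φ N q)
    (s36p_finrank_betaK φ N q hq hqN) y

include φ in
/-- existential form (helper6 #1734), `α`. -/
theorem s36p_exists_span_alphaK (hq : q.Prime) (hqN : q ∣ N) :
    ∃ b : Fin q → s34m_F K₀ (N * q), ∀ y, ∃ c : Fin q → s34m_F K₀ N,
      y = ∑ k, heckeAlphaBar K₀ N q (c k) * b k :=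
  ⟨_, s36p_span_alphaK φ N q hq hqN⟩

include φ in
/-- existential form (helper6 #1734), `β`. -/
theorem s36p_exists_span_betaK (hq : q.Prime) (hqN : q ∣ N) :
    ∃ b : Fin q → s34m_F K₀ (N * q), ∀ y, ∃ c : Fin q → s34m_F K₀ N,
      y = ∑ k, heckeBetaBar K₀ N q (c k) * b k :=
  ⟨_, s36p_span_betaK φ N q hq hqN⟩

end Prime

end Fermat.Agent.Lib.S36
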