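/-
S36 mega-project, layer (M), piece (D2) of helper6 (#1756) (helper3, prefix `s36m_rc`):
**(H4) RESIDUE DEGREES AND (H5) COMPLETENESS** of the three valuation rings `V 0, V 1, V 2` of the
function field of level `M q²`, from the comaps (H1/H2), the uniformisers (H3), the independence
(H9) and the reductions (H6), for an ARBITRARY family `V` (GeoFrame.lean).

Route: lead's `s36c_fund` twice (`α'` over `V'_∞` with `V 1, V 0`; `β'` over `V'_0` with `V 1, V 2`)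
and `s36c_fund_insep` twice (`β'` over `V'_∞` with `V 0`, `y₀ = j`; `α'` over `V'_0` with `V 2`,
`y₀ = j_{q²}`), spanning families from helper9's `PSpanK.lean`, independence of the powers of `J`
over `κ((T^q))` from helper9's `PIndep.lean`.
-/
import Fermat.Agent.Lib.S36.MResAbs
import Fermat.Agent.Lib.S36.MContracts
import Fermat.Agent.Lib.S36.CFund2
import Fermat.Agent.Lib.S36.CFundInsep
import Fermat.Agent.Lib.S36.PSpanK
import Fermat.Agent.Lib.S36.PIndep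
import Fermat.Agent.Lib.S36.XBase
import Fermat.Agent.Lib.S34.DFibreF

set_option autoImplicit false
set_option linter.unusedSectionVars false
set_option linter.style.haveILetI false

noncomputable section

namespace Fermat.Agent.Lib.S36

open ModularCurve AlgebraicCurve HahnSeries Fermat.Agent.Lib.FF Fermat.Agent.Lib.S18
  Fermat.Agent.Lib.S37 Fermat.Agent.Lib.S34

local notation "Kb" => AlgebraicClosure ℚ

variable {K₀ : Type} [Field K₀] [Algebra ℚ K₀] {κ : Type} [Field κ] (G : s18g_GaussData K₀ κ)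
  (φ : K₀ →+* Kb) (M q : ℕ) [NeZero M] [NeZero q] (hq : q.Prime) (hqM : ¬ q ∣ M)
  (V : Fin 3 → ValuationSubring (s34m_F K₀ (M * q * q)))

/-! ### Memberships -/

variable {V}

theorem s36m_rc_beta_mem_iff (hC : s36g_ValComap G φ M q hq hqM V) (x : s34m_F K₀ (M * q)) :
    (s36g_beta M q x ∈ V 0 ↔ x ∈ s34m_Vinf G (M * q)) ∧
    (s36g_beta M q x ∈ V 1 ↔ x ∈ s34m_Vzero G φ M q hq hqM) ∧
    (s36g_beta M q x ∈ V 2 ↔ x ∈ s34m_Vzero G φ M q hq hqM) := by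
  obtain ⟨-, -, h0, -, h1, -, h2⟩ := hC
  have e0 : x ∈ (V 0).comap (s36g_beta M q) ↔ s36g_beta M q x ∈ V 0 :=
    ValuationSubring.mem_comap
  have e1 : x ∈ (V 1).comap (s36g_beta M q) ↔ s36g_beta M q x ∈ V 1 :=
    ValuationSubring.mem_comap
  have e2 : x ∈ (V 2).comap (s36g_beta M q) ↔ s36g_beta M q x ∈ V 2 :=
    ValuationSubring.mem_comap
  rw [h0] at e0
  rw [h1] at e1
  rw [h2] at e2
  exact ⟨e0.symm, e1.symm, e2.symm⟩

/-- `j_{q²} = β'(β j)` lies in every `V i`. -/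
theorem s36m_rc_jqq_mem (hC : s36g_ValComap G φ M q hq hqM V) (i : Fin 3) :
    s36m_jqq (K₀ := K₀) M q ∈ V i := by
  have h := s36m_rc_beta_mem_iff G φ M q hq hqM hC (s34m_betaJ (K₀ := K₀) M q)
  fin_cases i
  · exact h.1.mpr (s34m_betaJ_mem_Vinf G M q)
  · exact h.2.1.mpr (s34m_betaJ_mem_Vzero G φ M q hq hqM)
  · exact h.2.2.mpr (s34m_betaJ_mem_Vzero G φ M q hq hqM)

/-- `j = α'(j)` lies in every `V i`. -/
theorem s36m_rc_jF_mem (hC : s36g_ValComap G φ M q hq hqM V) (i : Fin 3) :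
    s18g_jF (K := K₀) (M * q * q) ∈ V i := by
  have h := s36b_alpha_mem_iff G φ M q hq hqM hC (s18g_jF (K := K₀) (M * q))
  have e : s36g_alpha M q (s18g_jF (K := K₀) (M * q)) = s18g_jF (K := K₀) (M * q * q) :=
    s34m_alpha_jF (M * q) q
  rw [e] at h
  fin_cases i
  · exact h.1.mpr (s34m_jF_mem_VV G φ M q hq hqM true)
  · exact h.2.1.mpr (s34m_jF_mem_VV G φ M q hq hqM true)
  · exact h.2.2.mpr (s34m_jF_mem_VV G φ M q hq hqM false)

/-- `t = j_{q²} - j` lies in every `V i`. -/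
theorem s36m_rc_t_mem (hC : s36g_ValComap G φ M q hq hqM V) (i : Fin 3) :
    s36m_t (K₀ := K₀) M q ∈ V i :=
  sub_mem (s36m_rc_jqq_mem G φ M q hq hqM hC i) (s36m_rc_jF_mem G φ M q hq hqM hC i)

theorem s36m_rc_alpha_unif :
    s36g_alpha M q (s34m_unif G (M * q)) = s34m_unif G (M * q * q) :=
  s34m_alpha_unif G (M * q) q

theorem s36m_rc_beta_unif :
    s36g_beta M q (s34m_unif G (M * q)) = s34m_unif G (M * q * q) :=
  (heckeBetaBar K₀ (M * q) q).commutes _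

/-! ### The two applications of `s36c_fund` -/

theorem s36m_rc_not_inv_mem {F : Type*} [Field F] (A : ValuationSubring F) {a : F}
    (ha : a ∈ A.nonunits) (ha0 : a ≠ 0) : a⁻¹ ∉ A := by
  intro h
  rw [ValuationSubring.mem_nonunits_iff] at ha
  have h1 : A.valuation a⁻¹ ≤ 1 := (A.valuation_le_one_iff _).mpr h
  have h2 : A.valuation a * A.valuation a⁻¹ = 1 := by
    rw [← map_mul, mul_inv_cancel₀ ha0, map_one]
  have h3 : A.valuation a * A.valuation a⁻¹ < 1 :=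
    lt_of_le_of_lt (mul_le_mul' le_rfl h1) (by rwa [mul_one])
  rw [h2] at h3
  exact lt_irrefl _ h3

theorem s36m_rc_mul_mem_nonunits {F : Type*} [Field F] (A : ValuationSubring F) {a b : F}
    (ha : a ∈ A.nonunits) (hb : b ∈ A) : a * b ∈ A.nonunits := by
  rw [ValuationSubring.mem_nonunits_iff] at ha ⊢
  rw [map_mul]
  calc A.valuation a * A.valuation b ≤ A.valuation a * 1 :=
        mul_le_mul' le_rfl ((A.valuation_le_one_iff b).mpr hb)
    _ = A.valuation a := mul_one _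
    _ < 1 := ha

/-- `t ≠ 0`. -/
theorem s36m_rc_t_ne_zero (hq : q.Prime) (hU : s36g_ValUnif G M q V (s36m_t M q)) :
    s36m_t (K₀ := K₀) M q ≠ 0 := by
  obtain ⟨-, -, -, -, -, ⟨u, -, -, hte⟩, -⟩ := hU
  intro h0
  have hq1 : q - 1 ≠ 0 := by
    have := hq.two_le
    omega
  rw [h0, zero_pow hq1, mul_zero] at hte
  exact s34m_unif_ne_zero G (M * q * q) hte

/-- `s36c_fund` along `α'` over `V'_∞`: the rings over `V'_∞` are `V 1` and `V 0`. -/
theorem s36m_rc_fund_alpha (hC : s36g_ValComap G φ M q hq hqM V)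
    (hU : s36g_ValUnif G M q V (s36m_t M q)) (hI : s36g_ValIndep M q V) :
    (∀ U : ValuationSubring (s34m_F K₀ (M * q * q)),
      U.comap (s36g_alpha M q) = s34m_Vinf G (M * q) → U = V 1 ∨ U = V 0) ∧
    (∀ y ∈ V 1, ∃ r ∈ s34m_Vinf G (M * q), ∃ z ∈ V 1,
      y = s36g_alpha M q r + s36m_t M q * z) ∧
    (∀ y ∈ V 0, ∃ r ∈ s34m_Vinf G (M * q), ∃ z ∈ V 0,
      y = s36g_alpha M q r + s36g_alpha M q (s34m_unif G (M * q)) * z) ∧
    (∀ x : s34m_F K₀ (M * q * q), x ≠ 0 → ∃ (n : ℤ) (v : s34m_F K₀ (M * q * q)),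
      v ∈ V 1 ∧ v⁻¹ ∈ V 1 ∧ x = s36m_t M q ^ n * v) := by
  have ht0 := s36m_rc_t_ne_zero G M q hq hU
  obtain ⟨-, -, -, ht1, -, ⟨u, hu, hu', hte⟩, -⟩ := hU
  have hunif := s36b_isUnif_VV G φ M q hq hqM true
  obtain ⟨b, hspan⟩ := s36p_exists_span_alphaK (K₀ := K₀) φ (M * q) q hq (dvd_mul_left q M)
  obtain ⟨b', hspan'⟩ := s36m_rc_cast (s36g_alpha M q) q hq.ne_zero b hspan
  exact s36c_fund (s36g_alpha M q) (s34m_Vinf G (M * q)) (s34m_unif G (M * q)) hunif.1 hunif.2.1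
    hunif.2.2 (V 1) (V 0) hC.2.2.2.1 hC.2.1 hI.1.symm (s36m_t M q) u (q - 1)
    ((V 1).nonunits_le ht1) (s36m_rc_not_inv_mem (V 1) ht1 ht0)
    (s36m_rc_t_mem G φ M q hq hqM hC 0) hu hu'
    (by rw [s36m_rc_alpha_unif]; exact hte) b' hspan'

/-- `s36c_fund` along `β'` over `V'_0`: the rings over `V'_0` are `V 1` and `V 2`. -/
theorem s36m_rc_fund_beta (hC : s36g_ValComap G φ M q hq hqM V)
    (hU : s36g_ValUnif G M q V (s36m_t M q)) (hI : s36g_ValIndep M q V) :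
    (∀ U : ValuationSubring (s34m_F K₀ (M * q * q)),
      U.comap (s36g_beta M q) = s34m_Vzero G φ M q hq hqM → U = V 1 ∨ U = V 2) ∧
    (∀ y ∈ V 1, ∃ r ∈ s34m_Vzero G φ M q hq hqM, ∃ z ∈ V 1,
      y = s36g_beta M q r + s36m_t M q * z) ∧
    (∀ y ∈ V 2, ∃ r ∈ s34m_Vzero G φ M q hq hqM, ∃ z ∈ V 2,
      y = s36g_beta M q r + s36g_beta M q (s34m_unif G (M * q)) * z) ∧
    (∀ x : s34m_F K₀ (M * q * q), x ≠ 0 → ∃ (n : ℤ) (v : s34m_F K₀ (M * q * q)),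
      v ∈ V 1 ∧ v⁻¹ ∈ V 1 ∧ x = s36m_t M q ^ n * v) := by
  have ht0 := s36m_rc_t_ne_zero G M q hq hU
  obtain ⟨-, -, -, ht1, -, ⟨u, hu, hu', hte⟩, -⟩ := hU
  have hunif := s36b_isUnif_VV G φ M q hq hqM false
  obtain ⟨b, hspan⟩ := s36p_exists_span_betaK (K₀ := K₀) φ (M * q) q hq (dvd_mul_left q M)
  obtain ⟨b', hspan'⟩ := s36m_rc_cast (s36g_beta M q) q hq.ne_zero b hspan
  exact s36c_fund (s36g_beta M q) (s34m_Vzero G φ M q hq hqM) (s34m_unif G (M * q)) hunif.1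
    hunif.2.1 hunif.2.2 (V 1) (V 2) hC.2.2.2.2.1 hC.2.2.2.2.2.2 hI.2.2 (s36m_t M q) u (q - 1)
    ((V 1).nonunits_le ht1) (s36m_rc_not_inv_mem (V 1) ht1 ht0)
    (s36m_rc_t_mem G φ M q hq hqM hC 2) hu hu'
    (by rw [s36m_rc_beta_unif]; exact hte) b' hspan'

/-! ### Series facts -/

/-- independence of `1, J, …, J^(q-1)` over `κ((T^q))`, `Fin q`-form. -/
theorem s36m_rc_indep (a : Fin q → LaurentSeries κ)
    (h : ∑ k, qExpand κ q (a k) * jqModC κ ^ (k : ℕ) = 0) : ∀ k, a k = 0 := by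
  have hcop : IsCoprime (jqModC κ).order (q : ℤ) := by
    rw [s18t_order_jqModC]
    exact isCoprime_one_left.neg_left
  set a' : ℕ → LaurentSeries κ := fun i => if h : i < q then a ⟨i, h⟩ else 0 with ha'
  have hsum : ∑ i ∈ Finset.range q, qExpand κ q (a' i) * jqModC κ ^ i = 0 := by
    rw [← Fin.sum_univ_eq_sum_range (fun i => qExpand κ q (a' i) * jqModC κ ^ i) q, ← h]
    refine Finset.sum_congr rfl fun k _ => ?_
    rw [ha']
    simp only [k.2, dif_pos, Fin.eta]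
  intro k
  have := s36p_indep_pow_over_qExpand q (jqModC κ) (jqModC_ne_zero_of_nontrivial κ) hcop a' hsum
    k (Finset.mem_range.mpr k.2)
  rw [ha'] at this
  simpa only [k.2, dif_pos, Fin.eta] using this

/-- the Frobenius of `κ((T))` as a ring homomorphism. -/
def s36m_rc_frob [Fact q.Prime] [CharP κ q] : LaurentSeries κ →+* LaurentSeries κ :=
  (qExpand κ q).comp (coeffMap (frobenius κ q))

theorem s36m_rc_frob_apply [Fact q.Prime] [CharP κ q] (x : LaurentSeries κ) :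
    s36m_rc_frob (κ := κ) q x = x ^ q := (s37e_pow_char q x).symm

/-! ### The two purely inseparable branches -/

/-- `β'` over `V'_∞`: `V 0` is the only ring, and `y ^ q ≡ β'(r)`. -/
theorem s36m_rc_insep_beta [CharP κ q] (hC : s36g_ValComap G φ M q hq hqM V)
    (hR : s36g_ValRed G φ M q hq hqM V) :
    (∀ U : ValuationSubring (s34m_F K₀ (M * q * q)),
      U.comap (s36g_beta M q) = s34m_Vinf G (M * q) → U = V 0) ∧
    (∀ y ∈ V 0, ∃ r ∈ s34m_Vinf G (M * q), y ^ q - s36g_beta M q r ∈ (V 0).nonunits) := by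
  haveI : Fact q.Prime := ⟨hq⟩
  obtain ⟨r, hker, h0α, h0β, -, -, -, -⟩ := hR
  have hunif := s36b_isUnif_VV G φ M q hq hqM true
  have hOV : ∀ x ∈ s34m_Vinf G (M * q), s36g_beta M q x ∈ V 0 :=
    fun x hx => (s36m_rc_beta_mem_iff G φ M q hq hqM hC x).1.mpr hx
  have hr : ∀ x : s34m_Vinf G (M * q),
      r 0 ⟨s36g_beta M q x, hOV x x.2⟩ = qExpand κ q (s34m_redInf G (M * q) x) :=
    fun x => h0β x _
  -- the generator `y₀ = j` and its reduction
  set y₀ : V 0 := ⟨s18g_jF (K := K₀) (M * q * q), s36m_rc_jF_mem G φ M q hq hqM hC 0⟩ with hy₀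
  have hJ : r 0 y₀ = jqModC κ := by
    have e : s36g_alpha M q (s18g_jF (K := K₀) (M * q)) = s18g_jF (K := K₀) (M * q * q) :=
      s34m_alpha_jF (M * q) q
    have hmem : s36g_alpha M q (s18g_jF (K := K₀) (M * q)) ∈ V 0 := by
      rw [e]; exact s36m_rc_jF_mem G φ M q hq hqM hC 0
    have e' : y₀ = ⟨s36g_alpha M q (s18g_jF (K := K₀) (M * q)), hmem⟩ := Subtype.ext e.symm
    rw [e', h0α ⟨s18g_jF (K := K₀) (M * q), s34m_jF_mem_Vinf G (M * q)⟩ hmem]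
    exact s34m_redInf_jF G (M * q)
  have hρ : ∀ x : s34m_Vinf G (M * q), s34m_redInf G (M * q) x = 0 →
      ∃ d ∈ s34m_Vinf G (M * q), (x : s34m_F K₀ (M * q)) = s34m_unif G (M * q) * d :=
    fun x hx => (s34m_redInf_eq_zero_iff G (M * q) x).mp hx
  have hindep : ∀ a : Fin q → LaurentSeries κ,
      ∑ k, qExpand κ q (a k) * r 0 y₀ ^ (k : ℕ) = 0 → ∀ k, a k = 0 := by
    intro a ha
    rw [hJ] at ha
    exact s36m_rc_indep q a ha
  have hind := s36m_rc_hind (s36g_beta M q) (s34m_Vinf G (M * q)) (V 0) hOV (r 0)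
    (fun y hy => (hker 0 y).mpr hy) (s34m_redInf G (M * q)) (qExpand κ q) hr
    (s34m_unif G (M * q)) hρ y₀ q hindep
  obtain ⟨b, hspan⟩ := s36p_exists_span_betaK (K₀ := K₀) φ (M * q) q hq (dvd_mul_left q M)
  obtain ⟨huniq, hbasis, -⟩ := s36c_fund_insep (s36g_beta M q) (s34m_Vinf G (M * q))
    (s34m_unif G (M * q)) hunif (V 0) hC.2.2.1 (y₀ : s34m_F K₀ (M * q * q)) y₀.2 q hind b hspan
  refine ⟨fun U hU => huniq U hU, ?_⟩
  intro y hy
  obtain ⟨c, hc, hyc⟩ := hbasis y hy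
  refine s36m_rc_pow_q (s36g_beta M q) (s34m_Vinf G (M * q)) (V 0) hOV (r 0)
    (fun y hy => (hker 0 y).mp hy) (s34m_redInf G (M * q)) (qExpand κ q) hr q
    (s36m_rc_frob q) (s36m_rc_frob_apply q) y₀
    ⟨s18g_jF (K := K₀) (M * q), s34m_jF_mem_Vinf G (M * q)⟩ ?_ c hc y hyc
  rw [hJ, s34m_redInf_jF G (M * q)]
  exact (s34df_qExpand_jqModC q hq).symm

/-- `red_0 (β j) = J`. -/
theorem s36m_rc_redZero_betaJ :
    s34m_redZero G φ M q hq hqM
      ⟨s34m_betaJ (K₀ := K₀) M q, s34m_betaJ_mem_Vzero G φ M q hq hqM⟩ = jqModC κ := by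
  have h := s34m_redZero_beta G φ M q hq hqM ⟨s18g_jF (K := K₀) M, s34m_jF_mem_Vinf G M⟩
  rw [s34m_redInf_jF G M] at h
  exact h

/-- `α'` over `V'_0`: `V 2` is the only ring, and `y ^ q ≡ α'(r)`. -/
theorem s36m_rc_insep_alpha [CharP κ q] (hC : s36g_ValComap G φ M q hq hqM V)
    (hR : s36g_ValRed G φ M q hq hqM V) :
    (∀ U : ValuationSubring (s34m_F K₀ (M * q * q)),
      U.comap (s36g_alpha M q) = s34m_Vzero G φ M q hq hqM → U = V 2) ∧
    (∀ y ∈ V 2, ∃ r ∈ s34m_Vzero G φ M q hq hqM,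
      y ^ q - s36g_alpha M q r ∈ (V 2).nonunits) := by
  haveI : Fact q.Prime := ⟨hq⟩
  obtain ⟨r, hker, -, -, -, -, h2α, h2β⟩ := hR
  have hunif := s36b_isUnif_VV G φ M q hq hqM false
  have hOV : ∀ x ∈ s34m_Vzero G φ M q hq hqM, s36g_alpha M q x ∈ V 2 :=
    fun x hx => (s36b_alpha_mem_iff G φ M q hq hqM hC x).2.2.mpr hx
  have hr : ∀ x : s34m_Vzero G φ M q hq hqM,
      r 2 ⟨s36g_alpha M q x, hOV x x.2⟩ = qExpand κ q (s34m_redZero G φ M q hq hqM x) :=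
    fun x => h2α x _
  -- the generator `y₀ = j_{q²}` and its reduction
  set y₀ : V 2 := ⟨s36m_jqq (K₀ := K₀) M q, s36m_rc_jqq_mem G φ M q hq hqM hC 2⟩ with hy₀
  have hJ : r 2 y₀ = jqModC κ := by
    have hmem : s36g_beta M q (s34m_betaJ (K₀ := K₀) M q) ∈ V 2 :=
      s36m_rc_jqq_mem G φ M q hq hqM hC 2
    have e' : y₀ = ⟨s36g_beta M q (s34m_betaJ (K₀ := K₀) M q), hmem⟩ := Subtype.ext rfl
    rw [e', h2β ⟨s34m_betaJ (K₀ := K₀) M q, s34m_betaJ_mem_Vzero G φ M q hq hqM⟩ hmem]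
    exact s36m_rc_redZero_betaJ G φ M q hq hqM
  have hρ : ∀ x : s34m_Vzero G φ M q hq hqM, s34m_redZero G φ M q hq hqM x = 0 →
      ∃ d ∈ s34m_Vzero G φ M q hq hqM, (x : s34m_F K₀ (M * q)) = s34m_unif G (M * q) * d :=
    fun x hx => (s34m_redZero_eq_zero_iff G φ M q hq hqM x).mp hx
  have hindep : ∀ a : Fin q → LaurentSeries κ,
      ∑ k, qExpand κ q (a k) * r 2 y₀ ^ (k : ℕ) = 0 → ∀ k, a k = 0 := by
    intro a ha
    rw [hJ] at ha
    exact s36m_rc_indep q a ha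
  have hind := s36m_rc_hind (s36g_alpha M q) (s34m_Vzero G φ M q hq hqM) (V 2) hOV (r 2)
    (fun y hy => (hker 2 y).mpr hy) (s34m_redZero G φ M q hq hqM) (qExpand κ q) hr
    (s34m_unif G (M * q)) hρ y₀ q hindep
  obtain ⟨b, hspan⟩ := s36p_exists_span_alphaK (K₀ := K₀) φ (M * q) q hq (dvd_mul_left q M)
  obtain ⟨huniq, hbasis, -⟩ := s36c_fund_insep (s36g_alpha M q) (s34m_Vzero G φ M q hq hqM)
    (s34m_unif G (M * q)) hunif (V 2) hC.2.2.2.2.2.1 (y₀ : s34m_F K₀ (M * q * q)) y₀.2 q hind b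
    hspan
  refine ⟨fun U hU => huniq U hU, ?_⟩
  intro y hy
  obtain ⟨c, hc, hyc⟩ := hbasis y hy
  refine s36m_rc_pow_q (s36g_alpha M q) (s34m_Vzero G φ M q hq hqM) (V 2) hOV (r 2)
    (fun y hy => (hker 2 y).mp hy) (s34m_redZero G φ M q hq hqM) (qExpand κ q) hr q
    (s36m_rc_frob q) (s36m_rc_frob_apply q) y₀
    ⟨s34m_betaJ (K₀ := K₀) M q, s34m_betaJ_mem_Vzero G φ M q hq hqM⟩ ?_ c hc y hyc
  rw [hJ, s36m_rc_redZero_betaJ G φ M q hq hqM]
  exact (s34df_qExpand_jqModC q hq).symm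

/-! ### (H4) and (H5) -/

/-- **(D2)**: residue degrees (H4) and completeness (H5) from (H1/H2), (H3), (H9), (H6). -/
theorem s36m_res_complete [CharP κ q] (V : Fin 3 → ValuationSubring (s34m_F K₀ (M * q * q)))
    (hC : s36g_ValComap G φ M q hq hqM V) (hU : s36g_ValUnif G M q V (s36m_t M q))
    (hI : s36g_ValIndep M q V) (hR : s36g_ValRed G φ M q hq hqM V) :
    s36g_ValRes G φ M q hq hqM V ∧ s36g_ValComplete G φ M q hq hqM V := by
  obtain ⟨hA1, hA2, hA3, -⟩ := s36m_rc_fund_alpha G φ M q hq hqM hC hU hI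
  obtain ⟨hB1, hB2, hB3, -⟩ := s36m_rc_fund_beta G φ M q hq hqM hC hU hI
  obtain ⟨hIβ1, hIβ2⟩ := s36m_rc_insep_beta G φ M q hq hqM hC hR
  obtain ⟨hIα1, hIα2⟩ := s36m_rc_insep_alpha G φ M q hq hqM hC hR
  have ht1 : s36m_t (K₀ := K₀) M q ∈ (V 1).nonunits := hU.2.2.2.1
  have hϖ : ∀ i, s34m_unif G (M * q * q) ∈ (V i).nonunits := hU.1
  refine ⟨⟨?_, ?_, ?_, ?_, hIα2, hIβ2⟩, ⟨?_, hIα1, hB1, hIβ1⟩⟩
  · intro y hy
    obtain ⟨r, hr, z, hz, e⟩ := hA3 y hy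
    refine ⟨r, hr, ?_⟩
    rw [e, add_sub_cancel_left, s36m_rc_alpha_unif]
    exact s36m_rc_mul_mem_nonunits (V 0) (hϖ 0) hz
  · intro y hy
    obtain ⟨r, hr, z, hz, e⟩ := hA2 y hy
    refine ⟨r, hr, ?_⟩
    rw [e, add_sub_cancel_left]
    exact s36m_rc_mul_mem_nonunits (V 1) ht1 hz
  · intro y hy
    obtain ⟨r, hr, z, hz, e⟩ := hB2 y hy
    refine ⟨r, hr, ?_⟩
    rw [e, add_sub_cancel_left]
    exact s36m_rc_mul_mem_nonunits (V 1) ht1 hz
  · intro y hy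
    obtain ⟨r, hr, z, hz, e⟩ := hB3 y hy
    refine ⟨r, hr, ?_⟩
    rw [e, add_sub_cancel_left, s36m_rc_beta_unif]
    exact s36m_rc_mul_mem_nonunits (V 2) (hϖ 2) hz
  · intro U hU'
    exact (hA1 U hU').symm

end Fermat.Agent.Lib.S36
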