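/-
S36 project, GEOMETRY side, (G)-frame instantiation (lead, prefix `s36g_`): THE CONCRETE
`s36g_RootFrame` FROM THE VALUATION PACKAGE.

From helper6's package `s36g_ValPkg G φ M q hq hqM V t` (GeoFrame.lean) we discharge every field of
helper8's frame `s36g_RootFrame G.A q V V' α' β' Nα Nβ` (GRootFrame.lean) except the four
norm–residue formulas, which stay hypotheses:

* `s36g_pkg_arch`, `s36g_pkg_nontriv`, `s36g_pkg_ne`  : rank one / non-trivial / pairwise distinct;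
* `s36g_pkg_approx`   : weak approximation for the three rings (field `approx`);
* `s36g_pkg_cstV`, `s36g_pkg_cstV'` : restriction to `G.A` on the constants;
* `s36g_frame_of_pkg` : the frame.
-/
import Fermat.Agent.Lib.S36.GeoFrame
import Fermat.Agent.Lib.S36.GRootFrame
import Fermat.Agent.Lib.S36.GApprox
import Fermat.Agent.Lib.S36.GRootInst

set_option autoImplicit false
set_option linter.unusedSectionVars false
set_option linter.style.haveILetI false

noncomputable section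

namespace Fermat.Agent.Lib.S36

open ModularCurve AlgebraicCurve HahnSeries Fermat.Agent.Lib.FF Fermat.Agent.Lib.S18
  Fermat.Agent.Lib.S37 Fermat.Agent.Lib.S34

local notation "Kb" => AlgebraicClosure ℚ

variable {K₀ : Type} [Field K₀] [Algebra ℚ K₀] {κ : Type} [Field κ] (G : s18g_GaussData K₀ κ)
  (φ : K₀ →+* Kb) (M q : ℕ) [NeZero M] [NeZero q] (hq : q.Prime) (hqM : ¬ q ∣ M)

variable (V : Fin 3 → ValuationSubring (s34m_F K₀ (M * q * q))) (t : s34m_F K₀ (M * q * q))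

/-- the three rings are non-trivial. -/
theorem s36g_pkg_nontriv (hU : s36g_ValUnif G M q V t) :
    ∀ i, ∃ b ∈ (V i).nonunits, b ≠ 0 :=
  fun i => ⟨_, hU.1 i, s34m_unif_ne_zero G (M * q * q)⟩

/-- the three rings have rank one. -/
theorem s36g_pkg_arch (hU : s36g_ValUnif G M q V t) :
    ∀ i, ∀ b ∈ (V i).nonunits, b ≠ 0 → ∀ y : s34m_F K₀ (M * q * q), ∃ k : ℕ, b ^ k * y ∈ V i := by
  obtain ⟨hϖ, h0, h2, ht, h1, ⟨u, hu, hu', hut⟩, hk⟩ := hU
  -- the two outer rings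
  have hout : ∀ i : Fin 3, (∀ y ∈ (V i).nonunits, ∃ z ∈ V i, y = s34m_unif G (M * q * q) * z) →
      ∀ b ∈ (V i).nonunits, b ≠ 0 → ∀ y : s34m_F K₀ (M * q * q), ∃ k : ℕ, b ^ k * y ∈ V i := by
    intro i hi b hb _ y
    obtain ⟨z, hz, rfl⟩ := hi b hb
    obtain ⟨k, hk'⟩ := hk i y
    refine ⟨k, ?_⟩
    have : (s34m_unif G (M * q * q) * z) ^ k * y = z ^ k * (s34m_unif G (M * q * q) ^ k * y) := by
      ring
    rw [this]
    exact (V i).mul_mem _ _ ((V i).pow_mem hz k) hk'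
  intro i
  fin_cases i
  · exact hout 0 h0
  · -- the middle ring: `t` is the uniformiser, `ϖ = u t ^ (q - 1)`
    intro b hb _ y
    obtain ⟨z, hz, rfl⟩ := h1 b hb
    obtain ⟨k, hk'⟩ := hk 1 y
    refine ⟨(q - 1) * k, ?_⟩
    have e : (t * z) ^ ((q - 1) * k) * y =
        (u⁻¹) ^ k * z ^ ((q - 1) * k) * (s34m_unif G (M * q * q) ^ k * y) := by
      rw [hut]
      have hu0 : u ≠ 0 := by
        rintro rfl
        rw [zero_mul] at hut
        exact s34m_unif_ne_zero G (M * q * q) hut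
      rw [mul_pow, mul_pow, pow_mul, inv_pow]
      field_simp
    change (t * z) ^ ((q - 1) * k) * y ∈ V 1
    rw [e]
    exact (V 1).mul_mem _ _
      ((V 1).mul_mem _ _ ((V 1).pow_mem hu' k) ((V 1).pow_mem hz _)) hk'
  · exact hout 2 h2

/-- the three rings are pairwise distinct. -/
theorem s36g_pkg_ne (hI : s36g_ValIndep M q V) : ∀ i j : Fin 3, i ≠ j → V i ≠ V j := by
  obtain ⟨h01, h02, h12⟩ := hI
  intro i j hij
  fin_cases i <;> fin_cases j
  · exact absurd rfl hij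
  · exact h01
  · exact h02
  · exact h01.symm
  · exact absurd rfl hij
  · exact h12
  · exact h02.symm
  · exact h12.symm
  · exact absurd rfl hij

/-- **Field `approx`**: weak approximation for the three rings of the package. -/
theorem s36g_pkg_approx (hU : s36g_ValUnif G M q V t) (hI : s36g_ValIndep M q V)
    (g : Fin 3 → s34m_F K₀ (M * q * q)) (hg : ∀ i, g i ∈ V i) :
    ∃ x : s34m_F K₀ (M * q * q), ∀ i, x - g i ∈ (V i).nonunits :=
  s36g_approx_three V (s36g_pkg_arch G M q V t hU) (s36g_pkg_nontriv G M q V t hU)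
    (s36g_pkg_ne M q V hI) g hg

/-- `α'` commutes with the constants. -/
theorem s36g_alpha_cst (a : K₀) :
    s36g_alpha M q (algebraMap K₀ (s34m_F K₀ (M * q)) a) =
      algebraMap K₀ (s34m_F K₀ (M * q * q)) a :=
  (heckeAlphaBar K₀ (M * q) q : s34m_F K₀ (M * q) →ₐ[K₀] s34m_F K₀ (M * q * q)).commutes a

/-- `β'` commutes with the constants. -/
theorem s36g_beta_cst (a : K₀) :
    s36g_beta M q (algebraMap K₀ (s34m_F K₀ (M * q)) a) =
      algebraMap K₀ (s34m_F K₀ (M * q * q)) a :=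
  (heckeBetaBar K₀ (M * q) q : s34m_F K₀ (M * q) →ₐ[K₀] s34m_F K₀ (M * q * q)).commutes a

/-- **Field `cstV`.** -/
theorem s36g_pkg_cstV (hC : s36g_ValComap G φ M q hq hqM V) (i : Fin 3) (a : K₀) :
    algebraMap K₀ (s34m_F K₀ (M * q * q)) a ∈ V i ↔ a ∈ G.A := by
  obtain ⟨h0, -, -, h1α, -, h2α, -⟩ := hC
  fin_cases i
  · change algebraMap K₀ (s34m_F K₀ (M * q * q)) a ∈ V 0 ↔ _
    rw [h0]
    exact s36g_cst_mem_Vinf_iff G (M * q * q) a
  · change algebraMap K₀ (s34m_F K₀ (M * q * q)) a ∈ V 1 ↔ _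
    rw [← s36g_alpha_cst M q a, ← ValuationSubring.mem_comap, h1α]
    exact s36g_cst_mem_Vinf_iff G (M * q) a
  · change algebraMap K₀ (s34m_F K₀ (M * q * q)) a ∈ V 2 ↔ _
    rw [← s36g_alpha_cst M q a, ← ValuationSubring.mem_comap, h2α]
    exact s36g_cst_mem_Vzero_iff G φ M q hq hqM a

variable (V' : Fin 2 → ValuationSubring (s34m_F K₀ (M * q)))

/-- **Field `cstV'`.** -/
theorem s36g_pkg_cstV' (hV'0 : V' 0 = s34m_Vinf G (M * q))
    (hV'1 : V' 1 = s34m_Vzero G φ M q hq hqM) (j : Fin 2) (a : K₀) :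
    algebraMap K₀ (s34m_F K₀ (M * q)) a ∈ V' j ↔ a ∈ G.A := by
  fin_cases j
  · change algebraMap K₀ (s34m_F K₀ (M * q)) a ∈ V' 0 ↔ _
    rw [hV'0]
    exact s36g_cst_mem_Vinf_iff G (M * q) a
  · change algebraMap K₀ (s34m_F K₀ (M * q)) a ∈ V' 1 ↔ _
    rw [hV'1]
    exact s36g_cst_mem_Vzero_iff G φ M q hq hqM a

local notation "α'" => (heckeAlphaBar K₀ (M * q) q : s34m_F K₀ (M * q) →ₐ[K₀] s34m_F K₀ (M * q * q))
local notation "β'" => (heckeBetaBar K₀ (M * q) q : s34m_F K₀ (M * q) →ₐ[K₀] s34m_F K₀ (M * q * q))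

/-- **The concrete frame of (N-C) and (G)** from the valuation package; the four norm–residue
formulas are hypotheses. -/
theorem s36g_frame_of_pkg (hπ : Function.Surjective G.π)
    (hunr : ∃ u : G.A, IsUnit u ∧ ((q : ℕ) : G.A) = G.ϖ * u)
    (hP : s36g_ValPkg G φ M q hq hqM V t)
    (hV'0 : V' 0 = s34m_Vinf G (M * q)) (hV'1 : V' 1 = s34m_Vzero G φ M q hq hqM)
    (Nα Nβ : s34m_F K₀ (M * q * q) →* s34m_F K₀ (M * q))
    (hNAα : ∀ (u : s34m_F K₀ (M * q * q)) (c₀ c₁ : s34m_F K₀ (M * q)), u ∈ V 0 → u ∈ V 1 →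
      c₀ ∈ V' 0 → c₁ ∈ V' 0 → u - α' c₀ ∈ (V 0).nonunits → u - α' c₁ ∈ (V 1).nonunits →
      Nα u - c₀ * c₁ ^ (q - 1) ∈ (V' 0).nonunits)
    (hNBα : ∀ (u : s34m_F K₀ (M * q * q)) (c : s34m_F K₀ (M * q)), u ∈ V 2 → c ∈ V' 1 →
      u ^ q - α' c ∈ (V 2).nonunits → Nα u - c ∈ (V' 1).nonunits)
    (hNAβ : ∀ (u : s34m_F K₀ (M * q * q)) (c₂ c₁ : s34m_F K₀ (M * q)), u ∈ V 2 → u ∈ V 1 →
      c₂ ∈ V' 1 → c₁ ∈ V' 1 → u - β' c₂ ∈ (V 2).nonunits → u - β' c₁ ∈ (V 1).nonunits →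
      Nβ u - c₂ * c₁ ^ (q - 1) ∈ (V' 1).nonunits)
    (hNBβ : ∀ (u : s34m_F K₀ (M * q * q)) (c : s34m_F K₀ (M * q)), u ∈ V 0 → c ∈ V' 0 →
      u ^ q - β' c ∈ (V 0).nonunits → Nβ u - c ∈ (V' 0).nonunits) :
    s36g_RootFrame G.A q V V' α' β' Nα Nβ := by
  obtain ⟨hC, hU, hR, -, hI, -, -⟩ := hP
  have hC' := hC
  obtain ⟨-, c0α, c0β, c1α, c1β, c2α, c2β⟩ := hC'
  obtain ⟨r0α, r1α, r1β, r2β, r2α, r0β⟩ := hR
  refine
    { cstV := s36g_pkg_cstV G φ M q hq hqM V hC
      cstV' := s36g_pkg_cstV' G φ M q hq hqM V' hV'0 hV'1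
      comapα0 := by rw [hV'0]; exact c0α
      comapα1 := by rw [hV'0]; exact c1α
      comapα2 := by rw [hV'1]; exact c2α
      comapβ0 := by rw [hV'0]; exact c0β
      comapβ1 := by rw [hV'1]; exact c1β
      comapβ2 := by rw [hV'1]; exact c2β
      normAα := hNAα
      normBα := hNBα
      normAβ := hNAβ
      normBβ := hNBβ
      resα0 := by rw [hV'0]; exact r0α
      resα1 := by rw [hV'0]; exact r1α
      resβ1 := by rw [hV'1]; exact r1β
      resβ2 := by rw [hV'1]; exact r2β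
      resα2 := by rw [hV'1]; exact r2α
      resβ0 := by rw [hV'0]; exact r0β
      approx := s36g_pkg_approx G M q V t hU hI
      unif' := by
        rw [hV'0]
        exact fun y hy => s36g_unif_Vinf G q hunr (M * q) y hy
      root' := by
        intro j
        fin_cases j
        · change ∀ m : ℕ, m ≠ 0 → ∀ (y : s34m_F K₀ (M * q)) (a : K₀), G.A.valuation a = 1 →
            y ^ m - algebraMap K₀ _ a ∈ (V' 0).nonunits →
            ∃ e : K₀, G.A.valuation e = 1 ∧ y - algebraMap K₀ _ e ∈ (V' 0).nonunits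
          rw [hV'0]
          exact fun m hm y a ha h => s36g_root_Vinf G hπ (M * q) m hm y a ha h
        · change ∀ m : ℕ, m ≠ 0 → ∀ (y : s34m_F K₀ (M * q)) (a : K₀), G.A.valuation a = 1 →
            y ^ m - algebraMap K₀ _ a ∈ (V' 1).nonunits →
            ∃ e : K₀, G.A.valuation e = 1 ∧ y - algebraMap K₀ _ e ∈ (V' 1).nonunits
          rw [hV'1]
          exact fun m hm y a ha h => s36g_root_Vzero G φ M q hq hqM hπ m hm y a ha h }

end Fermat.Agent.Lib.S36
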