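/-
S36, layer (N) (helper7, prefix `s36n_`), part 1: the ABSTRACT two-valuation norm–residue theorem.

`K ⊆ K'` fields, `[K' : K] = e + 1`, `O` a valuation subring of `K` whose maximal ideal is `ϖ O`,
`V₁, V₃` valuation subrings of `K'` over `O` with
  * `e(V₁ | O) = 1`     : the maximal ideal of `V₁` is `ϖ V₁`;
  * `e(V₃ | O) = e`     : the maximal ideal of `V₃` is `s V₃` and `s ^ e = ϖ · (unit of V₃)`;
  * an approximation element `x ∈ V₁ ∩ 𝔪₃`, `x ≡ 1 mod 𝔪₁` (i.e. `V₁`, `V₃` are independent).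
Then for every `u ∈ V₁ˣ ∩ V₃ˣ` and `c₁, c₃ ∈ O` with `u ≡ c₁ mod 𝔪₁`, `u ≡ c₃ mod 𝔪₃`:
  `N_{K'/K}(u) ∈ O` and `N_{K'/K}(u) ≡ c₁ · c₃ ^ e mod 𝔪_O`.

No Dedekind theory, no completions: `V₁ ∩ V₃` is `O`-free on the explicit basis
`x ^ e, (1 - x ^ e) s ^ i (i < e)`; modulo `ϖ` the multiplication by `u` is
(diagonal `c₁, c₃, …, c₃`) times (unipotent).
-/
import Mathlib

set_option autoImplicit false
set_option linter.unusedSectionVars false

noncomputable section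

namespace Fermat.Agent.Lib.S36

open scoped BigOperators

variable {K K' : Type*} [Field K] [Field K'] [Algebra K K']

/-- The hypothesis package of the two-valuation norm–residue theorem. -/
structure s36n_TwoVal (O : ValuationSubring K) (V₁ V₃ : ValuationSubring K') (ϖ : K) (s : K')
    (e : ℕ) : Prop where
  finrank_eq : Module.finrank K K' = e + 1
  one_le : 1 ≤ e
  restr₁ : ∀ a : K, algebraMap K K' a ∈ V₁ ↔ a ∈ O
  restr₃ : ∀ a : K, algebraMap K K' a ∈ V₃ ↔ a ∈ O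
  unif : ϖ ∈ O.nonunits
  unif_ne : ϖ ≠ 0
  maxO : ∀ a ∈ O.nonunits, ∃ a' ∈ O, a = ϖ * a'
  max₁ : ∀ y ∈ V₁.nonunits, ∃ z ∈ V₁, y = algebraMap K K' ϖ * z
  s_mem₁ : s ∈ V₁
  s_mem₃ : s ∈ V₃.nonunits
  max₃ : ∀ y ∈ V₃.nonunits, ∃ z ∈ V₃, y = s * z
  ram₃ : ∃ w : K', w ∈ V₃ ∧ w⁻¹ ∈ V₃ ∧ s ^ e = algebraMap K K' ϖ * w
  approx : ∃ x : K', x ∈ V₁ ∧ x ∈ V₃.nonunits ∧ x - 1 ∈ V₁.nonunits

namespace s36n_TwoVal

variable {O : ValuationSubring K} {V₁ V₃ : ValuationSubring K'} {ϖ : K} {s : K'} {e : ℕ}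

section basic

variable (h : s36n_TwoVal O V₁ V₃ ϖ s e)
include h

theorem p_ne : algebraMap K K' ϖ ≠ 0 := by
  simpa using h.unif_ne

theorem v₁_p_lt : V₁.valuation (algebraMap K K' ϖ) < 1 := by
  rw [← ValuationSubring.mem_nonunits_iff, ValuationSubring.mem_nonunits_iff_or]
  right
  rw [← map_inv₀, h.restr₁]
  have := (ValuationSubring.mem_nonunits_iff_or (A := O)).mp h.unif
  exact this.resolve_left h.unif_ne

theorem v₃_p_lt : V₃.valuation (algebraMap K K' ϖ) < 1 := by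
  rw [← ValuationSubring.mem_nonunits_iff, ValuationSubring.mem_nonunits_iff_or]
  right
  rw [← map_inv₀, h.restr₃]
  have := (ValuationSubring.mem_nonunits_iff_or (A := O)).mp h.unif
  exact this.resolve_left h.unif_ne

theorem v₁_le_p {y : K'} (hy : V₁.valuation y < 1) :
    V₁.valuation y ≤ V₁.valuation (algebraMap K K' ϖ) := by
  obtain ⟨z, hz, rfl⟩ := h.max₁ y ((ValuationSubring.mem_nonunits_iff (A := V₁)).mpr hy)
  rw [map_mul]
  exact mul_le_of_le_one_right' ((ValuationSubring.valuation_le_one_iff _ _).mpr hz)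

theorem v₃_le_s {y : K'} (hy : V₃.valuation y < 1) : V₃.valuation y ≤ V₃.valuation s := by
  obtain ⟨z, hz, rfl⟩ := h.max₃ y ((ValuationSubring.mem_nonunits_iff (A := V₃)).mpr hy)
  rw [map_mul]
  exact mul_le_of_le_one_right' ((ValuationSubring.valuation_le_one_iff _ _).mpr hz)

theorem v₃_s_lt : V₃.valuation s < 1 := (ValuationSubring.mem_nonunits_iff (A := V₃)).mp h.s_mem₃

theorem s_ne : s ≠ 0 := by
  rintro rfl
  obtain ⟨z, -, hz⟩ := h.max₃ _ ((ValuationSubring.mem_nonunits_iff (A := V₃)).mpr h.v₃_p_lt)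
  rw [zero_mul] at hz
  exact h.p_ne hz

theorem v₃_s_ne : V₃.valuation s ≠ 0 := (Valuation.ne_zero_iff _).mpr h.s_ne

theorem v₃_s_pow : V₃.valuation s ^ e = V₃.valuation (algebraMap K K' ϖ) := by
  obtain ⟨w, hw, hw', hsw⟩ := h.ram₃
  have hw0 : w ≠ 0 := by
    rintro rfl
    rw [mul_zero] at hsw
    exact h.s_ne (pow_eq_zero_iff (by have := h.one_le; omega) |>.mp hsw)
  have hw1 : V₃.valuation w = 1 := by
    have h1 := (ValuationSubring.valuation_le_one_iff _ _).mpr hw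
    have h2 := (ValuationSubring.valuation_le_one_iff _ _).mpr hw'
    rw [map_inv₀] at h2
    have h0 : V₃.valuation w ≠ 0 := (Valuation.ne_zero_iff _).mpr hw0
    exact le_antisymm h1 ((inv_le_one₀ (zero_lt_iff.mpr h0)).mp h2)
  rw [← map_pow, hsw, map_mul, hw1, mul_one]

theorem v₁_map_le {a : K} (ha : a ∈ O) : V₁.valuation (algebraMap K K' a) ≤ 1 :=
  (ValuationSubring.valuation_le_one_iff _ _).mpr ((h.restr₁ a).mpr ha)

theorem v₃_map_le {a : K} (ha : a ∈ O) : V₃.valuation (algebraMap K K' a) ≤ 1 :=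
  (ValuationSubring.valuation_le_one_iff _ _).mpr ((h.restr₃ a).mpr ha)

theorem v₁_map_le_p {a : K} (ha : a ∈ O.nonunits) :
    V₁.valuation (algebraMap K K' a) ≤ V₁.valuation (algebraMap K K' ϖ) := by
  obtain ⟨a', ha', rfl⟩ := h.maxO a ha
  rw [map_mul, map_mul]
  exact mul_le_of_le_one_right' (h.v₁_map_le ha')

theorem v₃_map_le_p {a : K} (ha : a ∈ O.nonunits) :
    V₃.valuation (algebraMap K K' a) ≤ V₃.valuation (algebraMap K K' ϖ) := by
  obtain ⟨a', ha', rfl⟩ := h.maxO a ha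
  rw [map_mul, map_mul]
  exact mul_le_of_le_one_right' (h.v₃_map_le ha')

theorem mem_nonunits_of_v₁ {a : K} (hlt : V₁.valuation (algebraMap K K' a) < 1) :
    a ∈ O.nonunits := by
  rw [ValuationSubring.mem_nonunits_iff_or]
  rcases eq_or_ne a 0 with ha0 | ha0
  · exact Or.inl ha0
  · refine Or.inr fun hinv => ?_
    have h1 : V₁.valuation (algebraMap K K' a⁻¹) ≤ 1 := h.v₁_map_le hinv
    rw [map_inv₀, map_inv₀] at h1
    have hne : V₁.valuation (algebraMap K K' a) ≠ 0 :=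
      (Valuation.ne_zero_iff _).mpr (by simpa using ha0)
    have := (inv_le_one₀ (zero_lt_iff.mpr hne)).mp h1
    exact absurd hlt (not_lt.mpr this)

theorem mem_nonunits_of_v₃ {a : K} (hlt : V₃.valuation (algebraMap K K' a) < 1) :
    a ∈ O.nonunits := by
  rw [ValuationSubring.mem_nonunits_iff_or]
  rcases eq_or_ne a 0 with ha0 | ha0
  · exact Or.inl ha0
  · refine Or.inr fun hinv => ?_
    have h1 : V₃.valuation (algebraMap K K' a⁻¹) ≤ 1 := h.v₃_map_le hinv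
    rw [map_inv₀, map_inv₀] at h1
    have hne : V₃.valuation (algebraMap K K' a) ≠ 0 :=
      (Valuation.ne_zero_iff _).mpr (by simpa using ha0)
    have := (inv_le_one₀ (zero_lt_iff.mpr hne)).mp h1
    exact absurd hlt (not_lt.mpr this)

end basic

section indep

variable (h : s36n_TwoVal O V₁ V₃ ϖ s e)
include h

/-- `V₃`-independence of `1, s, …, s ^ (e - 1)` modulo `ϖ`, filtered version. -/
theorem ind₃ (a : Fin e → K) (ha : ∀ i, a i ∈ O) (k : ℕ) (_hk : k ≤ e)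
    (hv : V₃.valuation (∑ i : Fin e, algebraMap K K' (a i) * s ^ (i : ℕ)) ≤ V₃.valuation s ^ k) :
    ∀ i : Fin e, (i : ℕ) < k → a i ∈ O.nonunits := by
  classical
  by_contra hcon
  push Not at hcon
  obtain ⟨i₁, hi₁k, hi₁⟩ := hcon
  obtain ⟨i₀, hi₀, hmin⟩ := Finset.exists_min_image
    (Finset.univ.filter (fun i : Fin e => a i ∉ O.nonunits)) (fun i => (i : ℕ))
    ⟨i₁, by simp [hi₁]⟩
  have hi₀' : a i₀ ∉ O.nonunits := (Finset.mem_filter.mp hi₀).2
  have hi₀k : (i₀ : ℕ) < k :=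
    lt_of_le_of_lt (hmin i₁ (Finset.mem_filter.mpr ⟨Finset.mem_univ _, hi₁⟩)) hi₁k
  set γ := V₃.valuation s with hγ
  have hγ0 : 0 < γ := zero_lt_iff.mpr h.v₃_s_ne
  have hγ1 : γ < 1 := h.v₃_s_lt
  have hlow : ∀ j : Fin e, (j : ℕ) < (i₀ : ℕ) → a j ∈ O.nonunits := by
    intro j hj
    by_contra hj'
    have := hmin j (Finset.mem_filter.mpr ⟨Finset.mem_univ _, hj'⟩)
    omega
  have hval₀ : V₃.valuation (algebraMap K K' (a i₀)) = 1 := by
    refine le_antisymm (h.v₃_map_le (ha i₀)) (not_lt.mp fun hlt => hi₀' ?_)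
    exact h.mem_nonunits_of_v₃ hlt
  have hT₀ : V₃.valuation (algebraMap K K' (a i₀) * s ^ (i₀ : ℕ)) = γ ^ (i₀ : ℕ) := by
    rw [map_mul, hval₀, one_mul, map_pow]
  have hrest : ∀ j ∈ Finset.univ.erase i₀,
      V₃.valuation (algebraMap K K' (a j) * s ^ (j : ℕ)) < γ ^ (i₀ : ℕ) := by
    intro j hj
    have hne : j ≠ i₀ := (Finset.mem_erase.mp hj).1
    rw [map_mul, map_pow]
    rcases lt_or_gt_of_ne (fun hEq => hne (Fin.ext hEq) : (j : ℕ) ≠ (i₀ : ℕ)) with hlt | hgt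
    · calc V₃.valuation (algebraMap K K' (a j)) * γ ^ (j : ℕ)
          ≤ V₃.valuation (algebraMap K K' ϖ) * 1 :=
            mul_le_mul' (h.v₃_map_le_p (hlow j hlt)) (pow_le_one₀ hγ0.le hγ1.le)
        _ = γ ^ e := by rw [mul_one, ← h.v₃_s_pow]
        _ < γ ^ (i₀ : ℕ) := pow_lt_pow_right_of_lt_one₀ hγ0 hγ1 i₀.isLt
    · calc V₃.valuation (algebraMap K K' (a j)) * γ ^ (j : ℕ)
          ≤ 1 * γ ^ (j : ℕ) := mul_le_mul' (h.v₃_map_le (ha j)) le_rfl
        _ = γ ^ (j : ℕ) := one_mul _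
        _ < γ ^ (i₀ : ℕ) := pow_lt_pow_right_of_lt_one₀ hγ0 hγ1 hgt
  have hsum : V₃.valuation (∑ i : Fin e, algebraMap K K' (a i) * s ^ (i : ℕ)) = γ ^ (i₀ : ℕ) := by
    rw [← Finset.add_sum_erase _ _ (Finset.mem_univ i₀), ← hT₀]
    refine Valuation.map_add_eq_of_lt_left _ ?_
    rw [hT₀]
    exact Valuation.map_sum_lt _ (pow_ne_zero _ hγ0.ne') hrest
  rw [hsum] at hv
  exact absurd hv (not_le.mpr (pow_lt_pow_right_of_lt_one₀ hγ0 hγ1 hi₀k))

end indep

end s36n_TwoVal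

/-- The explicit `O`-basis of `V₁ ∩ V₃`: `x ^ e, (1 - x ^ e) s ^ i (i < e)`. -/
def s36n_b (x s : K') (e : ℕ) : Fin (e + 1) → K' :=
  Fin.cons (x ^ e) (fun i : Fin e => (1 - x ^ e) * s ^ (i : ℕ))

@[simp] theorem s36n_b_zero (x s : K') (e : ℕ) : s36n_b x s e 0 = x ^ e := rfl

@[simp] theorem s36n_b_succ (x s : K') (e : ℕ) (i : Fin e) :
    s36n_b x s e i.succ = (1 - x ^ e) * s ^ (i : ℕ) := by
  simp [s36n_b]

namespace s36n_TwoVal

variable {O : ValuationSubring K} {V₁ V₃ : ValuationSubring K'} {ϖ : K} {s : K'} {e : ℕ}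

section elements

variable (h : s36n_TwoVal O V₁ V₃ ϖ s e)
variable {x : K'} (hx₁ : x ∈ V₁) (hx₃ : x ∈ V₃.nonunits) (hx1 : x - 1 ∈ V₁.nonunits)
include h

theorem v₁_s_le : V₁.valuation s ≤ 1 := (ValuationSubring.valuation_le_one_iff _ _).mpr h.s_mem₁

include hx₁ hx1 in
theorem v₁_xe_sub_one : V₁.valuation (x ^ e - 1) < 1 := by
  rw [← geom_sum_mul, map_mul]
  have h1 : V₁.valuation (∑ i ∈ Finset.range e, x ^ i) ≤ 1 := by
    refine Valuation.map_sum_le _ fun i _ => ?_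
    rw [map_pow]
    exact pow_le_one₀ zero_le ((ValuationSubring.valuation_le_one_iff _ _).mpr hx₁)
  have h2 : V₁.valuation (x - 1) < 1 := (ValuationSubring.mem_nonunits_iff (A := V₁)).mp hx1
  calc V₁.valuation (∑ i ∈ Finset.range e, x ^ i) * V₁.valuation (x - 1)
      ≤ 1 * V₁.valuation (x - 1) := mul_le_mul' h1 le_rfl
    _ = V₁.valuation (x - 1) := one_mul _
    _ < 1 := h2

include hx₃ in
theorem v₃_xe_le : V₃.valuation (x ^ e) ≤ V₃.valuation (algebraMap K K' ϖ) := by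
  rw [map_pow, ← h.v₃_s_pow]
  exact pow_le_pow_left₀ zero_le
    (h.v₃_le_s ((ValuationSubring.mem_nonunits_iff (A := V₃)).mp hx₃)) e

include hx₁ hx1 in
theorem v₁_one_sub_xe : V₁.valuation (1 - x ^ e) ≤ V₁.valuation (algebraMap K K' ϖ) := by
  rw [Valuation.map_sub_swap]
  exact h.v₁_le_p (h.v₁_xe_sub_one hx₁ hx1)

include hx₃ in
theorem v₃_one_sub_xe : V₃.valuation (1 - x ^ e) = 1 :=
  Valuation.map_one_sub_of_lt _ ((h.v₃_xe_le hx₃).trans_lt h.v₃_p_lt)

include hx₁ hx₃ hx1 in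
/-- **Independence modulo `ϖ`** (filtered version). -/
theorem ind (a : Fin (e + 1) → K) (ha : ∀ i, a i ∈ O) (k : ℕ) (hk : k ≤ e)
    (hv₁ : V₁.valuation (∑ i, algebraMap K K' (a i) * s36n_b x s e i) < 1)
    (hv₃ : V₃.valuation (∑ i, algebraMap K K' (a i) * s36n_b x s e i) ≤ V₃.valuation s ^ k) :
    a 0 ∈ O.nonunits ∧ ∀ i : Fin e, (i : ℕ) < k → a i.succ ∈ O.nonunits := by
  set R : K' := ∑ i : Fin e, algebraMap K K' (a i.succ) * ((1 - x ^ e) * s ^ (i : ℕ)) with hR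
  have hsum : (∑ i, algebraMap K K' (a i) * s36n_b x s e i) =
      algebraMap K K' (a 0) * x ^ e + R := by
    rw [Fin.sum_univ_succ]
    simp [hR]
  rw [hsum] at hv₁ hv₃
  have hp₁ := h.v₁_p_lt
  have hγ0 : 0 < V₃.valuation s := zero_lt_iff.mpr h.v₃_s_ne
  have hγ1 : V₃.valuation s < 1 := h.v₃_s_lt
  -- the `V₁`-part
  have hR₁ : V₁.valuation R ≤ V₁.valuation (algebraMap K K' ϖ) := by
    refine Valuation.map_sum_le _ fun i _ => ?_
    rw [map_mul, map_mul, map_pow]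
    calc V₁.valuation (algebraMap K K' (a i.succ)) *
          (V₁.valuation (1 - x ^ e) * V₁.valuation s ^ (i : ℕ))
        ≤ 1 * (V₁.valuation (algebraMap K K' ϖ) * 1) :=
          mul_le_mul' (h.v₁_map_le (ha _))
            (mul_le_mul' (h.v₁_one_sub_xe hx₁ hx1) (pow_le_one₀ zero_le h.v₁_s_le))
      _ = V₁.valuation (algebraMap K K' ϖ) := by rw [one_mul, mul_one]
  have h0 : a 0 ∈ O.nonunits := by
    refine h.mem_nonunits_of_v₁ ?_
    have hEq : algebraMap K K' (a 0) =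
        (algebraMap K K' (a 0) * x ^ e + R) - R - algebraMap K K' (a 0) * (x ^ e - 1) := by ring
    rw [hEq]
    refine Valuation.map_sub_lt _ (Valuation.map_sub_lt _ hv₁ (hR₁.trans_lt hp₁)) ?_
    rw [map_mul]
    calc V₁.valuation (algebraMap K K' (a 0)) * V₁.valuation (x ^ e - 1)
        ≤ 1 * V₁.valuation (x ^ e - 1) := mul_le_mul' (h.v₁_map_le (ha 0)) le_rfl
      _ = V₁.valuation (x ^ e - 1) := one_mul _
      _ < 1 := h.v₁_xe_sub_one hx₁ hx1
  refine ⟨h0, ?_⟩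
  -- the `V₃`-part
  have hR₃ : V₃.valuation R ≤ V₃.valuation s ^ k := by
    have hEq : R = (algebraMap K K' (a 0) * x ^ e + R) - algebraMap K K' (a 0) * x ^ e := by ring
    rw [hEq]
    refine Valuation.map_sub_le _ hv₃ ?_
    rw [map_mul]
    calc V₃.valuation (algebraMap K K' (a 0)) * V₃.valuation (x ^ e)
        ≤ 1 * V₃.valuation (algebraMap K K' ϖ) :=
          mul_le_mul' (h.v₃_map_le (ha 0)) (h.v₃_xe_le hx₃)
      _ = V₃.valuation s ^ e := by rw [one_mul, h.v₃_s_pow]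
      _ ≤ V₃.valuation s ^ k := pow_le_pow_of_le_one hγ0.le hγ1.le hk
  have hR' : R = (1 - x ^ e) * ∑ i : Fin e, algebraMap K K' (a i.succ) * s ^ (i : ℕ) := by
    rw [hR, Finset.mul_sum]
    refine Finset.sum_congr rfl fun i _ => ?_
    ring
  rw [hR', map_mul, h.v₃_one_sub_xe hx₃, one_mul] at hR₃
  exact h.ind₃ (fun i => a i.succ) (fun i => ha _) k hk hR₃

end elements

section core

variable (h : s36n_TwoVal O V₁ V₃ ϖ s e)
variable {x : K'} (hx₁ : x ∈ V₁) (hx₃ : x ∈ V₃.nonunits) (hx1 : x - 1 ∈ V₁.nonunits)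
include h hx₁ hx₃ hx1

/-- **Core.** If `∑ gᵢ bᵢ ∈ V₁ ∩ V₃` then all `gᵢ ∈ O`. -/
theorem coeff_mem (g : Fin (e + 1) → K)
    (hy₁ : (∑ i, algebraMap K K' (g i) * s36n_b x s e i) ∈ V₁)
    (hy₃ : (∑ i, algebraMap K K' (g i) * s36n_b x s e i) ∈ V₃) : ∀ i, g i ∈ O := by
  classical
  by_contra hcon
  push Not at hcon
  obtain ⟨i₁, hi₁⟩ := hcon
  obtain ⟨i₀, -, hmax⟩ := Finset.exists_max_image Finset.univ (fun i => O.valuation (g i))
    ⟨i₁, Finset.mem_univ _⟩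
  have hbig : 1 < O.valuation (g i₀) := by
    have h1 : 1 < O.valuation (g i₁) := by
      rw [← not_le, ValuationSubring.valuation_le_one_iff]
      exact hi₁
    exact h1.trans_le (hmax i₁ (Finset.mem_univ _))
  have hg0 : g i₀ ≠ 0 := by
    intro h0
    rw [h0, map_zero] at hbig
    exact absurd hbig (by simp)
  set c := (g i₀)⁻¹ with hc
  have hcval : O.valuation c < 1 := by
    rw [hc, map_inv₀]
    exact inv_lt_one_of_one_lt₀ hbig
  obtain ⟨c', hc', hcc'⟩ := h.maxO c ((ValuationSubring.mem_nonunits_iff (A := O)).mpr hcval)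
  set a : Fin (e + 1) → K := fun i => c * g i with ha
  have haO : ∀ i, a i ∈ O := by
    intro i
    rw [← ValuationSubring.valuation_le_one_iff, ha]
    simp only [map_mul, hc, map_inv₀]
    exact inv_mul_le_one_of_le₀ (hmax i (Finset.mem_univ _)) zero_le
  have hsum : (∑ i, algebraMap K K' (a i) * s36n_b x s e i) = algebraMap K K' ϖ *
      (algebraMap K K' c' * ∑ i, algebraMap K K' (g i) * s36n_b x s e i) := by
    rw [Finset.mul_sum, Finset.mul_sum]
    refine Finset.sum_congr rfl fun i _ => ?_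
    simp only [ha, map_mul, hcc']
    ring
  have hv₁ : V₁.valuation (∑ i, algebraMap K K' (a i) * s36n_b x s e i) < 1 := by
    rw [hsum, map_mul, map_mul]
    calc _ ≤ V₁.valuation (algebraMap K K' ϖ) * (1 * 1) :=
          mul_le_mul' le_rfl (mul_le_mul' (h.v₁_map_le hc')
            ((ValuationSubring.valuation_le_one_iff _ _).mpr hy₁))
      _ = V₁.valuation (algebraMap K K' ϖ) := by rw [mul_one, mul_one]
      _ < 1 := h.v₁_p_lt
  have hv₃ : V₃.valuation (∑ i, algebraMap K K' (a i) * s36n_b x s e i) ≤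
      V₃.valuation s ^ e := by
    rw [hsum, map_mul, map_mul, h.v₃_s_pow]
    calc _ ≤ V₃.valuation (algebraMap K K' ϖ) * (1 * 1) :=
          mul_le_mul' le_rfl (mul_le_mul' (h.v₃_map_le hc')
            ((ValuationSubring.valuation_le_one_iff _ _).mpr hy₃))
      _ = V₃.valuation (algebraMap K K' ϖ) := by rw [mul_one, mul_one]
  have key := h.ind hx₁ hx₃ hx1 a haO e le_rfl hv₁ hv₃
  have h1 : a i₀ = 1 := by simp [ha, hc, inv_mul_cancel₀ hg0]
  have hmem : a i₀ ∈ O.nonunits := Fin.cases key.1 (fun j => key.2 j j.isLt) i₀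
  rw [h1] at hmem
  have := (ValuationSubring.mem_nonunits_iff (A := O)).mp hmem
  rw [map_one] at this
  exact lt_irrefl _ this

/-- `x ^ e, (1 - x ^ e) s ^ i` are linearly independent over `K`. -/
theorem linInd : LinearIndependent K (s36n_b x s e) := by
  rw [Fintype.linearIndependent_iff]
  intro g hg i
  by_contra hne
  set c := (ϖ * g i)⁻¹ with hc
  have hsum : (∑ j, algebraMap K K' (c * g j) * s36n_b x s e j) = 0 := by
    have h1 : (∑ j, algebraMap K K' (c * g j) * s36n_b x s e j) =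
        algebraMap K K' c * ∑ j, g j • s36n_b x s e j := by
      rw [Finset.mul_sum]
      refine Finset.sum_congr rfl fun j _ => ?_
      rw [Algebra.smul_def, map_mul]
      ring
    rw [h1, hg, mul_zero]
  have hmem := h.coeff_mem hx₁ hx₃ hx1 (fun j => c * g j) (by rw [hsum]; exact zero_mem _)
    (by rw [hsum]; exact zero_mem _) i
  have h2 : c * g i = ϖ⁻¹ := by
    rw [hc, mul_inv, mul_assoc, inv_mul_cancel₀ hne, mul_one]
  simp only [h2] at hmem
  have := (ValuationSubring.mem_nonunits_iff_or (A := O)).mp h.unif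
  exact (this.resolve_left h.unif_ne) hmem

/-- The basis `x ^ e, (1 - x ^ e) s ^ i` of `K'` over `K`. -/
def basis : Module.Basis (Fin (e + 1)) K K' :=
  basisOfLinearIndependentOfCardEqFinrank (h.linInd hx₁ hx₃ hx1)
    (by rw [Fintype.card_fin, h.finrank_eq])

theorem basis_apply (i : Fin (e + 1)) : h.basis hx₁ hx₃ hx1 i = s36n_b x s e i := by
  simp [basis]

/-- **Integrality.** The coordinates of `y ∈ V₁ ∩ V₃` lie in `O`. -/
theorem repr_mem {y : K'} (hy₁ : y ∈ V₁) (hy₃ : y ∈ V₃) (i : Fin (e + 1)) :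
    (h.basis hx₁ hx₃ hx1).repr y i ∈ O := by
  have hsum : (∑ i, algebraMap K K' ((h.basis hx₁ hx₃ hx1).repr y i) * s36n_b x s e i) = y := by
    have := (h.basis hx₁ hx₃ hx1).sum_repr y
    simpa [Algebra.smul_def, basis_apply] using this
  exact h.coeff_mem hx₁ hx₃ hx1 (fun i => (h.basis hx₁ hx₃ hx1).repr y i)
    (by rw [hsum]; exact hy₁) (by rw [hsum]; exact hy₃) i

end core

section norm

variable (h : s36n_TwoVal O V₁ V₃ ϖ s e)
variable {x : K'} (hx₁ : x ∈ V₁) (hx₃ : x ∈ V₃.nonunits) (hx1 : x - 1 ∈ V₁.nonunits)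
include h hx₁ hx₃ hx1

theorem b_mem₁ (i : Fin (e + 1)) : s36n_b x s e i ∈ V₁ := by
  refine Fin.cases ?_ (fun j => ?_) i
  · rw [s36n_b_zero]
    exact pow_mem hx₁ e
  · rw [s36n_b_succ]
    exact mul_mem (sub_mem (one_mem _) (pow_mem hx₁ e)) (pow_mem h.s_mem₁ _)

theorem b_mem₃ (i : Fin (e + 1)) : s36n_b x s e i ∈ V₃ := by
  have hx₃' : x ∈ V₃ := ValuationSubring.nonunits_subset hx₃
  have hs₃' : s ∈ V₃ := ValuationSubring.nonunits_subset h.s_mem₃
  refine Fin.cases ?_ (fun j => ?_) i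
  · rw [s36n_b_zero]
    exact pow_mem hx₃' e
  · rw [s36n_b_succ]
    exact mul_mem (sub_mem (one_mem _) (pow_mem hx₃' e)) (pow_mem hs₃' _)

/-- Filtered coordinates: `y ∈ 𝔪₁ ∩ 𝔪₃ ^ k` has its first `k + 1` coordinates in `𝔪_O`. -/
theorem repr_filt {y : K'} (hy₁ : V₁.valuation y < 1) (k : ℕ) (hk : k ≤ e)
    (hy₃ : V₃.valuation y ≤ V₃.valuation s ^ k) :
    (h.basis hx₁ hx₃ hx1).repr y 0 ∈ O.nonunits ∧
      ∀ i : Fin e, (i : ℕ) < k → (h.basis hx₁ hx₃ hx1).repr y i.succ ∈ O.nonunits := by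
  have hsum : (∑ i, algebraMap K K' ((h.basis hx₁ hx₃ hx1).repr y i) * s36n_b x s e i) = y := by
    have := (h.basis hx₁ hx₃ hx1).sum_repr y
    simpa [Algebra.smul_def, basis_apply] using this
  have hyV₁ : y ∈ V₁ := (ValuationSubring.valuation_le_one_iff _ _).mp hy₁.le
  have hyV₃ : y ∈ V₃ := (ValuationSubring.valuation_le_one_iff _ _).mp
    (hy₃.trans (pow_le_one₀ zero_le h.v₃_s_lt.le))
  exact h.ind hx₁ hx₃ hx1 (fun i => (h.basis hx₁ hx₃ hx1).repr y i)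
    (fun i => h.repr_mem hx₁ hx₃ hx1 hyV₁ hyV₃ i) k hk (by rw [hsum]; exact hy₁)
    (by rw [hsum]; exact hy₃)

theorem repr_sub (u : K') (c : K) (i j : Fin (e + 1)) :
    (h.basis hx₁ hx₃ hx1).repr (u * s36n_b x s e j) i - (if i = j then c else 0) =
      (h.basis hx₁ hx₃ hx1).repr ((u - algebraMap K K' c) * s36n_b x s e j) i := by
  have h1 : (u - algebraMap K K' c) * s36n_b x s e j =
      u * s36n_b x s e j - c • (h.basis hx₁ hx₃ hx1) j := by
    rw [Algebra.smul_def, basis_apply]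
    ring
  rw [h1, map_sub, map_smul, Module.Basis.repr_self, Finsupp.sub_apply, Finsupp.smul_apply,
    Finsupp.single_apply]
  by_cases hij : i = j
  · simp [hij]
  · simp [hij, Ne.symm hij]

/-- The multiplication matrix of `u ∈ V₁ ∩ V₃` has entries in `O`. -/
theorem leftMul_mem {u : K'} (hu₁ : u ∈ V₁) (hu₃ : u ∈ V₃) (i j : Fin (e + 1)) :
    Algebra.leftMulMatrix (h.basis hx₁ hx₃ hx1) u i j ∈ O := by
  rw [Algebra.leftMulMatrix_eq_repr_mul, basis_apply]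
  exact h.repr_mem hx₁ hx₃ hx1 (mul_mem hu₁ (h.b_mem₁ hx₁ hx₃ hx1 j))
    (mul_mem hu₃ (h.b_mem₃ hx₁ hx₃ hx1 j)) i

/-- **Triangularity modulo `ϖ`.** -/
theorem leftMul_tri {u : K'} (hu₁ : u ∈ V₁) (hu₃ : u ∈ V₃) {c₁ c₃ : K} (hc₁ : c₁ ∈ O)
    (hc₃ : c₃ ∈ O) (h₁ : u - algebraMap K K' c₁ ∈ V₁.nonunits)
    (h₃ : u - algebraMap K K' c₃ ∈ V₃.nonunits) (i j : Fin (e + 1)) (hij : i ≤ j) :
    Algebra.leftMulMatrix (h.basis hx₁ hx₃ hx1) u i j -
      (if i = j then (Fin.cons c₁ (fun _ => c₃) : Fin (e + 1) → K) j else 0) ∈ O.nonunits := by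
  rw [Algebra.leftMulMatrix_eq_repr_mul, basis_apply, h.repr_sub hx₁ hx₃ hx1]
  have hγ0 : 0 < V₃.valuation s := zero_lt_iff.mpr h.v₃_s_ne
  have hγ1 : V₃.valuation s < 1 := h.v₃_s_lt
  have hx₁' : V₁.valuation x ≤ 1 := (ValuationSubring.valuation_le_one_iff _ _).mpr hx₁
  have hu₁' : V₁.valuation u ≤ 1 := (ValuationSubring.valuation_le_one_iff _ _).mpr hu₁
  have hu₃' : V₃.valuation u ≤ 1 := (ValuationSubring.valuation_le_one_iff _ _).mpr hu₃
  revert i
  refine Fin.cases ?_ (fun j' => ?_) j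
  · -- column `0`
    intro i hi
    have hi0 : i = 0 := le_antisymm hi (Fin.zero_le _)
    subst hi0
    rw [Fin.cons_zero, s36n_b_zero]
    refine (h.repr_filt hx₁ hx₃ hx1 ?_ e le_rfl ?_).1
    · rw [map_mul, map_pow]
      calc V₁.valuation (u - algebraMap K K' c₁) * V₁.valuation x ^ e
          ≤ V₁.valuation (u - algebraMap K K' c₁) * 1 :=
            mul_le_mul' le_rfl (pow_le_one₀ zero_le hx₁')
        _ = V₁.valuation (u - algebraMap K K' c₁) := mul_one _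
        _ < 1 := (ValuationSubring.mem_nonunits_iff (A := V₁)).mp h₁
    · rw [map_mul, h.v₃_s_pow]
      calc V₃.valuation (u - algebraMap K K' c₁) * V₃.valuation (x ^ e)
          ≤ 1 * V₃.valuation (algebraMap K K' ϖ) :=
            mul_le_mul' (Valuation.map_sub_le _ hu₃' (h.v₃_map_le hc₁)) (h.v₃_xe_le hx₃)
        _ = _ := one_mul _
  · -- column `j' + 1`
    intro i hi
    rw [Fin.cons_succ, s36n_b_succ]
    have hfilt := h.repr_filt hx₁ hx₃ hx1
      (y := (u - algebraMap K K' c₃) * ((1 - x ^ e) * s ^ (j' : ℕ))) ?_ ((j' : ℕ) + 1)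
      (Nat.succ_le_of_lt j'.isLt) ?_
    · revert hi
      refine Fin.cases (fun _ => hfilt.1) (fun i' hi' => ?_) i
      refine hfilt.2 i' ?_
      have : (i' : ℕ) ≤ (j' : ℕ) := by
        have := Fin.succ_le_succ_iff.mp hi'
        exact this
      omega
    · rw [map_mul, map_mul, map_pow]
      calc V₁.valuation (u - algebraMap K K' c₃) *
            (V₁.valuation (1 - x ^ e) * V₁.valuation s ^ (j' : ℕ))
          ≤ 1 * (V₁.valuation (algebraMap K K' ϖ) * 1) :=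
            mul_le_mul' (Valuation.map_sub_le _ hu₁' (h.v₁_map_le hc₃))
              (mul_le_mul' (h.v₁_one_sub_xe hx₁ hx1) (pow_le_one₀ zero_le h.v₁_s_le))
        _ = V₁.valuation (algebraMap K K' ϖ) := by rw [one_mul, mul_one]
        _ < 1 := h.v₁_p_lt
    · rw [map_mul, map_mul, map_pow, h.v₃_one_sub_xe hx₃, one_mul, pow_succ']
      exact mul_le_mul' (h.v₃_le_s ((ValuationSubring.mem_nonunits_iff (A := V₃)).mp h₃)) le_rfl

end norm

end s36n_TwoVal

/-- Determinant of a matrix over a valuation ring which is lower triangular modulo the maximal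
ideal. -/
theorem s36n_det_tri {n : ℕ} (O : ValuationSubring K) (M : Matrix (Fin n) (Fin n) K)
    (d : Fin n → K) (hM : ∀ i j, M i j ∈ O) (hd : ∀ i, d i ∈ O)
    (htri : ∀ i j, i < j → M i j ∈ O.nonunits) (hdiag : ∀ i, M i i - d i ∈ O.nonunits) :
    M.det ∈ O ∧ M.det - ∏ i, d i ∈ O.nonunits := by
  classical
  set M' : Matrix (Fin n) (Fin n) ↥O := fun i j => ⟨M i j, hM i j⟩ with hM'
  set d' : Fin n → ↥O := fun i => ⟨d i, hd i⟩ with hd'
  have hMM' : M = O.subtype.mapMatrix M' := by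
    ext i j
    rfl
  have hdet : M.det = O.subtype M'.det := by
    rw [hMM', ← RingHom.map_det]
  have hprod : (∏ i, d i) = O.subtype (∏ i, d' i) := by
    rw [map_prod]
    rfl
  refine ⟨by rw [hdet]; exact (M'.det).2, ?_⟩
  have hres : IsLocalRing.residue ↥O (M'.det - ∏ i, d' i) = 0 := by
    rw [map_sub, RingHom.map_det, map_prod, sub_eq_zero]
    rw [Matrix.det_of_isLowerTriangular]
    · refine Finset.prod_congr rfl fun i _ => ?_
      rw [RingHom.mapMatrix_apply, Matrix.map_apply, ← sub_eq_zero, ← map_sub,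
        IsLocalRing.residue_eq_zero_iff]
      obtain ⟨hmem, hmax⟩ :=
        (ValuationSubring.mem_nonunits_iff_exists_mem_maximalIdeal (A := O)).mp (hdiag i)
      exact hmax
    · intro i j hij
      have hij' : i < j := hij
      rw [RingHom.mapMatrix_apply, Matrix.map_apply, IsLocalRing.residue_eq_zero_iff]
      obtain ⟨hmem, hmax⟩ :=
        (ValuationSubring.mem_nonunits_iff_exists_mem_maximalIdeal (A := O)).mp (htri i j hij')
      exact hmax
  rw [IsLocalRing.residue_eq_zero_iff] at hres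
  rw [hdet, hprod, ← map_sub]
  exact (ValuationSubring.coe_mem_nonunits_iff (A := O)).mpr hres

/-- **The two-valuation norm–residue theorem.**  If `u ∈ V₁ ∩ V₃`, `u ≡ c₁ mod 𝔪₁`,
`u ≡ c₃ mod 𝔪₃` with `c₁, c₃ ∈ O`, then `N_{K'/K}(u) ∈ O` and
`N_{K'/K}(u) ≡ c₁ c₃ ^ e mod 𝔪_O`. -/
theorem s36n_norm_residue_two {O : ValuationSubring K} {V₁ V₃ : ValuationSubring K'} {ϖ : K}
    {s : K'} {e : ℕ} (h : s36n_TwoVal O V₁ V₃ ϖ s e) {u : K'} (hu₁ : u ∈ V₁) (hu₃ : u ∈ V₃)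
    {c₁ c₃ : K} (hc₁ : c₁ ∈ O) (hc₃ : c₃ ∈ O)
    (h₁ : u - algebraMap K K' c₁ ∈ V₁.nonunits) (h₃ : u - algebraMap K K' c₃ ∈ V₃.nonunits) :
    Algebra.norm K u ∈ O ∧ Algebra.norm K u - c₁ * c₃ ^ e ∈ O.nonunits := by
  classical
  obtain ⟨x, hx₁, hx₃, hx1⟩ := h.approx
  rw [Algebra.norm_eq_matrix_det (h.basis hx₁ hx₃ hx1)]
  have key := s36n_det_tri O (Algebra.leftMulMatrix (h.basis hx₁ hx₃ hx1) u)
    (Fin.cons c₁ (fun _ => c₃) : Fin (e + 1) → K)
    (fun i j => h.leftMul_mem hx₁ hx₃ hx1 hu₁ hu₃ i j)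
    (fun i => Fin.cases hc₁ (fun _ => hc₃) i)
    (fun i j hij => by
      have := h.leftMul_tri hx₁ hx₃ hx1 hu₁ hu₃ hc₁ hc₃ h₁ h₃ i j hij.le
      rwa [if_neg hij.ne, sub_zero] at this)
    (fun i => by
      have := h.leftMul_tri hx₁ hx₃ hx1 hu₁ hu₃ hc₁ hc₃ h₁ h₃ i i le_rfl
      rwa [if_pos rfl] at this)
  have hprod : (∏ i, (Fin.cons c₁ (fun _ => c₃) : Fin (e + 1) → K) i) = c₁ * c₃ ^ e := by
    rw [Fin.prod_univ_succ]
    simp
  rwa [hprod] at key

end Fermat.Agent.Lib.S36
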