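/-
S36, layer (N) (helper7, prefix `s36n_`), part 2: the ABSTRACT one-valuation norm–residue theorem
(unramified, residue extension of full degree `q`, in the application purely inseparable).

`K ⊆ K'` fields, `[K' : K] = q` prime, `O` a valuation subring of `K` with `ϖ, q ∈ 𝔪_O`,
`V₂` a valuation subring of `K'` over `O` with `𝔪₂ = ϖ V₂` (`e = 1`) and an element `θ ∈ V₂` such
that `1, θ, …, θ ^ (q - 1)` are independent modulo `𝔪₂` over `O / 𝔪_O` (`f = q`).
Then `V₂` is `O`-free on `θ ^ i`, and for `u ∈ V₂`, `c ∈ O` with `u ^ q ≡ c mod 𝔪₂`: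
  `N_{K'/K}(u) ∈ O` and `N_{K'/K}(u) ≡ c mod 𝔪_O`.
(Proof: `N(u) ^ q = N(u ^ q) = N(c + ϖ z) ≡ c ^ q`, and Frobenius is injective on `O / 𝔪_O`.)
-/
import Fermat.Agent.Lib.S36.NormAbs

set_option autoImplicit false
set_option linter.unusedSectionVars false

noncomputable section

namespace Fermat.Agent.Lib.S36

open scoped BigOperators

variable {K K' : Type*} [Field K] [Field K'] [Algebra K K']

/-- The hypothesis package of the one-valuation norm–residue theorem. -/
structure s36n_OneVal (O : ValuationSubring K) (V₂ : ValuationSubring K') (ϖ : K) (θ : K')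
    (q : ℕ) : Prop where
  finrank_eq : Module.finrank K K' = q
  prime : q.Prime
  char : (q : K) ∈ O.nonunits
  restr : ∀ a : K, algebraMap K K' a ∈ V₂ ↔ a ∈ O
  unif : ϖ ∈ O.nonunits
  unif_ne : ϖ ≠ 0
  max₂ : ∀ y ∈ V₂.nonunits, ∃ z ∈ V₂, y = algebraMap K K' ϖ * z
  θ_mem : θ ∈ V₂
  ind : ∀ a : Fin q → K, (∀ i, a i ∈ O) →
    (∑ i, algebraMap K K' (a i) * θ ^ (i : ℕ)) ∈ V₂.nonunits → ∀ i, a i ∈ O.nonunits

/-- A matrix with entries in a valuation ring has determinant in it. -/
theorem s36n_det_mem {n : ℕ} (O : ValuationSubring K) (M : Matrix (Fin n) (Fin n) K)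
    (hM : ∀ i j, M i j ∈ O) : M.det ∈ O := by
  classical
  set M' : Matrix (Fin n) (Fin n) ↥O := fun i j => ⟨M i j, hM i j⟩ with hM'
  have hMM' : M = O.subtype.mapMatrix M' := by
    ext i j
    rfl
  rw [hMM', ← RingHom.map_det]
  exact (M'.det).2

namespace s36n_OneVal

variable {O : ValuationSubring K} {V₂ : ValuationSubring K'} {ϖ : K} {θ : K'} {q : ℕ}

section core

variable (h : s36n_OneVal O V₂ ϖ θ q)
include h

theorem map_nonunits {a : K} (ha : a ∈ O.nonunits) : algebraMap K K' a ∈ V₂.nonunits := by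
  rw [ValuationSubring.mem_nonunits_iff_or] at ha ⊢
  rcases ha with rfl | ha
  · left
    simp
  · right
    rw [← map_inv₀, h.restr]
    exact ha

/-- **Core.** If `∑ gᵢ θ ^ i ∈ V₂` then all `gᵢ ∈ O`. -/
theorem coeff_mem (g : Fin q → K)
    (hy : (∑ i, algebraMap K K' (g i) * θ ^ (i : ℕ)) ∈ V₂) : ∀ i, g i ∈ O := by
  classical
  by_contra hcon
  push Not at hcon
  obtain ⟨i₁, hi₁⟩ := hcon
  obtain ⟨i₀, -, hmax⟩ := Finset.exists_max_image Finset.univ (fun i => O.valuation (g i))
    ⟨i₁, Finset.mem_univ _⟩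
  have hbig : 1 < O.valuation (g i₀) := by
    have h1 : 1 < O.valuation (g i₁) := by
      rw [← not_le, ValuationSubring.valuation_le_one_iff]
      exact hi₁
    exact h1.trans_le (hmax i₁ (Finset.mem_univ _))
  have hg0 : g i₀ ≠ 0 := by
    intro h0
    rw [h0, map_zero] at hbig
    exact absurd hbig (by simp)
  set c := (g i₀)⁻¹ with hc
  have hcval : O.valuation c < 1 := by
    rw [hc, map_inv₀]
    exact inv_lt_one_of_one_lt₀ hbig
  have hcnon : c ∈ O.nonunits := (ValuationSubring.mem_nonunits_iff (A := O)).mpr hcval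
  set a : Fin q → K := fun i => c * g i with ha
  have haO : ∀ i, a i ∈ O := by
    intro i
    rw [← ValuationSubring.valuation_le_one_iff, ha]
    simp only [map_mul, hc, map_inv₀]
    exact inv_mul_le_one_of_le₀ (hmax i (Finset.mem_univ _)) zero_le
  have hsum : (∑ i, algebraMap K K' (a i) * θ ^ (i : ℕ)) = algebraMap K K' c *
      ∑ i, algebraMap K K' (g i) * θ ^ (i : ℕ) := by
    rw [Finset.mul_sum]
    refine Finset.sum_congr rfl fun i _ => ?_
    simp only [ha, map_mul]
    ring
  have hv : (∑ i, algebraMap K K' (a i) * θ ^ (i : ℕ)) ∈ V₂.nonunits := by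
    rw [hsum, ValuationSubring.mem_nonunits_iff, map_mul]
    calc _ ≤ V₂.valuation (algebraMap K K' c) * 1 :=
          mul_le_mul' le_rfl ((ValuationSubring.valuation_le_one_iff _ _).mpr hy)
      _ = V₂.valuation (algebraMap K K' c) := mul_one _
      _ < 1 := (ValuationSubring.mem_nonunits_iff (A := V₂)).mp (h.map_nonunits hcnon)
  have key := h.ind a haO hv i₀
  have h1 : a i₀ = 1 := by simp [ha, hc, inv_mul_cancel₀ hg0]
  rw [h1] at key
  have := (ValuationSubring.mem_nonunits_iff (A := O)).mp key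
  rw [map_one] at this
  exact lt_irrefl _ this

/-- `1, θ, …, θ ^ (q - 1)` are linearly independent over `K`. -/
theorem linInd : LinearIndependent K (fun i : Fin q => θ ^ (i : ℕ)) := by
  rw [Fintype.linearIndependent_iff]
  intro g hg i
  by_contra hne
  obtain ⟨d, hd⟩ : ∃ d : K, d ∉ O :=
    ⟨ϖ⁻¹, ((ValuationSubring.mem_nonunits_iff_or (A := O)).mp h.unif).resolve_left h.unif_ne⟩
  set c := d * (g i)⁻¹ with hc
  have hsum : (∑ j, algebraMap K K' (c * g j) * θ ^ (j : ℕ)) = 0 := by
    have h1 : (∑ j, algebraMap K K' (c * g j) * θ ^ (j : ℕ)) =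
        algebraMap K K' c * ∑ j, g j • θ ^ (j : ℕ) := by
      rw [Finset.mul_sum]
      refine Finset.sum_congr rfl fun j _ => ?_
      rw [Algebra.smul_def, map_mul]
      ring
    rw [h1, hg, mul_zero]
  have hmem := h.coeff_mem (fun j => c * g j) (by rw [hsum]; exact zero_mem _) i
  have h2 : c * g i = d := by
    rw [hc, mul_assoc, inv_mul_cancel₀ hne, mul_one]
  simp only [h2] at hmem
  exact hd hmem

/-- The power basis `θ ^ i` of `K'` over `K`. -/
def basis : Module.Basis (Fin q) K K' :=
  haveI : NeZero q := ⟨h.prime.ne_zero⟩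
  basisOfLinearIndependentOfCardEqFinrank h.linInd (by rw [Fintype.card_fin, h.finrank_eq])

theorem basis_apply (i : Fin q) : h.basis i = θ ^ (i : ℕ) := by
  simp [basis]

/-- **Integrality.** The coordinates of `y ∈ V₂` lie in `O`. -/
theorem repr_mem {y : K'} (hy : y ∈ V₂) (i : Fin q) : h.basis.repr y i ∈ O := by
  have hsum : (∑ i, algebraMap K K' (h.basis.repr y i) * θ ^ (i : ℕ)) = y := by
    have := h.basis.sum_repr y
    simpa [Algebra.smul_def, basis_apply] using this
  exact h.coeff_mem (fun i => h.basis.repr y i) (by rw [hsum]; exact hy) i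

/-- The multiplication matrix of `u ∈ V₂` has entries in `O`. -/
theorem leftMul_mem {u : K'} (hu : u ∈ V₂) (i j : Fin q) :
    Algebra.leftMulMatrix h.basis u i j ∈ O := by
  rw [Algebra.leftMulMatrix_eq_repr_mul, basis_apply]
  exact h.repr_mem (mul_mem hu (pow_mem h.θ_mem _)) i

theorem norm_mem {u : K'} (hu : u ∈ V₂) : Algebra.norm K u ∈ O := by
  classical
  rw [Algebra.norm_eq_matrix_det h.basis]
  exact s36n_det_mem O _ (fun i j => h.leftMul_mem hu i j)

/-- `N(c + ϖ z) ≡ c ^ q mod 𝔪_O`. -/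
theorem norm_add_unif {c : K} (hc : c ∈ O) {z : K'} (hz : z ∈ V₂) :
    Algebra.norm K (algebraMap K K' c + algebraMap K K' ϖ * z) - c ^ q ∈ O.nonunits := by
  classical
  rw [Algebra.norm_eq_matrix_det h.basis]
  have hϖO : ϖ ∈ O := ValuationSubring.nonunits_subset h.unif
  have hentry : ∀ i j, Algebra.leftMulMatrix h.basis
      (algebraMap K K' c + algebraMap K K' ϖ * z) i j =
        (if i = j then c else 0) + ϖ * Algebra.leftMulMatrix h.basis z i j := by
    intro i j
    rw [map_add, map_mul, AlgHom.commutes, AlgHom.commutes, Matrix.add_apply,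
      Matrix.algebraMap_eq_diagonal, Matrix.algebraMap_eq_diagonal, Matrix.diagonal_mul,
      Matrix.diagonal_apply]
    simp
  have hnon : ∀ i j, ϖ * Algebra.leftMulMatrix h.basis z i j ∈ O.nonunits := by
    intro i j
    rw [ValuationSubring.mem_nonunits_iff, map_mul]
    calc _ ≤ O.valuation ϖ * 1 :=
          mul_le_mul' le_rfl ((ValuationSubring.valuation_le_one_iff _ _).mpr (h.leftMul_mem hz i j))
      _ = O.valuation ϖ := mul_one _
      _ < 1 := (ValuationSubring.mem_nonunits_iff (A := O)).mp h.unif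
  have key := s36n_det_tri O (Algebra.leftMulMatrix h.basis
      (algebraMap K K' c + algebraMap K K' ϖ * z)) (fun _ => c)
    (fun i j => by
      rw [hentry]
      refine add_mem ?_ (ValuationSubring.nonunits_subset (hnon i j))
      split_ifs
      · exact hc
      · exact zero_mem _)
    (fun _ => hc)
    (fun i j hij => by
      rw [hentry, if_neg hij.ne, zero_add]
      exact hnon i j)
    (fun i => by
      rw [hentry, if_pos rfl, add_sub_cancel_left]
      exact hnon i i)
  have hprod : (∏ _i : Fin q, c) = c ^ q := by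
    rw [Finset.prod_const, Finset.card_univ, Fintype.card_fin]
  rw [hprod] at key
  exact key.2

/-- **The one-valuation norm–residue theorem.** -/
theorem norm_residue {u : K'} (hu : u ∈ V₂) {c : K} (hc : c ∈ O)
    (huc : u ^ q - algebraMap K K' c ∈ V₂.nonunits) :
    Algebra.norm K u ∈ O ∧ Algebra.norm K u - c ∈ O.nonunits := by
  have hN := h.norm_mem hu
  refine ⟨hN, ?_⟩
  obtain ⟨z, hz, hzeq⟩ := h.max₂ _ huc
  have huq : u ^ q = algebraMap K K' c + algebraMap K K' ϖ * z := by
    rw [← hzeq]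
    ring
  have hpow : Algebra.norm K u ^ q - c ^ q ∈ O.nonunits := by
    rw [← map_pow, huq]
    exact h.norm_add_unif hc hz
  -- Frobenius is injective on the residue field
  set N' : ↥O := ⟨Algebra.norm K u, hN⟩ with hN'
  set c' : ↥O := ⟨c, hc⟩ with hc'
  have hq0 : (q : IsLocalRing.ResidueField ↥O) = 0 := by
    have h1 : ((q : ↥O) : K) ∈ O.nonunits := by
      simpa using h.char
    have h2 := (ValuationSubring.coe_mem_nonunits_iff (A := O)).mp h1
    have h3 := (IsLocalRing.residue_eq_zero_iff _).mpr h2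
    simpa using h3
  have : CharP (IsLocalRing.ResidueField ↥O) q := (CharP.charP_iff_prime_eq_zero h.prime).mpr hq0
  have : Fact q.Prime := ⟨h.prime⟩
  have hres : IsLocalRing.residue ↥O (N' ^ q - c' ^ q) = 0 := by
    rw [IsLocalRing.residue_eq_zero_iff, ← ValuationSubring.coe_mem_nonunits_iff]
    simpa using hpow
  rw [map_sub, map_pow, map_pow, sub_eq_zero] at hres
  have hinj := frobenius_inj (IsLocalRing.ResidueField ↥O) q hres
  have h4 : IsLocalRing.residue ↥O (N' - c') = 0 := by
    rw [map_sub, hinj, sub_self]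
  rw [IsLocalRing.residue_eq_zero_iff, ← ValuationSubring.coe_mem_nonunits_iff] at h4
  simpa using h4

end core

end s36n_OneVal

/-- **The one-valuation norm–residue theorem** (root-namespace form). -/
theorem s36n_norm_residue_insep {O : ValuationSubring K} {V₂ : ValuationSubring K'} {ϖ : K}
    {θ : K'} {q : ℕ} (h : s36n_OneVal O V₂ ϖ θ q) {u : K'} (hu : u ∈ V₂) {c : K} (hc : c ∈ O)
    (huc : u ^ q - algebraMap K K' c ∈ V₂.nonunits) :
    Algebra.norm K u ∈ O ∧ Algebra.norm K u - c ∈ O.nonunits :=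
  h.norm_residue hu hc huc

end Fermat.Agent.Lib.S36
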