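/-
S36, layer (N) (lead, prefix `s36n_`), part 3: the two abstract norm–residue theorems of helper7
(`NormAbs.lean`, `NormInsep.lean`) ALONG AN EMBEDDING `γ : F₁ →ₐ[K] F₂` of fields (algebra structure
`algebraAlong γ`, norm `s35r_normAlong γ`), in the element shape of the frame `s36g_RootFrame`.

* `s36n_normHom γ : F₂ →* F₁` : the norm along `γ` as a monoid homomorphism (`= s35r_normAlong γ`);
* `s36n_two_along`  : `e = 1`, `e = n - 1`, `f = 1`:  `N u ≡ c₁ c₃ ^ e`;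
* `s36n_one_along`  : `e = 1`, `f = q` purely inseparable:  `u ^ q ≡ γ c ⇒ N u ≡ c`.
-/
import Fermat.Agent.Lib.S36.NormInsep
import Fermat.Agent.Lib.S35.RTop

set_option autoImplicit false
set_option linter.unusedSectionVars false
set_option linter.style.haveILetI false

noncomputable section

namespace Fermat.Agent.Lib.S36

open AlgebraicCurve Fermat.Agent.Lib.S35

variable {K F₁ F₂ : Type*} [Field K] [Field F₁] [Field F₂] [Algebra K F₁] [Algebra K F₂]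

/-- the norm along `γ` as a monoid homomorphism. -/
def s36n_normHom (γ : F₁ →ₐ[K] F₂) : F₂ →* F₁ :=
  letI := algebraAlong γ
  Algebra.norm F₁

theorem s36n_normHom_apply (γ : F₁ →ₐ[K] F₂) (f : F₂) :
    s36n_normHom γ f = s35r_normAlong γ f := rfl

/-- **The two-valuation norm–residue theorem along `γ`.** -/
theorem s36n_two_along (γ : F₁ →ₐ[K] F₂) (O : ValuationSubring F₁) (V₁ V₃ : ValuationSubring F₂)
    (ϖ : F₁) (s : F₂) (e : ℕ) (hdeg : finrankAlong K γ = e + 1) (he : 1 ≤ e)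
    (hc₁ : V₁.comap (γ : F₁ →+* F₂) = O) (hc₃ : V₃.comap (γ : F₁ →+* F₂) = O)
    (hϖ : ϖ ∈ O.nonunits) (hϖ0 : ϖ ≠ 0) (hmaxO : ∀ a ∈ O.nonunits, ∃ a' ∈ O, a = ϖ * a')
    (hmax₁ : ∀ y ∈ V₁.nonunits, ∃ z ∈ V₁, y = γ ϖ * z)
    (hs₁ : s ∈ V₁) (hs₃ : s ∈ V₃.nonunits) (hmax₃ : ∀ y ∈ V₃.nonunits, ∃ z ∈ V₃, y = s * z)
    (hram : ∃ w : F₂, w ∈ V₃ ∧ w⁻¹ ∈ V₃ ∧ s ^ e = γ ϖ * w)
    (happrox : ∃ x : F₂, x ∈ V₁ ∧ x ∈ V₃.nonunits ∧ x - 1 ∈ V₁.nonunits)
    (u : F₂) (c₁ c₃ : F₁) (hu₁ : u ∈ V₁) (hu₃ : u ∈ V₃) (hc₁' : c₁ ∈ O) (hc₃' : c₃ ∈ O)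
    (h₁ : u - γ c₁ ∈ V₁.nonunits) (h₃ : u - γ c₃ ∈ V₃.nonunits) :
    s36n_normHom γ u - c₁ * c₃ ^ e ∈ O.nonunits := by
  letI := algebraAlong γ
  have hT : s36n_TwoVal O V₁ V₃ ϖ s e :=
    { finrank_eq := hdeg
      one_le := he
      restr₁ := fun a => by rw [← hc₁]; exact Iff.rfl
      restr₃ := fun a => by rw [← hc₃]; exact Iff.rfl
      unif := hϖ
      unif_ne := hϖ0
      maxO := hmaxO
      max₁ := hmax₁
      s_mem₁ := hs₁
      s_mem₃ := hs₃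
      max₃ := hmax₃
      ram₃ := hram
      approx := happrox }
  exact (s36n_norm_residue_two hT hu₁ hu₃ hc₁' hc₃' h₁ h₃).2

/-- **The one-valuation (purely inseparable) norm–residue theorem along `γ`.** -/
theorem s36n_one_along (γ : F₁ →ₐ[K] F₂) (O : ValuationSubring F₁) (V₂ : ValuationSubring F₂)
    (ϖ : F₁) (θ : F₂) (q : ℕ) (hdeg : finrankAlong K γ = q) (hq : q.Prime)
    (hchar : (q : F₁) ∈ O.nonunits) (hc : V₂.comap (γ : F₁ →+* F₂) = O)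
    (hϖ : ϖ ∈ O.nonunits) (hϖ0 : ϖ ≠ 0)
    (hmax₂ : ∀ y ∈ V₂.nonunits, ∃ z ∈ V₂, y = γ ϖ * z) (hθ : θ ∈ V₂)
    (hind : ∀ a : Fin q → F₁, (∀ i, a i ∈ O) →
      (∑ i, γ (a i) * θ ^ (i : ℕ)) ∈ V₂.nonunits → ∀ i, ∃ d ∈ O, a i = ϖ * d)
    (u : F₂) (c : F₁) (hu : u ∈ V₂) (hc' : c ∈ O) (huc : u ^ q - γ c ∈ V₂.nonunits) :
    s36n_normHom γ u - c ∈ O.nonunits := by
  letI := algebraAlong γ
  have hT : s36n_OneVal O V₂ ϖ θ q :=
    { finrank_eq := hdeg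
      prime := hq
      char := hchar
      restr := fun a => by rw [← hc]; exact Iff.rfl
      unif := hϖ
      unif_ne := hϖ0
      max₂ := hmax₂
      θ_mem := hθ
      ind := fun a ha hsum i => by
        obtain ⟨d, hd, e⟩ := hind a ha hsum i
        rw [e, ValuationSubring.mem_nonunits_iff, map_mul]
        have h1 : O.valuation ϖ < 1 := (ValuationSubring.mem_nonunits_iff (A := O)).mp hϖ
        have h2 : O.valuation d ≤ 1 := (O.valuation_le_one_iff d).mpr hd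
        calc O.valuation ϖ * O.valuation d ≤ O.valuation ϖ * 1 := by gcongr
          _ < 1 := by rwa [mul_one] }
  exact (s36n_norm_residue_insep hT hu hc' huc).2

end Fermat.Agent.Lib.S36
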