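/-
S36, layer (N) (lead, prefix `s36n_`), part 4: INSTANTIATION — the four norm–residue formulas of
the frame `s36g_RootFrame` for the valuation package of level `M q²`, with
`Nα = s36n_normHom α'`, `Nβ = s36n_normHom β'` (`= s35r_normAlong α'`, `s35r_normAlong β'`, the norms
of the contract `s36g_NFCore`), hence THE CONCRETE FRAME and the two contracts (N-C), (G).

Inputs besides the package: `t ∈ V 0`, `t ∈ V 2`, unramifiedness `hunr`, and the two independence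
statements (`hind` of `s36c_fund_insep`) for the purely inseparable branches.
-/
import Fermat.Agent.Lib.S36.GFrameInst
import Fermat.Agent.Lib.S36.GRootAbs
import Fermat.Agent.Lib.S36.NormAlong
import Fermat.Agent.Lib.S36.PSpanK
import Fermat.Agent.Lib.S36.WOuter

set_option autoImplicit false
set_option linter.unusedSectionVars false
set_option linter.style.haveILetI false

noncomputable section

namespace Fermat.Agent.Lib.S36

open ModularCurve AlgebraicCurve HahnSeries Fermat.Agent.Lib.FF Fermat.Agent.Lib.S18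
  Fermat.Agent.Lib.S37 Fermat.Agent.Lib.S34 Fermat.Agent.Lib.S35

local notation "Kb" => AlgebraicClosure ℚ

theorem s36n_ram_aux {F : Type*} [Field F] (ϖ w x : F) (hw0 : w ≠ 0) (h : ϖ = w * x) :
    x = ϖ * w⁻¹ := by
  rw [h, mul_comm w, mul_assoc, mul_inv_cancel₀ hw0, mul_one]

variable {K₀ : Type} [Field K₀] [Algebra ℚ K₀] {κ : Type} [Field κ] (G : s18g_GaussData K₀ κ)
  (φ : K₀ →+* Kb) (M q : ℕ) [NeZero M] [NeZero q] (hq : q.Prime) (hqM : ¬ q ∣ M)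

local notation "α'" => (heckeAlphaBar K₀ (M * q) q : s34m_F K₀ (M * q) →ₐ[K₀] s34m_F K₀ (M * q * q))
local notation "β'" => (heckeBetaBar K₀ (M * q) q : s34m_F K₀ (M * q) →ₐ[K₀] s34m_F K₀ (M * q * q))
local notation "ϖ₁" => s34m_unif G (M * q)
local notation "ϖ₂" => s34m_unif G (M * q * q)

/-! ### The two rings of level `M q` -/

theorem s36n_unif_mem_nonunits_Vzero : ϖ₁ ∈ (s34m_Vzero G φ M q hq hqM).nonunits := by
  rw [s36g_comap_nonunit _ (s36g_Vzero_comap G φ M q hq hqM)]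
  change s34m_al φ M q hq hqM ϖ₁ ∈ _
  rw [s34m_al_unif]
  exact s36w_unif_mem_nonunits G (M * q)

theorem s36n_maxO_Vzero (a : s34m_F K₀ (M * q)) (ha : a ∈ (s34m_Vzero G φ M q hq hqM).nonunits) :
    ∃ a' ∈ s34m_Vzero G φ M q hq hqM, a = ϖ₁ * a' := by
  rw [s36g_comap_nonunit _ (s36g_Vzero_comap G φ M q hq hqM)] at ha
  change s34m_al φ M q hq hqM a ∈ _ at ha
  obtain ⟨z, hz, e⟩ := (s36w_mem_nonunits_iff G (M * q) _).mp ha
  refine ⟨s34m_al φ M q hq hqM z, (s34m_al_mem_Vinf_iff G φ M q hq hqM z).mpr hz, ?_⟩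
  have := congrArg (s34m_al φ M q hq hqM) e
  rwa [s34m_al_al, map_mul, s34m_al_unif] at this

theorem s36n_alpha_unif : α' ϖ₁ = ϖ₂ := s34m_alpha_unif G (M * q) q

theorem s36n_beta_unif : β' ϖ₁ = ϖ₂ :=
  (heckeBetaBar K₀ (M * q) q : s34m_F K₀ (M * q) →ₐ[K₀] s34m_F K₀ (M * q * q)).commutes _

/-- `q` is a non-unit of a valuation ring of `F₁` restricting to `G.A` on the constants. -/
theorem s36n_char_mem (hunr : ∃ u : G.A, IsUnit u ∧ ((q : ℕ) : G.A) = G.ϖ * u)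
    (O : ValuationSubring (s34m_F K₀ (M * q)))
    (hcst : ∀ a : K₀, algebraMap K₀ (s34m_F K₀ (M * q)) a ∈ O ↔ a ∈ G.A)
    (hϖ : ϖ₁ ∈ O.nonunits) : ((q : ℕ) : s34m_F K₀ (M * q)) ∈ O.nonunits := by
  obtain ⟨u, -, e⟩ := hunr
  have e1 : ((q : ℕ) : K₀) = ((G.ϖ : G.A) : K₀) * ((u : G.A) : K₀) := by
    have := congrArg (fun x : G.A => (x : K₀)) e
    simpa using this
  have e2 : ((q : ℕ) : s34m_F K₀ (M * q)) = ϖ₁ * algebraMap K₀ _ ((u : G.A) : K₀) := by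
    rw [← map_natCast (algebraMap K₀ (s34m_F K₀ (M * q))), e1, map_mul]
    rfl
  rw [e2, ValuationSubring.mem_nonunits_iff, map_mul]
  have h1 : O.valuation ϖ₁ < 1 := (ValuationSubring.mem_nonunits_iff (A := O)).mp hϖ
  have h2 : O.valuation (algebraMap K₀ (s34m_F K₀ (M * q)) ((u : G.A) : K₀)) ≤ 1 :=
    (O.valuation_le_one_iff _).mpr ((hcst _).mpr u.2)
  calc O.valuation ϖ₁ * O.valuation (algebraMap K₀ (s34m_F K₀ (M * q)) ((u : G.A) : K₀))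
      ≤ O.valuation ϖ₁ * 1 := by gcongr
    _ < 1 := by rwa [mul_one]

variable (V : Fin 3 → ValuationSubring (s34m_F K₀ (M * q * q))) (t : s34m_F K₀ (M * q * q))

/-! ### The four formulas -/

/-- **`normAα`**: `V 0`, `V 1` over `V'_∞` along `α'`. -/
theorem s36n_normA_alpha (hC : s36g_ValComap G φ M q hq hqM V) (hU : s36g_ValUnif G M q V t)
    (hI : s36g_ValIndep M q V) (ht0 : t ∈ V 0)
    (u : s34m_F K₀ (M * q * q)) (c₀ c₁ : s34m_F K₀ (M * q)) (hu0 : u ∈ V 0) (hu1 : u ∈ V 1)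
    (hc₀ : c₀ ∈ s34m_Vinf G (M * q)) (hc₁ : c₁ ∈ s34m_Vinf G (M * q))
    (h0 : u - α' c₀ ∈ (V 0).nonunits) (h1 : u - α' c₁ ∈ (V 1).nonunits) :
    s36n_normHom α' u - c₀ * c₁ ^ (q - 1) ∈ (s34m_Vinf G (M * q)).nonunits := by
  obtain ⟨-, c0α, -, c1α, -, -, -⟩ := hC
  have hU' := hU
  obtain ⟨-, hm0, -, ht1, hm1, ⟨w, hw, hw', hwt⟩, -⟩ := hU'
  have hw0 : w ≠ 0 := by
    rintro rfl
    rw [zero_mul] at hwt
    exact s34m_unif_ne_zero G (M * q * q) hwt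
  refine s36n_two_along α' (s34m_Vinf G (M * q)) (V 0) (V 1) ϖ₁ t (q - 1)
    (by rw [s36p_finrank_alphaK φ (M * q) q hq (dvd_mul_left q M)]
        exact (Nat.sub_add_cancel hq.pos).symm)
    (by have := hq.two_le; omega) c0α c1α (s36w_unif_mem_nonunits G (M * q))
    (s34m_unif_ne_zero G (M * q)) (fun a ha => (s36w_mem_nonunits_iff G (M * q) a).mp ha)
    (by rw [s36n_alpha_unif]; exact hm0) ht0 ht1 hm1
    ⟨w⁻¹, hw', by rwa [inv_inv], by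
      exact s36n_ram_aux _ w _ hw0 (by rw [s36n_alpha_unif]; exact hwt)⟩
    ?_ u c₀ c₁ hu0 hu1 hc₀ hc₁ h0 h1
  -- approximation: `x ≡ 1` at `V 0`, `x ≡ 0` at `V 1`
  obtain ⟨x, hx⟩ := s36g_pkg_approx G M q V t hU hI ![1, 0, 0] (fun i => by
    fin_cases i
    · exact (V 0).one_mem
    · exact (V 1).zero_mem
    · exact (V 2).zero_mem)
  have hx0 : x - 1 ∈ (V 0).nonunits := hx 0
  have hx1 : x ∈ (V 1).nonunits := by
    have := hx 1
    simpa using this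
  refine ⟨x, ?_, hx1, hx0⟩
  have : x = (x - 1) + 1 := by ring
  rw [this]
  exact (V 0).add_mem _ _ ((V 0).nonunits_le hx0) (V 0).one_mem

/-- **`normAβ`**: `V 2`, `V 1` over `V'_0` along `β'`. -/
theorem s36n_normA_beta (hC : s36g_ValComap G φ M q hq hqM V) (hU : s36g_ValUnif G M q V t)
    (hI : s36g_ValIndep M q V) (ht2 : t ∈ V 2)
    (u : s34m_F K₀ (M * q * q)) (c₂ c₁ : s34m_F K₀ (M * q)) (hu2 : u ∈ V 2) (hu1 : u ∈ V 1)
    (hc₂ : c₂ ∈ s34m_Vzero G φ M q hq hqM) (hc₁ : c₁ ∈ s34m_Vzero G φ M q hq hqM)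
    (h2 : u - β' c₂ ∈ (V 2).nonunits) (h1 : u - β' c₁ ∈ (V 1).nonunits) :
    s36n_normHom β' u - c₂ * c₁ ^ (q - 1) ∈ (s34m_Vzero G φ M q hq hqM).nonunits := by
  obtain ⟨-, -, -, -, c1β, -, c2β⟩ := hC
  have hU' := hU
  obtain ⟨-, -, hm2, ht1, hm1, ⟨w, hw, hw', hwt⟩, -⟩ := hU'
  have hw0 : w ≠ 0 := by
    rintro rfl
    rw [zero_mul] at hwt
    exact s34m_unif_ne_zero G (M * q * q) hwt
  refine s36n_two_along β' (s34m_Vzero G φ M q hq hqM) (V 2) (V 1) ϖ₁ t (q - 1)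
    (by rw [s36p_finrank_betaK φ (M * q) q hq (dvd_mul_left q M)]
        exact (Nat.sub_add_cancel hq.pos).symm)
    (by have := hq.two_le; omega) c2β c1β (s36n_unif_mem_nonunits_Vzero G φ M q hq hqM)
    (s34m_unif_ne_zero G (M * q)) (s36n_maxO_Vzero G φ M q hq hqM)
    (by rw [s36n_beta_unif]; exact hm2) ht2 ht1 hm1
    ⟨w⁻¹, hw', by rwa [inv_inv], by
      exact s36n_ram_aux _ w _ hw0 (by rw [s36n_beta_unif]; exact hwt)⟩
    ?_ u c₂ c₁ hu2 hu1 hc₂ hc₁ h2 h1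
  obtain ⟨x, hx⟩ := s36g_pkg_approx G M q V t hU hI ![0, 0, 1] (fun i => by
    fin_cases i
    · exact (V 0).zero_mem
    · exact (V 1).zero_mem
    · exact (V 2).one_mem)
  have hx2 : x - 1 ∈ (V 2).nonunits := hx 2
  have hx1 : x ∈ (V 1).nonunits := by
    have := hx 1
    simpa using this
  refine ⟨x, ?_, hx1, hx2⟩
  have : x = (x - 1) + 1 := by ring
  rw [this]
  exact (V 2).add_mem _ _ ((V 2).nonunits_le hx2) (V 2).one_mem

/-- **`normBα`**: `V 2` over `V'_0` along `α'` (purely inseparable). -/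
theorem s36n_normB_alpha (hunr : ∃ u : G.A, IsUnit u ∧ ((q : ℕ) : G.A) = G.ϖ * u)
    (hC : s36g_ValComap G φ M q hq hqM V) (hU : s36g_ValUnif G M q V t)
    (hind : ∃ θ ∈ V 2, ∀ c : Fin q → s34m_F K₀ (M * q), (∀ k, c k ∈ s34m_Vzero G φ M q hq hqM) →
      (∑ k, α' (c k) * θ ^ (k : ℕ)) ∈ (V 2).nonunits →
      ∀ k, ∃ d ∈ s34m_Vzero G φ M q hq hqM, c k = ϖ₁ * d)
    (u : s34m_F K₀ (M * q * q)) (c : s34m_F K₀ (M * q)) (hu : u ∈ V 2)
    (hc : c ∈ s34m_Vzero G φ M q hq hqM) (h : u ^ q - α' c ∈ (V 2).nonunits) :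
    s36n_normHom α' u - c ∈ (s34m_Vzero G φ M q hq hqM).nonunits := by
  obtain ⟨-, -, -, -, -, c2α, -⟩ := hC
  obtain ⟨-, -, hm2, -, -, -, -⟩ := hU
  obtain ⟨θ, hθ, hind'⟩ := hind
  exact s36n_one_along α' (s34m_Vzero G φ M q hq hqM) (V 2) ϖ₁ θ q
    (s36p_finrank_alphaK φ (M * q) q hq (dvd_mul_left q M)) hq
    (s36n_char_mem G M q hunr _ (s36g_cst_mem_Vzero_iff G φ M q hq hqM)
      (s36n_unif_mem_nonunits_Vzero G φ M q hq hqM))
    c2α (s36n_unif_mem_nonunits_Vzero G φ M q hq hqM) (s34m_unif_ne_zero G (M * q))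
    (by rw [s36n_alpha_unif]; exact hm2) hθ hind' u c hu hc h

/-- **`normBβ`**: `V 0` over `V'_∞` along `β'` (purely inseparable). -/
theorem s36n_normB_beta (hunr : ∃ u : G.A, IsUnit u ∧ ((q : ℕ) : G.A) = G.ϖ * u)
    (hC : s36g_ValComap G φ M q hq hqM V) (hU : s36g_ValUnif G M q V t)
    (hind : ∃ θ ∈ V 0, ∀ c : Fin q → s34m_F K₀ (M * q), (∀ k, c k ∈ s34m_Vinf G (M * q)) →
      (∑ k, β' (c k) * θ ^ (k : ℕ)) ∈ (V 0).nonunits →
      ∀ k, ∃ d ∈ s34m_Vinf G (M * q), c k = ϖ₁ * d)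
    (u : s34m_F K₀ (M * q * q)) (c : s34m_F K₀ (M * q)) (hu : u ∈ V 0)
    (hc : c ∈ s34m_Vinf G (M * q)) (h : u ^ q - β' c ∈ (V 0).nonunits) :
    s36n_normHom β' u - c ∈ (s34m_Vinf G (M * q)).nonunits := by
  obtain ⟨-, -, c0β, -, -, -, -⟩ := hC
  obtain ⟨-, hm0, -, -, -, -, -⟩ := hU
  obtain ⟨θ, hθ, hind'⟩ := hind
  exact s36n_one_along β' (s34m_Vinf G (M * q)) (V 0) ϖ₁ θ q
    (s36p_finrank_betaK φ (M * q) q hq (dvd_mul_left q M)) hq
    (s36n_char_mem G M q hunr _ (s36g_cst_mem_Vinf_iff G (M * q))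
      (s36w_unif_mem_nonunits G (M * q)))
    c0β (s36w_unif_mem_nonunits G (M * q)) (s34m_unif_ne_zero G (M * q))
    (by rw [s36n_beta_unif]; exact hm0) hθ hind' u c hu hc h

/-! ### The concrete frame and the two contracts -/

variable (V' : Fin 2 → ValuationSubring (s34m_F K₀ (M * q)))

/-- **The concrete frame** with the norms along `α'`, `β'`. -/
theorem s36n_frame (hπ : Function.Surjective G.π)
    (hunr : ∃ u : G.A, IsUnit u ∧ ((q : ℕ) : G.A) = G.ϖ * u)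
    (hP : s36g_ValPkg G φ M q hq hqM V t) (ht0 : t ∈ V 0) (ht2 : t ∈ V 2)
    (hindα : ∃ θ ∈ V 2, ∀ c : Fin q → s34m_F K₀ (M * q), (∀ k, c k ∈ s34m_Vzero G φ M q hq hqM) →
      (∑ k, α' (c k) * θ ^ (k : ℕ)) ∈ (V 2).nonunits →
      ∀ k, ∃ d ∈ s34m_Vzero G φ M q hq hqM, c k = ϖ₁ * d)
    (hindβ : ∃ θ ∈ V 0, ∀ c : Fin q → s34m_F K₀ (M * q), (∀ k, c k ∈ s34m_Vinf G (M * q)) →
      (∑ k, β' (c k) * θ ^ (k : ℕ)) ∈ (V 0).nonunits →
      ∀ k, ∃ d ∈ s34m_Vinf G (M * q), c k = ϖ₁ * d)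
    (hV'0 : V' 0 = s34m_Vinf G (M * q)) (hV'1 : V' 1 = s34m_Vzero G φ M q hq hqM) :
    s36g_RootFrame G.A q V V' α' β' (s36n_normHom α') (s36n_normHom β') := by
  have hC := hP.1
  have hU := hP.2.1
  have hI := hP.2.2.2.2.1
  refine s36g_frame_of_pkg G φ M q hq hqM V t V' hπ hunr hP hV'0 hV'1 _ _ ?_ ?_ ?_ ?_
  · intro u c₀ c₁ hu0 hu1 hc₀ hc₁ h0 h1
    rw [hV'0] at hc₀ hc₁ ⊢
    exact s36n_normA_alpha G φ M q hq hqM V t hC hU hI ht0 u c₀ c₁ hu0 hu1 hc₀ hc₁ h0 h1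
  · intro u c hu hc h
    rw [hV'1] at hc ⊢
    exact s36n_normB_alpha G φ M q hq hqM V t hunr hC hU hindα u c hu hc h
  · intro u c₂ c₁ hu2 hu1 hc₂ hc₁ h2 h1
    rw [hV'1] at hc₂ hc₁ ⊢
    exact s36n_normA_beta G φ M q hq hqM V t hC hU hI ht2 u c₂ c₁ hu2 hu1 hc₂ hc₁ h2 h1
  · intro u c hu hc h
    rw [hV'0] at hc ⊢
    exact s36n_normB_beta G φ M q hq hqM V t hunr hC hU hindβ u c hu hc h

end Fermat.Agent.Lib.S36
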