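/-
S36, layer (N) (lead, prefix `s36n_`), part 5: THE CONCRETE FRAME OF (N-C) AND (G) FROM THE
VALUATION PACKAGE ALONE (`t = s36m_t M q = j_{q²} - j`), and the two contracts.

The two independence statements of `s36n_frame` are proved from (H6) `s36g_ValRed` exactly as in
helper3's `s36m_rc_insep_beta/_alpha` (`y₀ = j` over `β'`, `y₀ = j_{q²}` over `α'`).

* `s36n_hind_beta`, `s36n_hind_alpha` : the two `hind` statements;
* `s36n_frame_pkg` : `s36g_ValPkg … V (s36m_t M q) → s36g_RootFrame G.A q V V' α' β' Nα Nβ`;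
* `s36n_rootNC_pkg`, `s36n_rootG_pkg` : the contracts `s36g_RootNC`, `s36g_RootG` for these data.
-/
import Fermat.Agent.Lib.S36.NormInst
import Fermat.Agent.Lib.S36.MResComplete

set_option autoImplicit false
set_option linter.unusedSectionVars false
set_option linter.style.haveILetI false

noncomputable section

namespace Fermat.Agent.Lib.S36

open ModularCurve AlgebraicCurve HahnSeries Fermat.Agent.Lib.FF Fermat.Agent.Lib.S18
  Fermat.Agent.Lib.S37 Fermat.Agent.Lib.S34 Fermat.Agent.Lib.S35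

local notation "Kb" => AlgebraicClosure ℚ

variable {K₀ : Type} [Field K₀] [Algebra ℚ K₀] {κ : Type} [Field κ] (G : s18g_GaussData K₀ κ)
  (φ : K₀ →+* Kb) (M q : ℕ) [NeZero M] [NeZero q] (hq : q.Prime) (hqM : ¬ q ∣ M)
  (V : Fin 3 → ValuationSubring (s34m_F K₀ (M * q * q)))

local notation "α'" => (heckeAlphaBar K₀ (M * q) q : s34m_F K₀ (M * q) →ₐ[K₀] s34m_F K₀ (M * q * q))
local notation "β'" => (heckeBetaBar K₀ (M * q) q : s34m_F K₀ (M * q) →ₐ[K₀] s34m_F K₀ (M * q * q))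

/-- **`hind` along `β'`** (`V 0` over `V'_∞`, `y₀ = j`). -/
theorem s36n_hind_beta (hC : s36g_ValComap G φ M q hq hqM V)
    (hR : s36g_ValRed G φ M q hq hqM V) :
    ∃ θ ∈ V 0, ∀ c : Fin q → s34m_F K₀ (M * q), (∀ k, c k ∈ s34m_Vinf G (M * q)) →
      (∑ k, β' (c k) * θ ^ (k : ℕ)) ∈ (V 0).nonunits →
      ∀ k, ∃ d ∈ s34m_Vinf G (M * q), c k = s34m_unif G (M * q) * d := by
  obtain ⟨r, hker, h0α, h0β, -, -, -, -⟩ := hR
  have hOV : ∀ x ∈ s34m_Vinf G (M * q), s36g_beta M q x ∈ V 0 :=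
    fun x hx => (s36m_rc_beta_mem_iff G φ M q hq hqM hC x).1.mpr hx
  have hr : ∀ x : s34m_Vinf G (M * q),
      r 0 ⟨s36g_beta M q x, hOV x x.2⟩ = qExpand κ q (s34m_redInf G (M * q) x) :=
    fun x => h0β x _
  set y₀ : V 0 := ⟨s18g_jF (K := K₀) (M * q * q), s36m_rc_jF_mem G φ M q hq hqM hC 0⟩ with hy₀
  have hJ : r 0 y₀ = jqModC κ := by
    have e : s36g_alpha M q (s18g_jF (K := K₀) (M * q)) = s18g_jF (K := K₀) (M * q * q) :=
      s34m_alpha_jF (M * q) q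
    have hmem : s36g_alpha M q (s18g_jF (K := K₀) (M * q)) ∈ V 0 := by
      rw [e]; exact s36m_rc_jF_mem G φ M q hq hqM hC 0
    have e' : y₀ = ⟨s36g_alpha M q (s18g_jF (K := K₀) (M * q)), hmem⟩ := Subtype.ext e.symm
    rw [e', h0α ⟨s18g_jF (K := K₀) (M * q), s34m_jF_mem_Vinf G (M * q)⟩ hmem]
    exact s34m_redInf_jF G (M * q)
  have hρ : ∀ x : s34m_Vinf G (M * q), s34m_redInf G (M * q) x = 0 →
      ∃ d ∈ s34m_Vinf G (M * q), (x : s34m_F K₀ (M * q)) = s34m_unif G (M * q) * d :=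
    fun x hx => (s34m_redInf_eq_zero_iff G (M * q) x).mp hx
  have hindep : ∀ a : Fin q → LaurentSeries κ,
      ∑ k, qExpand κ q (a k) * r 0 y₀ ^ (k : ℕ) = 0 → ∀ k, a k = 0 := by
    intro a ha
    rw [hJ] at ha
    exact s36m_rc_indep q a ha
  exact ⟨(y₀ : s34m_F K₀ (M * q * q)), y₀.2,
    s36m_rc_hind (s36g_beta M q) (s34m_Vinf G (M * q)) (V 0) hOV (r 0)
      (fun y hy => (hker 0 y).mpr hy) (s34m_redInf G (M * q)) (qExpand κ q) hr
      (s34m_unif G (M * q)) hρ y₀ q hindep⟩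

/-- **`hind` along `α'`** (`V 2` over `V'_0`, `y₀ = j_{q²}`). -/
theorem s36n_hind_alpha (hC : s36g_ValComap G φ M q hq hqM V)
    (hR : s36g_ValRed G φ M q hq hqM V) :
    ∃ θ ∈ V 2, ∀ c : Fin q → s34m_F K₀ (M * q), (∀ k, c k ∈ s34m_Vzero G φ M q hq hqM) →
      (∑ k, α' (c k) * θ ^ (k : ℕ)) ∈ (V 2).nonunits →
      ∀ k, ∃ d ∈ s34m_Vzero G φ M q hq hqM, c k = s34m_unif G (M * q) * d := by
  obtain ⟨r, hker, -, -, -, -, h2α, h2β⟩ := hR
  have hOV : ∀ x ∈ s34m_Vzero G φ M q hq hqM, s36g_alpha M q x ∈ V 2 :=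
    fun x hx => (s36b_alpha_mem_iff G φ M q hq hqM hC x).2.2.mpr hx
  have hr : ∀ x : s34m_Vzero G φ M q hq hqM,
      r 2 ⟨s36g_alpha M q x, hOV x x.2⟩ = qExpand κ q (s34m_redZero G φ M q hq hqM x) :=
    fun x => h2α x _
  set y₀ : V 2 := ⟨s36m_jqq (K₀ := K₀) M q, s36m_rc_jqq_mem G φ M q hq hqM hC 2⟩ with hy₀
  have hJ : r 2 y₀ = jqModC κ := by
    have hmem : s36g_beta M q (s34m_betaJ (K₀ := K₀) M q) ∈ V 2 :=
      s36m_rc_jqq_mem G φ M q hq hqM hC 2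
    have e' : y₀ = ⟨s36g_beta M q (s34m_betaJ (K₀ := K₀) M q), hmem⟩ := Subtype.ext rfl
    rw [e', h2β ⟨s34m_betaJ (K₀ := K₀) M q, s34m_betaJ_mem_Vzero G φ M q hq hqM⟩ hmem]
    exact s36m_rc_redZero_betaJ G φ M q hq hqM
  have hρ : ∀ x : s34m_Vzero G φ M q hq hqM, s34m_redZero G φ M q hq hqM x = 0 →
      ∃ d ∈ s34m_Vzero G φ M q hq hqM, (x : s34m_F K₀ (M * q)) = s34m_unif G (M * q) * d :=
    fun x hx => (s34m_redZero_eq_zero_iff G φ M q hq hqM x).mp hx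
  have hindep : ∀ a : Fin q → LaurentSeries κ,
      ∑ k, qExpand κ q (a k) * r 2 y₀ ^ (k : ℕ) = 0 → ∀ k, a k = 0 := by
    intro a ha
    rw [hJ] at ha
    exact s36m_rc_indep q a ha
  exact ⟨(y₀ : s34m_F K₀ (M * q * q)), y₀.2,
    s36m_rc_hind (s36g_alpha M q) (s34m_Vzero G φ M q hq hqM) (V 2) hOV (r 2)
      (fun y hy => (hker 2 y).mpr hy) (s34m_redZero G φ M q hq hqM) (qExpand κ q) hr
      (s34m_unif G (M * q)) hρ y₀ q hindep⟩

variable (V' : Fin 2 → ValuationSubring (s34m_F K₀ (M * q)))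

/-- **The concrete frame from the valuation package alone.** -/
theorem s36n_frame_pkg (hπ : Function.Surjective G.π)
    (hunr : ∃ u : G.A, IsUnit u ∧ ((q : ℕ) : G.A) = G.ϖ * u)
    (hP : s36g_ValPkg G φ M q hq hqM V (s36m_t M q))
    (hV'0 : V' 0 = s34m_Vinf G (M * q)) (hV'1 : V' 1 = s34m_Vzero G φ M q hq hqM) :
    s36g_RootFrame G.A q V V' α' β' (s36n_normHom α') (s36n_normHom β') :=
  s36n_frame G φ M q hq hqM V (s36m_t M q) V' hπ hunr hP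
    (s36m_rc_t_mem G φ M q hq hqM hP.1 0) (s36m_rc_t_mem G φ M q hq hqM hP.1 2)
    (s36n_hind_alpha G φ M q hq hqM V hP.1 hP.2.2.2.2.2.2)
    (s36n_hind_beta G φ M q hq hqM V hP.1 hP.2.2.2.2.2.2) hV'0 hV'1

/-- **Contract (N-C)** for the package. -/
theorem s36n_rootNC_pkg (hπ : Function.Surjective G.π)
    (hunr : ∃ u : G.A, IsUnit u ∧ ((q : ℕ) : G.A) = G.ϖ * u)
    (hP : s36g_ValPkg G φ M q hq hqM V (s36m_t M q))
    (hV'0 : V' 0 = s34m_Vinf G (M * q)) (hV'1 : V' 1 = s34m_Vzero G φ M q hq hqM) :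
    s36g_RootNC G.A q V (s36n_normHom α') (s36n_normHom β') :=
  s36g_rootNC (s36n_frame_pkg G φ M q hq hqM V V' hπ hunr hP hV'0 hV'1)

/-- **Contract (G)** for the package. -/
theorem s36n_rootG_pkg (hπ : Function.Surjective G.π)
    (hunr : ∃ u : G.A, IsUnit u ∧ ((q : ℕ) : G.A) = G.ϖ * u)
    (hP : s36g_ValPkg G φ M q hq hqM V (s36m_t M q))
    (hV'0 : V' 0 = s34m_Vinf G (M * q)) (hV'1 : V' 1 = s34m_Vzero G φ M q hq hqM) :
    s36g_RootG G.A q V V' (s36n_normHom α') (s36n_normHom β') :=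
  s36g_rootG (s36n_frame_pkg G φ M q hq hqM V V' hπ hunr hP hV'0 hV'1)

end Fermat.Agent.Lib.S36
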