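/-
S36 project, GEOMETRY side (lead, prefix `s36g_`): THE INPUT `s36g_InRoot` OF THE CORE ASSEMBLY
(helper8's `GCoreDefs.lean` / `GCore.lean`): the abstract contracts (N-C) and (G) hold for every
valuation package, with `V' = (V'_∞, V'_0)` and the norms along `α'`, `β'`.
-/
import Fermat.Agent.Lib.S36.GCoreDefs
import Fermat.Agent.Lib.S36.NormPkg

set_option autoImplicit false
set_option linter.unusedSectionVars false
set_option linter.style.haveILetI false

noncomputable section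

namespace Fermat.Agent.Lib.S36

open ModularCurve AlgebraicCurve HahnSeries Fermat.Agent.Lib.FF Fermat.Agent.Lib.S18
  Fermat.Agent.Lib.S37 Fermat.Agent.Lib.S34 Fermat.Agent.Lib.S35

local notation "Kb" => AlgebraicClosure ℚ

/-- the norm of `GCoreDefs` along `α'` is `s36n_normHom α'`. -/
theorem s36g_Nα_eq {K₀ : Type} [Field K₀] [Algebra ℚ K₀] (M q : ℕ) [NeZero M] [NeZero q] :
    s36g_Nα (K₀ := K₀) M q = s36n_normHom (heckeAlphaBar K₀ (M * q) q) :=
  MonoidHom.ext fun _ => rfl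

/-- the norm of `GCoreDefs` along `β'` is `s36n_normHom β'`. -/
theorem s36g_Nβ_eq {K₀ : Type} [Field K₀] [Algebra ℚ K₀] (M q : ℕ) [NeZero M] [NeZero q] :
    s36g_Nβ (K₀ := K₀) M q = s36n_normHom (heckeBetaBar K₀ (M * q) q) :=
  MonoidHom.ext fun _ => rfl

/-- unramifiedness in helper6's shape from `ϖ = q`. -/
theorem s36g_hunr_of_unif {K₀ : Type} [Field K₀] {κ : Type} [Field κ] (G : s18g_GaussData K₀ κ)
    (q : ℕ) (hϖ : ((G.ϖ : G.A) : K₀) = (q : K₀)) :
    ∃ u : G.A, IsUnit u ∧ ((q : ℕ) : G.A) = G.ϖ * u := by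
  refine ⟨1, isUnit_one, ?_⟩
  rw [mul_one]
  apply Subtype.ext
  rw [hϖ]
  simp

/-- **Input (G)+(N-C) of the Core assembly.** -/
theorem s36g_inRoot (M q : ℕ) [NeZero M] [NeZero q] (hq : q.Prime) (hqM : ¬ q ∣ M) :
    s36g_InRoot M q hq hqM := by
  intro K₀ _ _ φ κ _ _ _ G _ hπ hϖ V hP
  have hunr := s36g_hunr_of_unif G q hϖ
  rw [s36g_Nα_eq, s36g_Nβ_eq]
  exact ⟨s36n_rootNC_pkg G φ M q hq hqM V (s36g_V' G φ M q hq hqM) hπ hunr hP rfl rfl,
    s36n_rootG_pkg G φ M q hq hqM V (s36g_V' G φ M q hq hqM) hπ hunr hP rfl rfl⟩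

end Fermat.Agent.Lib.S36
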