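/-
S36 mega-project, layer (M), piece (D2) part 2 of helper6 (#1756) (helper3, prefix `s36m_gc`):
**(H8) GALOIS STABILITY FROM COMPLETENESS.**  For an arbitrary family `V : Fin 3 → ValuationSubring F₂`
(GeoFrame.lean) with the comaps (H1/H2), completeness (H5) and independence (H9), each `V i` is stable
under the arithmetic Galois action of every automorphism `σ₀` of `K₀` preserving the valuation ring
`G.A`.

Route: `U := (V i).comap σ`; `α'`, `β'` commute with the Galois action (`coe_heckeAlphaBar`,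
`coeffMap_qExpand`) and `V'_∞`, `V'_0` (level `M q`) are `σ`-stable (helper6's `MGal.lean`), so
`U` has the same two restrictions as `V i`; completeness for both `α'` and `β'` then pins `U = V i`
(`{V 0, V 1} ∩ {V 1, V 2} = {V 1}` by independence).
-/
import Fermat.Agent.Lib.S36.GeoFrame
import Fermat.Agent.Lib.S36.MGal
import Fermat.Prelude.Thm_ModularCurve_coeffMap_qExpand

set_option autoImplicit false
set_option linter.unusedSectionVars false
set_option linter.unusedVariables false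
set_option linter.style.haveILetI false

noncomputable section

namespace Fermat.Agent.Lib.S36

open ModularCurve AlgebraicCurve HahnSeries Fermat.Agent.Lib.FF Fermat.Agent.Lib.S18
  Fermat.Agent.Lib.S37 Fermat.Agent.Lib.S34

local notation "Kb" => AlgebraicClosure ℚ

/-! ### Abstract part -/

/-- If `e₂ ∘ a = a ∘ e₁` and the restriction `W.comap a` is `e₁`-stable, then the `e₂`-translate of `W`
has the same restriction along `a`. -/
theorem s36m_gc_comap_comap {F₁ F₂ : Type*} [Field F₁] [Field F₂] (a : F₁ →+* F₂)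
    (e₁ : F₁ ≃+* F₁) (e₂ : F₂ ≃+* F₂) (he : ∀ y : F₁, e₂ (a y) = a (e₁ y))
    (W : ValuationSubring F₂) (W' : ValuationSubring F₁) (hW : W.comap a = W')
    (hst : ∀ y : F₁, e₁ y ∈ W' ↔ y ∈ W') :
    (W.comap (e₂ : F₂ →+* F₂)).comap a = W' := by
  ext y
  rw [ValuationSubring.mem_comap, ValuationSubring.mem_comap]
  show e₂ (a y) ∈ W ↔ y ∈ W'
  rw [he, ← hst y, ← hW, ValuationSubring.mem_comap]

variable {K₀ : Type} [Field K₀] [Algebra ℚ K₀] {κ : Type} [Field κ] (G : s18g_GaussData K₀ κ)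
  (φ : K₀ →+* Kb) (M q : ℕ) [NeZero M] [NeZero q] (hq : q.Prime) (hqM : ¬ q ∣ M)
  (V : Fin 3 → ValuationSubring (s34m_F K₀ (M * q * q)))

/-- `α'` commutes with the arithmetic Galois action. -/
theorem s36m_gc_alpha_comm (σ₀ : K₀ ≃ₐ[ℚ] K₀) (y : s34m_F K₀ (M * q)) :
    arithmeticRingAut (modularFunctionFieldFull (M * q * q)) σ₀ (s36g_alpha M q y) =
      s36g_alpha M q (arithmeticRingAut (modularFunctionFieldFull (M * q)) σ₀ y) :=
  Subtype.ext (by
    show coeffMap (σ₀ : K₀ →+* K₀) ((heckeAlphaBar K₀ (M * q) q y : _) : LaurentSeries K₀) =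
      ((heckeAlphaBar K₀ (M * q) q (arithmeticRingAut (modularFunctionFieldFull (M * q)) σ₀ y) : _) :
        LaurentSeries K₀)
    rw [coe_heckeAlphaBar, coe_heckeAlphaBar]
    rfl)

/-- `β'` commutes with the arithmetic Galois action. -/
theorem s36m_gc_beta_comm (σ₀ : K₀ ≃ₐ[ℚ] K₀) (y : s34m_F K₀ (M * q)) :
    arithmeticRingAut (modularFunctionFieldFull (M * q * q)) σ₀ (s36g_beta M q y) =
      s36g_beta M q (arithmeticRingAut (modularFunctionFieldFull (M * q)) σ₀ y) :=
  Subtype.ext (by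
    show coeffMap (σ₀ : K₀ →+* K₀) (qExpand K₀ q (y : LaurentSeries K₀)) =
      qExpand K₀ q (coeffMap (σ₀ : K₀ →+* K₀) (y : LaurentSeries K₀))
    exact coeffMap_qExpand _ q _)

/-- **(H8) from (H1/H2) + (H5) + (H9)**: every `V i` is stable under the decomposition group.
(The hypothesis on `V 0` is not needed.) -/
theorem s36m_gal_of_complete' (hC : s36g_ValComap G φ M q hq hqM V)
    (hK : s36g_ValComplete G φ M q hq hqM V) (hI : s36g_ValIndep M q V) :
    s36g_ValGal G M q V := by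
  obtain ⟨hV0, hC0a, hC0b, hC1a, hC1b, hC2a, hC2b⟩ := hC
  obtain ⟨hKa, hKa0, hKb, hKb0⟩ := hK
  obtain ⟨h01, h02, h12⟩ := hI
  -- the key: for every `σ₀`, the translate of `V i` is `V i`
  have key : ∀ σ₀ : K₀ ≃ₐ[ℚ] K₀, (∀ a : K₀, σ₀ a ∈ G.A ↔ a ∈ G.A) → ∀ i : Fin 3,
      (V i).comap ((arithmeticRingAut (modularFunctionFieldFull (M * q * q)) σ₀ :
        s34m_F K₀ (M * q * q) ≃+* s34m_F K₀ (M * q * q)) :
          s34m_F K₀ (M * q * q) →+* s34m_F K₀ (M * q * q)) = V i := by
    intro σ₀ hσ i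
    have hsI := s36m_galois_mem_Vinf_iff G σ₀ hσ (M * q)
    have hsZ := s36m_galois_mem_Vzero_iff G φ M q hq hqM σ₀ hσ
    have hca := s36m_gc_alpha_comm M q σ₀
    have hcb := s36m_gc_beta_comm M q σ₀
    fin_cases i
    · -- `V 0`: restriction along `β'` is `V'_∞`
      exact hKb0 _ (s36m_gc_comap_comap _ _ _ hcb _ _ hC0b hsI)
    · -- `V 1`
      rcases hKa _ (s36m_gc_comap_comap _ _ _ hca _ _ hC1a hsI) with h | h
      · rcases hKb _ (s36m_gc_comap_comap _ _ _ hcb _ _ hC1b hsZ) with h' | h'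
        · exact h'
        · exact absurd (h.symm.trans h') h02
      · exact h
    · -- `V 2`: restriction along `α'` is `V'_0`
      exact hKa0 _ (s36m_gc_comap_comap _ _ _ hca _ _ hC2a hsZ)
  intro σ₀ hσ i y
  have h := key σ₀ hσ i
  constructor
  · intro hy
    rw [← h]
    exact hy
  · intro hy
    rw [← h] at hy
    exact hy

/-- **(H8) from completeness** in the exact shape of helper6's order #1756 (`h0` is redundant). -/
theorem s36m_gal_of_complete (hC : s36g_ValComap G φ M q hq hqM V)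
    (hK : s36g_ValComplete G φ M q hq hqM V) (hI : s36g_ValIndep M q V)
    (h0 : ∀ σ₀ : K₀ ≃ₐ[ℚ] K₀, (∀ a : K₀, σ₀ a ∈ G.A ↔ a ∈ G.A) →
      ∀ y : s34m_F K₀ (M * q * q),
        arithmeticGalois (modularFunctionFieldFull (M * q * q)) σ₀ • y ∈ V 0 ↔ y ∈ V 0) :
    s36g_ValGal G M q V :=
  s36m_gal_of_complete' G φ M q hq hqM V hC hK hI

end Fermat.Agent.Lib.S36
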