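/-
S36 mega-project, sub-layer (R-mid) (helper2, prefix `s36e_`), part 6: THE EISENSTEIN CONTRACT (H10)
on the middle valuation `V 1` of level `M q²`, and the congruence it gives for `Θ^{log}_j`.

Frame of `GeoFrame.lean` (`V : Fin 3 → ValuationSubring F₂` arbitrary).  For `x ∈ V_M` put
`t_x := β'(β x) - α'(α x) ∈ F₂` (`t_j = s36m_t M q = j_{q²} - j`).

* `s36e_ValRedEis G φ M q hq hqM V` : **the contract** = helper8's `s36g_ValRed` (reductions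
  `r i : V i → κ((T))`) TOGETHER WITH the Eisenstein clause (H10): there is `c₀ ≠ 0` in `κ` with
  `t_x ∈ 𝔪(V 1)`, `t_x^(q-1)/ϖ₂ ∈ V 1` and `r 1 (t_x^(q-1)/ϖ₂) = c₀ · (θ x̄)^(q-1)` for every
  `x ∈ V_M` (`x(ζT) - x(T) ≡ (ζ-1) θx` in helper6's middle-cusp expansion);
* `s36e_valRed_of_valRedEis` : it implies `s36g_ValRed`;
* `s36e_t_eq`                : `s36m_t M q = β'(β j) - α'(α j)`;
* **`s36e_eis_cong`**        : for `Θ ∈ V'_∞` with `red_∞ Θ · j̄^(q-1) = (θ j̄)^(q-1)`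
  (`s36e_exists_theta_log_char`) there is a unit `c` of `A` with
  `(t / j₀)^(q-1) / ϖ₂ ≡ c · α'(Θ)` modulo `𝔪(V 1)`, `t = s36m_t M q`, `j₀ = s18g_jF (M q q)`.
-/
import Fermat.Agent.Lib.S36.XBase
import Fermat.Agent.Lib.S36.MContracts
import Fermat.Agent.Lib.FF.LaurentDeriv

set_option autoImplicit false
set_option linter.unusedSectionVars false
set_option linter.style.haveILetI false

noncomputable section

namespace Fermat.Agent.Lib.S36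

open ModularCurve AlgebraicCurve HahnSeries Fermat.Agent.Lib.FF Fermat.Agent.Lib.S18
  Fermat.Agent.Lib.S37 Fermat.Agent.Lib.S34

local notation "Kb" => AlgebraicClosure ℚ

variable {K₀ : Type} [Field K₀] [Algebra ℚ K₀] {κ : Type} [Field κ] (G : s18g_GaussData K₀ κ)
  (φ : K₀ →+* Kb) (M q : ℕ) [NeZero M] [NeZero q] (hq : q.Prime) (hqM : ¬ q ∣ M)
  (V : Fin 3 → ValuationSubring (s34m_F K₀ (M * q * q)))

/-- **The Eisenstein contract (H10)**: `s36g_ValRed` together with the reduction of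
`t_x^(q-1)/ϖ₂` along `V 1`. -/
def s36e_ValRedEis : Prop :=
  ∃ r : ∀ i : Fin 3, V i →+* LaurentSeries κ,
    (∀ i, ∀ y : V i, r i y = 0 ↔ (y : s34m_F K₀ (M * q * q)) ∈ (V i).nonunits) ∧
    (∀ (x : s34m_Vinf G (M * q)) (h : s36g_alpha M q x ∈ V 0),
      r 0 ⟨_, h⟩ = s34m_redInf G (M * q) x) ∧
    (∀ (x : s34m_Vinf G (M * q)) (h : s36g_beta M q x ∈ V 0),
      r 0 ⟨_, h⟩ = qExpand κ q (s34m_redInf G (M * q) x)) ∧
    (∀ (x : s34m_Vinf G (M * q)) (h : s36g_alpha M q x ∈ V 1),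
      r 1 ⟨_, h⟩ = s34m_redInf G (M * q) x) ∧
    (∀ (x : s34m_Vzero G φ M q hq hqM) (h : s36g_beta M q x ∈ V 1),
      r 1 ⟨_, h⟩ = s34m_redZero G φ M q hq hqM x) ∧
    (∀ (x : s34m_Vzero G φ M q hq hqM) (h : s36g_alpha M q x ∈ V 2),
      r 2 ⟨_, h⟩ = qExpand κ q (s34m_redZero G φ M q hq hqM x)) ∧
    (∀ (x : s34m_Vzero G φ M q hq hqM) (h : s36g_beta M q x ∈ V 2),
      r 2 ⟨_, h⟩ = s34m_redZero G φ M q hq hqM x) ∧
    ∃ c₀ : κ, c₀ ≠ 0 ∧ ∀ x : s34m_Vinf G M,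
      s36g_beta M q (heckeBetaBar K₀ M q x) - s36g_alpha M q (heckeAlphaBar K₀ M q x) ∈
        (V 1).nonunits ∧
      ∃ h : (s36g_beta M q (heckeBetaBar K₀ M q x) -
          s36g_alpha M q (heckeAlphaBar K₀ M q x)) ^ (q - 1) / s34m_unif G (M * q * q) ∈ V 1,
        r 1 ⟨_, h⟩ = HahnSeries.C c₀ * ffd_theta (s34m_redInf G M x) ^ (q - 1)

theorem s36e_valRed_of_valRedEis (h : s36e_ValRedEis G φ M q hq hqM V) :
    s36g_ValRed G φ M q hq hqM V := by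
  obtain ⟨r, h1, h2, h3, h4, h5, h6, h7, -⟩ := h
  exact ⟨r, h1, h2, h3, h4, h5, h6, h7⟩

/-- `t = j_{q²} - j = β'(β j) - α'(α j)`. -/
theorem s36e_t_eq :
    s36m_t (K₀ := K₀) M q =
      s36g_beta M q (heckeBetaBar K₀ M q (s18g_jF (K := K₀) M)) -
        s36g_alpha M q (heckeAlphaBar K₀ M q (s18g_jF (K := K₀) M)) := by
  unfold s36m_t s36m_jqq s34m_betaJ
  rw [← s34m_alpha_jF (K₀ := K₀) (M * q) q, ← s34m_alpha_jF (K₀ := K₀) M q]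
  rfl

include hq hqM in
/-- **The Eisenstein congruence for `Θ^{log}_j`.** -/
theorem s36e_eis_cong (hC : s36g_ValComap G φ M q hq hqM V)
    (hRE : s36e_ValRedEis G φ M q hq hqM V) (hπ : Function.Surjective G.π)
    (Θ : s34m_F K₀ (M * q)) (hΘV : Θ ∈ s34m_Vinf G (M * q))
    (hΘr : s34m_redInf G (M * q) ⟨Θ, hΘV⟩ * jqModC κ ^ (q - 1) =
      ffd_theta (jqModC κ) ^ (q - 1)) :
    ∃ c : G.A, G.π c ≠ 0 ∧
      (s36m_t (K₀ := K₀) M q / s18g_jF (K := K₀) (M * q * q)) ^ (q - 1) /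
          s34m_unif G (M * q * q) -
        algebraMap K₀ (s34m_F K₀ (M * q * q)) (c : K₀) * s36g_alpha M q Θ ∈ (V 1).nonunits := by
  obtain ⟨r, hr1, -, -, hr4, -, -, -, c₀, hc₀, hE⟩ := hRE
  obtain ⟨c, hc⟩ := hπ c₀
  refine ⟨c, by rw [hc]; exact hc₀, ?_⟩
  -- the Eisenstein clause at `x = j_M`
  have key : ∃ h : s36m_t (K₀ := K₀) M q ^ (q - 1) / s34m_unif G (M * q * q) ∈ V 1,
      r 1 ⟨_, h⟩ = HahnSeries.C c₀ * ffd_theta (jqModC κ) ^ (q - 1) := by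
    rw [s36e_t_eq (K₀ := K₀) M q]
    obtain ⟨-, h, hr⟩ := hE ⟨s18g_jF (K := K₀) M, s34m_jF_mem_Vinf G M⟩
    rw [s34m_redInf_jF] at hr
    exact ⟨h, hr⟩
  obtain ⟨hT, hrT⟩ := key
  set T : s34m_F K₀ (M * q * q) := s36m_t (K₀ := K₀) M q with hTdef
  set J : s34m_F K₀ (M * q * q) := s18g_jF (K := K₀) (M * q * q) with hJdef
  set j₁ : s34m_F K₀ (M * q) := s18g_jF (K := K₀) (M * q) with hj₁
  have hαj : s36g_alpha M q j₁ = J := s34m_alpha_jF (K₀ := K₀) (M * q) q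
  have hmem : ∀ x : s34m_F K₀ (M * q), s36g_alpha M q x ∈ V 1 ↔ x ∈ s34m_Vinf G (M * q) :=
    fun x => (s36b_alpha_mem_iff G φ M q hq hqM hC x).2.1
  have hj₁V : j₁ ∈ s34m_Vinf G (M * q) := s34m_jF_mem_Vinf G (M * q)
  have hj₁V' : j₁⁻¹ ∈ s34m_Vinf G (M * q) := s18g_jF_inv_mem_V G (M * q) (s34m_hF G (M * q))
  have hJV : J ∈ V 1 := by rw [← hαj]; exact (hmem j₁).mpr hj₁V
  have hJV' : J⁻¹ ∈ V 1 := by rw [← hαj, ← map_inv₀]; exact (hmem j₁⁻¹).mpr hj₁V'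
  have hJ0 : J ≠ 0 := s18g_jF_ne_zero (M * q * q)
  have hrJ : r 1 ⟨J, hJV⟩ = jqModC κ := by
    have h := hr4 ⟨j₁, hj₁V⟩ (by rw [hαj]; exact hJV)
    rw [s34m_redInf_jF] at h
    rw [← h]
    congr 1
  -- `X = (T / J)^(q-1) / ϖ₂ ∈ V 1`
  set ϖ₂ : s34m_F K₀ (M * q * q) := s34m_unif G (M * q * q) with hϖ₂
  have hXeq : (T / J) ^ (q - 1) / ϖ₂ = T ^ (q - 1) / ϖ₂ * J⁻¹ ^ (q - 1) := by
    rw [div_pow, inv_pow]
    field_simp
  have hXV : (T / J) ^ (q - 1) / ϖ₂ ∈ V 1 := by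
    rw [hXeq]
    exact (V 1).mul_mem _ _ hT (pow_mem hJV' _)
  have hXJ : (⟨(T / J) ^ (q - 1) / ϖ₂, hXV⟩ : V 1) * ⟨J, hJV⟩ ^ (q - 1) =
      ⟨T ^ (q - 1) / ϖ₂, hT⟩ := by
    apply Subtype.ext
    show (T / J) ^ (q - 1) / ϖ₂ * J ^ (q - 1) = T ^ (q - 1) / ϖ₂
    rw [div_pow]
    field_simp
  have hrX : r 1 ⟨(T / J) ^ (q - 1) / ϖ₂, hXV⟩ * jqModC κ ^ (q - 1) =
      HahnSeries.C c₀ * ffd_theta (jqModC κ) ^ (q - 1) := by
    have := congrArg (r 1) hXJ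
    rw [map_mul, map_pow, hrJ] at this
    rw [this]
    exact hrT
  -- `Y = c · α' Θ ∈ V 1`
  set c₁ : s34m_F K₀ (M * q) := algebraMap K₀ (s34m_F K₀ (M * q)) (c : K₀) with hc₁
  have hc₁V : c₁ ∈ s34m_Vinf G (M * q) :=
    (s18g_algebraMap_mem_V_iff G _ (s34m_hF G (M * q)) _).mpr c.2
  have hαc : s36g_alpha M q c₁ = algebraMap K₀ (s34m_F K₀ (M * q * q)) (c : K₀) :=
    (heckeAlphaBar K₀ (M * q) q).commutes _
  have hcV : algebraMap K₀ (s34m_F K₀ (M * q * q)) (c : K₀) ∈ V 1 := by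
    rw [← hαc]; exact (hmem c₁).mpr hc₁V
  have hrc : r 1 ⟨algebraMap K₀ (s34m_F K₀ (M * q * q)) (c : K₀), hcV⟩ =
      HahnSeries.C c₀ := by
    have h := hr4 ⟨c₁, hc₁V⟩ (by rw [hαc]; exact hcV)
    have h2 : s34m_redInf G (M * q) ⟨c₁, hc₁V⟩ = HahnSeries.C (G.π c) := by
      have e : ((c₁ : s34m_F K₀ (M * q)) : LaurentSeries K₀) = HahnSeries.C (c : K₀) :=
        s18g_coe_algebraMap _ _
      rw [s34m_redInf_apply, ← s18g_red_C]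
      congr 1
      exact Subtype.ext e
    rw [h2, hc] at h
    rw [← h]
    congr 1
  have hΘ1 : s36g_alpha M q Θ ∈ V 1 := (hmem Θ).mpr hΘV
  have hrΘ : r 1 ⟨s36g_alpha M q Θ, hΘ1⟩ = s34m_redInf G (M * q) ⟨Θ, hΘV⟩ := hr4 ⟨Θ, hΘV⟩ hΘ1
  have hYV : algebraMap K₀ (s34m_F K₀ (M * q * q)) (c : K₀) * s36g_alpha M q Θ ∈ V 1 :=
    (V 1).mul_mem _ _ hcV hΘ1
  have hrY : r 1 ⟨_, hYV⟩ = HahnSeries.C c₀ * s34m_redInf G (M * q) ⟨Θ, hΘV⟩ := by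
    have : (⟨_, hYV⟩ : V 1) = ⟨_, hcV⟩ * ⟨_, hΘ1⟩ := rfl
    rw [this, map_mul, hrc, hrΘ]
  -- compare
  have hj0 : jqModC κ ^ (q - 1) ≠ 0 := by
    apply pow_ne_zero
    intro h0
    have := ModularCurve.coeff_jqModC_neg_one κ
    rw [h0] at this
    simp at this
  have heq : r 1 ⟨(T / J) ^ (q - 1) / ϖ₂, hXV⟩ = r 1 ⟨_, hYV⟩ := by
    apply mul_right_cancel₀ hj0
    rw [hrX, hrY, mul_assoc, hΘr]
  have hdV : (T / J) ^ (q - 1) / ϖ₂ -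
      algebraMap K₀ (s34m_F K₀ (M * q * q)) (c : K₀) * s36g_alpha M q Θ ∈ V 1 :=
    sub_mem hXV hYV
  have hd0 : r 1 ⟨_, hdV⟩ = 0 := by
    have : (⟨_, hdV⟩ : V 1) = ⟨_, hXV⟩ - ⟨_, hYV⟩ := rfl
    rw [this, map_sub, heq, sub_self]
  exact (hr1 1 ⟨_, hdV⟩).mp hd0

end Fermat.Agent.Lib.S36
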