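/-
S36 mega-project, sub-layer (R-mid) (helper2, prefix `s36e_`), part 8: BRIDGES for the Eisenstein
contract `s36e_ValRedEis` (`REisFrame.lean`).

* `s36e_pow_div_unif_mem`   : `D ∈ 𝔪(V 1)` ⇒ `D^(q-1)/ϖ₂ ∈ V 1` (from `s36g_ValUnif`);
* `s36e_valRedEis_of_forall`: the contract from helper6's shape of (H10) (`s36m_eis`: the formula for
  EVERY proof `h` of the membership `D^(q-1)/ϖ₂ ∈ V 1`) + `s36g_ValUnif`;
* `s36e_pkg_unique`         : the three valuation rings of a package are UNIQUE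
  (`s36g_ValComap` for one family, `s36g_ValComplete` + `s36g_ValIndep` for the other);
* `s36e_valRedEis_transport`: hence the Eisenstein contract passes from ONE package (helper6's
  construction) to EVERY package — what a prover of helper8's `s36g_InLocal` (quantified over all
  packages) needs.
-/
import Fermat.Agent.Lib.S36.REisFrame

set_option autoImplicit false
set_option linter.unusedSectionVars false
set_option linter.style.haveILetI false

noncomputable section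

namespace Fermat.Agent.Lib.S36

open ModularCurve AlgebraicCurve HahnSeries Fermat.Agent.Lib.FF Fermat.Agent.Lib.S18
  Fermat.Agent.Lib.S37 Fermat.Agent.Lib.S34

local notation "Kb" => AlgebraicClosure ℚ

variable {K₀ : Type} [Field K₀] [Algebra ℚ K₀] {κ : Type} [Field κ] (G : s18g_GaussData K₀ κ)
  (φ : K₀ →+* Kb) (M q : ℕ) [NeZero M] [NeZero q] (hq : q.Prime) (hqM : ¬ q ∣ M)
  (V : Fin 3 → ValuationSubring (s34m_F K₀ (M * q * q))) (t : s34m_F K₀ (M * q * q))

/-- a non-unit `D` of `V 1` has `D^(q-1)/ϖ₂ ∈ V 1`. -/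
theorem s36e_pow_div_unif_mem (hU : s36g_ValUnif G M q V t) (D : s34m_F K₀ (M * q * q))
    (hD : D ∈ (V 1).nonunits) : D ^ (q - 1) / s34m_unif G (M * q * q) ∈ V 1 := by
  obtain ⟨-, -, -, -, hgen, ⟨u, hu, hu', eu⟩, -⟩ := hU
  obtain ⟨z, hz, rfl⟩ := hgen D hD
  have hϖ0 : s34m_unif G (M * q * q) ≠ 0 := s34m_unif_ne_zero G (M * q * q)
  have hu0 : u ≠ 0 := by
    rintro rfl
    rw [zero_mul] at eu
    exact hϖ0 eu
  have ht0 : t ^ (q - 1) ≠ 0 := by
    intro h0
    rw [h0, mul_zero] at eu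
    exact hϖ0 eu
  have e : (t * z) ^ (q - 1) / s34m_unif G (M * q * q) = u⁻¹ * z ^ (q - 1) := by
    rw [eu, mul_pow]
    field_simp
  rw [e]
  exact (V 1).mul_mem _ _ hu' (pow_mem hz _)

/-- **The contract from helper6's shape of (H10).** -/
theorem s36e_valRedEis_of_forall (hU : s36g_ValUnif G M q V t)
    (r : ∀ i : Fin 3, V i →+* LaurentSeries κ)
    (h1 : ∀ i, ∀ y : V i, r i y = 0 ↔ (y : s34m_F K₀ (M * q * q)) ∈ (V i).nonunits)
    (h2 : ∀ (x : s34m_Vinf G (M * q)) (h : s36g_alpha M q x ∈ V 0),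
      r 0 ⟨_, h⟩ = s34m_redInf G (M * q) x)
    (h3 : ∀ (x : s34m_Vinf G (M * q)) (h : s36g_beta M q x ∈ V 0),
      r 0 ⟨_, h⟩ = qExpand κ q (s34m_redInf G (M * q) x))
    (h4 : ∀ (x : s34m_Vinf G (M * q)) (h : s36g_alpha M q x ∈ V 1),
      r 1 ⟨_, h⟩ = s34m_redInf G (M * q) x)
    (h5 : ∀ (x : s34m_Vzero G φ M q hq hqM) (h : s36g_beta M q x ∈ V 1),
      r 1 ⟨_, h⟩ = s34m_redZero G φ M q hq hqM x)
    (h6 : ∀ (x : s34m_Vzero G φ M q hq hqM) (h : s36g_alpha M q x ∈ V 2),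
      r 2 ⟨_, h⟩ = qExpand κ q (s34m_redZero G φ M q hq hqM x))
    (h7 : ∀ (x : s34m_Vzero G φ M q hq hqM) (h : s36g_beta M q x ∈ V 2),
      r 2 ⟨_, h⟩ = s34m_redZero G φ M q hq hqM x)
    (c₀ : κ) (hc₀ : c₀ ≠ 0)
    (hE : ∀ (x : s34m_F K₀ M) (hx : x ∈ s34m_Vinf G M),
      (heckeBetaBar K₀ (M * q) q (heckeBetaBar K₀ M q x) -
        heckeAlphaBar K₀ (M * q) q (heckeAlphaBar K₀ M q x)) ∈ (V 1).nonunits ∧
      ∀ h : (heckeBetaBar K₀ (M * q) q (heckeBetaBar K₀ M q x) -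
          heckeAlphaBar K₀ (M * q) q (heckeAlphaBar K₀ M q x)) ^ (q - 1) /
            s34m_unif G (M * q * q) ∈ V 1,
        r 1 ⟨_, h⟩ = HahnSeries.C c₀ * ffd_theta (s34m_redInf G M ⟨x, hx⟩) ^ (q - 1)) :
    s36e_ValRedEis G φ M q hq hqM V := by
  refine ⟨r, h1, h2, h3, h4, h5, h6, h7, c₀, hc₀, fun x => ?_⟩
  obtain ⟨hD, hr⟩ := hE x x.2
  have hmem := s36e_pow_div_unif_mem G M q V t hU _ hD
  exact ⟨hD, hmem, hr hmem⟩

/-- **Uniqueness of the three valuation rings of a package.** -/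
theorem s36e_pkg_unique (V' : Fin 3 → ValuationSubring (s34m_F K₀ (M * q * q)))
    (hK : s36g_ValComplete G φ M q hq hqM V)
    (hI : s36g_ValIndep M q V) (hC' : s36g_ValComap G φ M q hq hqM V') : V' = V := by
  obtain ⟨k1, k2, k3, k4⟩ := hK
  obtain ⟨i01, i02, i12⟩ := hI
  obtain ⟨-, -, c0β, c1α, c1β, c2α, -⟩ := hC'
  have e0 : V' 0 = V 0 := k4 _ c0β
  have e2 : V' 2 = V 2 := k2 _ c2α
  have e1 : V' 1 = V 1 := by
    rcases k1 _ c1α with h | h
    · rcases k3 _ c1β with h' | h'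
      · exact h'
      · exact absurd (h.symm.trans h') i02
    · exact h
  funext i
  fin_cases i
  · exact e0
  · exact e1
  · exact e2

/-- **Transport of the Eisenstein contract** from one package to every package. -/
theorem s36e_valRedEis_transport (V' : Fin 3 → ValuationSubring (s34m_F K₀ (M * q * q)))
    (hK : s36g_ValComplete G φ M q hq hqM V)
    (hI : s36g_ValIndep M q V) (hC' : s36g_ValComap G φ M q hq hqM V')
    (hE' : s36e_ValRedEis G φ M q hq hqM V') : s36e_ValRedEis G φ M q hq hqM V := by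
  have h := s36e_pkg_unique G φ M q hq hqM V V' hK hI hC'
  rw [← h]
  exact hE'

end Fermat.Agent.Lib.S36
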