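/-
S36 mega-project, layer (M) (helper6), FINAL: **the valuation package of level `M q q` exists**,
`∃ V, s36g_ValPkg G φ M q hq hqM V (s36m_t M q)` (helper8's `s36g_InPkg`), together with helper2's
Eisenstein contract `s36e_ValRedEis` for the same `V`.

Inputs: `s36m_exists_core` (MPkgCore: ValComap, ValUnif, ValIndep, ValRed + (H10)), helper3's
`s36m_res_complete` ((H4)+(H5)) and `s36m_gal_of_complete'` ((H8)), helper2's bridge
`s36e_valRedEis_of_forall`.
-/
import Fermat.Agent.Lib.S36.MPkgCore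
import Fermat.Agent.Lib.S36.MResComplete
import Fermat.Agent.Lib.S36.MGalComplete
import Fermat.Agent.Lib.S36.REisBridge

set_option autoImplicit false

noncomputable section

namespace Fermat.Agent.Lib.S36

open ModularCurve AlgebraicCurve HahnSeries Fermat.Agent.Lib.FF Fermat.Agent.Lib.S18
  Fermat.Agent.Lib.S28 Fermat.Agent.Lib.S37 Fermat.Agent.Lib.S34

set_option linter.unusedSectionVars false

local notation "Kb" => AlgebraicClosure ℚ

variable {K₀ κ : Type} [Field K₀] [Algebra ℚ K₀] [Field κ] (G : s18g_GaussData K₀ κ)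
  (φ : K₀ →+* Kb) (M q : ℕ) [NeZero M] [NeZero q] (hq : q.Prime) (hqM : ¬ q ∣ M)

/-- **The valuation package of level `M q q`, with the Eisenstein contract.** -/
theorem s36m_exists_pkg_eis [CharP κ q]
    (hunr : ∃ u : G.A, IsUnit u ∧ ((q : ℕ) : G.A) = G.ϖ * u) :
    ∃ V : Fin 3 → ValuationSubring (s34m_F K₀ (M * q * q)),
      s36g_ValPkg G φ M q hq hqM V (s36m_t M q) ∧ s36e_ValRedEis G φ M q hq hqM V := by
  obtain ⟨V, hC, hU, hI, hRE, -, -⟩ := s36m_exists_core G φ M q hq hqM hunr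
  have hR : s36g_ValRed G φ M q hq hqM V := hRE.red
  obtain ⟨hRes, hK⟩ := s36m_res_complete G φ M q hq hqM V hC hU hI hR
  have hGal := s36m_gal_of_complete' G φ M q hq hqM V hC hK hI
  refine ⟨V, ⟨hC, hU, hRes, hK, hI, hGal, hR⟩, ?_⟩
  obtain ⟨r, h1, h2, h3, h4, h5, h6, h7, c₀, hc₀, hE⟩ := hRE
  exact s36e_valRedEis_of_forall G φ M q hq hqM V (s36m_t M q) hU r h1 h2 h3 h4 h5 h6 h7 c₀ hc₀ hE

/-- **(M) DELIVERABLE: the valuation package of level `M q q` exists.** -/
theorem s36m_exists_pkg [CharP κ q]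
    (hunr : ∃ u : G.A, IsUnit u ∧ ((q : ℕ) : G.A) = G.ϖ * u) :
    ∃ V : Fin 3 → ValuationSubring (s34m_F K₀ (M * q * q)),
      s36g_ValPkg G φ M q hq hqM V (s36m_t M q) := by
  obtain ⟨V, h, -⟩ := s36m_exists_pkg_eis G φ M q hq hqM hunr
  exact ⟨V, h⟩

end Fermat.Agent.Lib.S36
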