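/-
S36 mega-project, layer (M) (helper6): helper8's input contract `s36g_InPkg` (GCoreDefs.lean)
discharged by `s36m_exists_pkg`.
-/
import Fermat.Agent.Lib.S36.MPkgFinal
import Fermat.Agent.Lib.S36.GCoreDefs

set_option autoImplicit false

noncomputable section

namespace Fermat.Agent.Lib.S36

open ModularCurve AlgebraicCurve HahnSeries Fermat.Agent.Lib.FF Fermat.Agent.Lib.S18
  Fermat.Agent.Lib.S28 Fermat.Agent.Lib.S37 Fermat.Agent.Lib.S34

local notation "Kb" => AlgebraicClosure ℚ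

/-- `hunr` for Gauss data with uniformiser `q`. -/
theorem s36m_hunr_of_unif_eq {K₀ κ : Type} [Field K₀] [Field κ] (G : s18g_GaussData K₀ κ) (q : ℕ)
    (hϖ : ((G.ϖ : G.A) : K₀) = (q : K₀)) :
    ∃ u : G.A, IsUnit u ∧ ((q : ℕ) : G.A) = G.ϖ * u := by
  refine ⟨1, isUnit_one, ?_⟩
  rw [mul_one]
  apply Subtype.ext
  rw [hϖ]
  push_cast
  rfl

/-- **Input (M) of the Core assembly.** -/
theorem s36m_inPkg (M q : ℕ) [NeZero M] [NeZero q] (hq : q.Prime) (hqM : ¬ q ∣ M) :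
    s36g_InPkg M q hq hqM := by
  intro K₀ _ _ φ κ _ _ _ G _ _ hϖ
  exact s36m_exists_pkg G φ M q hq hqM (s36m_hunr_of_unif_eq G q hϖ)

end Fermat.Agent.Lib.S36
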