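/-
S36 project, GEOMETRY side (helper8, prefix `s36g_`): `s36g_Core` FROM THE f-INDEPENDENT LOCAL GEOMETRY.

The three inputs of `s36g_core_of_inputs` (`GCore.lean`):
* `s36g_InPkg`   = helper6's `s36m_inPkg`   (`MInPkg.lean`);
* `s36g_InRoot`  = lead's `s36g_inRoot`     (`GRootFinal.lean`);
* `s36g_InLocal` = `s36g_inLocal_of_geo`    (`GLocalAsm.lean`) from `s36g_InGeo`.

So `s36g_Core` follows from `s36g_InGeo M q hq hqM` at the good levels.
-/
import Fermat.Agent.Lib.S36.GCore
import Fermat.Agent.Lib.S36.GLocalAsm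
import Fermat.Agent.Lib.S36.GRootFinal
import Fermat.Agent.Lib.S36.MInPkg

set_option autoImplicit false

namespace Fermat.Agent.Lib.S36

/-- **`s36g_Core` from the local geometry** (`s36g_InGeo`) at the good levels. -/
theorem s36g_core_of_geo
    (h : ∀ (M q : ℕ) [NeZero M] [NeZero q] (hq : q.Prime) (hqM : ¬ q ∣ M), s36g_GoodLevel q M →
      s36g_InGeo M q hq hqM) : s36g_Core :=
  s36g_core_of_inputs fun M q _ _ hq hqM hgood =>
    ⟨s36m_inPkg M q hq hqM, s36g_inRoot M q hq hqM,
      s36g_inLocal_of_geo M q hq hqM (h M q hq hqM hgood)⟩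

end Fermat.Agent.Lib.S36
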