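/-
S36 project, geometry layer (X1) (helper9, prefix `s36p_`): helper5's CLASSIFICATION `s36q_classify`
IN THE CONCRETE FRAME of chart 1 at level `M q²` — the hypothesis `hClass1` of `s36p_zero_of_cases`
(`PCase.lean`) from the valuation package, a base function with saturated chart 1 (`PSat.lean`) and
the two fibre conditions (FIB) at the crossings of level `M q`.

* `s36p_beta_mem_iff` : `β' x ∈ V i ↔ x ∈ V'_∞` (`i = 0`) resp. `x ∈ V'_0` (`i = 1, 2`);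
* **`s36p_classify_chart1`** : through a prime `𝔫` of `B₂ = s34x_ring (⨅ V) (chart1 (α' w₁))` pass all
  three components or at most one.
-/
import Fermat.Agent.Lib.S36.PChart
import Fermat.Agent.Lib.S36.QClass

set_option autoImplicit false
set_option linter.unusedSectionVars false
set_option linter.style.haveILetI false
set_option synthInstance.maxHeartbeats 400000

noncomputable section

namespace Fermat.Agent.Lib.S36

open ModularCurve AlgebraicCurve Polynomial Fermat.Agent.Lib.FF Fermat.Agent.Lib.S18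
  Fermat.Agent.Lib.S37 Fermat.Agent.Lib.S34 Fermat.Agent.Lib.S35

local notation "Kb" => AlgebraicClosure ℚ

variable {K₀ : Type} [Field K₀] [Algebra ℚ K₀] {κ : Type} [Field κ] (G : s18g_GaussData K₀ κ)
  (φ : K₀ →+* Kb) (M q : ℕ) [NeZero M] [NeZero q] (hq : q.Prime) (hqM : ¬ q ∣ M)
  {V : Fin 3 → ValuationSubring (s34m_F K₀ (M * q * q))}

/-- `β' x ∈ V 0 ↔ x ∈ V'_∞`, `β' x ∈ V i ↔ x ∈ V'_0` (`i = 1, 2`). -/
theorem s36p_beta_mem_iff (hC : s36g_ValComap G φ M q hq hqM V) (x : s34m_F K₀ (M * q)) :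
    (s36g_beta M q x ∈ V 0 ↔ x ∈ s34m_Vinf G (M * q)) ∧
    (s36g_beta M q x ∈ V 1 ↔ x ∈ s34m_Vzero G φ M q hq hqM) ∧
    (s36g_beta M q x ∈ V 2 ↔ x ∈ s34m_Vzero G φ M q hq hqM) := by
  obtain ⟨-, -, h0, -, h1, -, h2⟩ := hC
  have e0 : x ∈ (V 0).comap (s36g_beta M q) ↔ s36g_beta M q x ∈ V 0 :=
    ValuationSubring.mem_comap
  have e1 : x ∈ (V 1).comap (s36g_beta M q) ↔ s36g_beta M q x ∈ V 1 :=
    ValuationSubring.mem_comap
  have e2 : x ∈ (V 2).comap (s36g_beta M q) ↔ s36g_beta M q x ∈ V 2 :=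
    ValuationSubring.mem_comap
  rw [h0] at e0
  rw [h1] at e1
  rw [h2] at e2
  exact ⟨e0.symm, e1.symm, e2.symm⟩

variable [CharZero K₀] [IsDiscreteValuationRing G.A]

/-- **The classification of the points of chart 1 of level `M q²`**: through a prime `𝔫` of
`B₂ = s34x_ring (⨅ V) (chart1 (α' w₁))` pass all three components or at most one, if the fibres of
`α'`, `β' : Spec B₂ → Spec B₁` over the crossings of level `M q` are single points. -/
theorem s36p_classify_chart1 (hC : s36g_ValComap G φ M q hq hqM V)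
    (hCompl : s36g_ValComplete G φ M q hq hqM V) (hInd : s36g_ValIndep M q V)
    (w₁ : s34m_F K₀ (M * q)) (hB : s35g_BaseData G φ M q hq hqM w₁)
    (hsat : ∀ Q : Place K₀ (s34m_F K₀ (M * q * q)),
      s36g_alpha M q w₁ ∈ Q.toValuationSubring ↔ s36g_beta M q w₁ ∈ Q.toValuationSubring)
    (𝔫 : Ideal (s34x_ring (L₀ := K₀) (s34x_infRing V) (s18_chart1 (s36g_alpha M q w₁))))
    [h𝔫 : 𝔫.IsPrime]
    (hfibα : s36q_compThrough (s34m_VV G φ M q hq hqM) (s18_chart1 (L₀ := K₀) w₁)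
        (s36q_pt (s34m_VV G φ M q hq hqM) V (s18_chart1 (L₀ := K₀) w₁)
          (s18_chart1 (L₀ := K₀) (s36g_alpha M q w₁)) (s36g_alpha M q)
          (s36p_chart1_alpha G φ M q hq hqM hC w₁ hB) 𝔫) true →
      s36q_compThrough (s34m_VV G φ M q hq hqM) (s18_chart1 (L₀ := K₀) w₁)
        (s36q_pt (s34m_VV G φ M q hq hqM) V (s18_chart1 (L₀ := K₀) w₁)
          (s18_chart1 (L₀ := K₀) (s36g_alpha M q w₁)) (s36g_alpha M q)
          (s36p_chart1_alpha G φ M q hq hqM hC w₁ hB) 𝔫) false →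
      ∀ 𝔫₂ : Ideal (s34x_ring (L₀ := K₀) (s34x_infRing V) (s18_chart1 (s36g_alpha M q w₁))),
        𝔫₂.IsPrime →
        s36q_pt (s34m_VV G φ M q hq hqM) V (s18_chart1 (L₀ := K₀) w₁)
          (s18_chart1 (L₀ := K₀) (s36g_alpha M q w₁)) (s36g_alpha M q)
          (s36p_chart1_alpha G φ M q hq hqM hC w₁ hB) 𝔫₂ =
        s36q_pt (s34m_VV G φ M q hq hqM) V (s18_chart1 (L₀ := K₀) w₁)
          (s18_chart1 (L₀ := K₀) (s36g_alpha M q w₁)) (s36g_alpha M q)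
          (s36p_chart1_alpha G φ M q hq hqM hC w₁ hB) 𝔫 → 𝔫₂ = 𝔫)
    (hfibβ : s36q_compThrough (s34m_VV G φ M q hq hqM) (s18_chart1 (L₀ := K₀) w₁)
        (s36q_pt (s34m_VV G φ M q hq hqM) V (s18_chart1 (L₀ := K₀) w₁)
          (s18_chart1 (L₀ := K₀) (s36g_alpha M q w₁)) (s36g_beta M q)
          (s36p_chart1_beta G φ M q hq hqM hC w₁ hB (fun Q => (hsat Q).mp)) 𝔫) true →
      s36q_compThrough (s34m_VV G φ M q hq hqM) (s18_chart1 (L₀ := K₀) w₁)
        (s36q_pt (s34m_VV G φ M q hq hqM) V (s18_chart1 (L₀ := K₀) w₁)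
          (s18_chart1 (L₀ := K₀) (s36g_alpha M q w₁)) (s36g_beta M q)
          (s36p_chart1_beta G φ M q hq hqM hC w₁ hB (fun Q => (hsat Q).mp)) 𝔫) false →
      ∀ 𝔫₂ : Ideal (s34x_ring (L₀ := K₀) (s34x_infRing V) (s18_chart1 (s36g_alpha M q w₁))),
        𝔫₂.IsPrime →
        s36q_pt (s34m_VV G φ M q hq hqM) V (s18_chart1 (L₀ := K₀) w₁)
          (s18_chart1 (L₀ := K₀) (s36g_alpha M q w₁)) (s36g_beta M q)
          (s36p_chart1_beta G φ M q hq hqM hC w₁ hB (fun Q => (hsat Q).mp)) 𝔫₂ =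
        s36q_pt (s34m_VV G φ M q hq hqM) V (s18_chart1 (L₀ := K₀) w₁)
          (s18_chart1 (L₀ := K₀) (s36g_alpha M q w₁)) (s36g_beta M q)
          (s36p_chart1_beta G φ M q hq hqM hC w₁ hB (fun Q => (hsat Q).mp)) 𝔫 → 𝔫₂ = 𝔫) :
    (∀ j, s36q_compThrough V (s18_chart1 (L₀ := K₀) (s36g_alpha M q w₁)) 𝔫 j) ∨
    (¬ s36q_compThrough V (s18_chart1 (L₀ := K₀) (s36g_alpha M q w₁)) 𝔫 0 ∧
      ¬ s36q_compThrough V (s18_chart1 (L₀ := K₀) (s36g_alpha M q w₁)) 𝔫 1) ∨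
    (¬ s36q_compThrough V (s18_chart1 (L₀ := K₀) (s36g_alpha M q w₁)) 𝔫 0 ∧
      ¬ s36q_compThrough V (s18_chart1 (L₀ := K₀) (s36g_alpha M q w₁)) 𝔫 2) ∨
    (¬ s36q_compThrough V (s18_chart1 (L₀ := K₀) (s36g_alpha M q w₁)) 𝔫 1 ∧
      ¬ s36q_compThrough V (s18_chart1 (L₀ := K₀) (s36g_alpha M q w₁)) 𝔫 2) := by
  have hαi := fun x => s36b_alpha_mem_iff G φ M q hq hqM hC x
  have hβi := fun x => s36p_beta_mem_iff G φ M q hq hqM hC x
  exact s36q_classify (s34m_VV G φ M q hq hqM) V (s18_chart1 (L₀ := K₀) w₁)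
    (s18_chart1 (L₀ := K₀) w₁) (s18_chart1 (L₀ := K₀) (s36g_alpha M q w₁))
    (s36g_alpha M q) (s36g_beta M q)
    (s36p_chart1_alpha G φ M q hq hqM hC w₁ hB)
    (s36p_chart1_beta G φ M q hq hqM hC w₁ hB (fun Q => (hsat Q).mp)) 𝔫 true false
    (fun x => (hαi x).1) (fun x => (hαi x).2.1) (fun x => (hαi x).2.2)
    (fun x => (hβi x).1) (fun x => (hβi x).2.1) (fun x => (hβi x).2.2)
    (s36p_chart1_int_alpha G φ M q hq hqM hC hCompl hInd w₁ hB _)
    (s36p_chart1_int_beta G φ M q hq hqM hC hCompl hInd w₁ hB (fun Q => (hsat Q).mpr) _)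
    hfibα hfibβ

end Fermat.Agent.Lib.S36
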