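/-
S36 project, layer (T) (helper8, prefix `s36t_`), part 3: FROM THE TWO NORM RELATIONS TO THE MATCHING
OF THE THREE RESIDUE VALUES (pure algebra in a field, Mathlib only).

At a triple point the residue values `a₀, a₁, a₂ ∈ k^×` of a local generator on the three branches
satisfy (`s36t_rel` for `α` and, with the roles of the branches exchanged, for `β`), `p = q - 1`:

  (α)  `a₀ * a₁ ^ p * eA = a₂ ^ (p + 1) * eA'`,
  (β)  `a₂ * a₁ ^ p * eB = a₀ ^ (p + 1) * eB'`,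

with GLOBAL constants `eA, eA', eB, eB' ∈ k^×`.  Then, `N = p * (p + 2) = q² - 1`:

  `a₁ ^ N * (eA * eB ^ (p+1)) = a₀ ^ N * (eA' * eB' ^ (p+1))`   (`s36t_ratio01`),
  `a₁ ^ N * (eA ^ (p+1) * eB) = a₂ ^ N * (eA' ^ (p+1) * eB')`   (`s36t_ratio21`),

i.e. `(a₀/a₁)^N` and `(a₂/a₁)^N` are global constants `θ₀, θ₂`; `s36t_match` : if the residue values
of another generator are `b_i = v * a_i ^ N / θ_i` then `b₀ = b₁ = b₂`.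
-/
import Mathlib

set_option autoImplicit false

namespace Fermat.Agent.Lib.S36

variable {k : Type*} [Field k]

theorem s36t_ratio01 (p : ℕ) (a₀ a₁ a₂ eA eA' eB eB' : k) (h₀ : a₀ ≠ 0) (h₂ : a₂ ≠ 0)
    (hα : a₀ * a₁ ^ p * eA = a₂ ^ (p + 1) * eA')
    (hβ : a₂ * a₁ ^ p * eB = a₀ ^ (p + 1) * eB') :
    a₁ ^ (p * (p + 2)) * (eA * eB ^ (p + 1)) = a₀ ^ (p * (p + 2)) * (eA' * eB' ^ (p + 1)) := by
  have hβ' : a₂ ^ (p + 1) * a₁ ^ (p * (p + 1)) * eB ^ (p + 1) =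
      a₀ ^ ((p + 1) * (p + 1)) * eB' ^ (p + 1) := by
    have := congrArg (fun x => x ^ (p + 1)) hβ
    simp only [mul_pow, ← pow_mul] at this
    exact this
  have key : (a₂ ^ (p + 1) * a₀) * (a₁ ^ (p * (p + 2)) * (eA * eB ^ (p + 1))) =
      (a₂ ^ (p + 1) * a₀) * (a₀ ^ (p * (p + 2)) * (eA' * eB' ^ (p + 1))) := by
    have e1 : (a₂ ^ (p + 1) * a₀) * (a₁ ^ (p * (p + 2)) * (eA * eB ^ (p + 1))) =
        (a₂ ^ (p + 1) * a₁ ^ (p * (p + 1)) * eB ^ (p + 1)) * (a₀ * a₁ ^ p * eA) := by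
      have : p * (p + 2) = p * (p + 1) + p := by ring
      rw [this, pow_add]; ring
    have e2 : (a₂ ^ (p + 1) * a₀) * (a₀ ^ (p * (p + 2)) * (eA' * eB' ^ (p + 1))) =
        (a₀ ^ ((p + 1) * (p + 1)) * eB' ^ (p + 1)) * (a₂ ^ (p + 1) * eA') := by
      have : (p + 1) * (p + 1) = p * (p + 2) + 1 := by ring
      rw [this, pow_add]; ring
    rw [e1, e2, hβ', hα]
  exact mul_left_cancel₀ (mul_ne_zero (pow_ne_zero _ h₂) h₀) key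

theorem s36t_ratio21 (p : ℕ) (a₀ a₁ a₂ eA eA' eB eB' : k) (h₀ : a₀ ≠ 0) (h₂ : a₂ ≠ 0)
    (hα : a₀ * a₁ ^ p * eA = a₂ ^ (p + 1) * eA')
    (hβ : a₂ * a₁ ^ p * eB = a₀ ^ (p + 1) * eB') :
    a₁ ^ (p * (p + 2)) * (eA ^ (p + 1) * eB) = a₂ ^ (p * (p + 2)) * (eA' ^ (p + 1) * eB') := by
  have h := s36t_ratio01 p a₂ a₁ a₀ eB eB' eA eA' h₂ h₀ hβ hα
  rw [mul_comm (eA ^ (p + 1)) eB, mul_comm (eA' ^ (p + 1)) eB']
  exact h

/-- **Matching.**  `θ₀, θ₂` are the global constants `(a₀/a₁)^N`, `(a₂/a₁)^N`; if the residue values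
of a second generator are `b_i = v * a_i ^ N / θ_i` (`θ₁ = 1`) they all agree. -/
theorem s36t_match (p : ℕ) (a₀ a₁ a₂ eA eA' eB eB' : k) (h₀ : a₀ ≠ 0) (h₂ : a₂ ≠ 0)
    (heA' : eA' ≠ 0) (heB' : eB' ≠ 0)
    (hα : a₀ * a₁ ^ p * eA = a₂ ^ (p + 1) * eA')
    (hβ : a₂ * a₁ ^ p * eB = a₀ ^ (p + 1) * eB')
    (θ₀ θ₂ v b₀ b₁ b₂ : k)
    (hθ₀ : θ₀ * (eA' * eB' ^ (p + 1)) = eA * eB ^ (p + 1))
    (hθ₂ : θ₂ * (eA' ^ (p + 1) * eB') = eA ^ (p + 1) * eB)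
    (hb₀ : b₀ * θ₀ = v * a₀ ^ (p * (p + 2))) (hb₁ : b₁ = v * a₁ ^ (p * (p + 2)))
    (hb₂ : b₂ * θ₂ = v * a₂ ^ (p * (p + 2))) :
    b₀ = b₁ ∧ b₂ = b₁ := by
  have h01 := s36t_ratio01 p a₀ a₁ a₂ eA eA' eB eB' h₀ h₂ hα hβ
  have h21 := s36t_ratio21 p a₀ a₁ a₂ eA eA' eB eB' h₀ h₂ hα hβ
  have hc0 : eA' * eB' ^ (p + 1) ≠ 0 := mul_ne_zero heA' (pow_ne_zero _ heB')
  have hc2 : eA' ^ (p + 1) * eB' ≠ 0 := mul_ne_zero (pow_ne_zero _ heA') heB'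
  constructor
  · -- `a₁^N θ₀ = a₀^N`
    have h1 : a₁ ^ (p * (p + 2)) * θ₀ = a₀ ^ (p * (p + 2)) := by
      apply mul_right_cancel₀ hc0
      rw [mul_assoc, hθ₀, h01]
    have hθ₀0 : θ₀ ≠ 0 := by
      intro h
      rw [h, mul_zero] at h1
      exact pow_ne_zero _ h₀ h1.symm
    apply mul_right_cancel₀ hθ₀0
    rw [hb₀, hb₁, ← h1]; ring
  · have h1 : a₁ ^ (p * (p + 2)) * θ₂ = a₂ ^ (p * (p + 2)) := by
      apply mul_right_cancel₀ hc2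
      rw [mul_assoc, hθ₂, h21]
    have hθ₂0 : θ₂ ≠ 0 := by
      intro h
      rw [h, mul_zero] at h1
      exact pow_ne_zero _ h₂ h1.symm
    apply mul_right_cancel₀ hθ₂0
    rw [hb₂, hb₁, ← h1]; ring

end Fermat.Agent.Lib.S36
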