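/-
S36 project, layer (T) (helper8, prefix `s36t_`), part 2: THE LOCAL NORM RELATION AT A TRIPLE POINT
(abstract form, Mathlib only).

Setting: fields `𝓕₁ → 𝓕₂` (`α`), a multiplicative map `N : 𝓕₂ → 𝓕₁` (the norm), valuation subrings
`W∞ W0` of `𝓕₁` (the two components at level `q`) and `V0 V1 V2` of `𝓕₂` (the three components at
level `q²`: `V0, V1` over `W∞` with `e = 1, q - 1`, `V2` over `W0` purely inseparable of degree `q`),
with the two norm–residue formulas in ELEMENT form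

  (NA) `u - α c₀ ∈ 𝔪(V0)`, `u - α c₁ ∈ 𝔪(V1)`            ⟹ `N u - c₀ * c₁ ^ (q - 1) ∈ 𝔪(W∞)`,
  (NB) `u ^ q - α c ∈ 𝔪(V2)`                              ⟹ `N u - c ∈ 𝔪(W0)`,
(both for INTEGRAL `u`, `c₀, c₁, c` only: the formulas are false for elements with poles),

local rings `R'` (the node `𝔫'` of level `q`) and `R` (the triple point `𝔫` above it) mapping to the
fields, `a : R' → R` compatible with `α`, the three/two components passing through the points, and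
the surjectivity statements

  [S1] `∀ s : R, ∃ c : R', ι (a c - s) ∈ 𝔪(V0)` and the same for `V1`   (residue degree one),
  [S2] `∀ s : R, ∃ c : R', ι (a c - s ^ q) ∈ 𝔪(V2)`                     (purely inseparable branch).

Conclusion `s36t_rel`: if `Γ ∈ 𝓕₂` has residues `s₀, s₁, s₂ ∈ R` on the three branches and
`N Γ = ι' δ' * y'` with `δ' ∈ R'` and `y'` having residues `e∞, e0 ∈ R'` on the two branches of
level `q`, then

  `s₀ * s₁ ^ (q - 1) * a e0 - s₂ ^ q * a e∞ ∈ 𝔪_R`.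
-/
import Mathlib

set_option autoImplicit false

namespace Fermat.Agent.Lib.S36

open IsLocalRing

variable {𝓕₁ 𝓕₂ : Type*} [Field 𝓕₁] [Field 𝓕₂]
  {R' R : Type*} [CommRing R'] [CommRing R] [IsLocalRing R'] [IsLocalRing R]

/-- a multiple of a non-unit of a valuation ring is a non-unit. -/
theorem s36t_mul_mem_nonunits {K : Type*} [Field K] (A : ValuationSubring K) {x y : K}
    (hx : x ∈ A) (hy : y ∈ A.nonunits) : x * y ∈ A.nonunits := by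
  rw [ValuationSubring.mem_nonunits_iff, map_mul]
  have h1 : A.valuation x ≤ 1 := (A.valuation_le_one_iff x).mpr hx
  have h2 : A.valuation y < 1 := A.mem_nonunits_iff.mp hy
  exact mul_lt_one_of_nonneg_of_lt_one_right h1 zero_le h2

/-- **The local norm relation at a triple point.** -/
theorem s36t_rel (α : 𝓕₁ →+* 𝓕₂) (N : 𝓕₂ → 𝓕₁) (q : ℕ)
    (Winf W0 : ValuationSubring 𝓕₁) (V0 V1 V2 : ValuationSubring 𝓕₂)
    (hNA : ∀ (u : 𝓕₂) (c₀ c₁ : 𝓕₁), u ∈ V0 → u ∈ V1 → c₀ ∈ Winf → c₁ ∈ Winf →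
      u - α c₀ ∈ V0.nonunits → u - α c₁ ∈ V1.nonunits →
      N u - c₀ * c₁ ^ (q - 1) ∈ Winf.nonunits)
    (hNB : ∀ (u : 𝓕₂) (c : 𝓕₁), u ∈ V2 → c ∈ W0 → u ^ q - α c ∈ V2.nonunits →
      N u - c ∈ W0.nonunits)
    (ι' : R' →+* 𝓕₁) (ι : R →+* 𝓕₂) (a : R' →+* R) (hcomp : ∀ x : R', ι (a x) = α (ι' x))
    (hι'inf : ∀ x : R', ι' x ∈ Winf) (hι'0 : ∀ x : R', ι' x ∈ W0)
    (ha : ∀ x : R', x ∈ maximalIdeal R' → a x ∈ maximalIdeal R)
    (hWinf : ∀ x : R', ι' x ∈ Winf.nonunits → x ∈ maximalIdeal R')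
    (hW0 : ∀ x : R', ι' x ∈ W0.nonunits → x ∈ maximalIdeal R')
    (hV2 : ∀ x : R, ι x ∈ V2.nonunits → x ∈ maximalIdeal R)
    (hS10 : ∀ s : R, ∃ c : R', ι (a c - s) ∈ V0.nonunits)
    (hS11 : ∀ s : R, ∃ c : R', ι (a c - s) ∈ V1.nonunits)
    (hS2 : ∀ s : R, ∃ c : R', ι (a c - s ^ q) ∈ V2.nonunits)
    (hV0R : ∀ x : R, ι x ∈ V0.nonunits → x ∈ maximalIdeal R)
    (hV1R : ∀ x : R, ι x ∈ V1.nonunits → x ∈ maximalIdeal R)
    (Γ : 𝓕₂) (s₀ s₁ s₂ : R)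
    (hs₀ : Γ - ι s₀ ∈ V0.nonunits) (hs₁ : Γ - ι s₁ ∈ V1.nonunits) (hs₂ : Γ - ι s₂ ∈ V2.nonunits)
    (hΓ0 : Γ ∈ V0) (hΓ1 : Γ ∈ V1) (hΓ2 : Γ ∈ V2)
    (δ' : R') (y' : 𝓕₁) (einf e0 : R')
    (heinf : y' - ι' einf ∈ Winf.nonunits) (he0 : y' - ι' e0 ∈ W0.nonunits)
    (hdWinf : ι' δ' ∈ Winf) (hδW0 : ι' δ' ∈ W0)
    (hN : N Γ = ι' δ' * y') :
    s₀ * s₁ ^ (q - 1) * a e0 - s₂ ^ q * a einf ∈ maximalIdeal R := by
  -- the `∞`-branch
  obtain ⟨c₀, hc₀⟩ := hS10 s₀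
  obtain ⟨c₁, hc₁⟩ := hS11 s₁
  have h0 : Γ - α (ι' c₀) ∈ V0.nonunits := by
    have : Γ - α (ι' c₀) = (Γ - ι s₀) - ι (a c₀ - s₀) := by
      rw [map_sub, hcomp]; ring
    rw [this]
    exact V0.nonunits.sub_mem hs₀ hc₀
  have h1 : Γ - α (ι' c₁) ∈ V1.nonunits := by
    have : Γ - α (ι' c₁) = (Γ - ι s₁) - ι (a c₁ - s₁) := by
      rw [map_sub, hcomp]; ring
    rw [this]
    exact V1.nonunits.sub_mem hs₁ hc₁
  have hA := hNA Γ (ι' c₀) (ι' c₁) hΓ0 hΓ1 (hι'inf c₀) (hι'inf c₁) h0 h1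
  -- `δ' * einf - c₀ * c₁ ^ (q - 1) ∈ 𝔪_{R'}`
  have hA' : δ' * einf - c₀ * c₁ ^ (q - 1) ∈ maximalIdeal R' := by
    apply hWinf
    have : ι' (δ' * einf - c₀ * c₁ ^ (q - 1)) =
        (N Γ - ι' c₀ * ι' c₁ ^ (q - 1)) - ι' δ' * (y' - ι' einf) := by
      rw [hN]; simp only [map_sub, map_mul, map_pow]; ring
    rw [this]
    refine Winf.nonunits.sub_mem hA ?_
    exact s36t_mul_mem_nonunits Winf hdWinf heinf
  -- transport to `R`
  have hA'' : a δ' * a einf - s₀ * s₁ ^ (q - 1) ∈ maximalIdeal R := by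
    have h2 : a c₀ - s₀ ∈ maximalIdeal R := hV0R _ hc₀
    have h3 : a c₁ - s₁ ∈ maximalIdeal R := hV1R _ hc₁
    have h4 : a c₁ ^ (q - 1) - s₁ ^ (q - 1) ∈ maximalIdeal R := by
      obtain ⟨d, hd⟩ := sub_dvd_pow_sub_pow (a c₁) s₁ (q - 1)
      rw [hd]
      exact Ideal.mul_mem_right _ _ h3
    have h5 := ha _ hA'
    rw [map_sub, map_mul, map_mul, map_pow] at h5
    have : a δ' * a einf - s₀ * s₁ ^ (q - 1) =
        (a δ' * a einf - a c₀ * a c₁ ^ (q - 1)) + (a c₀ - s₀) * a c₁ ^ (q - 1) +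
          s₀ * (a c₁ ^ (q - 1) - s₁ ^ (q - 1)) := by ring
    rw [this]
    exact (maximalIdeal R).add_mem ((maximalIdeal R).add_mem h5 (Ideal.mul_mem_right _ _ h2))
      (Ideal.mul_mem_left _ _ h4)
  -- the `0`-branch
  obtain ⟨c₂, hc₂⟩ := hS2 s₂
  have hB0 : Γ ^ q - α (ι' c₂) ∈ V2.nonunits := by
    have h6 : Γ ^ q - (ι s₂) ^ q ∈ V2.nonunits := by
      have hs₂V : ι s₂ ∈ V2 := by
        have : ι s₂ = Γ - (Γ - ι s₂) := by ring
        rw [this]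
        exact V2.sub_mem hΓ2 (ValuationSubring.nonunits_subset hs₂)
      have hd' : Γ ^ q - (ι s₂) ^ q =
          (Γ - ι s₂) * ∑ i ∈ Finset.range q, Γ ^ i * (ι s₂) ^ (q - 1 - i) := by
        rw [mul_comm]
        exact (Commute.geom_sum₂_mul (Commute.all Γ (ι s₂)) q).symm
      rw [hd']
      rw [mul_comm]
      refine s36t_mul_mem_nonunits V2 ?_ hs₂
      exact V2.toSubring.sum_mem fun i _ =>
        V2.mul_mem _ _ (V2.pow_mem hΓ2 _) (V2.pow_mem hs₂V _)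
    have : Γ ^ q - α (ι' c₂) = (Γ ^ q - (ι s₂) ^ q) - ι (a c₂ - s₂ ^ q) := by
      rw [map_sub, hcomp, map_pow]; ring
    rw [this]
    exact V2.nonunits.sub_mem h6 hc₂
  have hB := hNB Γ (ι' c₂) hΓ2 (hι'0 c₂) hB0
  have hB' : δ' * e0 - c₂ ∈ maximalIdeal R' := by
    apply hW0
    have : ι' (δ' * e0 - c₂) = (N Γ - ι' c₂) - ι' δ' * (y' - ι' e0) := by
      rw [hN]; simp only [map_sub, map_mul]; ring
    rw [this]
    refine W0.nonunits.sub_mem hB ?_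
    exact s36t_mul_mem_nonunits W0 hδW0 he0
  have hB'' : a δ' * a e0 - s₂ ^ q ∈ maximalIdeal R := by
    have h2 : a c₂ - s₂ ^ q ∈ maximalIdeal R := hV2 _ hc₂
    have h5 := ha _ hB'
    rw [map_sub, map_mul] at h5
    have : a δ' * a e0 - s₂ ^ q = (a δ' * a e0 - a c₂) + (a c₂ - s₂ ^ q) := by ring
    rw [this]
    exact (maximalIdeal R).add_mem h5 h2
  -- combine
  have : s₀ * s₁ ^ (q - 1) * a e0 - s₂ ^ q * a einf =
      (a δ' * a e0 - s₂ ^ q) * a einf - (a δ' * a einf - s₀ * s₁ ^ (q - 1)) * a e0 := by ring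
  rw [this]
  exact (maximalIdeal R).sub_mem (Ideal.mul_mem_right _ _ hB'') (Ideal.mul_mem_right _ _ hA'')

end Fermat.Agent.Lib.S36
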