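/-
S36 project, layer (T) (helper8, prefix `s36t_`), part 5: THE NORM RELATION AT A TRIPLE POINT IN THE
TWO-LEVEL CHART FRAME (helper5's `QTwo.lean`).

Level `q`: `O₁ : ι₁ → ValuationSubring 𝓕₁`, chart `S₁`; level `q²`: `O₂ : ι₂ → ValuationSubring 𝓕₂`,
chart `S₂`; `γ : 𝓕₁ →+* 𝓕₂` with `γ(B₁) ⊆ B₂`; `𝔫` a prime of `B₂`, `R = (B₂)_𝔫`, `R' = (B₁)_{γ⁻¹𝔫}`,
`locMap : R' → R`; `N : 𝓕₂ → 𝓕₁` multiplicative (the norm along `γ`).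

`s36t_rel_chart`: for `f₁ = ι₂ u₁ * Γ₁ ^ m` (`u₁ ∈ Rˣ`) with `N f₁ = c * y' ^ m` (`c` a constant,
`y'` with residues `e_a, e_b ∈ R'ˣ` on the two branches `i_a, i_b` of level `q`), and residues
`s j ∈ R` of `Γ₁` on the three branches `j₀, j₁ | i_a` (`e = 1, q - 1`, `f = 1`), `j₂ | i_b` (purely
inseparable):

  `s j₀ * s j₁ ^ (q - 1) * locMap e_b - s j₂ ^ q * locMap e_a ∈ 𝔪_R`.

The quotient `δ' = N Γ₁ / y'` is shown to lie in `R'` by the unit criterion of level `q`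
(`s36q_exists_iota_eq`): it is integral at the two branches by the norm–residue formulas and has order
`0` at the places through `γ⁻¹𝔫` because `δ' ^ m = c / N (ι₂ u₁)` ([S4]).  Then `s36t_rel`.
-/
import Fermat.Agent.Lib.S36.QTwo
import Fermat.Agent.Lib.S36.XLocLift
import Fermat.Agent.Lib.S36.TRel
import Fermat.Agent.Lib.S36.TCong
import Fermat.Agent.Lib.S36.TMatch

set_option autoImplicit false
set_option linter.unusedSectionVars false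
set_option linter.style.haveILetI false

noncomputable section

namespace Fermat.Agent.Lib.S36

open AlgebraicCurve Fermat.Agent.Lib.FF Fermat.Agent.Lib.S18 Fermat.Agent.Lib.S34 IsLocalRing

variable {L₀ 𝓕₁ 𝓕₂ : Type*} [Field L₀] [Field 𝓕₁] [Field 𝓕₂] [Algebra L₀ 𝓕₁] [Algebra L₀ 𝓕₂]
variable {ι₁ ι₂ : Type*} [Fintype ι₁] [Fintype ι₂] (O₁ : ι₁ → ValuationSubring 𝓕₁) (O₂ : ι₂ → ValuationSubring 𝓕₂)
  (S₁ : Set (Place L₀ 𝓕₁)) (S₂ : Set (Place L₀ 𝓕₂)) (γ : 𝓕₁ →+* 𝓕₂)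
  (hγ : ∀ b ∈ s34x_ring (s34x_infRing O₁) S₁, γ b ∈ s34x_ring (s34x_infRing O₂) S₂)
  (𝔫 : Ideal (s34x_ring (s34x_infRing O₂) S₂)) [h𝔫 : 𝔫.IsPrime]

/-- **The norm relation at a triple point, chart frame.** -/
theorem s36t_rel_chart (ia ib : ι₁) (j₀ j₁ j₂ : ι₂) (N : 𝓕₂ → 𝓕₁) (q m : ℕ) (hm0 : m ≠ 0)
    (hNmul : ∀ x y, N (x * y) = N x * N y) (hNpow : ∀ x (n : ℕ), N (x ^ n) = N x ^ n)
    (hNA : ∀ (u : 𝓕₂) (c₀ c₁ : 𝓕₁), u ∈ O₂ j₀ → u ∈ O₂ j₁ → c₀ ∈ O₁ ia → c₁ ∈ O₁ ia →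
      u - γ c₀ ∈ (O₂ j₀).nonunits → u - γ c₁ ∈ (O₂ j₁).nonunits →
      N u - c₀ * c₁ ^ (q - 1) ∈ (O₁ ia).nonunits)
    (hNB : ∀ (u : 𝓕₂) (c : 𝓕₁), u ∈ O₂ j₂ → c ∈ O₁ ib → u ^ q - γ c ∈ (O₂ j₂).nonunits →
      N u - c ∈ (O₁ ib).nonunits)
    (hA₁ : s36q_Arch O₁)
    (F3₁ : ∀ y : 𝓕₁, y ≠ 0 → {Q : Place L₀ 𝓕₁ | Q ∈ S₁ ∧ Q.ord y ≠ 0}.Finite)
    (hia : s36q_compThrough O₁ S₁ (s36q_pt O₁ O₂ S₁ S₂ γ hγ 𝔫) ia)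
    (hib : s36q_compThrough O₁ S₁ (s36q_pt O₁ O₂ S₁ S₂ γ hγ 𝔫) ib)
    (honly : ∀ i, s36q_compThrough O₁ S₁ (s36q_pt O₁ O₂ S₁ S₂ γ hγ 𝔫) i → i = ia ∨ i = ib)
    (hj₀ : s36q_compThrough O₂ S₂ 𝔫 j₀) (hj₁ : s36q_compThrough O₂ S₂ 𝔫 j₁)
    (hj₂ : s36q_compThrough O₂ S₂ 𝔫 j₂)
    (hS10 : ∀ s : Localization.AtPrime 𝔫,
      ∃ c : Localization.AtPrime (s36q_pt O₁ O₂ S₁ S₂ γ hγ 𝔫),
        s34f_iota (s34x_infRing O₂) S₂ 𝔫 (s36q_locMap O₁ O₂ S₁ S₂ γ hγ 𝔫 c - s) ∈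
          (O₂ j₀).nonunits)
    (hS11 : ∀ s : Localization.AtPrime 𝔫,
      ∃ c : Localization.AtPrime (s36q_pt O₁ O₂ S₁ S₂ γ hγ 𝔫),
        s34f_iota (s34x_infRing O₂) S₂ 𝔫 (s36q_locMap O₁ O₂ S₁ S₂ γ hγ 𝔫 c - s) ∈
          (O₂ j₁).nonunits)
    (hS2 : ∀ s : Localization.AtPrime 𝔫,
      ∃ c : Localization.AtPrime (s36q_pt O₁ O₂ S₁ S₂ γ hγ 𝔫),
        s34f_iota (s34x_infRing O₂) S₂ 𝔫 (s36q_locMap O₁ O₂ S₁ S₂ γ hγ 𝔫 c - s ^ q) ∈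
          (O₂ j₂).nonunits)
    (hS4 : ∀ u : Localization.AtPrime 𝔫, IsUnit u → ∀ Q ∈ S₁,
      s34f_through (s34x_infRing O₁) S₁ (s36q_pt O₁ O₂ S₁ S₂ γ hγ 𝔫) Q →
        Q.ord (N (s34f_iota (s34x_infRing O₂) S₂ 𝔫 u)) = 0)
    (f₁ Γ₁ : 𝓕₂) (u₁ : Localization.AtPrime 𝔫) (hu₁ : IsUnit u₁)
    (hf₁ : f₁ = s34f_iota (s34x_infRing O₂) S₂ 𝔫 u₁ * Γ₁ ^ m)
    (s : ι₂ → Localization.AtPrime 𝔫)
    (hs₀ : Γ₁ - s34f_iota (s34x_infRing O₂) S₂ 𝔫 (s j₀) ∈ (O₂ j₀).nonunits)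
    (hs₁ : Γ₁ - s34f_iota (s34x_infRing O₂) S₂ 𝔫 (s j₁) ∈ (O₂ j₁).nonunits)
    (hs₂ : Γ₁ - s34f_iota (s34x_infRing O₂) S₂ 𝔫 (s j₂) ∈ (O₂ j₂).nonunits)
    (y' : 𝓕₁) (hy'0 : y' ≠ 0) (c : L₀) (hc0 : c ≠ 0)
    (hNf : N f₁ = algebraMap L₀ 𝓕₁ c * y' ^ m)
    (ea eb : Localization.AtPrime (s36q_pt O₁ O₂ S₁ S₂ γ hγ 𝔫)) (hea : IsUnit ea) (heb : IsUnit eb)
    (hya : y' - s34f_iota (s34x_infRing O₁) S₁ (s36q_pt O₁ O₂ S₁ S₂ γ hγ 𝔫) ea ∈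
      (O₁ ia).nonunits)
    (hyb : y' - s34f_iota (s34x_infRing O₁) S₁ (s36q_pt O₁ O₂ S₁ S₂ γ hγ 𝔫) eb ∈
      (O₁ ib).nonunits) :
    s j₀ * s j₁ ^ (q - 1) * s36q_locMap O₁ O₂ S₁ S₂ γ hγ 𝔫 eb -
        s j₂ ^ q * s36q_locMap O₁ O₂ S₁ S₂ γ hγ 𝔫 ea ∈
      maximalIdeal (Localization.AtPrime 𝔫) := by
  set 𝔫₁ := s36q_pt O₁ O₂ S₁ S₂ γ hγ 𝔫 with h𝔫₁
  set ι₁' := s34f_iota (s34x_infRing O₁) S₁ 𝔫₁ with hι₁'
  set ι₂' := s34f_iota (s34x_infRing O₂) S₂ 𝔫 with hι₂'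
  set a := s36q_locMap O₁ O₂ S₁ S₂ γ hγ 𝔫 with ha
  have hcomp : ∀ x, ι₂' (a x) = γ (ι₁' x) := s36q_iota_locMap O₁ O₂ S₁ S₂ γ hγ 𝔫
  -- membership of `Γ₁` in the three rings
  have hΓ2 : Γ₁ ∈ O₂ j₂ := by
    have h1 : ι₂' (s j₂) ∈ O₂ j₂ := s36q_iota_mem_comp O₂ S₂ 𝔫 j₂ hj₂ (s j₂)
    have : s36t_Cong (O₂ j₂) Γ₁ (ι₂' (s j₂)) := hs₂
    exact this.mem h1
  have hΓ0 : Γ₁ ∈ O₂ j₀ := by
    have h1 : ι₂' (s j₀) ∈ O₂ j₀ := s36q_iota_mem_comp O₂ S₂ 𝔫 j₀ hj₀ (s j₀)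
    have : s36t_Cong (O₂ j₀) Γ₁ (ι₂' (s j₀)) := hs₀
    exact this.mem h1
  have hΓ1 : Γ₁ ∈ O₂ j₁ := by
    have h1 : ι₂' (s j₁) ∈ O₂ j₁ := s36q_iota_mem_comp O₂ S₂ 𝔫 j₁ hj₁ (s j₁)
    have : s36t_Cong (O₂ j₁) Γ₁ (ι₂' (s j₁)) := hs₁
    exact this.mem h1
  have hmemR' : ∀ i, s36q_compThrough O₁ S₁ 𝔫₁ i → ∀ z, ι₁' z ∈ O₁ i := fun i hi z =>
    s36q_iota_mem_comp O₁ S₁ 𝔫₁ i hi z
  -- `N Γ₁` on the two branches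
  obtain ⟨c₀, hc₀⟩ := hS10 (s j₀)
  obtain ⟨c₁, hc₁⟩ := hS11 (s j₁)
  obtain ⟨c₂, hc₂⟩ := hS2 (s j₂)
  have h0 : Γ₁ - γ (ι₁' c₀) ∈ (O₂ j₀).nonunits := by
    have : Γ₁ - γ (ι₁' c₀) = (Γ₁ - ι₂' (s j₀)) - ι₂' (a c₀ - s j₀) := by
      rw [map_sub, hcomp]; ring
    rw [this]
    exact (O₂ j₀).nonunits.sub_mem hs₀ hc₀
  have h1 : Γ₁ - γ (ι₁' c₁) ∈ (O₂ j₁).nonunits := by
    have : Γ₁ - γ (ι₁' c₁) = (Γ₁ - ι₂' (s j₁)) - ι₂' (a c₁ - s j₁) := by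
      rw [map_sub, hcomp]; ring
    rw [this]
    exact (O₂ j₁).nonunits.sub_mem hs₁ hc₁
  have hNa : s36t_Cong (O₁ ia) (N Γ₁) (ι₁' c₀ * ι₁' c₁ ^ (q - 1)) := hNA Γ₁ _ _ hΓ0 hΓ1 (hmemR' ia hia c₀) (hmemR' ia hia c₁) h0 h1
  have h2 : Γ₁ ^ q - γ (ι₁' c₂) ∈ (O₂ j₂).nonunits := by
    have hs₂V : ι₂' (s j₂) ∈ O₂ j₂ := s36q_iota_mem_comp O₂ S₂ 𝔫 j₂ hj₂ (s j₂)
    have h6 : s36t_Cong (O₂ j₂) (Γ₁ ^ q) (ι₂' (s j₂) ^ q) :=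
      s36t_Cong.pow (show s36t_Cong (O₂ j₂) Γ₁ (ι₂' (s j₂)) from hs₂) hs₂V q
    have : Γ₁ ^ q - γ (ι₁' c₂) = (Γ₁ ^ q - ι₂' (s j₂) ^ q) - ι₂' (a c₂ - s j₂ ^ q) := by
      rw [map_sub, hcomp, map_pow]; ring
    rw [this]
    exact (O₂ j₂).nonunits.sub_mem h6 hc₂
  have hNb : s36t_Cong (O₁ ib) (N Γ₁) (ι₁' c₂) := hNB Γ₁ _ hΓ2 (hmemR' ib hib c₂) h2
  -- units of `R'` on the branches
  have hunitR' : ∀ i, s36q_compThrough O₁ S₁ 𝔫₁ i → ∀ z, IsUnit z →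
      ι₁' z ≠ 0 ∧ (ι₁' z)⁻¹ ∈ O₁ i := by
    intro i hi z hz
    obtain ⟨z', hz'⟩ := hz.exists_right_inv
    have h1 := congrArg ι₁' hz'
    rw [map_mul, map_one] at h1
    have hz0 : ι₁' z ≠ 0 := left_ne_zero_of_mul_eq_one h1
    refine ⟨hz0, ?_⟩
    rw [(eq_inv_of_mul_eq_one_right h1).symm]
    exact hmemR' i hi z'
  -- the quotient `x = N Γ₁ / y'`
  set x : 𝓕₁ := N Γ₁ / y' with hx
  have hxa : x ∈ O₁ ia := by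
    have hN : N Γ₁ ∈ O₁ ia :=
      hNa.mem ((O₁ ia).mul_mem _ _ (hmemR' ia hia c₀) ((O₁ ia).pow_mem (hmemR' ia hia c₁) _))
    have hyi : y'⁻¹ ∈ O₁ ia := by
      obtain ⟨h0, h1⟩ := hunitR' ia hia ea hea
      exact (show s36t_Cong (O₁ ia) y' (ι₁' ea) from hya).inv_mem (hmemR' ia hia ea) h1 h0
    rw [hx, div_eq_mul_inv]
    exact (O₁ ia).mul_mem _ _ hN hyi
  have hxb : x ∈ O₁ ib := by
    have hN : N Γ₁ ∈ O₁ ib := hNb.mem (hmemR' ib hib c₂)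
    have hyi : y'⁻¹ ∈ O₁ ib := by
      obtain ⟨h0, h1⟩ := hunitR' ib hib eb heb
      exact (show s36t_Cong (O₁ ib) y' (ι₁' eb) from hyb).inv_mem (hmemR' ib hib eb) h1 h0
    rw [hx, div_eq_mul_inv]
    exact (O₁ ib).mul_mem _ _ hN hyi
  -- `x ^ m = c / N (ι₂ u₁)`
  have hιu0 : ι₂' u₁ ≠ 0 := by
    obtain ⟨z', hz'⟩ := hu₁.exists_right_inv
    have h1 := congrArg ι₂' hz'
    rw [map_mul, map_one] at h1
    exact left_ne_zero_of_mul_eq_one h1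
  have hc0' : algebraMap L₀ 𝓕₁ c ≠ 0 := by simpa using hc0
  have hNf' : N (ι₂' u₁) * N Γ₁ ^ m = algebraMap L₀ 𝓕₁ c * y' ^ m := by
    rw [← hNf, hf₁, hNmul, hNpow]
  have hNu0 : N (ι₂' u₁) ≠ 0 := by
    intro h
    rw [h, zero_mul] at hNf'
    exact (mul_ne_zero hc0' (pow_ne_zero m hy'0)) hNf'.symm
  have hNΓ0 : N Γ₁ ≠ 0 := by
    intro h
    rw [h, zero_pow hm0, mul_zero] at hNf'
    exact (mul_ne_zero hc0' (pow_ne_zero m hy'0)) hNf'.symm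
  have hx0 : x ≠ 0 := div_ne_zero hNΓ0 hy'0
  have hxm : N (ι₂' u₁) * x ^ m = algebraMap L₀ 𝓕₁ c := by
    rw [hx, div_pow, ← mul_div_assoc, hNf', mul_div_assoc, div_self (pow_ne_zero m hy'0),
      mul_one]
  have hxord : ∀ Q ∈ S₁, s34f_through (s34x_infRing O₁) S₁ 𝔫₁ Q → Q.ord x = 0 := by
    intro Q hQS hth
    have h1 := congrArg Q.ord hxm
    rw [Q.ord_mul hNu0 (pow_ne_zero m hx0), s18i_ord_pow, hS4 u₁ hu₁ Q hQS hth,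
      ff_ord_algebraMap, zero_add] at h1
    have hmZ : (m : ℤ) ≠ 0 := by exact_mod_cast hm0
    exact (mul_eq_zero.mp h1).resolve_left hmZ
  -- `x ∈ ι₁ R'`
  obtain ⟨δ', hδ'⟩ := s36q_exists_iota_eq O₁ S₁ 𝔫₁ hA₁ x
    (fun i hi => by
      rcases honly i hi with rfl | rfl
      · exact hxa
      · exact hxb)
    (fun Q hQS hth => by rw [hxord Q hQS hth])
    ((F3₁ x hx0).subset fun Q hQ => ⟨hQ.1, fun h => by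
      have h2 : Q.ord x < 0 := hQ.2
      rw [h] at h2
      exact lt_irrefl _ h2⟩)
  have hNΓ : N Γ₁ = ι₁' δ' * y' := by
    rw [hδ', hx, div_mul_cancel₀ _ hy'0]
  -- the abstract relation
  exact s36t_rel γ N q (O₁ ia) (O₁ ib) (O₂ j₀) (O₂ j₁) (O₂ j₂) hNA hNB ι₁' ι₂' a hcomp
    (hmemR' ia hia) (hmemR' ib hib)
    (fun z hz => s36q_locMap_mem_maximalIdeal O₁ O₂ S₁ S₂ γ hγ 𝔫 z hz)
    (fun z hz => s36y_mem_maximalIdeal_of_nonunit O₁ S₁ 𝔫₁ ia hia z hz)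
    (fun z hz => s36y_mem_maximalIdeal_of_nonunit O₁ S₁ 𝔫₁ ib hib z hz)
    (fun z hz => s36y_mem_maximalIdeal_of_nonunit O₂ S₂ 𝔫 j₂ hj₂ z hz)
    hS10 hS11 hS2
    (fun z hz => s36y_mem_maximalIdeal_of_nonunit O₂ S₂ 𝔫 j₀ hj₀ z hz)
    (fun z hz => s36y_mem_maximalIdeal_of_nonunit O₂ S₂ 𝔫 j₁ hj₁ z hz)
    Γ₁ (s j₀) (s j₁) (s j₂) hs₀ hs₁ hs₂ hΓ0 hΓ1 hΓ2 δ' y' ea eb hya hyb
    (by rw [hδ']; exact hxa) (by rw [hδ']; exact hxb) hNΓ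

/-! ### MATCH at a triple point from the two relations -/

section Match

variable {L₀ 𝓕 : Type*} [Field L₀] [Field 𝓕] [Algebra L₀ 𝓕]
  (O : Fin 3 → ValuationSubring 𝓕) (S : Set (Place L₀ 𝓕))
  (𝔫 : Ideal (s34x_ring (s34x_infRing O) S)) [h𝔫 : 𝔫.IsPrime]

/-- **MATCH at a triple point.**  `f = f₁ ^ N / (ĉ * ξ ^ m)`, `N = p (p + 2) = q² - 1`; `(Γ₁, u₁, s¹)`
a generator datum of `f₁` at `𝔫` satisfying the two norm relations with constants `EA, EA', EB, EB'`;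
`ξ` with residues `θ₀, 1, θ₂` where `θ₀, θ₂` are the constants of `s36t_match`.  Then for EVERY
generator datum `(Γ, u, s)` of `f` at `𝔫` the three lifts `s i` agree modulo `𝔪_R`. -/
theorem s36t_match_chart (hA : s36q_Arch O)
    (F3 : ∀ y : 𝓕, y ≠ 0 → {Q : Place L₀ 𝓕 | Q ∈ S ∧ Q.ord y ≠ 0}.Finite)
    (hthru : ∀ j, s36q_compThrough O S 𝔫 j) (p m : ℕ) (hm0 : m ≠ 0)
    (f₁ Γ₁ : 𝓕) (hΓ₁0 : Γ₁ ≠ 0) (u₁ : Localization.AtPrime 𝔫) (hu₁ : IsUnit u₁)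
    (hf₁ : f₁ = s34f_iota (s34x_infRing O) S 𝔫 u₁ * Γ₁ ^ m)
    (hΓ₁u : ∀ j, Γ₁ ∈ O j ∧ Γ₁⁻¹ ∈ O j)
    (s1 : Fin 3 → Localization.AtPrime 𝔫) (hs1u : ∀ j, IsUnit (s1 j))
    (hs1 : ∀ j, Γ₁ - s34f_iota (s34x_infRing O) S 𝔫 (s1 j) ∈ (O j).nonunits)
    (EA EA' EB EB' : Localization.AtPrime 𝔫) (hEA' : IsUnit EA') (hEB' : IsUnit EB')
    (hα : s1 0 * s1 1 ^ p * EA - s1 2 ^ (p + 1) * EA' ∈ maximalIdeal (Localization.AtPrime 𝔫))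
    (hβ : s1 2 * s1 1 ^ p * EB - s1 0 ^ (p + 1) * EB' ∈ maximalIdeal (Localization.AtPrime 𝔫))
    (θ : Fin 3 → Localization.AtPrime 𝔫) (hθu : ∀ j, IsUnit (θ j)) (hθ1 : θ 1 = 1)
    (hθ₀ : θ 0 * (EA' * EB' ^ (p + 1)) - EA * EB ^ (p + 1) ∈
      maximalIdeal (Localization.AtPrime 𝔫))
    (hθ₂ : θ 2 * (EA' ^ (p + 1) * EB') - EA ^ (p + 1) * EB ∈
      maximalIdeal (Localization.AtPrime 𝔫))
    (ξ : 𝓕) (hξ : ∀ j, ξ - s34f_iota (s34x_infRing O) S 𝔫 (θ j) ∈ (O j).nonunits)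
    (c : L₀) (hc0 : c ≠ 0) (f : 𝓕)
    (hf : f = f₁ ^ (p * (p + 2)) / (algebraMap L₀ 𝓕 c * ξ ^ m))
    (Γ : 𝓕) (hΓ0 : Γ ≠ 0) (u : Localization.AtPrime 𝔫) (hu : IsUnit u)
    (hfu : f = s34f_iota (s34x_infRing O) S 𝔫 u * Γ ^ m)
    (hΓu : ∀ j, Γ ∈ O j ∧ Γ⁻¹ ∈ O j)
    (s : Fin 3 → Localization.AtPrime 𝔫)
    (hs : ∀ j, Γ - s34f_iota (s34x_infRing O) S 𝔫 (s j) ∈ (O j).nonunits) :
    ∀ i j, s i - s j ∈ maximalIdeal (Localization.AtPrime 𝔫) := by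
  classical
  set ιR := s34f_iota (s34x_infRing O) S 𝔫 with hιR
  set N := p * (p + 2) with hN
  have hmZ : (m : ℤ) ≠ 0 := by exact_mod_cast hm0
  -- units of `R` in the field
  have hunit : ∀ z : Localization.AtPrime 𝔫, IsUnit z →
      ιR z ≠ 0 ∧ (∀ j, ιR z ∈ O j ∧ (ιR z)⁻¹ ∈ O j) ∧
        ∀ Q ∈ S, s34f_through (s34x_infRing O) S 𝔫 Q → Q.ord (ιR z) = 0 := by
    intro z hz
    obtain ⟨z', hz'⟩ := hz.exists_right_inv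
    have h1 := congrArg ιR hz'
    rw [map_mul, map_one] at h1
    have hz0 : ιR z ≠ 0 := left_ne_zero_of_mul_eq_one h1
    refine ⟨hz0, fun j => ⟨s36q_iota_mem_comp O S 𝔫 j (hthru j) z, ?_⟩, fun Q hQS hth =>
      (s36y_ord_iota_unit O S 𝔫 z hz Q hQS hth).2⟩
    rw [(eq_inv_of_mul_eq_one_right h1).symm]
    exact s36q_iota_mem_comp O S 𝔫 j (hthru j) z'
  -- `ξ` is a unit at the three components
  have hξ0 : ξ ≠ 0 := by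
    obtain ⟨h0, h1, -⟩ := hunit (θ 0) (hθu 0)
    exact (show s36t_Cong (O 0) ξ (ιR (θ 0)) from hξ 0).ne_zero (h1 0).2 h0
  have hξu : ∀ j, ξ ∈ O j ∧ ξ⁻¹ ∈ O j := by
    intro j
    obtain ⟨h0, h1, -⟩ := hunit (θ j) (hθu j)
    exact ⟨(show s36t_Cong (O j) ξ (ιR (θ j)) from hξ j).mem (h1 j).1,
      (show s36t_Cong (O j) ξ (ιR (θ j)) from hξ j).inv_mem (h1 j).1 (h1 j).2 h0⟩
  -- the comparison unit `v' = Γ ξ / Γ₁ ^ N`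
  set v' : 𝓕 := Γ * ξ / Γ₁ ^ N with hv'
  have hv'0 : v' ≠ 0 := div_ne_zero (mul_ne_zero hΓ0 hξ0) (pow_ne_zero _ hΓ₁0)
  have hv'comp : ∀ j, v' ∈ O j ∧ v'⁻¹ ∈ O j := by
    intro j
    constructor
    · rw [hv', div_eq_mul_inv, ← inv_pow]
      exact (O j).mul_mem _ _ ((O j).mul_mem _ _ (hΓu j).1 (hξu j).1)
        ((O j).pow_mem (hΓ₁u j).2 _)
    · rw [hv', inv_div, div_eq_mul_inv, mul_inv]
      exact (O j).mul_mem _ _ ((O j).pow_mem (hΓ₁u j).1 _)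
        ((O j).mul_mem _ _ (hΓu j).2 (hξu j).2)
  have hc0' : algebraMap L₀ 𝓕 c ≠ 0 := by simpa using hc0
  have hv'ord : ∀ Q ∈ S, s34f_through (s34x_infRing O) S 𝔫 Q → Q.ord v' = 0 := by
    intro Q hQS hth
    obtain ⟨hu0, -, huord⟩ := hunit u hu
    obtain ⟨hu₁0, -, hu₁ord⟩ := hunit u₁ hu₁
    -- `ord f = m ord Γ`, `ord f₁ = m ord Γ₁`
    have h1 : Q.ord f = (m : ℤ) * Q.ord Γ := by
      rw [hfu, Q.ord_mul hu0 (pow_ne_zero m hΓ0), huord Q hQS hth, zero_add, s18i_ord_pow]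
    have h2 : Q.ord f₁ = (m : ℤ) * Q.ord Γ₁ := by
      rw [hf₁, Q.ord_mul hu₁0 (pow_ne_zero m hΓ₁0), hu₁ord Q hQS hth, zero_add, s18i_ord_pow]
    have hf₁0 : f₁ ≠ 0 := by
      rw [hf₁]; exact mul_ne_zero hu₁0 (pow_ne_zero m hΓ₁0)
    have h3 : Q.ord f = (N : ℤ) * Q.ord f₁ - (m : ℤ) * Q.ord ξ := by
      rw [hf, div_eq_mul_inv, Q.ord_mul (pow_ne_zero _ hf₁0)
        (inv_ne_zero (mul_ne_zero hc0' (pow_ne_zero m hξ0))), Q.ord_inv,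
        Q.ord_mul hc0' (pow_ne_zero m hξ0), ff_ord_algebraMap, zero_add, s18i_ord_pow,
        s18i_ord_pow]
      ring
    have h4 : (m : ℤ) * (Q.ord Γ + Q.ord ξ - (N : ℤ) * Q.ord Γ₁) = 0 := by
      have : (m : ℤ) * Q.ord Γ = (N : ℤ) * ((m : ℤ) * Q.ord Γ₁) - (m : ℤ) * Q.ord ξ := by
        rw [← h1, ← h2, h3]
      linear_combination this
    have h5 := (mul_eq_zero.mp h4).resolve_left hmZ
    rw [hv', div_eq_mul_inv, Q.ord_mul (mul_ne_zero hΓ0 hξ0) (inv_ne_zero (pow_ne_zero _ hΓ₁0)),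
      Q.ord_mul hΓ0 hξ0, Q.ord_inv, s18i_ord_pow]
    linear_combination h5
  obtain ⟨v, hvu, hv⟩ := s36q_exists_unit_iota_eq O S 𝔫 hA v' hv'0
    (fun j _ => hv'comp j) hv'ord (F3 v' hv'0)
  -- the congruences `s j * θ j ≡ v * s1 j ^ N`
  have hcong : ∀ j, s j * θ j - v * s1 j ^ N ∈ maximalIdeal (Localization.AtPrime 𝔫) := by
    intro j
    apply s36y_mem_maximalIdeal_of_nonunit O S 𝔫 j (hthru j)
    -- `Γ ξ = v' Γ₁ ^ N`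
    have hkey : Γ * ξ = v' * Γ₁ ^ N := by
      rw [hv', div_mul_cancel₀ _ (pow_ne_zero _ hΓ₁0)]
    obtain ⟨-, hθj, -⟩ := hunit (θ j) (hθu j)
    obtain ⟨-, hs1j, -⟩ := hunit (s1 j) (hs1u j)
    have hsj : ιR (s j) ∈ O j := s36q_iota_mem_comp O S 𝔫 j (hthru j) (s j)
    have c1 : s36t_Cong (O j) (Γ * ξ) (ιR (s j) * ιR (θ j)) :=
      s36t_Cong.mul (show s36t_Cong (O j) Γ (ιR (s j)) from hs j)
        (show s36t_Cong (O j) ξ (ιR (θ j)) from hξ j) hsj (hθj j).1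
    have c2 : s36t_Cong (O j) (v' * Γ₁ ^ N) (v' * ιR (s1 j) ^ N) :=
      s36t_Cong.mul (s36t_Cong.refl v')
        (s36t_Cong.pow (show s36t_Cong (O j) Γ₁ (ιR (s1 j)) from hs1 j) (hs1j j).1 N)
        (hv'comp j).1 ((O j).pow_mem (hs1j j).1 N)
    have c3 : s36t_Cong (O j) (ιR (s j) * ιR (θ j)) (v' * ιR (s1 j) ^ N) := by
      refine (c1.symm).trans ?_
      rw [hkey]
      exact c2
    have : ιR (s j * θ j - v * s1 j ^ N) = ιR (s j) * ιR (θ j) - v' * ιR (s1 j) ^ N := by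
      rw [map_sub, map_mul, map_mul, map_pow, hv]
    rw [this]
    exact c3
  -- pass to the residue field
  set res := residue (Localization.AtPrime 𝔫) with hres
  have hres0 : ∀ z, z ∈ maximalIdeal (Localization.AtPrime 𝔫) → res z = 0 := fun z hz =>
    (residue_eq_zero_iff z).mpr hz
  have hresu : ∀ z, IsUnit z → res z ≠ 0 := by
    intro z hz h
    have := (residue_eq_zero_iff z).mp h
    exact ((mem_maximalIdeal z).mp this) hz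
  have e := fun j => hres0 _ (hcong j)
  simp only [map_sub, map_mul, map_pow, sub_eq_zero] at e
  have eα := hres0 _ hα
  have eβ := hres0 _ hβ
  have eθ₀ := hres0 _ hθ₀
  have eθ₂ := hres0 _ hθ₂
  simp only [map_sub, map_mul, map_pow, sub_eq_zero] at eα eβ eθ₀ eθ₂
  have e1 := e 1
  rw [hθ1, map_one, mul_one] at e1
  obtain ⟨h01, h21⟩ := s36t_match p (res (s1 0)) (res (s1 1)) (res (s1 2)) (res EA) (res EA')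
    (res EB) (res EB') (hresu _ (hs1u 0)) (hresu _ (hs1u 2)) (hresu _ hEA') (hresu _ hEB') eα eβ
    (res (θ 0)) (res (θ 2)) (res v) (res (s 0)) (res (s 1)) (res (s 2)) eθ₀ eθ₂ (e 0) e1 (e 2)
  have hall : ∀ j, res (s j) = res (s 1) := by
    intro j
    fin_cases j
    · exact h01
    · rfl
    · exact h21
  intro i j
  apply (residue_eq_zero_iff _).mp
  rw [map_sub, hall i, hall j, sub_self]

end Match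

end Fermat.Agent.Lib.S36
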