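/-
S36 mega-project, layer (X-loc) (helper3, prefix `s36y_`), part (3a'): `s36y_exists_gen_lifts'`, the
generalisation of `s36y_exists_gen_lifts` (`Lib/S36/XLocLift.lean`) asked for by (T3): `f` is only
assumed congruent to a UNIT of `R = B_𝔫` on each branch through `𝔫` (e.g. to constants `c_i ∈ A₀ˣ`,
different on different branches), instead of `f ≡ 1`.  Same conclusion.
-/
import Fermat.Agent.Lib.S36.XLocLift

set_option autoImplicit false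
set_option linter.unusedSectionVars false
set_option linter.style.haveILetI false

noncomputable section

namespace Fermat.Agent.Lib.S36

open AlgebraicCurve Fermat.Agent.Lib.FF Fermat.Agent.Lib.S18 Fermat.Agent.Lib.S34 IsLocalRing

variable {L₀ 𝓕 : Type*} [Field L₀] [Field 𝓕] [Algebra L₀ 𝓕]

variable {ι : Type*} (O : ι → ValuationSubring 𝓕) (S : Set (Place L₀ 𝓕))
  (𝔫 : Ideal (s34x_ring (s34x_infRing O) S)) [h𝔫 : 𝔫.IsPrime] [Fintype ι]

/-- a function congruent to a unit of `B_𝔫` on a branch through `𝔫` is a unit of that component. -/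
theorem s36y_val_eq_one_of_cong (i : ι) (hi : s36q_compThrough O S 𝔫 i) (f : 𝓕)
    (a : Localization.AtPrime 𝔫) (ha : IsUnit a)
    (hfa : f - s34f_iota (s34x_infRing O) S 𝔫 a ∈ (O i).nonunits) :
    (O i).valuation f = 1 := by
  have h1 := s36y_val_iota_unit O S 𝔫 i hi a ha
  have h2 : (O i).valuation (f - s34f_iota (s34x_infRing O) S 𝔫 a) < 1 :=
    (O i).mem_nonunits_iff.mp hfa
  have := Valuation.map_add_eq_of_lt_left (O i).valuation
    (x := s34f_iota (s34x_infRing O) S 𝔫 a) (y := f - s34f_iota (s34x_infRing O) S 𝔫 a)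
    (by rw [h1]; exact h2)
  rw [h1] at this
  rw [← this]
  congr 1
  ring

/-- **(3a') The generator and the lifts of its residues**, for `f` congruent to units of `B_𝔫` on
the branches through `𝔫`. -/
theorem s36y_exists_gen_lifts' (hA : s36q_Arch O)
    (F3 : ∀ y : 𝓕, y ≠ 0 → {Q : Place L₀ 𝓕 | Q ∈ S ∧ Q.ord y ≠ 0}.Finite)
    (f : 𝓕) (hf0 : f ≠ 0) (m : ℕ) (hm0 : m ≠ 0)
    (hdiv : ∀ Q ∈ S, s34f_through (s34x_infRing O) S 𝔫 Q → (m : ℤ) ∣ Q.ord f)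
    (hf1 : ∀ i, s36q_compThrough O S 𝔫 i → ∃ a : Localization.AtPrime 𝔫, IsUnit a ∧
      f - s34f_iota (s34x_infRing O) S 𝔫 a ∈ (O i).nonunits)
    (hLE : ∀ Q ∈ S, s34f_through (s34x_infRing O) S 𝔫 Q → Q.ord f ≠ 0 →
      s34f_LocEq (s34x_infRing O) S 𝔫 Q)
    (hℓ : ∀ i, s36q_compThrough O S 𝔫 i → ∃ ℓ : 𝓕, ℓ ≠ 0 ∧
      (∀ U : 𝓕, U ≠ 0 → ∃ (n : ℤ) (v : 𝓕), v ∈ O i ∧ v⁻¹ ∈ O i ∧ U = ℓ ^ n * v) ∧
      (∀ j, j ≠ i → s36q_compThrough O S 𝔫 j → ℓ ∈ O j ∧ ℓ⁻¹ ∈ O j) ∧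
      (∀ Q ∈ S, s34f_through (s34x_infRing O) S 𝔫 Q → Q.ord ℓ = 0))
    (hN : ∀ i, s36q_compThrough O S 𝔫 i → ∀ y ∈ O i, ∀ a : Localization.AtPrime 𝔫, IsUnit a →
      y ^ m - s34f_iota (s34x_infRing O) S 𝔫 a ∈ (O i).nonunits →
      ∃ s : Localization.AtPrime 𝔫, y - s34f_iota (s34x_infRing O) S 𝔫 s ∈ (O i).nonunits) :
    ∃ Γ : 𝓕, Γ ≠ 0 ∧
      (∀ Q ∈ S, s34f_through (s34x_infRing O) S 𝔫 Q → Q.ord Γ = s18_E f m Q) ∧
      (∀ i, s36q_compThrough O S 𝔫 i → Γ ∈ O i ∧ Γ⁻¹ ∈ O i) ∧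
      ∃ u : Localization.AtPrime 𝔫, IsUnit u ∧
        f = s34f_iota (s34x_infRing O) S 𝔫 u * Γ ^ m ∧
        ∃ s : ι → Localization.AtPrime 𝔫, ∀ i, s36q_compThrough O S 𝔫 i →
          IsUnit (s i) ∧ Γ - s34f_iota (s34x_infRing O) S 𝔫 (s i) ∈ (O i).nonunits := by
  classical
  set ιR := s34f_iota (s34x_infRing O) S 𝔫 with hιR
  have hmZ : (m : ℤ) ≠ 0 := by exact_mod_cast hm0
  -- the generator of `div f / m` from the local equations
  obtain ⟨Φ, hΦ0, hΦ⟩ := s36g_exists_gen_div (s34x_infRing O) S 𝔫 f m (F3 f hf0) hLE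
  -- corrected to a unit at the components through `𝔫`
  obtain ⟨Γ, hΓ0, hΓQ, hΓT⟩ := s36y_exists_unit_comps O S 𝔫 (s36q_compThrough O S 𝔫) hℓ Φ hΦ0
    (Finset.univ.filter fun i => s36q_compThrough O S 𝔫 i) (fun i hi => (Finset.mem_filter.mp hi).2)
  have hΓv : ∀ i, s36q_compThrough O S 𝔫 i → (O i).valuation Γ = 1 := fun i hi =>
    hΓT i (Finset.mem_filter.mpr ⟨Finset.mem_univ _, hi⟩)
  have hΓord : ∀ Q ∈ S, s34f_through (s34x_infRing O) S 𝔫 Q → Q.ord Γ = s18_E f m Q :=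
    fun Q hQS hth => (hΓQ Q hQS hth).trans (hΦ Q hQS hth)
  have hΓm0 : Γ ^ m ≠ 0 := pow_ne_zero _ hΓ0
  -- the unit `u₀ = f / Γ ^ m`
  set u₀ : 𝓕 := f * (Γ ^ m)⁻¹ with hu₀
  have hu₀0 : u₀ ≠ 0 := mul_ne_zero hf0 (inv_ne_zero hΓm0)
  have hfv : ∀ i, s36q_compThrough O S 𝔫 i → (O i).valuation f = 1 := by
    intro i hi
    obtain ⟨a, ha, hfa⟩ := hf1 i hi
    exact s36y_val_eq_one_of_cong O S 𝔫 i hi f a ha hfa
  have hu₀v : ∀ i, s36q_compThrough O S 𝔫 i → (O i).valuation u₀ = 1 := by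
    intro i hi
    rw [hu₀, map_mul, map_inv₀, map_pow, hfv i hi, hΓv i hi, one_pow, inv_one, mul_one]
  have hu₀Q : ∀ Q ∈ S, s34f_through (s34x_infRing O) S 𝔫 Q → Q.ord u₀ = 0 := by
    intro Q hQS hth
    rw [hu₀, Q.ord_mul hf0 (inv_ne_zero hΓm0), Q.ord_inv, s18i_ord_pow, hΓord Q hQS hth]
    have : (m : ℤ) * s18_E f m Q = Q.ord f := Int.mul_ediv_cancel' (hdiv Q hQS hth)
    rw [this]; ring
  obtain ⟨u, huu, hu⟩ := s36q_exists_unit_iota_eq O S 𝔫 hA u₀ hu₀0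
    (fun i hi => s36y_mem_of_val_eq_one _ (hu₀v i hi)) hu₀Q (F3 u₀ hu₀0)
  have hfu : f = ιR u * Γ ^ m := by
    rw [hu, hu₀]; field_simp
  -- the inverse of `u`
  obtain ⟨w, hw⟩ := huu.exists_right_inv
  have hwu : IsUnit w := IsUnit.of_mul_eq_one u (by rw [mul_comm]; exact hw)
  have hιuw : ιR u * ιR w = 1 := by rw [← map_mul, hw, map_one]
  have hΓm : Γ ^ m = f * ιR w := by
    rw [hfu]
    calc Γ ^ m = (ιR u * ιR w) * Γ ^ m := by rw [hιuw, one_mul]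
      _ = ιR u * Γ ^ m * ιR w := by ring
  -- the lifts
  have hlift : ∀ i, ∃ s : Localization.AtPrime 𝔫, s36q_compThrough O S 𝔫 i →
      IsUnit s ∧ Γ - ιR s ∈ (O i).nonunits := by
    intro i
    by_cases hi : s36q_compThrough O S 𝔫 i
    · obtain ⟨a, ha, hfa⟩ := hf1 i hi
      have hΓO : Γ ∈ O i := (s36y_mem_of_val_eq_one _ (hΓv i hi)).1
      have hwa : IsUnit (w * a) := hwu.mul ha
      have h2 : Γ ^ m - ιR (w * a) ∈ (O i).nonunits := by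
        have : Γ ^ m - ιR (w * a) = (f - ιR a) * ιR w := by rw [hΓm, map_mul]; ring
        rw [this]
        exact s36y_mul_mem_nonunits' _ hfa (s36q_iota_mem_comp O S 𝔫 i hi w)
      obtain ⟨s, hs⟩ := hN i hi Γ hΓO (w * a) hwa h2
      refine ⟨s, fun _ => ⟨?_, hs⟩⟩
      -- `s ^ m ≡ w a` modulo the maximal ideal
      have h1 : Γ ^ m - ιR s ^ m ∈ (O i).nonunits :=
        s36y_pow_sub_pow_mem _ hΓO (s36q_iota_mem_comp O S 𝔫 i hi s) hs m
      have h3 : ιR (s ^ m - w * a) ∈ (O i).nonunits := by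
        rw [map_sub, map_pow]
        have : ιR s ^ m - ιR (w * a) = (Γ ^ m - ιR (w * a)) - (Γ ^ m - ιR s ^ m) := by ring
        rw [this]
        exact (O i).nonunits.sub_mem h2 h1
      have h4 : s ^ m - w * a ∈ maximalIdeal (Localization.AtPrime 𝔫) :=
        s36y_mem_maximalIdeal_of_nonunit O S 𝔫 i hi _ h3
      have h5 : IsUnit (s ^ m) := by
        have := s36y_isUnit_add hwa h4
        rwa [add_sub_cancel] at this
      exact (isUnit_pow_iff hm0).mp h5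
    · exact ⟨1, fun h => absurd h hi⟩
  choose s hs using hlift
  exact ⟨Γ, hΓ0, hΓord, fun i hi => s36y_mem_of_val_eq_one _ (hΓv i hi), u, huu, hfu, s, hs⟩

end Fermat.Agent.Lib.S36
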