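/-
S36 project, layer (T) (helper8, prefix `s36t_`), part 6: THE `hmatch` INPUT OF helper3's
`s36y_nodeGenRad_of_lifts` AT A TRIPLE POINT, in the two-level chart frame with BOTH embeddings
`γα, γβ : 𝓕₁ → 𝓕₂` (`= α', β'`).

Level `q`: `O₁ : ι₁ → ValuationSubring 𝓕₁` with the two components `iI` (`= V'_∞`), `i0` (`= V'_0`);
level `q²`: `O₂ : Fin 3 → ValuationSubring 𝓕₂` (`0 ↦ V_∞`, `1 ↦ V_mid`, `2 ↦ V_0`); along `γα`: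
`O₂ 0, O₂ 1 | O₁ iI`, `O₂ 2 | O₁ i0`; along `γβ`: `O₂ 2, O₂ 1 | O₁ i0`, `O₂ 0 | O₁ iI`.

`s36t_hmatch_chart`: let `f₁` have residues in `Rˣ` on the three branches, `m ∣ div f₁` near `𝔫`, the
local regularity package (`hLE`, `hℓ`, `hN`) at `𝔫`, `Nα f₁ = cα yα ^ m`, `Nβ f₁ = cβ yβ ^ m` with
`yα ≡ eA' (iI), eA (i0)` at the point `γα⁻¹𝔫` and `yβ ≡ eB (iI), eB' (i0)` at the point `γβ⁻¹𝔫`; let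
`ξ` have residues `θ 0, 1, θ 2` with `θ₀ eA' eB'^q ≡ eA eB^q`, `θ₂ eA'^q eB' ≡ eA^q eB` in `R`, and
`f = f₁ ^ (q² - 1) / (c ξ ^ m)`.  Then MATCH holds for every generator datum of `f` at `𝔫`.
-/
import Fermat.Agent.Lib.S36.TTriple
import Fermat.Agent.Lib.S36.XLocLift2

set_option autoImplicit false
set_option linter.unusedSectionVars false
set_option linter.style.haveILetI false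

noncomputable section

namespace Fermat.Agent.Lib.S36

open AlgebraicCurve Fermat.Agent.Lib.FF Fermat.Agent.Lib.S18 Fermat.Agent.Lib.S34 IsLocalRing

variable {L₀ 𝓕₁ 𝓕₂ : Type*} [Field L₀] [Field 𝓕₁] [Field 𝓕₂] [Algebra L₀ 𝓕₁] [Algebra L₀ 𝓕₂]
variable {ι₁ : Type*} [Fintype ι₁] (O₁ : ι₁ → ValuationSubring 𝓕₁)
  (O₂ : Fin 3 → ValuationSubring 𝓕₂)
  (S₁ : Set (Place L₀ 𝓕₁)) (S₂ : Set (Place L₀ 𝓕₂)) (γα γβ : 𝓕₁ →+* 𝓕₂)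
  (hγα : ∀ b ∈ s34x_ring (s34x_infRing O₁) S₁, γα b ∈ s34x_ring (s34x_infRing O₂) S₂)
  (hγβ : ∀ b ∈ s34x_ring (s34x_infRing O₁) S₁, γβ b ∈ s34x_ring (s34x_infRing O₂) S₂)
  (𝔫 : Ideal (s34x_ring (s34x_infRing O₂) S₂)) [h𝔫 : 𝔫.IsPrime]

local notation "R₂" => Localization.AtPrime 𝔫
local notation "ι₂" => s34f_iota (s34x_infRing O₂) S₂ 𝔫
local notation "𝔫α" => s36q_pt O₁ O₂ S₁ S₂ γα hγα 𝔫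
local notation "𝔫β" => s36q_pt O₁ O₂ S₁ S₂ γβ hγβ 𝔫
local notation "Rα" => Localization.AtPrime (s36q_pt O₁ O₂ S₁ S₂ γα hγα 𝔫)
local notation "Rβ" => Localization.AtPrime (s36q_pt O₁ O₂ S₁ S₂ γβ hγβ 𝔫)
local notation "ια" => s34f_iota (s34x_infRing O₁) S₁ (s36q_pt O₁ O₂ S₁ S₂ γα hγα 𝔫)
local notation "ιβ" => s34f_iota (s34x_infRing O₁) S₁ (s36q_pt O₁ O₂ S₁ S₂ γβ hγβ 𝔫)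
local notation "aα" => s36q_locMap O₁ O₂ S₁ S₂ γα hγα 𝔫
local notation "aβ" => s36q_locMap O₁ O₂ S₁ S₂ γβ hγβ 𝔫

/-- **MATCH at a triple point from the global root data.** -/
theorem s36t_hmatch_chart (iI i0 : ι₁) (Nα Nβ : 𝓕₂ → 𝓕₁) (p m : ℕ) (hm0 : m ≠ 0)
    (hNαmul : ∀ x y, Nα (x * y) = Nα x * Nα y) (hNαpow : ∀ x (n : ℕ), Nα (x ^ n) = Nα x ^ n)
    (hNβmul : ∀ x y, Nβ (x * y) = Nβ x * Nβ y) (hNβpow : ∀ x (n : ℕ), Nβ (x ^ n) = Nβ x ^ n)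
    (hNAα : ∀ (u : 𝓕₂) (c₀ c₁ : 𝓕₁), u ∈ O₂ 0 → u ∈ O₂ 1 → c₀ ∈ O₁ iI → c₁ ∈ O₁ iI →
      u - γα c₀ ∈ (O₂ 0).nonunits → u - γα c₁ ∈ (O₂ 1).nonunits →
      Nα u - c₀ * c₁ ^ p ∈ (O₁ iI).nonunits)
    (hNBα : ∀ (u : 𝓕₂) (c : 𝓕₁), u ∈ O₂ 2 → c ∈ O₁ i0 → u ^ (p + 1) - γα c ∈ (O₂ 2).nonunits →
      Nα u - c ∈ (O₁ i0).nonunits)
    (hNAβ : ∀ (u : 𝓕₂) (c₂ c₁ : 𝓕₁), u ∈ O₂ 2 → u ∈ O₂ 1 → c₂ ∈ O₁ i0 → c₁ ∈ O₁ i0 →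
      u - γβ c₂ ∈ (O₂ 2).nonunits → u - γβ c₁ ∈ (O₂ 1).nonunits →
      Nβ u - c₂ * c₁ ^ p ∈ (O₁ i0).nonunits)
    (hNBβ : ∀ (u : 𝓕₂) (c : 𝓕₁), u ∈ O₂ 0 → c ∈ O₁ iI → u ^ (p + 1) - γβ c ∈ (O₂ 0).nonunits →
      Nβ u - c ∈ (O₁ iI).nonunits)
    -- level `q`
    (hA₁ : s36q_Arch O₁)
    (F3₁ : ∀ y : 𝓕₁, y ≠ 0 → {Q : Place L₀ 𝓕₁ | Q ∈ S₁ ∧ Q.ord y ≠ 0}.Finite)
    (hαI : s36q_compThrough O₁ S₁ 𝔫α iI) (hα0 : s36q_compThrough O₁ S₁ 𝔫α i0)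
    (hαonly : ∀ i, s36q_compThrough O₁ S₁ 𝔫α i → i = iI ∨ i = i0)
    (hβI : s36q_compThrough O₁ S₁ 𝔫β iI) (hβ0 : s36q_compThrough O₁ S₁ 𝔫β i0)
    (hβonly : ∀ i, s36q_compThrough O₁ S₁ 𝔫β i → i = iI ∨ i = i0)
    -- level `q²`
    (hA₂ : s36q_Arch O₂)
    (F3₂ : ∀ y : 𝓕₂, y ≠ 0 → {Q : Place L₀ 𝓕₂ | Q ∈ S₂ ∧ Q.ord y ≠ 0}.Finite)
    (hthru : ∀ j, s36q_compThrough O₂ S₂ 𝔫 j)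
    -- [S1], [S2], [S4] along `γα`
    (hS1α0 : ∀ s : R₂, ∃ c : Rα, ι₂ (aα c - s) ∈ (O₂ 0).nonunits)
    (hS1α1 : ∀ s : R₂, ∃ c : Rα, ι₂ (aα c - s) ∈ (O₂ 1).nonunits)
    (hS2α : ∀ s : R₂, ∃ c : Rα, ι₂ (aα c - s ^ (p + 1)) ∈ (O₂ 2).nonunits)
    (hS4α : ∀ u : R₂, IsUnit u → ∀ Q ∈ S₁, s34f_through (s34x_infRing O₁) S₁ 𝔫α Q →
      Q.ord (Nα (ι₂ u)) = 0)
    -- [S1], [S2], [S4] along `γβ`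
    (hS1β2 : ∀ s : R₂, ∃ c : Rβ, ι₂ (aβ c - s) ∈ (O₂ 2).nonunits)
    (hS1β1 : ∀ s : R₂, ∃ c : Rβ, ι₂ (aβ c - s) ∈ (O₂ 1).nonunits)
    (hS2β : ∀ s : R₂, ∃ c : Rβ, ι₂ (aβ c - s ^ (p + 1)) ∈ (O₂ 0).nonunits)
    (hS4β : ∀ u : R₂, IsUnit u → ∀ Q ∈ S₁, s34f_through (s34x_infRing O₁) S₁ 𝔫β Q →
      Q.ord (Nβ (ι₂ u)) = 0)
    -- the local regularity package at `𝔫`
    (hLE : ∀ Q ∈ S₂, s34f_through (s34x_infRing O₂) S₂ 𝔫 Q → s34f_LocEq (s34x_infRing O₂) S₂ 𝔫 Q)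
    (hℓ : ∀ i, s36q_compThrough O₂ S₂ 𝔫 i → ∃ ℓ : 𝓕₂, ℓ ≠ 0 ∧
      (∀ U : 𝓕₂, U ≠ 0 → ∃ (n : ℤ) (v : 𝓕₂), v ∈ O₂ i ∧ v⁻¹ ∈ O₂ i ∧ U = ℓ ^ n * v) ∧
      (∀ j, j ≠ i → s36q_compThrough O₂ S₂ 𝔫 j → ℓ ∈ O₂ j ∧ ℓ⁻¹ ∈ O₂ j) ∧
      (∀ Q ∈ S₂, s34f_through (s34x_infRing O₂) S₂ 𝔫 Q → Q.ord ℓ = 0))
    (hN : ∀ i, s36q_compThrough O₂ S₂ 𝔫 i → ∀ y ∈ O₂ i, ∀ a : R₂, IsUnit a →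
      y ^ m - ι₂ a ∈ (O₂ i).nonunits → ∃ s : R₂, y - ι₂ s ∈ (O₂ i).nonunits)
    -- the function `f₁`
    (f₁ : 𝓕₂) (hf₁0 : f₁ ≠ 0)
    (hdiv₁ : ∀ Q ∈ S₂, s34f_through (s34x_infRing O₂) S₂ 𝔫 Q → (m : ℤ) ∣ Q.ord f₁)
    (cR : Fin 3 → R₂) (hcR : ∀ j, IsUnit (cR j))
    (hf₁c : ∀ j, f₁ - ι₂ (cR j) ∈ (O₂ j).nonunits)
    -- its norms
    (yα yβ : 𝓕₁) (hyα0 : yα ≠ 0) (hyβ0 : yβ ≠ 0) (cα cβ : L₀) (hcα0 : cα ≠ 0) (hcβ0 : cβ ≠ 0)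
    (hNfα : Nα f₁ = algebraMap L₀ 𝓕₁ cα * yα ^ m) (hNfβ : Nβ f₁ = algebraMap L₀ 𝓕₁ cβ * yβ ^ m)
    (eA' eA : Rα) (heA' : IsUnit eA') (heA : IsUnit eA)
    (hyαI : yα - ια eA' ∈ (O₁ iI).nonunits) (hyα0' : yα - ια eA ∈ (O₁ i0).nonunits)
    (eB eB' : Rβ) (heB : IsUnit eB) (heB' : IsUnit eB')
    (hyβI : yβ - ιβ eB ∈ (O₁ iI).nonunits) (hyβ0' : yβ - ιβ eB' ∈ (O₁ i0).nonunits)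
    -- the correction `ξ`
    (θ : Fin 3 → R₂) (hθu : ∀ j, IsUnit (θ j)) (hθ1 : θ 1 = 1)
    (hθ₀ : θ 0 * (aα eA' * aβ eB' ^ (p + 1)) - aα eA * aβ eB ^ (p + 1) ∈ maximalIdeal R₂)
    (hθ₂ : θ 2 * (aα eA' ^ (p + 1) * aβ eB') - aα eA ^ (p + 1) * aβ eB ∈ maximalIdeal R₂)
    (ξ : 𝓕₂) (hξ : ∀ j, ξ - ι₂ (θ j) ∈ (O₂ j).nonunits)
    (c : L₀) (hc0 : c ≠ 0) (f : 𝓕₂)
    (hf : f = f₁ ^ (p * (p + 2)) / (algebraMap L₀ 𝓕₂ c * ξ ^ m)) :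
    ∀ (Γ : 𝓕₂) (u : R₂) (s : Fin 3 → R₂), Γ ≠ 0 →
      (∀ Q ∈ S₂, s34f_through (s34x_infRing O₂) S₂ 𝔫 Q → Q.ord Γ = s18_E f m Q) →
      (∀ i, s36q_compThrough O₂ S₂ 𝔫 i → Γ ∈ O₂ i ∧ Γ⁻¹ ∈ O₂ i) → IsUnit u →
      f = ι₂ u * Γ ^ m →
      (∀ i, s36q_compThrough O₂ S₂ 𝔫 i → IsUnit (s i) ∧ Γ - ι₂ (s i) ∈ (O₂ i).nonunits) →
      ∀ i j, s36q_compThrough O₂ S₂ 𝔫 i → s36q_compThrough O₂ S₂ 𝔫 j →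
        s i - s j ∈ maximalIdeal R₂ := by
  intro Γ u s hΓ0 _ hΓu hu hfu hs i j _ _
  -- the generator datum of `f₁`
  obtain ⟨Γ₁, hΓ₁0, -, hΓ₁u, u₁, hu₁, hf₁, s1, hs1⟩ :=
    s36y_exists_gen_lifts' O₂ S₂ 𝔫 hA₂ F3₂ f₁ hf₁0 m hm0 hdiv₁
      (fun j _ => ⟨cR j, hcR j, hf₁c j⟩) (fun Q hQS hth _ => hLE Q hQS hth) hℓ hN
  -- the two norm relations
  have hrelα := s36t_rel_chart O₁ O₂ S₁ S₂ γα hγα 𝔫 iI i0 0 1 2 Nα (p + 1) m hm0 hNαmul hNαpow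
    (by simpa using hNAα) hNBα hA₁ F3₁ hαI hα0 hαonly (hthru 0) (hthru 1) (hthru 2)
    hS1α0 hS1α1 hS2α hS4α f₁ Γ₁ u₁ hu₁ hf₁ s1 (hs1 0 (hthru 0)).2 (hs1 1 (hthru 1)).2
    (hs1 2 (hthru 2)).2 yα hyα0 cα hcα0 hNfα eA' eA heA' heA hyαI hyα0'
  have hrelβ := s36t_rel_chart O₁ O₂ S₁ S₂ γβ hγβ 𝔫 i0 iI 2 1 0 Nβ (p + 1) m hm0 hNβmul hNβpow
    (by simpa using hNAβ) hNBβ hA₁ F3₁ hβ0 hβI (fun i hi => (hβonly i hi).symm)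
    (hthru 2) (hthru 1) (hthru 0)
    hS1β2 hS1β1 hS2β hS4β f₁ Γ₁ u₁ hu₁ hf₁ s1 (hs1 2 (hthru 2)).2 (hs1 1 (hthru 1)).2
    (hs1 0 (hthru 0)).2 yβ hyβ0 cβ hcβ0 hNfβ eB' eB heB' heB hyβ0' hyβI
  exact s36t_match_chart O₂ S₂ 𝔫 hA₂ F3₂ hthru p m hm0 f₁ Γ₁ hΓ₁0 u₁ hu₁ hf₁
    (fun j => hΓ₁u j (hthru j)) s1 (fun j => (hs1 j (hthru j)).1) (fun j => (hs1 j (hthru j)).2)
    (aα eA) (aα eA') (aβ eB) (aβ eB') (heA'.map _) (heB'.map _)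
    (by simpa using hrelα) (by simpa using hrelβ) θ hθu hθ1 hθ₀ hθ₂ ξ hξ c hc0 f hf
    Γ hΓ0 u hu hfu (fun j => hΓu j (hthru j)) s (fun j => (hs j (hthru j)).2) i j

end Fermat.Agent.Lib.S36
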