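/-
S36 project, layer (T) (helper8, prefix `s36t_`), part 7: `s36t_hmatch_chart` WITH CONSTANT RESIDUES.

In the application all residues (`c j` of `f₁`, `eA', eA` of `yα`, `eB, eB'` of `yβ`, `θ₀, 1, θ₂` of
`ξ`) are CONSTANTS, units of a valuation ring `A₀` of the constant field `L₀` contained in all the
components.  `s36t_cst` produces the corresponding elements of the local rings, and
`s36t_hmatch_consts` is `s36t_hmatch_chart` in that situation (`γα, γβ` are `L₀`-algebra maps, the two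
toric identities `θ₀ eA' eB'^q = eA eB^q`, `θ₂ eA'^q eB' = eA^q eB` hold in `L₀`).
-/
import Fermat.Agent.Lib.S36.TWire

set_option autoImplicit false
set_option linter.unusedSectionVars false
set_option linter.style.haveILetI false

noncomputable section

namespace Fermat.Agent.Lib.S36

open AlgebraicCurve Fermat.Agent.Lib.FF Fermat.Agent.Lib.S18 Fermat.Agent.Lib.S34 IsLocalRing

section Const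

variable {L₀ 𝓕 : Type*} [Field L₀] [Field 𝓕] [Algebra L₀ 𝓕]
variable {ι : Type*} (O : ι → ValuationSubring 𝓕) (S : Set (Place L₀ 𝓕))
  (𝔫 : Ideal (s34x_ring (s34x_infRing O) S)) [h𝔫 : 𝔫.IsPrime]

/-- a constant lying in all components is (the image of) an element of the local ring. -/
theorem s36t_cst (a : L₀) (ha : ∀ i, algebraMap L₀ 𝓕 a ∈ O i) :
    ∃ r : Localization.AtPrime 𝔫, s34f_iota (s34x_infRing O) S 𝔫 r = algebraMap L₀ 𝓕 a :=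
  ⟨algebraMap _ _ (s34x_const (s34x_infRing O) S a ((s34x_mem_infRing O _).mpr ha)), by
    rw [s34f_iota_algebraMap, s34x_const_coe]⟩

/-- a constant which is a unit of all components is (the image of) a unit of the local ring. -/
theorem s36t_cst_unit (a : L₀) (ha0 : a ≠ 0) (ha : ∀ i, algebraMap L₀ 𝓕 a ∈ O i)
    (ha' : ∀ i, algebraMap L₀ 𝓕 a⁻¹ ∈ O i) :
    ∃ r : Localization.AtPrime 𝔫, IsUnit r ∧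
      s34f_iota (s34x_infRing O) S 𝔫 r = algebraMap L₀ 𝓕 a := by
  obtain ⟨r, hr⟩ := s36t_cst O S 𝔫 a ha
  obtain ⟨r', hr'⟩ := s36t_cst O S 𝔫 a⁻¹ ha'
  refine ⟨r, ?_, hr⟩
  refine IsUnit.of_mul_eq_one r' ?_
  apply s34f_iota_injective (s34x_infRing O) S 𝔫
  rw [map_mul, map_one, hr, hr', ← map_mul, mul_inv_cancel₀ ha0, map_one]

end Const

section Main

variable {L₀ 𝓕₁ 𝓕₂ : Type*} [Field L₀] [Field 𝓕₁] [Field 𝓕₂] [Algebra L₀ 𝓕₁] [Algebra L₀ 𝓕₂]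
variable {ι₁ : Type*} [Fintype ι₁] (O₁ : ι₁ → ValuationSubring 𝓕₁)
  (O₂ : Fin 3 → ValuationSubring 𝓕₂)
  (S₁ : Set (Place L₀ 𝓕₁)) (S₂ : Set (Place L₀ 𝓕₂)) (γα γβ : 𝓕₁ →+* 𝓕₂)
  (hγα : ∀ b ∈ s34x_ring (s34x_infRing O₁) S₁, γα b ∈ s34x_ring (s34x_infRing O₂) S₂)
  (hγβ : ∀ b ∈ s34x_ring (s34x_infRing O₁) S₁, γβ b ∈ s34x_ring (s34x_infRing O₂) S₂)
  (𝔫 : Ideal (s34x_ring (s34x_infRing O₂) S₂)) [h𝔫 : 𝔫.IsPrime]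

local notation "R₂" => Localization.AtPrime 𝔫
local notation "ι₂" => s34f_iota (s34x_infRing O₂) S₂ 𝔫
local notation "𝔫α" => s36q_pt O₁ O₂ S₁ S₂ γα hγα 𝔫
local notation "𝔫β" => s36q_pt O₁ O₂ S₁ S₂ γβ hγβ 𝔫
local notation "Rα" => Localization.AtPrime (s36q_pt O₁ O₂ S₁ S₂ γα hγα 𝔫)
local notation "Rβ" => Localization.AtPrime (s36q_pt O₁ O₂ S₁ S₂ γβ hγβ 𝔫)
local notation "ια" => s34f_iota (s34x_infRing O₁) S₁ (s36q_pt O₁ O₂ S₁ S₂ γα hγα 𝔫)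
local notation "ιβ" => s34f_iota (s34x_infRing O₁) S₁ (s36q_pt O₁ O₂ S₁ S₂ γβ hγβ 𝔫)
local notation "aα" => s36q_locMap O₁ O₂ S₁ S₂ γα hγα 𝔫
local notation "aβ" => s36q_locMap O₁ O₂ S₁ S₂ γβ hγβ 𝔫
local notation "cst₁" => algebraMap L₀ 𝓕₁
local notation "cst₂" => algebraMap L₀ 𝓕₂

theorem s36t_val_one_iff {K : Type*} [Field K] (A : ValuationSubring K) {x : K} :
    A.valuation x = 1 ↔ x ∈ A ∧ x⁻¹ ∈ A ∧ x ≠ 0 := by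
  constructor
  · intro h
    have hx0 : x ≠ 0 := by
      rintro rfl
      rw [map_zero] at h
      exact zero_ne_one h
    refine ⟨(A.valuation_le_one_iff x).mp h.le, ?_, hx0⟩
    rw [← A.valuation_le_one_iff, map_inv₀, h, inv_one]
  · rintro ⟨h1, h2, h0⟩
    exact s36t_val_eq_one h1 h2 h0

/-- **MATCH at a triple point, constant residues.** -/
theorem s36t_hmatch_consts (iI i0 : ι₁) (Nα Nβ : 𝓕₂ → 𝓕₁) (p m : ℕ) (hm0 : m ≠ 0)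
    (hNαmul : ∀ x y, Nα (x * y) = Nα x * Nα y) (hNαpow : ∀ x (n : ℕ), Nα (x ^ n) = Nα x ^ n)
    (hNβmul : ∀ x y, Nβ (x * y) = Nβ x * Nβ y) (hNβpow : ∀ x (n : ℕ), Nβ (x ^ n) = Nβ x ^ n)
    (hNAα : ∀ (u : 𝓕₂) (c₀ c₁ : 𝓕₁), u ∈ O₂ 0 → u ∈ O₂ 1 → c₀ ∈ O₁ iI → c₁ ∈ O₁ iI →
      u - γα c₀ ∈ (O₂ 0).nonunits → u - γα c₁ ∈ (O₂ 1).nonunits →
      Nα u - c₀ * c₁ ^ p ∈ (O₁ iI).nonunits)
    (hNBα : ∀ (u : 𝓕₂) (c : 𝓕₁), u ∈ O₂ 2 → c ∈ O₁ i0 → u ^ (p + 1) - γα c ∈ (O₂ 2).nonunits →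
      Nα u - c ∈ (O₁ i0).nonunits)
    (hNAβ : ∀ (u : 𝓕₂) (c₂ c₁ : 𝓕₁), u ∈ O₂ 2 → u ∈ O₂ 1 → c₂ ∈ O₁ i0 → c₁ ∈ O₁ i0 →
      u - γβ c₂ ∈ (O₂ 2).nonunits → u - γβ c₁ ∈ (O₂ 1).nonunits →
      Nβ u - c₂ * c₁ ^ p ∈ (O₁ i0).nonunits)
    (hNBβ : ∀ (u : 𝓕₂) (c : 𝓕₁), u ∈ O₂ 0 → c ∈ O₁ iI → u ^ (p + 1) - γβ c ∈ (O₂ 0).nonunits →
      Nβ u - c ∈ (O₁ iI).nonunits)
    -- constants
    (hγαc : ∀ a : L₀, γα (cst₁ a) = cst₂ a) (hγβc : ∀ a : L₀, γβ (cst₁ a) = cst₂ a)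
    (A₀ : ValuationSubring L₀) (hA₁ : ∀ i (a : L₀), a ∈ A₀ → cst₁ a ∈ O₁ i)
    (hA₂ : ∀ j (a : L₀), a ∈ A₀ → cst₂ a ∈ O₂ j)
    -- level `q`
    (hAr₁ : s36q_Arch O₁)
    (F3₁ : ∀ y : 𝓕₁, y ≠ 0 → {Q : Place L₀ 𝓕₁ | Q ∈ S₁ ∧ Q.ord y ≠ 0}.Finite)
    (hαI : s36q_compThrough O₁ S₁ 𝔫α iI) (hα0 : s36q_compThrough O₁ S₁ 𝔫α i0)
    (hαonly : ∀ i, s36q_compThrough O₁ S₁ 𝔫α i → i = iI ∨ i = i0)
    (hβI : s36q_compThrough O₁ S₁ 𝔫β iI) (hβ0 : s36q_compThrough O₁ S₁ 𝔫β i0)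
    (hβonly : ∀ i, s36q_compThrough O₁ S₁ 𝔫β i → i = iI ∨ i = i0)
    -- level `q²`
    (hAr₂ : s36q_Arch O₂)
    (F3₂ : ∀ y : 𝓕₂, y ≠ 0 → {Q : Place L₀ 𝓕₂ | Q ∈ S₂ ∧ Q.ord y ≠ 0}.Finite)
    (hthru : ∀ j, s36q_compThrough O₂ S₂ 𝔫 j)
    (hS1α0 : ∀ s : R₂, ∃ c : Rα, ι₂ (aα c - s) ∈ (O₂ 0).nonunits)
    (hS1α1 : ∀ s : R₂, ∃ c : Rα, ι₂ (aα c - s) ∈ (O₂ 1).nonunits)
    (hS2α : ∀ s : R₂, ∃ c : Rα, ι₂ (aα c - s ^ (p + 1)) ∈ (O₂ 2).nonunits)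
    (hS4α : ∀ u : R₂, IsUnit u → ∀ Q ∈ S₁, s34f_through (s34x_infRing O₁) S₁ 𝔫α Q →
      Q.ord (Nα (ι₂ u)) = 0)
    (hS1β2 : ∀ s : R₂, ∃ c : Rβ, ι₂ (aβ c - s) ∈ (O₂ 2).nonunits)
    (hS1β1 : ∀ s : R₂, ∃ c : Rβ, ι₂ (aβ c - s) ∈ (O₂ 1).nonunits)
    (hS2β : ∀ s : R₂, ∃ c : Rβ, ι₂ (aβ c - s ^ (p + 1)) ∈ (O₂ 0).nonunits)
    (hS4β : ∀ u : R₂, IsUnit u → ∀ Q ∈ S₁, s34f_through (s34x_infRing O₁) S₁ 𝔫β Q →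
      Q.ord (Nβ (ι₂ u)) = 0)
    -- the local regularity package at `𝔫`
    (hLE : ∀ Q ∈ S₂, s34f_through (s34x_infRing O₂) S₂ 𝔫 Q → s34f_LocEq (s34x_infRing O₂) S₂ 𝔫 Q)
    (hℓ : ∀ i, s36q_compThrough O₂ S₂ 𝔫 i → ∃ ℓ : 𝓕₂, ℓ ≠ 0 ∧
      (∀ U : 𝓕₂, U ≠ 0 → ∃ (n : ℤ) (v : 𝓕₂), v ∈ O₂ i ∧ v⁻¹ ∈ O₂ i ∧ U = ℓ ^ n * v) ∧
      (∀ j, j ≠ i → s36q_compThrough O₂ S₂ 𝔫 j → ℓ ∈ O₂ j ∧ ℓ⁻¹ ∈ O₂ j) ∧
      (∀ Q ∈ S₂, s34f_through (s34x_infRing O₂) S₂ 𝔫 Q → Q.ord ℓ = 0))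
    (hN : ∀ i, s36q_compThrough O₂ S₂ 𝔫 i → ∀ y ∈ O₂ i, ∀ a : R₂, IsUnit a →
      y ^ m - ι₂ a ∈ (O₂ i).nonunits → ∃ s : R₂, y - ι₂ s ∈ (O₂ i).nonunits)
    -- the global root data
    (f₁ : 𝓕₂) (hf₁0 : f₁ ≠ 0)
    (hdiv₁ : ∀ Q ∈ S₂, s34f_through (s34x_infRing O₂) S₂ 𝔫 Q → (m : ℤ) ∣ Q.ord f₁)
    (c : Fin 3 → L₀) (hc : ∀ j, A₀.valuation (c j) = 1)
    (hf₁c : ∀ j, f₁ - cst₂ (c j) ∈ (O₂ j).nonunits)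
    (yα yβ : 𝓕₁) (hyα0 : yα ≠ 0) (hyβ0 : yβ ≠ 0) (cα cβ : L₀) (hcα0 : cα ≠ 0) (hcβ0 : cβ ≠ 0)
    (hNfα : Nα f₁ = cst₁ cα * yα ^ m) (hNfβ : Nβ f₁ = cst₁ cβ * yβ ^ m)
    (eA eA' eB eB' θ₀ θ₂ : L₀) (heA : A₀.valuation eA = 1) (heA' : A₀.valuation eA' = 1)
    (heB : A₀.valuation eB = 1) (heB' : A₀.valuation eB' = 1) (hθ₀u : A₀.valuation θ₀ = 1)
    (hθ₂u : A₀.valuation θ₂ = 1)
    (hyαI : yα - cst₁ eA' ∈ (O₁ iI).nonunits) (hyα0' : yα - cst₁ eA ∈ (O₁ i0).nonunits)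
    (hyβI : yβ - cst₁ eB ∈ (O₁ iI).nonunits) (hyβ0' : yβ - cst₁ eB' ∈ (O₁ i0).nonunits)
    (hθ₀ : θ₀ * (eA' * eB' ^ (p + 1)) = eA * eB ^ (p + 1))
    (hθ₂ : θ₂ * (eA' ^ (p + 1) * eB') = eA ^ (p + 1) * eB)
    (ξ : 𝓕₂) (hξ0 : ξ - cst₂ θ₀ ∈ (O₂ 0).nonunits) (hξ1 : ξ - 1 ∈ (O₂ 1).nonunits)
    (hξ2 : ξ - cst₂ θ₂ ∈ (O₂ 2).nonunits)
    (cc : L₀) (hcc0 : cc ≠ 0) (f : 𝓕₂)
    (hf : f = f₁ ^ (p * (p + 2)) / (cst₂ cc * ξ ^ m)) :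
    ∀ (Γ : 𝓕₂) (u : R₂) (s : Fin 3 → R₂), Γ ≠ 0 →
      (∀ Q ∈ S₂, s34f_through (s34x_infRing O₂) S₂ 𝔫 Q → Q.ord Γ = s18_E f m Q) →
      (∀ i, s36q_compThrough O₂ S₂ 𝔫 i → Γ ∈ O₂ i ∧ Γ⁻¹ ∈ O₂ i) → IsUnit u →
      f = ι₂ u * Γ ^ m →
      (∀ i, s36q_compThrough O₂ S₂ 𝔫 i → IsUnit (s i) ∧ Γ - ι₂ (s i) ∈ (O₂ i).nonunits) →
      ∀ i j, s36q_compThrough O₂ S₂ 𝔫 i → s36q_compThrough O₂ S₂ 𝔫 j →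
        s i - s j ∈ maximalIdeal R₂ := by
  -- constants as units of the local rings
  have hu₂ : ∀ a : L₀, A₀.valuation a = 1 → ∃ r : R₂, IsUnit r ∧ ι₂ r = cst₂ a := by
    intro a ha
    obtain ⟨h1, h2, h0⟩ := (s36t_val_one_iff A₀).mp ha
    exact s36t_cst_unit O₂ S₂ 𝔫 a h0 (fun j => hA₂ j a h1) (fun j => hA₂ j _ h2)
  have huα : ∀ a : L₀, A₀.valuation a = 1 → ∃ r : Rα, IsUnit r ∧ ια r = cst₁ a := by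
    intro a ha
    obtain ⟨h1, h2, h0⟩ := (s36t_val_one_iff A₀).mp ha
    exact s36t_cst_unit O₁ S₁ 𝔫α a h0 (fun j => hA₁ j a h1) (fun j => hA₁ j _ h2)
  have huβ : ∀ a : L₀, A₀.valuation a = 1 → ∃ r : Rβ, IsUnit r ∧ ιβ r = cst₁ a := by
    intro a ha
    obtain ⟨h1, h2, h0⟩ := (s36t_val_one_iff A₀).mp ha
    exact s36t_cst_unit O₁ S₁ 𝔫β a h0 (fun j => hA₁ j a h1) (fun j => hA₁ j _ h2)
  choose cR hcRu hcR using fun j => hu₂ (c j) (hc j)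
  obtain ⟨eAR, heARu, heAR⟩ := huα eA heA
  obtain ⟨eA'R, heA'Ru, heA'R⟩ := huα eA' heA'
  obtain ⟨eBR, heBRu, heBR⟩ := huβ eB heB
  obtain ⟨eB'R, heB'Ru, heB'R⟩ := huβ eB' heB'
  obtain ⟨θ0R, hθ0Ru, hθ0R⟩ := hu₂ θ₀ hθ₀u
  obtain ⟨θ2R, hθ2Ru, hθ2R⟩ := hu₂ θ₂ hθ₂u
  -- images of the constants under the local maps
  have haα : ∀ (r : Rα) (a : L₀), ια r = cst₁ a → ι₂ (aα r) = cst₂ a := by
    intro r a hr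
    rw [s36q_iota_locMap, hr, hγαc]
  have haβ : ∀ (r : Rβ) (a : L₀), ιβ r = cst₁ a → ι₂ (aβ r) = cst₂ a := by
    intro r a hr
    rw [s36q_iota_locMap, hr, hγβc]
  have hzero : ∀ z : R₂, ι₂ z = 0 → z ∈ maximalIdeal R₂ := by
    intro z hz
    have : z = 0 := s34f_iota_injective (s34x_infRing O₂) S₂ 𝔫 (by rw [hz, map_zero])
    rw [this]
    exact (maximalIdeal R₂).zero_mem
  refine s36t_hmatch_chart O₁ O₂ S₁ S₂ γα γβ hγα hγβ 𝔫 iI i0 Nα Nβ p m hm0 hNαmul hNαpow hNβmul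
    hNβpow hNAα hNBα hNAβ hNBβ hAr₁ F3₁ hαI hα0 hαonly hβI hβ0 hβonly hAr₂ F3₂ hthru
    hS1α0 hS1α1 hS2α hS4α hS1β2 hS1β1 hS2β hS4β hLE hℓ hN f₁ hf₁0 hdiv₁ cR hcRu
    (fun j => by rw [hcR j]; exact hf₁c j)
    yα yβ hyα0 hyβ0 cα cβ hcα0 hcβ0 hNfα hNfβ eA'R eAR heA'Ru heARu
    (by rw [heA'R]; exact hyαI) (by rw [heAR]; exact hyα0')
    eBR eB'R heBRu heB'Ru (by rw [heBR]; exact hyβI) (by rw [heB'R]; exact hyβ0')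
    ![θ0R, 1, θ2R] (fun j => by fin_cases j <;> simp [hθ0Ru, hθ2Ru]) rfl ?_ ?_ ξ ?_ cc hcc0 f hf
  · apply hzero
    simp only [map_sub, map_mul, map_pow, Matrix.cons_val_zero]
    rw [hθ0R, haα eA'R eA' heA'R, haβ eB'R eB' heB'R, haα eAR eA heAR, haβ eBR eB heBR,
      ← map_pow, ← map_pow, ← map_mul, ← map_mul, ← map_mul, hθ₀, sub_self]
  · apply hzero
    simp only [map_sub, map_mul, map_pow]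
    have h2 : (![θ0R, 1, θ2R] : Fin 3 → R₂) 2 = θ2R := rfl
    rw [h2, hθ2R, haα eA'R eA' heA'R, haβ eB'R eB' heB'R, haα eAR eA heAR, haβ eBR eB heBR,
      ← map_pow, ← map_pow, ← map_mul, ← map_mul, ← map_mul, hθ₂, sub_self]
  · intro j
    fin_cases j
    · show ξ - ι₂ θ0R ∈ (O₂ 0).nonunits
      rw [hθ0R]; exact hξ0
    · show ξ - ι₂ 1 ∈ (O₂ 1).nonunits
      rw [map_one]; exact hξ1
    · show ξ - ι₂ θ2R ∈ (O₂ 2).nonunits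
      rw [hθ2R]; exact hξ2

end Main

end Fermat.Agent.Lib.S36
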