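/-
S36 project, GEOMETRY side (helper8, prefix `s36g_`): MATCH AT THE TRIPLE POINTS OF LEVEL `M q²` FROM
THE GLOBAL-ROOT DATA — the instantiation of `s36t_hmatch_consts` (`TInst.lean`) in the concrete frame

  `O₁ = s34m_VV G φ M q hq hqM` (`true ↦ V'_∞`, `false ↦ V'_0`),  `O₂ = V`,
  `S₁ = chart1 w₁`,  `S₂ = chart1 (α' w₁)`,  `γα = α'`, `γβ = β'`,  `Nα, Nβ` the norms along `α'`, `β'`,

with the four norm-residue formulas of `NormInst.lean` (lead) and the constants of `s36g_RootData`.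

* `s36g_TriplePkg` : the LOCAL-GEOMETRY hypotheses at a triple point `𝔫` ([S1], [S2], [S4] of helper5's
  `QSurj.lean` / `QNormAlong.lean` for `α'` and `β'`), f-independent;
* `s36g_match_of_rootData` : LocalReg + TriplePkg + RootData ⇒ `s36p_Match V (chart1 (α' w₁)) 𝔫 f m`
  (= the hypothesis `hMatch1` of helper9's `s36p_zero_of_cases`).
-/
import Fermat.Agent.Lib.S36.GCoreDefs
import Fermat.Agent.Lib.S36.TInst
import Fermat.Agent.Lib.S36.PCase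
import Fermat.Agent.Lib.S36.PClass
import Fermat.Agent.Lib.S36.NormPkg
import Fermat.Agent.Lib.S36.REisUnit

set_option autoImplicit false
set_option linter.unusedSectionVars false
set_option linter.style.haveILetI false
set_option synthInstance.maxHeartbeats 400000

noncomputable section

namespace Fermat.Agent.Lib.S36

open ModularCurve AlgebraicCurve HahnSeries Fermat.Agent.Lib.FF Fermat.Agent.Lib.S18
  Fermat.Agent.Lib.S37 Fermat.Agent.Lib.S34 Fermat.Agent.Lib.S35 IsLocalRing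

local notation "Kb" => AlgebraicClosure ℚ

variable {K₀ : Type} [Field K₀] [Algebra ℚ K₀] [CharZero K₀] {κ : Type} [Field κ]
  (G : s18g_GaussData K₀ κ) [IsDiscreteValuationRing G.A]
  (φ : K₀ →+* Kb) (M q : ℕ) [NeZero M] [NeZero q] (hq : q.Prime) (hqM : ¬ q ∣ M)
  {V : Fin 3 → ValuationSubring (s34m_F K₀ (M * q * q))}

/-- **The triple-point package** at a prime `𝔫` of chart 1 of `α' w₁` (level `M q²`): the
f-independent local geometry used by MATCH, for the two degeneracy maps `α'`, `β'`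
(`𝔫α = α'⁻¹𝔫`, `𝔫β = β'⁻¹𝔫` points of chart 1 of `w₁`, level `M q`):
[S1] `B_{𝔫α} → B_𝔫 → κ(C_i)` hits every residue on the two components étale over `V'_∞` (resp. `V'_0`),
[S2] on the purely inseparable component it hits every `q`-th power,
[S4] the norm of a unit at `𝔫` has no horizontal zero or pole through `𝔫α` (resp. `𝔫β`). -/
def s36g_TriplePkg (hC : s36g_ValComap G φ M q hq hqM V) (w₁ : s34m_F K₀ (M * q))
    (hB : s35g_BaseData G φ M q hq hqM w₁)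
    (hsat : ∀ Q : Place K₀ (s34m_F K₀ (M * q * q)),
      s36g_alpha M q w₁ ∈ Q.toValuationSubring ↔ s36g_beta M q w₁ ∈ Q.toValuationSubring)
    (𝔫 : Ideal (s34x_ring (L₀ := K₀) (s34x_infRing V) (s18_chart1 (s36g_alpha M q w₁))))
    [h𝔫 : 𝔫.IsPrime] : Prop :=
  -- `α'`
  (∀ s : Localization.AtPrime 𝔫, ∃ c : Localization.AtPrime
      (s36q_pt (s34m_VV G φ M q hq hqM) V (s18_chart1 (L₀ := K₀) w₁)
        (s18_chart1 (L₀ := K₀) (s36g_alpha M q w₁)) (s36g_alpha M q)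
        (s36p_chart1_alpha G φ M q hq hqM hC w₁ hB) 𝔫),
    s34f_iota (s34x_infRing V) (s18_chart1 (L₀ := K₀) (s36g_alpha M q w₁)) 𝔫
      (s36q_locMap (s34m_VV G φ M q hq hqM) V (s18_chart1 (L₀ := K₀) w₁)
        (s18_chart1 (L₀ := K₀) (s36g_alpha M q w₁)) (s36g_alpha M q)
        (s36p_chart1_alpha G φ M q hq hqM hC w₁ hB) 𝔫 c - s) ∈ (V 0).nonunits) ∧
  (∀ s : Localization.AtPrime 𝔫, ∃ c : Localization.AtPrime
      (s36q_pt (s34m_VV G φ M q hq hqM) V (s18_chart1 (L₀ := K₀) w₁)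
        (s18_chart1 (L₀ := K₀) (s36g_alpha M q w₁)) (s36g_alpha M q)
        (s36p_chart1_alpha G φ M q hq hqM hC w₁ hB) 𝔫),
    s34f_iota (s34x_infRing V) (s18_chart1 (L₀ := K₀) (s36g_alpha M q w₁)) 𝔫
      (s36q_locMap (s34m_VV G φ M q hq hqM) V (s18_chart1 (L₀ := K₀) w₁)
        (s18_chart1 (L₀ := K₀) (s36g_alpha M q w₁)) (s36g_alpha M q)
        (s36p_chart1_alpha G φ M q hq hqM hC w₁ hB) 𝔫 c - s) ∈ (V 1).nonunits) ∧
  (∀ s : Localization.AtPrime 𝔫, ∃ c : Localization.AtPrime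
      (s36q_pt (s34m_VV G φ M q hq hqM) V (s18_chart1 (L₀ := K₀) w₁)
        (s18_chart1 (L₀ := K₀) (s36g_alpha M q w₁)) (s36g_alpha M q)
        (s36p_chart1_alpha G φ M q hq hqM hC w₁ hB) 𝔫),
    s34f_iota (s34x_infRing V) (s18_chart1 (L₀ := K₀) (s36g_alpha M q w₁)) 𝔫
      (s36q_locMap (s34m_VV G φ M q hq hqM) V (s18_chart1 (L₀ := K₀) w₁)
        (s18_chart1 (L₀ := K₀) (s36g_alpha M q w₁)) (s36g_alpha M q)
        (s36p_chart1_alpha G φ M q hq hqM hC w₁ hB) 𝔫 c - s ^ q) ∈ (V 2).nonunits) ∧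
  (∀ u : Localization.AtPrime 𝔫, IsUnit u → ∀ Q ∈ s18_chart1 (L₀ := K₀) w₁,
    s34f_through (s34x_infRing (s34m_VV G φ M q hq hqM)) (s18_chart1 (L₀ := K₀) w₁)
      (s36q_pt (s34m_VV G φ M q hq hqM) V (s18_chart1 (L₀ := K₀) w₁)
        (s18_chart1 (L₀ := K₀) (s36g_alpha M q w₁)) (s36g_alpha M q)
        (s36p_chart1_alpha G φ M q hq hqM hC w₁ hB) 𝔫) Q →
    Q.ord (s35r_normAlong (heckeAlphaBar K₀ (M * q) q)
      (s34f_iota (s34x_infRing V) (s18_chart1 (L₀ := K₀) (s36g_alpha M q w₁)) 𝔫 u)) = 0) ∧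
  -- `β'`
  (∀ s : Localization.AtPrime 𝔫, ∃ c : Localization.AtPrime
      (s36q_pt (s34m_VV G φ M q hq hqM) V (s18_chart1 (L₀ := K₀) w₁)
        (s18_chart1 (L₀ := K₀) (s36g_alpha M q w₁)) (s36g_beta M q)
        (s36p_chart1_beta G φ M q hq hqM hC w₁ hB (fun Q => (hsat Q).mp)) 𝔫),
    s34f_iota (s34x_infRing V) (s18_chart1 (L₀ := K₀) (s36g_alpha M q w₁)) 𝔫
      (s36q_locMap (s34m_VV G φ M q hq hqM) V (s18_chart1 (L₀ := K₀) w₁)
        (s18_chart1 (L₀ := K₀) (s36g_alpha M q w₁)) (s36g_beta M q)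
        (s36p_chart1_beta G φ M q hq hqM hC w₁ hB (fun Q => (hsat Q).mp)) 𝔫 c - s) ∈
      (V 2).nonunits) ∧
  (∀ s : Localization.AtPrime 𝔫, ∃ c : Localization.AtPrime
      (s36q_pt (s34m_VV G φ M q hq hqM) V (s18_chart1 (L₀ := K₀) w₁)
        (s18_chart1 (L₀ := K₀) (s36g_alpha M q w₁)) (s36g_beta M q)
        (s36p_chart1_beta G φ M q hq hqM hC w₁ hB (fun Q => (hsat Q).mp)) 𝔫),
    s34f_iota (s34x_infRing V) (s18_chart1 (L₀ := K₀) (s36g_alpha M q w₁)) 𝔫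
      (s36q_locMap (s34m_VV G φ M q hq hqM) V (s18_chart1 (L₀ := K₀) w₁)
        (s18_chart1 (L₀ := K₀) (s36g_alpha M q w₁)) (s36g_beta M q)
        (s36p_chart1_beta G φ M q hq hqM hC w₁ hB (fun Q => (hsat Q).mp)) 𝔫 c - s) ∈
      (V 1).nonunits) ∧
  (∀ s : Localization.AtPrime 𝔫, ∃ c : Localization.AtPrime
      (s36q_pt (s34m_VV G φ M q hq hqM) V (s18_chart1 (L₀ := K₀) w₁)
        (s18_chart1 (L₀ := K₀) (s36g_alpha M q w₁)) (s36g_beta M q)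
        (s36p_chart1_beta G φ M q hq hqM hC w₁ hB (fun Q => (hsat Q).mp)) 𝔫),
    s34f_iota (s34x_infRing V) (s18_chart1 (L₀ := K₀) (s36g_alpha M q w₁)) 𝔫
      (s36q_locMap (s34m_VV G φ M q hq hqM) V (s18_chart1 (L₀ := K₀) w₁)
        (s18_chart1 (L₀ := K₀) (s36g_alpha M q w₁)) (s36g_beta M q)
        (s36p_chart1_beta G φ M q hq hqM hC w₁ hB (fun Q => (hsat Q).mp)) 𝔫 c - s ^ q) ∈
      (V 0).nonunits) ∧
  (∀ u : Localization.AtPrime 𝔫, IsUnit u → ∀ Q ∈ s18_chart1 (L₀ := K₀) w₁,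
    s34f_through (s34x_infRing (s34m_VV G φ M q hq hqM)) (s18_chart1 (L₀ := K₀) w₁)
      (s36q_pt (s34m_VV G φ M q hq hqM) V (s18_chart1 (L₀ := K₀) w₁)
        (s18_chart1 (L₀ := K₀) (s36g_alpha M q w₁)) (s36g_beta M q)
        (s36p_chart1_beta G φ M q hq hqM hC w₁ hB (fun Q => (hsat Q).mp)) 𝔫) Q →
    Q.ord (s35r_normAlong (heckeBetaBar K₀ (M * q) q)
      (s34f_iota (s34x_infRing V) (s18_chart1 (L₀ := K₀) (s36g_alpha M q w₁)) 𝔫 u)) = 0)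

/-- a function congruent to a unit constant is nonzero. -/
theorem s36g_ne_zero_of_cst {F : Type*} [Field F] [Algebra K₀ F] (O : ValuationSubring F)
    (y : F) (e : K₀) (he : algebraMap K₀ F e⁻¹ ∈ O) (he0 : e ≠ 0)
    (h : y - algebraMap K₀ F e ∈ O.nonunits) : y ≠ 0 := by
  rintro rfl
  rw [zero_sub, O.mem_nonunits_iff, Valuation.map_neg] at h
  have h2 : O.valuation (algebraMap K₀ F e⁻¹) ≤ 1 := (O.valuation_le_one_iff _).mpr he
  have h3 : O.valuation (algebraMap K₀ F e) * O.valuation (algebraMap K₀ F e⁻¹) = 1 := by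
    rw [← map_mul, ← map_mul, mul_inv_cancel₀ he0, map_one, map_one]
  have h4 : O.valuation (algebraMap K₀ F e) * O.valuation (algebraMap K₀ F e⁻¹) < 1 := by
    calc O.valuation (algebraMap K₀ F e) * O.valuation (algebraMap K₀ F e⁻¹)
        ≤ O.valuation (algebraMap K₀ F e) * 1 := by gcongr
      _ < 1 := by rwa [mul_one]
  rw [h3] at h4
  exact lt_irrefl _ h4

/-- **MATCH at a triple point from the global-root data.** -/
theorem s36g_match_of_rootData (hunr : ∃ u : G.A, IsUnit u ∧ ((q : ℕ) : G.A) = G.ϖ * u)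
    (hP : s36g_ValPkg G φ M q hq hqM V (s36m_t M q))
    (w₁ : s34m_F K₀ (M * q)) (hB : s35g_BaseData G φ M q hq hqM w₁)
    (hsat : ∀ Q : Place K₀ (s34m_F K₀ (M * q * q)),
      s36g_alpha M q w₁ ∈ Q.toValuationSubring ↔ s36g_beta M q w₁ ∈ Q.toValuationSubring)
    (𝔫 : Ideal (s34x_ring (L₀ := K₀) (s34x_infRing V) (s18_chart1 (s36g_alpha M q w₁))))
    [h𝔫 : 𝔫.IsPrime]
    (hthru : ∀ j, s36q_compThrough V (s18_chart1 (L₀ := K₀) (s36g_alpha M q w₁)) 𝔫 j)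
    (m : ℕ) (hm0 : m ≠ 0)
    (hReg : s36p_LocalReg V (s18_chart1 (L₀ := K₀) (s36g_alpha M q w₁)) 𝔫 m)
    (hT : s36g_TriplePkg G φ M q hq hqM hP.1 w₁ hB hsat 𝔫)
    (f₁ ξ f : s34m_F K₀ (M * q * q)) (hf₁0 : f₁ ≠ 0)
    (hdiv₁ : ∀ Q : Place K₀ (s34m_F K₀ (M * q * q)), (m : ℤ) ∣ Q.ord f₁)
    (hRD : s36g_RootData G φ M q hq hqM V m f₁ ξ f) :
    s36p_Match V (s18_chart1 (L₀ := K₀) (s36g_alpha M q w₁)) 𝔫 f m := by
  have hP' := hP
  obtain ⟨hC, hU, -, hCompl, hI, -, hR⟩ := hP'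
  obtain ⟨c, cα, cβ, eA, eA', eB, eB', θ₀, θ₂, yα, yβ, -, hc, hcα, hcβ, heA, heA', heB, heB',
    hθ₀u, hθ₂u, hf₁c, hNfα, hyαI, hyα0, hNfβ, hyβI, hyβ0, hθ₀, hθ₂, hξ0, hξ1, hξ2, hf, -⟩ := hRD
  obtain ⟨hS1α0, hS1α1, hS2α, hS4α, hS1β2, hS1β1, hS2β, hS4β⟩ := hT
  obtain ⟨hLE, hℓ, hN⟩ := hReg
  have hq1 : q - 1 + 1 = q := Nat.sub_add_cancel hq.pos
  have ht0 := s36m_rc_t_mem G φ M q hq hqM hC 0
  have ht2 := s36m_rc_t_mem G φ M q hq hqM hC 2
  have hindα := s36n_hind_alpha G φ M q hq hqM V hC hR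
  have hindβ := s36n_hind_beta G φ M q hq hqM V hC hR
  have hαi := fun x => s36b_alpha_mem_iff G φ M q hq hqM hC x
  have hβi := fun x => s36p_beta_mem_iff G φ M q hq hqM hC x
  have hu1 : ∀ a : K₀, G.A.valuation a = 1 → a ≠ 0 ∧ a ∈ G.A ∧ a⁻¹ ∈ G.A := by
    intro a ha
    obtain ⟨h1, h2, h0⟩ := (s36t_val_one_iff G.A).mp ha
    exact ⟨h0, h1, h2⟩
  have hyα0' : yα ≠ 0 :=
    s36g_ne_zero_of_cst (s34m_Vinf G (M * q)) yα eA'
      (s34c_const_mem_VV G φ M q hq hqM true ⟨_, (hu1 eA' heA').2.2⟩) (hu1 eA' heA').1 hyαI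
  have hyβ0' : yβ ≠ 0 :=
    s36g_ne_zero_of_cst (s34m_Vinf G (M * q)) yβ eB
      (s34c_const_mem_VV G φ M q hq hqM true ⟨_, (hu1 eB heB).2.2⟩) (hu1 eB heB).1 hyβI
  have hpow : (q - 1) * (q - 1 + 2) = q ^ 2 - 1 := by
    obtain ⟨p, rfl⟩ : ∃ p, q = p + 1 := ⟨q - 1, hq1.symm⟩
    simp only [Nat.add_sub_cancel]
    have : (p + 1) ^ 2 = p * (p + 2) + 1 := by ring
    rw [this, Nat.add_sub_cancel]
  exact s36t_hmatch_consts (s34m_VV G φ M q hq hqM) V (s18_chart1 (L₀ := K₀) w₁)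
    (s18_chart1 (L₀ := K₀) (s36g_alpha M q w₁)) (s36g_alpha M q) (s36g_beta M q)
    (s36p_chart1_alpha G φ M q hq hqM hC w₁ hB)
    (s36p_chart1_beta G φ M q hq hqM hC w₁ hB (fun Q => (hsat Q).mp)) 𝔫 true false
    (fun x => s36n_normHom (heckeAlphaBar K₀ (M * q) q) x)
    (fun x => s36n_normHom (heckeBetaBar K₀ (M * q) q) x) (q - 1) m hm0
    (fun x y => map_mul _ x y) (fun x n => map_pow _ x n)
    (fun x y => map_mul _ x y) (fun x n => map_pow _ x n)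
    (fun u c₀ c₁ hu0 hu1' hc₀ hc₁ h0 h1 =>
      s36n_normA_alpha G φ M q hq hqM V (s36m_t M q) hC hU hI ht0 u c₀ c₁ hu0 hu1' hc₀ hc₁ h0 h1)
    (fun u c' hu hc' h =>
      s36n_normB_alpha G φ M q hq hqM V (s36m_t M q) hunr hC hU hindα u c' hu hc'
        (by rwa [hq1] at h))
    (fun u c₂ c₁ hu2 hu1' hc₂ hc₁ h2 h1 =>
      s36n_normA_beta G φ M q hq hqM V (s36m_t M q) hC hU hI ht2 u c₂ c₁ hu2 hu1' hc₂ hc₁ h2 h1)
    (fun u c' hu hc' h =>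
      s36n_normB_beta G φ M q hq hqM V (s36m_t M q) hunr hC hU hindβ u c' hu hc'
        (by rwa [hq1] at h))
    (fun a => s36g_alpha_cst M q a) (fun a => s36g_beta_cst M q a) G.A
    (fun i a ha => s34c_const_mem_VV G φ M q hq hqM i ⟨a, ha⟩)
    (fun j a ha => s36b_const_mem G φ M q hq hqM hC j ⟨a, ha⟩)
    (s36e_arch_VV G φ M q hq hqM) (s35g_dict₁ G φ M q hq hqM w₁ hB).2.2.2
    (s36q_compThrough_comap (s34m_VV G φ M q hq hqM) V _ _ (s36g_alpha M q) _ 𝔫 true 0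
      (fun x => (hαi x).1) (hthru 0))
    (s36q_compThrough_comap (s34m_VV G φ M q hq hqM) V _ _ (s36g_alpha M q) _ 𝔫 false 2
      (fun x => (hαi x).2.2) (hthru 2))
    (fun i _ => by cases i <;> simp)
    (s36q_compThrough_comap (s34m_VV G φ M q hq hqM) V _ _ (s36g_beta M q) _ 𝔫 true 0
      (fun x => (hβi x).1) (hthru 0))
    (s36q_compThrough_comap (s34m_VV G φ M q hq hqM) V _ _ (s36g_beta M q) _ 𝔫 false 2
      (fun x => (hβi x).2.2) (hthru 2))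
    (fun i _ => by cases i <;> simp)
    (s36b_arch G M q hq hU) (s36b_dict₁ G φ M q hq hqM hC hU _
      (s36b_baseData₂_of_base G φ M q hq hqM hC hCompl hI w₁ hB)).2.2.2
    hthru hS1α0 hS1α1 (fun s => by rw [hq1]; exact hS2α s) hS4α hS1β2 hS1β1
    (fun s => by rw [hq1]; exact hS2β s) hS4β hLE hℓ hN f₁ hf₁0
    (fun Q _ _ => hdiv₁ Q) c hc hf₁c yα yβ hyα0' hyβ0' cα cβ (hu1 cα hcα).1 (hu1 cβ hcβ).1
    hNfα hNfβ eA eA' eB eB' θ₀ θ₂ heA heA' heB heB' hθ₀u hθ₂u hyαI hyα0 hyβI hyβ0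
    (by rw [hq1]; exact hθ₀) (by rw [hq1]; exact hθ₂) ξ hξ0 hξ1 hξ2
    (c 1 ^ (q ^ 2 - 1)) (pow_ne_zero _ (hu1 (c 1) (hc 1)).1) f (by rw [hpow]; exact hf)

end Fermat.Agent.Lib.S36
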