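/-
S36 project, GEOMETRY side (helper8, prefix `s36g_`): THE INPUT `s36g_InLocal` OF THE CORE ASSEMBLY FROM
THE f-INDEPENDENT LOCAL GEOMETRY OF LEVEL `M q²`.

For a base function `w₁` of level `M q` (`s35g_BaseData`) with Hecke-saturated chart 1 (`hsat`,
helper9's `s36p_base_all`), the chart rings are `B₁ = s34x_ring (⨅ VV) (chart1 w₁)`,
`B₂ = s34x_ring (⨅ V) (chart1 (α' w₁))`, `B₂' = s34x_ring (⨅ V) (chart2 (α' w₁))`.  The five
f-independent inputs (each with its own owner):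

* `s36g_GeoFib`    (FIB)    : the fibres of `α', β' : Spec B₂ → Spec B₁` over the crossings are points
                              (the two hypotheses of helper9's `s36p_classify_chart1`);
* `s36g_GeoReg1 m` (REG1)   : `s36p_LocalReg` at every closed point `𝔫 ∋ ϖ` of `B₂`;
* `s36g_GeoTriple` (TRIPLE) : `s36g_TriplePkg` at every closed point of `B₂` on all three components;
* `s36g_GeoOne2`   (ONE2)   : a polar closed point of `B₂'` lies on at most one component;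
* `s36g_GeoReg2 m` (REG2)   : `s36p_LocalReg` at every polar closed point of `B₂'`.

`s36g_x_of_geo` : these + `s36g_RootData` ⇒ `∃ x ≠ 0, div f ≤ m div x` (helper9's
`s36p_zero_of_cases`, helper9's classification, MATCH from `GLocal.lean`);
`s36g_inLocal_of_geo` : the contract `s36g_InLocal`.
-/
import Fermat.Agent.Lib.S36.GLocal

set_option autoImplicit false
set_option linter.unusedSectionVars false
set_option linter.style.haveILetI false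
set_option synthInstance.maxHeartbeats 400000

noncomputable section

namespace Fermat.Agent.Lib.S36

open ModularCurve AlgebraicCurve HahnSeries Fermat.Agent.Lib.FF Fermat.Agent.Lib.S18
  Fermat.Agent.Lib.S37 Fermat.Agent.Lib.S34 Fermat.Agent.Lib.S35 IsLocalRing

local notation "Kb" => AlgebraicClosure ℚ

section Geo

variable {K₀ : Type} [Field K₀] [Algebra ℚ K₀] [CharZero K₀] {κ : Type} [Field κ]
  (G : s18g_GaussData K₀ κ) [IsDiscreteValuationRing G.A]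
  (φ : K₀ →+* Kb) (M q : ℕ) [NeZero M] [NeZero q] (hq : q.Prime) (hqM : ¬ q ∣ M)
  {V : Fin 3 → ValuationSubring (s34m_F K₀ (M * q * q))}
  (hC : s36g_ValComap G φ M q hq hqM V) (w₁ : s34m_F K₀ (M * q))
  (hB : s35g_BaseData G φ M q hq hqM w₁)
  (hsat : ∀ Q : Place K₀ (s34m_F K₀ (M * q * q)),
      s36g_alpha M q w₁ ∈ Q.toValuationSubring ↔ s36g_beta M q w₁ ∈ Q.toValuationSubring)

/-- **(FIB)**: at a closed point `𝔫 ∋ ϖ` of chart 1 of level `M q²` whose image under `α'` (resp. `β'`)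
is a crossing of level `M q`, the fibre of `α'` (resp. `β'`) through `𝔫` is `{𝔫}`. -/
def s36g_GeoFib : Prop :=
  ∀ (𝔫 : Ideal (s34x_ring (L₀ := K₀) (s34x_infRing V) (s18_chart1 (s36g_alpha M q w₁))))
    (_ : 𝔫.IsMaximal),
    s34x_const (s34x_infRing V) (s18_chart1 (L₀ := K₀) (s36g_alpha M q w₁)) ((G.ϖ : G.A) : K₀)
      (s34x_inf_const_mem V G.A (s36b_const_mem G φ M q hq hqM hC) G.ϖ) ∈ 𝔫 →
    (s36q_compThrough (s34m_VV G φ M q hq hqM) (s18_chart1 (L₀ := K₀) w₁)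
        (s36q_pt (s34m_VV G φ M q hq hqM) V (s18_chart1 (L₀ := K₀) w₁)
          (s18_chart1 (L₀ := K₀) (s36g_alpha M q w₁)) (s36g_alpha M q)
          (s36p_chart1_alpha G φ M q hq hqM hC w₁ hB) 𝔫) true →
      s36q_compThrough (s34m_VV G φ M q hq hqM) (s18_chart1 (L₀ := K₀) w₁)
        (s36q_pt (s34m_VV G φ M q hq hqM) V (s18_chart1 (L₀ := K₀) w₁)
          (s18_chart1 (L₀ := K₀) (s36g_alpha M q w₁)) (s36g_alpha M q)
          (s36p_chart1_alpha G φ M q hq hqM hC w₁ hB) 𝔫) false →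
      ∀ 𝔫₂ : Ideal (s34x_ring (L₀ := K₀) (s34x_infRing V) (s18_chart1 (s36g_alpha M q w₁))),
        𝔫₂.IsPrime →
        s36q_pt (s34m_VV G φ M q hq hqM) V (s18_chart1 (L₀ := K₀) w₁)
          (s18_chart1 (L₀ := K₀) (s36g_alpha M q w₁)) (s36g_alpha M q)
          (s36p_chart1_alpha G φ M q hq hqM hC w₁ hB) 𝔫₂ =
        s36q_pt (s34m_VV G φ M q hq hqM) V (s18_chart1 (L₀ := K₀) w₁)
          (s18_chart1 (L₀ := K₀) (s36g_alpha M q w₁)) (s36g_alpha M q)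
          (s36p_chart1_alpha G φ M q hq hqM hC w₁ hB) 𝔫 → 𝔫₂ = 𝔫) ∧
    (s36q_compThrough (s34m_VV G φ M q hq hqM) (s18_chart1 (L₀ := K₀) w₁)
        (s36q_pt (s34m_VV G φ M q hq hqM) V (s18_chart1 (L₀ := K₀) w₁)
          (s18_chart1 (L₀ := K₀) (s36g_alpha M q w₁)) (s36g_beta M q)
          (s36p_chart1_beta G φ M q hq hqM hC w₁ hB (fun Q => (hsat Q).mp)) 𝔫) true →
      s36q_compThrough (s34m_VV G φ M q hq hqM) (s18_chart1 (L₀ := K₀) w₁)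
        (s36q_pt (s34m_VV G φ M q hq hqM) V (s18_chart1 (L₀ := K₀) w₁)
          (s18_chart1 (L₀ := K₀) (s36g_alpha M q w₁)) (s36g_beta M q)
          (s36p_chart1_beta G φ M q hq hqM hC w₁ hB (fun Q => (hsat Q).mp)) 𝔫) false →
      ∀ 𝔫₂ : Ideal (s34x_ring (L₀ := K₀) (s34x_infRing V) (s18_chart1 (s36g_alpha M q w₁))),
        𝔫₂.IsPrime →
        s36q_pt (s34m_VV G φ M q hq hqM) V (s18_chart1 (L₀ := K₀) w₁)
          (s18_chart1 (L₀ := K₀) (s36g_alpha M q w₁)) (s36g_beta M q)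
          (s36p_chart1_beta G φ M q hq hqM hC w₁ hB (fun Q => (hsat Q).mp)) 𝔫₂ =
        s36q_pt (s34m_VV G φ M q hq hqM) V (s18_chart1 (L₀ := K₀) w₁)
          (s18_chart1 (L₀ := K₀) (s36g_alpha M q w₁)) (s36g_beta M q)
          (s36p_chart1_beta G φ M q hq hqM hC w₁ hB (fun Q => (hsat Q).mp)) 𝔫 → 𝔫₂ = 𝔫)

/-- **(REG1)**: the f-independent local package at every closed point `𝔫 ∋ ϖ` of chart 1. -/
def s36g_GeoReg1 (m : ℕ) : Prop :=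
  ∀ (𝔫 : Ideal (s34x_ring (L₀ := K₀) (s34x_infRing V) (s18_chart1 (s36g_alpha M q w₁))))
    (h𝔫 : 𝔫.IsMaximal),
    s34x_const (s34x_infRing V) (s18_chart1 (L₀ := K₀) (s36g_alpha M q w₁)) ((G.ϖ : G.A) : K₀)
      (s34x_inf_const_mem V G.A (s36b_const_mem G φ M q hq hqM hC) G.ϖ) ∈ 𝔫 →
    s36p_LocalReg V (s18_chart1 (L₀ := K₀) (s36g_alpha M q w₁)) 𝔫 (h𝔫 := h𝔫.isPrime) m

/-- **(TRIPLE)**: the triple-point package at every closed point `𝔫 ∋ ϖ` of chart 1 lying on all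
three components. -/
def s36g_GeoTriple : Prop :=
  ∀ (𝔫 : Ideal (s34x_ring (L₀ := K₀) (s34x_infRing V) (s18_chart1 (s36g_alpha M q w₁))))
    (h𝔫 : 𝔫.IsMaximal),
    s34x_const (s34x_infRing V) (s18_chart1 (L₀ := K₀) (s36g_alpha M q w₁)) ((G.ϖ : G.A) : K₀)
      (s34x_inf_const_mem V G.A (s36b_const_mem G φ M q hq hqM hC) G.ϖ) ∈ 𝔫 →
    (∀ j, s36q_compThrough V (s18_chart1 (L₀ := K₀) (s36g_alpha M q w₁)) 𝔫 j) →
    s36g_TriplePkg G φ M q hq hqM hC w₁ hB hsat 𝔫 (h𝔫 := h𝔫.isPrime)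

/-- **(ONE2)**: a polar closed point of chart 2 lies on at most one component. -/
def s36g_GeoOne2 : Prop :=
  ∀ 𝔫 : Ideal (s34x_ring (L₀ := K₀) (s34x_infRing V) (s18_chart2 (s36g_alpha M q w₁))),
    𝔫.IsMaximal →
    s34x_const (s34x_infRing V) (s18_chart2 (L₀ := K₀) (s36g_alpha M q w₁)) ((G.ϖ : G.A) : K₀)
      (s34x_inf_const_mem V G.A (s36b_const_mem G φ M q hq hqM hC) G.ϖ) ∈ 𝔫 →
    (∃ b ∈ 𝔫, (b : s34m_F K₀ (M * q * q)) = (s36g_alpha M q w₁)⁻¹) →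
    ∀ i j, s36q_compThrough V (s18_chart2 (L₀ := K₀) (s36g_alpha M q w₁)) 𝔫 i →
      s36q_compThrough V (s18_chart2 (L₀ := K₀) (s36g_alpha M q w₁)) 𝔫 j → i = j

/-- **(REG2)**: the f-independent local package at every polar closed point of chart 2. -/
def s36g_GeoReg2 (m : ℕ) : Prop :=
  ∀ (𝔫 : Ideal (s34x_ring (L₀ := K₀) (s34x_infRing V) (s18_chart2 (s36g_alpha M q w₁))))
    (h𝔫 : 𝔫.IsMaximal),
    s34x_const (s34x_infRing V) (s18_chart2 (L₀ := K₀) (s36g_alpha M q w₁)) ((G.ϖ : G.A) : K₀)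
      (s34x_inf_const_mem V G.A (s36b_const_mem G φ M q hq hqM hC) G.ϖ) ∈ 𝔫 →
    (∃ b ∈ 𝔫, (b : s34m_F K₀ (M * q * q)) = (s36g_alpha M q w₁)⁻¹) →
    s36p_LocalReg V (s18_chart2 (L₀ := K₀) (s36g_alpha M q w₁)) 𝔫 (h𝔫 := h𝔫.isPrime) m

end Geo

section Main

variable {K₀ : Type} [Field K₀] [Algebra ℚ K₀] [CharZero K₀] {κ : Type} [Field κ]
  (G : s18g_GaussData K₀ κ) [IsDiscreteValuationRing G.A]
  (φ : K₀ →+* Kb) (M q : ℕ) [NeZero M] [NeZero q] (hq : q.Prime) (hqM : ¬ q ∣ M)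
  {V : Fin 3 → ValuationSubring (s34m_F K₀ (M * q * q))}

/-- `m ∣ div f₁` ⇒ `m ∣ div f` for `f = f₁ ^ N / (c ξ ^ m)`. -/
theorem s36g_dvd_ord_root (m N : ℕ) (f₁ ξ f : s34m_F K₀ (M * q * q)) (c : K₀) (hf₁0 : f₁ ≠ 0)
    (hξ0 : ξ ≠ 0) (hc0 : c ≠ 0)
    (hf : f = f₁ ^ N / (algebraMap K₀ _ c * ξ ^ m))
    (hdiv₁ : ∀ Q : Place K₀ (s34m_F K₀ (M * q * q)), (m : ℤ) ∣ Q.ord f₁)
    (Q : Place K₀ (s34m_F K₀ (M * q * q))) : (m : ℤ) ∣ Q.ord f := by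
  have hc' : algebraMap K₀ (s34m_F K₀ (M * q * q)) c ≠ 0 := by
    rwa [Ne, map_eq_zero]
  rw [hf, div_eq_mul_inv, Q.ord_mul (pow_ne_zero _ hf₁0)
    (inv_ne_zero (mul_ne_zero hc' (pow_ne_zero _ hξ0))), Q.ord_inv,
    Q.ord_mul hc' (pow_ne_zero _ hξ0), ff_ord_algebraMap, zero_add, s36b_ord_pow, s36b_ord_pow]
  exact dvd_add (Dvd.dvd.mul_left (hdiv₁ Q) _) (Dvd.dvd.neg_right (dvd_mul_right _ _))

/-- **From the local geometry and the global-root data to the function `x`.** -/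
theorem s36g_x_of_geo (hunr : ∃ u : G.A, IsUnit u ∧ ((q : ℕ) : G.A) = G.ϖ * u)
    (hP : s36g_ValPkg G φ M q hq hqM V (s36m_t M q))
    (w₁ : s34m_F K₀ (M * q)) (hB : s35g_BaseData G φ M q hq hqM w₁)
    (hsat : ∀ Q : Place K₀ (s34m_F K₀ (M * q * q)),
      s36g_alpha M q w₁ ∈ Q.toValuationSubring ↔ s36g_beta M q w₁ ∈ Q.toValuationSubring)
    (m : ℕ) (hm0 : m ≠ 0) (hmA : ((m : K₀))⁻¹ ∈ G.A)
    (hFib : s36g_GeoFib G φ M q hq hqM hP.1 w₁ hB hsat)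
    (hReg1 : s36g_GeoReg1 G φ M q hq hqM hP.1 w₁ m)
    (hTr : s36g_GeoTriple G φ M q hq hqM hP.1 w₁ hB hsat)
    (hOne2 : s36g_GeoOne2 G φ M q hq hqM hP.1 w₁)
    (hReg2 : s36g_GeoReg2 G φ M q hq hqM hP.1 w₁ m)
    (f₁ ξ f : s34m_F K₀ (M * q * q)) (hf₁0 : f₁ ≠ 0)
    (hdiv₁ : ∀ Q : Place K₀ (s34m_F K₀ (M * q * q)), (m : ℤ) ∣ Q.ord f₁)
    (hRD : s36g_RootData G φ M q hq hqM V m f₁ ξ f) :
    ∃ x : s34m_F K₀ (M * q * q), x ≠ 0 ∧
      ∀ Q : Place K₀ (s34m_F K₀ (M * q * q)), Q.ord f ≤ (m : ℤ) * Q.ord x := by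
  have hP' := hP
  obtain ⟨hC, hU, -, hCompl, hI, -, -⟩ := hP'
  have hRD' := hRD
  obtain ⟨c, -, -, -, -, -, -, -, -, -, -, hξ, hc, -, -, -, -, -, -, -, -, -, -, -, -, -, -, -, -,
    -, -, -, -, hf, hf1⟩ := hRD'
  have hmL : (m : K₀) ≠ 0 := Nat.cast_ne_zero.mpr hm0
  have hξ0 : ξ ≠ 0 := by
    rintro rfl
    have := hξ 0
    rw [map_zero] at this
    exact zero_ne_one this
  have hc10 : c 1 ≠ 0 := by
    intro h0
    have := hc 1
    rw [h0, map_zero] at this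
    exact zero_ne_one this
  have hdiv : ∀ Q : Place K₀ (s34m_F K₀ (M * q * q)), (m : ℤ) ∣ Q.ord f :=
    s36g_dvd_ord_root M q m (q ^ 2 - 1) f₁ ξ f (c 1 ^ (q ^ 2 - 1)) hf₁0 hξ0
      (pow_ne_zero _ hc10) hf hdiv₁
  obtain ⟨x, hx0, -, hx⟩ := s36p_zero_of_cases G φ M q hq hqM hC hU (s36g_alpha M q w₁)
    (s36b_baseData₂_of_base G φ M q hq hqM hC hCompl hI w₁ hB) f m hm0 hmA hmL hdiv hf1
    (fun 𝔫 h𝔫 hπ => by
      haveI := h𝔫.isPrime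
      exact s36p_classify_chart1 G φ M q hq hqM hC hCompl hI w₁ hB hsat 𝔫
        (hFib 𝔫 h𝔫 hπ).1 (hFib 𝔫 h𝔫 hπ).2)
    (fun 𝔫 h𝔫 hπ => hReg1 𝔫 h𝔫 hπ)
    (fun 𝔫 h𝔫 hπ hall => by
      haveI := h𝔫.isPrime
      exact s36g_match_of_rootData G φ M q hq hqM hunr hP w₁ hB hsat 𝔫 hall m hm0
        (hReg1 𝔫 h𝔫 hπ) (hTr 𝔫 h𝔫 hπ hall) f₁ ξ f hf₁0 hdiv₁ hRD)
    (fun 𝔫 h𝔫 hπ hpol => hOne2 𝔫 h𝔫 hπ hpol)
    (fun 𝔫 h𝔫 hπ hpol => hReg2 𝔫 h𝔫 hπ hpol)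
  exact ⟨x, hx0, hx⟩

end Main

section Contract

variable (M q : ℕ) [NeZero M] [NeZero q] (hq : q.Prime) (hqM : ¬ q ∣ M)

/-- **The f-independent local geometry of level `M q²`** (for all Gauss data with uniformiser `q`):
a saturated base function and the five local inputs for every exponent `m` prime to the residue
characteristic. -/
def s36g_InGeo : Prop :=
  ∀ (K₀ : Type) [Field K₀] [NumberField K₀] (φ : K₀ →+* Kb)
    (κ : Type) [Field κ] [CharP κ q] [PerfectField κ]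
    (G : s18g_GaussData K₀ κ) [IsDiscreteValuationRing G.A], Function.Surjective G.π →
    ((G.ϖ : G.A) : K₀) = (q : K₀) →
    ∀ (V : Fin 3 → ValuationSubring (s34m_F K₀ (M * q * q)))
      (hP : s36g_ValPkg G φ M q hq hqM V (s36m_t M q)),
    ∃ (w₁ : s34m_F K₀ (M * q)) (hB : s35g_BaseData G φ M q hq hqM w₁)
      (hsat : ∀ Q : Place K₀ (s34m_F K₀ (M * q * q)),
        s36g_alpha M q w₁ ∈ Q.toValuationSubring ↔ s36g_beta M q w₁ ∈ Q.toValuationSubring),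
      s36g_GeoFib G φ M q hq hqM hP.1 w₁ hB hsat ∧
      s36g_GeoTriple G φ M q hq hqM hP.1 w₁ hB hsat ∧
      s36g_GeoOne2 G φ M q hq hqM hP.1 w₁ ∧
      ∀ m : ℕ, m ≠ 0 → ((m : K₀))⁻¹ ∈ G.A →
        s36g_GeoReg1 G φ M q hq hqM hP.1 w₁ m ∧ s36g_GeoReg2 G φ M q hq hqM hP.1 w₁ m

/-- **The contract `s36g_InLocal` from the local geometry.** -/
theorem s36g_inLocal_of_geo (h : s36g_InGeo M q hq hqM) : s36g_InLocal M q hq hqM := by
  intro K₀ _ _ φ κ _ _ _ G _ hπ hϖ V hP m hm0 hmA f₁ ξ f hf₁0 hdiv₁ hRD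
  obtain ⟨w₁, hB, hsat, hFib, hTr, hOne2, hReg⟩ := h K₀ φ κ G hπ hϖ V hP
  obtain ⟨hReg1, hReg2⟩ := hReg m hm0 hmA
  have hunr : ∃ u : G.A, IsUnit u ∧ ((q : ℕ) : G.A) = G.ϖ * u := by
    refine ⟨1, isUnit_one, ?_⟩
    rw [mul_one]
    apply Subtype.ext
    rw [hϖ]
    simp
  exact s36g_x_of_geo G φ M q hq hqM hunr hP w₁ hB hsat m hm0 hmA hFib hReg1 hTr hOne2 hReg2
    f₁ ξ f hf₁0 hdiv₁ hRD

end Contract

end Fermat.Agent.Lib.S36
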