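/-
S36 mega-project, item (3b) of helper8's checklist #1783 (helper3, prefix `s36q_fi`):
**(FIB) IN THE CONCRETE FRAME** — the fibres of `α'`, `β' : Spec B₂ → Spec B₁` (chart 1 of
`α' w₁` at level `M q²` over chart 1 of `w₁` at level `M q`) over the crossing points of level `M q`
are single points; hence the two hypotheses `hfibα`, `hfibβ` of helper9's `s36p_classify_chart1`
(`PClass.lean`) and **the hypothesis `hClass1` of `s36p_zero_of_cases`** (`PCase.lean`).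

Inputs that are still hypotheses here (each with a named owner):
* `s36q_fi_CrossReg G φ M q hq hqM w₁` (helper4, (R-q)): every point of chart 1 of `w₁` (level `M q`)
  through which both components pass is a REGULAR crossing (helper5's `s36q_RegCross`, uniformiser
  `ϖ`);
* the two purely inseparable fraction statements `hfqα`, `hfqβ` (lead, `QFracInst.lean`): the
  `hfracq` of helper5's `s36q_fibre_unique` for `(α', V'_0, V 2)` and `(β', V'_∞, V 0)`.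
Everything else (noetherianity, rank one, finiteness, uniformisers, comaps, `ord (γ ϖ) = 0`) is
discharged from the valuation package and `s35g_BaseData`.
-/
import Fermat.Agent.Lib.S36.PClass
import Fermat.Agent.Lib.S36.QFibre
import Fermat.Agent.Lib.S36.PCase
import Fermat.Agent.Lib.S35.GElem

set_option autoImplicit false
set_option linter.unusedSectionVars false
set_option linter.style.haveILetI false
set_option synthInstance.maxHeartbeats 400000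

noncomputable section

namespace Fermat.Agent.Lib.S36

open ModularCurve AlgebraicCurve Polynomial Fermat.Agent.Lib.FF Fermat.Agent.Lib.S18
  Fermat.Agent.Lib.S37 Fermat.Agent.Lib.S34 Fermat.Agent.Lib.S35

local notation "Kb" => AlgebraicClosure ℚ

variable {K₀ : Type} [Field K₀] [Algebra ℚ K₀] {κ : Type} [Field κ] (G : s18g_GaussData K₀ κ)
  (φ : K₀ →+* Kb) (M q : ℕ) [NeZero M] [NeZero q] (hq : q.Prime) (hqM : ¬ q ∣ M)
  {V : Fin 3 → ValuationSubring (s34m_F K₀ (M * q * q))} {t : s34m_F K₀ (M * q * q)}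

/-- **(R-q) in helper5's shape**: every point of chart 1 of `w₁` at level `M q` through which both
components `V'_∞`, `V'_0` pass is a regular crossing (`𝔪 = (u, w)`, `u w = ϖ · unit`). -/
def s36q_fi_CrossReg (w₁ : s34m_F K₀ (M * q)) : Prop :=
  ∀ (𝔭 : Ideal (s34x_ring (L₀ := K₀) (s34x_infRing (s34m_VV G φ M q hq hqM))
      (s18_chart1 (L₀ := K₀) w₁))) [𝔭.IsPrime],
    s36q_compThrough (s34m_VV G φ M q hq hqM) (s18_chart1 (L₀ := K₀) w₁) 𝔭 true →
    s36q_compThrough (s34m_VV G φ M q hq hqM) (s18_chart1 (L₀ := K₀) w₁) 𝔭 false →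
    s36q_RegCross (s34m_VV G φ M q hq hqM) (s18_chart1 (L₀ := K₀) w₁) 𝔭 true false
      (s34m_unif G (M * q))

/-- the non-units of `V'_∞`, `V'_0` are generated by `ϖ`. -/
theorem s36q_fi_gen (i : Bool) (y : s34m_F K₀ (M * q))
    (hy : y ∈ (s34m_VV G φ M q hq hqM i).nonunits) :
    ∃ c ∈ s34m_VV G φ M q hq hqM i, y = s34m_unif G (M * q) * c :=
  s36c_nonunit_eq_mul (s36b_isUnif_VV G φ M q hq hqM i) y
    ((ValuationSubring.mem_nonunits_iff_or _).mp hy) (ValuationSubring.nonunits_subset hy)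

/-- `α' ϖ₁` has order `0` at every place. -/
theorem s36q_fi_ord_alpha (Q : Place K₀ (s34m_F K₀ (M * q * q))) :
    Q.ord (s36g_alpha M q (s34m_unif G (M * q))) = 0 := by
  have e : s36g_alpha M q (s34m_unif G (M * q)) = s34m_unif G (M * q * q) :=
    s34m_alpha_unif G (M * q) q
  rw [e]
  exact ff_ord_algebraMap Q _

/-- `β' ϖ₁` has order `0` at every place. -/
theorem s36q_fi_ord_beta (Q : Place K₀ (s34m_F K₀ (M * q * q))) :
    Q.ord (s36g_beta M q (s34m_unif G (M * q))) = 0 := by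
  have e : s36g_beta M q (s34m_unif G (M * q)) = s34m_unif G (M * q * q) :=
    (heckeBetaBar K₀ (M * q) q).commutes _
  rw [e]
  exact ff_ord_algebraMap Q _

variable [CharZero K₀] [IsDiscreteValuationRing G.A]

/-- **(FIB) along `α'`** : the hypothesis `hfibα` of `s36p_classify_chart1`. -/
theorem s36q_fi_fib_alpha (hC : s36g_ValComap G φ M q hq hqM V)
    (hU : s36g_ValUnif G M q V t) (hCompl : s36g_ValComplete G φ M q hq hqM V)
    (hInd : s36g_ValIndep M q V)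
    (w₁ : s34m_F K₀ (M * q)) (hB : s35g_BaseData G φ M q hq hqM w₁)
    (hX : s36q_fi_CrossReg G φ M q hq hqM w₁)
    (hfqα : ∀ y ∈ V 2, ∃ b c : s34x_ring (L₀ := K₀) (s34x_infRing (s34m_VV G φ M q hq hqM))
        (s18_chart1 (L₀ := K₀) w₁),
      (c : s34m_F K₀ (M * q)) ∉ (s34m_VV G φ M q hq hqM false).nonunits ∧
        y ^ q * s36g_alpha M q (c : s34m_F K₀ (M * q)) -
          s36g_alpha M q (b : s34m_F K₀ (M * q)) ∈ (V 2).nonunits)
    (𝔫 : Ideal (s34x_ring (L₀ := K₀) (s34x_infRing V) (s18_chart1 (s36g_alpha M q w₁))))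
    [h𝔫 : 𝔫.IsPrime] :
    s36q_compThrough (s34m_VV G φ M q hq hqM) (s18_chart1 (L₀ := K₀) w₁)
        (s36q_pt (s34m_VV G φ M q hq hqM) V (s18_chart1 (L₀ := K₀) w₁)
          (s18_chart1 (L₀ := K₀) (s36g_alpha M q w₁)) (s36g_alpha M q)
          (s36p_chart1_alpha G φ M q hq hqM hC w₁ hB) 𝔫) true →
      s36q_compThrough (s34m_VV G φ M q hq hqM) (s18_chart1 (L₀ := K₀) w₁)
        (s36q_pt (s34m_VV G φ M q hq hqM) V (s18_chart1 (L₀ := K₀) w₁)
          (s18_chart1 (L₀ := K₀) (s36g_alpha M q w₁)) (s36g_alpha M q)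
          (s36p_chart1_alpha G φ M q hq hqM hC w₁ hB) 𝔫) false →
      ∀ 𝔫₂ : Ideal (s34x_ring (L₀ := K₀) (s34x_infRing V) (s18_chart1 (s36g_alpha M q w₁))),
        𝔫₂.IsPrime →
        s36q_pt (s34m_VV G φ M q hq hqM) V (s18_chart1 (L₀ := K₀) w₁)
          (s18_chart1 (L₀ := K₀) (s36g_alpha M q w₁)) (s36g_alpha M q)
          (s36p_chart1_alpha G φ M q hq hqM hC w₁ hB) 𝔫₂ =
        s36q_pt (s34m_VV G φ M q hq hqM) V (s18_chart1 (L₀ := K₀) w₁)
          (s18_chart1 (L₀ := K₀) (s36g_alpha M q w₁)) (s36g_alpha M q)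
          (s36p_chart1_alpha G φ M q hq hqM hC w₁ hB) 𝔫 → 𝔫₂ = 𝔫 := by
  intro hT hF 𝔫₂ h𝔫₂ hover
  haveI := h𝔫₂
  haveI : IsNoetherianRing (s34x_ring (L₀ := K₀) (s34x_infRing (s34m_VV G φ M q hq hqM))
      (s18_chart1 (L₀ := K₀) w₁)) := (s35g_dict₁ G φ M q hq hqM w₁ hB).1
  have hB₂ := s36b_baseData₂_of_base G φ M q hq hqM hC hCompl hInd w₁ hB
  have F3 := (s36b_dict₁ G φ M q hq hqM hC hU (s36g_alpha M q w₁) hB₂).2.2.2
  have hαi := fun x => s36b_alpha_mem_iff G φ M q hq hqM hC x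
  refine s36q_fibre_unique (s34m_VV G φ M q hq hqM) V (s18_chart1 (L₀ := K₀) w₁)
    (s18_chart1 (L₀ := K₀) (s36g_alpha M q w₁)) (s36g_alpha M q)
    (s36p_chart1_alpha G φ M q hq hqM hC w₁ hB) 𝔫 𝔫₂ (s36b_arch G M q hq hU) F3
    true false 2 (s34m_unif G (M * q)) (s34m_unif_ne_zero G (M * q))
    (fun y hy => s36q_fi_gen G φ M q hq hqM true y hy)
    (fun x => (hαi x).2.2) ?_ (fun Q _ => s36q_fi_ord_alpha G M q Q) hT
    (hX _ hT hF) q hq.pos hfqα hover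
  intro j' hj' x
  fin_cases j'
  · exact (hαi x).1
  · exact (hαi x).2.1
  · exact absurd rfl hj'

/-- **(FIB) along `β'`** : the hypothesis `hfibβ` of `s36p_classify_chart1`. -/
theorem s36q_fi_fib_beta (hC : s36g_ValComap G φ M q hq hqM V)
    (hU : s36g_ValUnif G M q V t) (hCompl : s36g_ValComplete G φ M q hq hqM V)
    (hInd : s36g_ValIndep M q V)
    (w₁ : s34m_F K₀ (M * q)) (hB : s35g_BaseData G φ M q hq hqM w₁)
    (hsat : ∀ Q : Place K₀ (s34m_F K₀ (M * q * q)),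
      s36g_alpha M q w₁ ∈ Q.toValuationSubring ↔ s36g_beta M q w₁ ∈ Q.toValuationSubring)
    (hX : s36q_fi_CrossReg G φ M q hq hqM w₁)
    (hfqβ : ∀ y ∈ V 0, ∃ b c : s34x_ring (L₀ := K₀) (s34x_infRing (s34m_VV G φ M q hq hqM))
        (s18_chart1 (L₀ := K₀) w₁),
      (c : s34m_F K₀ (M * q)) ∉ (s34m_VV G φ M q hq hqM true).nonunits ∧
        y ^ q * s36g_beta M q (c : s34m_F K₀ (M * q)) -
          s36g_beta M q (b : s34m_F K₀ (M * q)) ∈ (V 0).nonunits)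
    (𝔫 : Ideal (s34x_ring (L₀ := K₀) (s34x_infRing V) (s18_chart1 (s36g_alpha M q w₁))))
    [h𝔫 : 𝔫.IsPrime] :
    s36q_compThrough (s34m_VV G φ M q hq hqM) (s18_chart1 (L₀ := K₀) w₁)
        (s36q_pt (s34m_VV G φ M q hq hqM) V (s18_chart1 (L₀ := K₀) w₁)
          (s18_chart1 (L₀ := K₀) (s36g_alpha M q w₁)) (s36g_beta M q)
          (s36p_chart1_beta G φ M q hq hqM hC w₁ hB (fun Q => (hsat Q).mp)) 𝔫) true →
      s36q_compThrough (s34m_VV G φ M q hq hqM) (s18_chart1 (L₀ := K₀) w₁)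
        (s36q_pt (s34m_VV G φ M q hq hqM) V (s18_chart1 (L₀ := K₀) w₁)
          (s18_chart1 (L₀ := K₀) (s36g_alpha M q w₁)) (s36g_beta M q)
          (s36p_chart1_beta G φ M q hq hqM hC w₁ hB (fun Q => (hsat Q).mp)) 𝔫) false →
      ∀ 𝔫₂ : Ideal (s34x_ring (L₀ := K₀) (s34x_infRing V) (s18_chart1 (s36g_alpha M q w₁))),
        𝔫₂.IsPrime →
        s36q_pt (s34m_VV G φ M q hq hqM) V (s18_chart1 (L₀ := K₀) w₁)
          (s18_chart1 (L₀ := K₀) (s36g_alpha M q w₁)) (s36g_beta M q)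
          (s36p_chart1_beta G φ M q hq hqM hC w₁ hB (fun Q => (hsat Q).mp)) 𝔫₂ =
        s36q_pt (s34m_VV G φ M q hq hqM) V (s18_chart1 (L₀ := K₀) w₁)
          (s18_chart1 (L₀ := K₀) (s36g_alpha M q w₁)) (s36g_beta M q)
          (s36p_chart1_beta G φ M q hq hqM hC w₁ hB (fun Q => (hsat Q).mp)) 𝔫 → 𝔫₂ = 𝔫 := by
  intro hT hF 𝔫₂ h𝔫₂ hover
  haveI := h𝔫₂
  haveI : IsNoetherianRing (s34x_ring (L₀ := K₀) (s34x_infRing (s34m_VV G φ M q hq hqM))
      (s18_chart1 (L₀ := K₀) w₁)) := (s35g_dict₁ G φ M q hq hqM w₁ hB).1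
  have hB₂ := s36b_baseData₂_of_base G φ M q hq hqM hC hCompl hInd w₁ hB
  have F3 := (s36b_dict₁ G φ M q hq hqM hC hU (s36g_alpha M q w₁) hB₂).2.2.2
  have hβi := fun x => s36p_beta_mem_iff G φ M q hq hqM hC x
  refine s36q_fibre_unique (s34m_VV G φ M q hq hqM) V (s18_chart1 (L₀ := K₀) w₁)
    (s18_chart1 (L₀ := K₀) (s36g_alpha M q w₁)) (s36g_beta M q)
    (s36p_chart1_beta G φ M q hq hqM hC w₁ hB (fun Q => (hsat Q).mp)) 𝔫 𝔫₂
    (s36b_arch G M q hq hU) F3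
    false true 0 (s34m_unif G (M * q)) (s34m_unif_ne_zero G (M * q))
    (fun y hy => s36q_fi_gen G φ M q hq hqM false y hy)
    (fun x => (hβi x).1) ?_ (fun Q _ => s36q_fi_ord_beta G M q Q) hF
    (s36q_RegCross_symm _ _ _ _ _ _ (hX _ hT hF)) q hq.pos hfqβ hover
  intro j' hj' x
  fin_cases j'
  · exact absurd rfl hj'
  · exact (hβi x).2.1
  · exact (hβi x).2.2

/-! ### From helper4's (R-q) output to `s36q_fi_CrossReg` -/

/-- **helper4's `s36r_RegCrossAt` without the two kernel inclusions** (board #1690): at the prime `𝔫` of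
the chart ring of level `M q`, `𝔪 = (u, w)` with `u ∈ ker r₂`, `w ∈ ker r₁`, `u w = ϖ · unit`. -/
def s36q_fi_RegAt (S : Set (Place K₀ (s34m_F K₀ (M * q))))
    (𝔫 : Ideal (s34x_ring (s34x_infRing (s34m_VV G φ M q hq hqM)) S)) [𝔫.IsPrime] : Prop :=
  ∃ u w : s34x_ring (s34x_infRing (s34m_VV G φ M q hq hqM)) S,
    s34df_r2 G φ M q hq hqM S u = 0 ∧ s34df_r1 G φ M q hq hqM S w = 0 ∧
    (∃ β : Localization.AtPrime 𝔫, IsUnit β ∧
      algebraMap _ (Localization.AtPrime 𝔫) u * algebraMap _ (Localization.AtPrime 𝔫) w =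
        algebraMap _ (Localization.AtPrime 𝔫) (s35gd_unifB G φ M q hq hqM S) * β) ∧
    IsLocalRing.maximalIdeal (Localization.AtPrime 𝔫) =
      Ideal.span {algebraMap _ (Localization.AtPrime 𝔫) u,
        algebraMap _ (Localization.AtPrime 𝔫) w}

/-- `ϖ y` is a non-unit of `V'_∞` resp. `V'_0` for `y` in the ring. -/
theorem s36q_fi_unif_mul_mem (i : Bool) (x y : s34m_F K₀ (M * q))
    (hy : y ∈ s34m_VV G φ M q hq hqM i)
    (e : x = algebraMap K₀ (s34m_F K₀ (M * q)) ((G.ϖ : G.A) : K₀) * y) :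
    x ∈ (s34m_VV G φ M q hq hqM i).nonunits := by
  have hunif := s36b_isUnif_VV G φ M q hq hqM i
  have hϖ : s34m_unif G (M * q) ∈ (s34m_VV G φ M q hq hqM i).nonunits :=
    (ValuationSubring.mem_nonunits_iff_or _).mpr (Or.inr hunif.2.1)
  rw [ValuationSubring.mem_nonunits_iff] at hϖ ⊢
  rw [e, map_mul]
  calc (s34m_VV G φ M q hq hqM i).valuation
          (algebraMap K₀ (s34m_F K₀ (M * q)) ((G.ϖ : G.A) : K₀)) *
        (s34m_VV G φ M q hq hqM i).valuation y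
      ≤ (s34m_VV G φ M q hq hqM i).valuation
          (algebraMap K₀ (s34m_F K₀ (M * q)) ((G.ϖ : G.A) : K₀)) * 1 :=
        mul_le_mul' le_rfl (((s34m_VV G φ M q hq hqM i).valuation_le_one_iff y).mpr hy)
    _ = (s34m_VV G φ M q hq hqM i).valuation (s34m_unif G (M * q)) := by rw [mul_one]; rfl
    _ < 1 := hϖ

/-- **`s36q_fi_CrossReg` from helper4's thickness-one theorem** (`s35gd_CrossAt → RegCrossAt` at every
prime of chart 1 of `w₁`) and the S35 dichotomy. -/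
theorem s36q_fi_crossReg_of_thick [CharP κ q] [PerfectField κ]
    (w₁ : s34m_F K₀ (M * q)) (hB : s35g_BaseData G φ M q hq hqM w₁)
    (hT : ∀ (𝔫 : Ideal (s34x_ring (s34x_infRing (s34m_VV G φ M q hq hqM))
        (s18_chart1 (L₀ := K₀) w₁))) [𝔫.IsPrime],
      s35gd_CrossAt G φ M q hq hqM (s18_chart1 (L₀ := K₀) w₁) 𝔫 →
      s36q_fi_RegAt G φ M q hq hqM (s18_chart1 (L₀ := K₀) w₁) 𝔫) :
    s36q_fi_CrossReg G φ M q hq hqM w₁ := by
  intro 𝔭 h𝔭 hTr hFa
  have hunifT := s36b_isUnif_VV G φ M q hq hqM true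
  -- `ϖ ∈ 𝔭`
  have hϖ𝔭 : s35gd_unifB G φ M q hq hqM (s18_chart1 (L₀ := K₀) w₁) ∈ 𝔭 := by
    apply hTr
    rw [s35gd_coe_unifB]
    exact (ValuationSubring.mem_nonunits_iff_or _).mpr (Or.inr hunifT.2.1)
  rcases s35g_smoothAt_or_crossing G φ M q hq hqM (s18_chart1 (L₀ := K₀) w₁) hB.2.2.2.2.2.2.2.1 𝔭
    hϖ𝔭 with ⟨t, i₀, -, hmiss⟩ | hcross
  · exfalso
    cases i₀ with
    | true =>
      obtain ⟨b, ⟨y, hy, e⟩, hb⟩ := hmiss false (by simp)
      exact hb (hFa b (s36q_fi_unif_mul_mem G φ M q hq hqM false _ y hy e))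
    | false =>
      obtain ⟨b, ⟨y, hy, e⟩, hb⟩ := hmiss true (by simp)
      exact hb (hTr b (s36q_fi_unif_mul_mem G φ M q hq hqM true _ y hy e))
  · obtain ⟨u, w, hu, hw, ⟨β, hβ, huw⟩, hm⟩ := hT 𝔭 hcross
    obtain ⟨yw, hyw, ew⟩ := (s35gd_r1_eq_zero_iff G φ M q hq hqM _ w).mp hw
    obtain ⟨yu, hyu, eu⟩ := (s35gd_r2_eq_zero_iff G φ M q hq hqM _ u).mp hu
    refine ⟨algebraMap _ _ w, algebraMap _ _ u, β, hβ, ?_, ?_, ?_, ?_⟩
    · rw [s34f_iota_algebraMap]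
      exact s36q_fi_unif_mul_mem G φ M q hq hqM true _ yw hyw ew
    · rw [s34f_iota_algebraMap]
      exact s36q_fi_unif_mul_mem G φ M q hq hqM false _ yu hyu eu
    · have h := congrArg (s34f_iota (s34x_infRing (s34m_VV G φ M q hq hqM))
        (s18_chart1 (L₀ := K₀) w₁) 𝔭) huw
      rw [map_mul, map_mul, s34f_iota_algebraMap, s34f_iota_algebraMap, s34f_iota_algebraMap,
        s35gd_coe_unifB] at h
      rw [s34f_iota_algebraMap, s34f_iota_algebraMap]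
      exact (mul_comm _ _).trans h
    · rw [hm, Set.pair_comm]

/-- **The classification of the points of chart 1 of level `M q²`** with (FIB) discharged: through a
prime `𝔫` of `B₂ = s34x_ring (⨅ V) (chart1 (α' w₁))` pass all three components or at most one. -/
theorem s36q_fi_class (hC : s36g_ValComap G φ M q hq hqM V)
    (hU : s36g_ValUnif G M q V t) (hCompl : s36g_ValComplete G φ M q hq hqM V)
    (hInd : s36g_ValIndep M q V)
    (w₁ : s34m_F K₀ (M * q)) (hB : s35g_BaseData G φ M q hq hqM w₁)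
    (hsat : ∀ Q : Place K₀ (s34m_F K₀ (M * q * q)),
      s36g_alpha M q w₁ ∈ Q.toValuationSubring ↔ s36g_beta M q w₁ ∈ Q.toValuationSubring)
    (hX : s36q_fi_CrossReg G φ M q hq hqM w₁)
    (hfqα : ∀ y ∈ V 2, ∃ b c : s34x_ring (L₀ := K₀) (s34x_infRing (s34m_VV G φ M q hq hqM))
        (s18_chart1 (L₀ := K₀) w₁),
      (c : s34m_F K₀ (M * q)) ∉ (s34m_VV G φ M q hq hqM false).nonunits ∧
        y ^ q * s36g_alpha M q (c : s34m_F K₀ (M * q)) -
          s36g_alpha M q (b : s34m_F K₀ (M * q)) ∈ (V 2).nonunits)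
    (hfqβ : ∀ y ∈ V 0, ∃ b c : s34x_ring (L₀ := K₀) (s34x_infRing (s34m_VV G φ M q hq hqM))
        (s18_chart1 (L₀ := K₀) w₁),
      (c : s34m_F K₀ (M * q)) ∉ (s34m_VV G φ M q hq hqM true).nonunits ∧
        y ^ q * s36g_beta M q (c : s34m_F K₀ (M * q)) -
          s36g_beta M q (b : s34m_F K₀ (M * q)) ∈ (V 0).nonunits)
    (𝔫 : Ideal (s34x_ring (L₀ := K₀) (s34x_infRing V) (s18_chart1 (s36g_alpha M q w₁))))
    [h𝔫 : 𝔫.IsPrime] :
    (∀ j, s36q_compThrough V (s18_chart1 (L₀ := K₀) (s36g_alpha M q w₁)) 𝔫 j) ∨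
    (¬ s36q_compThrough V (s18_chart1 (L₀ := K₀) (s36g_alpha M q w₁)) 𝔫 0 ∧
      ¬ s36q_compThrough V (s18_chart1 (L₀ := K₀) (s36g_alpha M q w₁)) 𝔫 1) ∨
    (¬ s36q_compThrough V (s18_chart1 (L₀ := K₀) (s36g_alpha M q w₁)) 𝔫 0 ∧
      ¬ s36q_compThrough V (s18_chart1 (L₀ := K₀) (s36g_alpha M q w₁)) 𝔫 2) ∨
    (¬ s36q_compThrough V (s18_chart1 (L₀ := K₀) (s36g_alpha M q w₁)) 𝔫 1 ∧
      ¬ s36q_compThrough V (s18_chart1 (L₀ := K₀) (s36g_alpha M q w₁)) 𝔫 2) :=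
  s36p_classify_chart1 G φ M q hq hqM hC hCompl hInd w₁ hB hsat 𝔫
    (s36q_fi_fib_alpha G φ M q hq hqM hC hU hCompl hInd w₁ hB hX hfqα 𝔫)
    (s36q_fi_fib_beta G φ M q hq hqM hC hU hCompl hInd w₁ hB hsat hX hfqβ 𝔫)

/-- **`hClass1` of `s36p_zero_of_cases`**, literally, for `w := α' w₁`. -/
theorem s36q_fi_hClass1 (hC : s36g_ValComap G φ M q hq hqM V)
    (hU : s36g_ValUnif G M q V t) (hCompl : s36g_ValComplete G φ M q hq hqM V)
    (hInd : s36g_ValIndep M q V)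
    (w₁ : s34m_F K₀ (M * q)) (hB : s35g_BaseData G φ M q hq hqM w₁)
    (hsat : ∀ Q : Place K₀ (s34m_F K₀ (M * q * q)),
      s36g_alpha M q w₁ ∈ Q.toValuationSubring ↔ s36g_beta M q w₁ ∈ Q.toValuationSubring)
    (hX : s36q_fi_CrossReg G φ M q hq hqM w₁)
    (hfqα : ∀ y ∈ V 2, ∃ b c : s34x_ring (L₀ := K₀) (s34x_infRing (s34m_VV G φ M q hq hqM))
        (s18_chart1 (L₀ := K₀) w₁),
      (c : s34m_F K₀ (M * q)) ∉ (s34m_VV G φ M q hq hqM false).nonunits ∧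
        y ^ q * s36g_alpha M q (c : s34m_F K₀ (M * q)) -
          s36g_alpha M q (b : s34m_F K₀ (M * q)) ∈ (V 2).nonunits)
    (hfqβ : ∀ y ∈ V 0, ∃ b c : s34x_ring (L₀ := K₀) (s34x_infRing (s34m_VV G φ M q hq hqM))
        (s18_chart1 (L₀ := K₀) w₁),
      (c : s34m_F K₀ (M * q)) ∉ (s34m_VV G φ M q hq hqM true).nonunits ∧
        y ^ q * s36g_beta M q (c : s34m_F K₀ (M * q)) -
          s36g_beta M q (b : s34m_F K₀ (M * q)) ∈ (V 0).nonunits) :
    ∀ 𝔫 : Ideal (s34x_ring (s34x_infRing V) (s18_chart1 (L₀ := K₀) (s36g_alpha M q w₁))),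
      𝔫.IsMaximal →
      s34x_const (s34x_infRing V) (s18_chart1 (L₀ := K₀) (s36g_alpha M q w₁)) ((G.ϖ : G.A) : K₀)
        (s34x_inf_const_mem V G.A (s36b_const_mem G φ M q hq hqM hC) G.ϖ) ∈ 𝔫 →
      (∀ j, s36q_compThrough V (s18_chart1 (L₀ := K₀) (s36g_alpha M q w₁)) 𝔫 j) ∨
      (¬ s36q_compThrough V (s18_chart1 (L₀ := K₀) (s36g_alpha M q w₁)) 𝔫 0 ∧
        ¬ s36q_compThrough V (s18_chart1 (L₀ := K₀) (s36g_alpha M q w₁)) 𝔫 1) ∨
      (¬ s36q_compThrough V (s18_chart1 (L₀ := K₀) (s36g_alpha M q w₁)) 𝔫 0 ∧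
        ¬ s36q_compThrough V (s18_chart1 (L₀ := K₀) (s36g_alpha M q w₁)) 𝔫 2) ∨
      (¬ s36q_compThrough V (s18_chart1 (L₀ := K₀) (s36g_alpha M q w₁)) 𝔫 1 ∧
        ¬ s36q_compThrough V (s18_chart1 (L₀ := K₀) (s36g_alpha M q w₁)) 𝔫 2) := by
  intro 𝔫 h𝔫 _
  haveI := h𝔫.isPrime
  exact s36q_fi_class G φ M q hq hqM hC hU hCompl hInd w₁ hB hsat hX hfqα hfqβ 𝔫

end Fermat.Agent.Lib.S36
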