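/-
S36 mega-project, layer (R2) (helper5), part 18: **(FRAC) at level `M q²`** — the six residue-field
statements of the valuation package in the `s36q_Frac` shape (hypothesis `hfrac` of `QSurj.lean`,
`QTriple2.lean`, helper2's `REis*.lean`) resp. the `hfracq` shape of `QFibre.lean`, for every chart
`S₁` of level `M q` with `s35g_ChartData` (the two charts of a base function), from `s36g_ValComap`,
`s36g_ValRes` and `s36q_frac1_chart`.
-/
import Fermat.Agent.Lib.S36.QFrac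

set_option autoImplicit false
set_option linter.unusedSectionVars false
set_option linter.style.haveILetI false
set_option synthInstance.maxHeartbeats 400000

noncomputable section

namespace Fermat.Agent.Lib.S36

open ModularCurve AlgebraicCurve HahnSeries Polynomial Fermat.Agent.Lib.FF Fermat.Agent.Lib.S18
  Fermat.Agent.Lib.S37 Fermat.Agent.Lib.S34 Fermat.Agent.Lib.S35

local notation "Kb" => AlgebraicClosure ℚ

variable {K₀ : Type} [Field K₀] [CharZero K₀] [Algebra ℚ K₀] {κ : Type} [Field κ]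
  (G : s18g_GaussData K₀ κ) (φ : K₀ →+* Kb) (M q : ℕ) [NeZero M] [NeZero q]
  (hq : q.Prime) (hqM : ¬ q ∣ M) [CharP κ q] [PerfectField κ]
  {V : Fin 3 → ValuationSubring (s34m_F K₀ (M * q * q))}
  (S₁ : Set (Place K₀ (s34m_F K₀ (M * q))))

/-- `V 0 | V'_∞` along `α'`. -/
theorem s36q_frac_alpha_0 (hC : s36g_ValComap G φ M q hq hqM V)
    (hR : s36g_ValRes G φ M q hq hqM V) (hCD : s35g_ChartData G φ M q hq hqM S₁)
    (hπ : Function.Surjective G.π) :
    s36q_Frac (s34m_VV G φ M q hq hqM) V S₁ (s36g_alpha M q) true 0 :=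
  s36q_frac_of_frac1 _ _ _ _ true 0 (fun x => (s36b_alpha_mem_iff G φ M q hq hqM hC x).1)
    (s36q_frac1_chart G φ M q hq hqM S₁ hCD hπ true) hR.1

/-- `V 1 | V'_∞` along `α'`. -/
theorem s36q_frac_alpha_1 (hC : s36g_ValComap G φ M q hq hqM V)
    (hR : s36g_ValRes G φ M q hq hqM V) (hCD : s35g_ChartData G φ M q hq hqM S₁)
    (hπ : Function.Surjective G.π) :
    s36q_Frac (s34m_VV G φ M q hq hqM) V S₁ (s36g_alpha M q) true 1 :=
  s36q_frac_of_frac1 _ _ _ _ true 1 (fun x => (s36b_alpha_mem_iff G φ M q hq hqM hC x).2.1)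
    (s36q_frac1_chart G φ M q hq hqM S₁ hCD hπ true) hR.2.1

/-- `β' x ∈ V 0 ↔ x ∈ V'_∞`, `β' x ∈ V i ↔ x ∈ V'_0` (`i = 1, 2`). -/
theorem s36q_beta_mem_iff (hC : s36g_ValComap G φ M q hq hqM V) (x : s34m_F K₀ (M * q)) :
    (s36g_beta M q x ∈ V 0 ↔ x ∈ s34m_Vinf G (M * q)) ∧
    (s36g_beta M q x ∈ V 1 ↔ x ∈ s34m_Vzero G φ M q hq hqM) ∧
    (s36g_beta M q x ∈ V 2 ↔ x ∈ s34m_Vzero G φ M q hq hqM) := by
  obtain ⟨-, -, h0, -, h1, -, h2⟩ := hC
  have e0 : x ∈ (V 0).comap (s36g_beta M q) ↔ s36g_beta M q x ∈ V 0 :=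
    ValuationSubring.mem_comap
  have e1 : x ∈ (V 1).comap (s36g_beta M q) ↔ s36g_beta M q x ∈ V 1 :=
    ValuationSubring.mem_comap
  have e2 : x ∈ (V 2).comap (s36g_beta M q) ↔ s36g_beta M q x ∈ V 2 :=
    ValuationSubring.mem_comap
  rw [h0] at e0
  rw [h1] at e1
  rw [h2] at e2
  exact ⟨e0.symm, e1.symm, e2.symm⟩

/-- `V 1 | V'_0` along `β'`. -/
theorem s36q_frac_beta_1 (hC : s36g_ValComap G φ M q hq hqM V)
    (hR : s36g_ValRes G φ M q hq hqM V) (hCD : s35g_ChartData G φ M q hq hqM S₁)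
    (hπ : Function.Surjective G.π) :
    s36q_Frac (s34m_VV G φ M q hq hqM) V S₁ (s36g_beta M q) false 1 :=
  s36q_frac_of_frac1 _ _ _ _ false 1 (fun x => (s36q_beta_mem_iff G φ M q hq hqM hC x).2.1)
    (s36q_frac1_chart G φ M q hq hqM S₁ hCD hπ false) hR.2.2.1

/-- `V 2 | V'_0` along `β'`. -/
theorem s36q_frac_beta_2 (hC : s36g_ValComap G φ M q hq hqM V)
    (hR : s36g_ValRes G φ M q hq hqM V) (hCD : s35g_ChartData G φ M q hq hqM S₁)
    (hπ : Function.Surjective G.π) :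
    s36q_Frac (s34m_VV G φ M q hq hqM) V S₁ (s36g_beta M q) false 2 :=
  s36q_frac_of_frac1 _ _ _ _ false 2 (fun x => (s36q_beta_mem_iff G φ M q hq hqM hC x).2.2)
    (s36q_frac1_chart G φ M q hq hqM S₁ hCD hπ false) hR.2.2.2.1

/-- `V 2 | V'_0` along `α'`: purely inseparable of exponent `q` (the `hfracq` of
`s36q_fibre_unique`). -/
theorem s36q_fracq_alpha_2 (hC : s36g_ValComap G φ M q hq hqM V)
    (hR : s36g_ValRes G φ M q hq hqM V) (hCD : s35g_ChartData G φ M q hq hqM S₁)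
    (hπ : Function.Surjective G.π) :
    ∀ y ∈ V 2, ∃ b c : s34x_ring (s34x_infRing (s34m_VV G φ M q hq hqM)) S₁,
      (c : s34m_F K₀ (M * q)) ∉ (s34m_VV G φ M q hq hqM false).nonunits ∧
      y ^ q * s36g_alpha M q (c : s34m_F K₀ (M * q)) - s36g_alpha M q (b : s34m_F K₀ (M * q)) ∈
        (V 2).nonunits :=
  s36q_fracq_of_frac1 _ _ _ _ false 2 (fun x => (s36b_alpha_mem_iff G φ M q hq hqM hC x).2.2)
    (s36q_frac1_chart G φ M q hq hqM S₁ hCD hπ false) q hR.2.2.2.2.1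

/-- `V 0 | V'_∞` along `β'`: purely inseparable of exponent `q`. -/
theorem s36q_fracq_beta_0 (hC : s36g_ValComap G φ M q hq hqM V)
    (hR : s36g_ValRes G φ M q hq hqM V) (hCD : s35g_ChartData G φ M q hq hqM S₁)
    (hπ : Function.Surjective G.π) :
    ∀ y ∈ V 0, ∃ b c : s34x_ring (s34x_infRing (s34m_VV G φ M q hq hqM)) S₁,
      (c : s34m_F K₀ (M * q)) ∉ (s34m_VV G φ M q hq hqM true).nonunits ∧
      y ^ q * s36g_beta M q (c : s34m_F K₀ (M * q)) - s36g_beta M q (b : s34m_F K₀ (M * q)) ∈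
        (V 0).nonunits :=
  s36q_fracq_of_frac1 _ _ _ _ true 0 (fun x => (s36q_beta_mem_iff G φ M q hq hqM hC x).1)
    (s36q_frac1_chart G φ M q hq hqM S₁ hCD hπ true) q hR.2.2.2.2.2

end Fermat.Agent.Lib.S36
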