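/-
S36 mega-project, layer (R2) (helper5), part 13b: [S4] for `s35r_normAlong γ'` (`γ'` an algebra
homomorphism of function fields), in the exact shape of board #1718.
-/
import Fermat.Agent.Lib.S36.QNorm
import Fermat.Agent.Lib.S35.RTop

set_option autoImplicit false

noncomputable section

namespace Fermat.Agent.Lib.S36

open AlgebraicCurve Fermat.Agent.Lib.FF Fermat.Agent.Lib.S18 Fermat.Agent.Lib.S34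
  Fermat.Agent.Lib.S35 IsLocalRing

variable {L₀ 𝓕₁ 𝓕₂ : Type*} [Field L₀] [Field 𝓕₁] [Field 𝓕₂] [Algebra L₀ 𝓕₁] [Algebra L₀ 𝓕₂]
variable {ι₁ ι₂ : Type*} [Fintype ι₁] (O₁ : ι₁ → ValuationSubring 𝓕₁)
  (O₂ : ι₂ → ValuationSubring 𝓕₂)
  (S₁ : Set (Place L₀ 𝓕₁)) (S₂ : Set (Place L₀ 𝓕₂)) (γ' : 𝓕₁ →ₐ[L₀] 𝓕₂)
  (hγ : ∀ b ∈ s34x_ring (s34x_infRing O₁) S₁,
    (γ' : 𝓕₁ →+* 𝓕₂) b ∈ s34x_ring (s34x_infRing O₂) S₂)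
  (𝔫 : Ideal (s34x_ring (s34x_infRing O₂) S₂)) [h𝔫 : 𝔫.IsPrime]

/-- the norm along `γ'` of a unit of `(B₂)_𝔫` is (the image of) a unit of `(B₁)_{γ'⁻¹𝔫}`. -/
theorem s36q_normAlong_unit (hA₁ : s36q_Arch O₁)
    (hfin₁ : ∀ y : 𝓕₁, y ≠ 0 → {Q : Place L₀ 𝓕₁ | Q ∈ S₁ ∧ Q.ord y ≠ 0}.Finite)
    (hint : (s36q_chartMap O₁ O₂ S₁ S₂ (γ' : 𝓕₁ →+* 𝓕₂) hγ).IsIntegral)
    (hfib : ∀ 𝔫₂ : Ideal (s34x_ring (s34x_infRing O₂) S₂), 𝔫₂.IsPrime →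
      s36q_pt O₁ O₂ S₁ S₂ (γ' : 𝓕₁ →+* 𝓕₂) hγ 𝔫₂ =
        s36q_pt O₁ O₂ S₁ S₂ (γ' : 𝓕₁ →+* 𝓕₂) hγ 𝔫 → 𝔫₂ = 𝔫)
    (u : Localization.AtPrime 𝔫) (hu : IsUnit u) :
    ∃ a : Localization.AtPrime (s36q_pt O₁ O₂ S₁ S₂ (γ' : 𝓕₁ →+* 𝓕₂) hγ 𝔫), IsUnit a ∧
      s34f_iota (s34x_infRing O₁) S₁ (s36q_pt O₁ O₂ S₁ S₂ (γ' : 𝓕₁ →+* 𝓕₂) hγ 𝔫) a =
        s35r_normAlong γ' (s34f_iota (s34x_infRing O₂) S₂ 𝔫 u) := by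
  letI := algebraAlong γ'
  exact s36q_norm_unit O₁ O₂ S₁ S₂ (γ' : 𝓕₁ →+* 𝓕₂) hγ 𝔫 (fun _ => rfl) hA₁ hfin₁ hint hfib u hu

/-- **[S4]** in the shape of board #1718. -/
theorem s36q_normAlong_unit_ord (hA₁ : s36q_Arch O₁)
    (hfin₁ : ∀ y : 𝓕₁, y ≠ 0 → {Q : Place L₀ 𝓕₁ | Q ∈ S₁ ∧ Q.ord y ≠ 0}.Finite)
    (hint : (s36q_chartMap O₁ O₂ S₁ S₂ (γ' : 𝓕₁ →+* 𝓕₂) hγ).IsIntegral)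
    (hfib : ∀ 𝔫₂ : Ideal (s34x_ring (s34x_infRing O₂) S₂), 𝔫₂.IsPrime →
      s36q_pt O₁ O₂ S₁ S₂ (γ' : 𝓕₁ →+* 𝓕₂) hγ 𝔫₂ =
        s36q_pt O₁ O₂ S₁ S₂ (γ' : 𝓕₁ →+* 𝓕₂) hγ 𝔫 → 𝔫₂ = 𝔫) :
    ∀ u : Localization.AtPrime 𝔫, IsUnit u → ∀ Q' ∈ S₁,
      s34f_through (s34x_infRing O₁) S₁ (s36q_pt O₁ O₂ S₁ S₂ (γ' : 𝓕₁ →+* 𝓕₂) hγ 𝔫) Q' →
      Q'.ord (s35r_normAlong γ' (s34f_iota (s34x_infRing O₂) S₂ 𝔫 u)) = 0 := by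
  intro u hu Q' hQ'S hth
  letI := algebraAlong γ'
  exact s36q_norm_unit_ord O₁ O₂ S₁ S₂ (γ' : 𝓕₁ →+* 𝓕₂) hγ 𝔫 (fun _ => rfl) hA₁ hfin₁ hint hfib
    u hu Q' hQ'S hth

end Fermat.Agent.Lib.S36
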