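/-
S36 mega-project, layer (R2) (helper5), part 21: **the triple package [S1], [S2], [S4] IN THE CONCRETE
FRAME** of chart 1 at level `M q²` — the eight local-geometry hypotheses `hS1α0`, `hS1α1`, `hS2α`,
`hS4α`, `hS1β2`, `hS1β1`, `hS2β`, `hS4β` of helper8's `s36t_hmatch_consts` (`TInst.lean`) at a prime
`𝔫` of `B₂ = s34x_ring (⨅ V) (chart1 (α' w₁))` through which all three components pass, for
`O₁ = s34m_VV`, `O₂ = V`, `γα = α'`, `γβ = β'`, `iI = true`, `i0 = false`,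
`Nα = s35r_normAlong α'`, `Nβ = s35r_normAlong β'`, `p + 1 = q`.

Inputs: the valuation package (`ValComap`, `ValUnif`, `ValRes`, `ValComplete`, `ValIndep`), a base
function `w₁` with saturated chart 1, `Surjective G.π`, and (R-q) in the shape
`s36q_fi_CrossReg` (helper3's `QFibInst.lean`; from helper4's thickness-one theorem by
`s36q_fi_crossReg_of_thick`).
-/
import Fermat.Agent.Lib.S36.QFibInst
import Fermat.Agent.Lib.S36.QFracGeo
import Fermat.Agent.Lib.S36.QTriplePkg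
import Fermat.Agent.Lib.S36.QNormAlong

set_option autoImplicit false
set_option linter.unusedSectionVars false
set_option linter.style.haveILetI false
set_option synthInstance.maxHeartbeats 400000

noncomputable section

namespace Fermat.Agent.Lib.S36

open ModularCurve AlgebraicCurve Polynomial Fermat.Agent.Lib.FF Fermat.Agent.Lib.S18
  Fermat.Agent.Lib.S37 Fermat.Agent.Lib.S34 Fermat.Agent.Lib.S35 IsLocalRing

local notation "Kb" => AlgebraicClosure ℚ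

variable {K₀ : Type} [Field K₀] [CharZero K₀] [Algebra ℚ K₀] {κ : Type} [Field κ]
  (G : s18g_GaussData K₀ κ) (φ : K₀ →+* Kb) (M q : ℕ) [NeZero M] [NeZero q]
  (hq : q.Prime) (hqM : ¬ q ∣ M) [IsDiscreteValuationRing G.A] [CharP κ q] [PerfectField κ]
  {V : Fin 3 → ValuationSubring (s34m_F K₀ (M * q * q))} {t : s34m_F K₀ (M * q * q)}

/-- the images of a triple point of level `M q²` under `α'`, `β'` lie on both components of level
`M q`. -/
theorem s36q_tg_through (hC : s36g_ValComap G φ M q hq hqM V)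
    (w₁ : s34m_F K₀ (M * q)) (hB : s35g_BaseData G φ M q hq hqM w₁)
    (hsat : ∀ Q : Place K₀ (s34m_F K₀ (M * q * q)),
      s36g_alpha M q w₁ ∈ Q.toValuationSubring ↔ s36g_beta M q w₁ ∈ Q.toValuationSubring)
    (𝔫 : Ideal (s34x_ring (L₀ := K₀) (s34x_infRing V) (s18_chart1 (s36g_alpha M q w₁))))
    [h𝔫 : 𝔫.IsPrime]
    (hthru : ∀ j, s36q_compThrough V (s18_chart1 (L₀ := K₀) (s36g_alpha M q w₁)) 𝔫 j) :
    (∀ i, s36q_compThrough (s34m_VV G φ M q hq hqM) (s18_chart1 (L₀ := K₀) w₁)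
      (s36q_pt (s34m_VV G φ M q hq hqM) V (s18_chart1 (L₀ := K₀) w₁)
        (s18_chart1 (L₀ := K₀) (s36g_alpha M q w₁)) (s36g_alpha M q)
        (s36p_chart1_alpha G φ M q hq hqM hC w₁ hB) 𝔫) i) ∧
    (∀ i, s36q_compThrough (s34m_VV G φ M q hq hqM) (s18_chart1 (L₀ := K₀) w₁)
      (s36q_pt (s34m_VV G φ M q hq hqM) V (s18_chart1 (L₀ := K₀) w₁)
        (s18_chart1 (L₀ := K₀) (s36g_alpha M q w₁)) (s36g_beta M q)
        (s36p_chart1_beta G φ M q hq hqM hC w₁ hB (fun Q => (hsat Q).mp)) 𝔫) i) := by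
  have hαi := fun x => s36b_alpha_mem_iff G φ M q hq hqM hC x
  have hβi := fun x => s36q_beta_mem_iff G φ M q hq hqM hC x
  constructor
  · intro i
    cases i
    · exact s36q_compThrough_comap _ _ _ _ _ _ 𝔫 false 2 (fun x => (hαi x).2.2) (hthru 2)
    · exact s36q_compThrough_comap _ _ _ _ _ _ 𝔫 true 0 (fun x => (hαi x).1) (hthru 0)
  · intro i
    cases i
    · exact s36q_compThrough_comap _ _ _ _ _ _ 𝔫 false 2 (fun x => (hβi x).2.2) (hthru 2)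
    · exact s36q_compThrough_comap _ _ _ _ _ _ 𝔫 true 0 (fun x => (hβi x).1) (hthru 0)

/-- **[S1], [S2] at a triple point of chart 1 of level `M q²`**, in the literal shapes `hS1α0`,
`hS1α1`, `hS2α`, `hS1β2`, `hS1β1`, `hS2β` of `s36t_hmatch_consts` (`p + 1 = q`). -/
theorem s36q_tg_S (hC : s36g_ValComap G φ M q hq hqM V)
    (hR : s36g_ValRes G φ M q hq hqM V)
    (w₁ : s34m_F K₀ (M * q)) (hB : s35g_BaseData G φ M q hq hqM w₁)
    (hsat : ∀ Q : Place K₀ (s34m_F K₀ (M * q * q)),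
      s36g_alpha M q w₁ ∈ Q.toValuationSubring ↔ s36g_beta M q w₁ ∈ Q.toValuationSubring)
    (hX : s36q_fi_CrossReg G φ M q hq hqM w₁) (hπ : Function.Surjective G.π)
    (p : ℕ) (hp : p + 1 = q)
    (𝔫 : Ideal (s34x_ring (L₀ := K₀) (s34x_infRing V) (s18_chart1 (s36g_alpha M q w₁))))
    [h𝔫 : 𝔫.IsPrime]
    (hthru : ∀ j, s36q_compThrough V (s18_chart1 (L₀ := K₀) (s36g_alpha M q w₁)) 𝔫 j) :
    (∀ s : Localization.AtPrime 𝔫, ∃ c : Localization.AtPrime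
        (s36q_pt (s34m_VV G φ M q hq hqM) V (s18_chart1 (L₀ := K₀) w₁)
          (s18_chart1 (L₀ := K₀) (s36g_alpha M q w₁)) (s36g_alpha M q)
          (s36p_chart1_alpha G φ M q hq hqM hC w₁ hB) 𝔫),
      s34f_iota (s34x_infRing V) (s18_chart1 (L₀ := K₀) (s36g_alpha M q w₁)) 𝔫
        (s36q_locMap (s34m_VV G φ M q hq hqM) V (s18_chart1 (L₀ := K₀) w₁)
          (s18_chart1 (L₀ := K₀) (s36g_alpha M q w₁)) (s36g_alpha M q)
          (s36p_chart1_alpha G φ M q hq hqM hC w₁ hB) 𝔫 c - s) ∈ (V 0).nonunits) ∧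
    (∀ s : Localization.AtPrime 𝔫, ∃ c : Localization.AtPrime
        (s36q_pt (s34m_VV G φ M q hq hqM) V (s18_chart1 (L₀ := K₀) w₁)
          (s18_chart1 (L₀ := K₀) (s36g_alpha M q w₁)) (s36g_alpha M q)
          (s36p_chart1_alpha G φ M q hq hqM hC w₁ hB) 𝔫),
      s34f_iota (s34x_infRing V) (s18_chart1 (L₀ := K₀) (s36g_alpha M q w₁)) 𝔫
        (s36q_locMap (s34m_VV G φ M q hq hqM) V (s18_chart1 (L₀ := K₀) w₁)
          (s18_chart1 (L₀ := K₀) (s36g_alpha M q w₁)) (s36g_alpha M q)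
          (s36p_chart1_alpha G φ M q hq hqM hC w₁ hB) 𝔫 c - s) ∈ (V 1).nonunits) ∧
    (∀ s : Localization.AtPrime 𝔫, ∃ c : Localization.AtPrime
        (s36q_pt (s34m_VV G φ M q hq hqM) V (s18_chart1 (L₀ := K₀) w₁)
          (s18_chart1 (L₀ := K₀) (s36g_alpha M q w₁)) (s36g_alpha M q)
          (s36p_chart1_alpha G φ M q hq hqM hC w₁ hB) 𝔫),
      s34f_iota (s34x_infRing V) (s18_chart1 (L₀ := K₀) (s36g_alpha M q w₁)) 𝔫
        (s36q_locMap (s34m_VV G φ M q hq hqM) V (s18_chart1 (L₀ := K₀) w₁)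
          (s18_chart1 (L₀ := K₀) (s36g_alpha M q w₁)) (s36g_alpha M q)
          (s36p_chart1_alpha G φ M q hq hqM hC w₁ hB) 𝔫 c - s ^ (p + 1)) ∈ (V 2).nonunits) ∧
    (∀ s : Localization.AtPrime 𝔫, ∃ c : Localization.AtPrime
        (s36q_pt (s34m_VV G φ M q hq hqM) V (s18_chart1 (L₀ := K₀) w₁)
          (s18_chart1 (L₀ := K₀) (s36g_alpha M q w₁)) (s36g_beta M q)
          (s36p_chart1_beta G φ M q hq hqM hC w₁ hB (fun Q => (hsat Q).mp)) 𝔫),
      s34f_iota (s34x_infRing V) (s18_chart1 (L₀ := K₀) (s36g_alpha M q w₁)) 𝔫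
        (s36q_locMap (s34m_VV G φ M q hq hqM) V (s18_chart1 (L₀ := K₀) w₁)
          (s18_chart1 (L₀ := K₀) (s36g_alpha M q w₁)) (s36g_beta M q)
          (s36p_chart1_beta G φ M q hq hqM hC w₁ hB (fun Q => (hsat Q).mp)) 𝔫 c - s) ∈
        (V 2).nonunits) ∧
    (∀ s : Localization.AtPrime 𝔫, ∃ c : Localization.AtPrime
        (s36q_pt (s34m_VV G φ M q hq hqM) V (s18_chart1 (L₀ := K₀) w₁)
          (s18_chart1 (L₀ := K₀) (s36g_alpha M q w₁)) (s36g_beta M q)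
          (s36p_chart1_beta G φ M q hq hqM hC w₁ hB (fun Q => (hsat Q).mp)) 𝔫),
      s34f_iota (s34x_infRing V) (s18_chart1 (L₀ := K₀) (s36g_alpha M q w₁)) 𝔫
        (s36q_locMap (s34m_VV G φ M q hq hqM) V (s18_chart1 (L₀ := K₀) w₁)
          (s18_chart1 (L₀ := K₀) (s36g_alpha M q w₁)) (s36g_beta M q)
          (s36p_chart1_beta G φ M q hq hqM hC w₁ hB (fun Q => (hsat Q).mp)) 𝔫 c - s) ∈
        (V 1).nonunits) ∧
    (∀ s : Localization.AtPrime 𝔫, ∃ c : Localization.AtPrime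
        (s36q_pt (s34m_VV G φ M q hq hqM) V (s18_chart1 (L₀ := K₀) w₁)
          (s18_chart1 (L₀ := K₀) (s36g_alpha M q w₁)) (s36g_beta M q)
          (s36p_chart1_beta G φ M q hq hqM hC w₁ hB (fun Q => (hsat Q).mp)) 𝔫),
      s34f_iota (s34x_infRing V) (s18_chart1 (L₀ := K₀) (s36g_alpha M q w₁)) 𝔫
        (s36q_locMap (s34m_VV G φ M q hq hqM) V (s18_chart1 (L₀ := K₀) w₁)
          (s18_chart1 (L₀ := K₀) (s36g_alpha M q w₁)) (s36g_beta M q)
          (s36p_chart1_beta G φ M q hq hqM hC w₁ hB (fun Q => (hsat Q).mp)) 𝔫 c - s ^ (p + 1)) ∈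
        (V 0).nonunits) := by
  haveI : IsNoetherianRing (s34x_ring (L₀ := K₀) (s34x_infRing (s34m_VV G φ M q hq hqM))
      (s18_chart1 (L₀ := K₀) w₁)) := (s35g_dict₁ G φ M q hq hqM w₁ hB).1
  have hαi := fun x => s36b_alpha_mem_iff G φ M q hq hqM hC x
  have hβi := fun x => s36q_beta_mem_iff G φ M q hq hqM hC x
  have hCD : s35g_ChartData G φ M q hq hqM (s18_chart1 (L₀ := K₀) w₁) := hB.2.2.2.2.2.2.2.1
  obtain ⟨hTα, hTβ⟩ := s36q_tg_through G φ M q hq hqM hC w₁ hB hsat 𝔫 hthru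
  have hXα := hX _ (hTα true) (hTα false)
  have hXβ := hX _ (hTβ true) (hTβ false)
  rw [hp]
  exact s36q_triple_S (s34m_VV G φ M q hq hqM) V (s18_chart1 (L₀ := K₀) w₁)
    (s18_chart1 (L₀ := K₀) (s36g_alpha M q w₁)) (s36g_alpha M q) (s36g_beta M q)
    (s36p_chart1_alpha G φ M q hq hqM hC w₁ hB)
    (s36p_chart1_beta G φ M q hq hqM hC w₁ hB (fun Q => (hsat Q).mp)) 𝔫 true false
    (s34m_unif G (M * q))
    (fun x => (hαi x).1) (fun x => (hβi x).1) (fun x => (hαi x).2.1) (fun x => (hβi x).2.1)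
    (fun x => (hαi x).2.2) (fun x => (hβi x).2.2) hthru hXα hXβ q
    (s36q_frac_alpha_0 G φ M q hq hqM _ hC hR hCD hπ)
    (s36q_frac_alpha_1 G φ M q hq hqM _ hC hR hCD hπ)
    (s36q_fracq_alpha_2 G φ M q hq hqM _ hC hR hCD hπ)
    (s36q_frac_beta_2 G φ M q hq hqM _ hC hR hCD hπ)
    (s36q_frac_beta_1 G φ M q hq hqM _ hC hR hCD hπ)
    (s36q_fracq_beta_0 G φ M q hq hqM _ hC hR hCD hπ)

/-- **[S4] along `α'` at a triple point**: the norm of a unit of `(B₂)_𝔫` has order `0` at every place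
through `α'⁻¹𝔫` (`hS4α` of `s36t_hmatch_consts`, `Nα = s35r_normAlong α'`). -/
theorem s36q_tg_S4_alpha (hC : s36g_ValComap G φ M q hq hqM V)
    (hU : s36g_ValUnif G M q V t) (hR : s36g_ValRes G φ M q hq hqM V)
    (hCompl : s36g_ValComplete G φ M q hq hqM V) (hInd : s36g_ValIndep M q V)
    (w₁ : s34m_F K₀ (M * q)) (hB : s35g_BaseData G φ M q hq hqM w₁)
    (hsat : ∀ Q : Place K₀ (s34m_F K₀ (M * q * q)),
      s36g_alpha M q w₁ ∈ Q.toValuationSubring ↔ s36g_beta M q w₁ ∈ Q.toValuationSubring)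
    (hX : s36q_fi_CrossReg G φ M q hq hqM w₁) (hπ : Function.Surjective G.π)
    (𝔫 : Ideal (s34x_ring (L₀ := K₀) (s34x_infRing V) (s18_chart1 (s36g_alpha M q w₁))))
    [h𝔫 : 𝔫.IsPrime]
    (hthru : ∀ j, s36q_compThrough V (s18_chart1 (L₀ := K₀) (s36g_alpha M q w₁)) 𝔫 j) :
    ∀ u : Localization.AtPrime 𝔫, IsUnit u → ∀ Q ∈ s18_chart1 (L₀ := K₀) w₁,
      s34f_through (s34x_infRing (s34m_VV G φ M q hq hqM)) (s18_chart1 (L₀ := K₀) w₁)
        (s36q_pt (s34m_VV G φ M q hq hqM) V (s18_chart1 (L₀ := K₀) w₁)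
          (s18_chart1 (L₀ := K₀) (s36g_alpha M q w₁)) (s36g_alpha M q)
          (s36p_chart1_alpha G φ M q hq hqM hC w₁ hB) 𝔫) Q →
      Q.ord (s35r_normAlong (heckeAlphaBar K₀ (M * q) q)
        (s34f_iota (s34x_infRing V) (s18_chart1 (L₀ := K₀) (s36g_alpha M q w₁)) 𝔫 u)) = 0 := by
  have hCD : s35g_ChartData G φ M q hq hqM (s18_chart1 (L₀ := K₀) w₁) := hB.2.2.2.2.2.2.2.1
  obtain ⟨hTα, -⟩ := s36q_tg_through G φ M q hq hqM hC w₁ hB hsat 𝔫 hthru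
  exact s36q_normAlong_unit_ord (s34m_VV G φ M q hq hqM) V (s18_chart1 (L₀ := K₀) w₁)
    (s18_chart1 (L₀ := K₀) (s36g_alpha M q w₁)) (heckeAlphaBar K₀ (M * q) q)
    (s36p_chart1_alpha G φ M q hq hqM hC w₁ hB) 𝔫 (s36e_arch_VV G φ M q hq hqM)
    (s35g_dict₁ G φ M q hq hqM w₁ hB).2.2.2
    (s36p_chart1_int_alpha G φ M q hq hqM hC hCompl hInd w₁ hB _)
    (fun 𝔫₂ h𝔫₂ hover => s36q_fi_fib_alpha G φ M q hq hqM hC hU hCompl hInd w₁ hB hX
      (s36q_fracq_alpha_2 G φ M q hq hqM _ hC hR hCD hπ) 𝔫 (hTα true) (hTα false) 𝔫₂ h𝔫₂ hover)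

/-- **[S4] along `β'` at a triple point** (`hS4β` of `s36t_hmatch_consts`, `Nβ = s35r_normAlong β'`). -/
theorem s36q_tg_S4_beta (hC : s36g_ValComap G φ M q hq hqM V)
    (hU : s36g_ValUnif G M q V t) (hR : s36g_ValRes G φ M q hq hqM V)
    (hCompl : s36g_ValComplete G φ M q hq hqM V) (hInd : s36g_ValIndep M q V)
    (w₁ : s34m_F K₀ (M * q)) (hB : s35g_BaseData G φ M q hq hqM w₁)
    (hsat : ∀ Q : Place K₀ (s34m_F K₀ (M * q * q)),
      s36g_alpha M q w₁ ∈ Q.toValuationSubring ↔ s36g_beta M q w₁ ∈ Q.toValuationSubring)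
    (hX : s36q_fi_CrossReg G φ M q hq hqM w₁) (hπ : Function.Surjective G.π)
    (𝔫 : Ideal (s34x_ring (L₀ := K₀) (s34x_infRing V) (s18_chart1 (s36g_alpha M q w₁))))
    [h𝔫 : 𝔫.IsPrime]
    (hthru : ∀ j, s36q_compThrough V (s18_chart1 (L₀ := K₀) (s36g_alpha M q w₁)) 𝔫 j) :
    ∀ u : Localization.AtPrime 𝔫, IsUnit u → ∀ Q ∈ s18_chart1 (L₀ := K₀) w₁,
      s34f_through (s34x_infRing (s34m_VV G φ M q hq hqM)) (s18_chart1 (L₀ := K₀) w₁)
        (s36q_pt (s34m_VV G φ M q hq hqM) V (s18_chart1 (L₀ := K₀) w₁)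
          (s18_chart1 (L₀ := K₀) (s36g_alpha M q w₁)) (s36g_beta M q)
          (s36p_chart1_beta G φ M q hq hqM hC w₁ hB (fun Q => (hsat Q).mp)) 𝔫) Q →
      Q.ord (s35r_normAlong (heckeBetaBar K₀ (M * q) q)
        (s34f_iota (s34x_infRing V) (s18_chart1 (L₀ := K₀) (s36g_alpha M q w₁)) 𝔫 u)) = 0 := by
  have hCD : s35g_ChartData G φ M q hq hqM (s18_chart1 (L₀ := K₀) w₁) := hB.2.2.2.2.2.2.2.1
  obtain ⟨-, hTβ⟩ := s36q_tg_through G φ M q hq hqM hC w₁ hB hsat 𝔫 hthru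
  exact s36q_normAlong_unit_ord (s34m_VV G φ M q hq hqM) V (s18_chart1 (L₀ := K₀) w₁)
    (s18_chart1 (L₀ := K₀) (s36g_alpha M q w₁)) (heckeBetaBar K₀ (M * q) q)
    (s36p_chart1_beta G φ M q hq hqM hC w₁ hB (fun Q => (hsat Q).mp)) 𝔫
    (s36e_arch_VV G φ M q hq hqM) (s35g_dict₁ G φ M q hq hqM w₁ hB).2.2.2
    (s36p_chart1_int_beta G φ M q hq hqM hC hCompl hInd w₁ hB (fun Q => (hsat Q).mpr) _)
    (fun 𝔫₂ h𝔫₂ hover => s36q_fi_fib_beta G φ M q hq hqM hC hU hCompl hInd w₁ hB hsat hX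
      (s36q_fracq_beta_0 G φ M q hq hqM _ hC hR hCD hπ) 𝔫 (hTβ true) (hTβ false) 𝔫₂ h𝔫₂ hover)

end Fermat.Agent.Lib.S36
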