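/-
S36 project, GEOMETRY side (helper8, prefix `s36g_`): THE INPUTS (FIB) AND (ONE2) OF `s36g_InGeo`
(`GLocalAsm.lean`) FROM THE LANDED LAYERS.

* `s36g_geoFib_of_crossReg` : (FIB) from helper3's `s36q_fi_fib_alpha/_beta` (`QFibInst.lean`),
  helper5's purely inseparable `hfracq` (`QFracGeo.lean`) and the regular crossings of level `M q`
  (`s36q_fi_CrossReg`, helper4's layer (R-q));
* `s36g_geoTriple_of_crossReg` : (TRIPLE) from helper5's `s36q_tg_S`, `s36q_tg_S4_alpha/_beta`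
  (`QTripleGeo.lean`) and the regular crossings of level `M q`;
* `s36g_geoOne2_of_base`    : (ONE2) from helper9's `s36p_polar_hone` (`PBaseFull.lean`) for the base
  function `w₁ = α x` of `s36p_base_full` / `s36qf_base_full`.
-/
import Fermat.Agent.Lib.S36.GLocalAsm
import Fermat.Agent.Lib.S36.QFibInst
import Fermat.Agent.Lib.S36.QFracGeo
import Fermat.Agent.Lib.S36.PBaseFull
import Fermat.Agent.Lib.S36.QTripleGeo

set_option autoImplicit false
set_option linter.unusedSectionVars false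
set_option linter.style.haveILetI false
set_option synthInstance.maxHeartbeats 400000

noncomputable section

namespace Fermat.Agent.Lib.S36

open ModularCurve AlgebraicCurve HahnSeries Fermat.Agent.Lib.FF Fermat.Agent.Lib.S18
  Fermat.Agent.Lib.S37 Fermat.Agent.Lib.S34 Fermat.Agent.Lib.S35 IsLocalRing

local notation "Kb" => AlgebraicClosure ℚ

variable {K₀ : Type} [Field K₀] [Algebra ℚ K₀] [CharZero K₀] {κ : Type} [Field κ]
  (G : s18g_GaussData K₀ κ) [IsDiscreteValuationRing G.A]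
  (φ : K₀ →+* Kb) (M q : ℕ) [NeZero M] [NeZero q] (hq : q.Prime) (hqM : ¬ q ∣ M)
  {V : Fin 3 → ValuationSubring (s34m_F K₀ (M * q * q))}

/-- **(FIB) from the regular crossings of level `M q`.** -/
theorem s36g_geoFib_of_crossReg [CharP κ q] [PerfectField κ] (hπ : Function.Surjective G.π)
    {t : s34m_F K₀ (M * q * q)} (hP : s36g_ValPkg G φ M q hq hqM V t)
    (w₁ : s34m_F K₀ (M * q)) (hB : s35g_BaseData G φ M q hq hqM w₁)
    (hsat : ∀ Q : Place K₀ (s34m_F K₀ (M * q * q)),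
      s36g_alpha M q w₁ ∈ Q.toValuationSubring ↔ s36g_beta M q w₁ ∈ Q.toValuationSubring)
    (hX : s36q_fi_CrossReg G φ M q hq hqM w₁) :
    s36g_GeoFib G φ M q hq hqM hP.1 w₁ hB hsat := by
  have hP' := hP
  obtain ⟨hC, hU, hRes, hCompl, hI, -, -⟩ := hP'
  have hCD : s35g_ChartData G φ M q hq hqM (s18_chart1 (L₀ := K₀) w₁) := hB.2.2.2.2.2.2.2.1
  intro 𝔫 h𝔫 _
  haveI := h𝔫.isPrime
  exact ⟨s36q_fi_fib_alpha G φ M q hq hqM hC hU hCompl hI w₁ hB hX
      (s36q_fracq_alpha_2 G φ M q hq hqM _ hC hRes hCD hπ) 𝔫,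
    s36q_fi_fib_beta G φ M q hq hqM hC hU hCompl hI w₁ hB hsat hX
      (s36q_fracq_beta_0 G φ M q hq hqM _ hC hRes hCD hπ) 𝔫⟩

/-- **(TRIPLE) from the regular crossings of level `M q`.** -/
theorem s36g_geoTriple_of_crossReg [CharP κ q] [PerfectField κ] (hπ : Function.Surjective G.π)
    {t : s34m_F K₀ (M * q * q)} (hP : s36g_ValPkg G φ M q hq hqM V t)
    (w₁ : s34m_F K₀ (M * q)) (hB : s35g_BaseData G φ M q hq hqM w₁)
    (hsat : ∀ Q : Place K₀ (s34m_F K₀ (M * q * q)),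
      s36g_alpha M q w₁ ∈ Q.toValuationSubring ↔ s36g_beta M q w₁ ∈ Q.toValuationSubring)
    (hX : s36q_fi_CrossReg G φ M q hq hqM w₁) :
    s36g_GeoTriple G φ M q hq hqM hP.1 w₁ hB hsat := by
  have hP' := hP
  obtain ⟨hC, hU, hRes, hCompl, hI, -, -⟩ := hP'
  intro 𝔫 h𝔫 _ hthru
  haveI := h𝔫.isPrime
  obtain ⟨h1, h2, h3, h4, h5, h6⟩ := s36q_tg_S G φ M q hq hqM hC hRes w₁ hB hsat hX hπ (q - 1)
    (Nat.sub_add_cancel hq.pos) 𝔫 hthru
  have hq1 : q - 1 + 1 = q := Nat.sub_add_cancel hq.pos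
  refine ⟨h1, h2, ?_, s36q_tg_S4_alpha G φ M q hq hqM hC hU hRes hCompl hI w₁ hB hsat hX hπ 𝔫 hthru,
    h4, h5, ?_, s36q_tg_S4_beta G φ M q hq hqM hC hU hRes hCompl hI w₁ hB hsat hX hπ 𝔫 hthru⟩
  · intro s
    have := h3 s
    rwa [hq1] at this
  · intro s
    have := h6 s
    rwa [hq1] at this

/-- **(ONE2)** for the base function `w₁ = α x` of `s36p_base_full`. -/
theorem s36g_geoOne2_of_base {t : s34m_F K₀ (M * q * q)}
    (hP : s36g_ValPkg G φ M q hq hqM V t)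
    (x : s34m_F K₀ M) (hx : x ∈ s34m_Vinf G M)
    (hB : s35g_BaseData G φ M q hq hqM (heckeAlphaBar K₀ M q x))
    (hfrob : qExpand κ q (s34m_redInf G M ⟨x, hx⟩) = s34m_redInf G M ⟨x, hx⟩ ^ q)
    (hreg : ∀ Q : Place K₀ (s34m_F K₀ (M * q * q)),
      (s36g_alpha M q (heckeAlphaBar K₀ M q x))⁻¹ ∈ Q.toValuationSubring →
      s36g_alpha M q (heckeBetaBar K₀ M q x) *
        (s36g_alpha M q (heckeAlphaBar K₀ M q x))⁻¹ ^ q ∈ Q.toValuationSubring ∧
      s36g_beta M q (heckeBetaBar K₀ M q x) *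
        (s36g_alpha M q (heckeAlphaBar K₀ M q x))⁻¹ ^ (q * q) ∈ Q.toValuationSubring) :
    s36g_GeoOne2 G φ M q hq hqM hP.1 (heckeAlphaBar K₀ M q x) := by
  intro 𝔫 h𝔫 _ hpol
  haveI := h𝔫.isPrime
  exact s36p_polar_hone G φ M q hq hqM hP.1 hP.2.2.2.2.2.2 x hx hB hfrob hreg 𝔫 hpol

end Fermat.Agent.Lib.S36
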