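/-
S36 project, GEOMETRY side (helper8, prefix `s36g_`): (REG1) FROM THE CASE SPLIT.

By helper9's classification (`s36p_classify_chart1`, hypotheses = `s36g_GeoFib`) a closed point `𝔫 ∋ ϖ`
of chart 1 of level `M q²` lies on all three components or on exactly one (`s36q_exists_through`: on
at least one).  So `s36g_GeoReg1 m` follows from

* `s36g_GeoRegTriple m`   : `s36p_LocalReg` at the triple points              (helper7, `LTriple.lean`);
* `s36g_GeoRegOnly m i`   : `s36p_LocalReg` at the points lying on `V i` only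
                            (`i = 0, 2`: lead, `REisOuter.lean`; `i = 1`: helper2, `REisMid.lean`).
-/
import Fermat.Agent.Lib.S36.GLocalAsm
import Fermat.Agent.Lib.S36.QCusp

set_option autoImplicit false
set_option linter.unusedSectionVars false
set_option linter.style.haveILetI false
set_option synthInstance.maxHeartbeats 400000

noncomputable section

namespace Fermat.Agent.Lib.S36

open ModularCurve AlgebraicCurve HahnSeries Fermat.Agent.Lib.FF Fermat.Agent.Lib.S18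
  Fermat.Agent.Lib.S37 Fermat.Agent.Lib.S34 Fermat.Agent.Lib.S35 IsLocalRing

local notation "Kb" => AlgebraicClosure ℚ

variable {K₀ : Type} [Field K₀] [Algebra ℚ K₀] [CharZero K₀] {κ : Type} [Field κ]
  (G : s18g_GaussData K₀ κ) [IsDiscreteValuationRing G.A]
  (φ : K₀ →+* Kb) (M q : ℕ) [NeZero M] [NeZero q] (hq : q.Prime) (hqM : ¬ q ∣ M)
  {V : Fin 3 → ValuationSubring (s34m_F K₀ (M * q * q))}
  (hC : s36g_ValComap G φ M q hq hqM V) (w₁ : s34m_F K₀ (M * q))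

/-- **(REG1), triple points.** -/
def s36g_GeoRegTriple (m : ℕ) : Prop :=
  ∀ (𝔫 : Ideal (s34x_ring (L₀ := K₀) (s34x_infRing V) (s18_chart1 (s36g_alpha M q w₁))))
    (h𝔫 : 𝔫.IsMaximal),
    s34x_const (s34x_infRing V) (s18_chart1 (L₀ := K₀) (s36g_alpha M q w₁)) ((G.ϖ : G.A) : K₀)
      (s34x_inf_const_mem V G.A (s36b_const_mem G φ M q hq hqM hC) G.ϖ) ∈ 𝔫 →
    (∀ j, s36q_compThrough V (s18_chart1 (L₀ := K₀) (s36g_alpha M q w₁)) 𝔫 j) →
    s36p_LocalReg V (s18_chart1 (L₀ := K₀) (s36g_alpha M q w₁)) 𝔫 (h𝔫 := h𝔫.isPrime) m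

/-- **(REG1), points on the component `i` only.** -/
def s36g_GeoRegOnly (m : ℕ) (i : Fin 3) : Prop :=
  ∀ (𝔫 : Ideal (s34x_ring (L₀ := K₀) (s34x_infRing V) (s18_chart1 (s36g_alpha M q w₁))))
    (h𝔫 : 𝔫.IsMaximal),
    s34x_const (s34x_infRing V) (s18_chart1 (L₀ := K₀) (s36g_alpha M q w₁)) ((G.ϖ : G.A) : K₀)
      (s34x_inf_const_mem V G.A (s36b_const_mem G φ M q hq hqM hC) G.ϖ) ∈ 𝔫 →
    s36q_compThrough V (s18_chart1 (L₀ := K₀) (s36g_alpha M q w₁)) 𝔫 i →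
    (∀ k, s36q_compThrough V (s18_chart1 (L₀ := K₀) (s36g_alpha M q w₁)) 𝔫 k → k = i) →
    s36p_LocalReg V (s18_chart1 (L₀ := K₀) (s36g_alpha M q w₁)) 𝔫 (h𝔫 := h𝔫.isPrime) m

/-- **(REG1) from the case split.** -/
theorem s36g_geoReg1_of_cases {t : s34m_F K₀ (M * q * q)}
    (hP : s36g_ValPkg G φ M q hq hqM V t)
    (hB : s35g_BaseData G φ M q hq hqM w₁)
    (hsat : ∀ Q : Place K₀ (s34m_F K₀ (M * q * q)),
      s36g_alpha M q w₁ ∈ Q.toValuationSubring ↔ s36g_beta M q w₁ ∈ Q.toValuationSubring)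
    (hFib : s36g_GeoFib G φ M q hq hqM hP.1 w₁ hB hsat) (m : ℕ)
    (hT : s36g_GeoRegTriple G φ M q hq hqM hP.1 w₁ m)
    (hO : ∀ i, s36g_GeoRegOnly G φ M q hq hqM hP.1 w₁ m i) :
    s36g_GeoReg1 G φ M q hq hqM hP.1 w₁ m := by
  have hP' := hP
  obtain ⟨hC', hU, -, hCompl, hI, -, -⟩ := hP'
  intro 𝔫 h𝔫 hπ
  haveI := h𝔫.isPrime
  have hcl := s36p_classify_chart1 G φ M q hq hqM hC' hCompl hI w₁ hB hsat 𝔫
    (hFib 𝔫 h𝔫 hπ).1 (hFib 𝔫 h𝔫 hπ).2
  obtain ⟨i, hi⟩ := s36q_exists_through V (s18_chart1 (L₀ := K₀) (s36g_alpha M q w₁)) 𝔫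
    (s36b_arch G M q hq hU)
    (s36b_dict₁ G φ M q hq hqM hC' hU _
      (s36b_baseData₂_of_base G φ M q hq hqM hC' hCompl hI w₁ hB)).2.2.2
    ((G.ϖ : G.A) : K₀) (s18g_unifK_ne_zero G) _ (s34x_const_coe _ _ _ _) hπ
  rcases hcl with hall | ⟨h0, h1⟩ | ⟨h0, h2⟩ | ⟨h1, h2⟩
  · exact hT 𝔫 h𝔫 hπ hall
  · have h2 : s36q_compThrough V (s18_chart1 (L₀ := K₀) (s36g_alpha M q w₁)) 𝔫 2 := by
      fin_cases i
      · exact absurd hi h0
      · exact absurd hi h1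
      · exact hi
    refine hO 2 𝔫 h𝔫 hπ h2 fun k hk => ?_
    fin_cases k
    · exact absurd hk h0
    · exact absurd hk h1
    · rfl
  · have h1 : s36q_compThrough V (s18_chart1 (L₀ := K₀) (s36g_alpha M q w₁)) 𝔫 1 := by
      fin_cases i
      · exact absurd hi h0
      · exact hi
      · exact absurd hi h2
    refine hO 1 𝔫 h𝔫 hπ h1 fun k hk => ?_
    fin_cases k
    · exact absurd hk h0
    · rfl
    · exact absurd hk h2
  · have h0 : s36q_compThrough V (s18_chart1 (L₀ := K₀) (s36g_alpha M q w₁)) 𝔫 0 := by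
      fin_cases i
      · exact hi
      · exact absurd hi h1
      · exact absurd hi h2
    refine hO 0 𝔫 h𝔫 hπ h0 fun k hk => ?_
    fin_cases k
    · rfl
    · exact absurd hk h1
    · exact absurd hk h2

/-- **(REG2), polar points of chart 2 on the component `i` only.** -/
def s36g_GeoReg2Only (m : ℕ) (i : Fin 3) : Prop :=
  ∀ (𝔫 : Ideal (s34x_ring (L₀ := K₀) (s34x_infRing V) (s18_chart2 (s36g_alpha M q w₁))))
    (h𝔫 : 𝔫.IsMaximal),
    s34x_const (s34x_infRing V) (s18_chart2 (L₀ := K₀) (s36g_alpha M q w₁)) ((G.ϖ : G.A) : K₀)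
      (s34x_inf_const_mem V G.A (s36b_const_mem G φ M q hq hqM hC) G.ϖ) ∈ 𝔫 →
    (∃ b ∈ 𝔫, (b : s34m_F K₀ (M * q * q)) = (s36g_alpha M q w₁)⁻¹) →
    s36q_compThrough V (s18_chart2 (L₀ := K₀) (s36g_alpha M q w₁)) 𝔫 i →
    (∀ k, s36q_compThrough V (s18_chart2 (L₀ := K₀) (s36g_alpha M q w₁)) 𝔫 k → k = i) →
    s36p_LocalReg V (s18_chart2 (L₀ := K₀) (s36g_alpha M q w₁)) 𝔫 (h𝔫 := h𝔫.isPrime) m

/-- **(REG2) from (ONE2) and the three one-component cases.** -/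
theorem s36g_geoReg2_of_cases {t : s34m_F K₀ (M * q * q)}
    (hP : s36g_ValPkg G φ M q hq hqM V t)
    (hB : s35g_BaseData G φ M q hq hqM w₁)
    (hOne2 : s36g_GeoOne2 G φ M q hq hqM hP.1 w₁) (m : ℕ)
    (hO : ∀ i, s36g_GeoReg2Only G φ M q hq hqM hP.1 w₁ m i) :
    s36g_GeoReg2 G φ M q hq hqM hP.1 w₁ m := by
  have hP' := hP
  obtain ⟨hC', hU, -, hCompl, hI, -, -⟩ := hP'
  intro 𝔫 h𝔫 hπ hpol
  haveI := h𝔫.isPrime
  obtain ⟨i, hi⟩ := s36q_exists_through V (s18_chart2 (L₀ := K₀) (s36g_alpha M q w₁)) 𝔫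
    (s36b_arch G M q hq hU)
    (s36b_dict₂ G φ M q hq hqM hC' hU _
      (s36b_baseData₂_of_base G φ M q hq hqM hC' hCompl hI w₁ hB)).2.2.2
    ((G.ϖ : G.A) : K₀) (s18g_unifK_ne_zero G) _ (s34x_const_coe _ _ _ _) hπ
  exact hO i 𝔫 h𝔫 hπ hpol hi fun k hk => hOne2 𝔫 h𝔫 hπ hpol k i hk hi

end Fermat.Agent.Lib.S36
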