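/-
S36 project, GEOMETRY side (helper8, prefix `s36g_`): `s36g_InGeo` FROM THE LEAVES.

With the base function `w₁ = α x` of `s36g_base_full` (`GBaseFull.lean`), the contract `s36g_InGeo M q hq hqM`
(`GLocalAsm.lean`) follows from the four remaining leaves, each stated for all Gauss data with
uniformiser `q` and all valuation packages:

* (R-q)       `s36q_fi_CrossReg G φ M q hq hqM (α x)`                       (helper4);
* (REG-triple) `s36g_GeoRegTriple … (α x) m`                                (helper7);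
* (REG-only)   `s36g_GeoRegOnly … (α x) m i`, `i = 0, 1, 2`                 (lead, helper2, helper3);
* (REG2-only)  `s36g_GeoReg2Only … (α x) m i`, `i = 0, 1, 2`                (helper9, helper6).

(FIB), (TRIPLE), (ONE2) are `GGeoInst.lean`; the case splits are `GRegCases.lean`.
-/
import Fermat.Agent.Lib.S36.GGeoInst
import Fermat.Agent.Lib.S36.GRegCases
import Fermat.Agent.Lib.S36.GBaseFull
import Fermat.Agent.Lib.S36.GCoreFinal

set_option autoImplicit false
set_option linter.unusedSectionVars false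
set_option linter.style.haveILetI false
set_option synthInstance.maxHeartbeats 400000

noncomputable section

namespace Fermat.Agent.Lib.S36

open ModularCurve AlgebraicCurve HahnSeries Fermat.Agent.Lib.FF Fermat.Agent.Lib.S18
  Fermat.Agent.Lib.S37 Fermat.Agent.Lib.S34 Fermat.Agent.Lib.S35 IsLocalRing

local notation "Kb" => AlgebraicClosure ℚ


section Contract

variable (M q : ℕ) [NeZero M] [NeZero q] (hq : q.Prime) (hqM : ¬ q ∣ M)

/-- **Leaf (R-q)**: the crossings of level `M q` in chart 1 of the base function are regular. -/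
def s36g_LeafCross : Prop :=
  ∀ (K₀ : Type) [Field K₀] [NumberField K₀] (φ : K₀ →+* Kb)
    (κ : Type) [Field κ] [CharP κ q] [PerfectField κ]
    (G : s18g_GaussData K₀ κ) [IsDiscreteValuationRing G.A], Function.Surjective G.π →
    ((G.ϖ : G.A) : K₀) = (q : K₀) →
    ∀ (x : s34m_F K₀ M) (hx : x ∈ s34m_Vinf G M), s36g_BaseFull G φ M q hq hqM x hx →
      s36q_fi_CrossReg G φ M q hq hqM (heckeAlphaBar K₀ M q x)

/-- **Leaves (REG)**: the f-independent local package at the triple points and at the points on one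
component only of chart 1, and at the polar points (on one component only) of chart 2. -/
def s36g_LeafReg : Prop :=
  ∀ (K₀ : Type) [Field K₀] [NumberField K₀] (φ : K₀ →+* Kb)
    (κ : Type) [Field κ] [CharP κ q] [PerfectField κ]
    (G : s18g_GaussData K₀ κ) [IsDiscreteValuationRing G.A], Function.Surjective G.π →
    ((G.ϖ : G.A) : K₀) = (q : K₀) →
    ∀ (V : Fin 3 → ValuationSubring (s34m_F K₀ (M * q * q)))
      (hP : s36g_ValPkg G φ M q hq hqM V (s36m_t M q))
      (x : s34m_F K₀ M) (hx : x ∈ s34m_Vinf G M), s36g_BaseFull G φ M q hq hqM x hx →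
      s36q_fi_CrossReg G φ M q hq hqM (heckeAlphaBar K₀ M q x) →
      ∀ m : ℕ, m ≠ 0 → ((m : K₀))⁻¹ ∈ G.A →
        s36g_GeoRegTriple G φ M q hq hqM hP.1 (heckeAlphaBar K₀ M q x) m ∧
        (∀ i, s36g_GeoRegOnly G φ M q hq hqM hP.1 (heckeAlphaBar K₀ M q x) m i) ∧
        (∀ i, s36g_GeoReg2Only G φ M q hq hqM hP.1 (heckeAlphaBar K₀ M q x) m i)

/-- **`s36g_InGeo` from the leaves.** -/
theorem s36g_inGeo_of_leaves (hgood : 5 ≤ q ∨ (q = 3 ∧ 2 ∣ M) ∨ (q = 2 ∧ 3 ∣ M))
    (hX : s36g_LeafCross M q hq hqM) (hR : s36g_LeafReg M q hq hqM) :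
    s36g_InGeo M q hq hqM := by
  intro K₀ _ _ φ κ _ _ _ G _ hπ hϖ V hP
  obtain ⟨x, hx, hBF⟩ := s36g_base_full K₀ φ M q hq hqM hgood κ G hπ
  obtain ⟨hB, hsat, hfrob, hreg, -, -, -⟩ := id hBF
  have hX' := hX K₀ φ κ G hπ hϖ x hx hBF
  have hFib := s36g_geoFib_of_crossReg G φ M q hq hqM hπ hP _ hB hsat hX'
  have hOne2 := s36g_geoOne2_of_base G φ M q hq hqM hP x hx hB hfrob hreg
  refine ⟨_, hB, hsat, hFib, s36g_geoTriple_of_crossReg G φ M q hq hqM hπ hP _ hB hsat hX', hOne2,
    fun m hm0 hmA => ?_⟩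
  obtain ⟨hT, hO, hO2⟩ := hR K₀ φ κ G hπ hϖ V hP x hx hBF hX' m hm0 hmA
  exact ⟨s36g_geoReg1_of_cases G φ M q hq hqM _ hP hB hsat hFib m hT hO,
    s36g_geoReg2_of_cases G φ M q hq hqM _ hP hB hOne2 m hO2⟩

end Contract

/-- **`s36g_Core` from the leaves** at the good levels. -/
theorem s36g_core_of_leaves
    (hX : ∀ (M q : ℕ) [NeZero M] [NeZero q] (hq : q.Prime) (hqM : ¬ q ∣ M), s36g_GoodLevel q M →
      s36g_LeafCross M q hq hqM)
    (hR : ∀ (M q : ℕ) [NeZero M] [NeZero q] (hq : q.Prime) (hqM : ¬ q ∣ M), s36g_GoodLevel q M →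
      s36g_LeafReg M q hq hqM) : s36g_Core :=
  s36g_core_of_geo fun M q _ _ hq hqM hgood =>
    s36g_inGeo_of_leaves M q hq hqM hgood.2.2.2 (hX M q hq hqM hgood) (hR M q hq hqM hgood)

end Fermat.Agent.Lib.S36
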