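/-
S36 mega-project, sub-layer (L-smooth) (lead, prefix `s36e_out`): **REGULARITY AT THE POINTS OF THE
LEVEL-`M q²` FIBRE LYING ON AN OUTER COMPONENT ONLY** (`V 0` only, resp. `V 2` only).

Instantiation of helper2's abstract Eisenstein package (`REisAbs.lean`) with the TRIVIAL Eisenstein
datum `ℓ = π = ϖ`, `e = 1`, `z₁ = 1`: at a prime `𝔫` of the chart ring of level `M q²` through which
only the component `j` passes, this component being unramified over the component `i` of level `M q`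
along `γ` (`ϖ` generates the non-units of `O₂ j`), with residue degree one (`hfrac`) and smooth image
point `𝔪' = γ⁻¹𝔫`, `𝔪'(B₁)_{𝔪'} = (u', w')`:

* `s36e_out_reg_abs` : the f-independent local package `s36p_LocalReg O₂ S₂ 𝔫 m` (helper9, `PCase.lean`);
* `s36e_out_reg_V0`  : the case `j = 0`, `γ = α'`, `i = V'_∞` of the valuation package;
* `s36e_out_reg_V2`  : the case `j = 2`, `γ = β'`, `i = V'_0`.
-/
import Fermat.Agent.Lib.S36.REisAbs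
import Fermat.Agent.Lib.S36.PCase
import Fermat.Agent.Lib.S36.XBaseLoc
import Fermat.Agent.Lib.S36.QTriple2

set_option autoImplicit false
set_option linter.unusedSectionVars false
set_option linter.style.haveILetI false

noncomputable section

namespace Fermat.Agent.Lib.S36

open ModularCurve AlgebraicCurve HahnSeries Fermat.Agent.Lib.FF Fermat.Agent.Lib.S18
  Fermat.Agent.Lib.S37 Fermat.Agent.Lib.S34 Fermat.Agent.Lib.S35 IsLocalRing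

section Abstract

variable {L₀ 𝓕₁ 𝓕₂ : Type*} [Field L₀] [Field 𝓕₁] [Field 𝓕₂] [Algebra L₀ 𝓕₁] [Algebra L₀ 𝓕₂]
variable {ι₁ ι₂ : Type*} (O₁ : ι₁ → ValuationSubring 𝓕₁) (O₂ : ι₂ → ValuationSubring 𝓕₂)
  (S₁ : Set (Place L₀ 𝓕₁)) (S₂ : Set (Place L₀ 𝓕₂)) (γ : 𝓕₁ →+* 𝓕₂)
  (hγ : ∀ b ∈ s34x_ring (s34x_infRing O₁) S₁, γ b ∈ s34x_ring (s34x_infRing O₂) S₂)
  (𝔫 : Ideal (s34x_ring (s34x_infRing O₂) S₂)) [h𝔫 : 𝔫.IsPrime]
  (i : ι₁) (j : ι₂) (hcomap : ∀ x : 𝓕₁, γ x ∈ O₂ j ↔ x ∈ O₁ i)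
  [hB₁ : IsNoetherianRing (s34x_ring (s34x_infRing O₁) S₁)] [Fintype ι₂]
  [hB₂ : IsNoetherianRing (s34x_ring (s34x_infRing O₂) S₂)]

include hcomap in
/-- **LocalReg at a point on an unramified component only.** -/
theorem s36e_out_reg_abs (hA : s36q_Arch O₂) (hj : s36q_compThrough O₂ S₂ 𝔫 j)
    (honly : ∀ k, s36q_compThrough O₂ S₂ 𝔫 k → k = j)
    (F1 : ∀ Q ∈ S₂, ∃ u : s34x_ring (s34x_infRing O₂) S₂, Q.ord (u : 𝓕₂) = 1)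
    (F2 : ∀ Q ∈ S₂, ∀ Q' ∈ S₂, Q' ≠ Q → ∃ y : s34x_ring (s34x_infRing O₂) S₂,
      0 < Q.ord (y : 𝓕₂) ∧ Q'.ord (y : 𝓕₂) = 0)
    (F3 : ∀ y : 𝓕₂, y ≠ 0 → {Q : Place L₀ 𝓕₂ | Q ∈ S₂ ∧ Q.ord y ≠ 0}.Finite)
    (u' w' : Localization.AtPrime (s36q_pt O₁ O₂ S₁ S₂ γ hγ 𝔫))
    (hm' : maximalIdeal (Localization.AtPrime (s36q_pt O₁ O₂ S₁ S₂ γ hγ 𝔫)) =
      Ideal.span {u', w'})
    (hw' : s34f_iota (s34x_infRing O₁) S₁ (s36q_pt O₁ O₂ S₁ S₂ γ hγ 𝔫) w' ∈ (O₁ i).nonunits)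
    (hu' : s34f_iota (s34x_infRing O₁) S₁ (s36q_pt O₁ O₂ S₁ S₂ γ hγ 𝔫) u' ∉ (O₁ i).nonunits)
    (hfrac : ∀ y ∈ O₂ j, ∃ b c : s34x_ring (s34x_infRing O₁) S₁,
      (c : 𝓕₁) ∉ (O₁ i).nonunits ∧ y * γ (c : 𝓕₁) - γ (b : 𝓕₁) ∈ (O₂ j).nonunits)
    (ϖB : s34x_ring (s34x_infRing O₂) S₂) (hϖ0 : (ϖB : 𝓕₂) ≠ 0)
    (hϖj : (ϖB : 𝓕₂) ∈ (O₂ j).nonunits)
    (hgen : ∀ y ∈ (O₂ j).nonunits, ∃ c ∈ O₂ j, y = (ϖB : 𝓕₂) * c)
    (hϖord : ∀ Q ∈ S₂, Q.ord (ϖB : 𝓕₂) = 0) (m : ℕ) (hm : m ≠ 0) :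
    s36p_LocalReg O₂ S₂ 𝔫 m := by
  have hϖ𝔫 : ϖB ∈ 𝔫 := hj ϖB hϖj
  set ℓ : Localization.AtPrime 𝔫 :=
    algebraMap (s34x_ring (s34x_infRing O₂) S₂) (Localization.AtPrime 𝔫) ϖB with hℓdef
  have hιℓ : s34f_iota (s34x_infRing O₂) S₂ 𝔫 ℓ = (ϖB : 𝓕₂) := by
    rw [hℓdef, s34f_iota_algebraMap]
  have hℓj : s34f_iota (s34x_infRing O₂) S₂ 𝔫 ℓ ∈ (O₂ j).nonunits := by rw [hιℓ]; exact hϖj
  have hgen' : ∀ y ∈ (O₂ j).nonunits, ∃ c ∈ O₂ j,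
      y = s34f_iota (s34x_infRing O₂) S₂ 𝔫 ℓ * c := by
    rw [hιℓ]; exact hgen
  have hcong : s34f_iota (s34x_infRing O₂) S₂ 𝔫 ℓ ^ 1 / (ϖB : 𝓕₂) -
      s34f_iota (s34x_infRing O₂) S₂ 𝔫 1 ∈ (O₂ j).nonunits := by
    rw [hιℓ, pow_one, div_self hϖ0, map_one, sub_self, ValuationSubring.mem_nonunits_iff,
      map_zero]
    exact zero_lt_one
  obtain ⟨-, -, -, -, -, hw0, -, hord, -⟩ := s36e_KD O₁ O₂ S₁ S₂ γ hγ 𝔫 i j hcomap hA hj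
    honly F3 u' w' hm' hw' hu' hfrac ℓ hℓj hgen' 1 one_ne_zero (ϖB : 𝓕₂) hϖ0 hϖord 1 isUnit_one
    hcong
  have hℓ0 : s34f_iota (s34x_infRing O₂) S₂ 𝔫 ℓ ≠ 0 := by rw [hιℓ]; exact hϖ0
  refine ⟨?_, s36e_branch O₂ S₂ 𝔫 hA j honly ℓ hℓ0 hℓj hgen' hord, ?_⟩
  · intro Q hQS hth
    exact s36e_locEq O₁ O₂ S₁ S₂ γ hγ 𝔫 i j hcomap hA hj honly F3 u' w' hm' hw' hu' hfrac ℓ hℓj
      hgen' 1 one_ne_zero (ϖB : 𝓕₂) hϖ0 hϖord 1 isUnit_one hcong Q hQS hth ϖB hϖ𝔫 hϖ0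
      (hϖord Q hQS) (F1 Q hQS) (F2 Q hQS)
  · intro k hk y hy a ha hya
    have hkj := honly k hk
    subst hkj
    obtain ⟨s, -, hs⟩ := s36e_normal O₁ O₂ S₁ S₂ γ hγ 𝔫 i k hcomap hj u' w' hm' hw' hfrac m hm
      y hy a ha hya
    exact ⟨s, hs⟩

end Abstract

section Concrete

local notation "Kb" => AlgebraicClosure ℚ

variable {K₀ : Type} [Field K₀] [Algebra ℚ K₀] [CharZero K₀] {κ : Type} [Field κ]
  (G : s18g_GaussData K₀ κ) [IsDiscreteValuationRing G.A]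
  (φ : K₀ →+* Kb) (M q : ℕ) [NeZero M] [NeZero q] (hq : q.Prime) (hqM : ¬ q ∣ M)
  (V : Fin 3 → ValuationSubring (s34m_F K₀ (M * q * q))) (t : s34m_F K₀ (M * q * q))

variable (S₁ : Set (Place K₀ (s34m_F K₀ (M * q)))) (S₂ : Set (Place K₀ (s34m_F K₀ (M * q * q))))

/-- **LocalReg at a point of the level-`M q²` chart on `V 0` (`= C_∞`) only**: `γ = α'`,
image point on `C'_∞`. -/
theorem s36e_out_reg_V0 (hC : s36g_ValComap G φ M q hq hqM V) (hU : s36g_ValUnif G M q V t)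
    (hγ : ∀ b ∈ s34x_ring (s34x_infRing (s34m_VV G φ M q hq hqM)) S₁,
      s36g_alpha M q b ∈ s34x_ring (s34x_infRing V) S₂)
    (𝔫 : Ideal (s34x_ring (s34x_infRing V) S₂)) [h𝔫 : 𝔫.IsPrime]
    (hD₁ : s35f_Dict (s34m_VV G φ M q hq hqM) S₁) (hD₂ : s35f_Dict V S₂)
    (h0 : s36q_compThrough V S₂ 𝔫 0) (honly : ∀ k, s36q_compThrough V S₂ 𝔫 k → k = 0)
    (u' w' : Localization.AtPrime
      (s36q_pt (s34m_VV G φ M q hq hqM) V S₁ S₂ (s36g_alpha M q) hγ 𝔫))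
    (hm' : maximalIdeal (Localization.AtPrime
      (s36q_pt (s34m_VV G φ M q hq hqM) V S₁ S₂ (s36g_alpha M q) hγ 𝔫)) = Ideal.span {u', w'})
    (hw' : s34f_iota (s34x_infRing (s34m_VV G φ M q hq hqM)) S₁
      (s36q_pt (s34m_VV G φ M q hq hqM) V S₁ S₂ (s36g_alpha M q) hγ 𝔫) w' ∈
        (s34m_VV G φ M q hq hqM true).nonunits)
    (hu' : s34f_iota (s34x_infRing (s34m_VV G φ M q hq hqM)) S₁
      (s36q_pt (s34m_VV G φ M q hq hqM) V S₁ S₂ (s36g_alpha M q) hγ 𝔫) u' ∉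
        (s34m_VV G φ M q hq hqM true).nonunits)
    (hfrac : s36q_Frac (s34m_VV G φ M q hq hqM) V S₁ (s36g_alpha M q) true 0)
    (m : ℕ) (hm : m ≠ 0) :
    s36p_LocalReg V S₂ 𝔫 m := by
  obtain ⟨hN₁, -, -, -⟩ := hD₁
  obtain ⟨hN₂, F1₂, F2₂, F3₂⟩ := hD₂
  haveI := hN₁
  haveI := hN₂
  have hcomap : ∀ x : s34m_F K₀ (M * q),
      s36g_alpha M q x ∈ V 0 ↔ x ∈ s34m_VV G φ M q hq hqM true :=
    fun x => (s36b_alpha_mem_iff G φ M q hq hqM hC x).1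
  exact s36e_out_reg_abs (s34m_VV G φ M q hq hqM) V S₁ S₂ (s36g_alpha M q) hγ 𝔫 true 0 hcomap
    (s36b_arch G M q hq hU) h0 honly F1₂ F2₂ F3₂ u' w' hm' hw' hu' hfrac
    (s34x_const (s34x_infRing V) S₂ ((G.ϖ : G.A) : K₀)
      (s34x_inf_const_mem V G.A (s36b_const_mem G φ M q hq hqM hC) G.ϖ))
    (s34m_unif_ne_zero G (M * q * q)) (hU.1 0) hU.2.1
    (fun Q _ => ffh_ord_algebraMap Q (s18g_unifK_ne_zero G)) m hm

/-- **LocalReg at a point of the level-`M q²` chart on `V 2` (`= C_0`) only**: `γ = β'`,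
image point on `C'_0`. -/
theorem s36e_out_reg_V2 (hC : s36g_ValComap G φ M q hq hqM V) (hU : s36g_ValUnif G M q V t)
    (hγ : ∀ b ∈ s34x_ring (s34x_infRing (s34m_VV G φ M q hq hqM)) S₁,
      s36g_beta M q b ∈ s34x_ring (s34x_infRing V) S₂)
    (𝔫 : Ideal (s34x_ring (s34x_infRing V) S₂)) [h𝔫 : 𝔫.IsPrime]
    (hD₁ : s35f_Dict (s34m_VV G φ M q hq hqM) S₁) (hD₂ : s35f_Dict V S₂)
    (h2 : s36q_compThrough V S₂ 𝔫 2) (honly : ∀ k, s36q_compThrough V S₂ 𝔫 k → k = 2)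
    (u' w' : Localization.AtPrime
      (s36q_pt (s34m_VV G φ M q hq hqM) V S₁ S₂ (s36g_beta M q) hγ 𝔫))
    (hm' : maximalIdeal (Localization.AtPrime
      (s36q_pt (s34m_VV G φ M q hq hqM) V S₁ S₂ (s36g_beta M q) hγ 𝔫)) = Ideal.span {u', w'})
    (hw' : s34f_iota (s34x_infRing (s34m_VV G φ M q hq hqM)) S₁
      (s36q_pt (s34m_VV G φ M q hq hqM) V S₁ S₂ (s36g_beta M q) hγ 𝔫) w' ∈
        (s34m_VV G φ M q hq hqM false).nonunits)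
    (hu' : s34f_iota (s34x_infRing (s34m_VV G φ M q hq hqM)) S₁
      (s36q_pt (s34m_VV G φ M q hq hqM) V S₁ S₂ (s36g_beta M q) hγ 𝔫) u' ∉
        (s34m_VV G φ M q hq hqM false).nonunits)
    (hfrac : s36q_Frac (s34m_VV G φ M q hq hqM) V S₁ (s36g_beta M q) false 2)
    (m : ℕ) (hm : m ≠ 0) :
    s36p_LocalReg V S₂ 𝔫 m := by
  obtain ⟨hN₁, -, -, -⟩ := hD₁
  obtain ⟨hN₂, F1₂, F2₂, F3₂⟩ := hD₂
  haveI := hN₁
  haveI := hN₂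
  have hcomap : ∀ x : s34m_F K₀ (M * q),
      s36g_beta M q x ∈ V 2 ↔ x ∈ s34m_VV G φ M q hq hqM false := by
    intro x
    have h := hC.2.2.2.2.2.2
    have e : x ∈ (V 2).comap (s36g_beta M q) ↔ s36g_beta M q x ∈ V 2 :=
      ValuationSubring.mem_comap
    rw [h] at e
    exact e.symm
  exact s36e_out_reg_abs (s34m_VV G φ M q hq hqM) V S₁ S₂ (s36g_beta M q) hγ 𝔫 false 2 hcomap
    (s36b_arch G M q hq hU) h2 honly F1₂ F2₂ F3₂ u' w' hm' hw' hu' hfrac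
    (s34x_const (s34x_infRing V) S₂ ((G.ϖ : G.A) : K₀)
      (s34x_inf_const_mem V G.A (s36b_const_mem G φ M q hq hqM hC) G.ϖ))
    (s34m_unif_ne_zero G (M * q * q)) (hU.1 2) hU.2.2.1
    (fun Q _ => ffh_ord_algebraMap Q (s18g_unifK_ne_zero G)) m hm

end Concrete

end Fermat.Agent.Lib.S36
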