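/-
S36 (R-q), helper4, prefix `s36r_`: CHART RINGS ARE OF FINITE TYPE OVER `A`.

`G : s18g_GaussData K κ` (`G.A` a DVR), `𝓕 ≤ K((q))`, `w : 𝓕` a generator (`FFGen K w`).  Any subring
`B ≤ 𝓕` which is the integral closure of `A[w]` in `𝓕` (S18 `s18b_…`: `s18_ring V (chart1 w)`;
S34 `s34x_mem_ring_iff`: `s34x_ring (⨅ O i) (chart1 w)`), with its constants `c : A →+* B`, is an
`A`-algebra of finite type (finite over `A[w]`: `s18b_isNoetherian_integralClosure`).
Hence `B_𝔫` is essentially of finite type over `A` (`RSepRes.lean`) — input of `RKaehler.lean`.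
-/
import Fermat.Agent.Lib.S18.BFin

set_option autoImplicit false
set_option linter.unusedSectionVars false
set_option linter.style.haveILetI false

noncomputable section

namespace Fermat.Agent.Lib.S36

open Polynomial AlgebraicCurve Fermat.Agent.Lib.FF Fermat.Agent.Lib.S18 ModularCurve

variable {K : Type*} [Field K] [CharZero K] {κ : Type*} [Field κ] (G : s18g_GaussData K κ)
  [IsDiscreteValuationRing G.A]
variable (𝓕 : IntermediateField K (LaurentSeries K)) (w : 𝓕) [FFGen K w]

/-- **Finite type.** -/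
theorem s36r_finiteType_of_integral (B : Subring 𝓕)
    (hB : ∀ y : 𝓕, y ∈ B ↔ (s18b_ev G 𝓕 w).IsIntegralElem y)
    (c : G.A →+* B) (hc : ∀ a : G.A, ((c a : B) : 𝓕) = algebraMap K 𝓕 (a : K)) :
    @Algebra.FiniteType G.A B _ _ c.toAlgebra := by
  classical
  letI algB : Algebra G.A B := c.toAlgebra
  letI alg : Algebra G.A[X] 𝓕 := (s18b_ev G 𝓕 w).toAlgebra
  have hN : IsNoetherian G.A[X] (integralClosure G.A[X] 𝓕) :=
    s18b_isNoetherian_integralClosure G 𝓕 w
  have hN' : IsNoetherian G.A[X] ↥(Subalgebra.toSubmodule (integralClosure G.A[X] 𝓕)) := hN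
  have hfg : (Subalgebra.toSubmodule (integralClosure G.A[X] 𝓕)).FG :=
    (isNoetherian_submodule.mp hN') _ le_rfl
  obtain ⟨r, b, hb⟩ := Submodule.fg_iff_exists_fin_generating_family.mp hfg
  have hiff : ∀ y : 𝓕, y ∈ integralClosure G.A[X] 𝓕 ↔ y ∈ B := fun y => (hB y).symm
  have hbB : ∀ i, b i ∈ B := by
    intro i
    rw [← hiff]
    have : b i ∈ Subalgebra.toSubmodule (integralClosure G.A[X] 𝓕) := by
      rw [← hb]; exact Submodule.subset_span ⟨i, rfl⟩
    exact this
  have hwB : w ∈ B := by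
    rw [hB]
    refine ⟨X - C X, monic_X_sub_C _, ?_⟩
    rw [eval₂_sub, eval₂_X, eval₂_C, s18b_evA_X, sub_self]
  set wB : B := ⟨w, hwB⟩ with hwBdef
  -- evaluation at `wB` inside `B`
  have hev : ∀ p : G.A[X], ((aeval wB p : B) : 𝓕) = s18b_ev G 𝓕 w p := by
    intro p
    induction p using Polynomial.induction_on' with
    | add p₁ p₂ h₁ h₂ => rw [map_add, map_add, Subring.coe_add, h₁, h₂]
    | monomial n a =>
      rw [aeval_monomial, s18b_evA_apply, Polynomial.map_monomial, aeval_monomial]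
      rw [Subring.coe_mul, SubmonoidClass.coe_pow]
      have : ((algebraMap G.A B a : B) : 𝓕) = algebraMap K 𝓕 (algebraMap G.A K a) := hc a
      rw [this]
  refine ⟨⟨insert wB (Finset.univ.image fun i => (⟨b i, hbB i⟩ : B)), ?_⟩⟩
  rw [eq_top_iff]
  rintro x -
  have hx : (x : 𝓕) ∈ Submodule.span G.A[X] (Set.range b) := by
    rw [hb]
    exact (hiff _).mpr x.2
  obtain ⟨cf, hcf⟩ := (Submodule.mem_span_range_iff_exists_fun G.A[X]).mp hx
  have hxe : x = ∑ i, aeval wB (cf i) * (⟨b i, hbB i⟩ : B) := by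
    apply Subtype.ext
    rw [← hcf]
    push_cast
    refine Finset.sum_congr rfl fun i _ => ?_
    rw [hev, Algebra.smul_def]
    rfl
  rw [hxe]
  refine Subalgebra.sum_mem _ fun i _ => Subalgebra.mul_mem _ ?_ ?_
  · have hle : Algebra.adjoin G.A ({wB} : Set B) ≤
        Algebra.adjoin G.A
          (↑(insert wB (Finset.univ.image fun i => (⟨b i, hbB i⟩ : B))) : Set B) :=
      Algebra.adjoin_mono (by simp)
    exact hle (Polynomial.aeval_mem_adjoin_singleton _ _)
  · refine Algebra.subset_adjoin ?_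
    simp

end Fermat.Agent.Lib.S36
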