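/-
S36 mega-project, sub-layer (R-mid) (helper2, prefix `s36e_`), part 9: THE SMOOTH STRUCTURE OF A
CLOSED POINT OF LEVEL `M q` LYING ON ONE COMPONENT ONLY (input `u' w' hm' hw' hu'` of
`s36e_mid_reg` / `s36e_locEq`, shared by the kinds "`V 0` only", "`V 1` only", "`V 2` only").

* `s36e_exists_mem_not_ker` (Mathlib only): `A → B` of finite type, `π : A ↠ κ`, `𝔫 ⊂ B` MAXIMAL
  containing `ker π`, `r : B →+* L` into a `κ`-field, compatible with `π`, whose image contains a
  transcendental element.  Then `𝔫 ⊄ ker r` (Zariski's lemma: `B ⧸ 𝔫` is algebraic over `κ`).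
* `s36e_mem_nonunits_VV_iff`: the non-units of `V'_i` are `ϖ V'_i`.
* `s36e_smooth_pt`: chart `S` of level `M q` with `s35g_ChartData`, chart ring of finite type over
  `G.A`, `𝔪` a MAXIMAL ideal containing `ϖ`, the component `i₀` through `𝔪`, the other one not:
  `∃ t ∈ 𝔪, 𝔪 B_𝔪 = (t, ϖ) ∧ t ∉ 𝔪(V'_{i₀})` (`t` is a local parameter of the curve `C'_{i₀}` at the
  point).
* `s36e_finiteType_chart1/2`: the chart rings of the two charts of a base function `w`
  (`s35g_BaseData`) are of finite type over `G.A` (helper4's `s36r_finiteType_of_integral`).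
-/
import Fermat.Agent.Lib.S36.REisUnit
import Fermat.Agent.Lib.S35.GDichC
import Fermat.Agent.Lib.S35.VMax
import Fermat.Agent.Lib.S35.VRed
import Fermat.Agent.Lib.S36.XLocRad
import Fermat.Agent.Lib.S36.RFinType
import Fermat.Agent.Lib.S34.XFin

set_option autoImplicit false
set_option linter.unusedSectionVars false
set_option linter.style.haveILetI false

noncomputable section

namespace Fermat.Agent.Lib.S36

open AlgebraicCurve ModularCurve HahnSeries Polynomial
open Fermat.Agent.Lib.FF Fermat.Agent.Lib.S18 Fermat.Agent.Lib.S34 Fermat.Agent.Lib.S35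
  Fermat.Agent.Lib.S37

local notation "Kb" => AlgebraicClosure ℚ

section Abs

variable {A B κ L : Type*} [CommRing A] [CommRing B] [Algebra A B] [Field κ] [Field L]
  [Algebra κ L]

/-- A maximal ideal of a finite type algebra over `A ↠ κ` is not contained in the kernel of a map
to a `κ`-field whose image contains a transcendental element. -/
theorem s36e_exists_mem_not_ker [Algebra.FiniteType A B] (π : A →+* κ)
    (hπ : Function.Surjective π) (𝔫 : Ideal B) [h𝔫 : 𝔫.IsMaximal]
    (hker : ∀ a : A, π a = 0 → algebraMap A B a ∈ 𝔫)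
    (r : B →+* L) (hrA : ∀ a : A, r (algebraMap A B a) = algebraMap κ L (π a))
    (f : B) (hf : Transcendental κ (r f)) : ∃ y ∈ 𝔫, r y ≠ 0 := by
  classical
  by_contra hcon
  have hcon' : ∀ y ∈ 𝔫, r y = 0 := by
    intro y hy
    by_contra h
    exact hcon ⟨y, hy, h⟩
  letI : Field (B ⧸ 𝔫) := Ideal.Quotient.field 𝔫
  let g : A →+* B ⧸ 𝔫 := (Ideal.Quotient.mk 𝔫).comp (algebraMap A B)
  have hg : ∀ a, π a = 0 → g a = 0 := fun a ha =>
    Ideal.Quotient.eq_zero_iff_mem.mpr (hker a ha)
  let ψ : κ →+* B ⧸ 𝔫 := RingHom.liftOfSurjective π hπ ⟨g, fun a ha => hg a ha⟩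
  have hψ : ∀ a, ψ (π a) = g a := fun a =>
    RingHom.liftOfRightInverse_comp_apply _ _ _ _ a
  letI algκ : Algebra κ (B ⧸ 𝔫) := ψ.toAlgebra
  letI algAκ : Algebra A κ := π.toAlgebra
  haveI tower : IsScalarTower A κ (B ⧸ 𝔫) := IsScalarTower.of_algebraMap_eq fun a => (hψ a).symm
  haveI : Algebra.FiniteType A (B ⧸ 𝔫) :=
    Algebra.FiniteType.of_surjective (Ideal.Quotient.mkₐ A 𝔫)
      (Ideal.Quotient.mkₐ_surjective A 𝔫)
  haveI : Algebra.FiniteType κ (B ⧸ 𝔫) := Algebra.FiniteType.of_restrictScalars_finiteType A κ _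
  haveI : Module.Finite κ (B ⧸ 𝔫) := finite_of_finite_type_of_isJacobsonRing κ (B ⧸ 𝔫)
  haveI : Algebra.IsAlgebraic κ (B ⧸ 𝔫) := Algebra.IsAlgebraic.of_finite κ (B ⧸ 𝔫)
  set bbar : B ⧸ 𝔫 := Ideal.Quotient.mk 𝔫 f with hbbar
  obtain ⟨μ, hμ⟩ : ∃ μ : A[X], μ.map π = minpoly κ bbar :=
    Polynomial.map_surjective π hπ _
  have hev : ∀ p : A[X], Ideal.Quotient.mk 𝔫 (aeval f p) = aeval bbar (p.map π) := by
    intro p
    induction p using Polynomial.induction_on' with
    | add p₁ p₂ h₁ h₂ => simp only [map_add, Polynomial.map_add, h₁, h₂]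
    | monomial n a =>
      rw [Polynomial.map_monomial, aeval_monomial, aeval_monomial, map_mul, map_pow]
      have : algebraMap κ (B ⧸ 𝔫) (π a) = Ideal.Quotient.mk 𝔫 (algebraMap A B a) := hψ a
      rw [this]
  have h0 : aeval f μ ∈ 𝔫 := by
    rw [← Ideal.Quotient.eq_zero_iff_mem, hev, hμ, minpoly.aeval]
  have hev' : ∀ p : A[X], r (aeval f p) = aeval (r f) (p.map π) := by
    intro p
    induction p using Polynomial.induction_on' with
    | add p₁ p₂ h₁ h₂ => simp only [map_add, Polynomial.map_add, h₁, h₂]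
    | monomial n a =>
      rw [Polynomial.map_monomial, aeval_monomial, aeval_monomial, map_mul, map_pow, hrA]
  have h1 : aeval (r f) (minpoly κ bbar) = 0 := by
    rw [← hμ, ← hev']
    exact hcon' _ h0
  exact hf ⟨minpoly κ bbar, minpoly.ne_zero (Algebra.IsIntegral.isIntegral bbar), h1⟩

end Abs

section Concrete

variable {K₀ : Type} [Field K₀] [CharZero K₀] [Algebra ℚ K₀] {κ : Type} [Field κ]
  (G : s18g_GaussData K₀ κ) (φ : K₀ →+* Kb) (M q : ℕ) [NeZero M] [NeZero q]
  (hq : q.Prime) (hqM : ¬ q ∣ M)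

/-- the non-units of `V'_i` are `ϖ V'_i`. -/
theorem s36e_mem_nonunits_VV_iff (i : Bool) (y : s34m_F K₀ (M * q))
    (hy : y ∈ s34m_VV G φ M q hq hqM i) :
    y ∈ (s34m_VV G φ M q hq hqM i).nonunits ↔
      ∃ z ∈ s34m_VV G φ M q hq hqM i,
        y = algebraMap K₀ (s34m_F K₀ (M * q)) ((G.ϖ : G.A) : K₀) * z := by
  constructor
  · intro hn
    rcases s35v_hmax_VV G φ M q hq hqM i y hy with h | h
    · exact h
    · rw [ValuationSubring.mem_nonunits_iff_or] at hn
      rcases hn with h0 | h0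
      · exact ⟨0, (s34m_VV G φ M q hq hqM i).zero_mem, by rw [h0, mul_zero]⟩
      · exact absurd h h0
  · rintro ⟨z, hz, rfl⟩
    exact s36y_mul_mem_nonunits' _ (s36e_unif_mem_nonunits_VV G φ M q hq hqM i) hz

variable [CharP κ q] [PerfectField κ] [IsDiscreteValuationRing G.A]

local notation "OO" => s34m_VV G φ M q hq hqM

/-- **The smooth structure of a closed point of level `M q` lying on one component only.** -/
theorem s36e_smooth_pt (S : Set (Place K₀ (s34m_F K₀ (M * q))))
    (hCD : s35g_ChartData G φ M q hq hqM S)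
    (hFT : @Algebra.FiniteType G.A (s34x_ring (s34x_infRing (s34m_VV G φ M q hq hqM)) S) _ _
      (s34f_constHom G.A (s34x_infRing (s34m_VV G φ M q hq hqM))
        (s34x_inf_const_mem (s34m_VV G φ M q hq hqM) G.A
          (s34c_const_mem_VV G φ M q hq hqM)) S).toAlgebra)
    (hπ : Function.Surjective G.π)
    (𝔪 : Ideal (s34x_ring (s34x_infRing (s34m_VV G φ M q hq hqM)) S)) [h𝔪 : 𝔪.IsMaximal]
    (hϖ : s35gd_unifB G φ M q hq hqM S ∈ 𝔪) (i₀ : Bool)
    (hth : s36q_compThrough (s34m_VV G φ M q hq hqM) S 𝔪 i₀)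
    (hmiss : ¬ s36q_compThrough (s34m_VV G φ M q hq hqM) S 𝔪 (!i₀)) :
    ∃ t ∈ 𝔪, IsLocalRing.maximalIdeal (Localization.AtPrime 𝔪) =
        Ideal.span {algebraMap _ (Localization.AtPrime 𝔪) t,
          algebraMap _ (Localization.AtPrime 𝔪) (s35gd_unifB G φ M q hq hqM S)} ∧
      (t : s34m_F K₀ (M * q)) ∉ (s34m_VV G φ M q hq hqM i₀).nonunits := by
  classical
  haveI : 𝔪.IsPrime := h𝔪.isPrime
  have hElem := s35gd_elem_of_chartData G φ M q hq hqM S hCD
  have hmemO : ∀ (b : s34x_ring (s34x_infRing OO) S) (i : Bool),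
      (b : s34m_F K₀ (M * q)) ∈ OO i := fun b i =>
    ((s34df_mem_O_iff G φ M q hq hqM _).mp b.2.1) |> fun h => by
      cases i
      · exact h.2
      · exact h.1
  -- kernels of the two reductions
  have hk1 : ∀ b : s34x_ring (s34x_infRing OO) S, s34df_r1 G φ M q hq hqM S b = 0 ↔
      (b : s34m_F K₀ (M * q)) ∈ (OO true).nonunits := fun b =>
    (s35gd_r1_eq_zero_iff G φ M q hq hqM S b).trans
      (s36e_mem_nonunits_VV_iff G φ M q hq hqM true _ (hmemO b true)).symm
  have hk2 : ∀ b : s34x_ring (s34x_infRing OO) S, s34df_r2 G φ M q hq hqM S b = 0 ↔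
      (b : s34m_F K₀ (M * q)) ∈ (OO false).nonunits := fun b =>
    (s35gd_r2_eq_zero_iff G φ M q hq hqM S b).trans
      (s36e_mem_nonunits_VV_iff G φ M q hq hqM false _ (hmemO b false)).symm
  rcases hElem 𝔪 hϖ with ⟨t, ht, hgen, -⟩ | ⟨h1, h2, -⟩
  · refine ⟨t, ht, s34d_maximalIdeal_eq_span_pair 𝔪 ht hϖ hgen, ?_⟩
    intro htn
    have hϖn : ((s35gd_unifB G φ M q hq hqM S : s34x_ring (s34x_infRing OO) S) :
        s34m_F K₀ (M * q)) ∈ (OO i₀).nonunits :=
      s36e_unif_mem_nonunits_VV G φ M q hq hqM i₀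
    -- every element of `𝔪` is a non-unit of `V'_{i₀}`
    have hall : ∀ y ∈ 𝔪, ((y : s34x_ring (s34x_infRing OO) S) : s34m_F K₀ (M * q)) ∈
        (OO i₀).nonunits := by
      intro y hy
      obtain ⟨c, hc, z, b, e⟩ := hgen y hy
      have hcu : ((c : s34x_ring (s34x_infRing OO) S) : s34m_F K₀ (M * q)) ∉ (OO i₀).nonunits :=
        fun h => hc (hth c h)
      have hcy : ((c * y : s34x_ring (s34x_infRing OO) S) : s34m_F K₀ (M * q)) ∈
          (OO i₀).nonunits := by
        rw [e]
        have h1 : ((z * t : s34x_ring (s34x_infRing OO) S) : s34m_F K₀ (M * q)) ∈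
            (OO i₀).nonunits := by
          rw [Subring.coe_mul]
          exact s36y_mul_mem_nonunits _ (hmemO z i₀) htn
        have h2 : ((b * s35gd_unifB G φ M q hq hqM S : s34x_ring (s34x_infRing OO) S) :
            s34m_F K₀ (M * q)) ∈ (OO i₀).nonunits := by
          rw [Subring.coe_mul]
          exact s36y_mul_mem_nonunits _ (hmemO b i₀) hϖn
        rw [Subring.coe_add]
        rw [ValuationSubring.mem_nonunits_iff] at h1 h2 ⊢
        exact lt_of_le_of_lt (Valuation.map_add _ _ _) (max_lt h1 h2)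
      rw [Subring.coe_mul] at hcy
      rw [ValuationSubring.mem_nonunits_iff] at hcy hcu ⊢
      rw [map_mul] at hcy
      have hc1 : (OO i₀).valuation ((c : s34x_ring (s34x_infRing OO) S) : s34m_F K₀ (M * q)) = 1 :=
        le_antisymm ((OO i₀).valuation_le_one_iff _ |>.mpr (hmemO c i₀)) (not_lt.mp hcu)
      rwa [hc1, one_mul] at hcy
    -- the chart data: a function of the chart ring with transcendental reduction
    obtain ⟨hT, hdegM, w, hwV, -, hcoord, -, -, hαB, hβB⟩ := hCD
    have hwV' : w ∈ s34m_Vinf G M := hwV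
    have hwring : w ∈ (s18_ring (L₀ := K₀) (s34m_Vinf G M) (s18_chart1 w) : Set (s34m_F K₀ M)) :=
      ⟨hwV', fun Q hQ => hQ⟩
    have hwred : s35v_RedI G M w (s34m_redInf G M ⟨w, hwV'⟩) := s35v_Red.of_mem hwV'
    have htr : Transcendental κ (s34m_redInf G M ⟨w, hwV'⟩) := hcoord.1
    letI algB : Algebra G.A (s34x_ring (s34x_infRing OO) S) :=
      (s34f_constHom G.A (s34x_infRing OO)
        (s34x_inf_const_mem OO G.A (s34c_const_mem_VV G φ M q hq hqM)) S).toAlgebra
    haveI : Algebra.FiniteType G.A (s34x_ring (s34x_infRing OO) S) := hFT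
    have hker : ∀ a : G.A, G.π a = 0 →
        algebraMap G.A (s34x_ring (s34x_infRing OO) S) a ∈ 𝔪 := by
      intro a ha
      obtain ⟨c, rfl⟩ := (G.π_eq_zero_iff a).mp ha
      rw [map_mul]
      exact Ideal.mul_mem_right _ _ hϖ
    cases i₀
    · -- the component `V'_0`
      obtain ⟨b', hb', z, -, hz0, e⟩ := hβB w hwring
      have hRb : s35v_RedV G φ M q hq hqM false (b' : s34m_F K₀ (M * q))
          (s34m_redInf G M ⟨w, hwV'⟩ + 0 * s34m_redZero G φ M q hq hqM ⟨z, hz0⟩) := by
        have h1 := s35v_RedV_beta G φ M q hq hqM hwred false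
        have h2 := s35v_RedV_const G φ M q hq hqM false G.ϖ
        rw [s18g_pi_unif, map_zero] at h2
        have h3 : s35v_RedV G φ M q hq hqM false z (s34m_redZero G φ M q hq hqM ⟨z, hz0⟩) :=
          s35v_Red.of_mem hz0
        refine (h1.add (h2.mul h3)).congr ?_ ?_
        · have : (b' : s34m_F K₀ (M * q)) = heckeBetaBar K₀ M q w + s34m_unif G (M * q) * z := by
            rw [← e]; ring
          rw [this]
          rfl
        · simp
      obtain ⟨y, hy, hy0⟩ := s36e_exists_mem_not_ker (A := G.A) (κ := κ) G.π hπ 𝔪 hker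
        (s34df_r2 G φ M q hq hqM S)
        (fun a => by
          obtain ⟨h, e⟩ := s35v_RedV_const G φ M q hq hqM false a
          rw [s34df_r2_apply]
          rw [algebraMap_laurentSeries_eq_single, ← HahnSeries.C_apply]
          exact e)
        ⟨b', hb'⟩
        (by
          have : s34df_r2 G φ M q hq hqM S ⟨b', hb'⟩ = s34m_redInf G M ⟨w, hwV'⟩ := by
            rw [s34df_r2_apply]
            obtain ⟨h, e⟩ := hRb
            rw [zero_mul, add_zero] at e
            exact e
          rw [this]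
          exact htr)
      exact hy0 ((hk2 y).mpr (hall y hy))
    · -- the component `V'_∞`
      have hRa := s35v_RedV_alpha G φ M q hq hqM hwred true
      obtain ⟨y, hy, hy0⟩ := s36e_exists_mem_not_ker (A := G.A) (κ := κ) G.π hπ 𝔪 hker
        (s34df_r1 G φ M q hq hqM S)
        (fun a => by
          obtain ⟨h, e⟩ := s35v_RedV_const G φ M q hq hqM true a
          rw [s34df_r1_apply]
          rw [algebraMap_laurentSeries_eq_single, ← HahnSeries.C_apply]
          exact e)
        ⟨heckeAlphaBar K₀ M q w, hαB w hwring⟩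
        (by
          have : s34df_r1 G φ M q hq hqM S ⟨heckeAlphaBar K₀ M q w, hαB w hwring⟩ =
              s34m_redInf G M ⟨w, hwV'⟩ := by
            rw [s34df_r1_apply]
            obtain ⟨h, e⟩ := hRa
            exact e
          rw [this]
          exact htr)
      exact hy0 ((hk1 y).mpr (hall y hy))
  · exfalso
    apply hmiss
    intro b hb
    cases i₀
    · exact h1 ((RingHom.mem_ker).mpr ((hk1 b).mpr hb))
    · exact h2 ((RingHom.mem_ker).mpr ((hk2 b).mpr hb))

/-- the chart ring of chart 1 of a base function is of finite type over `G.A`. -/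
theorem s36e_finiteType_chart1 (w : s34m_F K₀ (M * q)) (hB : s35g_BaseData G φ M q hq hqM w) :
    @Algebra.FiniteType G.A
      (s34x_ring (s34x_infRing OO) (s18_chart1 (L₀ := K₀) w)) _ _
      (s34f_constHom G.A (s34x_infRing OO)
        (s34x_inf_const_mem OO G.A (s34c_const_mem_VV G φ M q hq hqM))
        (s18_chart1 (L₀ := K₀) w)).toAlgebra := by
  obtain ⟨-, hgen, hwO, -, -, hα, -, -, -⟩ := hB
  haveI := hgen
  exact s36r_finiteType_of_integral G (laurentBaseChange K₀ (modularFunctionFieldFull (M * q))) w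
    (s34x_ring (s34x_infRing OO) (s18_chart1 (L₀ := K₀) w))
    (s34x_mem_ring_iff G (laurentBaseChange K₀ (modularFunctionFieldFull (M * q))) w OO
      (s34c_const_mem_VV G φ M q hq hqM) hwO hα) _ (fun _ => rfl)

/-- the chart ring of chart 2 of a base function is of finite type over `G.A`. -/
theorem s36e_finiteType_chart2 (w : s34m_F K₀ (M * q)) (hB : s35g_BaseData G φ M q hq hqM w) :
    @Algebra.FiniteType G.A
      (s34x_ring (s34x_infRing OO) (s18_chart2 (L₀ := K₀) w)) _ _
      (s34f_constHom G.A (s34x_infRing OO)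
        (s34x_inf_const_mem OO G.A (s34c_const_mem_VV G φ M q hq hqM))
        (s18_chart2 (L₀ := K₀) w)).toAlgebra := by
  obtain ⟨-, hgen, -, hwO', -, -, hα', -, -⟩ := hB
  haveI := hgen
  haveI : FFGen K₀ w⁻¹ := ff_gen_inv
  exact s36r_finiteType_of_integral G (laurentBaseChange K₀ (modularFunctionFieldFull (M * q)))
    w⁻¹ (s34x_ring (s34x_infRing OO) (s18_chart1 (L₀ := K₀) w⁻¹))
    (s34x_mem_ring_iff G (laurentBaseChange K₀ (modularFunctionFieldFull (M * q))) w⁻¹ OO
      (s34c_const_mem_VV G φ M q hq hqM) hwO' hα') _ (fun _ => rfl)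

end Concrete

end Fermat.Agent.Lib.S36
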