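/-
S36 mega-project, items (3c)(ii)(iii)(iv) of helper8's checklist #1783 (lead, prefix `s36e_img` /
`s36e_out`): THE IMAGE POINT IN THE CONCRETE FRAME OF CHART 1, and LocalReg at the points of chart 1
of level `M q²` lying on an OUTER component only.

Frame: `w₁` a base function of level `M q` (`s35g_BaseData`), `S₁ = chart1 w₁`,
`S₂ = chart1 (α' w₁)`, `B₁`, `B₂` the chart rings, `𝔫 ⊂ B₂` MAXIMAL containing `ϖ`.

* `s36e_img_alpha` : if `V 2` does not pass through `𝔫`, the image point `𝔪' = α'⁻¹ 𝔫` is maximal,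
  contains `ϖ`, lies on `V'_∞` and not on `V'_0`, and `𝔪'(B₁)_𝔪' = (t, ϖ)` with `t ∉ 𝔪(V'_∞)`
  (the inputs `honly' u' w' hm' hw' hu'` of helper2's `s36e_mid_reg` and of `s36e_out_reg_V0`);
* `s36e_img_beta`  : if `V 0` does not pass through `𝔫`, the same for `𝔪' = β'⁻¹ 𝔫`, `V'_0`;
* `s36e_out_reg_V0_chart1` : `s36p_LocalReg V S₂ 𝔫 m` if neither `V 1` nor `V 2` pass through `𝔫`;
* `s36e_out_reg_V2_chart1` : `s36p_LocalReg V S₂ 𝔫 m` if neither `V 0` nor `V 1` pass through `𝔫`.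

Remaining hypothesis (owner helper4, (R-q)): `s36q_fi_CrossReg G φ M q hq hqM w₁`.
-/
import Fermat.Agent.Lib.S36.REisOuter
import Fermat.Agent.Lib.S36.REisPt
import Fermat.Agent.Lib.S36.QFibInst
import Fermat.Agent.Lib.S36.QFracGeo
import Fermat.Agent.Lib.S36.QCusp

set_option autoImplicit false
set_option linter.unusedSectionVars false
set_option linter.style.haveILetI false
set_option synthInstance.maxHeartbeats 400000

noncomputable section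

namespace Fermat.Agent.Lib.S36

open ModularCurve AlgebraicCurve Polynomial Fermat.Agent.Lib.FF Fermat.Agent.Lib.S18
  Fermat.Agent.Lib.S37 Fermat.Agent.Lib.S34 Fermat.Agent.Lib.S35 IsLocalRing

local notation "Kb" => AlgebraicClosure ℚ

variable {K₀ : Type} [Field K₀] [CharZero K₀] [Algebra ℚ K₀] {κ : Type} [Field κ]
  (G : s18g_GaussData K₀ κ)
  (φ : K₀ →+* Kb) (M q : ℕ) [NeZero M] [NeZero q] (hq : q.Prime) (hqM : ¬ q ∣ M)
  [IsDiscreteValuationRing G.A] [CharP κ q] [PerfectField κ]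
  {V : Fin 3 → ValuationSubring (s34m_F K₀ (M * q * q))} {t : s34m_F K₀ (M * q * q)}

/-- `ϖ` of level `M q` lies in the image point of a point `𝔫 ∋ ϖ` (generic `K₀`-embedding). -/
theorem s36e_img_unif_mem (γ : s34m_F K₀ (M * q) →ₐ[K₀] s34m_F K₀ (M * q * q))
    (hC : s36g_ValComap G φ M q hq hqM V)
    (S₁ : Set (Place K₀ (s34m_F K₀ (M * q)))) (S₂ : Set (Place K₀ (s34m_F K₀ (M * q * q))))
    (hγ : ∀ b ∈ s34x_ring (s34x_infRing (s34m_VV G φ M q hq hqM)) S₁,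
      (γ : s34m_F K₀ (M * q) →+* s34m_F K₀ (M * q * q)) b ∈ s34x_ring (s34x_infRing V) S₂)
    (𝔫 : Ideal (s34x_ring (s34x_infRing V) S₂))
    (hϖ : s34x_const (s34x_infRing V) S₂ ((G.ϖ : G.A) : K₀)
      (s34x_inf_const_mem V G.A (s36b_const_mem G φ M q hq hqM hC) G.ϖ) ∈ 𝔫) :
    s35gd_unifB G φ M q hq hqM S₁ ∈
      s36q_pt (s34m_VV G φ M q hq hqM) V S₁ S₂
        (γ : s34m_F K₀ (M * q) →+* s34m_F K₀ (M * q * q)) hγ 𝔫 := by
  rw [Ideal.mem_comap]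
  have e : s36q_chartMap (s34m_VV G φ M q hq hqM) V S₁ S₂
      (γ : s34m_F K₀ (M * q) →+* s34m_F K₀ (M * q * q)) hγ (s35gd_unifB G φ M q hq hqM S₁) =
      s34x_const (s34x_infRing V) S₂ ((G.ϖ : G.A) : K₀)
        (s34x_inf_const_mem V G.A (s36b_const_mem G φ M q hq hqM hC) G.ϖ) := by
    apply Subtype.ext
    rw [s36q_chartMap_coe, s35gd_coe_unifB, s34x_const_coe]
    rw [s34m_unif, RingHom.coe_coe]
    exact γ.commutes _
  rw [e]
  exact hϖ


local notation "VV" => s34m_VV G φ M q hq hqM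

/-- **The `α'`-image point** of a closed point `𝔫 ∋ ϖ` of chart 1 of level `M q²` through which
`V 2` does not pass: it is maximal, lies on `V'_∞` only, and is a smooth point of `V'_∞`. -/
theorem s36e_img_alpha (hC : s36g_ValComap G φ M q hq hqM V)
    (hU : s36g_ValUnif G M q V t) (hCompl : s36g_ValComplete G φ M q hq hqM V)
    (hInd : s36g_ValIndep M q V) (hR : s36g_ValRes G φ M q hq hqM V)
    (hπ : Function.Surjective G.π)
    (w₁ : s34m_F K₀ (M * q)) (hB : s35g_BaseData G φ M q hq hqM w₁)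
    (hX : s36q_fi_CrossReg G φ M q hq hqM w₁)
    (𝔫 : Ideal (s34x_ring (L₀ := K₀) (s34x_infRing V) (s18_chart1 (s36g_alpha M q w₁))))
    [h𝔫 : 𝔫.IsMaximal]
    (hϖ : s34x_const (s34x_infRing V) (s18_chart1 (L₀ := K₀) (s36g_alpha M q w₁))
      ((G.ϖ : G.A) : K₀)
      (s34x_inf_const_mem V G.A (s36b_const_mem G φ M q hq hqM hC) G.ϖ) ∈ 𝔫)
    (h2 : ¬ s36q_compThrough V (s18_chart1 (L₀ := K₀) (s36g_alpha M q w₁)) 𝔫 2) :
    (s36q_pt VV V (s18_chart1 (L₀ := K₀) w₁) (s18_chart1 (L₀ := K₀) (s36g_alpha M q w₁))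
      (s36g_alpha M q) (s36p_chart1_alpha G φ M q hq hqM hC w₁ hB) 𝔫).IsMaximal ∧
    s36q_compThrough VV (s18_chart1 (L₀ := K₀) w₁)
      (s36q_pt VV V (s18_chart1 (L₀ := K₀) w₁) (s18_chart1 (L₀ := K₀) (s36g_alpha M q w₁))
        (s36g_alpha M q) (s36p_chart1_alpha G φ M q hq hqM hC w₁ hB) 𝔫) true ∧
    ¬ s36q_compThrough VV (s18_chart1 (L₀ := K₀) w₁)
      (s36q_pt VV V (s18_chart1 (L₀ := K₀) w₁) (s18_chart1 (L₀ := K₀) (s36g_alpha M q w₁))
        (s36g_alpha M q) (s36p_chart1_alpha G φ M q hq hqM hC w₁ hB) 𝔫) false ∧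
    ∃ u ∈ s36q_pt VV V (s18_chart1 (L₀ := K₀) w₁)
        (s18_chart1 (L₀ := K₀) (s36g_alpha M q w₁))
        (s36g_alpha M q) (s36p_chart1_alpha G φ M q hq hqM hC w₁ hB) 𝔫,
      maximalIdeal (Localization.AtPrime
        (s36q_pt VV V (s18_chart1 (L₀ := K₀) w₁) (s18_chart1 (L₀ := K₀) (s36g_alpha M q w₁))
          (s36g_alpha M q) (s36p_chart1_alpha G φ M q hq hqM hC w₁ hB) 𝔫)) =
        Ideal.span {algebraMap _ (Localization.AtPrime
          (s36q_pt VV V (s18_chart1 (L₀ := K₀) w₁) (s18_chart1 (L₀ := K₀) (s36g_alpha M q w₁))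
            (s36g_alpha M q) (s36p_chart1_alpha G φ M q hq hqM hC w₁ hB) 𝔫)) u,
          algebraMap _ (Localization.AtPrime
          (s36q_pt VV V (s18_chart1 (L₀ := K₀) w₁) (s18_chart1 (L₀ := K₀) (s36g_alpha M q w₁))
            (s36g_alpha M q) (s36p_chart1_alpha G φ M q hq hqM hC w₁ hB) 𝔫))
            (s35gd_unifB G φ M q hq hqM (s18_chart1 (L₀ := K₀) w₁))} ∧
      (u : s34m_F K₀ (M * q)) ∉ (VV true).nonunits := by
  classical
  haveI h𝔫p : 𝔫.IsPrime := h𝔫.isPrime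
  have hint := s36p_chart1_int_alpha G φ M q hq hqM hC hCompl hInd w₁ hB
    (s36p_chart1_alpha G φ M q hq hqM hC w₁ hB)
  have hmax : (s36q_pt VV V (s18_chart1 (L₀ := K₀) w₁)
      (s18_chart1 (L₀ := K₀) (s36g_alpha M q w₁))
      (s36g_alpha M q) (s36p_chart1_alpha G φ M q hq hqM hC w₁ hB) 𝔫).IsMaximal :=
    Ideal.isMaximal_comap_of_isIntegral_of_isMaximal' _ hint 𝔫
  have hB₂ := s36b_baseData₂_of_base G φ M q hq hqM hC hCompl hInd w₁ hB
  have hD₂ := s36b_dict₁ G φ M q hq hqM hC hU (s36g_alpha M q w₁) hB₂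
  have hαi := fun x => s36b_alpha_mem_iff G φ M q hq hqM hC x
  -- some component passes through `𝔫`
  obtain ⟨j, hj⟩ := s36q_exists_through V (s18_chart1 (L₀ := K₀) (s36g_alpha M q w₁)) 𝔫
    (s36b_arch G M q hq hU) hD₂.2.2.2 ((G.ϖ : G.A) : K₀) (s18g_unifK_ne_zero G)
    (s34x_const (s34x_infRing V) (s18_chart1 (L₀ := K₀) (s36g_alpha M q w₁))
      ((G.ϖ : G.A) : K₀)
      (s34x_inf_const_mem V G.A (s36b_const_mem G φ M q hq hqM hC) G.ϖ))
    (s34x_const_coe _ _ _ _) hϖ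
  have hj2 : j ≠ 2 := fun h => h2 (h ▸ hj)
  have hcomapj : ∀ x : s34m_F K₀ (M * q), s36g_alpha M q x ∈ V j ↔ x ∈ VV true := by
    fin_cases j
    · exact fun x => (hαi x).1
    · exact fun x => (hαi x).2.1
    · exact absurd rfl hj2
  have hT : s36q_compThrough VV (s18_chart1 (L₀ := K₀) w₁)
      (s36q_pt VV V (s18_chart1 (L₀ := K₀) w₁) (s18_chart1 (L₀ := K₀) (s36g_alpha M q w₁))
        (s36g_alpha M q) (s36p_chart1_alpha G φ M q hq hqM hC w₁ hB) 𝔫) true :=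
    s36q_compThrough_comap VV V _ _ (s36g_alpha M q) _ 𝔫 true j hcomapj hj
  have hF : ¬ s36q_compThrough VV (s18_chart1 (L₀ := K₀) w₁)
      (s36q_pt VV V (s18_chart1 (L₀ := K₀) w₁) (s18_chart1 (L₀ := K₀) (s36g_alpha M q w₁))
        (s36g_alpha M q) (s36p_chart1_alpha G φ M q hq hqM hC w₁ hB) 𝔫) false := by
    intro hF
    apply h2
    exact s36q_comp_through_of_integral VV V _ _ (s36g_alpha M q) _ 𝔫 hint
      (s36q_fi_fib_alpha G φ M q hq hqM hC hU hCompl hInd w₁ hB hX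
        (s36q_fracq_alpha_2 G φ M q hq hqM _ hC hR hB.2.2.2.2.2.2.2.1 hπ) 𝔫 hT hF)
      false 2 (fun x => (hαi x).2.2) hF
  refine ⟨hmax, hT, hF, ?_⟩
  haveI := hmax
  exact s36e_smooth_pt G φ M q hq hqM (s18_chart1 (L₀ := K₀) w₁) hB.2.2.2.2.2.2.2.1
    (s36e_finiteType_chart1 G φ M q hq hqM w₁ hB) hπ _
    (s36e_img_unif_mem G φ M q hq hqM (heckeAlphaBar K₀ (M * q) q) hC _ _
      (s36p_chart1_alpha G φ M q hq hqM hC w₁ hB) 𝔫 hϖ) true hT hF

/-- **The `β'`-image point** of a closed point `𝔫 ∋ ϖ` of chart 1 of level `M q²` through which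
`V 0` does not pass: it is maximal, lies on `V'_0` only, and is a smooth point of `V'_0`. -/
theorem s36e_img_beta (hC : s36g_ValComap G φ M q hq hqM V)
    (hU : s36g_ValUnif G M q V t) (hCompl : s36g_ValComplete G φ M q hq hqM V)
    (hInd : s36g_ValIndep M q V) (hR : s36g_ValRes G φ M q hq hqM V)
    (hπ : Function.Surjective G.π)
    (w₁ : s34m_F K₀ (M * q)) (hB : s35g_BaseData G φ M q hq hqM w₁)
    (hsat : ∀ Q : Place K₀ (s34m_F K₀ (M * q * q)),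
      s36g_alpha M q w₁ ∈ Q.toValuationSubring ↔ s36g_beta M q w₁ ∈ Q.toValuationSubring)
    (hX : s36q_fi_CrossReg G φ M q hq hqM w₁)
    (𝔫 : Ideal (s34x_ring (L₀ := K₀) (s34x_infRing V) (s18_chart1 (s36g_alpha M q w₁))))
    [h𝔫 : 𝔫.IsMaximal]
    (hϖ : s34x_const (s34x_infRing V) (s18_chart1 (L₀ := K₀) (s36g_alpha M q w₁))
      ((G.ϖ : G.A) : K₀)
      (s34x_inf_const_mem V G.A (s36b_const_mem G φ M q hq hqM hC) G.ϖ) ∈ 𝔫)
    (h0 : ¬ s36q_compThrough V (s18_chart1 (L₀ := K₀) (s36g_alpha M q w₁)) 𝔫 0) :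
    (s36q_pt VV V (s18_chart1 (L₀ := K₀) w₁) (s18_chart1 (L₀ := K₀) (s36g_alpha M q w₁))
        (s36g_beta M q)
        (s36p_chart1_beta G φ M q hq hqM hC w₁ hB (fun Q => (hsat Q).mp)) 𝔫).IsMaximal ∧
    s36q_compThrough VV (s18_chart1 (L₀ := K₀) w₁)
      (s36q_pt VV V (s18_chart1 (L₀ := K₀) w₁) (s18_chart1 (L₀ := K₀) (s36g_alpha M q w₁))
        (s36g_beta M q)
        (s36p_chart1_beta G φ M q hq hqM hC w₁ hB (fun Q => (hsat Q).mp)) 𝔫) false ∧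
    ¬ s36q_compThrough VV (s18_chart1 (L₀ := K₀) w₁)
      (s36q_pt VV V (s18_chart1 (L₀ := K₀) w₁) (s18_chart1 (L₀ := K₀) (s36g_alpha M q w₁))
        (s36g_beta M q)
        (s36p_chart1_beta G φ M q hq hqM hC w₁ hB (fun Q => (hsat Q).mp)) 𝔫) true ∧
    ∃ u ∈ (s36q_pt VV V (s18_chart1 (L₀ := K₀) w₁) (s18_chart1 (L₀ := K₀) (s36g_alpha M q w₁))
        (s36g_beta M q)
        (s36p_chart1_beta G φ M q hq hqM hC w₁ hB (fun Q => (hsat Q).mp)) 𝔫),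
      maximalIdeal (Localization.AtPrime
        (s36q_pt VV V (s18_chart1 (L₀ := K₀) w₁) (s18_chart1 (L₀ := K₀) (s36g_alpha M q w₁))
        (s36g_beta M q)
        (s36p_chart1_beta G φ M q hq hqM hC w₁ hB (fun Q => (hsat Q).mp)) 𝔫)) =
        Ideal.span {algebraMap _ (Localization.AtPrime
          (s36q_pt VV V (s18_chart1 (L₀ := K₀) w₁) (s18_chart1 (L₀ := K₀) (s36g_alpha M q w₁))
        (s36g_beta M q)
        (s36p_chart1_beta G φ M q hq hqM hC w₁ hB (fun Q => (hsat Q).mp)) 𝔫)) u,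
          algebraMap _ (Localization.AtPrime
          (s36q_pt VV V (s18_chart1 (L₀ := K₀) w₁) (s18_chart1 (L₀ := K₀) (s36g_alpha M q w₁))
        (s36g_beta M q)
        (s36p_chart1_beta G φ M q hq hqM hC w₁ hB (fun Q => (hsat Q).mp)) 𝔫))
            (s35gd_unifB G φ M q hq hqM (s18_chart1 (L₀ := K₀) w₁))} ∧
      (u : s34m_F K₀ (M * q)) ∉ (VV false).nonunits := by
  classical
  haveI h𝔫p : 𝔫.IsPrime := h𝔫.isPrime
  have hint := s36p_chart1_int_beta G φ M q hq hqM hC hCompl hInd w₁ hB (fun Q => (hsat Q).mpr)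
    (s36p_chart1_beta G φ M q hq hqM hC w₁ hB (fun Q => (hsat Q).mp))
  have hmax : (s36q_pt VV V (s18_chart1 (L₀ := K₀) w₁) (s18_chart1 (L₀ := K₀) (s36g_alpha M q w₁))
        (s36g_beta M q)
        (s36p_chart1_beta G φ M q hq hqM hC w₁ hB (fun Q => (hsat Q).mp)) 𝔫).IsMaximal :=
    Ideal.isMaximal_comap_of_isIntegral_of_isMaximal' _ hint 𝔫
  have hB₂ := s36b_baseData₂_of_base G φ M q hq hqM hC hCompl hInd w₁ hB
  have hD₂ := s36b_dict₁ G φ M q hq hqM hC hU (s36g_alpha M q w₁) hB₂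
  have hβi := fun x => s36p_beta_mem_iff G φ M q hq hqM hC x
  -- some component passes through `𝔫`
  obtain ⟨j, hj⟩ := s36q_exists_through V (s18_chart1 (L₀ := K₀) (s36g_alpha M q w₁)) 𝔫
    (s36b_arch G M q hq hU) hD₂.2.2.2 ((G.ϖ : G.A) : K₀) (s18g_unifK_ne_zero G)
    (s34x_const (s34x_infRing V) (s18_chart1 (L₀ := K₀) (s36g_alpha M q w₁))
      ((G.ϖ : G.A) : K₀)
      (s34x_inf_const_mem V G.A (s36b_const_mem G φ M q hq hqM hC) G.ϖ))
    (s34x_const_coe _ _ _ _) hϖ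
  have hj0 : j ≠ 0 := fun h => h0 (h ▸ hj)
  have hcomapj : ∀ x : s34m_F K₀ (M * q), s36g_beta M q x ∈ V j ↔ x ∈ VV false := by
    fin_cases j
    · exact absurd rfl hj0
    · exact fun x => (hβi x).2.1
    · exact fun x => (hβi x).2.2
  have hF : s36q_compThrough VV (s18_chart1 (L₀ := K₀) w₁)
      (s36q_pt VV V (s18_chart1 (L₀ := K₀) w₁) (s18_chart1 (L₀ := K₀) (s36g_alpha M q w₁))
        (s36g_beta M q)
        (s36p_chart1_beta G φ M q hq hqM hC w₁ hB (fun Q => (hsat Q).mp)) 𝔫) false :=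
    s36q_compThrough_comap VV V _ _ (s36g_beta M q) _ 𝔫 false j hcomapj hj
  have hT : ¬ s36q_compThrough VV (s18_chart1 (L₀ := K₀) w₁)
      (s36q_pt VV V (s18_chart1 (L₀ := K₀) w₁) (s18_chart1 (L₀ := K₀) (s36g_alpha M q w₁))
        (s36g_beta M q)
        (s36p_chart1_beta G φ M q hq hqM hC w₁ hB (fun Q => (hsat Q).mp)) 𝔫) true := by
    intro hT
    apply h0
    exact s36q_comp_through_of_integral VV V _ _ (s36g_beta M q) _ 𝔫 hint
      (s36q_fi_fib_beta G φ M q hq hqM hC hU hCompl hInd w₁ hB hsat hX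
        (s36q_fracq_beta_0 G φ M q hq hqM _ hC hR hB.2.2.2.2.2.2.2.1 hπ) 𝔫 hT hF)
      true 0 (fun x => (hβi x).1) hT
  refine ⟨hmax, hF, hT, ?_⟩
  haveI := hmax
  exact s36e_smooth_pt G φ M q hq hqM (s18_chart1 (L₀ := K₀) w₁) hB.2.2.2.2.2.2.2.1
    (s36e_finiteType_chart1 G φ M q hq hqM w₁ hB) hπ _
    (s36e_img_unif_mem G φ M q hq hqM (heckeBetaBar K₀ (M * q) q) hC _ _
      (s36p_chart1_beta G φ M q hq hqM hC w₁ hB (fun Q => (hsat Q).mp)) 𝔫 hϖ) false hF hT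

/-- **LocalReg at the closed points of chart 1 of level `M q²` on `V 0` only** (the case
`¬ 1 ∧ ¬ 2` of the classification `hClass1`), in the shape of `hReg1` of `s36p_zero_of_cases`. -/
theorem s36e_out_reg_V0_chart1 (hC : s36g_ValComap G φ M q hq hqM V)
    (hU : s36g_ValUnif G M q V t) (hCompl : s36g_ValComplete G φ M q hq hqM V)
    (hInd : s36g_ValIndep M q V) (hR : s36g_ValRes G φ M q hq hqM V)
    (hπ : Function.Surjective G.π)
    (w₁ : s34m_F K₀ (M * q)) (hB : s35g_BaseData G φ M q hq hqM w₁)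
    (hX : s36q_fi_CrossReg G φ M q hq hqM w₁)
    (𝔫 : Ideal (s34x_ring (L₀ := K₀) (s34x_infRing V) (s18_chart1 (s36g_alpha M q w₁))))
    (h𝔫 : 𝔫.IsMaximal)
    (hϖ : s34x_const (s34x_infRing V) (s18_chart1 (L₀ := K₀) (s36g_alpha M q w₁))
      ((G.ϖ : G.A) : K₀)
      (s34x_inf_const_mem V G.A (s36b_const_mem G φ M q hq hqM hC) G.ϖ) ∈ 𝔫)
    (h1 : ¬ s36q_compThrough V (s18_chart1 (L₀ := K₀) (s36g_alpha M q w₁)) 𝔫 1)
    (h2 : ¬ s36q_compThrough V (s18_chart1 (L₀ := K₀) (s36g_alpha M q w₁)) 𝔫 2)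
    (m : ℕ) (hm : m ≠ 0) :
    s36p_LocalReg V (s18_chart1 (L₀ := K₀) (s36g_alpha M q w₁)) 𝔫 (h𝔫 := h𝔫.isPrime) m := by
  classical
  haveI := h𝔫
  haveI h𝔫p : 𝔫.IsPrime := h𝔫.isPrime
  obtain ⟨-, -, -, u, -, hmx, hun⟩ :=
    s36e_img_alpha G φ M q hq hqM hC hU hCompl hInd hR hπ w₁ hB hX 𝔫 hϖ h2
  have hB₂ := s36b_baseData₂_of_base G φ M q hq hqM hC hCompl hInd w₁ hB
  have hD₂ := s36b_dict₁ G φ M q hq hqM hC hU (s36g_alpha M q w₁) hB₂
  obtain ⟨j, hj⟩ := s36q_exists_through V (s18_chart1 (L₀ := K₀) (s36g_alpha M q w₁)) 𝔫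
    (s36b_arch G M q hq hU) hD₂.2.2.2 ((G.ϖ : G.A) : K₀) (s18g_unifK_ne_zero G)
    (s34x_const (s34x_infRing V) (s18_chart1 (L₀ := K₀) (s36g_alpha M q w₁))
      ((G.ϖ : G.A) : K₀)
      (s34x_inf_const_mem V G.A (s36b_const_mem G φ M q hq hqM hC) G.ϖ))
    (s34x_const_coe _ _ _ _) hϖ
  have h0 : s36q_compThrough V (s18_chart1 (L₀ := K₀) (s36g_alpha M q w₁)) 𝔫 0 := by
    fin_cases j
    · exact hj
    · exact absurd hj h1
    · exact absurd hj h2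
  have honly : ∀ k, s36q_compThrough V (s18_chart1 (L₀ := K₀) (s36g_alpha M q w₁)) 𝔫 k →
      k = 0 := by
    intro k hk
    fin_cases k
    · rfl
    · exact absurd hk h1
    · exact absurd hk h2
  refine s36e_out_reg_V0 G φ M q hq hqM V t (s18_chart1 (L₀ := K₀) w₁)
    (s18_chart1 (L₀ := K₀) (s36g_alpha M q w₁)) hC hU
    (s36p_chart1_alpha G φ M q hq hqM hC w₁ hB) 𝔫 (s35g_dict₁ G φ M q hq hqM w₁ hB) hD₂ h0 honly
    (algebraMap _ _ u) (algebraMap _ _ (s35gd_unifB G φ M q hq hqM (s18_chart1 (L₀ := K₀) w₁)))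
    hmx ?_ ?_
    (s36q_frac_alpha_0 G φ M q hq hqM _ hC hR hB.2.2.2.2.2.2.2.1 hπ) m hm
  · rw [s34f_iota_algebraMap, s35gd_coe_unifB]
    exact s36e_unif_mem_nonunits_VV G φ M q hq hqM true
  · rw [s34f_iota_algebraMap]
    exact hun

/-- **LocalReg at the closed points of chart 1 of level `M q²` on `V 2` only** (the case
`¬ 0 ∧ ¬ 1` of the classification `hClass1`), in the shape of `hReg1` of `s36p_zero_of_cases`. -/
theorem s36e_out_reg_V2_chart1 (hC : s36g_ValComap G φ M q hq hqM V)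
    (hU : s36g_ValUnif G M q V t) (hCompl : s36g_ValComplete G φ M q hq hqM V)
    (hInd : s36g_ValIndep M q V) (hR : s36g_ValRes G φ M q hq hqM V)
    (hπ : Function.Surjective G.π)
    (w₁ : s34m_F K₀ (M * q)) (hB : s35g_BaseData G φ M q hq hqM w₁)
    (hsat : ∀ Q : Place K₀ (s34m_F K₀ (M * q * q)),
      s36g_alpha M q w₁ ∈ Q.toValuationSubring ↔ s36g_beta M q w₁ ∈ Q.toValuationSubring)
    (hX : s36q_fi_CrossReg G φ M q hq hqM w₁)
    (𝔫 : Ideal (s34x_ring (L₀ := K₀) (s34x_infRing V) (s18_chart1 (s36g_alpha M q w₁))))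
    (h𝔫 : 𝔫.IsMaximal)
    (hϖ : s34x_const (s34x_infRing V) (s18_chart1 (L₀ := K₀) (s36g_alpha M q w₁))
      ((G.ϖ : G.A) : K₀)
      (s34x_inf_const_mem V G.A (s36b_const_mem G φ M q hq hqM hC) G.ϖ) ∈ 𝔫)
    (h0 : ¬ s36q_compThrough V (s18_chart1 (L₀ := K₀) (s36g_alpha M q w₁)) 𝔫 0)
    (h1 : ¬ s36q_compThrough V (s18_chart1 (L₀ := K₀) (s36g_alpha M q w₁)) 𝔫 1)
    (m : ℕ) (hm : m ≠ 0) :
    s36p_LocalReg V (s18_chart1 (L₀ := K₀) (s36g_alpha M q w₁)) 𝔫 (h𝔫 := h𝔫.isPrime) m := by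
  classical
  haveI := h𝔫
  haveI h𝔫p : 𝔫.IsPrime := h𝔫.isPrime
  obtain ⟨-, -, -, u, -, hmx, hun⟩ :=
    s36e_img_beta G φ M q hq hqM hC hU hCompl hInd hR hπ w₁ hB hsat hX 𝔫 hϖ h0
  have hB₂ := s36b_baseData₂_of_base G φ M q hq hqM hC hCompl hInd w₁ hB
  have hD₂ := s36b_dict₁ G φ M q hq hqM hC hU (s36g_alpha M q w₁) hB₂
  obtain ⟨j, hj⟩ := s36q_exists_through V (s18_chart1 (L₀ := K₀) (s36g_alpha M q w₁)) 𝔫
    (s36b_arch G M q hq hU) hD₂.2.2.2 ((G.ϖ : G.A) : K₀) (s18g_unifK_ne_zero G)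
    (s34x_const (s34x_infRing V) (s18_chart1 (L₀ := K₀) (s36g_alpha M q w₁))
      ((G.ϖ : G.A) : K₀)
      (s34x_inf_const_mem V G.A (s36b_const_mem G φ M q hq hqM hC) G.ϖ))
    (s34x_const_coe _ _ _ _) hϖ
  have h2 : s36q_compThrough V (s18_chart1 (L₀ := K₀) (s36g_alpha M q w₁)) 𝔫 2 := by
    fin_cases j
    · exact absurd hj h0
    · exact absurd hj h1
    · exact hj
  have honly : ∀ k, s36q_compThrough V (s18_chart1 (L₀ := K₀) (s36g_alpha M q w₁)) 𝔫 k →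
      k = 2 := by
    intro k hk
    fin_cases k
    · exact absurd hk h0
    · exact absurd hk h1
    · rfl
  refine s36e_out_reg_V2 G φ M q hq hqM V t (s18_chart1 (L₀ := K₀) w₁)
    (s18_chart1 (L₀ := K₀) (s36g_alpha M q w₁)) hC hU
    (s36p_chart1_beta G φ M q hq hqM hC w₁ hB (fun Q => (hsat Q).mp)) 𝔫
    (s35g_dict₁ G φ M q hq hqM w₁ hB) hD₂ h2 honly
    (algebraMap _ _ u) (algebraMap _ _ (s35gd_unifB G φ M q hq hqM (s18_chart1 (L₀ := K₀) w₁)))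
    hmx ?_ ?_
    (s36q_frac_beta_2 G φ M q hq hqM _ hC hR hB.2.2.2.2.2.2.2.1 hπ) m hm
  · rw [s34f_iota_algebraMap, s35gd_coe_unifB]
    exact s36e_unif_mem_nonunits_VV G φ M q hq hqM false
  · rw [s34f_iota_algebraMap]
    exact hun

end Fermat.Agent.Lib.S36
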