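/-
S36 project, GEOMETRY side (lead): the two OUTER leaves of (REG1) in the literal shape of helper8's
`s36g_GeoRegOnly` (`GRegCases.lean`) / `s36g_LeafReg` (`GInGeo.lean`):

* `s36g_geoRegOnly_0` : `s36g_GeoRegOnly G φ M q hq hqM hP.1 w₁ m 0` (points of chart 1 on `V 0` only);
* `s36g_geoRegOnly_2` : `s36g_GeoRegOnly G φ M q hq hqM hP.1 w₁ m 2` (points of chart 1 on `V 2` only);

from `s36e_out_reg_V0_chart1` / `s36e_out_reg_V2_chart1` (`REisOutC1.lean`).  Remaining hypothesis: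
`s36q_fi_CrossReg G φ M q hq hqM w₁` (= the leaf (R-q)).
-/
import Fermat.Agent.Lib.S36.REisOutC1
import Fermat.Agent.Lib.S36.GRegCases

set_option autoImplicit false
set_option linter.unusedSectionVars false
set_option linter.style.haveILetI false
set_option synthInstance.maxHeartbeats 400000

noncomputable section

namespace Fermat.Agent.Lib.S36

open ModularCurve AlgebraicCurve Polynomial Fermat.Agent.Lib.FF Fermat.Agent.Lib.S18
  Fermat.Agent.Lib.S37 Fermat.Agent.Lib.S34 Fermat.Agent.Lib.S35 IsLocalRing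

local notation "Kb" => AlgebraicClosure ℚ

variable {K₀ : Type} [Field K₀] [CharZero K₀] [Algebra ℚ K₀] {κ : Type} [Field κ]
  (G : s18g_GaussData K₀ κ)
  (φ : K₀ →+* Kb) (M q : ℕ) [NeZero M] [NeZero q] (hq : q.Prime) (hqM : ¬ q ∣ M)
  [IsDiscreteValuationRing G.A] [CharP κ q] [PerfectField κ]
  {V : Fin 3 → ValuationSubring (s34m_F K₀ (M * q * q))} {t : s34m_F K₀ (M * q * q)}

/-- **(REG1), points on `V 0` only.** -/
theorem s36g_geoRegOnly_0 (hP : s36g_ValPkg G φ M q hq hqM V t)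
    (hπ : Function.Surjective G.π)
    (w₁ : s34m_F K₀ (M * q)) (hB : s35g_BaseData G φ M q hq hqM w₁)
    (hX : s36q_fi_CrossReg G φ M q hq hqM w₁) (m : ℕ) (hm : m ≠ 0) :
    s36g_GeoRegOnly G φ M q hq hqM hP.1 w₁ m 0 := by
  intro 𝔫 h𝔫 hϖ _ honly
  exact s36e_out_reg_V0_chart1 G φ M q hq hqM hP.1 hP.2.1 hP.2.2.2.1 hP.2.2.2.2.1 hP.2.2.1 hπ
    w₁ hB hX 𝔫 h𝔫 hϖ (fun h => absurd (honly 1 h) (by decide))
    (fun h => absurd (honly 2 h) (by decide)) m hm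

/-- **(REG1), points on `V 2` only.** -/
theorem s36g_geoRegOnly_2 (hP : s36g_ValPkg G φ M q hq hqM V t)
    (hπ : Function.Surjective G.π)
    (w₁ : s34m_F K₀ (M * q)) (hB : s35g_BaseData G φ M q hq hqM w₁)
    (hsat : ∀ Q : Place K₀ (s34m_F K₀ (M * q * q)),
      s36g_alpha M q w₁ ∈ Q.toValuationSubring ↔ s36g_beta M q w₁ ∈ Q.toValuationSubring)
    (hX : s36q_fi_CrossReg G φ M q hq hqM w₁) (m : ℕ) (hm : m ≠ 0) :
    s36g_GeoRegOnly G φ M q hq hqM hP.1 w₁ m 2 := by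
  intro 𝔫 h𝔫 hϖ _ honly
  exact s36e_out_reg_V2_chart1 G φ M q hq hqM hP.1 hP.2.1 hP.2.2.2.1 hP.2.2.2.2.1 hP.2.2.1 hπ
    w₁ hB hsat hX 𝔫 h𝔫 hϖ (fun h => absurd (honly 0 h) (by decide))
    (fun h => absurd (honly 1 h) (by decide)) m hm

end Fermat.Agent.Lib.S36
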