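/-
S36 project, wiring layer (W2) + abstract endgame (helper3, prefix `s36k_`).  Mathlib only.

Setting: `ρ : G →* Module.End 𝒪 E`, `H ≤ G` a subgroup all of whose elements satisfy
`(ρ h - 1)² = 0` (in the application: `H` = an inertia group, `E` = the eigen-module of the newform
inside `𝒪' ⊗ T_λ J₀(M)`).  Put `N h = ρ h - 1`.

* `s36k_anticomm`  : `N g * N h = - (N h * N g)` for `g, h ∈ H` (needs only: `E` has no `2`-torsion);
* `s36k_word`      : `N h₁ * ⋯ * N h_k` for a list `[h₁, …, h_k]`;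
* `s36k_chain`     : (special case of Kolchin's theorem, elementary) if `E` is noetherian and non-zero
  there is a list `l` in `H` with `Q = s36k_word ρ l ≠ 0` and `N h * Q = 0` for all `h ∈ H`;
  in particular every `Q v` is fixed by `H`;
* `s36k_endgame`   : if moreover `φ ∈ G` satisfies the tame relation `ρ (φ τ φ⁻¹) = ρ τ ^ q`
  (`τ ∈ H`), the quadratic relation `ρ φ + q • ρ φ⁻¹ = t • 1`, and `ρ φ w = w` for every `H`-fixed
  `w`, then `ρ τ = 1` for all `τ ∈ H` and `ρ φ = 1`.
-/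
import Mathlib

set_option autoImplicit false

namespace Fermat.Agent.Lib.S36

section Ring

variable {R : Type*} [Ring R]

/-- the two expansions. -/
theorem s36k_expand_add {a b : R} (ha : a * a = 0) (hb : b * b = 0) :
    (a + b + a * b) * (a + b + a * b) = a * b + b * a + b * a * b + a * b * a + a * b * a * b := by
  have h1 : a * (a * b) = 0 := by rw [← mul_assoc, ha, zero_mul]
  have h2 : a * b * b = 0 := by rw [mul_assoc, hb, mul_zero]
  simp only [mul_add, add_mul, ha, hb, h1, h2, zero_add, add_zero, mul_assoc]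
  simp only [← mul_assoc]
  abel

theorem s36k_expand_sub {a b : R} (ha : a * a = 0) (hb : b * b = 0) :
    (a - b - a * b) * (a - b - a * b) =
      -(a * b) - b * a + b * a * b - a * b * a + a * b * a * b := by
  have h1 : a * (a * b) = 0 := by rw [← mul_assoc, ha, zero_mul]
  have h2 : a * b * b = 0 := by rw [mul_assoc, hb, mul_zero]
  simp only [mul_sub, sub_mul, ha, hb, h1, h2, sub_zero, zero_sub, mul_assoc]
  simp only [← mul_assoc]
  abel

/-- `b a b = 0`. -/
theorem s36k_bab {a b : R} (h2 : ∀ x : R, x + x = 0 → x = 0) (ha : a * a = 0) (hb : b * b = 0)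
    (hadd : (a + b + a * b) * (a + b + a * b) = 0)
    (hsub : (a - b - a * b) * (a - b - a * b) = 0) : b * a * b = 0 := by
  rw [s36k_expand_add ha hb] at hadd
  rw [s36k_expand_sub ha hb] at hsub
  have hsum : (b * a * b + a * b * a * b) + (b * a * b + a * b * a * b) = 0 := by
    have := congrArg₂ (· + ·) hadd hsub
    simp only [add_zero] at this
    rw [← this]
    abel
  have h3 : b * a * b + a * b * a * b = 0 := h2 _ hsum
  have h4 : a * b * a * b = 0 := by
    have := congrArg (fun x => a * x) h3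
    simp only [mul_add, mul_zero] at this
    have h5 : a * (a * b * a * b) = 0 := by
      rw [← mul_assoc, ← mul_assoc, ← mul_assoc, ha, zero_mul, zero_mul, zero_mul]
    rw [h5, add_zero] at this
    rw [← this]
    simp only [mul_assoc]
  rw [h4, add_zero] at h3
  exact h3

/-- **anticommutation.** -/
theorem s36k_anticomm_ring {a b : R} (h2 : ∀ x : R, x + x = 0 → x = 0) (ha : a * a = 0)
    (hb : b * b = 0) (hadd : (a + b + a * b) * (a + b + a * b) = 0)
    (hsub : (a - b - a * b) * (a - b - a * b) = 0)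
    (hadd' : (b + a + b * a) * (b + a + b * a) = 0)
    (hsub' : (b - a - b * a) * (b - a - b * a) = 0) : a * b = -(b * a) := by
  have hbab := s36k_bab h2 ha hb hadd hsub
  have haba := s36k_bab h2 hb ha hadd' hsub'
  rw [s36k_expand_add ha hb] at hadd
  have h4 : a * b * a * b = 0 := by rw [haba, zero_mul]
  rw [h4, hbab, haba, add_zero, add_zero, add_zero] at hadd
  exact eq_neg_of_add_eq_zero_left hadd

end Ring

section Module

variable {𝒪 : Type*} [CommRing 𝒪] {E : Type*} [AddCommGroup E] [Module 𝒪 E]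
  {G : Type*} [Group G] (ρ : G →* Module.End 𝒪 E)

/-- `End E` has no `2`-torsion if `E` has none. -/
theorem s36k_end_two_torsion (h2 : ∀ x : E, x + x = 0 → x = 0) (f : Module.End 𝒪 E)
    (hf : f + f = 0) : f = 0 := by
  apply LinearMap.ext
  intro x
  have := congrArg (fun g : Module.End 𝒪 E => g x) hf
  simp only [LinearMap.add_apply, LinearMap.zero_apply] at this
  exact h2 _ this

variable {ρ} in
theorem s36k_inv_sub_one {h : G} (hh : (ρ h - 1) * (ρ h - 1) = 0) : ρ h⁻¹ - 1 = -(ρ h - 1) := by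
  have h1 : ρ h⁻¹ * ρ h = 1 := by rw [← map_mul, inv_mul_cancel, map_one]
  have h3 : ρ h * ρ h = ρ h + ρ h - 1 := by
    have h4 : ρ h * ρ h - ρ h - ρ h + 1 = 0 := by
      rw [← hh]
      simp only [mul_sub, sub_mul, mul_one, one_mul]
      abel
    have h5 : ρ h * ρ h = (ρ h * ρ h - ρ h - ρ h + 1) + (ρ h + ρ h - 1) := by abel
    rw [h5, h4, zero_add]
  have h2 : ρ h⁻¹ * (ρ h * ρ h) = ρ h := by rw [← mul_assoc, h1, one_mul]
  rw [h3, mul_sub, mul_add, h1, mul_one] at h2
  -- h2 : 1 + 1 - ρ h⁻¹ = ρ h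
  have : ρ h⁻¹ = 1 + 1 - ρ h := by rw [← h2]; abel
  rw [this]
  abel

/-- **anticommutation of the `N h = ρ h - 1`, `h ∈ H`.** -/
theorem s36k_anticomm (h2 : ∀ x : E, x + x = 0 → x = 0) (H : Subgroup G)
    (hH : ∀ h ∈ H, (ρ h - 1) * (ρ h - 1) = 0) {g h : G} (hg : g ∈ H) (hh : h ∈ H) :
    (ρ g - 1) * (ρ h - 1) = -((ρ h - 1) * (ρ g - 1)) := by
  have key : ∀ {g h : G}, g ∈ H → h ∈ H →
      ((ρ g - 1) + (ρ h - 1) + (ρ g - 1) * (ρ h - 1)) *
        ((ρ g - 1) + (ρ h - 1) + (ρ g - 1) * (ρ h - 1)) = 0 ∧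
      ((ρ g - 1) - (ρ h - 1) - (ρ g - 1) * (ρ h - 1)) *
        ((ρ g - 1) - (ρ h - 1) - (ρ g - 1) * (ρ h - 1)) = 0 := by
    intro g h hg hh
    constructor
    · have e : (ρ g - 1) + (ρ h - 1) + (ρ g - 1) * (ρ h - 1) = ρ (g * h) - 1 := by
        rw [map_mul]
        simp only [mul_sub, sub_mul, mul_one, one_mul]
        abel
      rw [e]
      exact hH _ (H.mul_mem hg hh)
    · have e : (ρ g - 1) - (ρ h - 1) - (ρ g - 1) * (ρ h - 1) = ρ (g * h⁻¹) - 1 := by
        have hi : ρ h⁻¹ = 1 - (ρ h - 1) := by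
          have := s36k_inv_sub_one (hH h hh)
          rw [sub_eq_iff_eq_add] at this
          rw [this]
          abel
        rw [map_mul, hi]
        simp only [mul_sub, sub_mul, mul_one, one_mul]
        abel
      rw [e]
      exact hH _ (H.mul_mem hg (H.inv_mem hh))
  exact s36k_anticomm_ring (s36k_end_two_torsion h2) (hH g hg) (hH h hh) (key hg hh).1
    (key hg hh).2 (key hh hg).1 (key hh hg).2

/-- the word `N h₁ * ⋯ * N h_k`. -/
def s36k_word (l : List G) : Module.End 𝒪 E := (l.map fun h => ρ h - 1).prod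

@[simp] theorem s36k_word_nil : s36k_word ρ ([] : List G) = 1 := rfl

@[simp] theorem s36k_word_cons (h : G) (l : List G) :
    s36k_word ρ (h :: l) = (ρ h - 1) * s36k_word ρ l := by
  simp [s36k_word]

/-- `N h` commutes with a word up to the sign `(-1)^length`. -/
theorem s36k_mul_word (h2 : ∀ x : E, x + x = 0 → x = 0) (H : Subgroup G)
    (hH : ∀ h ∈ H, (ρ h - 1) * (ρ h - 1) = 0) {h : G} (hh : h ∈ H) (l : List G)
    (hl : ∀ g ∈ l, g ∈ H) :
    (ρ h - 1) * s36k_word ρ l = ((-1 : ℤ) ^ l.length) • (s36k_word ρ l * (ρ h - 1)) := by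
  induction l with
  | nil => simp
  | cons g l ih =>
    have hg : g ∈ H := hl g (List.mem_cons_self)
    have hl' : ∀ g' ∈ l, g' ∈ H := fun g' hg' => hl g' (List.mem_cons_of_mem _ hg')
    rw [s36k_word_cons, ← mul_assoc, s36k_anticomm ρ h2 H hH hh hg, neg_mul, mul_assoc, ih hl',
      List.length_cons, pow_succ, mul_assoc, mul_smul_comm]
    simp only [mul_neg, mul_one, neg_smul, Int.reduceNeg]

variable [IsNoetherian 𝒪 E] [Nontrivial E]

/-- **(W2) the chain** (elementary special case of Kolchin's theorem). -/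
theorem s36k_chain (h2 : ∀ x : E, x + x = 0 → x = 0) (H : Subgroup G)
    (hH : ∀ h ∈ H, (ρ h - 1) * (ρ h - 1) = 0) :
    ∃ l : List G, (∀ g ∈ l, g ∈ H) ∧ s36k_word ρ l ≠ 0 ∧
      ∀ h ∈ H, (ρ h - 1) * s36k_word ρ l = 0 := by
  -- well-founded induction on the kernel of the word
  have wf : WellFounded ((· > ·) : Submodule 𝒪 E → Submodule 𝒪 E → Prop) := wellFounded_gt
  have main : ∀ K : Submodule 𝒪 E, ∀ l : List G, (∀ g ∈ l, g ∈ H) → s36k_word ρ l ≠ 0 →
      LinearMap.ker (s36k_word ρ l) = K →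
      ∃ l : List G, (∀ g ∈ l, g ∈ H) ∧ s36k_word ρ l ≠ 0 ∧
        ∀ h ∈ H, (ρ h - 1) * s36k_word ρ l = 0 := by
    intro K
    induction K using wf.induction with
    | _ K ih =>
      intro l hl hQ hK
      by_cases hall : ∀ h ∈ H, (ρ h - 1) * s36k_word ρ l = 0
      · exact ⟨l, hl, hQ, hall⟩
      · push Not at hall
        obtain ⟨h, hh, hne⟩ := hall
        have hl' : ∀ g ∈ h :: l, g ∈ H := by
          intro g hg
          rcases List.mem_cons.mp hg with rfl | hg
          · exact hh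
          · exact hl g hg
        have hQ' : s36k_word ρ (h :: l) ≠ 0 := by rw [s36k_word_cons]; exact hne
        refine ih (LinearMap.ker (s36k_word ρ (h :: l))) ?_ (h :: l) hl' hQ' rfl
        -- strict inclusion of kernels
        show K < LinearMap.ker (s36k_word ρ (h :: l))
        rw [← hK]
        have hcomm := s36k_mul_word ρ h2 H hH hh l hl
        -- a vector with `N h Q v₀ ≠ 0`
        obtain ⟨v₀, hv₀⟩ : ∃ v₀ : E, ((ρ h - 1) * s36k_word ρ l) v₀ ≠ 0 := by
          by_contra hcon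
          push Not at hcon
          exact hne (LinearMap.ext hcon)
        refine lt_of_le_of_ne ?_ ?_
        · intro x hx
          rw [LinearMap.mem_ker] at hx ⊢
          rw [s36k_word_cons, Module.End.mul_apply, hx, map_zero]
        · intro heq
          have hx : (ρ h - 1) v₀ ∈ LinearMap.ker (s36k_word ρ (h :: l)) := by
            rw [LinearMap.mem_ker, s36k_word_cons, hcomm]
            simp only [LinearMap.smul_apply, Module.End.mul_apply]
            have : (ρ h - 1) ((ρ h - 1) v₀) = 0 := by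
              have := congrArg (fun f : Module.End 𝒪 E => f v₀) (hH h hh)
              simpa using this
            rw [this, map_zero, smul_zero]
          rw [← heq, LinearMap.mem_ker] at hx
          -- `Q (N h v₀) = ± N h Q v₀ ≠ 0`
          apply hv₀
          rw [hcomm]
          simp only [LinearMap.smul_apply, Module.End.mul_apply]
          rw [hx, smul_zero]
  have h1 : s36k_word ρ ([] : List G) ≠ 0 := by
    rw [s36k_word_nil]
    exact one_ne_zero
  exact main _ [] (fun g hg => absurd hg (List.not_mem_nil)) h1 rfl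

end Module

/-- a torsion-free module over a ring of characteristic zero has no `2`-torsion. -/
theorem s36k_no_two_torsion (𝒪 : Type*) [CommRing 𝒪] [IsDomain 𝒪] [CharZero 𝒪] {E : Type*} [AddCommGroup E]
    [Module 𝒪 E] [Module.IsTorsionFree 𝒪 E] (x : E) (hx : x + x = 0) : x = 0 := by
  have h : (2 : 𝒪) • x = 0 := by rw [two_smul]; exact hx
  exact (smul_eq_zero_iff_right (two_ne_zero)).mp h

section Endgame

variable {𝒪 : Type*} [CommRing 𝒪] [IsDomain 𝒪] [CharZero 𝒪] {E : Type*} [AddCommGroup E]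
  [Module 𝒪 E] [Module.IsTorsionFree 𝒪 E] {G : Type*} [Group G] (ρ : G →* Module.End 𝒪 E)


omit [IsDomain 𝒪] [CharZero 𝒪] [Module.IsTorsionFree 𝒪 E] in
/-- `(1 + N)^k = 1 + k N` for `N² = 0`. -/
theorem s36k_one_add_pow (N : Module.End 𝒪 E) (hN : N * N = 0) (k : ℕ) :
    (1 + N) ^ k = 1 + (k : 𝒪) • N := by
  induction k with
  | zero => simp
  | succ k ih =>
    rw [pow_succ, ih, add_mul, mul_add, mul_add, one_mul, mul_one, one_mul, smul_mul_assoc, hN,
      smul_zero, add_zero, Nat.cast_succ, add_smul, one_smul]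
    abel

omit [IsDomain 𝒪] [CharZero 𝒪] [Module.IsTorsionFree 𝒪 E] in
/-- the tame relation in the form `φ N = q N φ`. -/
theorem s36k_tame_comm {φ τ : G} {q : ℕ} (hτ : (ρ τ - 1) * (ρ τ - 1) = 0)
    (htame : ρ (φ * τ * φ⁻¹) = ρ τ ^ q) :
    ρ φ * (ρ τ - 1) = (q : 𝒪) • ((ρ τ - 1) * ρ φ) := by
  have h1 : ρ τ = 1 + (ρ τ - 1) := by abel
  have h2 : ρ τ ^ q = 1 + (q : 𝒪) • (ρ τ - 1) := by
    conv_lhs => rw [h1]
    exact s36k_one_add_pow (ρ τ - 1) hτ q
  have h3 : ρ φ⁻¹ * ρ φ = 1 := by rw [← map_mul, inv_mul_cancel, map_one]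
  have h4 : ρ φ * ρ τ = ρ τ ^ q * ρ φ := by
    rw [← htame, map_mul, map_mul, mul_assoc, h3, mul_one]
  rw [h2, add_mul, one_mul, smul_mul_assoc] at h4
  rw [mul_sub, mul_one, h4]
  abel

omit [IsDomain 𝒪] [CharZero 𝒪] [Module.IsTorsionFree 𝒪 E] in
/-- `φ Q = q^k Q φ` for a word `Q` of length `k`. -/
theorem s36k_tame_word (H : Subgroup G) (hH : ∀ h ∈ H, (ρ h - 1) * (ρ h - 1) = 0) {φ : G}
    {q : ℕ} (htame : ∀ τ ∈ H, ρ (φ * τ * φ⁻¹) = ρ τ ^ q) (l : List G) (hl : ∀ g ∈ l, g ∈ H) :
    ρ φ * s36k_word ρ l = ((q : 𝒪) ^ l.length) • (s36k_word ρ l * ρ φ) := by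
  induction l with
  | nil => simp
  | cons g l ih =>
    have hg : g ∈ H := hl g (List.mem_cons_self)
    have hl' : ∀ g' ∈ l, g' ∈ H := fun g' hg' => hl g' (List.mem_cons_of_mem _ hg')
    rw [s36k_word_cons, ← mul_assoc, s36k_tame_comm ρ (hH g hg) (htame g hg), smul_mul_assoc,
      mul_assoc, ih hl', mul_smul_comm, smul_smul, List.length_cons, pow_succ', mul_assoc]

variable [IsNoetherian 𝒪 E] [Nontrivial E]

/-- **the abstract endgame**: unipotent `H`, tame relation for `φ`, quadratic relation for `φ`,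
and `φ = 1` on the `H`-fixed vectors force `H` and `φ` to act trivially. -/
theorem s36k_endgame (H : Subgroup G) (hH : ∀ h ∈ H, (ρ h - 1) * (ρ h - 1) = 0) {φ : G} {q : ℕ}
    (hq : 2 ≤ q) (htame : ∀ τ ∈ H, ρ (φ * τ * φ⁻¹) = ρ τ ^ q) {t : 𝒪}
    (hrel : ρ φ + (q : 𝒪) • ρ φ⁻¹ = t • 1)
    (hfix : ∀ w : E, (∀ τ ∈ H, ρ τ w = w) → ρ φ w = w) :
    (∀ τ ∈ H, ρ τ = 1) ∧ ρ φ = 1 := by
  obtain ⟨l, hl, hQ, hNQ⟩ := s36k_chain ρ (s36k_no_two_torsion 𝒪) H hH
  set Q : Module.End 𝒪 E := s36k_word ρ l with hQdef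
  -- every `Q v` is fixed by `H`, hence by `φ`
  have hfixQ : ∀ v : E, ∀ τ ∈ H, ρ τ (Q v) = Q v := by
    intro v τ hτ
    have := congrArg (fun f : Module.End 𝒪 E => f v) (hNQ τ hτ)
    simp only [Module.End.mul_apply, LinearMap.sub_apply, Module.End.one_apply,
      LinearMap.zero_apply] at this
    exact sub_eq_zero.mp this
  have hφQ : ρ φ * Q = Q := by
    apply LinearMap.ext
    intro v
    exact hfix (Q v) (hfixQ v)
  -- a non-zero fixed vector
  obtain ⟨v, hv⟩ : ∃ v : E, Q v ≠ 0 := by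
    by_contra hcon
    push Not at hcon
    exact hQ (LinearMap.ext hcon)
  have hinv : ρ φ⁻¹ * ρ φ = 1 := by rw [← map_mul, inv_mul_cancel, map_one]
  have hw : ρ φ (Q v) = Q v := hfix (Q v) (hfixQ v)
  have hw' : ρ φ⁻¹ (Q v) = Q v := by
    have := congrArg (fun f : Module.End 𝒪 E => f (Q v)) hinv
    simp only [Module.End.mul_apply, Module.End.one_apply] at this
    rw [hw] at this
    exact this
  -- `t = 1 + q`
  have ht : t = 1 + (q : 𝒪) := by
    have := congrArg (fun f : Module.End 𝒪 E => f (Q v)) hrel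
    simp only [LinearMap.add_apply, LinearMap.smul_apply, Module.End.one_apply] at this
    rw [hw, hw'] at this
    have h0 : (1 + (q : 𝒪) - t) • Q v = 0 := by
      rw [sub_smul, add_smul, one_smul, this, sub_self]
    rcases smul_eq_zero.mp h0 with h | h
    · rw [← sub_eq_zero.mp h]
    · exact absurd h hv
  -- the quadratic equation of `φ`
  have hquad : ρ φ * ρ φ = (1 + (q : 𝒪)) • ρ φ - (q : 𝒪) • 1 := by
    have := congrArg (fun f : Module.End 𝒪 E => f * ρ φ) hrel
    simp only [add_mul, smul_mul_assoc, hinv, one_mul] at this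
    rw [ht] at this
    rw [← this]
    abel
  -- `Q = c Q φ`, `c = q ^ k`
  set c : 𝒪 := (q : 𝒪) ^ l.length with hc
  have hQφ : Q = c • (Q * ρ φ) := by
    rw [← s36k_tame_word ρ H hH htame l hl, hφQ]
  have hkey : ((1 - c) * (1 - c * (q : 𝒪))) • Q = 0 := by
    have h1 : c • (Q * ρ φ * ρ φ) = Q * ρ φ := by
      rw [← smul_mul_assoc, ← hQφ]
    have h2 : Q * ρ φ * ρ φ = (1 + (q : 𝒪)) • (Q * ρ φ) - (q : 𝒪) • Q := by
      rw [mul_assoc, hquad, mul_sub, mul_smul_comm, mul_smul_comm, mul_one]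
    rw [h2, smul_sub, smul_smul, smul_smul] at h1
    -- h1 : (c (1+q)) • Qφ - (c q) • Q = Qφ ; multiply by c
    have h3 := congrArg (fun f : Module.End 𝒪 E => c • f) h1
    simp only [smul_sub, smul_smul] at h3
    rw [← hQφ] at h3
    -- h3 : (c * (c * (1 + q))) • Qφ - (c * (c * q)) • Q = Q
    have h4 : (c * (c * (1 + (q : 𝒪)))) • (Q * ρ φ) = (c * (1 + (q : 𝒪))) • Q := by
      rw [mul_comm c (c * (1 + (q : 𝒪))), mul_smul, ← hQφ]
    rw [h4] at h3
    have h5 : ((1 - c) * (1 - c * (q : 𝒪))) • Q =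
        Q - ((c * (1 + (q : 𝒪))) • Q - (c * (c * (q : 𝒪))) • Q) := by
      have e : (1 - c) * (1 - c * (q : 𝒪)) =
          1 - (c * (1 + (q : 𝒪)) - c * (c * (q : 𝒪))) := by ring
      rw [e, sub_smul, one_smul, sub_smul]
    rw [h5, h3, sub_self]
  have hscal : (1 - c) * (1 - c * (q : 𝒪)) = 0 := by
    have := congrArg (fun f : Module.End 𝒪 E => f v) hkey
    simp only [LinearMap.smul_apply, LinearMap.zero_apply] at this
    rcases smul_eq_zero.mp this with h | h
    · exact h
    · exact absurd h hv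
  -- hence `l = []`
  have hlen : l.length = 0 := by
    rcases mul_eq_zero.mp hscal with h | h
    · have h1 : ((q ^ l.length : ℕ) : 𝒪) = ((1 : ℕ) : 𝒪) := by
        push_cast
        rw [← hc]
        exact (sub_eq_zero.mp h).symm
      have h2 : q ^ l.length = 1 := Nat.cast_injective h1
      by_contra hne
      have : 1 < q ^ l.length := Nat.one_lt_pow hne (by omega)
      omega
    · exfalso
      have h1 : ((q ^ (l.length + 1) : ℕ) : 𝒪) = ((1 : ℕ) : 𝒪) := by
        push_cast
        rw [pow_succ, ← hc]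
        exact (sub_eq_zero.mp h).symm
      have h2 : q ^ (l.length + 1) = 1 := Nat.cast_injective h1
      have : 1 < q ^ (l.length + 1) := Nat.one_lt_pow (Nat.succ_ne_zero _) (by omega)
      omega
  have hnil : l = [] := List.length_eq_zero_iff.mp hlen
  have hQ1 : Q = 1 := by rw [hQdef, hnil, s36k_word_nil]
  have hτ1 : ∀ τ ∈ H, ρ τ = 1 := by
    intro τ hτ
    have := hNQ τ hτ
    rw [hQ1, mul_one] at this
    exact sub_eq_zero.mp this
  refine ⟨hτ1, ?_⟩
  apply LinearMap.ext
  intro w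
  rw [Module.End.one_apply]
  exact hfix w (fun τ hτ => by rw [hτ1 τ hτ, Module.End.one_apply])

end Endgame

end Fermat.Agent.Lib.S36
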