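/-
S36 (R-q), helper4, prefix `s36r_`: THE ABSTRACT CORE OF "THICKNESS ONE" (Mathlib only).

`B` a commutative ring, `𝔫` a prime, `r₁ : B →+* L` a ring hom into a field of characteristic `q`
with `ker r₁ ≤ 𝔫` (the branch `C_∞` through the point `𝔫`), `θ` a derivation of `L`.
`O₁ := { r₁ b / r₁ s : s ∉ 𝔫 }` is the local ring of the branch at the point.

* `s36r_core` : if `r₁ u` generates the maximal ideal of `O₁` (`hgen`), `θ (O₁) ⊆ O₁ · θ (r₁ u)`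
  (`H1`), `θ Ā = (θ τ̄)^q - τ̄^(q-1) θ τ̄` (`H2`), `(θ τ̄)^q / θ ū` has a POLE at the point (`H3`)
  and `r₁ β₀ = r₁ u * Ā`, then `β₀ ∉ 𝔫`.
* `s36r_span_pair_of_unit` : `𝔪 = (u, w, ϖ)`, `u w = ϖ β₀`, `β₀` a unit  ⟹  `𝔪 = (u, w)`.
-/
import Mathlib

set_option autoImplicit false

namespace Fermat.Agent.Lib.S36

section Core

variable {B L : Type*} [CommRing B] [Field L] (q : ℕ)

/-- `θ (x ^ q) = 0` in characteristic `q`. -/
theorem s36r_deriv_pow_char [CharP L q] (θ : Derivation ℤ L L) (x : L) : θ (x ^ q) = 0 := by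
  rw [Derivation.leibniz_pow]
  have : (q : L) = 0 := CharP.cast_eq_zero L q
  rw [← Nat.cast_smul_eq_nsmul L q, this, zero_smul]

/-- **The abstract core.**  See the header. -/
theorem s36r_core (r₁ : B →+* L) (𝔫 : Ideal B) [h𝔫 : 𝔫.IsPrime] (hker : RingHom.ker r₁ ≤ 𝔫)
    (θ : Derivation ℤ L L) (u τ β₀ : B) (Abar : L)
    (hu : r₁ u ≠ 0)
    (hgen : ∀ y ∈ 𝔫, ∃ c, c ∉ 𝔫 ∧ ∃ z, r₁ c * r₁ y = r₁ z * r₁ u)
    (H1 : ∀ f : B, ∃ s, s ∉ 𝔫 ∧ ∃ h, r₁ s * θ (r₁ f) = r₁ h * θ (r₁ u))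
    (hθu : θ (r₁ u) ≠ 0)
    (H2 : θ Abar = (θ (r₁ τ)) ^ q - (r₁ τ) ^ (q - 1) * θ (r₁ τ))
    (H3 : ∃ a ∈ 𝔫, ∃ b, b ∉ 𝔫 ∧ (θ (r₁ τ)) ^ q * r₁ a = θ (r₁ u) * r₁ b)
    (hβ₀ : r₁ β₀ = r₁ u * Abar) : β₀ ∉ 𝔫 := by
  intro hβ𝔫
  have hne : ∀ s, s ∉ 𝔫 → r₁ s ≠ 0 := fun s hs h0 => hs (hker ((RingHom.mem_ker).mpr h0))
  -- `Ā = r₁ z / r₁ c`
  obtain ⟨c, hc, z, hcz⟩ := hgen β₀ hβ𝔫
  have hc0 := hne c hc
  have hA : r₁ c * Abar = r₁ z := by
    have h1 : r₁ u * (r₁ c * Abar) = r₁ u * r₁ z := by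
      rw [hβ₀] at hcz
      linear_combination hcz
    exact mul_left_cancel₀ hu h1
  -- differentiate `r₁ c * Ā = r₁ z`
  obtain ⟨s₁, hs₁, h₁, e₁⟩ := H1 c
  obtain ⟨s₂, hs₂, h₂, e₂⟩ := H1 z
  obtain ⟨s₃, hs₃, h₃, e₃⟩ := H1 τ
  have hd : r₁ c * θ Abar + Abar * θ (r₁ c) = θ (r₁ z) := by
    have := congrArg θ hA
    rw [Derivation.leibniz] at this
    simpa [smul_eq_mul] using this
  obtain ⟨a, ha, b, hb, e₄⟩ := H3
  set X := θ (r₁ u) with hX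
  set T := θ (r₁ τ) with hT
  -- everything in terms of `X`
  have hs₁0 := hne s₁ hs₁
  have hs₂0 := hne s₂ hs₂
  have hs₃0 := hne s₃ hs₃
  -- `r₁ c * θ Ā` as a multiple of `X` with denominator `r₁ (c s₁ s₂)`
  have k1 : r₁ (c * s₁ * s₂) * (r₁ c * θ Abar) = r₁ (c * s₁ * h₂ - z * h₁ * s₂) * X := by
    simp only [map_mul, map_sub]
    have hAbar : Abar = r₁ z / r₁ c := by
      field_simp
      linear_combination hA
    have e1' : θ (r₁ c) = r₁ h₁ * X / r₁ s₁ := by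
      field_simp
      linear_combination e₁
    have e2' : θ (r₁ z) = r₁ h₂ * X / r₁ s₂ := by
      field_simp
      linear_combination e₂
    have hd' : r₁ c * θ Abar = θ (r₁ z) - Abar * θ (r₁ c) := by linear_combination hd
    rw [hd', hAbar, e1', e2']
    field_simp
  -- `T ^ q` as a multiple of `X`
  have k2 : r₁ (c * (c * s₁ * s₂) * s₃) * T ^ q =
      r₁ ((c * s₁ * h₂ - z * h₁ * s₂) * s₃ + c * (c * s₁ * s₂) * τ ^ (q - 1) * h₃) * X := by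
    have hTq : T ^ q = θ Abar + (r₁ τ) ^ (q - 1) * T := by rw [H2]; ring
    have e3' : r₁ s₃ * T = r₁ h₃ * X := e₃
    simp only [map_mul, map_sub, map_add, map_pow] at k1 ⊢
    rw [hTq]
    linear_combination (r₁ s₃) * k1 + (r₁ c * (r₁ c * r₁ s₁ * r₁ s₂) * r₁ τ ^ (q - 1)) * e3'
  set S := c * (c * s₁ * s₂) * s₃ with hS
  set H := (c * s₁ * h₂ - z * h₁ * s₂) * s₃ + c * (c * s₁ * s₂) * τ ^ (q - 1) * h₃ with hH
  have hS𝔫 : S ∉ 𝔫 := by
    intro h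
    rcases h𝔫.mem_or_mem h with h | h
    · rcases h𝔫.mem_or_mem h with h | h
      · exact hc h
      · rcases h𝔫.mem_or_mem h with h | h
        · rcases h𝔫.mem_or_mem h with h | h
          · exact hc h
          · exact hs₁ h
        · exact hs₂ h
    · exact hs₃ h
  -- `r₁ (H a) = r₁ (S b)`
  have k3 : r₁ (H * a - S * b) = 0 := by
    have h1 : X * (r₁ H * r₁ a - r₁ S * r₁ b) = 0 := by
      linear_combination (r₁ a) * k2.symm + (r₁ S) * e₄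
    rcases mul_eq_zero.mp h1 with h | h
    · exact absurd h hθu
    · rw [map_sub, map_mul, map_mul]; exact h
  have k4 : H * a - S * b ∈ 𝔫 := hker ((RingHom.mem_ker).mpr k3)
  have k5 : S * b ∈ 𝔫 := by
    have := 𝔫.sub_mem (𝔫.mul_mem_left H ha) k4
    rwa [sub_sub_cancel] at this
  rcases h𝔫.mem_or_mem k5 with h | h
  · exact hS𝔫 h
  · exact hb h

end Core

section Span

variable {R : Type*} [CommRing R]

/-- `𝔪 = (u, w, ϖ)` and `u w = ϖ β` with `β` a unit  ⟹  `𝔪 = (u, w)`. -/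
theorem s36r_span_pair_of_unit (I : Ideal R) (u w ϖ β : R) (hI : I = Ideal.span {u, w, ϖ})
    (hβ : IsUnit β) (h : u * w = ϖ * β) : I = Ideal.span {u, w} := by
  obtain ⟨β', rfl⟩ := hβ
  have hϖ : ϖ = u * (w * (↑β'⁻¹ : R)) := by
    have : ϖ = (u * w) * (↑β'⁻¹ : R) := by rw [h, mul_assoc, Units.mul_inv, mul_one]
    rw [this]; ring
  rw [hI]
  apply le_antisymm
  · rw [Ideal.span_le]
    rintro x (rfl | rfl | rfl)
    · exact Ideal.subset_span (by simp)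
    · exact Ideal.subset_span (by simp)
    · rw [hϖ]
      exact Ideal.mul_mem_right _ _ (Ideal.subset_span (by simp))
  · apply Ideal.span_mono
    intro x hx
    rcases hx with rfl | rfl
    · simp
    · simp

end Span

end Fermat.Agent.Lib.S36
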