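/-
S36 (R-q), helper4, prefix `s36r_`: KÄHLER DIFFERENTIALS OF A LOCAL RING WITH SEPARABLE RESIDUE
FIELD (Mathlib only).

`R` a local `A`-algebra, essentially of finite type, whose maximal ideal is generated by a set `S`,
and such that every `f : R` satisfies a "separable equation modulo `𝔪`" over `A`
(`∃ μ : A[X], μ(f) ∈ 𝔪 ∧ μ'(f) ∈ Rˣ` — the residue field is separable algebraic over the image
of `A`).  Then `Ω[R/A]` is generated by `{ds : s ∈ S}` (Nakayama), hence for every `A`-derivation
`d : R → N` and every `f : R`, `d f` lies in the `R`-span of `{d s : s ∈ S}`.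

* `s36r_span_D_eq_top`, `s36r_deriv_mem_span`;
* `s36r_deriv_eq_smul` : the case `S = {t} ∪ S₀` with `d s = 0` on `S₀` (smooth point `(t, ϖ)` over a
  DVR, or a point of a curve over a field, `S₀ = ∅`): `∃ h, d f = h • d t`.
-/
import Mathlib

set_option autoImplicit false

open KaehlerDifferential Polynomial

namespace Fermat.Agent.Lib.S36

variable {A R : Type*} [CommRing A] [CommRing R] [IsLocalRing R] [Algebra A R]

/-- Nakayama: `Ω[R/A]` is spanned by the differentials of a generating set of the maximal ideal,
if the residue field is "separable over `A`" in the elementwise sense `hsep`. -/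
theorem s36r_span_D_eq_top [Algebra.EssFiniteType A R] (S : Set R)
    (hm : IsLocalRing.maximalIdeal R = Ideal.span S)
    (hsep : ∀ f : R, ∃ μ : A[X], aeval f μ ∈ IsLocalRing.maximalIdeal R ∧
      IsUnit (aeval f (derivative μ))) :
    Submodule.span R ((D A R) '' S) = ⊤ := by
  have hfg : (⊤ : Submodule R Ω[R⁄A]).FG := Module.finite_def.mp inferInstance
  have hJ : IsLocalRing.maximalIdeal R ≤ Ideal.jacobson ⊥ :=
    IsLocalRing.maximalIdeal_le_jacobson ⊥
  -- differentials of elements of the maximal ideal
  have hmem : ∀ y ∈ IsLocalRing.maximalIdeal R,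
      D A R y ∈ Submodule.span R ((D A R) '' S) ⊔ IsLocalRing.maximalIdeal R • ⊤ := by
    intro y hy
    rw [hm] at hy
    induction hy using Submodule.span_induction with
    | mem x hx =>
      exact Submodule.mem_sup_left (Submodule.subset_span ⟨x, hx, rfl⟩)
    | zero => rw [map_zero]; exact Submodule.zero_mem _
    | add x y _ _ hx hy => rw [map_add]; exact Submodule.add_mem _ hx hy
    | smul a x hx' hx =>
      rw [smul_eq_mul, Derivation.leibniz]
      refine Submodule.add_mem _ (Submodule.smul_mem _ _ hx) ?_
      refine Submodule.mem_sup_right (Submodule.smul_mem_smul ?_ Submodule.mem_top)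
      rw [hm]
      exact hx'
  have key : (⊤ : Submodule R Ω[R⁄A]) ≤
      Submodule.span R ((D A R) '' S) ⊔ IsLocalRing.maximalIdeal R • ⊤ := by
    have htop : (⊤ : Submodule R Ω[R⁄A]) = Submodule.span R (Set.range (D A R)) :=
      (KaehlerDifferential.span_range_derivation A R).symm
    intro x _
    have hx : x ∈ Submodule.span R (Set.range (D A R)) := by rw [← htop]; exact Submodule.mem_top
    revert x
    intro x _ hx
    refine (Submodule.span_le.mpr ?_) hx
    rintro _ ⟨f, rfl⟩
    obtain ⟨μ, hμ, hu⟩ := hsep f
    -- `d(μ(f)) = μ'(f) df` since the coefficients of `μ` are in `A`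
    have h1 : D A R (aeval f μ) = aeval f (derivative μ) • D A R f := by
      have := Derivation.apply_aeval_eq (D A R) f μ
      rw [this]
      have h0 : ((D A R).compAlgebraMap A).mapCoeffs μ = 0 := by
        have hz : (D A R).compAlgebraMap A = 0 := by
          ext a
          simp
        rw [hz]
        ext i
        simp
      rw [h0]
      simp
    have h2 := hmem _ hμ
    rw [h1] at h2
    obtain ⟨v, hv⟩ := hu.exists_left_inv
    have h3 : D A R f = v • (aeval f (derivative μ) • D A R f) := by
      rw [smul_smul, hv, one_smul]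
    rw [SetLike.mem_coe, h3]
    exact Submodule.smul_mem _ _ h2
  exact top_le_iff.mp (Submodule.le_of_le_smul_of_le_jacobson_bot hfg hJ key)

variable {N : Type*} [AddCommGroup N] [Module R N] [Module A N] [IsScalarTower A R N]

/-- For every `A`-derivation `d : R → N`, `d f` lies in the span of `{d s : s ∈ S}`. -/
theorem s36r_deriv_mem_span [Algebra.EssFiniteType A R] (S : Set R)
    (hm : IsLocalRing.maximalIdeal R = Ideal.span S)
    (hsep : ∀ f : R, ∃ μ : A[X], aeval f μ ∈ IsLocalRing.maximalIdeal R ∧
      IsUnit (aeval f (derivative μ)))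
    (d : Derivation A R N) (f : R) : d f ∈ Submodule.span R (d '' S) := by
  have h1 : D A R f ∈ Submodule.span R ((D A R) '' S) := by
    rw [s36r_span_D_eq_top S hm hsep]; exact Submodule.mem_top
  have h2 : d f = d.liftKaehlerDifferential (D A R f) :=
    (Derivation.liftKaehlerDifferential_comp_D d f).symm
  rw [h2]
  have h3 : Submodule.map d.liftKaehlerDifferential (Submodule.span R ((D A R) '' S)) =
      Submodule.span R (d '' S) := by
    rw [Submodule.map_span, ← Set.image_comp]
    congr 1
    ext x
    simp only [Set.mem_image, Function.comp_apply]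
    constructor
    · rintro ⟨s, hs, rfl⟩
      exact ⟨s, hs, (Derivation.liftKaehlerDifferential_comp_D d s).symm⟩
    · rintro ⟨s, hs, rfl⟩
      exact ⟨s, hs, Derivation.liftKaehlerDifferential_comp_D d s⟩
  rw [← h3]
  exact Submodule.mem_map_of_mem h1

/-- The case `𝔪 = (t) + (S₀)` with `d = 0` on `S₀`: `d f = h • d t`. -/
theorem s36r_deriv_eq_smul [Algebra.EssFiniteType A R] (t : R) (S₀ : Set R)
    (hm : IsLocalRing.maximalIdeal R = Ideal.span (insert t S₀))
    (hsep : ∀ f : R, ∃ μ : A[X], aeval f μ ∈ IsLocalRing.maximalIdeal R ∧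
      IsUnit (aeval f (derivative μ)))
    (d : Derivation A R N) (hd0 : ∀ s ∈ S₀, d s = 0) (f : R) : ∃ h : R, d f = h • d t := by
  have h1 := s36r_deriv_mem_span (insert t S₀) hm hsep d f
  have h2 : Submodule.span R (d '' insert t S₀) ≤ Submodule.span R {d t} := by
    rw [Submodule.span_le]
    rintro _ ⟨s, hs, rfl⟩
    rcases hs with rfl | hs
    · exact Submodule.subset_span rfl
    · rw [hd0 s hs]; exact Submodule.zero_mem _
  exact Submodule.mem_span_singleton.mp (h2 h1) |>.imp fun h hh => hh.symm

end Fermat.Agent.Lib.S36
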