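/-
S36 (R-q), helper4, prefix `s36r_`: THE HYPOTHESIS `H1` OF `s36r_core` FROM `RKaehler.lean`
(Mathlib + RKaehler).

`A → B` of finite type, `𝔫` a prime of `B`, `r : B →+* L` a ring hom into a field with
`ker r ≤ 𝔫` (a branch through `𝔫`), `θ` a derivation of `L` killing `r(A)`.  If the maximal ideal
of `B_𝔫` is generated by `u` and a set `S₀` on which `θ ∘ r` vanishes (the equations of the OTHER
branch and the uniformiser), and `B_𝔫` satisfies `hsep`, then
`∀ f : B, ∃ s ∉ 𝔫, ∃ h, r s * θ (r f) = r h * θ (r u)`.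
-/
import Fermat.Agent.Lib.S36.RKaehler

set_option autoImplicit false
set_option linter.style.haveILetI false

open Polynomial

namespace Fermat.Agent.Lib.S36

variable {A B L : Type*} [CommRing A] [CommRing B] [Algebra A B] [Field L]

/-- **`H1`.** -/
theorem s36r_H1 [Algebra.FiniteType A B] (𝔫 : Ideal B) [h𝔫 : 𝔫.IsPrime] (r : B →+* L)
    (hker : RingHom.ker r ≤ 𝔫) (θ : Derivation ℤ L L)
    (hθA : ∀ a : A, θ (r (algebraMap A B a)) = 0) (u : B) (S₀ : Set B)
    (hm : IsLocalRing.maximalIdeal (Localization.AtPrime 𝔫) =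
      Ideal.span (insert (algebraMap B (Localization.AtPrime 𝔫) u)
        (algebraMap B (Localization.AtPrime 𝔫) '' S₀)))
    (hS₀ : ∀ s ∈ S₀, θ (r s) = 0)
    (hsep : ∀ f : Localization.AtPrime 𝔫, ∃ μ : A[X],
      aeval f μ ∈ IsLocalRing.maximalIdeal (Localization.AtPrime 𝔫) ∧
        IsUnit (aeval f (derivative μ)))
    (f : B) : ∃ s, s ∉ 𝔫 ∧ ∃ h, r s * θ (r f) = r h * θ (r u) := by
  -- the extension of `r` to the localization
  have hunit : ∀ y : 𝔫.primeCompl, IsUnit (r (y : B)) := fun y =>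
    IsUnit.mk0 _ (fun h0 => y.2 (hker ((RingHom.mem_ker).mpr h0)))
  let ρ : Localization.AtPrime 𝔫 →+* L := IsLocalization.lift (M := 𝔫.primeCompl) (g := r) hunit
  have hρ : ∀ b : B, ρ (algebraMap B (Localization.AtPrime 𝔫) b) = r b := fun b =>
    IsLocalization.lift_eq hunit b
  letI algRL : Algebra (Localization.AtPrime 𝔫) L := ρ.toAlgebra
  letI algAL : Algebra A L := (ρ.comp (algebraMap A (Localization.AtPrime 𝔫))).toAlgebra
  haveI tower : IsScalarTower A (Localization.AtPrime 𝔫) L :=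
    IsScalarTower.of_algebraMap_eq fun _ => rfl
  have hρA : ∀ a : A, ρ (algebraMap A (Localization.AtPrime 𝔫) a) = r (algebraMap A B a) := by
    intro a
    rw [IsScalarTower.algebraMap_apply A B (Localization.AtPrime 𝔫), hρ]
  -- the derivation `θ ∘ ρ`
  let d : Derivation A (Localization.AtPrime 𝔫) L :=
    { toFun := fun x => θ (ρ x)
      map_add' := fun x y => by simp only [map_add]
      map_smul' := fun a x => by
        simp only [RingHom.id_apply]
        rw [Algebra.smul_def, map_mul, Derivation.leibniz, hρA, hθA, smul_zero, add_zero,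
          Algebra.smul_def]
        show r (algebraMap A B a) • θ (ρ x) = (ρ.comp (algebraMap A (Localization.AtPrime 𝔫))) a *
          θ (ρ x)
        rw [RingHom.comp_apply, hρA, smul_eq_mul]
      map_one_eq_zero' := by
        show θ (ρ 1) = 0
        rw [map_one]
        exact θ.map_one_eq_zero
      leibniz' := fun x y => by
        show θ (ρ (x * y)) = x • θ (ρ y) + y • θ (ρ x)
        rw [map_mul, Derivation.leibniz, Algebra.smul_def, Algebra.smul_def]
        rfl }
  have hd : ∀ x, d x = θ (ρ x) := fun _ => rfl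
  haveI : Algebra.EssFiniteType A (Localization.AtPrime 𝔫) := inferInstance
  obtain ⟨h, hh⟩ := s36r_deriv_eq_smul (algebraMap B (Localization.AtPrime 𝔫) u)
    (algebraMap B (Localization.AtPrime 𝔫) '' S₀) hm hsep d
    (by
      rintro _ ⟨s, hs, rfl⟩
      rw [hd, hρ]
      exact hS₀ s hs)
    (algebraMap B (Localization.AtPrime 𝔫) f)
  rw [hd, hd, hρ, hρ, Algebra.smul_def] at hh
  obtain ⟨⟨h₀, s⟩, hs⟩ := IsLocalization.surj 𝔫.primeCompl h
  refine ⟨s, s.2, h₀, ?_⟩
  have h1 := congrArg ρ hs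
  simp only at h1
  rw [map_mul, hρ, hρ] at h1
  rw [hh, ← h1]
  show r s * (ρ h * θ (r u)) = ρ h * r s * θ (r u)
  ring

end Fermat.Agent.Lib.S36
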