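/-
S36 (R-q), helper4, prefix `s36r_`: THE SEPARABILITY HYPOTHESIS `hsep` OF `RKaehler.lean`
(Mathlib only).

`A → B` of finite type, `π : A → κ` a surjection onto a PERFECT field, `𝔫` a MAXIMAL ideal of `B`
containing the image of `ker π`.  Then `B ⧸ 𝔫` is a finite (Zariski's lemma), hence separable,
extension of `κ`, and every `f : Localization.AtPrime 𝔫` satisfies a separable equation modulo the
maximal ideal with coefficients in `A`:
`∃ μ : A[X], μ(f) ∈ 𝔪 ∧ μ'(f) ∈ (B_𝔫)ˣ`  (`s36r_hsep`).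
Also `s36r_essFiniteType_atPrime`.
-/
import Mathlib

set_option autoImplicit false
set_option linter.style.haveILetI false

open Polynomial

namespace Fermat.Agent.Lib.S36

variable {A B κ : Type*} [CommRing A] [CommRing B] [Algebra A B] [Field κ]

/-- The localization of a finite type algebra is essentially of finite type. -/
theorem s36r_essFiniteType_atPrime [Algebra.FiniteType A B] (𝔫 : Ideal B) [𝔫.IsPrime] :
    Algebra.EssFiniteType A (Localization.AtPrime 𝔫) := inferInstance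

/-- Every element of `B_𝔫` is congruent to an element of `B` modulo the maximal ideal, for `𝔫`
maximal. -/
theorem s36r_exists_sub_mem_maximalIdeal (𝔫 : Ideal B) [h𝔫 : 𝔫.IsMaximal]
    (f : Localization.AtPrime 𝔫) :
    ∃ b : B, f - algebraMap B (Localization.AtPrime 𝔫) b ∈
      IsLocalRing.maximalIdeal (Localization.AtPrime 𝔫) := by
  obtain ⟨⟨b, s⟩, h⟩ := IsLocalization.surj 𝔫.primeCompl f
  have hs : (s : B) ∉ 𝔫 := s.2
  obtain ⟨s', hs'⟩ := Ideal.Quotient.exists_inv (I := 𝔫) (a := Ideal.Quotient.mk 𝔫 (s : B))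
    (by rwa [Ne, Ideal.Quotient.eq_zero_iff_mem])
  obtain ⟨s'', rfl⟩ := Ideal.Quotient.mk_surjective s'
  have h1 : (s : B) * s'' - 1 ∈ 𝔫 := by
    rw [← Ideal.Quotient.eq_zero_iff_mem, map_sub, map_mul, hs', map_one, sub_self]
  refine ⟨b * s'', ?_⟩
  have hmem : ∀ x ∈ 𝔫, algebraMap B (Localization.AtPrime 𝔫) x ∈
      IsLocalRing.maximalIdeal (Localization.AtPrime 𝔫) := by
    intro x hx
    rw [← Localization.AtPrime.map_eq_maximalIdeal]
    exact Ideal.mem_map_of_mem _ hx
  have h2 : f - algebraMap B (Localization.AtPrime 𝔫) (b * s'') =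
      -(f * algebraMap B (Localization.AtPrime 𝔫) ((s : B) * s'' - 1)) := by
    simp only at h
    rw [map_mul, ← h, map_sub, map_mul, map_one]
    ring
  rw [h2]
  exact neg_mem (Ideal.mul_mem_left _ _ (hmem _ h1))

/-- **`hsep`**: separable equations modulo the maximal ideal. -/
theorem s36r_hsep [PerfectField κ] [Algebra.FiniteType A B] (π : A →+* κ)
    (hπ : Function.Surjective π) (𝔫 : Ideal B) [h𝔫 : 𝔫.IsMaximal]
    (hker : ∀ a : A, π a = 0 → algebraMap A B a ∈ 𝔫) (f : Localization.AtPrime 𝔫) :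
    ∃ μ : A[X], aeval f μ ∈ IsLocalRing.maximalIdeal (Localization.AtPrime 𝔫) ∧
      IsUnit (aeval f (derivative μ)) := by
  classical
  letI : Field (B ⧸ 𝔫) := Ideal.Quotient.field 𝔫
  -- the `κ`-algebra structure of `B ⧸ 𝔫`
  let g : A →+* B ⧸ 𝔫 := (Ideal.Quotient.mk 𝔫).comp (algebraMap A B)
  have hg : ∀ a, π a = 0 → g a = 0 := fun a ha =>
    Ideal.Quotient.eq_zero_iff_mem.mpr (hker a ha)
  let ψ : κ →+* B ⧸ 𝔫 := RingHom.liftOfSurjective π hπ ⟨g, fun a ha => hg a ha⟩
  have hψ : ∀ a, ψ (π a) = g a := fun a =>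
    RingHom.liftOfRightInverse_comp_apply _ _ _ _ a
  letI algκ : Algebra κ (B ⧸ 𝔫) := ψ.toAlgebra
  letI algAκ : Algebra A κ := π.toAlgebra
  haveI tower : IsScalarTower A κ (B ⧸ 𝔫) := IsScalarTower.of_algebraMap_eq fun a => (hψ a).symm
  haveI : Algebra.FiniteType A (B ⧸ 𝔫) :=
    Algebra.FiniteType.of_surjective (Ideal.Quotient.mkₐ A 𝔫)
      (Ideal.Quotient.mkₐ_surjective A 𝔫)
  haveI : Algebra.FiniteType κ (B ⧸ 𝔫) := Algebra.FiniteType.of_restrictScalars_finiteType A κ _
  haveI : Module.Finite κ (B ⧸ 𝔫) := finite_of_finite_type_of_isJacobsonRing κ (B ⧸ 𝔫)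
  haveI : Algebra.IsAlgebraic κ (B ⧸ 𝔫) := Algebra.IsAlgebraic.of_finite κ (B ⧸ 𝔫)
  -- reduce to an element of `B`
  obtain ⟨b, hb⟩ := s36r_exists_sub_mem_maximalIdeal 𝔫 f
  set bbar : B ⧸ 𝔫 := Ideal.Quotient.mk 𝔫 b with hbbar
  have hsep : (minpoly κ bbar).Separable := (Algebra.IsSeparable.isSeparable κ bbar)
  obtain ⟨μ, hμ⟩ : ∃ μ : A[X], μ.map π = minpoly κ bbar :=
    Polynomial.map_surjective π hπ _
  have hev : ∀ p : A[X], Ideal.Quotient.mk 𝔫 (aeval b p) = aeval bbar (p.map π) := by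
    intro p
    induction p using Polynomial.induction_on' with
    | add p₁ p₂ h₁ h₂ => simp only [map_add, Polynomial.map_add, h₁, h₂]
    | monomial n a =>
      rw [Polynomial.map_monomial, aeval_monomial, aeval_monomial, map_mul, map_pow]
      have : algebraMap κ (B ⧸ 𝔫) (π a) = Ideal.Quotient.mk 𝔫 (algebraMap A B a) := hψ a
      rw [this]
  have h0 : aeval b μ ∈ 𝔫 := by
    rw [← Ideal.Quotient.eq_zero_iff_mem, hev, hμ, minpoly.aeval]
  have h1 : aeval b (derivative μ) ∉ 𝔫 := by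
    rw [← Ideal.Quotient.eq_zero_iff_mem, hev, ← Polynomial.derivative_map, hμ]
    exact hsep.aeval_derivative_ne_zero (minpoly.aeval κ bbar)
  -- transfer to `f`
  have hmem : ∀ x ∈ 𝔫, algebraMap B (Localization.AtPrime 𝔫) x ∈
      IsLocalRing.maximalIdeal (Localization.AtPrime 𝔫) := by
    intro x hx
    rw [← Localization.AtPrime.map_eq_maximalIdeal]
    exact Ideal.mem_map_of_mem _ hx
  have hcongr : ∀ p : A[X], aeval f p - algebraMap B (Localization.AtPrime 𝔫) (aeval b p) ∈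
      IsLocalRing.maximalIdeal (Localization.AtPrime 𝔫) := by
    intro p
    have e : algebraMap B (Localization.AtPrime 𝔫) (aeval b p) =
        aeval (algebraMap B (Localization.AtPrime 𝔫) b) p := by
      rw [← Polynomial.aeval_algebraMap_apply]
    rw [e]
    have hdvd : f - algebraMap B (Localization.AtPrime 𝔫) b ∣
        aeval f p - aeval (algebraMap B (Localization.AtPrime 𝔫) b) p := by
      rw [← Polynomial.eval_map_algebraMap, ← Polynomial.eval_map_algebraMap]
      exact Polynomial.sub_dvd_eval_sub _ _ _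
    obtain ⟨c, hc⟩ := hdvd
    rw [hc]
    exact Ideal.mul_mem_right _ _ hb
  refine ⟨μ, ?_, ?_⟩
  · have := Ideal.add_mem _ (hcongr μ) (hmem _ h0)
    rwa [sub_add_cancel] at this
  · by_contra hnu
    have h2 : aeval f (derivative μ) ∈ IsLocalRing.maximalIdeal (Localization.AtPrime 𝔫) := hnu
    have h3 := Ideal.sub_mem _ h2 (hcongr (derivative μ))
    rw [sub_sub_cancel] at h3
    have h4 : aeval b (derivative μ) ∈ 𝔫 := by
      have := (IsLocalization.AtPrime.to_map_mem_maximal_iff (Localization.AtPrime 𝔫) 𝔫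
        (aeval b (derivative μ))).mp h3
      exact this
    exact h1 h4

end Fermat.Agent.Lib.S36
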