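/-
S36 (R-q), helper4, prefix `s36r_`: THICKNESS ONE AT A CROSSING POINT, ABSTRACT TWO-REDUCTION FORM
(Mathlib + `Lib/S34/DNode.lean` + the `R*.lean` files).

`A → B` of finite type, `π : A ↠ κ` (perfect), `𝔫` a maximal ideal of `B`, `r₁ r₂ : B →+* L` two
reductions into a field with `ker r₁, ker r₂ ≤ 𝔫` and purity `ker r₁ ∩ ker r₂ = q B`; `θ` a derivation
of `L` killing `r_i(A)` and `q`-th powers.  Node coordinates `u = a_t - b_t' ^ q`,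
`w = b_t₂ - a_t₂' ^ q` as in `s35gd_dichotomy`.

* `s36r_locGenAt_of_comap` : transport of local generators along `γ : B₀ → B`;
* `s36r_node_setup` : `u, w` are local generators of the two branches, `q ∣ u w`, `𝔪 = (u, w, q)`;
* `s36r_H1_pair`, `s36r_theta_gen_ne_zero` : `H1` on both branches; `θ (r₁ u) ≠ 0`, `θ (r₂ w) ≠ 0`;
* **`s36r_thick_abs`** : with `H2`, `H3` and `r₁ β₀ = r₁ u * Ā`: `β₀ ∉ 𝔫` and `𝔪 = (u, w)`.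
-/
import Fermat.Agent.Lib.S34.DNode
import Fermat.Agent.Lib.S36.RCoreAbs
import Fermat.Agent.Lib.S36.RH1
import Fermat.Agent.Lib.S36.RSepRes

set_option autoImplicit false
set_option linter.unusedSectionVars false
set_option linter.style.haveILetI false

open Polynomial Fermat.Agent.Lib.S34

namespace Fermat.Agent.Lib.S36

section Comap

variable {B₀ B κ : Type*} [CommRing B₀] [CommRing B] [CommRing κ]

/-- If `γ t₀'` is a local generator at `𝔫` and `t₀` is a local generator at `γ⁻¹ 𝔫` (for `r ∘ γ`),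
then `γ t₀` is a local generator at `𝔫`. -/
theorem s36r_locGenAt_of_comap (γ : B₀ →+* B) (r : B →+* κ) (𝔫 : Ideal B) [h𝔫 : 𝔫.IsPrime]
    {t₀ t₀' : B₀} (h : s34d_LocGenAt r 𝔫 (γ t₀'))
    (h₀ : s34d_LocGenAt (r.comp γ) (𝔫.comap γ) t₀) : s34d_LocGenAt r 𝔫 (γ t₀) := by
  refine ⟨h₀.1, fun y hy => ?_⟩
  obtain ⟨c₁, hc₁, z₁, e₁⟩ := h.2 y hy
  obtain ⟨c₀, hc₀, z₀, e₀⟩ := h₀.2 t₀' h.1
  refine ⟨γ c₀ * c₁, fun hmem => (h𝔫.mem_or_mem hmem).elim hc₀ hc₁, z₁ * γ z₀, ?_⟩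
  simp only [RingHom.comp_apply, map_mul] at e₀ e₁ ⊢
  calc r (γ c₀) * r c₁ * r y = r (γ c₀) * (r c₁ * r y) := by ring
    _ = r (γ c₀) * (r z₁ * r (γ t₀')) := by rw [e₁]
    _ = r z₁ * (r (γ c₀) * r (γ t₀')) := by ring
    _ = r z₁ * (r (γ z₀) * r (γ t₀)) := by rw [e₀]
    _ = r z₁ * r (γ z₀) * r (γ t₀) := by ring

end Comap

section Node

variable {B L : Type*} [CommRing B] [Field L] (qB : B) (r₁ r₂ : B →+* L)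

/-- The node coordinates (the crossing case of `s35gd_dichotomy`, with explicit data). -/
theorem s36r_node_setup (hpur : ∀ b, r₁ b = 0 → r₂ b = 0 → qB ∣ b) (q : ℕ) (hq : 2 ≤ q)
    (𝔫 : Ideal B) [h𝔫 : 𝔫.IsPrime] (hqB : qB ∈ 𝔫)
    (h1 : RingHom.ker r₁ ≤ 𝔫) (h2 : RingHom.ker r₂ ≤ 𝔫)
    (at' bt' bt₂ at₂' : B) (hu₂ : r₂ at' = r₂ bt' ^ q) (hw₁ : r₁ bt₂ = r₁ at₂' ^ q)
    (hU : s34d_LocGenAt r₁ 𝔫 at') (hW : s34d_LocGenAt r₂ 𝔫 bt₂) :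
    bt' ∈ 𝔫 ∧ at₂' ∈ 𝔫 ∧
    s34d_LocGenAt r₁ 𝔫 (at' - bt' ^ q) ∧ s34d_LocGenAt r₂ 𝔫 (bt₂ - at₂' ^ q) ∧
    r₂ (at' - bt' ^ q) = 0 ∧ r₁ (bt₂ - at₂' ^ q) = 0 ∧
    qB ∣ (at' - bt' ^ q) * (bt₂ - at₂' ^ q) ∧
    IsLocalRing.maximalIdeal (Localization.AtPrime 𝔫) =
      Ideal.span {algebraMap B (Localization.AtPrime 𝔫) (at' - bt' ^ q),
        algebraMap B (Localization.AtPrime 𝔫) (bt₂ - at₂' ^ q),
        algebraMap B (Localization.AtPrime 𝔫) qB} := by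
  have hu₂' : r₂ (at' - bt' ^ q) = 0 := by rw [map_sub, map_pow, hu₂, sub_self]
  have hw₁' : r₁ (bt₂ - at₂' ^ q) = 0 := by rw [map_sub, map_pow, hw₁, sub_self]
  have hb₁ : bt' ∈ 𝔫 := by
    have h : at' - bt' ^ q ∈ 𝔫 := h2 hu₂'
    have h' : bt' ^ q ∈ 𝔫 := by
      have := 𝔫.sub_mem hU.1 h
      rwa [sub_sub_cancel] at this
    exact h𝔫.mem_of_pow_mem _ h'
  have hb₂ : at₂' ∈ 𝔫 := by
    have h : bt₂ - at₂' ^ q ∈ 𝔫 := h1 hw₁'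
    have h' : at₂' ^ q ∈ 𝔫 := by
      have := 𝔫.sub_mem hW.1 h
      rwa [sub_sub_cancel] at this
    exact h𝔫.mem_of_pow_mem _ h'
  have hU' := s34d_locGenAt_sub_pow hU hb₁ hq
  have hW' := s34d_locGenAt_sub_pow hW hb₂ hq
  obtain ⟨hdvd, hgen⟩ := s34d_node qB r₁ r₂ hpur 𝔫 hU' hu₂' hW' hw₁'
  exact ⟨hb₁, hb₂, hU', hW', hu₂', hw₁', hdvd,
    s34d_maximalIdeal_eq_span_triple 𝔫 hU'.1 hW'.1 hqB hgen⟩

end Node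

section H1

variable {A B L κ : Type*} [CommRing A] [CommRing B] [Algebra A B] [Field L] [Field κ]

/-- `H1` on both branches of a node `𝔪 = (u, w, q)`. -/
theorem s36r_H1_pair [PerfectField κ] [Algebra.FiniteType A B] (π : A →+* κ)
    (hπ : Function.Surjective π) (𝔫 : Ideal B) [h𝔫 : 𝔫.IsMaximal]
    (hkerπ : ∀ a : A, π a = 0 → algebraMap A B a ∈ 𝔫)
    (r₁ r₂ : B →+* L) (h1 : RingHom.ker r₁ ≤ 𝔫) (h2 : RingHom.ker r₂ ≤ 𝔫)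
    (θ : Derivation ℤ L L) (hθA₁ : ∀ a : A, θ (r₁ (algebraMap A B a)) = 0)
    (hθA₂ : ∀ a : A, θ (r₂ (algebraMap A B a)) = 0)
    (u w qB : B) (hu₂ : r₂ u = 0) (hw₁ : r₁ w = 0) (hq₁ : r₁ qB = 0) (hq₂ : r₂ qB = 0)
    (hm : IsLocalRing.maximalIdeal (Localization.AtPrime 𝔫) =
      Ideal.span {algebraMap B (Localization.AtPrime 𝔫) u,
        algebraMap B (Localization.AtPrime 𝔫) w, algebraMap B (Localization.AtPrime 𝔫) qB}) :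
    (∀ f : B, ∃ s, s ∉ 𝔫 ∧ ∃ h, r₁ s * θ (r₁ f) = r₁ h * θ (r₁ u)) ∧
    (∀ f : B, ∃ s, s ∉ 𝔫 ∧ ∃ h, r₂ s * θ (r₂ f) = r₂ h * θ (r₂ w)) := by
  have hsep := s36r_hsep (κ := κ) π hπ 𝔫 hkerπ
  refine ⟨fun f => ?_, fun f => ?_⟩
  · refine s36r_H1 (A := A) 𝔫 r₁ h1 θ hθA₁ u {w, qB} ?_ ?_ hsep f
    · rw [hm, Set.image_pair]
    · rintro s (rfl | rfl)
      · rw [hw₁, map_zero]
      · rw [hq₁, map_zero]
  · refine s36r_H1 (A := A) 𝔫 r₂ h2 θ hθA₂ w {u, qB} ?_ ?_ hsep f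
    · rw [hm, Set.image_pair, Set.insert_comm]
    · rintro s (rfl | rfl)
      · rw [hu₂, map_zero]
      · rw [hq₂, map_zero]

/-- If `θ ∘ r` is not identically zero, `θ (r u) ≠ 0` for the generator `u` of `H1`. -/
theorem s36r_theta_gen_ne_zero (𝔫 : Ideal B) (r : B →+* L) (hker : RingHom.ker r ≤ 𝔫)
    (θ : Derivation ℤ L L) (u : B)
    (H1 : ∀ f : B, ∃ s, s ∉ 𝔫 ∧ ∃ h, r s * θ (r f) = r h * θ (r u))
    (hnz : ∃ f : B, θ (r f) ≠ 0) : θ (r u) ≠ 0 := by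
  obtain ⟨f, hf⟩ := hnz
  intro h0
  obtain ⟨s, hs, h, e⟩ := H1 f
  rw [h0, mul_zero] at e
  rcases mul_eq_zero.mp e with h' | h'
  · exact hs (hker ((RingHom.mem_ker).mpr h'))
  · exact hf h'

end H1

section Main

variable {A B L κ : Type*} [CommRing A] [CommRing B] [Algebra A B] [Field L] [Field κ]

/-- **Thickness one, abstract form.** -/
theorem s36r_thick_abs [PerfectField κ] [Algebra.FiniteType A B] (π : A →+* κ)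
    (hπ : Function.Surjective π) (𝔫 : Ideal B) [h𝔫 : 𝔫.IsMaximal]
    (hkerπ : ∀ a : A, π a = 0 → algebraMap A B a ∈ 𝔫)
    (r₁ r₂ : B →+* L) (h1 : RingHom.ker r₁ ≤ 𝔫) (h2 : RingHom.ker r₂ ≤ 𝔫)
    (θ : Derivation ℤ L L) (hθA₁ : ∀ a : A, θ (r₁ (algebraMap A B a)) = 0)
    (hθA₂ : ∀ a : A, θ (r₂ (algebraMap A B a)) = 0)
    (q : ℕ) (hq : 2 ≤ q) (hθq : ∀ x : L, θ (x ^ q) = 0)
    (qB : B) (hqB : qB ∈ 𝔫) (hq₁ : r₁ qB = 0) (hq₂ : r₂ qB = 0)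
    (hpur : ∀ b, r₁ b = 0 → r₂ b = 0 → qB ∣ b)
    (at' bt' bt₂ at₂' : B) (hu₂ : r₂ at' = r₂ bt' ^ q) (hw₁ : r₁ bt₂ = r₁ at₂' ^ q)
    (hU : s34d_LocGenAt r₁ 𝔫 at') (hW : s34d_LocGenAt r₂ 𝔫 bt₂)
    (Abar : L)
    (hA : ∀ β₀ : B, (at' - bt' ^ q) * (bt₂ - at₂' ^ q) = qB * β₀ →
      r₁ β₀ = r₁ (at' - bt' ^ q) * Abar)
    (H2 : θ Abar = (θ (r₁ at₂')) ^ q - (r₁ at₂') ^ (q - 1) * θ (r₁ at₂'))
    (hnz₁ : ∃ f : B, θ (r₁ f) ≠ 0)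
    (H3 : ∃ a ∈ 𝔫, ∃ b, b ∉ 𝔫 ∧ (θ (r₁ at₂')) ^ q * r₁ a = θ (r₁ at') * r₁ b) :
    ∃ β₀ : B, (at' - bt' ^ q) * (bt₂ - at₂' ^ q) = qB * β₀ ∧ β₀ ∉ 𝔫 ∧
      IsLocalRing.maximalIdeal (Localization.AtPrime 𝔫) =
        Ideal.span {algebraMap B (Localization.AtPrime 𝔫) (at' - bt' ^ q),
          algebraMap B (Localization.AtPrime 𝔫) (bt₂ - at₂' ^ q)} := by
  haveI : 𝔫.IsPrime := h𝔫.isPrime
  obtain ⟨-, hτ𝔫, hU', hW', hu₂', hw₁', ⟨β₀, hβ₀⟩, hm⟩ :=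
    s36r_node_setup qB r₁ r₂ hpur q hq 𝔫 hqB h1 h2 at' bt' bt₂ at₂' hu₂ hw₁ hU hW
  set u := at' - bt' ^ q with hu
  set w := bt₂ - at₂' ^ q with hw
  obtain ⟨H1a, -⟩ := s36r_H1_pair (κ := κ) π hπ 𝔫 hkerπ r₁ r₂ h1 h2 θ hθA₁ hθA₂ u w qB hu₂' hw₁'
    hq₁ hq₂ hm
  have hθu : θ (r₁ u) = θ (r₁ at') := by
    rw [hu, map_sub, map_pow, map_sub, hθq, sub_zero]
  have hθu0 : θ (r₁ u) ≠ 0 := s36r_theta_gen_ne_zero 𝔫 r₁ h1 θ u H1a hnz₁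
  have hru : r₁ u ≠ 0 := by
    intro h0
    apply hθu0
    rw [h0, map_zero]
  have hgen : ∀ y ∈ 𝔫, ∃ c, c ∉ 𝔫 ∧ ∃ z, r₁ c * r₁ y = r₁ z * r₁ u := by
    intro y hy
    obtain ⟨c, hc, z, e⟩ := hU'.2 y hy
    exact ⟨c, hc, z, by rw [← map_mul, ← map_mul, e]⟩
  have hβ𝔫 : β₀ ∉ 𝔫 := by
    refine s36r_core q r₁ 𝔫 h1 θ u at₂' β₀ Abar hru hgen H1a hθu0 H2 ?_ (hA β₀ hβ₀)
    obtain ⟨a, ha, b, hb, e⟩ := H3
    exact ⟨a, ha, b, hb, by rw [hθu]; exact e⟩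
  refine ⟨β₀, hβ₀, hβ𝔫, ?_⟩
  have hunit : IsUnit (algebraMap B (Localization.AtPrime 𝔫) β₀) :=
    IsLocalization.map_units (Localization.AtPrime 𝔫) (⟨β₀, hβ𝔫⟩ : 𝔫.primeCompl)
  refine s36r_span_pair_of_unit _ _ _ (algebraMap B (Localization.AtPrime 𝔫) qB) _ hm hunit ?_
  rw [← map_mul, ← map_mul, hβ₀]

end Main

end Fermat.Agent.Lib.S36
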