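/-
S36 project, layer (R-q), piece (K3) (helper8, prefix `s36k_`), part 1: THE EXPLICIT NODE DATA AT A
CROSSING POINT OF LEVEL `M q`.

Frame of `s34df_contract_of_hmain` / `s35gd_elem_of_chartData` with the level-`M` coordinate `w`
EXPLICIT and the STRONG form of the `β`-inclusion (`β(B_M) ⊆ B`, which holds on chart 1 of the three
base functions: `s34d_beta_mem_ring₁`, `s34e_ch_mem₁`).  At a prime `𝔫` of the chart ring `B` through
which both components pass there are `g₀, g₁, g₀', g₁' ∈ B_M` with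

* `α g₀` a local generator of the branch `C_∞` at `𝔫`,  `Φ(red g₀)  = (red g₁)^q`;
* `β g₀'` a local generator of the branch `C_0` at `𝔫`, `Φ(red g₀') = (red g₁')^q`,

i.e. the node data `at' = α g₀`, `bt' = β g₁`, `bt₂ = β g₀'`, `at₂' = α g₁'` of helper4's
`s36r_thick_abs` (`RThickAbs.lean`).
-/
import Fermat.Agent.Lib.S35.GDichC
import Fermat.Agent.Lib.S36.RThickAbs

set_option autoImplicit false
set_option linter.unusedSectionVars false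
set_option linter.style.haveILetI false
set_option synthInstance.maxHeartbeats 400000

noncomputable section

namespace Fermat.Agent.Lib.S36

open ModularCurve AlgebraicCurve HahnSeries Polynomial Fermat.Agent.Lib.FF Fermat.Agent.Lib.S18
  Fermat.Agent.Lib.S37 Fermat.Agent.Lib.S34 Fermat.Agent.Lib.S35

local notation "Kb" => AlgebraicClosure ℚ

variable {K₀ : Type} [Field K₀] [CharZero K₀] [Algebra ℚ K₀] {κ : Type} [Field κ]
  (G : s18g_GaussData K₀ κ) (φ : K₀ →+* Kb) (M q : ℕ) [NeZero M] [NeZero q]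
  (hq : q.Prime) (hqM : ¬ q ∣ M) [CharP κ q] [PerfectField κ]

local notation "𝓕M" => laurentBaseChange K₀ (modularFunctionFieldFull M)
local notation "hFM" => (fun (f : LaurentSeries K₀)
  (hf : f ∈ laurentBaseChange K₀ (modularFunctionFieldFull M)) => s18g_baseChange_mem_Frac G M hf)

/-- **The node data at a crossing point.** -/
theorem s36k_node_data (hdeg : s34m_HDeg K₀ M q) (hT : s18g_HT κ M)
    (hdegM : s18g_HDeg K₀ M) (w : ↥𝓕M) (hwV : w ∈ s18g_V G 𝓕M hFM)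
    (hcoord : s37b_Coord κ q
      ((s18g_redF G M hFM hT hdegM ⟨w, hwV⟩ : ↥(modularFunctionFieldFullC κ M)) : LaurentSeries κ))
    (hwtw : ∀ τ : κ ≃+* κ, coeffMap (τ : κ →+* κ)
      ((s18g_redF G M hFM hT hdegM ⟨w, hwV⟩ : ↥(modularFunctionFieldFullC κ M)) : LaurentSeries κ) =
      ((s18g_redF G M hFM hT hdegM ⟨w, hwV⟩ : ↥(modularFunctionFieldFullC κ M)) : LaurentSeries κ))
    (hmain : letI := s18f_algF G M hT hdegM w hwV
      ∀ z : ↥(modularFunctionFieldFullC κ M), IsIntegral κ[X] z →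
        ∃ (b : ↥𝓕M) (hb : b ∈ s18_ring (L₀ := K₀) (s18g_V G 𝓕M hFM) (s18_chart1 w)),
          s18g_redF G M hFM hT hdegM ⟨b, hb.1⟩ = z)
    (S : Set (Place K₀ (s34m_F K₀ (M * q))))
    (hαB : ∀ g ∈ (s18_ring (L₀ := K₀) (s34m_Vinf G M) (s18_chart1 w) : Set (s34m_F K₀ M)),
      heckeAlphaBar K₀ M q g ∈ s34x_ring (s34x_infRing (s34m_VV G φ M q hq hqM)) S)
    (hβB : ∀ g ∈ (s18_ring (L₀ := K₀) (s34m_Vinf G M) (s18_chart1 w) : Set (s34m_F K₀ M)),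
      heckeBetaBar K₀ M q g ∈ s34x_ring (s34x_infRing (s34m_VV G φ M q hq hqM)) S)
    (𝔫 : Ideal (s34x_ring (s34x_infRing (s34m_VV G φ M q hq hqM)) S)) [h𝔫 : 𝔫.IsPrime]
    (h1 : RingHom.ker (s34df_r1 G φ M q hq hqM S) ≤ 𝔫)
    (h2 : RingHom.ker (s34df_r2 G φ M q hq hqM S) ≤ 𝔫) :
    ∃ (g₀ g₁ g₀' g₁' : s34m_F K₀ M)
      (hg₀ : g₀ ∈ (s18_ring (L₀ := K₀) (s34m_Vinf G M) (s18_chart1 w) : Set (s34m_F K₀ M)))
      (hg₁ : g₁ ∈ (s18_ring (L₀ := K₀) (s34m_Vinf G M) (s18_chart1 w) : Set (s34m_F K₀ M)))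
      (hg₀' : g₀' ∈ (s18_ring (L₀ := K₀) (s34m_Vinf G M) (s18_chart1 w) : Set (s34m_F K₀ M)))
      (hg₁' : g₁' ∈ (s18_ring (L₀ := K₀) (s34m_Vinf G M) (s18_chart1 w) : Set (s34m_F K₀ M))),
      s34d_LocGenAt (s34df_r1 G φ M q hq hqM S) 𝔫 ⟨_, hαB g₀ hg₀⟩ ∧
      qExpand κ q (s34m_redInf G M ⟨g₀, hg₀.1⟩) = s34m_redInf G M ⟨g₁, hg₁.1⟩ ^ q ∧
      s34d_LocGenAt (s34df_r2 G φ M q hq hqM S) 𝔫 ⟨_, hβB g₀' hg₀'⟩ ∧
      qExpand κ q (s34m_redInf G M ⟨g₀', hg₀'.1⟩) = s34m_redInf G M ⟨g₁', hg₁'.1⟩ ^ q := by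
  haveI : Fact q.Prime := ⟨hq⟩
  letI algF := s18f_algF G M hT hdegM w hwV
  have hA : ∀ p : κ[X], algebraMap κ[X] ↥(modularFunctionFieldFullC κ M) p =
      Polynomial.aeval (s18g_redF G M hFM hT hdegM ⟨w, hwV⟩) p :=
    s18f_algF_apply G M hT hdegM w hwV
  obtain ⟨hDed, hFrac⟩ := s37b_dedekind_of_coord κ q M (s18g_redF G M hFM hT hdegM ⟨w, hwV⟩)
    hcoord hA
  haveI := hDed
  haveI := hFrac
  have hBMV : ∀ g ∈ (s18_ring (L₀ := K₀) (s34m_Vinf G M) (s18_chart1 w) : Set (s34m_F K₀ M)),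
      g ∈ s34m_Vinf G M := fun g hg => hg.1
  have hlift : ∀ d : ↥(integralClosure κ[X] ↥(modularFunctionFieldFullC κ M)), ∃ g,
      ∃ hg : g ∈ (s18_ring (L₀ := K₀) (s34m_Vinf G M) (s18_chart1 w) : Set (s34m_F K₀ M)),
      s34m_redInf G M ⟨g, hBMV g hg⟩ =
        ((algebraMap ↥(integralClosure κ[X] ↥(modularFunctionFieldFullC κ M))
          ↥(modularFunctionFieldFullC κ M) d : ↥(modularFunctionFieldFullC κ M)) :
          LaurentSeries κ) := by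
    intro d
    obtain ⟨b, hb, e⟩ := hmain (d : ↥(modularFunctionFieldFullC κ M)) d.2
    refine ⟨b, hb, ?_⟩
    have h1 := congrArg (fun z : ↥(modularFunctionFieldFullC κ M) => (z : LaurentSeries κ)) e
    exact h1
  have htw : ∀ d : ↥(integralClosure κ[X] ↥(modularFunctionFieldFullC κ M)),
      ∃ d' : ↥(integralClosure κ[X] ↥(modularFunctionFieldFullC κ M)),
      qExpand κ q ((algebraMap ↥(integralClosure κ[X] ↥(modularFunctionFieldFullC κ M))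
          ↥(modularFunctionFieldFullC κ M) d : ↥(modularFunctionFieldFullC κ M)) :
          LaurentSeries κ) =
        ((algebraMap ↥(integralClosure κ[X] ↥(modularFunctionFieldFullC κ M))
          ↥(modularFunctionFieldFullC κ M) d' : ↥(modularFunctionFieldFullC κ M)) :
          LaurentSeries κ) ^ q := fun d =>
    s34df_htw M q (s18g_redF G M hFM hT hdegM ⟨w, hwV⟩) (hwtw _) hA d
  -- the two reductions with values in the field `F̄`
  have hF₁ := fun b => s34df_hF₁ G φ M q hq hqM S hdeg hT hdegM b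
  have hF₂ := fun b => s34df_hF₂ G φ M q hq hqM S hdeg hT hdegM b
  set r₁ : s34x_ring (s34x_infRing (s34m_VV G φ M q hq hqM)) S →+*
      ↥(modularFunctionFieldFullC κ M) :=
    (s34df_r1 G φ M q hq hqM S).codRestrict (modularFunctionFieldFullC κ M) hF₁ with hr₁
  set r₂ : s34x_ring (s34x_infRing (s34m_VV G φ M q hq hqM)) S →+*
      ↥(modularFunctionFieldFullC κ M) :=
    (s34df_r2 G φ M q hq hqM S).codRestrict (modularFunctionFieldFullC κ M) hF₂ with hr₂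
  have hr₁c : ∀ b, ((r₁ b : ↥(modularFunctionFieldFullC κ M)) : LaurentSeries κ) =
      s34df_r1 G φ M q hq hqM S b := fun _ => rfl
  have hr₂c : ∀ b, ((r₂ b : ↥(modularFunctionFieldFullC κ M)) : LaurentSeries κ) =
      s34df_r2 G φ M q hq hqM S b := fun _ => rfl
  have hα₁ : ∀ g (hg : g ∈ (s18_ring (L₀ := K₀) (s34m_Vinf G M) (s18_chart1 w) :
      Set (s34m_F K₀ M))), s34df_r1 G φ M q hq hqM S ⟨_, hαB g hg⟩ =
      s34m_redInf G M ⟨g, hBMV g hg⟩ := fun g hg =>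
    (s34df_r1_eq G φ M q hq hqM S _ _ (s34m_alpha_mem_Vinf G M q (hBMV g hg)) rfl).trans
      (s34m_redInf_alpha G M q ⟨g, hBMV g hg⟩)
  have hβ₂ : ∀ g (hg : g ∈ (s18_ring (L₀ := K₀) (s34m_Vinf G M) (s18_chart1 w) :
      Set (s34m_F K₀ M))), s34df_r2 G φ M q hq hqM S ⟨_, hβB g hg⟩ =
      s34m_redInf G M ⟨g, hBMV g hg⟩ := by
    intro g hg
    rw [s34df_r2_apply, ← s34m_redZero_beta G φ M q hq hqM ⟨g, hBMV g hg⟩]
  have hk₁ : RingHom.ker r₁ ≤ 𝔫 := by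
    intro b hb
    apply h1
    rw [RingHom.mem_ker] at hb ⊢
    rw [← hr₁c, hb]
    rfl
  have hk₂ : RingHom.ker r₂ ≤ 𝔫 := by
    intro b hb
    apply h2
    rw [RingHom.mem_ker] at hb ⊢
    rw [← hr₂c, hb]
    rfl
  have hl₁ : ∀ d : ↥(integralClosure κ[X] ↥(modularFunctionFieldFullC κ M)),
      ∃ g : s34x_ring (s34x_infRing (s34m_VV G φ M q hq hqM)) S,
        r₁ g = algebraMap _ ↥(modularFunctionFieldFullC κ M) d := by
    intro d
    obtain ⟨g, hg, e⟩ := hlift d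
    exact ⟨⟨_, hαB g hg⟩, Subtype.ext (by rw [hr₁c, hα₁ g hg, e])⟩
  have hl₂ : ∀ d : ↥(integralClosure κ[X] ↥(modularFunctionFieldFullC κ M)),
      ∃ g : s34x_ring (s34x_infRing (s34m_VV G φ M q hq hqM)) S,
        r₂ g = algebraMap _ ↥(modularFunctionFieldFullC κ M) d := by
    intro d
    obtain ⟨g, hg, e⟩ := hlift d
    exact ⟨⟨_, hβB g hg⟩, Subtype.ext (by rw [hr₂c, hβ₂ g hg, e])⟩
  obtain ⟨d₁, hd₁⟩ := s34d_exists_locGenAt r₁ hl₁ 𝔫 hk₁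
  obtain ⟨d₂, hd₂⟩ := s34d_exists_locGenAt r₂ hl₂ 𝔫 hk₂
  obtain ⟨g₀, hg₀, e₀⟩ := hlift d₁
  obtain ⟨d₁', hd₁'⟩ := htw d₁
  obtain ⟨g₁, hg₁, e₁⟩ := hlift d₁'
  obtain ⟨g₀', hg₀', e₀'⟩ := hlift d₂
  obtain ⟨d₂', hd₂'⟩ := htw d₂
  obtain ⟨g₁', hg₁', e₁'⟩ := hlift d₂'
  -- transfer of `LocGenAt` from the restricted to the unrestricted reductions
  have htr₁ : ∀ t, s34d_LocGenAt r₁ 𝔫 t → s34d_LocGenAt (s34df_r1 G φ M q hq hqM S) 𝔫 t := by
    rintro t ⟨ht, hgen⟩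
    refine ⟨ht, fun y hy => ?_⟩
    obtain ⟨c, hc, z, e⟩ := hgen y hy
    exact ⟨c, hc, z, by rw [← hr₁c, ← hr₁c, e]⟩
  have htr₂ : ∀ t, s34d_LocGenAt r₂ 𝔫 t → s34d_LocGenAt (s34df_r2 G φ M q hq hqM S) 𝔫 t := by
    rintro t ⟨ht, hgen⟩
    refine ⟨ht, fun y hy => ?_⟩
    obtain ⟨c, hc, z, e⟩ := hgen y hy
    exact ⟨c, hc, z, by rw [← hr₂c, ← hr₂c, e]⟩
  refine ⟨g₀, g₁, g₀', g₁', hg₀, hg₁, hg₀', hg₁', ?_, ?_, ?_, ?_⟩
  · exact htr₁ _ (hd₁ _ (Subtype.ext (by rw [hr₁c, hα₁ g₀ hg₀, e₀])))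
  · rw [e₀, hd₁', e₁]
  · exact htr₂ _ (hd₂ _ (Subtype.ext (by rw [hr₂c, hβ₂ g₀' hg₀', e₀'])))
  · rw [e₀', hd₂', e₁']

end Fermat.Agent.Lib.S36
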