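/-
S36 project, layer (R-q), piece (K3) (helper8, prefix `s36k_`), part 2: THE NODE DATA AT A CROSSING
POINT OF LEVEL `M q` WITH LEVEL-`M` LOCAL COORDINATES IN ELEMENT FORM.

Frame of helper3's `REllPt.lean`: `BM = s18_ring (V_M) (chart1 w)` the chart ring of level `M`,
`ψ : BM ↠ D'` its reduction onto the Dedekind ring of the special fibre (kernel `(ϖ)`),
`a, b : BM →+* B` the restrictions of `α, β` to the chart ring `B` of a chart `S` of level `M q`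
(STRONG form of the `β`-inclusion), `𝔫` a prime of `B` with `ker r₁, ker r₂ ≤ 𝔫`
(both components pass through `𝔫`), `𝔪_α = a⁻¹ 𝔫`, `𝔪_β = b⁻¹ 𝔫` maximal.

* `s36k_locGenAt_of_not_mem_sq` : abstract; ANY lift of an element `d ∈ 𝔭 ∖ 𝔭²` of the contraction
  `𝔭` of `𝔫` to the Dedekind ring is a local generator of `𝔫` modulo `ker r`
  (variant of `s34d_exists_locGenAt` with the element `d` explicit).
* **`s36k_node_coords`** : `g₀ g₁ g₀' g₁' : BM` with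
  - `a g₀` a local generator of `C_∞` at `𝔫`, `Φ (red g₀) = (red g₁)^q`,
  - `b g₀'` a local generator of `C_0` at `𝔫`, `Φ (red g₀') = (red g₁')^q`
    (= the node data `at'`, `bt' = b g₁`, `bt₂`, `at₂' = a g₁'` of `s36r_thick_abs`),
  - `g₀` a local coordinate IN ELEMENT FORM at `𝔪_α`, `g₀'` at `𝔪_β` (= the `t₂` of helper2's
    `s36e_hk_ratio_regular`), and `θ (red g₀) ≠ 0`, `θ (red g₀') ≠ 0`.
-/
import Fermat.Agent.Lib.S36.REllPt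
import Fermat.Agent.Lib.S36.KNode

set_option autoImplicit false
set_option linter.unusedSectionVars false
set_option linter.style.haveILetI false
set_option synthInstance.maxHeartbeats 400000
set_option maxHeartbeats 800000

noncomputable section

namespace Fermat.Agent.Lib.S36

open ModularCurve AlgebraicCurve HahnSeries Polynomial IntermediateField
open Fermat.Agent.Lib.FF Fermat.Agent.Lib.S18 Fermat.Agent.Lib.S34 Fermat.Agent.Lib.S35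
  Fermat.Agent.Lib.S37

local notation "Kb" => AlgebraicClosure ℚ

section Abs

open IsDedekindDomain

variable {B L D' : Type*} [CommRing B] [Field L] [CommRing D'] [IsDedekindDomain D']
  [Algebra D' L] [IsFractionRing D' L]

/-- **Any lift of an element of `𝔭 ∖ 𝔭²` is a local generator.**  `L = Frac D'`, `D'` Dedekind,
`r : B →+* L` with every element of `D'` in its image; `𝔫 ⊇ ker r` a prime of `B` whose contraction
to `D'` is the maximal ideal `𝔭`. -/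
theorem s36k_locGenAt_of_not_mem_sq (r : B →+* L)
    (hlift : ∀ d : D', ∃ g : B, r g = algebraMap D' L d)
    (𝔫 : Ideal B) [h𝔫 : 𝔫.IsPrime] (hker : RingHom.ker r ≤ 𝔫)
    (𝔭 : Ideal D') [h𝔭 : 𝔭.IsMaximal]
    (h𝔭' : ∀ (d : D') (g : B), r g = algebraMap D' L d → (d ∈ 𝔭 ↔ g ∈ 𝔫))
    (d : D') (hd : d ∈ 𝔭) (hd2 : d ∉ 𝔭 ^ 2) (t : B) (ht : r t = algebraMap D' L d) :
    s34d_LocGenAt r 𝔫 t := by
  classical
  have hmem : ∀ {g g' : B}, r g = r g' → g ∈ 𝔫 → g' ∈ 𝔫 := by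
    intro g g' h hg
    have : g' - g ∈ 𝔫 := hker (by rw [RingHom.mem_ker, map_sub, h, sub_self])
    have := 𝔫.add_mem this hg
    rwa [sub_add_cancel] at this
  have hbot : 𝔭 ≠ ⊥ := by
    intro h0
    apply hd2
    rw [h0] at hd
    rw [(Ideal.mem_bot).mp hd]
    exact Ideal.zero_mem _
  let v : HeightOneSpectrum D' := ⟨𝔭, h𝔭.isPrime, hbot⟩
  have hloc := s36el_dedekind_loc 𝔭 d hd hd2
  refine ⟨(h𝔭' d t ht).mp hd, fun y hy => ?_⟩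
  obtain ⟨n, e, h | h⟩ := v.exists_primeCompl_mul_eq_or_mul_eq (r y)
  · obtain ⟨gd, hgd⟩ := hlift e
    obtain ⟨gn, hgn⟩ := hlift n
    have hyd : r (y * gd) = r gn := by rw [map_mul, hgd, hgn]; exact h
    have hgn𝔫 : gn ∈ 𝔫 := hmem hyd (𝔫.mul_mem_right _ hy)
    have hn : n ∈ 𝔭 := (h𝔭' n gn hgn).mpr hgn𝔫
    obtain ⟨c, hc, z, hcz⟩ := hloc n hn
    obtain ⟨gc, hgc⟩ := hlift c
    obtain ⟨gz, hgz⟩ := hlift z
    refine ⟨gc * gd, ?_, gz, ?_⟩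
    · intro hmul
      rcases h𝔫.mem_or_mem hmul with h' | h'
      · exact hc ((h𝔭' c gc hgc).mpr h')
      · exact e.2 ((h𝔭' e gd hgd).mpr h')
    · have : r (gc * gd * y) = r gc * r (y * gd) := by
        simp only [map_mul]; ring
      rw [this, hyd, hgc, hgn, map_mul, hgz, ht, ← map_mul, ← map_mul, hcz]
  · exfalso
    obtain ⟨gd, hgd⟩ := hlift e
    obtain ⟨gn, hgn⟩ := hlift n
    have hyn : r (y * gn) = r gd := by rw [map_mul, hgd, hgn]; exact h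
    have : gd ∈ 𝔫 := hmem hyn (𝔫.mul_mem_right _ hy)
    exact e.2 ((h𝔭' e gd hgd).mpr this)

end Abs

variable {K₀ : Type} [Field K₀] [CharZero K₀] [Algebra ℚ K₀] {κ : Type} [Field κ]
  (G : s18g_GaussData K₀ κ) (φ : K₀ →+* Kb) (M q : ℕ) [NeZero M] [NeZero q]
  (hq : q.Prime) (hqM : ¬ q ∣ M) [hqF : Fact q.Prime] [CharP κ q] [PerfectField κ]
  (w : s34m_F K₀ M) (S : Set (Place K₀ (s34m_F K₀ (M * q))))
  (a b : s18_ring (L₀ := K₀) (s34m_Vinf G M) (s18_chart1 w) →+*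
    s34x_ring (s34x_infRing (s34m_VV G φ M q hq hqM)) S)
  (ha : ∀ g : s18_ring (L₀ := K₀) (s34m_Vinf G M) (s18_chart1 w),
    ((a g : s34x_ring (s34x_infRing (s34m_VV G φ M q hq hqM)) S) : s34m_F K₀ (M * q)) =
      heckeAlphaBar K₀ M q (g : s34m_F K₀ M))
  (hb : ∀ g : s18_ring (L₀ := K₀) (s34m_Vinf G M) (s18_chart1 w),
    ((b g : s34x_ring (s34x_infRing (s34m_VV G φ M q hq hqM)) S) : s34m_F K₀ (M * q)) =
      heckeBetaBar K₀ M q (g : s34m_F K₀ M))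
  (hF₁ : ∀ c, s34df_r1 G φ M q hq hqM S c ∈ modularFunctionFieldFullC κ M)
  (hF₂ : ∀ c, s34df_r2 G φ M q hq hqM S c ∈ modularFunctionFieldFullC κ M)
  (𝔫 : Ideal (s34x_ring (s34x_infRing (s34m_VV G φ M q hq hqM)) S)) [h𝔫 : 𝔫.IsPrime]
  (h1 : RingHom.ker (s34df_r1 G φ M q hq hqM S) ≤ 𝔫)
  (h2 : RingHom.ker (s34df_r2 G φ M q hq hqM S) ≤ 𝔫)

include ha in
/-- `r₁ ∘ a = red_M`. -/
theorem s36k_r1_a (g : s18_ring (L₀ := K₀) (s34m_Vinf G M) (s18_chart1 w)) :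
    s34df_r1 G φ M q hq hqM S (a g) = s34m_redInf G M ⟨(g : s34m_F K₀ M), g.2.1⟩ :=
  (s34df_r1_eq G φ M q hq hqM S _ _ (s34m_alpha_mem_Vinf G M q g.2.1) (ha g)).trans
    (s34m_redInf_alpha G M q ⟨(g : s34m_F K₀ M), g.2.1⟩)

include hb in
/-- `r₂ ∘ b = red_M`. -/
theorem s36k_r2_b (g : s18_ring (L₀ := K₀) (s34m_Vinf G M) (s18_chart1 w)) :
    s34df_r2 G φ M q hq hqM S (b g) = s34m_redInf G M ⟨(g : s34m_F K₀ M), g.2.1⟩ :=
  (s34df_r2_eq G φ M q hq hqM S _ _ (s34m_beta_mem_Vzero G φ M q hq hqM g.2.1) (hb g)).trans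
    (s34m_redZero_beta G φ M q hq hqM ⟨(g : s34m_F K₀ M), g.2.1⟩)

include hb in
/-- `r₁ ∘ b = Φ ∘ red_M`. -/
theorem s36k_r1_b (g : s18_ring (L₀ := K₀) (s34m_Vinf G M) (s18_chart1 w)) :
    s34df_r1 G φ M q hq hqM S (b g) =
      qExpand κ q (s34m_redInf G M ⟨(g : s34m_F K₀ M), g.2.1⟩) :=
  (s34df_r1_eq G φ M q hq hqM S _ _ (s34m_beta_mem_Vinf G M q g.2.1) (hb g)).trans
    (s34m_redInf_beta G M q ⟨(g : s34m_F K₀ M), g.2.1⟩)

include ha in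
/-- `r₂ ∘ a = Φ ∘ red_M`. -/
theorem s36k_r2_a (g : s18_ring (L₀ := K₀) (s34m_Vinf G M) (s18_chart1 w)) :
    s34df_r2 G φ M q hq hqM S (a g) =
      qExpand κ q (s34m_redInf G M ⟨(g : s34m_F K₀ M), g.2.1⟩) :=
  (s34df_r2_eq G φ M q hq hqM S _ _ (s34m_alpha_mem_Vzero G φ M q hq hqM g.2.1) (ha g)).trans
    (s34m_redZero_alpha G φ M q hq hqM ⟨(g : s34m_F K₀ M), g.2.1⟩)

variable [algF : Algebra κ[X] ↥(modularFunctionFieldFullC κ M)]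
  (x : ↥(modularFunctionFieldFullC κ M))
  (hA : ∀ p : κ[X], algebraMap κ[X] ↥(modularFunctionFieldFullC κ M) p = Polynomial.aeval x p)
  [IsDedekindDomain ↥(integralClosure κ[X] ↥(modularFunctionFieldFullC κ M))]
  [IsFractionRing ↥(integralClosure κ[X] ↥(modularFunctionFieldFullC κ M))
    ↥(modularFunctionFieldFullC κ M)]
  (hxtr : Transcendental κ x)
  (hxtw : ∀ τ : κ ≃+* κ, coeffMap (τ : κ →+* κ) (x : LaurentSeries κ) = (x : LaurentSeries κ))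
  (ψ : s18_ring (L₀ := K₀) (s34m_Vinf G M) (s18_chart1 w) →+*
    ↥(integralClosure κ[X] ↥(modularFunctionFieldFullC κ M)))
  (hψs : Function.Surjective ψ)
  (ϖM : s18_ring (L₀ := K₀) (s34m_Vinf G M) (s18_chart1 w))
  (hψk : RingHom.ker ψ = Ideal.span {ϖM})
  (hψc : ∀ g : s18_ring (L₀ := K₀) (s34m_Vinf G M) (s18_chart1 w),
    (((ψ g : ↥(integralClosure κ[X] ↥(modularFunctionFieldFullC κ M))) :
      ↥(modularFunctionFieldFullC κ M)) : LaurentSeries κ) =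
      s34m_redInf G M ⟨(g : s34m_F K₀ M), g.2.1⟩)

include ha hb hF₁ hF₂ h1 h2 hA hxtr hxtw hψs hψk hψc in
/-- **The node data at a crossing point, with level-`M` coordinates in element form.** -/
theorem s36k_node_coords [hα : (𝔫.comap a).IsMaximal] [hβ : (𝔫.comap b).IsMaximal]
    (hϖα : ϖM ∈ 𝔫.comap a) (hϖβ : ϖM ∈ 𝔫.comap b) :
    ∃ g₀ g₁ g₀' g₁' : s18_ring (L₀ := K₀) (s34m_Vinf G M) (s18_chart1 w),
      s34d_LocGenAt (s34df_r1 G φ M q hq hqM S) 𝔫 (a g₀) ∧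
      qExpand κ q (s34m_redInf G M ⟨(g₀ : s34m_F K₀ M), g₀.2.1⟩) =
        s34m_redInf G M ⟨(g₁ : s34m_F K₀ M), g₁.2.1⟩ ^ q ∧
      s34d_LocGenAt (s34df_r2 G φ M q hq hqM S) 𝔫 (b g₀') ∧
      qExpand κ q (s34m_redInf G M ⟨(g₀' : s34m_F K₀ M), g₀'.2.1⟩) =
        s34m_redInf G M ⟨(g₁' : s34m_F K₀ M), g₁'.2.1⟩ ^ q ∧
      (g₀ ∈ 𝔫.comap a ∧
        ∀ y ∈ 𝔫.comap a, ∃ c, c ∉ 𝔫.comap a ∧ ∃ z b', c * y = z * g₀ + b' * ϖM) ∧
      (g₀' ∈ 𝔫.comap b ∧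
        ∀ y ∈ 𝔫.comap b, ∃ c, c ∉ 𝔫.comap b ∧ ∃ z b', c * y = z * g₀' + b' * ϖM) ∧
      ffd_theta (s34m_redInf G M ⟨(g₀ : s34m_F K₀ M), g₀.2.1⟩) ≠ 0 ∧
      ffd_theta (s34m_redInf G M ⟨(g₀' : s34m_F K₀ M), g₀'.2.1⟩) ≠ 0 := by
  classical
  have hkα : RingHom.ker ψ ≤ 𝔫.comap a := by
    rw [hψk, Ideal.span_le]
    intro y hy
    rw [Set.mem_singleton_iff] at hy
    rw [hy]; exact hϖα
  have hkβ : RingHom.ker ψ ≤ 𝔫.comap b := by
    rw [hψk, Ideal.span_le]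
    intro y hy
    rw [Set.mem_singleton_iff] at hy
    rw [hy]; exact hϖβ
  obtain ⟨hmaxα, hcmα⟩ := s36el_map_isMaximal ψ hψs (𝔫.comap a) hkα
  obtain ⟨hmaxβ, hcmβ⟩ := s36el_map_isMaximal ψ hψs (𝔫.comap b) hkβ
  haveI := hmaxα
  haveI := hmaxβ
  -- the two reductions with values in the field `F̄`
  set r₁ : s34x_ring (s34x_infRing (s34m_VV G φ M q hq hqM)) S →+*
      ↥(modularFunctionFieldFullC κ M) :=
    (s34df_r1 G φ M q hq hqM S).codRestrict (modularFunctionFieldFullC κ M) hF₁ with hr₁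
  set r₂ : s34x_ring (s34x_infRing (s34m_VV G φ M q hq hqM)) S →+*
      ↥(modularFunctionFieldFullC κ M) :=
    (s34df_r2 G φ M q hq hqM S).codRestrict (modularFunctionFieldFullC κ M) hF₂ with hr₂
  have hr₁c : ∀ c, ((r₁ c : ↥(modularFunctionFieldFullC κ M)) : LaurentSeries κ) =
      s34df_r1 G φ M q hq hqM S c := fun _ => rfl
  have hr₂c : ∀ c, ((r₂ c : ↥(modularFunctionFieldFullC κ M)) : LaurentSeries κ) =
      s34df_r2 G φ M q hq hqM S c := fun _ => rfl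
  have hk₁ : RingHom.ker r₁ ≤ 𝔫 := by
    intro c hc
    apply h1
    rw [RingHom.mem_ker] at hc ⊢
    rw [← hr₁c, hc]
    rfl
  have hk₂ : RingHom.ker r₂ ≤ 𝔫 := by
    intro c hc
    apply h2
    rw [RingHom.mem_ker] at hc ⊢
    rw [← hr₂c, hc]
    rfl
  have hra : ∀ g, r₁ (a g) = algebraMap _ ↥(modularFunctionFieldFullC κ M) (ψ g) := fun g =>
    Subtype.ext (by
      rw [hr₁c, s36k_r1_a G φ M q hq hqM w S a ha g]
      exact (hψc g).symm)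
  have hrb : ∀ g, r₂ (b g) = algebraMap _ ↥(modularFunctionFieldFullC κ M) (ψ g) := fun g =>
    Subtype.ext (by
      rw [hr₂c, s36k_r2_b G φ M q hq hqM w S b hb g]
      exact (hψc g).symm)
  have hl₁ : ∀ d : ↥(integralClosure κ[X] ↥(modularFunctionFieldFullC κ M)),
      ∃ g : s34x_ring (s34x_infRing (s34m_VV G φ M q hq hqM)) S,
        r₁ g = algebraMap _ ↥(modularFunctionFieldFullC κ M) d := by
    intro d
    obtain ⟨g, rfl⟩ := hψs d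
    exact ⟨a g, hra g⟩
  have hl₂ : ∀ d : ↥(integralClosure κ[X] ↥(modularFunctionFieldFullC κ M)),
      ∃ g : s34x_ring (s34x_infRing (s34m_VV G φ M q hq hqM)) S,
        r₂ g = algebraMap _ ↥(modularFunctionFieldFullC κ M) d := by
    intro d
    obtain ⟨g, rfl⟩ := hψs d
    exact ⟨b g, hrb g⟩
  -- the contractions of `𝔫` to `D'`
  have hmem₁ : ∀ {g g' : s34x_ring (s34x_infRing (s34m_VV G φ M q hq hqM)) S},
      r₁ g = r₁ g' → g ∈ 𝔫 → g' ∈ 𝔫 := by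
    intro g g' h hg
    have : g' - g ∈ 𝔫 := hk₁ (by rw [RingHom.mem_ker, map_sub, h, sub_self])
    have := 𝔫.add_mem this hg
    rwa [sub_add_cancel] at this
  have hmem₂ : ∀ {g g' : s34x_ring (s34x_infRing (s34m_VV G φ M q hq hqM)) S},
      r₂ g = r₂ g' → g ∈ 𝔫 → g' ∈ 𝔫 := by
    intro g g' h hg
    have : g' - g ∈ 𝔫 := hk₂ (by rw [RingHom.mem_ker, map_sub, h, sub_self])
    have := 𝔫.add_mem this hg
    rwa [sub_add_cancel] at this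
  have h𝔭α : ∀ (d : ↥(integralClosure κ[X] ↥(modularFunctionFieldFullC κ M)))
      (g : s34x_ring (s34x_infRing (s34m_VV G φ M q hq hqM)) S),
      r₁ g = algebraMap _ ↥(modularFunctionFieldFullC κ M) d →
      (d ∈ (𝔫.comap a).map ψ ↔ g ∈ 𝔫) := by
    intro d g hg
    obtain ⟨g', rfl⟩ := hψs d
    have e : r₁ (a g') = r₁ g := (hra g').trans hg.symm
    have h0 : ψ g' ∈ (𝔫.comap a).map ψ ↔ g' ∈ 𝔫.comap a := by
      rw [← Ideal.mem_comap, hcmα]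
    rw [h0, Ideal.mem_comap]
    exact ⟨fun h => hmem₁ e h, fun h => hmem₁ e.symm h⟩
  have h𝔭β : ∀ (d : ↥(integralClosure κ[X] ↥(modularFunctionFieldFullC κ M)))
      (g : s34x_ring (s34x_infRing (s34m_VV G φ M q hq hqM)) S),
      r₂ g = algebraMap _ ↥(modularFunctionFieldFullC κ M) d →
      (d ∈ (𝔫.comap b).map ψ ↔ g ∈ 𝔫) := by
    intro d g hg
    obtain ⟨g', rfl⟩ := hψs d
    have e : r₂ (b g') = r₂ g := (hrb g').trans hg.symm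
    have h0 : ψ g' ∈ (𝔫.comap b).map ψ ↔ g' ∈ 𝔫.comap b := by
      rw [← Ideal.mem_comap, hcmβ]
    rw [h0, Ideal.mem_comap]
    exact ⟨fun h => hmem₂ e h, fun h => hmem₂ e.symm h⟩
  -- the coordinates
  obtain ⟨d₁, hd₁, hd₁2⟩ := s36el_exists_not_mem_sq M x hA hxtr ((𝔫.comap a).map ψ)
  obtain ⟨d₂, hd₂, hd₂2⟩ := s36el_exists_not_mem_sq M x hA hxtr ((𝔫.comap b).map ψ)
  obtain ⟨g₀, hg₀⟩ := hψs d₁
  obtain ⟨g₀', hg₀'⟩ := hψs d₂
  obtain ⟨d₁', hd₁'⟩ := s34df_htw M q x (hxtw _) hA d₁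
  obtain ⟨d₂', hd₂'⟩ := s34df_htw M q x (hxtw _) hA d₂
  obtain ⟨g₁, hg₁⟩ := hψs d₁'
  obtain ⟨g₁', hg₁'⟩ := hψs d₂'
  have hg₀α : g₀ ∈ 𝔫.comap a := by
    rw [← hcmα, Ideal.mem_comap, hg₀]; exact hd₁
  have hg₀'β : g₀' ∈ 𝔫.comap b := by
    rw [← hcmβ, Ideal.mem_comap, hg₀']; exact hd₂
  -- transfer of `LocGenAt` from the restricted to the unrestricted reductions
  have htr₁ : ∀ t, s34d_LocGenAt r₁ 𝔫 t → s34d_LocGenAt (s34df_r1 G φ M q hq hqM S) 𝔫 t := by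
    rintro t ⟨ht, hgen⟩
    refine ⟨ht, fun y hy => ?_⟩
    obtain ⟨c, hc, z, e⟩ := hgen y hy
    exact ⟨c, hc, z, by rw [← hr₁c, ← hr₁c, e]⟩
  have htr₂ : ∀ t, s34d_LocGenAt r₂ 𝔫 t → s34d_LocGenAt (s34df_r2 G φ M q hq hqM S) 𝔫 t := by
    rintro t ⟨ht, hgen⟩
    refine ⟨ht, fun y hy => ?_⟩
    obtain ⟨c, hc, z, e⟩ := hgen y hy
    exact ⟨c, hc, z, by rw [← hr₂c, ← hr₂c, e]⟩
  refine ⟨g₀, g₁, g₀', g₁', ?_, ?_, ?_, ?_, ⟨hg₀α, ?_⟩, ⟨hg₀'β, ?_⟩, ?_, ?_⟩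
  · exact htr₁ _ (s36k_locGenAt_of_not_mem_sq r₁ hl₁ 𝔫 hk₁ _ h𝔭α d₁ hd₁ hd₁2 (a g₀)
      (by rw [hra, hg₀]))
  · rw [← hψc, ← hψc, hg₀, hg₁]; exact hd₁'
  · exact htr₂ _ (s36k_locGenAt_of_not_mem_sq r₂ hl₂ 𝔫 hk₂ _ h𝔭β d₂ hd₂ hd₂2 (b g₀')
      (by rw [hrb, hg₀']))
  · rw [← hψc, ← hψc, hg₀', hg₁']; exact hd₂'
  · exact s36el_elem_of_dedekind ψ hψs ϖM hψk (𝔫.comap a) hϖα g₀ hg₀α (by rw [hg₀]; exact hd₁2)
  · exact s36el_elem_of_dedekind ψ hψs ϖM hψk (𝔫.comap b) hϖβ g₀' hg₀'β (by rw [hg₀']; exact hd₂2)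
  · rw [← hψc, hg₀]
    exact s36el_theta_ne_zero M x hA q ((𝔫.comap a).map ψ) d₁ hd₁ hd₁2
  · rw [← hψc, hg₀']
    exact s36el_theta_ne_zero M x hA q ((𝔫.comap b).map ψ) d₂ hd₂ hd₂2

end Fermat.Agent.Lib.S36
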