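/-
S36 project, layer (R-q), piece (K3) (helper8, prefix `s36k_`), part 3: THE EXPLICIT LEVEL-`M` DATA OF
CHART 1 OF A BASE FUNCTION `α w` (a Prop to be proved once per branch `w = j_M, t₂, t₃`).

`s35g_ChartData` hides the level-`M` coordinate behind `∃` and only has the WEAK `β`-inclusion
(`∃ b' ≡ β g mod ϖ`); the (R-q) argument needs the coordinate `w` EXPLICIT (the chart is
`chart1 (α w)`), the [HP] frame (`FFGen K₀ w`, (α) at level `M`) and the STRONG inclusion `β(B_M) ⊆ B`.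
`s36k_Explicit G φ M q hq hqM w` is exactly the hypothesis block of `s36k_node_data` (KNode.lean) for
`S = chart1 (α w)` plus `FFGen` and (α).  Sources per branch: `s35g_chartData_five_j1`, `_t2_1`,
`_t3_1` (Geo.lean) for `hT hdegM hwV hdeg hcoord hwtw hmain hαB`; `s34d_beta_mem_ring₁` resp.
`s34d_beta_mem_ring_of` + `s34e_ch_mem₁` + `s34e_cusp_hclaim_t2/_t3` for the strong `hβB`;
`s18b_ffGen_jF`, `s18f_alpha_of_coe` for `FFGen`, (α).
-/
import Fermat.Agent.Lib.S36.KNode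

set_option autoImplicit false
set_option linter.unusedSectionVars false
set_option linter.style.haveILetI false
set_option synthInstance.maxHeartbeats 400000

noncomputable section

namespace Fermat.Agent.Lib.S36

open ModularCurve AlgebraicCurve HahnSeries Polynomial Fermat.Agent.Lib.FF Fermat.Agent.Lib.S18
  Fermat.Agent.Lib.S37 Fermat.Agent.Lib.S34 Fermat.Agent.Lib.S35

local notation "Kb" => AlgebraicClosure ℚ

variable {K₀ : Type} [Field K₀] [CharZero K₀] [Algebra ℚ K₀] {κ : Type} [Field κ]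
  (G : s18g_GaussData K₀ κ) (φ : K₀ →+* Kb) (M q : ℕ) [NeZero M] [NeZero q]
  (hq : q.Prime) (hqM : ¬ q ∣ M)

local notation "𝓕M" => laurentBaseChange K₀ (modularFunctionFieldFull M)
local notation "hFM" => (fun (f : LaurentSeries K₀)
  (hf : f ∈ laurentBaseChange K₀ (modularFunctionFieldFull M)) => s18g_baseChange_mem_Frac G M hf)

/-- **The explicit level-`M` data of chart 1 of `α w`.** -/
def s36k_Explicit (w : ↥𝓕M) : Prop :=
  ∃ (hT : s18g_HT κ M) (hdegM : s18g_HDeg K₀ M) (hwV : w ∈ s18g_V G 𝓕M hFM),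
    s34m_HDeg K₀ M q ∧ FFGen K₀ w ∧
    (∀ y ∈ s34m_Vinf G M, ∃ s : G.A[X], s.map G.π ≠ 0 ∧
      (s18b_ev G _ w).IsIntegralElem (s18b_ev G _ w s * y)) ∧
    s37b_Coord κ q
      ((s18g_redF G M hFM hT hdegM ⟨w, hwV⟩ : ↥(modularFunctionFieldFullC κ M)) :
        LaurentSeries κ) ∧
    (∀ τ : κ ≃+* κ, coeffMap (τ : κ →+* κ)
      ((s18g_redF G M hFM hT hdegM ⟨w, hwV⟩ : ↥(modularFunctionFieldFullC κ M)) :
        LaurentSeries κ) =
      ((s18g_redF G M hFM hT hdegM ⟨w, hwV⟩ : ↥(modularFunctionFieldFullC κ M)) :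
        LaurentSeries κ)) ∧
    (letI := s18f_algF G M hT hdegM w hwV
      ∀ z : ↥(modularFunctionFieldFullC κ M), IsIntegral κ[X] z →
        ∃ (b : ↥𝓕M) (hb : b ∈ s18_ring (L₀ := K₀) (s18g_V G 𝓕M hFM) (s18_chart1 w)),
          s18g_redF G M hFM hT hdegM ⟨b, hb.1⟩ = z) ∧
    (∀ g ∈ (s18_ring (L₀ := K₀) (s34m_Vinf G M) (s18_chart1 w) : Set (s34m_F K₀ M)),
      heckeAlphaBar K₀ M q g ∈ s34x_ring (s34x_infRing (s34m_VV G φ M q hq hqM))
        (s18_chart1 (L₀ := K₀) (heckeAlphaBar K₀ M q w))) ∧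
    (∀ g ∈ (s18_ring (L₀ := K₀) (s34m_Vinf G M) (s18_chart1 w) : Set (s34m_F K₀ M)),
      heckeBetaBar K₀ M q g ∈ s34x_ring (s34x_infRing (s34m_VV G φ M q hq hqM))
        (s18_chart1 (L₀ := K₀) (heckeAlphaBar K₀ M q w)))

end Fermat.Agent.Lib.S36
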