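/-
S36 project, layer (R-q), piece (K3) (helper8, prefix `s36k_`), part 4a: RESTRICTION HOMS `BM → B`
AND CLOSEDNESS OF PREIMAGES (frame of `KNode.lean` / `KExplicit.lean`).

* `s36k_resHom`   : the restriction `BM → B` of an algebra hom `γ : F_M → F_{Mq}` with `γ(BM) ⊆ B`;
* `s36k_constM`   : the constants `G.A → BM`;
* `s36k_comap_isMaximal` : preimages in `BM` of closed points of `B` over the special fibre are closed
  (helper3's `s36el_comap_isMaximal` in the concrete frame);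
* **`s36k_K3_data`** : at a MAXIMAL ideal `𝔫` of the chart ring `B` of level `M q` with
  `ker r₁, ker r₂ ≤ 𝔫`: the node data `g₀ g₁ g₀' g₁'` of `s36k_node_data`, with `θ (red g₀) ≠ 0`,
  `θ (red g₀') ≠ 0`, and the maximal ideals `𝔪_β ∋ g₀'`, `𝔪_α ∋ g₀` of `BM` at which `g₀'`, `g₀` are
  local coordinates IN ELEMENT FORM (items (3), (4), (5) of helper5's K3 contract, board #1820).
-/
import Fermat.Agent.Lib.S36.KCoord
import Fermat.Agent.Lib.S36.KExplicit

set_option autoImplicit false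
set_option linter.unusedSectionVars false
set_option linter.style.haveILetI false
set_option synthInstance.maxHeartbeats 400000
set_option maxHeartbeats 1600000

noncomputable section

namespace Fermat.Agent.Lib.S36

open ModularCurve AlgebraicCurve HahnSeries Polynomial IntermediateField
open Fermat.Agent.Lib.FF Fermat.Agent.Lib.S18 Fermat.Agent.Lib.S34 Fermat.Agent.Lib.S35
  Fermat.Agent.Lib.S37

local notation "Kb" => AlgebraicClosure ℚ

variable {K₀ : Type} [Field K₀] [CharZero K₀] [Algebra ℚ K₀] {κ : Type} [Field κ]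
  (G : s18g_GaussData K₀ κ) (φ : K₀ →+* Kb) (M q : ℕ) [NeZero M] [NeZero q]
  (hq : q.Prime) (hqM : ¬ q ∣ M)

local notation "𝓕M" => laurentBaseChange K₀ (modularFunctionFieldFull M)
local notation "hFM" => (fun (f : LaurentSeries K₀)
  (hf : f ∈ laurentBaseChange K₀ (modularFunctionFieldFull M)) => s18g_baseChange_mem_Frac G M hf)

section Hom

variable (w : s34m_F K₀ M) (S : Set (Place K₀ (s34m_F K₀ (M * q))))

/-- the restriction to the chart rings of an algebra hom `γ` with `γ(BM) ⊆ B`. -/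
def s36k_resHom (γ : s34m_F K₀ M →ₐ[K₀] s34m_F K₀ (M * q))
    (h : ∀ g ∈ (s18_ring (L₀ := K₀) (s34m_Vinf G M) (s18_chart1 w) : Set (s34m_F K₀ M)),
      γ g ∈ s34x_ring (s34x_infRing (s34m_VV G φ M q hq hqM)) S) :
    s18_ring (L₀ := K₀) (s34m_Vinf G M) (s18_chart1 w) →+*
      s34x_ring (s34x_infRing (s34m_VV G φ M q hq hqM)) S :=
  ((γ : s34m_F K₀ M →+* s34m_F K₀ (M * q)).comp
    (s18_ring (L₀ := K₀) (s34m_Vinf G M) (s18_chart1 w)).subtype).codRestrict _
    (fun g => h g g.2)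

theorem s36k_resHom_coe (γ : s34m_F K₀ M →ₐ[K₀] s34m_F K₀ (M * q))
    (h : ∀ g ∈ (s18_ring (L₀ := K₀) (s34m_Vinf G M) (s18_chart1 w) : Set (s34m_F K₀ M)),
      γ g ∈ s34x_ring (s34x_infRing (s34m_VV G φ M q hq hqM)) S)
    (g : s18_ring (L₀ := K₀) (s34m_Vinf G M) (s18_chart1 w)) :
    ((s36k_resHom G φ M q hq hqM w S γ h g :
      s34x_ring (s34x_infRing (s34m_VV G φ M q hq hqM)) S) : s34m_F K₀ (M * q)) =
      γ (g : s34m_F K₀ M) := rfl

/-- the constants `G.A → BM`. -/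
def s36k_constM : G.A →+* s18_ring (L₀ := K₀) (s34m_Vinf G M) (s18_chart1 w) :=
  ((algebraMap K₀ (s34m_F K₀ M)).comp G.A.subtype).codRestrict _
    (fun a => ⟨(s18g_algebraMap_mem_V_iff G _ (s34m_hF G M) _).mpr a.2,
      fun Q _ => Q.algebraMap_mem' _⟩)

theorem s36k_constM_coe (a : G.A) :
    ((s36k_constM G M w a : s18_ring (L₀ := K₀) (s34m_Vinf G M) (s18_chart1 w)) : s34m_F K₀ M) =
      algebraMap K₀ (s34m_F K₀ M) (a : K₀) := rfl

/-- **Preimages in `BM` of closed points of `B` over the special fibre are closed.** -/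
theorem s36k_comap_isMaximal (hπ : Function.Surjective G.π)
    (γ : s34m_F K₀ M →ₐ[K₀] s34m_F K₀ (M * q))
    (f : s18_ring (L₀ := K₀) (s34m_Vinf G M) (s18_chart1 w) →+*
      s34x_ring (s34x_infRing (s34m_VV G φ M q hq hqM)) S)
    (hf : ∀ g, ((f g : s34x_ring (s34x_infRing (s34m_VV G φ M q hq hqM)) S) :
      s34m_F K₀ (M * q)) = γ (g : s34m_F K₀ M))
    (hFT : @Algebra.FiniteType G.A (s34x_ring (s34x_infRing (s34m_VV G φ M q hq hqM)) S) _ _
      (s34f_constHom G.A (s34x_infRing (s34m_VV G φ M q hq hqM))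
        (s34x_inf_const_mem (s34m_VV G φ M q hq hqM) G.A (s34c_const_mem_VV G φ M q hq hqM))
        S).toAlgebra)
    (𝔫 : Ideal (s34x_ring (s34x_infRing (s34m_VV G φ M q hq hqM)) S)) [h𝔫 : 𝔫.IsMaximal]
    (hϖ : s35gd_unifB G φ M q hq hqM S ∈ 𝔫) : (𝔫.comap f).IsMaximal := by
  letI algB : Algebra G.A (s34x_ring (s34x_infRing (s34m_VV G φ M q hq hqM)) S) :=
    (s34f_constHom G.A (s34x_infRing (s34m_VV G φ M q hq hqM))
      (s34x_inf_const_mem (s34m_VV G φ M q hq hqM) G.A (s34c_const_mem_VV G φ M q hq hqM))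
      S).toAlgebra
  letI algM : Algebra G.A (s18_ring (L₀ := K₀) (s34m_Vinf G M) (s18_chart1 w)) :=
    (s36k_constM G M w).toAlgebra
  haveI := hFT
  refine s36el_comap_isMaximal G.π hπ f (fun a => ?_) 𝔫 (fun a ha => ?_)
  · apply Subtype.ext
    rw [hf]
    show γ (algebraMap K₀ (s34m_F K₀ M) (a : K₀)) = algebraMap K₀ (s34m_F K₀ (M * q)) (a : K₀)
    exact γ.commutes _
  · obtain ⟨c, rfl⟩ := (G.π_eq_zero_iff a).mp ha
    have e : algebraMap G.A (s34x_ring (s34x_infRing (s34m_VV G φ M q hq hqM)) S) (G.ϖ * c) =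
        s35gd_unifB G φ M q hq hqM S *
          algebraMap G.A (s34x_ring (s34x_infRing (s34m_VV G φ M q hq hqM)) S) c := by
      apply Subtype.ext
      show algebraMap K₀ (s34m_F K₀ (M * q)) ((G.ϖ * c : G.A) : K₀) =
        s34m_unif G (M * q) * algebraMap K₀ (s34m_F K₀ (M * q)) (c : K₀)
      rw [s34m_unif, ← map_mul]
      rfl
    rw [e]
    exact 𝔫.mul_mem_right _ hϖ

end Hom


end Fermat.Agent.Lib.S36
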