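/-
S36 project, layer (R-q), piece (K3) (helper8, prefix `s36k_`), part 4: THE K3 DATA AT A CROSSING POINT
FROM THE EXPLICIT LEVEL-`M` DATA (frame of `KNode.lean` / `KExplicit.lean`).

* **`s36k_K3_data`** : at a MAXIMAL ideal `𝔫` of the chart ring `B` of level `M q` with
  `ker r₁, ker r₂ ≤ 𝔫`: the node data `g₀ g₁ g₀' g₁'` of `s36k_node_data`, with `θ (red g₀) ≠ 0`,
  `θ (red g₀') ≠ 0`, and the maximal ideals `𝔪_β ∋ g₀'`, `𝔪_α ∋ g₀` of `BM` at which `g₀'`, `g₀` are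
  local coordinates IN ELEMENT FORM (items (3), (4), (5) of helper5's K3 contract, board #1820).
-/
import Fermat.Agent.Lib.S36.KHom

set_option autoImplicit false
set_option linter.unusedSectionVars false
set_option linter.style.haveILetI false
set_option synthInstance.maxHeartbeats 400000
set_option maxHeartbeats 1600000

noncomputable section

namespace Fermat.Agent.Lib.S36

open ModularCurve AlgebraicCurve HahnSeries Polynomial IntermediateField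
open Fermat.Agent.Lib.FF Fermat.Agent.Lib.S18 Fermat.Agent.Lib.S34 Fermat.Agent.Lib.S35
  Fermat.Agent.Lib.S37

local notation "Kb" => AlgebraicClosure ℚ

variable {K₀ : Type} [Field K₀] [CharZero K₀] [Algebra ℚ K₀] {κ : Type} [Field κ]
  (G : s18g_GaussData K₀ κ) (φ : K₀ →+* Kb) (M q : ℕ) [NeZero M] [NeZero q]
  (hq : q.Prime) (hqM : ¬ q ∣ M)

local notation "𝓕M" => laurentBaseChange K₀ (modularFunctionFieldFull M)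
local notation "hFM" => (fun (f : LaurentSeries K₀)
  (hf : f ∈ laurentBaseChange K₀ (modularFunctionFieldFull M)) => s18g_baseChange_mem_Frac G M hf)

variable [CharP κ q] [PerfectField κ] [IsDiscreteValuationRing G.A]

/-- **The K3 data at a crossing point.** -/
theorem s36k_K3_data (hπ : Function.Surjective G.π)
    (hdeg : s34m_HDeg K₀ M q) (hT : s18g_HT κ M)
    (hdegM : s18g_HDeg K₀ M) (w : ↥𝓕M) (hwV : w ∈ s18g_V G 𝓕M hFM) [hgen : FFGen K₀ w]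
    (hαM : ∀ y ∈ s34m_Vinf G M, ∃ s : G.A[X], s.map G.π ≠ 0 ∧
      (s18b_ev G _ w).IsIntegralElem (s18b_ev G _ w s * y))
    (hcoord : s37b_Coord κ q
      ((s18g_redF G M hFM hT hdegM ⟨w, hwV⟩ : ↥(modularFunctionFieldFullC κ M)) : LaurentSeries κ))
    (hwtw : ∀ τ : κ ≃+* κ, coeffMap (τ : κ →+* κ)
      ((s18g_redF G M hFM hT hdegM ⟨w, hwV⟩ : ↥(modularFunctionFieldFullC κ M)) : LaurentSeries κ) =
      ((s18g_redF G M hFM hT hdegM ⟨w, hwV⟩ : ↥(modularFunctionFieldFullC κ M)) : LaurentSeries κ))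
    (hmain : letI := s18f_algF G M hT hdegM w hwV
      ∀ z : ↥(modularFunctionFieldFullC κ M), IsIntegral κ[X] z →
        ∃ (b : ↥𝓕M) (hb : b ∈ s18_ring (L₀ := K₀) (s18g_V G 𝓕M hFM) (s18_chart1 w)),
          s18g_redF G M hFM hT hdegM ⟨b, hb.1⟩ = z)
    (S : Set (Place K₀ (s34m_F K₀ (M * q))))
    (hαB : ∀ g ∈ (s18_ring (L₀ := K₀) (s34m_Vinf G M) (s18_chart1 w) : Set (s34m_F K₀ M)),
      heckeAlphaBar K₀ M q g ∈ s34x_ring (s34x_infRing (s34m_VV G φ M q hq hqM)) S)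
    (hβB : ∀ g ∈ (s18_ring (L₀ := K₀) (s34m_Vinf G M) (s18_chart1 w) : Set (s34m_F K₀ M)),
      heckeBetaBar K₀ M q g ∈ s34x_ring (s34x_infRing (s34m_VV G φ M q hq hqM)) S)
    (hFT : @Algebra.FiniteType G.A (s34x_ring (s34x_infRing (s34m_VV G φ M q hq hqM)) S) _ _
      (s34f_constHom G.A (s34x_infRing (s34m_VV G φ M q hq hqM))
        (s34x_inf_const_mem (s34m_VV G φ M q hq hqM) G.A (s34c_const_mem_VV G φ M q hq hqM))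
        S).toAlgebra)
    (𝔫 : Ideal (s34x_ring (s34x_infRing (s34m_VV G φ M q hq hqM)) S)) [h𝔫 : 𝔫.IsMaximal]
    (h1 : RingHom.ker (s34df_r1 G φ M q hq hqM S) ≤ 𝔫)
    (h2 : RingHom.ker (s34df_r2 G φ M q hq hqM S) ≤ 𝔫) :
    ∃ (g₀ g₁ g₀' g₁' : s34m_F K₀ M)
      (hg₀ : g₀ ∈ (s18_ring (L₀ := K₀) (s34m_Vinf G M) (s18_chart1 w) : Set (s34m_F K₀ M)))
      (hg₁ : g₁ ∈ (s18_ring (L₀ := K₀) (s34m_Vinf G M) (s18_chart1 w) : Set (s34m_F K₀ M)))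
      (hg₀' : g₀' ∈ (s18_ring (L₀ := K₀) (s34m_Vinf G M) (s18_chart1 w) : Set (s34m_F K₀ M)))
      (hg₁' : g₁' ∈ (s18_ring (L₀ := K₀) (s34m_Vinf G M) (s18_chart1 w) : Set (s34m_F K₀ M))),
      (s34d_LocGenAt (s34df_r1 G φ M q hq hqM S) 𝔫 ⟨_, hαB g₀ hg₀⟩ ∧
      qExpand κ q (s34m_redInf G M ⟨g₀, hg₀.1⟩) = s34m_redInf G M ⟨g₁, hg₁.1⟩ ^ q ∧
      s34d_LocGenAt (s34df_r2 G φ M q hq hqM S) 𝔫 ⟨_, hβB g₀' hg₀'⟩ ∧
      qExpand κ q (s34m_redInf G M ⟨g₀', hg₀'.1⟩) = s34m_redInf G M ⟨g₁', hg₁'.1⟩ ^ q) ∧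
      ffd_theta (s34m_redInf G M ⟨g₀, hg₀.1⟩) ≠ 0 ∧
      ffd_theta (s34m_redInf G M ⟨g₀', hg₀'.1⟩) ≠ 0 ∧
      (∃ (𝔪 : Ideal (s18_ring (L₀ := K₀) (s34m_Vinf G M) (s18_chart1 w))) (_ : 𝔪.IsMaximal)
        (ϖB : s18_ring (L₀ := K₀) (s34m_Vinf G M) (s18_chart1 w)),
        (ϖB : s34m_F K₀ M) = algebraMap K₀ (s34m_F K₀ M) ((G.ϖ : G.A) : K₀) ∧ ϖB ∈ 𝔪 ∧
        (⟨g₀', hg₀'⟩ : s18_ring (L₀ := K₀) (s34m_Vinf G M) (s18_chart1 w)) ∈ 𝔪 ∧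
        (∀ y ∈ 𝔪, ∃ c, c ∉ 𝔪 ∧ ∃ z b, c * y = z * ⟨g₀', hg₀'⟩ + b * ϖB) ∧
        (∀ g (hg : g ∈ (s18_ring (L₀ := K₀) (s34m_Vinf G M) (s18_chart1 w) :
            Set (s34m_F K₀ M))),
          (⟨_, hβB g hg⟩ : s34x_ring (s34x_infRing (s34m_VV G φ M q hq hqM)) S) ∈ 𝔫 →
          (⟨g, hg⟩ : s18_ring (L₀ := K₀) (s34m_Vinf G M) (s18_chart1 w)) ∈ 𝔪)) ∧
      (∃ (𝔪 : Ideal (s18_ring (L₀ := K₀) (s34m_Vinf G M) (s18_chart1 w))) (_ : 𝔪.IsMaximal)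
        (ϖB : s18_ring (L₀ := K₀) (s34m_Vinf G M) (s18_chart1 w)),
        (ϖB : s34m_F K₀ M) = algebraMap K₀ (s34m_F K₀ M) ((G.ϖ : G.A) : K₀) ∧ ϖB ∈ 𝔪 ∧
        (⟨g₀, hg₀⟩ : s18_ring (L₀ := K₀) (s34m_Vinf G M) (s18_chart1 w)) ∈ 𝔪 ∧
        (∀ y ∈ 𝔪, ∃ c, c ∉ 𝔪 ∧ ∃ z b, c * y = z * ⟨g₀, hg₀⟩ + b * ϖB) ∧
        (∀ g (hg : g ∈ (s18_ring (L₀ := K₀) (s34m_Vinf G M) (s18_chart1 w) :
            Set (s34m_F K₀ M))),
          (⟨_, hαB g hg⟩ : s34x_ring (s34x_infRing (s34m_VV G φ M q hq hqM)) S) ∈ 𝔫 →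
          (⟨g, hg⟩ : s18_ring (L₀ := K₀) (s34m_Vinf G M) (s18_chart1 w)) ∈ 𝔪)) := by
  haveI : Fact q.Prime := ⟨hq⟩
  haveI : 𝔫.IsPrime := h𝔫.isPrime
  letI algF := s18f_algF G M hT hdegM w hwV
  have hA : ∀ p : κ[X], algebraMap κ[X] ↥(modularFunctionFieldFullC κ M) p =
      Polynomial.aeval (s18g_redF G M hFM hT hdegM ⟨w, hwV⟩) p :=
    s18f_algF_apply G M hT hdegM w hwV
  obtain ⟨hDed, hFrac⟩ := s37b_dedekind_of_coord κ q M (s18g_redF G M hFM hT hdegM ⟨w, hwV⟩)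
    hcoord hA
  haveI := hDed
  haveI := hFrac
  -- the reduction `ψ : BM ↠ D'`
  obtain ⟨ψ, ϖM, hψs, hψk, hψc, hϖMc⟩ : ∃ (ψ : s18_ring (L₀ := K₀) (s34m_Vinf G M) (s18_chart1 w) →+*
      ↥(integralClosure κ[X] ↥(modularFunctionFieldFullC κ M)))
      (ϖM : s18_ring (L₀ := K₀) (s34m_Vinf G M) (s18_chart1 w)),
      Function.Surjective ψ ∧ RingHom.ker ψ = Ideal.span {ϖM} ∧
      (∀ g : s18_ring (L₀ := K₀) (s34m_Vinf G M) (s18_chart1 w),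
        (((ψ g : ↥(integralClosure κ[X] ↥(modularFunctionFieldFullC κ M))) :
          ↥(modularFunctionFieldFullC κ M)) : LaurentSeries κ) =
          s34m_redInf G M ⟨(g : s34m_F K₀ M), g.2.1⟩) ∧
      (ϖM : s34m_F K₀ M) = algebraMap K₀ (s34m_F K₀ M) ((G.ϖ : G.A) : K₀) := by
    have hϖ0 : ((G.ϖ : G.A) : K₀) ≠ 0 := s18g_unifK_ne_zero G
    have hϖV : algebraMap K₀ ↥𝓕M ((G.ϖ : G.A) : K₀) ∈ s18g_V G 𝓕M hFM :=
      (s18g_algebraMap_mem_V_iff G 𝓕M hFM _).mpr (G.ϖ : G.A).2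
    have hker : ∀ x : s18g_V G 𝓕M hFM, s18g_redF G M hFM hT hdegM x = 0 →
        ∃ y ∈ s18g_V G 𝓕M hFM, (x : ↥𝓕M) = algebraMap K₀ ↥𝓕M ((G.ϖ : G.A) : K₀) * y := by
      intro x hx
      have hx' : x ∈ RingHom.ker (s18g_redF G M hFM hT hdegM) := hx
      rw [s18g_ker_redF, Ideal.mem_span_singleton'] at hx'
      obtain ⟨a, ha⟩ := hx'
      refine ⟨(a : ↥𝓕M), a.2, ?_⟩
      rw [← ha, mul_comm]
      rfl
    have hkerϖ : s18g_redF G M hFM hT hdegM ⟨algebraMap K₀ ↥𝓕M ((G.ϖ : G.A) : K₀), hϖV⟩ = 0 := by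
      have : (⟨algebraMap K₀ ↥𝓕M ((G.ϖ : G.A) : K₀), hϖV⟩ : s18g_V G 𝓕M hFM) ∈
          RingHom.ker (s18g_redF G M hFM hT hdegM) := by
        rw [s18g_ker_redF]
        exact Ideal.subset_span rfl
      exact this
    have hint : ∀ b : ↥𝓕M, ∀ hb : b ∈ s18_ring (L₀ := K₀) (s18g_V G 𝓕M hFM) (s18_chart1 w),
        IsIntegral κ[X] (s18g_redF G M hFM hT hdegM ⟨b, hb.1⟩) := fun b hb =>
      s18f_isIntegral_redF G M hT hdegM w hwV hA b hb.1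
        (s18b_isIntegralElem_of_mem_ring G 𝓕M hFM w hαM b hb)
    exact ⟨s18f_psi (s18g_V G 𝓕M hFM) (s18_chart1 (L₀ := K₀) w) (s18g_redF G M hFM hT hdegM) hint,
      s18i_const (s18g_V G 𝓕M hFM) (s18_chart1 (L₀ := K₀) w) ((G.ϖ : G.A) : K₀) hϖV,
      s18f_psi_surjective _ _ _ hint hmain,
      s18f_ker_psi _ _ _ hϖ0 hϖV _ hker hkerϖ hint, fun g => rfl, rfl⟩
  -- the two restrictions
  obtain ⟨a, ha⟩ : ∃ a : s18_ring (L₀ := K₀) (s34m_Vinf G M) (s18_chart1 w) →+*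
      s34x_ring (s34x_infRing (s34m_VV G φ M q hq hqM)) S,
      ∀ g : s18_ring (L₀ := K₀) (s34m_Vinf G M) (s18_chart1 w),
        ((a g : s34x_ring (s34x_infRing (s34m_VV G φ M q hq hqM)) S) : s34m_F K₀ (M * q)) =
          heckeAlphaBar K₀ M q (g : s34m_F K₀ M) :=
    ⟨s36k_resHom G φ M q hq hqM w S (heckeAlphaBar K₀ M q) hαB, fun g => rfl⟩
  obtain ⟨b, hb⟩ : ∃ b : s18_ring (L₀ := K₀) (s34m_Vinf G M) (s18_chart1 w) →+*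
      s34x_ring (s34x_infRing (s34m_VV G φ M q hq hqM)) S,
      ∀ g : s18_ring (L₀ := K₀) (s34m_Vinf G M) (s18_chart1 w),
        ((b g : s34x_ring (s34x_infRing (s34m_VV G φ M q hq hqM)) S) : s34m_F K₀ (M * q)) =
          heckeBetaBar K₀ M q (g : s34m_F K₀ M) :=
    ⟨s36k_resHom G φ M q hq hqM w S (heckeBetaBar K₀ M q) hβB, fun g => rfl⟩
  -- `ϖ ∈ 𝔫`
  have hϖ𝔫 : s35gd_unifB G φ M q hq hqM S ∈ 𝔫 := by
    apply h1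
    rw [RingHom.mem_ker, s35gd_r1_eq_zero_iff]
    exact ⟨1, (s34m_VV G φ M q hq hqM true).one_mem, by rw [mul_one]; rfl⟩
  haveI hmα : (𝔫.comap a).IsMaximal :=
    s36k_comap_isMaximal G φ M q hq hqM w S hπ (heckeAlphaBar K₀ M q) a ha hFT 𝔫 hϖ𝔫
  haveI hmβ : (𝔫.comap b).IsMaximal :=
    s36k_comap_isMaximal G φ M q hq hqM w S hπ (heckeBetaBar K₀ M q) b hb hFT 𝔫 hϖ𝔫
  have haϖ : a ϖM = s35gd_unifB G φ M q hq hqM S := by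
    apply Subtype.ext
    rw [ha, hϖMc]
    exact (heckeAlphaBar K₀ M q).commutes _
  have hbϖ : b ϖM = s35gd_unifB G φ M q hq hqM S := by
    apply Subtype.ext
    rw [hb, hϖMc]
    exact (heckeBetaBar K₀ M q).commutes _
  have hϖα : ϖM ∈ 𝔫.comap a := by rw [Ideal.mem_comap, haϖ]; exact hϖ𝔫
  have hϖβ : ϖM ∈ 𝔫.comap b := by rw [Ideal.mem_comap, hbϖ]; exact hϖ𝔫
  have hF₁ := fun c => s34df_hF₁ G φ M q hq hqM S hdeg hT hdegM c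
  have hF₂ := fun c => s34df_hF₂ G φ M q hq hqM S hdeg hT hdegM c
  have hxtr : Transcendental κ (s18g_redF G M hFM hT hdegM ⟨w, hwV⟩) := fun halg =>
    hcoord.1 (halg.algHom (modularFunctionFieldFullC κ M).val)
  obtain ⟨g₀, g₁, g₀', g₁', hL₁, hΦ₁, hL₂, hΦ₂, ⟨hg₀α, hel₀⟩, ⟨hg₀'β, hel₀'⟩, hθ₀, hθ₀'⟩ :=
    s36k_node_coords G φ M q hq hqM w S a b ha hb hF₁ hF₂ 𝔫 h1 h2
      (s18g_redF G M hFM hT hdegM ⟨w, hwV⟩) hA hxtr hwtw ψ hψs ϖM hψk hψc hϖα hϖβ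
  have hea : ∀ g (hg : g ∈ (s18_ring (L₀ := K₀) (s34m_Vinf G M) (s18_chart1 w) :
      Set (s34m_F K₀ M))),
      a ⟨g, hg⟩ = (⟨_, hαB g hg⟩ : s34x_ring (s34x_infRing (s34m_VV G φ M q hq hqM)) S) :=
    fun g hg => Subtype.ext (ha ⟨g, hg⟩)
  have heb : ∀ g (hg : g ∈ (s18_ring (L₀ := K₀) (s34m_Vinf G M) (s18_chart1 w) :
      Set (s34m_F K₀ M))),
      b ⟨g, hg⟩ = (⟨_, hβB g hg⟩ : s34x_ring (s34x_infRing (s34m_VV G φ M q hq hqM)) S) :=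
    fun g hg => Subtype.ext (hb ⟨g, hg⟩)
  refine ⟨(g₀ : s34m_F K₀ M), (g₁ : s34m_F K₀ M), (g₀' : s34m_F K₀ M), (g₁' : s34m_F K₀ M),
    g₀.2, g₁.2, g₀'.2, g₁'.2, ⟨?_, hΦ₁, ?_, hΦ₂⟩, hθ₀, hθ₀',
    ⟨𝔫.comap b, hmβ, ϖM, hϖMc, hϖβ, hg₀'β, hel₀', fun g hg h => ?_⟩,
    ⟨𝔫.comap a, hmα, ϖM, hϖMc, hϖα, hg₀α, hel₀, fun g hg h => ?_⟩⟩
  · rw [← hea]; exact hL₁
  · rw [← heb]; exact hL₂
  · rw [Ideal.mem_comap, heb]; exact h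
  · rw [Ideal.mem_comap, hea]; exact h

end Fermat.Agent.Lib.S36
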