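/-
S36 mega-project (helper6): **the Hauptmodul relation with INTEGER coefficients** and the cusp data
`(x, ε)` of `MMidCusp.lean`.

* `s36m_HauptZ M q x` : `j · xᵃ = P(x)`, `P ∈ ℤ[X]` monic of degree `a + 1`, and `a = 0` or `P(0)` prime
  to `q` (`x = j`: `P = X`; `x = t₂`, `q = 3`: `P = (X + 256)³`; `x = t₃`, `q = 2`:
  `P = (X + 27)(X + 243)³`);
* `s36m_hauptZ_rel` : it implies helper1's `s36b_HauptRel`;
* `s36m_hauptZ_level` : the relation at level `M q` for `w₁ = α x`;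
* `s36m_cuspData_polar` (abstract chart frame): on the chart `{w ≠ 0}`: `x = 1/w`,
  `ε = j / w = P^rev(1/w)`, `ε ≡ 1 mod x`;
* `s36m_cuspData_zero` (abstract chart frame): on the chart `{w ≠ ∞}`: `x = wᵃ`, `ε = P(w)`,
  `ε ≡ P(0) mod w`.
-/
import Fermat.Agent.Lib.S36.XBaseEll

set_option autoImplicit false
set_option linter.unusedSectionVars false
set_option linter.style.haveILetI false
set_option synthInstance.maxHeartbeats 400000

noncomputable section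

namespace Fermat.Agent.Lib.S36

open Polynomial ModularCurve AlgebraicCurve Fermat.Agent.Lib.FF Fermat.Agent.Lib.S18
  Fermat.Agent.Lib.S28 Fermat.Agent.Lib.S37 Fermat.Agent.Lib.S34 Fermat.Agent.Lib.S35

local notation "Kb" => AlgebraicClosure ℚ

/-! ### Abstract chart frame -/

section Abs

variable {L₀ 𝓕 : Type*} [Field L₀] [Field 𝓕] [Algebra L₀ 𝓕]
variable {ι : Type*} (O : ι → ValuationSubring 𝓕)

/-- evaluation of an integer polynomial in a subring. -/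
theorem s36m_coe_aeval_int (W : Subring 𝓕) (y : W) (P : ℤ[X]) :
    ((aeval y P : W) : 𝓕) = aeval (y : 𝓕) P := by
  have := Polynomial.aeval_algHom_apply (W.subtype.toIntAlgHom) y P
  exact this.symm

/-- **cusp data on the chart `{w ≠ 0}`**: `x = 1/w`, `ε = j/w`. -/
theorem s36m_cuspData_polar (P : ℤ[X]) (hP : P.Monic) (a : ℕ) (hdeg : P.natDegree = a + 1)
    (j w : 𝓕) (hw0 : w ≠ 0) (r : j * w ^ a = aeval w P) (hwO : ∀ k, w⁻¹ ∈ O k) :
    ∃ x ε : s34x_ring (s34x_infRing O) (s18_chart2 (L₀ := L₀) w),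
      (x : 𝓕) = w⁻¹ ∧ j * (x : 𝓕) = (ε : 𝓕) ∧
      ∀ 𝔪 : Ideal (s34x_ring (s34x_infRing O) (s18_chart2 (L₀ := L₀) w)), 𝔪.IsPrime →
        x ∈ 𝔪 → ε ∉ 𝔪 := by
  have hx : w⁻¹ ∈ s34x_ring (s34x_infRing O) (s18_chart2 (L₀ := L₀) w) :=
    ⟨(s34x_mem_infRing O _).mpr hwO, fun Q hQ => hQ⟩
  set x : s34x_ring (s34x_infRing O) (s18_chart2 (L₀ := L₀) w) := ⟨w⁻¹, hx⟩ with hxdef
  refine ⟨x, aeval x P.reverse, rfl, ?_, ?_⟩
  · rw [s36m_coe_aeval_int]
    show j * w⁻¹ = aeval w⁻¹ P.reverse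
    haveI : Invertible w := invertibleOfNonzero hw0
    have h1 : aeval w⁻¹ P.reverse * w ^ (a + 1) = aeval w P := by
      have := Polynomial.eval₂_reverse_mul_pow (algebraMap ℤ 𝓕) w P
      rw [invOf_eq_inv, hdeg] at this
      exact this
    have h2 : j * w⁻¹ * w ^ (a + 1) = aeval w⁻¹ P.reverse * w ^ (a + 1) := by
      rw [h1, ← r, pow_succ]
      field_simp
    exact mul_right_cancel₀ (pow_ne_zero _ hw0) h2
  · intro 𝔪 h𝔪 hxm hεm
    obtain ⟨B, hB⟩ : ∃ B : ℤ[X], P.reverse = Polynomial.C 1 + X * B := by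
      refine ⟨P.reverse.divX, ?_⟩
      conv_lhs => rw [← Polynomial.divX_mul_X_add P.reverse]
      rw [coeff_zero_reverse, hP.leadingCoeff]
      ring
    apply h𝔪.ne_top
    rw [Ideal.eq_top_iff_one]
    have h1 : aeval x P.reverse = 1 + x * aeval x B := by
      rw [hB, map_add, aeval_C, map_one, map_mul, aeval_X]
    have h2 : (1 : s34x_ring (s34x_infRing O) (s18_chart2 (L₀ := L₀) w)) =
        aeval x P.reverse - x * aeval x B := by rw [h1]; ring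
    rw [h2]
    exact 𝔪.sub_mem hεm (𝔪.mul_mem_right _ hxm)

/-- **cusp data on the chart `{w ≠ ∞}`**: `x = wᵃ`, `ε = P(w)`. -/
theorem s36m_cuspData_zero (P : ℤ[X]) (a : ℕ) (ha : a ≠ 0) (j w : 𝓕)
    (r : j * w ^ a = aeval w P) (hwO : ∀ k, w ∈ O k) (c : ℤ) (hc : IsCoprime (P.coeff 0) c) :
    ∃ x ε : s34x_ring (s34x_infRing O) (s18_chart1 (L₀ := L₀) w),
      j * (x : 𝓕) = (ε : 𝓕) ∧
      ∀ 𝔪 : Ideal (s34x_ring (s34x_infRing O) (s18_chart1 (L₀ := L₀) w)), 𝔪.IsPrime →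
        ((c : ℤ) : s34x_ring (s34x_infRing O) (s18_chart1 (L₀ := L₀) w)) ∈ 𝔪 →
        (∃ b ∈ 𝔪, (b : 𝓕) = w) → x ∈ 𝔪 ∧ ε ∉ 𝔪 := by
  have hw : w ∈ s34x_ring (s34x_infRing O) (s18_chart1 (L₀ := L₀) w) :=
    ⟨(s34x_mem_infRing O _).mpr hwO, fun Q hQ => hQ⟩
  set y : s34x_ring (s34x_infRing O) (s18_chart1 (L₀ := L₀) w) := ⟨w, hw⟩ with hydef
  refine ⟨y ^ a, aeval y P, ?_, ?_⟩
  · rw [s36m_coe_aeval_int]
    exact r
  · rintro 𝔪 h𝔪 hcm ⟨b, hb, hbw⟩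
    have hby : b = y := Subtype.ext hbw
    rw [hby] at hb
    refine ⟨𝔪.pow_mem_of_mem hb a (Nat.pos_of_ne_zero ha), fun hεm => ?_⟩
    obtain ⟨B, hB⟩ : ∃ B : ℤ[X], P = Polynomial.C (P.coeff 0) + X * B := by
      refine ⟨P.divX, ?_⟩
      conv_lhs => rw [← Polynomial.divX_mul_X_add P]
      ring
    have h1 : aeval y P = ((P.coeff 0 : ℤ) : s34x_ring (s34x_infRing O)
        (s18_chart1 (L₀ := L₀) w)) + y * aeval y B := by
      conv_lhs => rw [hB]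
      rw [map_add, aeval_C, map_mul, aeval_X]
      rfl
    have h2 : ((P.coeff 0 : ℤ) : s34x_ring (s34x_infRing O) (s18_chart1 (L₀ := L₀) w)) ∈ 𝔪 := by
      have : ((P.coeff 0 : ℤ) : s34x_ring (s34x_infRing O) (s18_chart1 (L₀ := L₀) w)) =
          aeval y P - y * aeval y B := by rw [h1]; ring
      rw [this]
      exact 𝔪.sub_mem hεm (𝔪.mul_mem_right _ hb)
    obtain ⟨u, v, huv⟩ := hc
    apply h𝔪.ne_top
    rw [Ideal.eq_top_iff_one]
    have h3 : (1 : s34x_ring (s34x_infRing O) (s18_chart1 (L₀ := L₀) w)) =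
        ((u : ℤ) : s34x_ring (s34x_infRing O) (s18_chart1 (L₀ := L₀) w)) *
          ((P.coeff 0 : ℤ) : s34x_ring (s34x_infRing O) (s18_chart1 (L₀ := L₀) w)) +
        ((v : ℤ) : s34x_ring (s34x_infRing O) (s18_chart1 (L₀ := L₀) w)) *
          ((c : ℤ) : s34x_ring (s34x_infRing O) (s18_chart1 (L₀ := L₀) w)) := by
      rw [← Int.cast_mul, ← Int.cast_mul, ← Int.cast_add, huv, Int.cast_one]
    rw [h3]
    exact 𝔪.add_mem (𝔪.mul_mem_left _ h2) (𝔪.mul_mem_left _ hcm)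

end Abs

/-! ### The Hauptmodul relation over `ℤ` -/

section Level

variable {K₀ : Type} [Field K₀] [Algebra ℚ K₀] (M q : ℕ) [NeZero M] [NeZero q]

/-- `x` of level `M` is of Hauptmodul type over `ℤ`: `j · xᵃ = P(x)`, `P ∈ ℤ[X]` monic of degree
`a + 1`, and `a = 0` or `P(0)` prime to `q`. -/
def s36m_HauptZ (x : s34m_F K₀ M) : Prop :=
  ∃ (P : ℤ[X]) (a : ℕ), P.Monic ∧ P.natDegree = a + 1 ∧
    s18g_jF (K := K₀) M * x ^ a = aeval x P ∧ (a = 0 ∨ IsCoprime (P.coeff 0) (q : ℤ))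

theorem s36m_hauptZ_jF : s36m_HauptZ M q (s18g_jF (K := K₀) M) :=
  ⟨X, 0, monic_X, natDegree_X, by rw [pow_zero, mul_one, aeval_X], Or.inl rfl⟩

/-- it implies helper1's relation over `K₀`. -/
theorem s36m_hauptZ_rel (x : s34m_F K₀ M) (h : s36m_HauptZ M q x) : s36b_HauptRel M x := by
  obtain ⟨P, a, hP, hdeg, r, -⟩ := h
  refine ⟨P.map (algebraMap ℤ K₀), a, hP.map _, ?_, ?_⟩
  · rw [hP.natDegree_map, hdeg]
  · rw [r, Polynomial.aeval_map_algebraMap]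

/-- the relation transported to level `M q`. -/
theorem s36m_hauptZ_level (x : s34m_F K₀ M) (P : ℤ[X]) (a : ℕ)
    (rM : s18g_jF (K := K₀) M * x ^ a = aeval x P) :
    s18g_jF (K := K₀) (M * q) * (heckeAlphaBar K₀ M q x) ^ a =
      aeval (heckeAlphaBar K₀ M q x) P := by
  have h1 := congrArg (heckeAlphaBar K₀ M q) rM
  rw [map_mul, map_pow, s34m_alpha_jF (K₀ := K₀) M q] at h1
  rw [h1]
  exact (Polynomial.aeval_algHom_apply ((heckeAlphaBar K₀ M q).toRingHom.toIntAlgHom) x P).symm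

/-- the `t₂`-branch (`q = 3`), explicit form. -/
theorem s36m_hauptZ_t2' (tM : s34m_F K₀ M) (htM : (tM : LaurentSeries K₀) = s18u_t2 K₀) :
    ∃ (P : ℤ[X]) (a : ℕ), P.Monic ∧ P.natDegree = a + 1 ∧
      s18g_jF (K := K₀) M * tM ^ a = aeval tM P ∧
      (a ≠ 0 ∧ IsCoprime (P.coeff 0) ((3 : ℕ) : ℤ)) := by
  have hH := s18b_haupt_two K₀
  have r := s34e_cusp_rel_of_coe M _ 2 (s18u_t2 K₀) hH.rel tM htM
  refine ⟨(X + Polynomial.C (256 : ℤ)) ^ 3, 2, (monic_X_add_C _).pow 3, ?_, ?_, by norm_num, ?_⟩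
  · rw [(monic_X_add_C _).natDegree_pow, natDegree_X_add_C]
  · rw [r]
    simp only [map_pow, map_add, aeval_X, map_ofNat]
  · have : ((X + Polynomial.C (256 : ℤ)) ^ 3 : ℤ[X]).coeff 0 = 256 ^ 3 := by
      rw [Polynomial.coeff_zero_eq_eval_zero, eval_pow, eval_add, eval_X, eval_C, zero_add]
    rw [this]
    rw [Int.isCoprime_iff_gcd_eq_one]
    decide

/-- the `t₂`-branch (`q = 3`). -/
theorem s36m_hauptZ_t2 (tM : s34m_F K₀ M) (htM : (tM : LaurentSeries K₀) = s18u_t2 K₀) :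
    s36m_HauptZ M 3 tM := by
  obtain ⟨P, a, h1, h2, h3, -, h4⟩ := s36m_hauptZ_t2' M tM htM
  exact ⟨P, a, h1, h2, h3, Or.inr h4⟩

/-- the `t₃`-branch (`q = 2`), explicit form. -/
theorem s36m_hauptZ_t3' (tM : s34m_F K₀ M) (htM : (tM : LaurentSeries K₀) = s18u_t3 K₀) :
    ∃ (P : ℤ[X]) (a : ℕ), P.Monic ∧ P.natDegree = a + 1 ∧
      s18g_jF (K := K₀) M * tM ^ a = aeval tM P ∧
      (a ≠ 0 ∧ IsCoprime (P.coeff 0) ((2 : ℕ) : ℤ)) := by
  have hH := s18b_haupt_three K₀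
  have r := s34e_cusp_rel_of_coe M _ 3 (s18u_t3 K₀) hH.rel tM htM
  refine ⟨(X + Polynomial.C (27 : ℤ)) * (X + Polynomial.C (243 : ℤ)) ^ 3, 3,
    (monic_X_add_C _).mul ((monic_X_add_C _).pow 3), ?_, ?_, by norm_num, ?_⟩
  · rw [(monic_X_add_C _).natDegree_mul ((monic_X_add_C _).pow 3),
      (monic_X_add_C _).natDegree_pow, natDegree_X_add_C, natDegree_X_add_C]
  · rw [r]
    simp only [map_pow, map_mul, map_add, aeval_X, map_ofNat]
  · have : ((X + Polynomial.C (27 : ℤ)) * (X + Polynomial.C (243 : ℤ)) ^ 3 : ℤ[X]).coeff 0 =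
        27 * 243 ^ 3 := by
      rw [Polynomial.coeff_zero_eq_eval_zero, eval_mul, eval_pow, eval_add, eval_X, eval_C, zero_add,
        eval_add, eval_X, eval_C, zero_add]
    rw [this]
    rw [Int.isCoprime_iff_gcd_eq_one]
    decide

/-- the `t₃`-branch (`q = 2`). -/
theorem s36m_hauptZ_t3 (tM : s34m_F K₀ M) (htM : (tM : LaurentSeries K₀) = s18u_t3 K₀) :
    s36m_HauptZ M 2 tM := by
  obtain ⟨P, a, h1, h2, h3, -, h4⟩ := s36m_hauptZ_t3' M tM htM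
  exact ⟨P, a, h1, h2, h3, Or.inr h4⟩

end Level

/-! ### The base function with its integral Hauptmodul relation -/

section Base

variable (K₀ : Type) [Field K₀] [NumberField K₀] (φ : K₀ →+* Kb)

/-- **The base function with all its global properties and its Hauptmodul relation over `ℤ`**:
lead's `s36qf_base_full` + `s36m_HauptZ M q x` (which implies helper1's `s36b_HauptRel M x` by
`s36m_hauptZ_rel` and `s36b_MidEll …` by `s36b_midEll_of_base`). -/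
theorem s36m_base_full_z (M q : ℕ) [NeZero M] [NeZero q] (hq : q.Prime) (hqM : ¬ q ∣ M)
    (h : 5 ≤ q ∨ (q = 3 ∧ 2 ∣ M) ∨ (q = 2 ∧ 3 ∣ M))
    (κ : Type) [Field κ] [CharP κ q] [PerfectField κ]
    (G : s18g_GaussData K₀ κ) [IsDiscreteValuationRing G.A] (hπ : Function.Surjective G.π) :
    ∃ (x : s34m_F K₀ M) (hx : x ∈ s34m_Vinf G M),
      s35g_BaseData G φ M q hq hqM (heckeAlphaBar K₀ M q x) ∧
      (∀ Q : Place K₀ (s34m_F K₀ (M * q * q)),
        s36g_alpha M q (heckeAlphaBar K₀ M q x) ∈ Q.toValuationSubring ↔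
          s36g_beta M q (heckeAlphaBar K₀ M q x) ∈ Q.toValuationSubring) ∧
      qExpand κ q (s34m_redInf G M ⟨x, hx⟩) = s34m_redInf G M ⟨x, hx⟩ ^ q ∧
      (∀ Q : Place K₀ (s34m_F K₀ (M * q * q)),
        (s36g_alpha M q (heckeAlphaBar K₀ M q x))⁻¹ ∈ Q.toValuationSubring →
        s36g_alpha M q (heckeBetaBar K₀ M q x) *
            (s36g_alpha M q (heckeAlphaBar K₀ M q x))⁻¹ ^ q ∈ Q.toValuationSubring ∧
          s36g_beta M q (heckeBetaBar K₀ M q x) *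
            (s36g_alpha M q (heckeAlphaBar K₀ M q x))⁻¹ ^ (q * q) ∈ Q.toValuationSubring) ∧
      Transcendental κ (s34m_redInf G M ⟨x, hx⟩) ∧
      s36m_HauptZ M q x := by
  haveI : Fact q.Prime := ⟨hq⟩
  rcases h with h5 | ⟨rfl, h2M⟩ | ⟨rfl, h3M⟩
  · have hdeg : s18g_HDeg K₀ (M * q) := fun n b hb hn =>
      s18g_exists_relation (M * q) φ hn b hb
    have e : heckeAlphaBar K₀ M q (s18g_jF (K := K₀) M) = s18g_jF (K := K₀) (M * q) :=
      s34d2_alpha_j M q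
    refine ⟨s18g_jF (K := K₀) M, s34m_jF_mem_Vinf G M, ?_, ?_, ?_,
      fun Q hQ => s36p_reg_j φ M q hq hqM Q hQ, ?_, s36m_hauptZ_jF M q⟩
    · rw [e]
      exact ⟨s18g_jF_ne_zero (M * q), s18b_ffGen_jF (M * q) hdeg,
        s34m_jF_mem_VV G φ M q hq hqM, s34m_jF_inv_mem_VV G φ M q hq hqM,
        fun σ₀ => s34f_galois_jF (M * q) σ₀, s34f_alpha_j G φ M q hq hqM,
        s34f_alpha_inv G φ M q hq hqM, s35g_chartData_five_j1 M q hq hqM K₀ φ κ G hπ h5,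
        s35g_chartData_five_j2 M q hq hqM K₀ φ κ G hπ h5⟩
    · rw [e]
      exact s36p_sat_j φ M q hq
    · rw [s34m_redInf_jF]
      exact s34df_qExpand_jqModC q hq
    · rw [s34m_redInf_jF]
      exact s28v_transcendental_jqModC κ
  · obtain ⟨tM, htM, ⟨hwV, hred⟩, hwinvV, hgen, hgeninv, hwt, hw0, hgenN, hwO, hwO', hfix, hα,
      hα'⟩ := s34m_base_t2 G φ M 3 hq hqM h2M (by norm_num)
    haveI := hgen
    haveI := hgeninv
    have hred' : s34m_redInf G M ⟨tM, hwV⟩ = s18u_t2 κ := hred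
    refine ⟨tM, hwV, ⟨hw0, hgenN, hwO, hwO', hfix, hα, hα',
      s35g_chartData_t2_1 M 3 hq hqM K₀ φ κ G hπ rfl h2M tM htM hwV hred,
      s35g_chartData_t2_2 M 3 hq hqM K₀ φ κ G hπ rfl h2M tM htM hwV hwinvV hred⟩,
      s36p_sat_t2 G φ M 3 hq (by norm_num) _ hwt, ?_,
      fun Q hQ => s36p_reg_t2 φ M 3 hq hqM Q tM htM hQ, ?_, s36m_hauptZ_t2 M tM htM⟩
    · rw [hred']
      exact s34e_cusp_frob_t2 3
    · rw [hred']
      exact s18b_transcendental_t2 κ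
  · obtain ⟨tM, htM, ⟨hwV, hred⟩, hwinvV, hgen, hgeninv, hwt, hw0, hgenN, hwO, hwO', hfix, hα,
      hα'⟩ := s34m_base_t3 G φ M 2 hq hqM h3M (by norm_num)
    haveI := hgen
    haveI := hgeninv
    have hred' : s34m_redInf G M ⟨tM, hwV⟩ = s18u_t3 κ := hred
    refine ⟨tM, hwV, ⟨hw0, hgenN, hwO, hwO', hfix, hα, hα',
      s35g_chartData_t3_1 M 2 hq hqM K₀ φ κ G hπ rfl h3M tM htM hwV hred,
      s35g_chartData_t3_2 M 2 hq hqM K₀ φ κ G hπ rfl h3M tM htM hwV hwinvV hred⟩,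
      s36p_sat_t3 G φ M 2 hq (by norm_num) _ hwt, ?_,
      fun Q hQ => s36p_reg_t3 φ M 2 hq hqM Q tM htM hQ, ?_, s36m_hauptZ_t3 M tM htM⟩
    · rw [hred']
      exact s34e_cusp_frob_t3 2
    · rw [hred']
      exact s18b_transcendental_t3 κ

end Base

end Fermat.Agent.Lib.S36
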