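/-
S36 mega-project, sub-layer (R-mid) (helper2, prefix `s36e_`), part 5: CONSTRUCTION OF `Θ^{log}_j`
OVER `K₀` AND ITS REDUCTION ALONG `V'_∞`.

`F₁ = s34m_F K₀ (M q)`, `j = s18g_jF (M q) = α j_M`, `j_q = β j_M`.  From helper4's `s36r_invTheta`
(`D(α j_M) = c • D(β j_M)`, `y = q c ∈ V'_∞`, `red_∞ y * (θ j̄)(T^q) = θ j̄`) we get

* `s36e_theta_jqModC_ne_zero` : `θ j̄ ≠ 0` over any nontrivial coefficient ring;
* **`s36e_exists_theta_log`** : `Θ := y⁻¹ · j / j_q ∈ F₁` satisfies the Laurent identity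
  `θ(j_q) · j = q · Θ · θ(j) · j_q` (the hypothesis `hΘ` of `s36e_theta_log_ord_K`,
  `s36e_theta_log_unit`), `Θ ≠ 0`, `Θ, Θ⁻¹ ∈ V'_∞`, and
  `red_∞ Θ · (θ j̄ · j̄(T^q)) = (θ j̄)(T^q) · j̄`;
* **`s36e_exists_theta_log_char`** : in characteristic `q` this reads
  `red_∞ Θ · j̄^(q-1) = (θ j̄)^(q-1)`.
-/
import Fermat.Agent.Lib.S36.REisUnit
import Fermat.Agent.Lib.S36.RTheta
import Fermat.Agent.Lib.S34.DFibreF

set_option autoImplicit false
set_option linter.unusedSectionVars false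
set_option linter.style.haveILetI false

noncomputable section

namespace Fermat.Agent.Lib.S36

open AlgebraicCurve ModularCurve KaehlerDifferential HahnSeries
open Fermat.Agent.Lib.FF Fermat.Agent.Lib.S18 Fermat.Agent.Lib.S34 Fermat.Agent.Lib.S37

local notation "Kb" => AlgebraicClosure ℚ

/-- `θ j̄ ≠ 0` (its coefficient at `T⁻¹` is `-1`). -/
theorem s36e_theta_jqModC_ne_zero (κ : Type*) [Field κ] : ffd_theta (jqModC κ) ≠ 0 := by
  intro h0
  have := congrArg (fun s => HahnSeries.coeff s (-1 : ℤ)) h0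
  simp only [ffd_theta_coeff, HahnSeries.coeff_zero, ModularCurve.coeff_jqModC_neg_one] at this
  norm_num at this

section Construct

variable {K₀ : Type*} [Field K₀] [CharZero K₀] [Algebra ℚ K₀] {κ : Type*} [Field κ]
  (G : s18g_GaussData K₀ κ) (φ : K₀ →+* Kb) (M q : ℕ) [NeZero M] [NeZero q]
  (hq : q.Prime) (hqM : ¬ q ∣ M)

include φ hq hqM in
/-- **Construction of `Θ^{log}_j`** with its Laurent identity, unit-ness along `V'_∞` and
reduction. -/
theorem s36e_exists_theta_log (hπq : G.π ((q : ℕ) : G.A) = 0)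
    (w₀ : s34m_F K₀ (M * q)) [FFGen K₀ w₀] :
    ∃ Θ : s34m_F K₀ (M * q), Θ ≠ 0 ∧
      (ffd_theta ((heckeBetaBar K₀ M q (s18g_jF (K := K₀) M) : s34m_F K₀ (M * q)) :
          LaurentSeries K₀) * ((s18g_jF (K := K₀) (M * q) : s34m_F K₀ (M * q)) :
            LaurentSeries K₀) =
        ((q : ℕ) : LaurentSeries K₀) * (Θ : LaurentSeries K₀) *
          ffd_theta ((s18g_jF (K := K₀) (M * q) : s34m_F K₀ (M * q)) : LaurentSeries K₀) *
          ((heckeBetaBar K₀ M q (s18g_jF (K := K₀) M) : s34m_F K₀ (M * q)) :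
            LaurentSeries K₀)) ∧
      Θ⁻¹ ∈ s34m_Vinf G (M * q) ∧
      ∃ hΘV : Θ ∈ s34m_Vinf G (M * q),
        s34m_redInf G (M * q) ⟨Θ, hΘV⟩ * (ffd_theta (jqModC κ) * qExpand κ q (jqModC κ)) =
          qExpand κ q (ffd_theta (jqModC κ)) * jqModC κ := by
  have hjV : s18g_jF (K := K₀) M ∈ s34m_Vinf G M := s34m_jF_mem_Vinf G M
  have hredj : s34m_redInf G M ⟨s18g_jF (K := K₀) M, hjV⟩ = jqModC κ := s34m_redInf_jF G M
  have hred : ffd_theta (s34m_redInf G M ⟨s18g_jF (K := K₀) M, hjV⟩) ≠ 0 := by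
    rw [hredj]; exact s36e_theta_jqModC_ne_zero κ
  obtain ⟨c, hc, ⟨hy, hyred⟩, -⟩ := s36r_invTheta G φ M q hq hqM hπq w₀
    (s18g_jF (K := K₀) M) (s18g_jF (K := K₀) M) hjV hjV hred
  rw [hredj] at hyred
  rw [s34m_alpha_jF] at hc
  set jA : s34m_F K₀ (M * q) := s18g_jF (K := K₀) (M * q) with hjA
  set jB : s34m_F K₀ (M * q) := heckeBetaBar K₀ M q (s18g_jF (K := K₀) M) with hjB
  set y : s34m_F K₀ (M * q) := ((q : ℕ) : s34m_F K₀ (M * q)) * c with hydef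
  -- units of `V'_∞`
  have hjAV : jA ∈ s34m_Vinf G (M * q) := s34m_jF_mem_Vinf G (M * q)
  have hjAV' : jA⁻¹ ∈ s34m_Vinf G (M * q) := s18g_jF_inv_mem_V G (M * q) (s34m_hF G (M * q))
  have hjBV : jB ∈ s34m_Vinf G (M * q) := s34m_beta_mem_Vinf G M q hjV
  have hjBV' : jB⁻¹ ∈ s34m_Vinf G (M * q) := by
    rw [hjB, ← map_inv₀]
    exact s34m_beta_mem_Vinf G M q (s18g_jF_inv_mem_V G M (s34m_hF G M))
  have hjA0 : jA ≠ 0 := s18g_jF_ne_zero (M * q)
  have hjB0 : jB ≠ 0 := by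
    rw [hjB, Ne, map_eq_zero]; exact s18g_jF_ne_zero M
  have hθne : ffd_theta (jqModC κ) ≠ 0 := s36e_theta_jqModC_ne_zero κ
  have hyred0 : s34m_redInf G (M * q) ⟨y, hy⟩ ≠ 0 := by
    intro h0
    rw [h0, zero_mul] at hyred
    exact hθne hyred.symm
  have hy0 : y ≠ 0 := by
    intro h0
    apply hyred0
    have : (⟨y, hy⟩ : s34m_Vinf G (M * q)) = 0 := Subtype.ext h0
    rw [this, map_zero]
  have hyV' : y⁻¹ ∈ s34m_Vinf G (M * q) := by
    by_contra hnot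
    have hnu : y ∈ (s34m_Vinf G (M * q)).nonunits := by
      rw [ValuationSubring.mem_nonunits_iff_or]
      exact Or.inr hnot
    have hnu' : (⟨y, hy⟩ : s34m_Vinf G (M * q)) ∈ nonunits (s34m_Vinf G (M * q)) :=
      (ValuationSubring.coe_mem_nonunits_iff (A := s34m_Vinf G (M * q))).mp hnu
    apply hyred0
    -- a non-unit reduces to zero: its reduction is not a unit of the field `κ((T))`
    by_contra hne
    apply hnu'
    -- `red y ≠ 0` ⇒ `y ∉ ϖ V` ⇒ unit (discrete valuation)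
    obtain ⟨n, u, hu, hu', e⟩ := s34m_exists_zpow_Vinf G (M * q) y hy0
    have hϖV := s34m_unif_mem_Vinf G (M * q)
    have hϖ0 := s34m_unif_ne_zero G (M * q)
    have hn : n = 0 := by
      rcases lt_trichotomy n 0 with hn | hn | hn
      · -- `y⁻¹ = ϖ^(-n) u⁻¹ ∈ V`
        exfalso
        apply hnot
        have : y⁻¹ = s34m_unif G (M * q) ^ (-n).toNat * u⁻¹ := by
          rw [e, mul_inv, ← zpow_neg, ← zpow_natCast, Int.toNat_of_nonneg (by omega)]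
        rw [this]
        exact (s34m_Vinf G (M * q)).mul_mem _ _ (pow_mem hϖV _) hu'
      · exact hn
      · -- `y = ϖ · (ϖ^(n-1) u)`, reduction zero
        exfalso
        apply hne
        rw [s34m_redInf_eq_zero_iff]
        refine ⟨s34m_unif G (M * q) ^ (n - 1).toNat * u,
          (s34m_Vinf G (M * q)).mul_mem _ _ (pow_mem hϖV _) hu, ?_⟩
        show y = _
        rw [e, ← mul_assoc, ← zpow_natCast, Int.toNat_of_nonneg (by omega), ← zpow_one_add₀ hϖ0]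
        congr 2
        ring
    rw [hn, zpow_zero, one_mul] at e
    have hunit : IsUnit (⟨y, hy⟩ : s34m_Vinf G (M * q)) := by
      refine ⟨⟨⟨y, hy⟩, ⟨y⁻¹, by rw [e]; exact hu'⟩, ?_, ?_⟩, rfl⟩
      · exact Subtype.ext (mul_inv_cancel₀ hy0)
      · exact Subtype.ext (inv_mul_cancel₀ hy0)
    exact hunit
  have hc0 : c ≠ 0 := by
    intro h0
    apply hy0
    rw [hydef, h0, mul_zero]
  -- the function
  refine ⟨y⁻¹ * (jA * jB⁻¹), mul_ne_zero (inv_ne_zero hy0) (mul_ne_zero hjA0 (inv_ne_zero hjB0)),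
    ?_, ?_, ?_⟩
  · -- the Laurent identity
    have h1 := s36r_theta_of_D _ hc
    -- `θ jA = c * θ jB`
    have hq0 : ((q : ℕ) : s34m_F K₀ (M * q)) ≠ 0 := by exact_mod_cast (NeZero.ne q)
    have hcoe : (((y⁻¹ * (jA * jB⁻¹) : s34m_F K₀ (M * q)) : s34m_F K₀ (M * q)) :
        LaurentSeries K₀) * ((q : ℕ) : LaurentSeries K₀) * (c : LaurentSeries K₀) *
          (jB : LaurentSeries K₀) = (jA : LaurentSeries K₀) := by
      have h2 : y⁻¹ * (jA * jB⁻¹) * ((q : ℕ) : s34m_F K₀ (M * q)) * c * jB = jA := by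
        rw [hydef]
        field_simp
      have h3 := congrArg (fun z : s34m_F K₀ (M * q) => (z : LaurentSeries K₀)) h2
      simpa using h3
    rw [h1]
    linear_combination (ffd_theta (jB : LaurentSeries K₀)) * hcoe.symm
  · -- `Θ⁻¹ ∈ V'_∞`
    have : (y⁻¹ * (jA * jB⁻¹))⁻¹ = y * (jA⁻¹ * jB) := by
      field_simp
    rw [this]
    exact (s34m_Vinf G (M * q)).mul_mem _ _ hy ((s34m_Vinf G (M * q)).mul_mem _ _ hjAV' hjBV)
  · have hΘV : y⁻¹ * (jA * jB⁻¹) ∈ s34m_Vinf G (M * q) :=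
      (s34m_Vinf G (M * q)).mul_mem _ _ hyV' ((s34m_Vinf G (M * q)).mul_mem _ _ hjAV hjBV')
    refine ⟨hΘV, ?_⟩
    -- `Θ * y * jB = jA` in `V'_∞`, reduce
    have hrel : (⟨y⁻¹ * (jA * jB⁻¹), hΘV⟩ : s34m_Vinf G (M * q)) * ⟨y, hy⟩ * ⟨jB, hjBV⟩ =
        ⟨jA, hjAV⟩ := by
      apply Subtype.ext
      show y⁻¹ * (jA * jB⁻¹) * y * jB = jA
      field_simp
    have hr := congrArg (s34m_redInf G (M * q)) hrel
    rw [map_mul, map_mul] at hr
    have hrA : s34m_redInf G (M * q) ⟨jA, hjAV⟩ = jqModC κ := s34m_redInf_jF G (M * q)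
    have hrB : s34m_redInf G (M * q) ⟨jB, hjBV⟩ = qExpand κ q (jqModC κ) := by
      have := s34m_redInf_beta G M q ⟨s18g_jF (K := K₀) M, hjV⟩
      rw [hredj] at this
      exact this
    rw [hrA, hrB] at hr
    -- `R * ρy * Φj̄ = j̄`, `ρy * Φθj̄ = θj̄`
    linear_combination (qExpand κ q (ffd_theta (jqModC κ))) * hr -
      (s34m_redInf G (M * q) ⟨y⁻¹ * (jA * jB⁻¹), hΘV⟩ * qExpand κ q (jqModC κ)) * hyred

include φ hq hqM in
/-- **`Θ^{log}_j` in characteristic `q`**: `red_∞ Θ · j̄^(q-1) = (θ j̄)^(q-1)`. -/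
theorem s36e_exists_theta_log_char [CharP κ q] (hπq : G.π ((q : ℕ) : G.A) = 0)
    (w₀ : s34m_F K₀ (M * q)) [FFGen K₀ w₀] :
    ∃ Θ : s34m_F K₀ (M * q), Θ ≠ 0 ∧
      (ffd_theta ((heckeBetaBar K₀ M q (s18g_jF (K := K₀) M) : s34m_F K₀ (M * q)) :
          LaurentSeries K₀) * ((s18g_jF (K := K₀) (M * q) : s34m_F K₀ (M * q)) :
            LaurentSeries K₀) =
        ((q : ℕ) : LaurentSeries K₀) * (Θ : LaurentSeries K₀) *
          ffd_theta ((s18g_jF (K := K₀) (M * q) : s34m_F K₀ (M * q)) : LaurentSeries K₀) *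
          ((heckeBetaBar K₀ M q (s18g_jF (K := K₀) M) : s34m_F K₀ (M * q)) :
            LaurentSeries K₀)) ∧
      Θ⁻¹ ∈ s34m_Vinf G (M * q) ∧
      ∃ hΘV : Θ ∈ s34m_Vinf G (M * q),
        s34m_redInf G (M * q) ⟨Θ, hΘV⟩ * jqModC κ ^ (q - 1) =
          ffd_theta (jqModC κ) ^ (q - 1) := by
  obtain ⟨Θ, hΘ0, hΘ, hΘV', hΘV, hr⟩ := s36e_exists_theta_log G φ M q hq hqM hπq w₀
  refine ⟨Θ, hΘ0, hΘ, hΘV', hΘV, ?_⟩
  haveI : Fact q.Prime := ⟨hq⟩
  have e1 : qExpand κ q (jqModC κ) = jqModC κ ^ q := s34df_qExpand_jqModC q hq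
  have e2 : qExpand κ q (ffd_theta (jqModC κ)) = ffd_theta (jqModC κ) ^ q := by
    rw [s37e_pow_char q (ffd_theta (jqModC κ)), s36e_coeffMap_theta, coeffMap_jqModC]
  rw [e1, e2] at hr
  have hθne : ffd_theta (jqModC κ) ≠ 0 := s36e_theta_jqModC_ne_zero κ
  have hj0 : jqModC κ ≠ 0 := by
    intro h0
    apply hθne
    rw [h0]
    exact (ffd_thetaDeriv (K := κ)).map_zero
  have hq1 : q = (q - 1) + 1 := by have := hq.pos; omega
  apply mul_right_cancel₀ (mul_ne_zero hθne hj0)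
  calc s34m_redInf G (M * q) ⟨Θ, hΘV⟩ * jqModC κ ^ (q - 1) * (ffd_theta (jqModC κ) * jqModC κ)
      = s34m_redInf G (M * q) ⟨Θ, hΘV⟩ * (ffd_theta (jqModC κ) * jqModC κ ^ ((q - 1) + 1)) := by
        rw [pow_succ]; ring
    _ = ffd_theta (jqModC κ) ^ ((q - 1) + 1) * jqModC κ := by rw [← hq1]; exact hr
    _ = ffd_theta (jqModC κ) ^ (q - 1) * (ffd_theta (jqModC κ) * jqModC κ) := by
        rw [pow_succ]; ring

end Construct

end Fermat.Agent.Lib.S36
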