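/-
S36 mega-project, sub-layer (R-mid) (helper2, prefix `s36e_`), part 7: **REGULARITY AT THE POINTS OF
THE LEVEL-`M q²` FIBRE LYING ON `C_mid` ONLY** (`j̄ ∉ {0, 1728}`), for an arbitrary valuation package.

Frame of `GeoFrame.lean` (`V : Fin 3 → ValuationSubring F₂`, uniformiser of `V 1` = `s36m_t M q`),
two-level chart frame of `QTwo.lean` with `γ = α' = s36g_alpha M q`, `O₁ = s34m_VV` (`true ↦ V'_∞`),
`O₂ = V`, charts `S₁`, `S₂` with `α'(B₁) ⊆ B₂`.  Let `𝔫` be a prime of `B₂` through which only `V 1`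
passes, `𝔪' = α'⁻¹ 𝔫` its image, a smooth point `𝔪'(B₁)_{𝔪'} = (u', w')` of `C'_∞` lying on `C'_∞`
only, away from `j, j_q ∈ {0, 1728}`; `ℓ ∈ B_𝔫` with image `t / j₀`.  Then, by the Eisenstein
congruence `(t/j₀)^(q-1)/ϖ₂ ≡ c · α'(Θ^{log}_j)` (`REisFrame.lean`, contract `s36e_ValRedEis`) and the
unit-ness of `Θ^{log}_j` at `𝔪'` (`REisUnit.lean`, `REisThetaK.lean`):

* **`s36e_mid_reg`** : every place of the chart through `𝔫` has a local equation (`hLE`), the branch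
  equation `hℓ` and the normality `hN` of the branch hold — the three inputs of helper3's
  `s36y_exists_gen_lifts` / `s36y_nodeGenRad_of_single` (the f-independent local package
  "LocalReg" of board #1737) at `𝔫`;
* `s36e_mid_nodeGenRad` : hence `s36y_NodeGenRad V S₂ 𝔫 (s18_E f m)` for every `f ≡ 1` with
  `m ∣ div f` locally.
-/
import Fermat.Agent.Lib.S36.REisFrame
import Fermat.Agent.Lib.S36.REisThetaK
import Fermat.Agent.Lib.S36.REisSingle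
import Fermat.Agent.Lib.S36.XBaseLoc
import Fermat.Agent.Lib.S36.QTriple2

set_option autoImplicit false
set_option linter.unusedSectionVars false
set_option linter.style.haveILetI false
set_option maxHeartbeats 800000

noncomputable section

namespace Fermat.Agent.Lib.S36

open ModularCurve AlgebraicCurve HahnSeries Fermat.Agent.Lib.FF Fermat.Agent.Lib.S18
  Fermat.Agent.Lib.S37 Fermat.Agent.Lib.S34 Fermat.Agent.Lib.S35 IsLocalRing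

local notation "Kb" => AlgebraicClosure ℚ

variable {K₀ : Type} [Field K₀] [Algebra ℚ K₀] [CharZero K₀] {κ : Type} [Field κ]
  (G : s18g_GaussData K₀ κ) [IsDiscreteValuationRing G.A]
  (φ : K₀ →+* Kb) (M q : ℕ) [NeZero M] [NeZero q] (hq : q.Prime) (hqM : ¬ q ∣ M)
  (V : Fin 3 → ValuationSubring (s34m_F K₀ (M * q * q)))

/-- a constant of `A` with nonzero residue is not in a prime of the chart ring containing `ϖ`. -/
theorem s36e_const_not_mem (hC : s36g_ValComap G φ M q hq hqM V) (hπ : Function.Surjective G.π)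
    (S₂ : Set (Place K₀ (s34m_F K₀ (M * q * q))))
    (𝔫 : Ideal (s34x_ring (s34x_infRing V) S₂)) [h𝔫 : 𝔫.IsPrime]
    (hϖ : s34x_const (s34x_infRing V) S₂ ((G.ϖ : G.A) : K₀)
      (s34x_inf_const_mem V G.A (s36b_const_mem G φ M q hq hqM hC) G.ϖ) ∈ 𝔫)
    (c : G.A) (hc : G.π c ≠ 0) :
    s34x_const (s34x_infRing V) S₂ (c : K₀)
      (s34x_inf_const_mem V G.A (s36b_const_mem G φ M q hq hqM hC) c) ∉ 𝔫 := by
  intro hmem
  obtain ⟨c', hc'⟩ := hπ (G.π c)⁻¹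
  have h1 : G.π (c * c' - 1) = 0 := by
    rw [map_sub, map_mul, hc', mul_inv_cancel₀ hc, map_one, sub_self]
  obtain ⟨d, hd⟩ := (G.π_eq_zero_iff _).mp h1
  set cst : G.A → s34x_ring (s34x_infRing V) S₂ := fun a =>
    s34x_const (s34x_infRing V) S₂ (a : K₀)
      (s34x_inf_const_mem V G.A (s36b_const_mem G φ M q hq hqM hC) a) with hcst
  have e : cst c * cst c' - 1 = cst G.ϖ * cst d := by
    apply Subtype.ext
    show algebraMap K₀ (s34m_F K₀ (M * q * q)) (c : K₀) *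
        algebraMap K₀ (s34m_F K₀ (M * q * q)) (c' : K₀) - 1 =
      algebraMap K₀ (s34m_F K₀ (M * q * q)) ((G.ϖ : G.A) : K₀) *
        algebraMap K₀ (s34m_F K₀ (M * q * q)) (d : K₀)
    have h2 : ((c : K₀) * (c' : K₀) - 1 : K₀) = ((G.ϖ : G.A) : K₀) * (d : K₀) := by
      have := congrArg (fun a : G.A => (a : K₀)) hd
      simpa using this
    rw [← map_mul, ← map_mul, ← h2, map_sub, map_one]
  have h3 : (1 : s34x_ring (s34x_infRing V) S₂) ∈ 𝔫 := by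
    have : (1 : s34x_ring (s34x_infRing V) S₂) = cst c * cst c' - cst G.ϖ * cst d := by
      rw [← e]; ring
    rw [this]
    exact 𝔫.sub_mem (𝔫.mul_mem_right _ hmem) (𝔫.mul_mem_right _ hϖ)
  exact h𝔫.ne_top ((Ideal.eq_top_iff_one _).mpr h3)

variable (S₁ : Set (Place K₀ (s34m_F K₀ (M * q)))) (S₂ : Set (Place K₀ (s34m_F K₀ (M * q * q))))
  (hγ : ∀ b ∈ s34x_ring (s34x_infRing (s34m_VV G φ M q hq hqM)) S₁,
    s36g_alpha M q b ∈ s34x_ring (s34x_infRing V) S₂)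
  (𝔫 : Ideal (s34x_ring (s34x_infRing V) S₂)) [h𝔫 : 𝔫.IsPrime]

/-- **Regularity at a point of the level-`M q²` chart on `C_mid` only, away from
`j̄ ∈ {0, 1728}`**: the local package `hLE`, `hℓ`, `hN`. -/
theorem s36e_mid_reg [CharP κ q] (h2 : nuTwo M = 0) (h3 : nuThree M = 0)
    (hπ : Function.Surjective G.π) (hπq : G.π ((q : ℕ) : G.A) = 0)
    (w₀ : s34m_F K₀ (M * q)) [FFGen K₀ w₀]
    (hC : s36g_ValComap G φ M q hq hqM V)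
    (hU : s36g_ValUnif G M q V (s36m_t (K₀ := K₀) M q))
    (hRE : s36e_ValRedEis G φ M q hq hqM V)
    (hD₁ : s35f_Dict (s34m_VV G φ M q hq hqM) S₁) (hD₂ : s35f_Dict V S₂)
    (h1 : s36q_compThrough V S₂ 𝔫 1) (honly : ∀ k, s36q_compThrough V S₂ 𝔫 k → k = 1)
    (honly' : ∀ i, s36q_compThrough (s34m_VV G φ M q hq hqM) S₁
      (s36q_pt (s34m_VV G φ M q hq hqM) V S₁ S₂ (s36g_alpha M q) hγ 𝔫) i → i = true)
    (u' w' : Localization.AtPrime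
      (s36q_pt (s34m_VV G φ M q hq hqM) V S₁ S₂ (s36g_alpha M q) hγ 𝔫))
    (hm' : maximalIdeal (Localization.AtPrime
      (s36q_pt (s34m_VV G φ M q hq hqM) V S₁ S₂ (s36g_alpha M q) hγ 𝔫)) = Ideal.span {u', w'})
    (hw' : s34f_iota (s34x_infRing (s34m_VV G φ M q hq hqM)) S₁
      (s36q_pt (s34m_VV G φ M q hq hqM) V S₁ S₂ (s36g_alpha M q) hγ 𝔫) w' ∈
        (s34m_VV G φ M q hq hqM true).nonunits)
    (hu' : s34f_iota (s34x_infRing (s34m_VV G φ M q hq hqM)) S₁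
      (s36q_pt (s34m_VV G φ M q hq hqM) V S₁ S₂ (s36g_alpha M q) hγ 𝔫) u' ∉
        (s34m_VV G φ M q hq hqM true).nonunits)
    (hfrac : s36q_Frac (s34m_VV G φ M q hq hqM) V S₁ (s36g_alpha M q) true 1)
    (hpl : ∀ Q ∈ S₁, s34f_through (s34x_infRing (s34m_VV G φ M q hq hqM)) S₁
        (s36q_pt (s34m_VV G φ M q hq hqM) V S₁ S₂ (s36g_alpha M q) hγ 𝔫) Q →
      ¬ 0 < Q.ord (s18g_jF (K := K₀) (M * q)) ∧
      ¬ 0 < Q.ord (s18g_jF (K := K₀) (M * q) - algebraMap K₀ (s34m_F K₀ (M * q)) 1728) ∧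
      ¬ 0 < Q.ord (heckeBetaBar K₀ M q (s18g_jF (K := K₀) M)) ∧
      ¬ 0 < Q.ord (heckeBetaBar K₀ M q (s18g_jF (K := K₀) M) -
        algebraMap K₀ (s34m_F K₀ (M * q)) 1728))
    (ℓ : Localization.AtPrime 𝔫)
    (hℓ : s34f_iota (s34x_infRing V) S₂ 𝔫 ℓ =
      s36m_t (K₀ := K₀) M q / s18g_jF (K := K₀) (M * q * q)) :
    (∀ Q ∈ S₂, s34f_through (s34x_infRing V) S₂ 𝔫 Q → s34f_LocEq (s34x_infRing V) S₂ 𝔫 Q) ∧
    (∀ i, s36q_compThrough V S₂ 𝔫 i → ∃ ℓ' : s34m_F K₀ (M * q * q), ℓ' ≠ 0 ∧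
      (∀ U : s34m_F K₀ (M * q * q), U ≠ 0 →
        ∃ (n : ℤ) (v : s34m_F K₀ (M * q * q)), v ∈ V i ∧ v⁻¹ ∈ V i ∧ U = ℓ' ^ n * v) ∧
      (∀ k, k ≠ i → s36q_compThrough V S₂ 𝔫 k → ℓ' ∈ V k ∧ ℓ'⁻¹ ∈ V k) ∧
      (∀ Q ∈ S₂, s34f_through (s34x_infRing V) S₂ 𝔫 Q → Q.ord ℓ' = 0)) ∧
    (∀ m : ℕ, m ≠ 0 → ∀ i, s36q_compThrough V S₂ 𝔫 i → ∀ y ∈ V i,
      ∀ a : Localization.AtPrime 𝔫, IsUnit a →
      y ^ m - s34f_iota (s34x_infRing V) S₂ 𝔫 a ∈ (V i).nonunits →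
      ∃ s : Localization.AtPrime 𝔫, y - s34f_iota (s34x_infRing V) S₂ 𝔫 s ∈ (V i).nonunits) := by
  classical
  obtain ⟨hN₁, -, -, F3₁⟩ := hD₁
  obtain ⟨hN₂, F1₂, F2₂, F3₂⟩ := hD₂
  haveI := hN₁
  haveI := hN₂
  set O₁ := s34m_VV G φ M q hq hqM with hO₁
  set γ : s34m_F K₀ (M * q) →+* s34m_F K₀ (M * q * q) := s36g_alpha M q with hγdef
  set 𝔪' := s36q_pt O₁ V S₁ S₂ γ hγ 𝔫 with h𝔪'
  set T : s34m_F K₀ (M * q * q) := s36m_t (K₀ := K₀) M q with hTdef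
  set J : s34m_F K₀ (M * q * q) := s18g_jF (K := K₀) (M * q * q) with hJdef
  set ϖ₂ : s34m_F K₀ (M * q * q) := s34m_unif G (M * q * q) with hϖ₂
  have hcomap : ∀ x : s34m_F K₀ (M * q), γ x ∈ V 1 ↔ x ∈ O₁ true :=
    fun x => (s36b_alpha_mem_iff G φ M q hq hqM hC x).2.1
  have hA : s36q_Arch V := s36b_arch G M q hq hU
  -- `Θ^{log}_j`
  obtain ⟨Θ, hΘ0, hΘ, hΘV', hΘV, hΘr⟩ := s36e_exists_theta_log_char G φ M q hq hqM hπq w₀
  obtain ⟨zΘ, hzΘu, hzΘ⟩ := s36e_theta_log_unit G φ M q hq hqM h2 h3 S₁ 𝔪' honly' F3₁ Θ hΘ hΘ0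
    hΘV hΘV' hpl
  obtain ⟨c, hc0, hcong⟩ := s36e_eis_cong G φ M q hq hqM V hC hRE hπ Θ hΘV hΘr
  -- the constants
  set ϖB : s34x_ring (s34x_infRing V) S₂ := s34x_const (s34x_infRing V) S₂ ((G.ϖ : G.A) : K₀)
    (s34x_inf_const_mem V G.A (s36b_const_mem G φ M q hq hqM hC) G.ϖ) with hϖB
  set cB : s34x_ring (s34x_infRing V) S₂ := s34x_const (s34x_infRing V) S₂ (c : K₀)
    (s34x_inf_const_mem V G.A (s36b_const_mem G φ M q hq hqM hC) c) with hcB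
  have hϖ𝔫 : ϖB ∈ 𝔫 := h1 ϖB (hU.1 1)
  have hcB𝔫 : cB ∉ 𝔫 := s36e_const_not_mem G φ M q hq hqM V hC hπ S₂ 𝔫 hϖ𝔫 c hc0
  -- the unit `z₁`
  set z₁ : Localization.AtPrime 𝔫 :=
    algebraMap (s34x_ring (s34x_infRing V) S₂) (Localization.AtPrime 𝔫) cB *
      s36q_locMap O₁ V S₁ S₂ γ hγ 𝔫 zΘ with hz₁
  have hz₁u : IsUnit z₁ :=
    (IsLocalization.map_units (Localization.AtPrime 𝔫) (⟨cB, hcB𝔫⟩ : 𝔫.primeCompl)).mul
      (hzΘu.map _)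
  have hιz₁ : s34f_iota (s34x_infRing V) S₂ 𝔫 z₁ =
      algebraMap K₀ (s34m_F K₀ (M * q * q)) (c : K₀) * γ Θ := by
    rw [hz₁, map_mul, s34f_iota_algebraMap, s36q_iota_locMap, hzΘ]
    rfl
  have hcong' : s34f_iota (s34x_infRing V) S₂ 𝔫 ℓ ^ (q - 1) / ϖ₂ -
      s34f_iota (s34x_infRing V) S₂ 𝔫 z₁ ∈ (V 1).nonunits := by
    rw [hℓ, hιz₁]
    exact hcong
  -- `J` is a unit of `V 1`
  have hαj : γ (s18g_jF (K := K₀) (M * q)) = J := s34m_alpha_jF (K₀ := K₀) (M * q) q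
  have hJV : J ∈ V 1 := by
    rw [← hαj]; exact (hcomap _).mpr (s34m_jF_mem_Vinf G (M * q))
  have hJV' : J⁻¹ ∈ V 1 := by
    rw [← hαj, ← map_inv₀]
    exact (hcomap _).mpr (s18g_jF_inv_mem_V G (M * q) (s34m_hF G (M * q)))
  have hJ0 : J ≠ 0 := s18g_jF_ne_zero (M * q * q)
  obtain ⟨-, -, -, hTnu, hTgen, -, -⟩ := hU
  have hℓj : s34f_iota (s34x_infRing V) S₂ 𝔫 ℓ ∈ (V 1).nonunits := by
    rw [hℓ, div_eq_mul_inv]
    exact s36y_mul_mem_nonunits' (V 1) hTnu hJV'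
  have hgen : ∀ y ∈ (V 1).nonunits, ∃ c ∈ V 1, y = s34f_iota (s34x_infRing V) S₂ 𝔫 ℓ * c := by
    intro y hy
    obtain ⟨z, hz, e⟩ := hTgen y hy
    refine ⟨J * z, (V 1).mul_mem _ _ hJV hz, ?_⟩
    rw [hℓ, e]
    field_simp
  have hq1 : q - 1 ≠ 0 := by have := hq.two_le; omega
  have hϖ0 : ϖ₂ ≠ 0 := s34m_unif_ne_zero G (M * q * q)
  have hϖord : ∀ Q ∈ S₂, Q.ord ϖ₂ = 0 := fun Q _ =>
    ffh_ord_algebraMap Q (s18g_unifK_ne_zero G)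
  have hϖBcoe : (ϖB : s34m_F K₀ (M * q * q)) = ϖ₂ := rfl
  -- the package (K), (D)
  obtain ⟨-, -, -, -, -, hw0, -, hord, -⟩ := s36e_KD O₁ V S₁ S₂ γ hγ 𝔫 true 1 hcomap hA h1
    honly F3₂ u' w' hm' hw' hu' hfrac ℓ hℓj hgen (q - 1) hq1 ϖ₂ hϖ0 hϖord z₁ hz₁u hcong'
  have hℓ0 : s34f_iota (s34x_infRing V) S₂ 𝔫 ℓ ≠ 0 := by
    intro h
    apply hw0
    apply s34f_iota_injective (s34x_infRing V) S₂ 𝔫
    rw [h, map_zero]
  refine ⟨?_, s36e_branch V S₂ 𝔫 hA 1 honly ℓ hℓ0 hℓj hgen hord, ?_⟩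
  · intro Q hQS hth
    exact s36e_locEq O₁ V S₁ S₂ γ hγ 𝔫 true 1 hcomap hA h1 honly F3₂ u' w' hm' hw' hu' hfrac ℓ hℓj
      hgen (q - 1) hq1 ϖ₂ hϖ0 hϖord z₁ hz₁u hcong' Q hQS hth ϖB hϖ𝔫
      (by rw [hϖBcoe]; exact hϖ0) (by rw [hϖBcoe]; exact hϖord Q hQS) (F1₂ Q hQS) (F2₂ Q hQS)
  · intro m hm k hk y hy a ha hya
    have hk1 := honly k hk
    subst hk1
    obtain ⟨s, -, hs⟩ := s36e_normal O₁ V S₁ S₂ γ hγ 𝔫 true 1 hcomap h1 u' w' hm' hw' hfrac m hm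
      y hy a ha hya
    exact ⟨s, hs⟩

/-- **`NodeGenRad` at a point of the level-`M q²` chart on `C_mid` only, away from
`j̄ ∈ {0, 1728}`.** -/
theorem s36e_mid_nodeGenRad [CharP κ q] (h2 : nuTwo M = 0) (h3 : nuThree M = 0)
    (hπ : Function.Surjective G.π) (hπq : G.π ((q : ℕ) : G.A) = 0)
    (w₀ : s34m_F K₀ (M * q)) [FFGen K₀ w₀]
    (hC : s36g_ValComap G φ M q hq hqM V)
    (hU : s36g_ValUnif G M q V (s36m_t (K₀ := K₀) M q))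
    (hRE : s36e_ValRedEis G φ M q hq hqM V)
    (hD₁ : s35f_Dict (s34m_VV G φ M q hq hqM) S₁) (hD₂ : s35f_Dict V S₂)
    (h1 : s36q_compThrough V S₂ 𝔫 1) (honly : ∀ k, s36q_compThrough V S₂ 𝔫 k → k = 1)
    (honly' : ∀ i, s36q_compThrough (s34m_VV G φ M q hq hqM) S₁
      (s36q_pt (s34m_VV G φ M q hq hqM) V S₁ S₂ (s36g_alpha M q) hγ 𝔫) i → i = true)
    (u' w' : Localization.AtPrime
      (s36q_pt (s34m_VV G φ M q hq hqM) V S₁ S₂ (s36g_alpha M q) hγ 𝔫))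
    (hm' : maximalIdeal (Localization.AtPrime
      (s36q_pt (s34m_VV G φ M q hq hqM) V S₁ S₂ (s36g_alpha M q) hγ 𝔫)) = Ideal.span {u', w'})
    (hw' : s34f_iota (s34x_infRing (s34m_VV G φ M q hq hqM)) S₁
      (s36q_pt (s34m_VV G φ M q hq hqM) V S₁ S₂ (s36g_alpha M q) hγ 𝔫) w' ∈
        (s34m_VV G φ M q hq hqM true).nonunits)
    (hu' : s34f_iota (s34x_infRing (s34m_VV G φ M q hq hqM)) S₁
      (s36q_pt (s34m_VV G φ M q hq hqM) V S₁ S₂ (s36g_alpha M q) hγ 𝔫) u' ∉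
        (s34m_VV G φ M q hq hqM true).nonunits)
    (hfrac : s36q_Frac (s34m_VV G φ M q hq hqM) V S₁ (s36g_alpha M q) true 1)
    (hpl : ∀ Q ∈ S₁, s34f_through (s34x_infRing (s34m_VV G φ M q hq hqM)) S₁
        (s36q_pt (s34m_VV G φ M q hq hqM) V S₁ S₂ (s36g_alpha M q) hγ 𝔫) Q →
      ¬ 0 < Q.ord (s18g_jF (K := K₀) (M * q)) ∧
      ¬ 0 < Q.ord (s18g_jF (K := K₀) (M * q) - algebraMap K₀ (s34m_F K₀ (M * q)) 1728) ∧
      ¬ 0 < Q.ord (heckeBetaBar K₀ M q (s18g_jF (K := K₀) M)) ∧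
      ¬ 0 < Q.ord (heckeBetaBar K₀ M q (s18g_jF (K := K₀) M) -
        algebraMap K₀ (s34m_F K₀ (M * q)) 1728))
    (ℓ : Localization.AtPrime 𝔫)
    (hℓ : s34f_iota (s34x_infRing V) S₂ 𝔫 ℓ =
      s36m_t (K₀ := K₀) M q / s18g_jF (K := K₀) (M * q * q))
    (f : s34m_F K₀ (M * q * q)) (hf0 : f ≠ 0) (m : ℕ)
    (hmR : IsUnit ((m : ℕ) : Localization.AtPrime 𝔫))
    (hdiv : ∀ Q ∈ S₂, s34f_through (s34x_infRing V) S₂ 𝔫 Q → (m : ℤ) ∣ Q.ord f)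
    (hf1 : ∀ k, s36q_compThrough V S₂ 𝔫 k → f - 1 ∈ (V k).nonunits) :
    s36y_NodeGenRad V S₂ 𝔫 (s18_E f m) := by
  have hm0 : m ≠ 0 := by
    rintro rfl
    rw [Nat.cast_zero] at hmR
    exact not_isUnit_zero hmR
  obtain ⟨hLE, hbr, hN⟩ := s36e_mid_reg G φ M q hq hqM V S₁ S₂ hγ 𝔫 h2 h3 hπ hπq w₀ hC hU hRE
    hD₁ hD₂ h1 honly honly' u' w' hm' hw' hu' hfrac hpl ℓ hℓ
  exact s36y_nodeGenRad_of_single V S₂ 𝔫 (s36b_arch G M q hq hU) hD₂.2.2.2 f hf0 m hmR hdiv hf1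
    (fun Q hQS hth _ => hLE Q hQS hth) hbr (hN m hm0)
    (fun i j hi hj => by rw [honly i hi, honly j hj])

end Fermat.Agent.Lib.S36
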