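/-
S36 mega-project (helper6), REG at the CUSPIDAL points lying on `C_mid` ONLY (item (3f) of board
#1783, sub-case "V 1 only" of helper9's split #1797; also usable for the cuspidal `V 1`-only points of
chart 1 in the `t₂`/`t₃` branches).

* `s36m_mc_specialise` : specialisation `G(u)(j) = 0 ⟹ G(c)(j) ∈ (u - c) W`;
* `s36m_mc_no_zero` (abstract chart frame): `x ∈ 𝔪`, `ε ∉ 𝔪`, `j x = ε` (a pole of `j` at `𝔪`), `j`
  integral over `ℤ[u]` ⟹ `u - c` has no zero at any place through `𝔪` (`c : ℤ`);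
* `s36m_mc_hpl` : the hypothesis `hpl` of helper2's `s36e_mid_reg` at a polar image point of level
  `M q` (no zero of `j`, `j - 1728`, `β j`, `β j - 1728` through it);
* **`s36m_mc_reg`** : `s36p_LocalReg V S₂ 𝔫 m` at a `V 1`-only point `𝔫` whose image point is polar,
  from `s36e_mid_reg`; the Eisenstein parameter is `ℓ = Z - 1`, `ι Z = j₂ / j₀`.
-/
import Fermat.Agent.Lib.S36.REisMid
import Fermat.Agent.Lib.S36.PCase

set_option autoImplicit false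

noncomputable section

namespace Fermat.Agent.Lib.S36

open Polynomial AlgebraicCurve Fermat.Agent.Lib.FF Fermat.Agent.Lib.S18 Fermat.Agent.Lib.S34
  Fermat.Agent.Lib.S28

section Abs

variable {L₀ 𝓕 : Type*} [Field L₀] [Field 𝓕] [Algebra L₀ 𝓕]

/-- specialisation of an integrality relation: if `j` is integral over `ℤ[u]` (`G(u)(j) = 0`) and
`u, j` lie in a subring `W`, then `P(j) ∈ (u - c) W` for the monic `P = G(c) ∈ ℤ[Y]`. -/
theorem s36m_mc_specialise (W : Subring 𝓕) {u j : 𝓕} (hu : u ∈ W) (hj : j ∈ W)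
    (G : Polynomial (Polynomial ℤ)) (h0 : (G.map (aeval u).toRingHom).eval j = 0) (c : ℤ) :
    ∃ d ∈ W, aeval j (G.map (evalRingHom c)) = (u - (c : 𝓕)) * d := by
  set uW : W := ⟨u, hu⟩ with huW
  set jW : W := ⟨j, hj⟩ with hjW
  set Φ : Polynomial ℤ →+* Polynomial W := mapRingHom (Int.castRingHom W) with hΦ
  set p : Polynomial W := G.eval₂ Φ (C jW) with hp
  have hev : ∀ a : W, ((p.eval a : W) : 𝓕) = G.eval₂ (aeval (a : 𝓕)).toRingHom j := by
    intro a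
    have e1 : p.eval a = G.eval₂ ((evalRingHom a).comp Φ) jW := by
      rw [hp, ← coe_evalRingHom, Polynomial.hom_eval₂, coe_evalRingHom, eval_C]
    have e2 : W.subtype.comp ((evalRingHom a).comp Φ) = (aeval (a : 𝓕)).toRingHom := by
      apply Polynomial.ringHom_ext
      · intro n; simp [hΦ]
      · simp [hΦ]
    rw [e1, ← e2]
    exact Polynomial.hom_eval₂ G _ W.subtype jW
  have h1 : p.eval uW = 0 := by
    apply Subtype.ext
    rw [hev, ← Polynomial.eval_map]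
    exact h0
  obtain ⟨e, he⟩ := Polynomial.sub_dvd_eval_sub uW ((c : ℤ) : W) p
  rw [h1, zero_sub] at he
  refine ⟨((-e : W) : 𝓕), (-e).2, ?_⟩
  have h2 : ((p.eval ((c : ℤ) : W) : W) : 𝓕) = (u - (c : 𝓕)) * ((-e : W) : 𝓕) := by
    have := congrArg (fun z : W => (z : 𝓕)) he
    simp only [Subring.coe_neg, Subring.coe_mul] at this
    have hsub : ((uW - ((c : ℤ) : W) : W) : 𝓕) = u - (c : 𝓕) := by
      rw [AddSubgroupClass.coe_sub]; rfl
    rw [hsub] at this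
    rw [Subring.coe_neg, mul_neg, ← this, neg_neg]
  rw [← h2, hev, Polynomial.aeval_def, Polynomial.eval₂_map]
  congr 1
  apply Polynomial.ringHom_ext
  · intro n; simp
  · simp

variable (O : Subring 𝓕) (S : Set (Place L₀ 𝓕)) (𝔪 : Ideal (s34x_ring O S)) [h𝔪 : 𝔪.IsPrime]

/-- **No zero through a polar point.**  `x ∈ 𝔪`, `ε ∉ 𝔪`, `j x = ε` ("`j` has a pole at `𝔪`"), `j`
integral over `ℤ[u]`: then `u - c` has no zero at a place through `𝔪`, for every `c : ℤ`. -/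
theorem s36m_mc_no_zero (Q : Place L₀ 𝓕) (hQ : Q ∈ S) (hthr : s34f_through O S 𝔪 Q)
    (x ε : s34x_ring O S) (hx : x ∈ 𝔪) (hε : ε ∉ 𝔪) (j u : 𝓕)
    (hjx : j * (x : 𝓕) = (ε : 𝓕)) (hint : s28d_IntOver u j) (c : ℤ) :
    ¬ 0 < Q.ord (u - (c : 𝓕)) := by
  intro hpos
  have huc0 : u - (c : 𝓕) ≠ 0 := by
    intro h
    rw [h, Place.ord_zero] at hpos
    exact lt_irrefl _ hpos
  obtain ⟨hucW, hucinv⟩ := (ff_ord_pos_iff Q huc0).mp hpos
  have hcW : ((c : ℤ) : 𝓕) ∈ Q.toValuationSubring := intCast_mem _ c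
  have huW : u ∈ Q.toValuationSubring := by
    have := Q.toValuationSubring.add_mem _ _ hucW hcW
    simpa using this
  have hjW : j ∈ Q.toValuationSubring := s34e_cusp_mem_of_intOver _ hint huW
  obtain ⟨G, hG, h0⟩ := hint
  obtain ⟨d, hd, hPd⟩ := s36m_mc_specialise Q.toValuationSubring.toSubring huW hjW G h0 c
  set P : Polynomial ℤ := G.map (evalRingHom c) with hP
  have hPm : P.Monic := hG.map _
  set n := P.natDegree with hn
  set b : s34x_ring O S :=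
    ∑ i ∈ Finset.range (n + 1), ((P.coeff i : ℤ) : s34x_ring O S) * ε ^ i * x ^ (n - i) with hb
  have hbcoe : (b : 𝓕) = aeval j P * (x : 𝓕) ^ n := by
    rw [aeval_eq_sum_range, Finset.sum_mul, hb, AddSubmonoidClass.coe_finsetSum]
    refine Finset.sum_congr rfl fun i hi => ?_
    have hi' : i ≤ n := Nat.lt_succ_iff.mp (Finset.mem_range.mp hi)
    have hxn : (x : 𝓕) ^ n = (x : 𝓕) ^ i * (x : 𝓕) ^ (n - i) := by
      rw [← pow_add, Nat.add_sub_cancel' hi']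
    push_cast
    rw [← hjx, mul_pow, zsmul_eq_mul, hxn]
    ring
  have hxQ : (x : 𝓕) ∈ Q.toValuationSubring := x.2.2 Q hQ
  have hb𝔪 : b ∈ 𝔪 := by
    by_cases hb0 : (b : 𝓕) = 0
    · have : b = 0 := Subtype.ext hb0
      rw [this]; exact 𝔪.zero_mem
    · apply hthr b hb0
      rw [ff_ord_pos_iff Q hb0]
      have hdx : d * (x : 𝓕) ^ n ∈ Q.toValuationSubring :=
        Q.toValuationSubring.mul_mem _ _ hd (Q.toValuationSubring.pow_mem hxQ n)
      have hbe : (b : 𝓕) = (u - (c : 𝓕)) * (d * (x : 𝓕) ^ n) := by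
        rw [hbcoe, hPd]; ring
      refine ⟨by rw [hbe]; exact Q.toValuationSubring.mul_mem _ _ hucW hdx, fun hinv => hucinv ?_⟩
      have hdx0 : d * (x : 𝓕) ^ n ≠ 0 := by
        intro h0'
        rw [hbe, h0', mul_zero] at hb0
        exact hb0 rfl
      have : (u - (c : 𝓕))⁻¹ = (b : 𝓕)⁻¹ * (d * (x : 𝓕) ^ n) := by
        rw [hbe, mul_inv, mul_assoc, inv_mul_cancel₀ hdx0, mul_one]
      rw [this]
      exact Q.toValuationSubring.mul_mem _ _ hinv hdx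
  -- `b = (terms divisible by x) + ε ^ n`
  have hsplit : b = (∑ i ∈ Finset.range n,
      ((P.coeff i : ℤ) : s34x_ring O S) * ε ^ i * x ^ (n - i)) + ε ^ n := by
    rw [hb, Finset.sum_range_succ, Nat.sub_self, pow_zero, mul_one, hn,
      hPm.coeff_natDegree, Int.cast_one, one_mul]
  have hsum : (∑ i ∈ Finset.range n,
      ((P.coeff i : ℤ) : s34x_ring O S) * ε ^ i * x ^ (n - i)) ∈ 𝔪 := by
    refine 𝔪.sum_mem fun i hi => 𝔪.mul_mem_left _ (Ideal.pow_mem_of_mem 𝔪 hx _ ?_)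
    have := Finset.mem_range.mp hi
    omega
  have hεn : ε ^ n ∈ 𝔪 := by
    have : ε ^ n = b - ∑ i ∈ Finset.range n,
        ((P.coeff i : ℤ) : s34x_ring O S) * ε ^ i * x ^ (n - i) := by
      rw [hsplit]; ring
    rw [this]
    exact 𝔪.sub_mem hb𝔪 hsum
  exact hε (h𝔪.mem_of_pow_mem n hεn)

end Abs

open ModularCurve HahnSeries Fermat.Agent.Lib.S37 Fermat.Agent.Lib.S35 IsLocalRing

set_option linter.unusedSectionVars false

local notation "Kb" => AlgebraicClosure ℚ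

variable {K₀ : Type} [Field K₀] [Algebra ℚ K₀] [CharZero K₀] {κ : Type} [Field κ]
  (G : s18g_GaussData K₀ κ) [IsDiscreteValuationRing G.A]
  (φ : K₀ →+* Kb) (M q : ℕ) [NeZero M] [NeZero q] (hq : q.Prime) (hqM : ¬ q ∣ M)
  (V : Fin 3 → ValuationSubring (s34m_F K₀ (M * q * q)))
  (S₁ : Set (Place K₀ (s34m_F K₀ (M * q)))) (S₂ : Set (Place K₀ (s34m_F K₀ (M * q * q))))
  (hγ : ∀ b ∈ s34x_ring (s34x_infRing (s34m_VV G φ M q hq hqM)) S₁,
    s36g_alpha M q b ∈ s34x_ring (s34x_infRing V) S₂)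
  (𝔫 : Ideal (s34x_ring (s34x_infRing V) S₂)) [h𝔫 : 𝔫.IsPrime]

/-- `j` is integral over `ℤ[j]`. -/
theorem s36m_mc_intOver_self {E : Type*} [CommRing E] (j : E) : s28d_IntOver j j := by
  refine ⟨Polynomial.X - Polynomial.C Polynomial.X, Polynomial.monic_X_sub_C _, ?_⟩
  simp

/-- **`hpl` at a polar image point**: `x ∈ 𝔪'`, `ε ∉ 𝔪'`, `j x = ε` for the `j`-function of level
`M q`. -/
theorem s36m_mc_hpl
    (x ε : s34x_ring (s34x_infRing (s34m_VV G φ M q hq hqM)) S₁)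
    (hx : x ∈ s36q_pt (s34m_VV G φ M q hq hqM) V S₁ S₂ (s36g_alpha M q) hγ 𝔫)
    (hε : ε ∉ s36q_pt (s34m_VV G φ M q hq hqM) V S₁ S₂ (s36g_alpha M q) hγ 𝔫)
    (hjx : s18g_jF (K := K₀) (M * q) * (x : s34m_F K₀ (M * q)) = (ε : s34m_F K₀ (M * q))) :
    ∀ Q ∈ S₁, s34f_through (s34x_infRing (s34m_VV G φ M q hq hqM)) S₁
        (s36q_pt (s34m_VV G φ M q hq hqM) V S₁ S₂ (s36g_alpha M q) hγ 𝔫) Q →
      ¬ 0 < Q.ord (s18g_jF (K := K₀) (M * q)) ∧
      ¬ 0 < Q.ord (s18g_jF (K := K₀) (M * q) - algebraMap K₀ (s34m_F K₀ (M * q)) 1728) ∧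
      ¬ 0 < Q.ord (heckeBetaBar K₀ M q (s18g_jF (K := K₀) M)) ∧
      ¬ 0 < Q.ord (heckeBetaBar K₀ M q (s18g_jF (K := K₀) M) -
        algebraMap K₀ (s34m_F K₀ (M * q)) 1728) := by
  intro Q hQ hthr
  have key := fun (u : s34m_F K₀ (M * q)) (hint : s28d_IntOver u (s18g_jF (K := K₀) (M * q)))
      (c : ℤ) => s36m_mc_no_zero (s34x_infRing (s34m_VV G φ M q hq hqM)) S₁
    (s36q_pt (s34m_VV G φ M q hq hqM) V S₁ S₂ (s36g_alpha M q) hγ 𝔫) Q hQ hthr x ε hx hε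
    (s18g_jF (K := K₀) (M * q)) u hjx hint c
  have hu : s28d_IntOver (heckeBetaBar K₀ M q (s18g_jF (K := K₀) M))
      (s18g_jF (K := K₀) (M * q)) := s34d2_intOver_j φ M q hq hqM
  have h1728 : algebraMap K₀ (s34m_F K₀ (M * q)) 1728 = ((1728 : ℤ) : s34m_F K₀ (M * q)) := by
    rw [map_ofNat]; norm_num
  refine ⟨?_, ?_, ?_, ?_⟩
  · have := key _ (s36m_mc_intOver_self _) 0
    rwa [Int.cast_zero, sub_zero] at this
  · rw [h1728]; exact key _ (s36m_mc_intOver_self _) 1728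
  · have := key _ hu 0
    rwa [Int.cast_zero, sub_zero] at this
  · rw [h1728]; exact key _ hu 1728

/-- **REG at a cuspidal `V 1`-only point** (any pair of charts `S₁`, `S₂` with `α'(B₁) ⊆ B₂`): the
inputs of helper2's `s36e_mid_reg` except `hpl` and `ℓ`, the polarity of the image point in the
form `x ∈ 𝔪'`, `ε ∉ 𝔪'`, `j x = ε`, and `Z` with `ι Z = j₂ / j₀`. -/
theorem s36m_mc_reg [CharP κ q] (h2 : nuTwo M = 0) (h3 : nuThree M = 0)
    (hπ : Function.Surjective G.π)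
    (w₀ : s34m_F K₀ (M * q)) [FFGen K₀ w₀]
    (hC : s36g_ValComap G φ M q hq hqM V)
    (hU : s36g_ValUnif G M q V (s36m_t (K₀ := K₀) M q))
    (hRE : s36e_ValRedEis G φ M q hq hqM V)
    (hD₁ : s35f_Dict (s34m_VV G φ M q hq hqM) S₁) (hD₂ : s35f_Dict V S₂)
    (h1 : s36q_compThrough V S₂ 𝔫 1) (honly : ∀ k, s36q_compThrough V S₂ 𝔫 k → k = 1)
    (honly' : ∀ i, s36q_compThrough (s34m_VV G φ M q hq hqM) S₁
      (s36q_pt (s34m_VV G φ M q hq hqM) V S₁ S₂ (s36g_alpha M q) hγ 𝔫) i → i = true)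
    (u' w' : Localization.AtPrime
      (s36q_pt (s34m_VV G φ M q hq hqM) V S₁ S₂ (s36g_alpha M q) hγ 𝔫))
    (hm' : maximalIdeal (Localization.AtPrime
      (s36q_pt (s34m_VV G φ M q hq hqM) V S₁ S₂ (s36g_alpha M q) hγ 𝔫)) = Ideal.span {u', w'})
    (hw' : s34f_iota (s34x_infRing (s34m_VV G φ M q hq hqM)) S₁
      (s36q_pt (s34m_VV G φ M q hq hqM) V S₁ S₂ (s36g_alpha M q) hγ 𝔫) w' ∈
        (s34m_VV G φ M q hq hqM true).nonunits)
    (hu' : s34f_iota (s34x_infRing (s34m_VV G φ M q hq hqM)) S₁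
      (s36q_pt (s34m_VV G φ M q hq hqM) V S₁ S₂ (s36g_alpha M q) hγ 𝔫) u' ∉
        (s34m_VV G φ M q hq hqM true).nonunits)
    (hfrac : s36q_Frac (s34m_VV G φ M q hq hqM) V S₁ (s36g_alpha M q) true 1)
    (x ε : s34x_ring (s34x_infRing (s34m_VV G φ M q hq hqM)) S₁)
    (hx : x ∈ s36q_pt (s34m_VV G φ M q hq hqM) V S₁ S₂ (s36g_alpha M q) hγ 𝔫)
    (hε : ε ∉ s36q_pt (s34m_VV G φ M q hq hqM) V S₁ S₂ (s36g_alpha M q) hγ 𝔫)
    (hjx : s18g_jF (K := K₀) (M * q) * (x : s34m_F K₀ (M * q)) = (ε : s34m_F K₀ (M * q)))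
    (Z : Localization.AtPrime 𝔫)
    (hZ : s34f_iota (s34x_infRing V) S₂ 𝔫 Z =
      s36m_jqq (K₀ := K₀) M q / s18g_jF (K := K₀) (M * q * q))
    (m : ℕ) (hm : m ≠ 0) :
    s36p_LocalReg V S₂ 𝔫 m := by
  have hπq : G.π ((q : ℕ) : G.A) = 0 := by
    rw [map_natCast]; exact CharP.cast_eq_zero κ q
  have hj0 : s18g_jF (K := K₀) (M * q * q) ≠ 0 := s18g_jF_ne_zero (M * q * q)
  have hℓ : s34f_iota (s34x_infRing V) S₂ 𝔫 (Z - 1) =
      s36m_t (K₀ := K₀) M q / s18g_jF (K := K₀) (M * q * q) := by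
    rw [map_sub, map_one, hZ, s36m_t]
    field_simp
  have h := s36e_mid_reg G φ M q hq hqM V S₁ S₂ hγ 𝔫 h2 h3 hπ hπq w₀ hC hU hRE hD₁ hD₂ h1 honly
    honly' u' w' hm' hw' hu' hfrac
    (s36m_mc_hpl G φ M q hq hqM V S₁ S₂ hγ 𝔫 x ε hx hε hjx) (Z - 1) hℓ
  exact ⟨h.1, h.2.1, h.2.2 m hm⟩

end Fermat.Agent.Lib.S36
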