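/-
S36 mega-project, sub-layer (R-mid) (helper2, prefix `s36e_`), part 10: THE IMAGE POINT OF A CLOSED
POINT LYING ON ONE COMPONENT, GENERIC IN `(γ, i, j)`.

Two-level frame of `QTwo.lean` with `O₁ := s34m_VV G φ M q hq hqM` (level `M q`), `S₁` a chart with
`s35g_ChartData` and chart ring of finite type (`s36e_finiteType_chart1/2`), `O₂`, `S₂`, `γ`, `hγ`
arbitrary (`γ ∈ {α', β'}`), `B₂` integral over `γ(B₁)` (INT).  `𝔫 ⊂ B₂` MAXIMAL, the component `j`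
over `V'_i` passes through `𝔫`, the component `k` over `V'_{!i}` does not, (FIB) at the crossings.

`s36e_image_pt`: then only `V'_i` passes through the image point `𝔪' = γ⁻¹𝔫` (`honly'` of
`s36e_mid_reg`) and `𝔪' (B₁)_{𝔪'} = (u', w')` with `w' ∈ 𝔪(V'_i)` (`= ϖ`), `u' ∉ 𝔪(V'_i)`
(`hm'`, `hw'`, `hu'` of `s36e_mid_reg`, `s36e_out_reg_V0`, `s36e_out_reg_V2`).
Instances: `(γ, i, j, k) = (α', true, 0, 2), (α', true, 1, 2), (β', false, 1, 0), (β', false, 2, 0)`.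
-/
import Fermat.Agent.Lib.S36.REisPt
import Fermat.Agent.Lib.S36.QClass

set_option autoImplicit false
set_option linter.unusedSectionVars false
set_option linter.style.haveILetI false

noncomputable section

namespace Fermat.Agent.Lib.S36

open AlgebraicCurve ModularCurve IsLocalRing
open Fermat.Agent.Lib.FF Fermat.Agent.Lib.S18 Fermat.Agent.Lib.S34 Fermat.Agent.Lib.S35

local notation "Kb" => AlgebraicClosure ℚ

variable {K₀ : Type} [Field K₀] [CharZero K₀] [Algebra ℚ K₀] {κ : Type} [Field κ]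
  (G : s18g_GaussData K₀ κ) (φ : K₀ →+* Kb) (M q : ℕ) [NeZero M] [NeZero q]
  (hq : q.Prime) (hqM : ¬ q ∣ M) [CharP κ q] [PerfectField κ] [IsDiscreteValuationRing G.A]

variable {𝓕₂ : Type*} [Field 𝓕₂] [Algebra K₀ 𝓕₂] {ι₂ : Type*} (O₂ : ι₂ → ValuationSubring 𝓕₂)
  (S₁ : Set (Place K₀ (s34m_F K₀ (M * q)))) (S₂ : Set (Place K₀ 𝓕₂))
  (γ : s34m_F K₀ (M * q) →+* 𝓕₂)
  (hγ : ∀ b ∈ s34x_ring (s34x_infRing (s34m_VV G φ M q hq hqM)) S₁,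
    γ b ∈ s34x_ring (s34x_infRing O₂) S₂)

local notation "OO" => s34m_VV G φ M q hq hqM

/-- **The image point of a closed point on one component**: `honly'`, `hm'`, `hw'`, `hu'`. -/
theorem s36e_image_pt (hCD : s35g_ChartData G φ M q hq hqM S₁)
    (hFT : @Algebra.FiniteType G.A (s34x_ring (s34x_infRing OO) S₁) _ _
      (s34f_constHom G.A (s34x_infRing OO)
        (s34x_inf_const_mem OO G.A (s34c_const_mem_VV G φ M q hq hqM)) S₁).toAlgebra)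
    (hπ : Function.Surjective G.π)
    (hint : (s36q_chartMap OO O₂ S₁ S₂ γ hγ).IsIntegral)
    (𝔫 : Ideal (s34x_ring (s34x_infRing O₂) S₂)) [h𝔫 : 𝔫.IsPrime] (hmax : 𝔫.IsMaximal)
    (i : Bool) (j k : ι₂) (hcj : ∀ x, γ x ∈ O₂ j ↔ x ∈ OO i)
    (hck : ∀ x, γ x ∈ O₂ k ↔ x ∈ OO (!i))
    (hj : s36q_compThrough O₂ S₂ 𝔫 j) (hk : ¬ s36q_compThrough O₂ S₂ 𝔫 k)
    (hfib : s36q_compThrough OO S₁ (s36q_pt OO O₂ S₁ S₂ γ hγ 𝔫) true →
      s36q_compThrough OO S₁ (s36q_pt OO O₂ S₁ S₂ γ hγ 𝔫) false →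
      ∀ 𝔫₂ : Ideal (s34x_ring (s34x_infRing O₂) S₂), 𝔫₂.IsPrime →
        s36q_pt OO O₂ S₁ S₂ γ hγ 𝔫₂ = s36q_pt OO O₂ S₁ S₂ γ hγ 𝔫 → 𝔫₂ = 𝔫) :
    (∀ i', s36q_compThrough OO S₁ (s36q_pt OO O₂ S₁ S₂ γ hγ 𝔫) i' → i' = i) ∧
    ∃ u' w' : Localization.AtPrime (s36q_pt OO O₂ S₁ S₂ γ hγ 𝔫),
      maximalIdeal (Localization.AtPrime (s36q_pt OO O₂ S₁ S₂ γ hγ 𝔫)) = Ideal.span {u', w'} ∧
      s34f_iota (s34x_infRing OO) S₁ (s36q_pt OO O₂ S₁ S₂ γ hγ 𝔫) w' ∈ (OO i).nonunits ∧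
      s34f_iota (s34x_infRing OO) S₁ (s36q_pt OO O₂ S₁ S₂ γ hγ 𝔫) u' ∉ (OO i).nonunits := by
  classical
  set 𝔪' := s36q_pt OO O₂ S₁ S₂ γ hγ 𝔫 with h𝔪'
  have hthi : s36q_compThrough OO S₁ 𝔪' i :=
    s36q_compThrough_comap OO O₂ S₁ S₂ γ hγ 𝔫 i j hcj hj
  have hmiss : ¬ s36q_compThrough OO S₁ 𝔪' (!i) := by
    intro hni
    apply hk
    have hfib' : ∀ 𝔫₂ : Ideal (s34x_ring (s34x_infRing O₂) S₂), 𝔫₂.IsPrime →
        s36q_pt OO O₂ S₁ S₂ γ hγ 𝔫₂ = s36q_pt OO O₂ S₁ S₂ γ hγ 𝔫 → 𝔫₂ = 𝔫 := by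
      cases i
      · exact hfib hni hthi
      · exact hfib hthi hni
    exact s36q_comp_through_of_integral OO O₂ S₁ S₂ γ hγ 𝔫 hint hfib' (!i) k hck hni
  have honly : ∀ i', s36q_compThrough OO S₁ 𝔪' i' → i' = i := by
    intro i' hi'
    by_contra hne
    apply hmiss
    have : i' = !i := by
      cases i <;> cases i' <;> simp_all
    rw [← this]
    exact hi'
  refine ⟨honly, ?_⟩
  haveI hmax' : 𝔪'.IsMaximal :=
    haveI := hmax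
    Ideal.isMaximal_comap_of_isIntegral_of_isMaximal' _ hint 𝔫
  have hϖ : s35gd_unifB G φ M q hq hqM S₁ ∈ 𝔪' :=
    hthi _ (s36e_unif_mem_nonunits_VV G φ M q hq hqM i)
  obtain ⟨t, -, hm, htn⟩ := s36e_smooth_pt G φ M q hq hqM S₁ hCD hFT hπ 𝔪' hϖ i hthi hmiss
  refine ⟨algebraMap _ _ t, algebraMap _ _ (s35gd_unifB G φ M q hq hqM S₁), hm, ?_, ?_⟩
  · rw [s34f_iota_algebraMap]
    exact s36e_unif_mem_nonunits_VV G φ M q hq hqM i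
  · rw [s34f_iota_algebraMap]
    exact htn

end Fermat.Agent.Lib.S36
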