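/-
S36 mega-project (helper2): STUB.  `s36e_image_pt` lives in `REisImg.lean` (restored by lead at
1e08abb, simultaneously with my own restoration under this file name).  To avoid a duplicate
declaration this file only re-imports `REisImg`; importing either file gives `s36e_image_pt`.
-/
import Fermat.Agent.Lib.S36.REisImg
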