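/-
S36 mega-project, sub-layer (R-mid) (helper2, prefix `s36e_`), part 11: THE "VERBATIM" INPUTS OF
`s36e_mid_reg` / `s36e_out_reg_V0` / `s36e_out_reg_V2` / `s36el_mid_reg_core` / `s36m_mc_reg` IN THE
CONCRETE CHART-1 FRAME of `GLocalAsm.lean` / `GRegCases.lean`.

`w₁` a base function of level `M q` (`s35g_BaseData`), `S₁ = chart1 w₁`, `S₂ = chart1 (α' w₁)`,
`hsat`, `hFib : s36g_GeoFib` (helper3), `𝔫 ⊂ B₂` MAXIMAL with `ϖ ∈ 𝔫`, the component `j` through `𝔫`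
and only it.

* `s36e_geo_inputs_alpha` (`j ≠ 2`, `γ = α'`, image on `C'_∞`): `honly'` and `∃ u' w', hm' ∧ hw' ∧ hu'`;
* `s36e_geo_inputs_beta`  (`j ≠ 0`, `γ = β'`, image on `C'_0`): the same;
* `s36e_geo_dict₁`, `s36e_geo_dict₂` : the two dictionaries `hD₁`, `hD₂`.
(FRAC is helper5's `s36q_frac_alpha_0/_alpha_1/_beta_1/_beta_2 … (hCD := hB.2.2.2.2.2.2.2.1)`.)
-/
import Fermat.Agent.Lib.S36.REisImgPt
import Fermat.Agent.Lib.S36.GLocalAsm
import Fermat.Agent.Lib.S36.QFracGeo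

set_option autoImplicit false
set_option linter.unusedSectionVars false
set_option linter.style.haveILetI false

noncomputable section

namespace Fermat.Agent.Lib.S36

open AlgebraicCurve ModularCurve IsLocalRing
open Fermat.Agent.Lib.FF Fermat.Agent.Lib.S18 Fermat.Agent.Lib.S34 Fermat.Agent.Lib.S35

local notation "Kb" => AlgebraicClosure ℚ

variable {K₀ : Type} [Field K₀] [Algebra ℚ K₀] [CharZero K₀] {κ : Type} [Field κ]
  (G : s18g_GaussData K₀ κ) [IsDiscreteValuationRing G.A]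
  (φ : K₀ →+* Kb) (M q : ℕ) [NeZero M] [NeZero q] (hq : q.Prime) (hqM : ¬ q ∣ M)
  [CharP κ q] [PerfectField κ]
  {V : Fin 3 → ValuationSubring (s34m_F K₀ (M * q * q))} {t : s34m_F K₀ (M * q * q)}

/-- `hD₁`. -/
theorem s36e_geo_dict₁ (w₁ : s34m_F K₀ (M * q)) (hB : s35g_BaseData G φ M q hq hqM w₁) :
    s35f_Dict (s34m_VV G φ M q hq hqM) (s18_chart1 (L₀ := K₀) w₁) :=
  s35g_dict₁ G φ M q hq hqM w₁ hB

/-- `hD₂`. -/
theorem s36e_geo_dict₂ (hP : s36g_ValPkg G φ M q hq hqM V t) (w₁ : s34m_F K₀ (M * q))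
    (hB : s35g_BaseData G φ M q hq hqM w₁) :
    s35f_Dict V (s18_chart1 (L₀ := K₀) (s36g_alpha M q w₁)) :=
  s36b_dict₁ G φ M q hq hqM hP.1 hP.2.1 _
    (s36b_baseData₂_of_base G φ M q hq hqM hP.1 hP.2.2.2.1 hP.2.2.2.2.1 w₁ hB)

/-- **The image point under `α'`** of a closed point of chart 1 on the component `j ∈ {0, 1}`
only. -/
theorem s36e_geo_inputs_alpha (hP : s36g_ValPkg G φ M q hq hqM V t) (w₁ : s34m_F K₀ (M * q))
    (hB : s35g_BaseData G φ M q hq hqM w₁)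
    (hsat : ∀ Q : Place K₀ (s34m_F K₀ (M * q * q)),
      s36g_alpha M q w₁ ∈ Q.toValuationSubring ↔ s36g_beta M q w₁ ∈ Q.toValuationSubring)
    (hFib : s36g_GeoFib G φ M q hq hqM hP.1 w₁ hB hsat) (hπ : Function.Surjective G.π)
    (j : Fin 3) (hj2 : j ≠ 2)
    (𝔫 : Ideal (s34x_ring (L₀ := K₀) (s34x_infRing V) (s18_chart1 (s36g_alpha M q w₁))))
    [h𝔫 : 𝔫.IsPrime] (hmax : 𝔫.IsMaximal)
    (hϖ : s34x_const (s34x_infRing V) (s18_chart1 (L₀ := K₀) (s36g_alpha M q w₁))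
      ((G.ϖ : G.A) : K₀) (s34x_inf_const_mem V G.A (s36b_const_mem G φ M q hq hqM hP.1) G.ϖ) ∈ 𝔫)
    (hj : s36q_compThrough V (s18_chart1 (L₀ := K₀) (s36g_alpha M q w₁)) 𝔫 j)
    (honly : ∀ k, s36q_compThrough V (s18_chart1 (L₀ := K₀) (s36g_alpha M q w₁)) 𝔫 k → k = j) :
    (∀ i, s36q_compThrough (s34m_VV G φ M q hq hqM) (s18_chart1 (L₀ := K₀) w₁)
      (s36q_pt (s34m_VV G φ M q hq hqM) V (s18_chart1 (L₀ := K₀) w₁)
        (s18_chart1 (L₀ := K₀) (s36g_alpha M q w₁)) (s36g_alpha M q)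
        (s36p_chart1_alpha G φ M q hq hqM hP.1 w₁ hB) 𝔫) i → i = true) ∧
    ∃ u' w' : Localization.AtPrime
        (s36q_pt (s34m_VV G φ M q hq hqM) V (s18_chart1 (L₀ := K₀) w₁)
          (s18_chart1 (L₀ := K₀) (s36g_alpha M q w₁)) (s36g_alpha M q)
          (s36p_chart1_alpha G φ M q hq hqM hP.1 w₁ hB) 𝔫),
      maximalIdeal (Localization.AtPrime
        (s36q_pt (s34m_VV G φ M q hq hqM) V (s18_chart1 (L₀ := K₀) w₁)
          (s18_chart1 (L₀ := K₀) (s36g_alpha M q w₁)) (s36g_alpha M q)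
          (s36p_chart1_alpha G φ M q hq hqM hP.1 w₁ hB) 𝔫)) = Ideal.span {u', w'} ∧
      s34f_iota (s34x_infRing (s34m_VV G φ M q hq hqM)) (s18_chart1 (L₀ := K₀) w₁)
        (s36q_pt (s34m_VV G φ M q hq hqM) V (s18_chart1 (L₀ := K₀) w₁)
          (s18_chart1 (L₀ := K₀) (s36g_alpha M q w₁)) (s36g_alpha M q)
          (s36p_chart1_alpha G φ M q hq hqM hP.1 w₁ hB) 𝔫) w' ∈
        (s34m_VV G φ M q hq hqM true).nonunits ∧
      s34f_iota (s34x_infRing (s34m_VV G φ M q hq hqM)) (s18_chart1 (L₀ := K₀) w₁)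
        (s36q_pt (s34m_VV G φ M q hq hqM) V (s18_chart1 (L₀ := K₀) w₁)
          (s18_chart1 (L₀ := K₀) (s36g_alpha M q w₁)) (s36g_alpha M q)
          (s36p_chart1_alpha G φ M q hq hqM hP.1 w₁ hB) 𝔫) u' ∉
        (s34m_VV G φ M q hq hqM true).nonunits := by
  have hC := hP.1
  have hCompl := hP.2.2.2.1
  have hInd := hP.2.2.2.2.1
  have hint := s36p_chart1_int_alpha G φ M q hq hqM hC hCompl hInd w₁ hB
    (s36p_chart1_alpha G φ M q hq hqM hC w₁ hB)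
  have hcj : ∀ x : s34m_F K₀ (M * q), s36g_alpha M q x ∈ V j ↔
      x ∈ s34m_VV G φ M q hq hqM true := by
    intro x
    have h := s36b_alpha_mem_iff G φ M q hq hqM hC x
    fin_cases j
    · exact h.1
    · exact h.2.1
    · exact absurd rfl hj2
  have hck : ∀ x : s34m_F K₀ (M * q), s36g_alpha M q x ∈ V 2 ↔
      x ∈ s34m_VV G φ M q hq hqM (!true) :=
    fun x => (s36b_alpha_mem_iff G φ M q hq hqM hC x).2.2
  have hk : ¬ s36q_compThrough V (s18_chart1 (L₀ := K₀) (s36g_alpha M q w₁)) 𝔫 2 :=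
    fun h => hj2 (honly 2 h).symm
  exact s36e_image_pt G φ M q hq hqM V (s18_chart1 (L₀ := K₀) w₁)
    (s18_chart1 (L₀ := K₀) (s36g_alpha M q w₁)) (s36g_alpha M q)
    (s36p_chart1_alpha G φ M q hq hqM hC w₁ hB) hB.2.2.2.2.2.2.2.1
    (s36e_finiteType_chart1 G φ M q hq hqM w₁ hB) hπ hint 𝔫 hmax true j 2 hcj hck hj hk
    (hFib 𝔫 hmax hϖ).1

/-- **The image point under `β'`** of a closed point of chart 1 on the component `j ∈ {1, 2}`
only. -/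
theorem s36e_geo_inputs_beta (hP : s36g_ValPkg G φ M q hq hqM V t) (w₁ : s34m_F K₀ (M * q))
    (hB : s35g_BaseData G φ M q hq hqM w₁)
    (hsat : ∀ Q : Place K₀ (s34m_F K₀ (M * q * q)),
      s36g_alpha M q w₁ ∈ Q.toValuationSubring ↔ s36g_beta M q w₁ ∈ Q.toValuationSubring)
    (hFib : s36g_GeoFib G φ M q hq hqM hP.1 w₁ hB hsat) (hπ : Function.Surjective G.π)
    (j : Fin 3) (hj0 : j ≠ 0)
    (𝔫 : Ideal (s34x_ring (L₀ := K₀) (s34x_infRing V) (s18_chart1 (s36g_alpha M q w₁))))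
    [h𝔫 : 𝔫.IsPrime] (hmax : 𝔫.IsMaximal)
    (hϖ : s34x_const (s34x_infRing V) (s18_chart1 (L₀ := K₀) (s36g_alpha M q w₁))
      ((G.ϖ : G.A) : K₀) (s34x_inf_const_mem V G.A (s36b_const_mem G φ M q hq hqM hP.1) G.ϖ) ∈ 𝔫)
    (hj : s36q_compThrough V (s18_chart1 (L₀ := K₀) (s36g_alpha M q w₁)) 𝔫 j)
    (honly : ∀ k, s36q_compThrough V (s18_chart1 (L₀ := K₀) (s36g_alpha M q w₁)) 𝔫 k → k = j) :
    (∀ i, s36q_compThrough (s34m_VV G φ M q hq hqM) (s18_chart1 (L₀ := K₀) w₁)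
      (s36q_pt (s34m_VV G φ M q hq hqM) V (s18_chart1 (L₀ := K₀) w₁)
        (s18_chart1 (L₀ := K₀) (s36g_alpha M q w₁)) (s36g_beta M q)
        (s36p_chart1_beta G φ M q hq hqM hP.1 w₁ hB (fun Q => (hsat Q).mp)) 𝔫) i → i = false) ∧
    ∃ u' w' : Localization.AtPrime
        (s36q_pt (s34m_VV G φ M q hq hqM) V (s18_chart1 (L₀ := K₀) w₁)
          (s18_chart1 (L₀ := K₀) (s36g_alpha M q w₁)) (s36g_beta M q)
          (s36p_chart1_beta G φ M q hq hqM hP.1 w₁ hB (fun Q => (hsat Q).mp)) 𝔫),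
      maximalIdeal (Localization.AtPrime
        (s36q_pt (s34m_VV G φ M q hq hqM) V (s18_chart1 (L₀ := K₀) w₁)
          (s18_chart1 (L₀ := K₀) (s36g_alpha M q w₁)) (s36g_beta M q)
          (s36p_chart1_beta G φ M q hq hqM hP.1 w₁ hB (fun Q => (hsat Q).mp)) 𝔫)) =
        Ideal.span {u', w'} ∧
      s34f_iota (s34x_infRing (s34m_VV G φ M q hq hqM)) (s18_chart1 (L₀ := K₀) w₁)
        (s36q_pt (s34m_VV G φ M q hq hqM) V (s18_chart1 (L₀ := K₀) w₁)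
          (s18_chart1 (L₀ := K₀) (s36g_alpha M q w₁)) (s36g_beta M q)
          (s36p_chart1_beta G φ M q hq hqM hP.1 w₁ hB (fun Q => (hsat Q).mp)) 𝔫) w' ∈
        (s34m_VV G φ M q hq hqM false).nonunits ∧
      s34f_iota (s34x_infRing (s34m_VV G φ M q hq hqM)) (s18_chart1 (L₀ := K₀) w₁)
        (s36q_pt (s34m_VV G φ M q hq hqM) V (s18_chart1 (L₀ := K₀) w₁)
          (s18_chart1 (L₀ := K₀) (s36g_alpha M q w₁)) (s36g_beta M q)
          (s36p_chart1_beta G φ M q hq hqM hP.1 w₁ hB (fun Q => (hsat Q).mp)) 𝔫) u' ∉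
        (s34m_VV G φ M q hq hqM false).nonunits := by
  have hC := hP.1
  have hCompl := hP.2.2.2.1
  have hInd := hP.2.2.2.2.1
  have hint := s36p_chart1_int_beta G φ M q hq hqM hC hCompl hInd w₁ hB
    (fun Q => (hsat Q).mpr)
    (s36p_chart1_beta G φ M q hq hqM hC w₁ hB (fun Q => (hsat Q).mp))
  have hcj : ∀ x : s34m_F K₀ (M * q), s36g_beta M q x ∈ V j ↔
      x ∈ s34m_VV G φ M q hq hqM false := by
    intro x
    have h := s36q_beta_mem_iff G φ M q hq hqM hC x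
    fin_cases j
    · exact absurd rfl hj0
    · exact h.2.1
    · exact h.2.2
  have hck : ∀ x : s34m_F K₀ (M * q), s36g_beta M q x ∈ V 0 ↔
      x ∈ s34m_VV G φ M q hq hqM (!false) :=
    fun x => (s36q_beta_mem_iff G φ M q hq hqM hC x).1
  have hk : ¬ s36q_compThrough V (s18_chart1 (L₀ := K₀) (s36g_alpha M q w₁)) 𝔫 0 :=
    fun h => hj0 (honly 0 h).symm
  exact s36e_image_pt G φ M q hq hqM V (s18_chart1 (L₀ := K₀) w₁)
    (s18_chart1 (L₀ := K₀) (s36g_alpha M q w₁)) (s36g_beta M q)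
    (s36p_chart1_beta G φ M q hq hqM hC w₁ hB (fun Q => (hsat Q).mp)) hB.2.2.2.2.2.2.2.1
    (s36e_finiteType_chart1 G φ M q hq hqM w₁ hB) hπ hint 𝔫 hmax false j 0 hcj hck hj hk
    (hFib 𝔫 hmax hϖ).2

end Fermat.Agent.Lib.S36
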