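/-
S36 mega-project, layer (X1) (helper1), part 15: **`j₂ / j₀ ∈ B_𝔫ˣ` at a cuspidal point of the middle
component, in ANY chart** (request (R2) of helper6, board #1804).

* `s36b_localIn_of_inv` (abstract): if `1/j ∈ B_𝔫` (`B` the ring of any chart `S`), then the ring of
  the chart `{j ≠ 0}` lies in `B_𝔫` (the denominator `s` of `1/j = b/s` vanishes at the zeros of `j`
  in `S`);
* **`s36b_mid_ratio_gen`** : level `M q²`, any chart `S₂`, `𝔫 ∋ ϖ` prime, `z₀ ∈ 𝔪(B_𝔫)` with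
  `ι z₀ = 1/j₀`, the middle component through `𝔫`  ⇒  `∃ Z ∈ B_𝔫ˣ, ι Z = j₂ / j₀`
  (by the `j`-branch `s36b_mid_ratio_j` at the prime `B(chart2 j₀) ∩ 𝔪(B_𝔫)`);
* `s36b_mid_ratio_gen'` : the same with `ι Z = s36m_jqq M q / s18g_jF (M q²)`;
  `s36b_mid_ell_gen` : `∃ ℓ, ι ℓ = t / j₀`.
-/
import Fermat.Agent.Lib.S36.XMidPolar

set_option autoImplicit false
set_option linter.unusedSectionVars false
set_option linter.style.haveILetI false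

noncomputable section

namespace Fermat.Agent.Lib.S36

open ModularCurve AlgebraicCurve HahnSeries Fermat.Agent.Lib.FF Fermat.Agent.Lib.S18
  Fermat.Agent.Lib.S28 Fermat.Agent.Lib.S37 Fermat.Agent.Lib.S34 IsLocalRing

local notation "Kb" => AlgebraicClosure ℚ

/-! ### Abstract part -/

section Abs

variable {L₀ 𝓕 : Type*} [Field L₀] [Field 𝓕] [Algebra L₀ 𝓕]
variable {ι : Type*} (O : ι → ValuationSubring 𝓕) (S : Set (Place L₀ 𝓕))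
  (𝔫 : Ideal (s34x_ring (s34x_infRing O) S)) [h𝔫 : 𝔫.IsPrime]

/-- **`1/j ∈ B_𝔫` ⇒ `B(chart2 j) ⊆ B_𝔫`.** -/
theorem s36b_localIn_of_inv
    (hfin : ∀ y : 𝓕, y ≠ 0 → {Q : Place L₀ 𝓕 | Q.ord y < 0}.Finite)
    (j : 𝓕) (hj0 : j ≠ 0) (z₀ : Localization.AtPrime 𝔫)
    (hz₀ : s34f_iota (s34x_infRing O) S 𝔫 z₀ = j⁻¹) :
    s36b_LocalIn O S (s18_chart2 (L₀ := L₀) j) 𝔫 := by
  obtain ⟨b, s, hs, hfrac⟩ := s34f_exists_frac (s34x_infRing O) S 𝔫 z₀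
  have h1 := congrArg (s34f_iota (s34x_infRing O) S 𝔫) hfrac
  rw [map_mul, s34f_iota_algebraMap, s34f_iota_algebraMap, hz₀] at h1
  have hs0 : (s : 𝓕) ≠ 0 := by
    intro h0
    apply hs
    have : s = 0 := Subtype.ext h0
    rw [this]
    exact 𝔫.zero_mem
  have hb0 : (b : 𝓕) ≠ 0 := by
    rw [← h1]
    exact mul_ne_zero (inv_ne_zero hj0) hs0
  refine s36b_localIn_of_mult 𝔫 hfin s hs fun Q hQS hQj => ?_
  have h2 : Q.ord j⁻¹ < 0 := by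
    by_contra hcon
    exact hQj ((ff_mem_iff_ord_nonneg Q (inv_ne_zero hj0)).mpr (not_lt.mp hcon))
  have h3 : 0 ≤ Q.ord (b : 𝓕) := (ff_mem_iff_ord_nonneg Q hb0).mp (b.2.2 Q hQS)
  rw [← h1, Q.ord_mul (inv_ne_zero hj0) hs0] at h3
  omega

end Abs

/-! ### Level `M q²` -/

section Level

variable {K₀ : Type} [Field K₀] [Algebra ℚ K₀] {κ : Type} [Field κ] (G : s18g_GaussData K₀ κ)
  (φ : K₀ →+* Kb) (M q : ℕ) [NeZero M] [NeZero q] (hq : q.Prime) (hqM : ¬ q ∣ M)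
  {V : Fin 3 → ValuationSubring (s34m_F K₀ (M * q * q))}
  [CharP κ q] [CharZero K₀] [IsDiscreteValuationRing G.A]

include φ hq hqM in
/-- **`j₂ / j₀ ∈ B_𝔫ˣ`** at a cuspidal point (`1/j₀ ∈ 𝔪(B_𝔫)`) of the middle component, in any
chart. -/
theorem s36b_mid_ratio_gen (hC : s36g_ValComap G φ M q hq hqM V)
    (hU : s36g_ValUnif G M q V (s36m_t (K₀ := K₀) M q))
    (S₂ : Set (Place K₀ (s34m_F K₀ (M * q * q))))
    (𝔫 : Ideal (s34x_ring (s34x_infRing V) S₂)) [h𝔫 : 𝔫.IsPrime]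
    (hϖ : s34x_const (s34x_infRing V) S₂ ((G.ϖ : G.A) : K₀)
      (s34x_inf_const_mem V G.A (s36b_const_mem G φ M q hq hqM hC) G.ϖ) ∈ 𝔫)
    (z₀ : Localization.AtPrime 𝔫) (hz₀m : z₀ ∈ maximalIdeal (Localization.AtPrime 𝔫))
    (hz₀ : s34f_iota (s34x_infRing V) S₂ 𝔫 z₀ = (s36b_j0 (K₀ := K₀) M q)⁻¹)
    (h1 : s36q_compThrough V S₂ 𝔫 1) :
    ∃ Z : Localization.AtPrime 𝔫, IsUnit Z ∧
      s34f_iota (s34x_infRing V) S₂ 𝔫 Z =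
        s36b_j2 (K₀ := K₀) M q / s36b_j0 (K₀ := K₀) M q := by
  obtain ⟨hU0, -, -⟩ := s36b_j_units G φ M q hq hqM hC
  have hin : s36b_LocalIn V S₂ (s18_chart2 (L₀ := K₀) (s36b_j0 (K₀ := K₀) M q)) 𝔫 :=
    s36b_localIn_of_inv V S₂ 𝔫 (s36b_finite_neg (K₀ := K₀) φ M q) _ (s36b_j0_ne_zero M q) z₀ hz₀
  have hcm := s34x_inf_const_mem V G.A (s36b_const_mem G φ M q hq hqM hC) G.ϖ
  have hϖB : ∀ S : Set (Place K₀ (s34m_F K₀ (M * q * q))),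
      s34m_unif G (M * q * q) ∈ s34x_ring (s34x_infRing V) S := fun S =>
    (s34x_const (s34x_infRing V) S ((G.ϖ : G.A) : K₀) hcm).2
  have hϖ₀ := s36b_unif_mem_ccIdeal 𝔫 hin (hϖB _) hϖ (hϖB _)
  have hjB : (s36b_j0 (K₀ := K₀) M q)⁻¹ ∈
      s34x_ring (s34x_infRing V) (s18_chart2 (L₀ := K₀) (s36b_j0 (K₀ := K₀) M q)) :=
    ⟨(s34x_mem_infRing V _).mpr fun k => (hU0 k).2, fun Q hQ => hQ⟩
  have hpol : (⟨(s36b_j0 (K₀ := K₀) M q)⁻¹, hjB⟩ :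
      s34x_ring (s34x_infRing V) (s18_chart2 (L₀ := K₀) (s36b_j0 (K₀ := K₀) M q))) ∈
      s36b_ccIdeal 𝔫 hin := (s36b_mem_ccIdeal_iff 𝔫 hin _ z₀ hz₀).mpr hz₀m
  obtain ⟨Z₀, hZ₀u, hZ₀⟩ := s36b_mid_ratio_j G φ M q hq hqM hC hU (s36b_ccIdeal 𝔫 hin) hϖ₀
    ⟨_, hpol, rfl⟩ (s36b_cc_compThrough 𝔫 hin 1 h1)
  obtain ⟨Z, hZu, hZ⟩ := s36b_cc_le_unit 𝔫 hin Z₀ hZ₀u
  exact ⟨Z, hZu, by rw [hZ, hZ₀, div_eq_mul_inv]⟩

include φ hq hqM in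
/-- the same with `j₂ = s36m_jqq`, `j₀ = s18g_jF (M q²)` (the shape of `s36m_mc_reg`). -/
theorem s36b_mid_ratio_gen' (hC : s36g_ValComap G φ M q hq hqM V)
    (hU : s36g_ValUnif G M q V (s36m_t (K₀ := K₀) M q))
    (S₂ : Set (Place K₀ (s34m_F K₀ (M * q * q))))
    (𝔫 : Ideal (s34x_ring (s34x_infRing V) S₂)) [h𝔫 : 𝔫.IsPrime]
    (hϖ : s34x_const (s34x_infRing V) S₂ ((G.ϖ : G.A) : K₀)
      (s34x_inf_const_mem V G.A (s36b_const_mem G φ M q hq hqM hC) G.ϖ) ∈ 𝔫)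
    (z₀ : Localization.AtPrime 𝔫) (hz₀m : z₀ ∈ maximalIdeal (Localization.AtPrime 𝔫))
    (hz₀ : s34f_iota (s34x_infRing V) S₂ 𝔫 z₀ = (s18g_jF (K := K₀) (M * q * q))⁻¹)
    (h1 : s36q_compThrough V S₂ 𝔫 1) :
    ∃ Z : Localization.AtPrime 𝔫, IsUnit Z ∧
      s34f_iota (s34x_infRing V) S₂ 𝔫 Z =
        s36m_jqq (K₀ := K₀) M q / s18g_jF (K := K₀) (M * q * q) :=
  s36b_mid_ratio_gen G φ M q hq hqM hC hU S₂ 𝔫 hϖ z₀ hz₀m hz₀ h1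

include φ hq hqM in
/-- the `ℓ` of `s36e_mid_reg` at a cuspidal point of the middle component, in any chart. -/
theorem s36b_mid_ell_gen (hC : s36g_ValComap G φ M q hq hqM V)
    (hU : s36g_ValUnif G M q V (s36m_t (K₀ := K₀) M q))
    (S₂ : Set (Place K₀ (s34m_F K₀ (M * q * q))))
    (𝔫 : Ideal (s34x_ring (s34x_infRing V) S₂)) [h𝔫 : 𝔫.IsPrime]
    (hϖ : s34x_const (s34x_infRing V) S₂ ((G.ϖ : G.A) : K₀)
      (s34x_inf_const_mem V G.A (s36b_const_mem G φ M q hq hqM hC) G.ϖ) ∈ 𝔫)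
    (z₀ : Localization.AtPrime 𝔫) (hz₀m : z₀ ∈ maximalIdeal (Localization.AtPrime 𝔫))
    (hz₀ : s34f_iota (s34x_infRing V) S₂ 𝔫 z₀ = (s18g_jF (K := K₀) (M * q * q))⁻¹)
    (h1 : s36q_compThrough V S₂ 𝔫 1) :
    ∃ ℓ : Localization.AtPrime 𝔫,
      s34f_iota (s34x_infRing V) S₂ 𝔫 ℓ =
        s36m_t (K₀ := K₀) M q / s18g_jF (K := K₀) (M * q * q) := by
  obtain ⟨Z, -, hZ⟩ := s36b_mid_ratio_gen G φ M q hq hqM hC hU S₂ 𝔫 hϖ z₀ hz₀m hz₀ h1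
  refine ⟨Z - 1, ?_⟩
  rw [map_sub, map_one, hZ, s36b_t_eq]
  have h0 : s36b_j0 (K₀ := K₀) M q ≠ 0 := s36b_j0_ne_zero M q
  show s36b_j2 (K₀ := K₀) M q / s36b_j0 (K₀ := K₀) M q - 1 =
    (s36b_j2 (K₀ := K₀) M q - s36b_j0 (K₀ := K₀) M q) / s36b_j0 (K₀ := K₀) M q
  rw [sub_div, div_self h0]

end Level

end Fermat.Agent.Lib.S36
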