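/-
S36 mega-project (helper6): REG at the CUSPIDAL points lying on `C_mid` only — INSTANCES.

* `s36m_mc_z0` : from the cusp data `(x, ε)` of level `M q` (`x ∈ 𝔪'`, `ε ∉ 𝔪'`, `j x = ε`) the
  element `z₀ ∈ 𝔪(B_𝔫)` with `ι z₀ = 1/j₀`;
* `s36m_mc_reg'` : `s36m_mc_reg` with `Z` from helper1's `s36b_mid_ratio_gen'`;
* `s36m_hRE` : the Eisenstein contract for every valuation package;
* **`s36m_geoRegOnly_cusp`** : `s36p_LocalReg` at the cuspidal `V 1`-only points of chart 1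
  (`α'(α x) ∈ 𝔫`, `x` of Hauptmodul type with `a ≠ 0`: the branches `t₂`, `t₃`).
-/
import Fermat.Agent.Lib.S36.MMidCusp
import Fermat.Agent.Lib.S36.MHauptZ
import Fermat.Agent.Lib.S36.XMidGen
import Fermat.Agent.Lib.S36.REisGeo
import Fermat.Agent.Lib.S36.REisBridge
import Fermat.Agent.Lib.S36.MPkgFinal
import Fermat.Agent.Lib.S36.GBaseFull

set_option autoImplicit false
set_option linter.unusedSectionVars false
set_option linter.style.haveILetI false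
set_option synthInstance.maxHeartbeats 400000

noncomputable section

namespace Fermat.Agent.Lib.S36

open Polynomial ModularCurve AlgebraicCurve HahnSeries Fermat.Agent.Lib.FF Fermat.Agent.Lib.S18
  Fermat.Agent.Lib.S28 Fermat.Agent.Lib.S37 Fermat.Agent.Lib.S34 Fermat.Agent.Lib.S35 IsLocalRing

local notation "Kb" => AlgebraicClosure ℚ

section Gen

variable {K₀ : Type} [Field K₀] [Algebra ℚ K₀] [CharZero K₀] {κ : Type} [Field κ]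
  (G : s18g_GaussData K₀ κ) [IsDiscreteValuationRing G.A]
  (φ : K₀ →+* Kb) (M q : ℕ) [NeZero M] [NeZero q] (hq : q.Prime) (hqM : ¬ q ∣ M)
  (V : Fin 3 → ValuationSubring (s34m_F K₀ (M * q * q)))
  (S₁ : Set (Place K₀ (s34m_F K₀ (M * q)))) (S₂ : Set (Place K₀ (s34m_F K₀ (M * q * q))))
  (hγ : ∀ b ∈ s34x_ring (s34x_infRing (s34m_VV G φ M q hq hqM)) S₁,
    s36g_alpha M q b ∈ s34x_ring (s34x_infRing V) S₂)
  (𝔫 : Ideal (s34x_ring (s34x_infRing V) S₂)) [h𝔫 : 𝔫.IsPrime]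

omit [Field K₀] [Algebra ℚ K₀] [CharZero K₀] in
theorem s36m_mc_field_id {E : Type*} [Field E] (J X Ev : E) (h : J * X = Ev) (hE : Ev ≠ 0) :
    X * Ev⁻¹ = J⁻¹ := by
  have hJ : J ≠ 0 := fun h0 => hE (by rw [← h, h0, zero_mul])
  have hX : X ≠ 0 := fun h0 => hE (by rw [← h, h0, mul_zero])
  rw [← h, mul_inv_rev, ← mul_assoc, mul_inv_cancel₀ hX, one_mul]

/-- **`1/j₀ ∈ 𝔪(B_𝔫)`** from the cusp data of level `M q`. -/
theorem s36m_mc_z0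
    (x ε : s34x_ring (s34x_infRing (s34m_VV G φ M q hq hqM)) S₁)
    (hx : x ∈ s36q_pt (s34m_VV G φ M q hq hqM) V S₁ S₂ (s36g_alpha M q) hγ 𝔫)
    (hε : ε ∉ s36q_pt (s34m_VV G φ M q hq hqM) V S₁ S₂ (s36g_alpha M q) hγ 𝔫)
    (hjx : s18g_jF (K := K₀) (M * q) * (x : s34m_F K₀ (M * q)) = (ε : s34m_F K₀ (M * q))) :
    ∃ z₀ : Localization.AtPrime 𝔫, z₀ ∈ maximalIdeal (Localization.AtPrime 𝔫) ∧
      s34f_iota (s34x_infRing V) S₂ 𝔫 z₀ = (s18g_jF (K := K₀) (M * q * q))⁻¹ := by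
  have hcx : s36q_chartMap (s34m_VV G φ M q hq hqM) V S₁ S₂ (s36g_alpha M q) hγ x ∈ 𝔫 :=
    Ideal.mem_comap.mp hx
  have hcε : s36q_chartMap (s34m_VV G φ M q hq hqM) V S₁ S₂ (s36g_alpha M q) hγ ε ∉ 𝔫 :=
    fun h => hε (Ideal.mem_comap.mpr h)
  have hu : IsUnit (algebraMap _ (Localization.AtPrime 𝔫)
      (s36q_chartMap (s34m_VV G φ M q hq hqM) V S₁ S₂ (s36g_alpha M q) hγ ε)) :=
    IsLocalization.map_units (Localization.AtPrime 𝔫) (⟨_, hcε⟩ : 𝔫.primeCompl)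
  obtain ⟨v, hv⟩ := hu.exists_right_inv
  refine ⟨algebraMap _ (Localization.AtPrime 𝔫)
    (s36q_chartMap (s34m_VV G φ M q hq hqM) V S₁ S₂ (s36g_alpha M q) hγ x) * v,
    Ideal.mul_mem_right _ _
    ((IsLocalization.AtPrime.to_map_mem_maximal_iff (Localization.AtPrime 𝔫) 𝔫 _).mpr hcx), ?_⟩
  have h1 := congrArg (s34f_iota (s34x_infRing V) S₂ 𝔫) hv
  rw [map_mul, s34f_iota_algebraMap, map_one, s36q_chartMap_coe] at h1
  have hv' : s34f_iota (s34x_infRing V) S₂ 𝔫 v =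
      (s36g_alpha M q (ε : s34m_F K₀ (M * q)))⁻¹ := eq_inv_of_mul_eq_one_right h1
  rw [map_mul, s34f_iota_algebraMap, hv', s36q_chartMap_coe]
  have hε0 : (ε : s34m_F K₀ (M * q)) ≠ 0 := by
    intro h0
    apply hε
    have : ε = 0 := Subtype.ext h0
    rw [this]
    exact Ideal.zero_mem _
  have hj : s36g_alpha M q (s18g_jF (K := K₀) (M * q)) = s18g_jF (K := K₀) (M * q * q) :=
    s34m_alpha_jF (K₀ := K₀) (M * q) q
  have h2 := congrArg (s36g_alpha M q) hjx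
  rw [map_mul, hj] at h2
  exact s36m_mc_field_id _ _ _ h2 ((_root_.map_ne_zero (s36g_alpha M q)).mpr hε0)

/-- **REG at a cuspidal `V 1`-only point, `Z` discharged** (helper1's `s36b_mid_ratio_gen'`). -/
theorem s36m_mc_reg' [CharP κ q] (h2 : nuTwo M = 0) (h3 : nuThree M = 0)
    (hπ : Function.Surjective G.π)
    (w₀ : s34m_F K₀ (M * q)) [FFGen K₀ w₀]
    (hC : s36g_ValComap G φ M q hq hqM V)
    (hU : s36g_ValUnif G M q V (s36m_t (K₀ := K₀) M q))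
    (hRE : s36e_ValRedEis G φ M q hq hqM V)
    (hD₁ : s35f_Dict (s34m_VV G φ M q hq hqM) S₁) (hD₂ : s35f_Dict V S₂)
    (hϖ : s34x_const (s34x_infRing V) S₂ ((G.ϖ : G.A) : K₀)
      (s34x_inf_const_mem V G.A (s36b_const_mem G φ M q hq hqM hC) G.ϖ) ∈ 𝔫)
    (h1 : s36q_compThrough V S₂ 𝔫 1) (honly : ∀ k, s36q_compThrough V S₂ 𝔫 k → k = 1)
    (honly' : ∀ i, s36q_compThrough (s34m_VV G φ M q hq hqM) S₁
      (s36q_pt (s34m_VV G φ M q hq hqM) V S₁ S₂ (s36g_alpha M q) hγ 𝔫) i → i = true)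
    (u' w' : Localization.AtPrime
      (s36q_pt (s34m_VV G φ M q hq hqM) V S₁ S₂ (s36g_alpha M q) hγ 𝔫))
    (hm' : maximalIdeal (Localization.AtPrime
      (s36q_pt (s34m_VV G φ M q hq hqM) V S₁ S₂ (s36g_alpha M q) hγ 𝔫)) = Ideal.span {u', w'})
    (hw' : s34f_iota (s34x_infRing (s34m_VV G φ M q hq hqM)) S₁
      (s36q_pt (s34m_VV G φ M q hq hqM) V S₁ S₂ (s36g_alpha M q) hγ 𝔫) w' ∈
        (s34m_VV G φ M q hq hqM true).nonunits)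
    (hu' : s34f_iota (s34x_infRing (s34m_VV G φ M q hq hqM)) S₁
      (s36q_pt (s34m_VV G φ M q hq hqM) V S₁ S₂ (s36g_alpha M q) hγ 𝔫) u' ∉
        (s34m_VV G φ M q hq hqM true).nonunits)
    (hfrac : s36q_Frac (s34m_VV G φ M q hq hqM) V S₁ (s36g_alpha M q) true 1)
    (x ε : s34x_ring (s34x_infRing (s34m_VV G φ M q hq hqM)) S₁)
    (hx : x ∈ s36q_pt (s34m_VV G φ M q hq hqM) V S₁ S₂ (s36g_alpha M q) hγ 𝔫)
    (hε : ε ∉ s36q_pt (s34m_VV G φ M q hq hqM) V S₁ S₂ (s36g_alpha M q) hγ 𝔫)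
    (hjx : s18g_jF (K := K₀) (M * q) * (x : s34m_F K₀ (M * q)) = (ε : s34m_F K₀ (M * q)))
    (m : ℕ) (hm : m ≠ 0) :
    s36p_LocalReg V S₂ 𝔫 m := by
  obtain ⟨z₀, hz₀m, hz₀⟩ := s36m_mc_z0 G φ M q hq hqM V S₁ S₂ hγ 𝔫 x ε hx hε hjx
  obtain ⟨Z, -, hZ⟩ := s36b_mid_ratio_gen' G φ M q hq hqM hC hU S₂ 𝔫 hϖ z₀ hz₀m hz₀ h1
  exact s36m_mc_reg G φ M q hq hqM V S₁ S₂ hγ 𝔫 h2 h3 hπ w₀ hC hU hRE hD₁ hD₂ h1 honly honly'
    u' w' hm' hw' hu' hfrac x ε hx hε hjx Z hZ m hm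

end Gen

/-! ### The concrete frame -/

section Conc

variable {K₀ : Type} [Field K₀] [Algebra ℚ K₀] [CharZero K₀] {κ : Type} [Field κ]
  (G : s18g_GaussData K₀ κ) [IsDiscreteValuationRing G.A]
  (φ : K₀ →+* Kb) (M q : ℕ) [NeZero M] [NeZero q] (hq : q.Prime) (hqM : ¬ q ∣ M)
  [CharP κ q] [PerfectField κ]
  {V : Fin 3 → ValuationSubring (s34m_F K₀ (M * q * q))}

/-- **The Eisenstein contract for every valuation package** (`ϖ = q`). -/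
theorem s36m_hRE {t : s34m_F K₀ (M * q * q)} (hϖq : ((G.ϖ : G.A) : K₀) = (q : K₀))
    (hP : s36g_ValPkg G φ M q hq hqM V t) : s36e_ValRedEis G φ M q hq hqM V := by
  have hunr : ∃ u : G.A, IsUnit u ∧ ((q : ℕ) : G.A) = G.ϖ * u := by
    refine ⟨1, isUnit_one, ?_⟩
    rw [mul_one]
    apply Subtype.ext
    rw [hϖq]
    simp
  obtain ⟨V', hP', hE'⟩ := s36m_exists_pkg_eis G φ M q hq hqM hunr
  exact s36e_valRedEis_transport G φ M q hq hqM V V' hP.2.2.2.1 hP.2.2.2.2.1 hP'.1 hE'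

/-- the integer `q` lies in every prime of a chart ring containing `ϖ = q`. -/
theorem s36m_q_mem {𝓕 : Type*} [Field 𝓕] [Algebra K₀ 𝓕] {ι : Type*} (O : ι → ValuationSubring 𝓕)
    (S : Set (Place K₀ 𝓕)) (hϖq : ((G.ϖ : G.A) : K₀) = (q : K₀))
    (hc : algebraMap K₀ 𝓕 ((G.ϖ : G.A) : K₀) ∈ s34x_infRing O)
    (𝔪 : Ideal (s34x_ring (s34x_infRing O) S))
    (h : s34x_const (s34x_infRing O) S ((G.ϖ : G.A) : K₀) hc ∈ 𝔪) :
    (((q : ℤ) : ℤ) : s34x_ring (s34x_infRing O) S) ∈ 𝔪 := by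
  have : (((q : ℤ) : ℤ) : s34x_ring (s34x_infRing O) S) =
      s34x_const (s34x_infRing O) S ((G.ϖ : G.A) : K₀) hc := by
    apply Subtype.ext
    rw [s34x_const_coe, hϖq]
    simp
  rw [this]
  exact h

/-- **REG at the cuspidal `V 1`-only points of chart 1** (`α'(α x) ∈ 𝔫`; `x` of Hauptmodul type
with `a ≠ 0`, `P(0)` prime to `q`: the branches `t₂`, `t₃`). -/
theorem s36m_geoRegOnly_cusp (h2 : nuTwo M = 0) (h3 : nuThree M = 0)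
    (hπ : Function.Surjective G.π) (hϖq : ((G.ϖ : G.A) : K₀) = (q : K₀))
    (hP : s36g_ValPkg G φ M q hq hqM V (s36m_t (K₀ := K₀) M q))
    (x : s34m_F K₀ M)
    (hB : s35g_BaseData G φ M q hq hqM (heckeAlphaBar K₀ M q x))
    (hsat : ∀ Q : Place K₀ (s34m_F K₀ (M * q * q)),
      s36g_alpha M q (heckeAlphaBar K₀ M q x) ∈ Q.toValuationSubring ↔
        s36g_beta M q (heckeAlphaBar K₀ M q x) ∈ Q.toValuationSubring)
    (hFib : s36g_GeoFib G φ M q hq hqM hP.1 (heckeAlphaBar K₀ M q x) hB hsat)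
    (P : ℤ[X]) (a : ℕ) (ha : a ≠ 0)
    (r : s18g_jF (K := K₀) M * x ^ a = aeval x P) (hcop : IsCoprime (P.coeff 0) (q : ℤ))
    (m : ℕ) (hm : m ≠ 0)
    (𝔫 : Ideal (s34x_ring (L₀ := K₀) (s34x_infRing V)
      (s18_chart1 (s36g_alpha M q (heckeAlphaBar K₀ M q x)))))
    (h𝔫 : 𝔫.IsMaximal)
    (hϖ : s34x_const (s34x_infRing V)
      (s18_chart1 (L₀ := K₀) (s36g_alpha M q (heckeAlphaBar K₀ M q x))) ((G.ϖ : G.A) : K₀)
      (s34x_inf_const_mem V G.A (s36b_const_mem G φ M q hq hqM hP.1) G.ϖ) ∈ 𝔫)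
    (h1 : s36q_compThrough V
      (s18_chart1 (L₀ := K₀) (s36g_alpha M q (heckeAlphaBar K₀ M q x))) 𝔫 1)
    (honly : ∀ k, s36q_compThrough V
      (s18_chart1 (L₀ := K₀) (s36g_alpha M q (heckeAlphaBar K₀ M q x))) 𝔫 k → k = 1)
    (hcusp : ∃ b ∈ 𝔫, (b : s34m_F K₀ (M * q * q)) =
      s36g_alpha M q (heckeAlphaBar K₀ M q x)) :
    s36p_LocalReg V (s18_chart1 (L₀ := K₀) (s36g_alpha M q (heckeAlphaBar K₀ M q x))) 𝔫
      (h𝔫 := h𝔫.isPrime) m := by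
  haveI := h𝔫.isPrime
  have hC := hP.1
  have hU := hP.2.1
  have hR := hP.2.2.1
  have hRE := s36m_hRE G φ M q hq hqM hϖq hP
  obtain ⟨honly', u', w', hm', hw', hu'⟩ := s36e_geo_inputs_alpha G φ M q hq hqM hP
    (heckeAlphaBar K₀ M q x) hB hsat hFib hπ 1 (by decide) 𝔫 h𝔫 hϖ h1 honly
  have rq := s36m_hauptZ_level (K₀ := K₀) M q x P a r
  obtain ⟨x', ε, hjx, hdata⟩ := s36m_cuspData_zero (L₀ := K₀) (s34m_VV G φ M q hq hqM) P a ha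
    (s18g_jF (K := K₀) (M * q)) (heckeAlphaBar K₀ M q x) rq hB.2.2.1 (q : ℤ) hcop
  have hγ := s36p_chart1_alpha G φ M q hq hqM hC (heckeAlphaBar K₀ M q x) hB
  have hcm : algebraMap K₀ (s34m_F K₀ (M * q)) ((G.ϖ : G.A) : K₀) ∈
      s34x_infRing (s34m_VV G φ M q hq hqM) :=
    s34x_inf_const_mem (s34m_VV G φ M q hq hqM) G.A (s34c_const_mem_VV G φ M q hq hqM) G.ϖ
  -- `ϖ ∈ 𝔪'`
  have hϖ' : s34x_const (s34x_infRing (s34m_VV G φ M q hq hqM))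
      (s18_chart1 (L₀ := K₀) (heckeAlphaBar K₀ M q x)) ((G.ϖ : G.A) : K₀) hcm ∈
      s36q_pt (s34m_VV G φ M q hq hqM) V (s18_chart1 (L₀ := K₀) (heckeAlphaBar K₀ M q x))
        (s18_chart1 (L₀ := K₀) (s36g_alpha M q (heckeAlphaBar K₀ M q x))) (s36g_alpha M q)
        hγ 𝔫 := by
    rw [Ideal.mem_comap]
    convert hϖ using 1
    apply Subtype.ext
    rw [s36q_chartMap_coe, s34x_const_coe, s34x_const_coe]
    exact (heckeAlphaBar K₀ (M * q) q).commutes _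
  have hq' := s36m_q_mem G q (s34m_VV G φ M q hq hqM)
    (s18_chart1 (L₀ := K₀) (heckeAlphaBar K₀ M q x)) hϖq hcm _ hϖ'
  -- `w₁ ∈ 𝔪'`
  obtain ⟨b, hb, hbw⟩ := hcusp
  have hw₁ : heckeAlphaBar K₀ M q x ∈ s34x_ring (s34x_infRing (s34m_VV G φ M q hq hqM))
      (s18_chart1 (L₀ := K₀) (heckeAlphaBar K₀ M q x)) :=
    ⟨(s34x_mem_infRing _ _).mpr hB.2.2.1, fun Q hQ => hQ⟩
  have hw₁' : (⟨heckeAlphaBar K₀ M q x, hw₁⟩ : s34x_ring (s34x_infRing (s34m_VV G φ M q hq hqM))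
      (s18_chart1 (L₀ := K₀) (heckeAlphaBar K₀ M q x))) ∈
      s36q_pt (s34m_VV G φ M q hq hqM) V (s18_chart1 (L₀ := K₀) (heckeAlphaBar K₀ M q x))
        (s18_chart1 (L₀ := K₀) (s36g_alpha M q (heckeAlphaBar K₀ M q x))) (s36g_alpha M q)
        hγ 𝔫 := by
    rw [Ideal.mem_comap]
    convert hb using 1
    apply Subtype.ext
    rw [s36q_chartMap_coe, hbw]
  obtain ⟨hx, hε⟩ := hdata _ (Ideal.comap_isPrime _ _) hq' ⟨_, hw₁', rfl⟩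
  haveI : FFGen K₀ (heckeAlphaBar K₀ M q x) := hB.2.1
  exact s36m_mc_reg' G φ M q hq hqM V _ _ hγ 𝔫 h2 h3 hπ (heckeAlphaBar K₀ M q x) hC hU hRE
    (s36e_geo_dict₁ G φ M q hq hqM _ hB) (s36e_geo_dict₂ G φ M q hq hqM hP _ hB) hϖ h1 honly
    honly' u' w' hm' hw' hu'
    (s36q_frac_alpha_1 G φ M q hq hqM _ hC hR hB.2.2.2.2.2.2.2.1 hπ) x' ε hx hε hjx m hm

/-- the integral Hauptmodul relation from helper8's `s36g_BaseFull`. -/
theorem s36m_hauptZ_of_baseFull (x : s34m_F K₀ M) (hx : x ∈ s34m_Vinf G M)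
    (hBF : s36g_BaseFull G φ M q hq hqM x hx) : s36m_HauptZ M q x := by
  obtain ⟨-, -, -, -, -, hcoe, -⟩ := hBF
  rcases hcoe with ⟨-, rfl⟩ | ⟨rfl, -, h⟩ | ⟨rfl, -, h⟩
  · exact s36m_hauptZ_jF M q
  · exact s36m_hauptZ_t2 M x h
  · exact s36m_hauptZ_t3 M x h

/-- **REG at the cuspidal `V 1`-only points of chart 1, from `s36g_BaseFull`** (`q < 5`, i.e. the
branches `t₂`, `t₃`; for `5 ≤ q` chart 1 of `j` contains no cusp). -/
theorem s36m_geoRegOnly_cusp_of_baseFull (h2 : nuTwo M = 0) (h3 : nuThree M = 0)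
    (hπ : Function.Surjective G.π) (hϖq : ((G.ϖ : G.A) : K₀) = (q : K₀))
    (hP : s36g_ValPkg G φ M q hq hqM V (s36m_t (K₀ := K₀) M q))
    (x : s34m_F K₀ M) (hx : x ∈ s34m_Vinf G M) (hBF : s36g_BaseFull G φ M q hq hqM x hx)
    (hFib : s36g_GeoFib G φ M q hq hqM hP.1 (heckeAlphaBar K₀ M q x) hBF.1 hBF.2.1)
    (hq5 : ¬ 5 ≤ q) (m : ℕ) (hm : m ≠ 0)
    (𝔫 : Ideal (s34x_ring (L₀ := K₀) (s34x_infRing V)
      (s18_chart1 (s36g_alpha M q (heckeAlphaBar K₀ M q x)))))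
    (h𝔫 : 𝔫.IsMaximal)
    (hϖ : s34x_const (s34x_infRing V)
      (s18_chart1 (L₀ := K₀) (s36g_alpha M q (heckeAlphaBar K₀ M q x))) ((G.ϖ : G.A) : K₀)
      (s34x_inf_const_mem V G.A (s36b_const_mem G φ M q hq hqM hP.1) G.ϖ) ∈ 𝔫)
    (h1 : s36q_compThrough V
      (s18_chart1 (L₀ := K₀) (s36g_alpha M q (heckeAlphaBar K₀ M q x))) 𝔫 1)
    (honly : ∀ k, s36q_compThrough V
      (s18_chart1 (L₀ := K₀) (s36g_alpha M q (heckeAlphaBar K₀ M q x))) 𝔫 k → k = 1)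
    (hcusp : ∃ b ∈ 𝔫, (b : s34m_F K₀ (M * q * q)) =
      s36g_alpha M q (heckeAlphaBar K₀ M q x)) :
    s36p_LocalReg V (s18_chart1 (L₀ := K₀) (s36g_alpha M q (heckeAlphaBar K₀ M q x))) 𝔫
      (h𝔫 := h𝔫.isPrime) m := by
  obtain ⟨hB, hsat, -, -, -, hcoe, -⟩ := id hBF
  rcases hcoe with ⟨h5, -⟩ | ⟨rfl, -, h⟩ | ⟨rfl, -, h⟩
  · exact absurd h5 hq5
  · obtain ⟨P, a, -, -, r, hcop⟩ : ∃ (P : ℤ[X]) (a : ℕ), P.Monic ∧ P.natDegree = a + 1 ∧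
        s18g_jF (K := K₀) M * x ^ a = aeval x P ∧ (a ≠ 0 ∧ IsCoprime (P.coeff 0) ((3 : ℕ) : ℤ)) :=
      s36m_hauptZ_t2' M x h
    exact s36m_geoRegOnly_cusp G φ M 3 hq hqM h2 h3 hπ hϖq hP x hB hsat hFib P a hcop.1 r hcop.2
      m hm 𝔫 h𝔫 hϖ h1 honly hcusp
  · obtain ⟨P, a, -, -, r, hcop⟩ : ∃ (P : ℤ[X]) (a : ℕ), P.Monic ∧ P.natDegree = a + 1 ∧
        s18g_jF (K := K₀) M * x ^ a = aeval x P ∧ (a ≠ 0 ∧ IsCoprime (P.coeff 0) ((2 : ℕ) : ℤ)) :=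
      s36m_hauptZ_t3' M x h
    exact s36m_geoRegOnly_cusp G φ M 2 hq hqM h2 h3 hπ hϖq hP x hB hsat hFib P a hcop.1 r hcop.2
      m hm 𝔫 h𝔫 hϖ h1 honly hcusp

end Conc

end Fermat.Agent.Lib.S36
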