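/-
S36 mega-project, sub-layer (R-mid), ELLIPTIC / GENERAL-COORDINATE case (helper3, prefix `s36el_`),
part 1: **the tail of helper2's `s36e_mid_reg` as a lemma** and the Eisenstein congruence for an
arbitrary function `x ∈ V_M`.

Frame of `REisMid.lean`: `V : Fin 3 → ValuationSubring F₂`, `γ = α' = s36g_alpha M q`,
`O₁ = s34m_VV` (`true ↦ V'_∞`), charts `S₁`, `S₂` with `α'(B₁) ⊆ B₂`, `𝔫` a prime of `B₂` through
which only `V 1` passes, smooth image point `𝔪'(B₁)_{𝔪'} = (u', w')` on `C'_∞`.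

* `s36el_mid_reg_core` : for ANY `ℓ ∈ B_𝔫` generating the non-units of `V 1` with
  `ℓ^(q-1)/ϖ₂ ≡ z₁` modulo `𝔪(V 1)` for a unit `z₁` of `B_𝔫`: the local package `hLE ∧ hℓ ∧ hN`
  (helper2's conclusion of `s36e_mid_reg`);
* `s36el_eis_cong` : from the Eisenstein contract `s36e_ValRedEis` at an arbitrary `x ∈ V_M`:
  `D_x^(q-1)/ϖ₂ ≡ c · α'(Θ)` modulo `𝔪(V 1)` for every `Θ ∈ V'_∞` with
  `red_∞ Θ = (θ x̄)^(q-1)`, `D_x = β'(β x) - α'(α x)`;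
* `s36el_Dx_gen` : `D_x` generates the non-units of `V 1` when `θ x̄ ≠ 0`.
-/
import Fermat.Agent.Lib.S36.REisMid

set_option autoImplicit false
set_option linter.unusedSectionVars false
set_option linter.style.haveILetI false
set_option maxHeartbeats 800000

noncomputable section

namespace Fermat.Agent.Lib.S36

open ModularCurve AlgebraicCurve HahnSeries Fermat.Agent.Lib.FF Fermat.Agent.Lib.S18
  Fermat.Agent.Lib.S37 Fermat.Agent.Lib.S34 Fermat.Agent.Lib.S35 IsLocalRing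

local notation "Kb" => AlgebraicClosure ℚ

variable {K₀ : Type} [Field K₀] [Algebra ℚ K₀] [CharZero K₀] {κ : Type} [Field κ]
  (G : s18g_GaussData K₀ κ) [IsDiscreteValuationRing G.A]
  (φ : K₀ →+* Kb) (M q : ℕ) [NeZero M] [NeZero q] (hq : q.Prime) (hqM : ¬ q ∣ M)
  (V : Fin 3 → ValuationSubring (s34m_F K₀ (M * q * q)))

variable (S₁ : Set (Place K₀ (s34m_F K₀ (M * q)))) (S₂ : Set (Place K₀ (s34m_F K₀ (M * q * q))))
  (hγ : ∀ b ∈ s34x_ring (s34x_infRing (s34m_VV G φ M q hq hqM)) S₁,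
    s36g_alpha M q b ∈ s34x_ring (s34x_infRing V) S₂)
  (𝔫 : Ideal (s34x_ring (s34x_infRing V) S₂)) [h𝔫 : 𝔫.IsPrime]

/-- **The local package at a point on `C_mid` only, from ANY Eisenstein generator `ℓ`.** -/
theorem s36el_mid_reg_core
    (hC : s36g_ValComap G φ M q hq hqM V)
    (hU : s36g_ValUnif G M q V (s36m_t (K₀ := K₀) M q))
    (hD₁ : s35f_Dict (s34m_VV G φ M q hq hqM) S₁) (hD₂ : s35f_Dict V S₂)
    (h1 : s36q_compThrough V S₂ 𝔫 1) (honly : ∀ k, s36q_compThrough V S₂ 𝔫 k → k = 1)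
    (u' w' : Localization.AtPrime
      (s36q_pt (s34m_VV G φ M q hq hqM) V S₁ S₂ (s36g_alpha M q) hγ 𝔫))
    (hm' : maximalIdeal (Localization.AtPrime
      (s36q_pt (s34m_VV G φ M q hq hqM) V S₁ S₂ (s36g_alpha M q) hγ 𝔫)) = Ideal.span {u', w'})
    (hw' : s34f_iota (s34x_infRing (s34m_VV G φ M q hq hqM)) S₁
      (s36q_pt (s34m_VV G φ M q hq hqM) V S₁ S₂ (s36g_alpha M q) hγ 𝔫) w' ∈
        (s34m_VV G φ M q hq hqM true).nonunits)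
    (hu' : s34f_iota (s34x_infRing (s34m_VV G φ M q hq hqM)) S₁
      (s36q_pt (s34m_VV G φ M q hq hqM) V S₁ S₂ (s36g_alpha M q) hγ 𝔫) u' ∉
        (s34m_VV G φ M q hq hqM true).nonunits)
    (hfrac : s36q_Frac (s34m_VV G φ M q hq hqM) V S₁ (s36g_alpha M q) true 1)
    (ℓ : Localization.AtPrime 𝔫)
    (hℓj : s34f_iota (s34x_infRing V) S₂ 𝔫 ℓ ∈ (V 1).nonunits)
    (hgen : ∀ y ∈ (V 1).nonunits, ∃ c ∈ V 1, y = s34f_iota (s34x_infRing V) S₂ 𝔫 ℓ * c)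
    (z₁ : Localization.AtPrime 𝔫) (hz₁u : IsUnit z₁)
    (hcong' : s34f_iota (s34x_infRing V) S₂ 𝔫 ℓ ^ (q - 1) / s34m_unif G (M * q * q) -
      s34f_iota (s34x_infRing V) S₂ 𝔫 z₁ ∈ (V 1).nonunits) :
    (∀ Q ∈ S₂, s34f_through (s34x_infRing V) S₂ 𝔫 Q → s34f_LocEq (s34x_infRing V) S₂ 𝔫 Q) ∧
    (∀ i, s36q_compThrough V S₂ 𝔫 i → ∃ ℓ' : s34m_F K₀ (M * q * q), ℓ' ≠ 0 ∧
      (∀ U : s34m_F K₀ (M * q * q), U ≠ 0 →
        ∃ (n : ℤ) (v : s34m_F K₀ (M * q * q)), v ∈ V i ∧ v⁻¹ ∈ V i ∧ U = ℓ' ^ n * v) ∧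
      (∀ k, k ≠ i → s36q_compThrough V S₂ 𝔫 k → ℓ' ∈ V k ∧ ℓ'⁻¹ ∈ V k) ∧
      (∀ Q ∈ S₂, s34f_through (s34x_infRing V) S₂ 𝔫 Q → Q.ord ℓ' = 0)) ∧
    (∀ m : ℕ, m ≠ 0 → ∀ i, s36q_compThrough V S₂ 𝔫 i → ∀ y ∈ V i,
      ∀ a : Localization.AtPrime 𝔫, IsUnit a →
      y ^ m - s34f_iota (s34x_infRing V) S₂ 𝔫 a ∈ (V i).nonunits →
      ∃ s : Localization.AtPrime 𝔫, y - s34f_iota (s34x_infRing V) S₂ 𝔫 s ∈ (V i).nonunits) := by
  classical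
  obtain ⟨hN₁, -, -, F3₁⟩ := hD₁
  obtain ⟨hN₂, F1₂, F2₂, F3₂⟩ := hD₂
  haveI := hN₁
  haveI := hN₂
  set O₁ := s34m_VV G φ M q hq hqM with hO₁
  set γ : s34m_F K₀ (M * q) →+* s34m_F K₀ (M * q * q) := s36g_alpha M q with hγdef
  set ϖ₂ : s34m_F K₀ (M * q * q) := s34m_unif G (M * q * q) with hϖ₂
  have hcomap : ∀ x : s34m_F K₀ (M * q), γ x ∈ V 1 ↔ x ∈ O₁ true :=
    fun x => (s36b_alpha_mem_iff G φ M q hq hqM hC x).2.1
  have hA : s36q_Arch V := s36b_arch G M q hq hU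
  set ϖB : s34x_ring (s34x_infRing V) S₂ := s34x_const (s34x_infRing V) S₂ ((G.ϖ : G.A) : K₀)
    (s34x_inf_const_mem V G.A (s36b_const_mem G φ M q hq hqM hC) G.ϖ) with hϖB
  have hϖ𝔫 : ϖB ∈ 𝔫 := h1 ϖB (hU.1 1)
  have hq1 : q - 1 ≠ 0 := by have := hq.two_le; omega
  have hϖ0 : ϖ₂ ≠ 0 := s34m_unif_ne_zero G (M * q * q)
  have hϖord : ∀ Q ∈ S₂, Q.ord ϖ₂ = 0 := fun Q _ =>
    ffh_ord_algebraMap Q (s18g_unifK_ne_zero G)
  have hϖBcoe : (ϖB : s34m_F K₀ (M * q * q)) = ϖ₂ := rfl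
  obtain ⟨-, -, -, -, -, hw0, -, hord, -⟩ := s36e_KD O₁ V S₁ S₂ γ hγ 𝔫 true 1 hcomap hA h1
    honly F3₂ u' w' hm' hw' hu' hfrac ℓ hℓj hgen (q - 1) hq1 ϖ₂ hϖ0 hϖord z₁ hz₁u hcong'
  have hℓ0 : s34f_iota (s34x_infRing V) S₂ 𝔫 ℓ ≠ 0 := by
    intro h
    apply hw0
    apply s34f_iota_injective (s34x_infRing V) S₂ 𝔫
    rw [h, map_zero]
  refine ⟨?_, s36e_branch V S₂ 𝔫 hA 1 honly ℓ hℓ0 hℓj hgen hord, ?_⟩
  · intro Q hQS hth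
    exact s36e_locEq O₁ V S₁ S₂ γ hγ 𝔫 true 1 hcomap hA h1 honly F3₂ u' w' hm' hw' hu' hfrac ℓ hℓj
      hgen (q - 1) hq1 ϖ₂ hϖ0 hϖord z₁ hz₁u hcong' Q hQS hth ϖB hϖ𝔫
      (by rw [hϖBcoe]; exact hϖ0) (by rw [hϖBcoe]; exact hϖord Q hQS) (F1₂ Q hQS) (F2₂ Q hQS)
  · intro m hm k hk y hy a ha hya
    have hk1 := honly k hk
    subst hk1
    obtain ⟨s, -, hs⟩ := s36e_normal O₁ V S₁ S₂ γ hγ 𝔫 true 1 hcomap h1 u' w' hm' hw' hfrac m hm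
      y hy a ha hya
    exact ⟨s, hs⟩

/-! ### The Eisenstein congruence at an arbitrary `x ∈ V_M` -/

include hq hqM in
/-- **The Eisenstein congruence for `D_x = β'(β x) - α'(α x)`**, `x ∈ V_M` arbitrary. -/
theorem s36el_eis_cong (hC : s36g_ValComap G φ M q hq hqM V)
    (hRE : s36e_ValRedEis G φ M q hq hqM V) (hπ : Function.Surjective G.π)
    (x : s34m_Vinf G M)
    (Θ : s34m_F K₀ (M * q)) (hΘV : Θ ∈ s34m_Vinf G (M * q))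
    (hΘr : s34m_redInf G (M * q) ⟨Θ, hΘV⟩ = ffd_theta (s34m_redInf G M x) ^ (q - 1)) :
    ∃ c : G.A, G.π c ≠ 0 ∧
      (s36g_beta M q (heckeBetaBar K₀ M q x) - s36g_alpha M q (heckeAlphaBar K₀ M q x)) ^ (q - 1) /
          s34m_unif G (M * q * q) -
        algebraMap K₀ (s34m_F K₀ (M * q * q)) (c : K₀) * s36g_alpha M q Θ ∈ (V 1).nonunits := by
  obtain ⟨r, hr1, -, -, hr4, -, -, -, c₀, hc₀, hE⟩ := hRE
  obtain ⟨c, hc⟩ := hπ c₀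
  refine ⟨c, by rw [hc]; exact hc₀, ?_⟩
  obtain ⟨-, hXV, hrX⟩ := hE x
  have hmem : ∀ y : s34m_F K₀ (M * q), s36g_alpha M q y ∈ V 1 ↔ y ∈ s34m_Vinf G (M * q) :=
    fun y => (s36b_alpha_mem_iff G φ M q hq hqM hC y).2.1
  -- `Y = c · α' Θ ∈ V 1`
  set c₁ : s34m_F K₀ (M * q) := algebraMap K₀ (s34m_F K₀ (M * q)) (c : K₀) with hc₁
  have hc₁V : c₁ ∈ s34m_Vinf G (M * q) :=
    (s18g_algebraMap_mem_V_iff G _ (s34m_hF G (M * q)) _).mpr c.2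
  have hαc : s36g_alpha M q c₁ = algebraMap K₀ (s34m_F K₀ (M * q * q)) (c : K₀) :=
    (heckeAlphaBar K₀ (M * q) q).commutes _
  have hcV : algebraMap K₀ (s34m_F K₀ (M * q * q)) (c : K₀) ∈ V 1 := by
    rw [← hαc]; exact (hmem c₁).mpr hc₁V
  have hrc : r 1 ⟨algebraMap K₀ (s34m_F K₀ (M * q * q)) (c : K₀), hcV⟩ =
      HahnSeries.C c₀ := by
    have h := hr4 ⟨c₁, hc₁V⟩ (by rw [hαc]; exact hcV)
    have h2 : s34m_redInf G (M * q) ⟨c₁, hc₁V⟩ = HahnSeries.C (G.π c) := by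
      have e : ((c₁ : s34m_F K₀ (M * q)) : LaurentSeries K₀) = HahnSeries.C (c : K₀) :=
        s18g_coe_algebraMap _ _
      rw [s34m_redInf_apply, ← s18g_red_C]
      congr 1
      exact Subtype.ext e
    rw [h2, hc] at h
    rw [← h]
    congr 1
  have hΘ1 : s36g_alpha M q Θ ∈ V 1 := (hmem Θ).mpr hΘV
  have hrΘ : r 1 ⟨s36g_alpha M q Θ, hΘ1⟩ = s34m_redInf G (M * q) ⟨Θ, hΘV⟩ := hr4 ⟨Θ, hΘV⟩ hΘ1
  have hYV : algebraMap K₀ (s34m_F K₀ (M * q * q)) (c : K₀) * s36g_alpha M q Θ ∈ V 1 :=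
    (V 1).mul_mem _ _ hcV hΘ1
  have hrY : r 1 ⟨_, hYV⟩ = HahnSeries.C c₀ * s34m_redInf G (M * q) ⟨Θ, hΘV⟩ := by
    have : (⟨_, hYV⟩ : V 1) = ⟨_, hcV⟩ * ⟨_, hΘ1⟩ := rfl
    rw [this, map_mul, hrc, hrΘ]
  have hdV : (s36g_beta M q (heckeBetaBar K₀ M q x) - s36g_alpha M q (heckeAlphaBar K₀ M q x)) ^
        (q - 1) / s34m_unif G (M * q * q) -
      algebraMap K₀ (s34m_F K₀ (M * q * q)) (c : K₀) * s36g_alpha M q Θ ∈ V 1 :=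
    sub_mem hXV hYV
  have hd0 : r 1 ⟨_, hdV⟩ = 0 := by
    have : (⟨_, hdV⟩ : V 1) = ⟨_, hXV⟩ - ⟨_, hYV⟩ := rfl
    rw [this, map_sub, hrX, hrY, hΘr, sub_self]
  exact (hr1 1 ⟨_, hdV⟩).mp hd0

include hq in
/-- **`D_x` generates the non-units of `V 1`** when `θ x̄ ≠ 0`. -/
theorem s36el_Dx_gen (hU : s36g_ValUnif G M q V (s36m_t (K₀ := K₀) M q))
    (hRE : s36e_ValRedEis G φ M q hq hqM V)
    (x : s34m_Vinf G M) (hθ : ffd_theta (s34m_redInf G M x) ≠ 0) :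
    (s36g_beta M q (heckeBetaBar K₀ M q x) - s36g_alpha M q (heckeAlphaBar K₀ M q x)) ∈
        (V 1).nonunits ∧
    ∀ y ∈ (V 1).nonunits, ∃ c ∈ V 1,
      y = (s36g_beta M q (heckeBetaBar K₀ M q x) - s36g_alpha M q (heckeAlphaBar K₀ M q x)) * c := by
  obtain ⟨r, hr1, -, -, -, -, -, -, c₀, hc₀, hE⟩ := hRE
  obtain ⟨hDnu, hXV, hrX⟩ := hE x
  refine ⟨hDnu, ?_⟩
  set Dx : s34m_F K₀ (M * q * q) :=
    s36g_beta M q (heckeBetaBar K₀ M q x) - s36g_alpha M q (heckeAlphaBar K₀ M q x) with hDx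
  set ϖ₂ : s34m_F K₀ (M * q * q) := s34m_unif G (M * q * q) with hϖ₂
  set T : s34m_F K₀ (M * q * q) := s36m_t (K₀ := K₀) M q with hT
  have hq1 : q - 1 ≠ 0 := by have := hq.two_le; omega
  -- `X = D_x^(q-1)/ϖ₂` is a unit of `V 1`
  have hX0 : r 1 ⟨Dx ^ (q - 1) / ϖ₂, hXV⟩ ≠ 0 := by
    rw [hrX]
    refine mul_ne_zero ?_ (pow_ne_zero _ hθ)
    rw [Ne, map_eq_zero]
    exact hc₀
  have hXnu : Dx ^ (q - 1) / ϖ₂ ∉ (V 1).nonunits := fun h => hX0 ((hr1 1 ⟨_, hXV⟩).mpr h)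
  have hXval : (V 1).valuation (Dx ^ (q - 1) / ϖ₂) = 1 := by
    have h1 : (V 1).valuation (Dx ^ (q - 1) / ϖ₂) ≤ 1 := ((V 1).valuation_le_one_iff _).mpr hXV
    have h2 : ¬ (V 1).valuation (Dx ^ (q - 1) / ϖ₂) < 1 := fun h => hXnu h
    exact le_antisymm h1 (not_lt.mp h2)
  obtain ⟨-, -, -, hTnu, hTgen, ⟨u, hu, hu', hte⟩, -⟩ := hU
  have hϖ0 : ϖ₂ ≠ 0 := s34m_unif_ne_zero G (M * q * q)
  have huval : (V 1).valuation u = 1 := by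
    have h1 : (V 1).valuation u ≤ 1 := ((V 1).valuation_le_one_iff _).mpr hu
    have h2 : (V 1).valuation u⁻¹ ≤ 1 := ((V 1).valuation_le_one_iff _).mpr hu'
    rw [map_inv₀] at h2
    by_cases h0 : (V 1).valuation u = 0
    · exfalso
      rw [map_eq_zero] at h0
      rw [h0, zero_mul] at hte
      exact hϖ0 hte
    · exact le_antisymm h1 ((inv_le_one₀ (zero_lt_iff.mpr h0)).mp h2)
  -- valuations: `v(D_x)^(q-1) = v(ϖ₂) = v(T)^(q-1)`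
  have hv1 : (V 1).valuation Dx ^ (q - 1) = (V 1).valuation ϖ₂ := by
    have := hXval
    rw [map_div₀, map_pow] at this
    have hϖv : (V 1).valuation ϖ₂ ≠ 0 := by
      rw [Ne, map_eq_zero]; exact hϖ0
    exact (div_eq_one_iff_eq hϖv).mp this
  have hv2 : (V 1).valuation ϖ₂ = (V 1).valuation T ^ (q - 1) := by
    rw [hϖ₂, hte, map_mul, map_pow, huval, one_mul]
  have hv3 : (V 1).valuation Dx = (V 1).valuation T := by
    have h := hv1.trans hv2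
    exact (pow_left_inj₀ zero_le zero_le hq1).mp h
  have hT0 : T ≠ 0 := by
    intro h0
    rw [h0, zero_pow hq1, mul_zero] at hte
    exact hϖ0 hte
  have hD0 : Dx ≠ 0 := by
    intro h0
    rw [h0, map_zero] at hv3
    exact hT0 ((map_eq_zero _).mp hv3.symm)
  intro y hy
  obtain ⟨z, hz, e⟩ := hTgen y hy
  refine ⟨T / Dx * z, (V 1).mul_mem _ _ ?_ hz, ?_⟩
  · rw [← (V 1).valuation_le_one_iff, map_div₀, hv3, div_self]
    rw [Ne, map_eq_zero]; exact hT0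
  · rw [e]
    field_simp
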