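/-
S36 mega-project, sub-layer (R-mid), ELLIPTIC / GENERAL-COORDINATE case (helper3, prefix `s36el_`),
part 6: **REGULARITY AT A `V 1`-ONLY POINT FROM A COORDINATE `x` AND ITS FUNCTION `Θ_x`** (generic
assembly, any charts `S₁`, `S₂`, any `q`).

Frame of `REisMid.lean` / `REllCore.lean`.  Data: `x ∈ V_M` with `θ x̄ ≠ 0`, `ℓ ∈ B_𝔫` with
`ι ℓ = D_x = β'(β x) - α'(α x)`, `Θ ∈ V'_∞` a unit with `red_∞ Θ = (θ x̄)^(q-1)` and `ord_Q Θ = 0` at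
the places of the chart `S₁` through the image point `𝔪' = α'⁻¹ 𝔫`.  Then helper2's conclusion of
`s36e_mid_reg` holds at `𝔫` — WITHOUT `hpl` (`s36el_mid_reg_of_theta`), and `s36p_LocalReg`
(`s36el_mid_localReg_of_theta`).
-/
import Fermat.Agent.Lib.S36.REllCore
import Fermat.Agent.Lib.S36.PCase

set_option autoImplicit false
set_option linter.unusedSectionVars false
set_option linter.style.haveILetI false
set_option maxHeartbeats 800000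

noncomputable section

namespace Fermat.Agent.Lib.S36

open ModularCurve AlgebraicCurve HahnSeries Fermat.Agent.Lib.FF Fermat.Agent.Lib.S18
  Fermat.Agent.Lib.S37 Fermat.Agent.Lib.S34 Fermat.Agent.Lib.S35 IsLocalRing

local notation "Kb" => AlgebraicClosure ℚ

variable {K₀ : Type} [Field K₀] [Algebra ℚ K₀] [CharZero K₀] {κ : Type} [Field κ]
  (G : s18g_GaussData K₀ κ) [IsDiscreteValuationRing G.A]
  (φ : K₀ →+* Kb) (M q : ℕ) [NeZero M] [NeZero q] (hq : q.Prime) (hqM : ¬ q ∣ M)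
  (V : Fin 3 → ValuationSubring (s34m_F K₀ (M * q * q)))

variable (S₁ : Set (Place K₀ (s34m_F K₀ (M * q)))) (S₂ : Set (Place K₀ (s34m_F K₀ (M * q * q))))
  (hγ : ∀ b ∈ s34x_ring (s34x_infRing (s34m_VV G φ M q hq hqM)) S₁,
    s36g_alpha M q b ∈ s34x_ring (s34x_infRing V) S₂)
  (𝔫 : Ideal (s34x_ring (s34x_infRing V) S₂)) [h𝔫 : 𝔫.IsPrime]

/-- **Regularity at a `V 1`-only point from a coordinate `x` and its function `Θ_x`.** -/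
theorem s36el_mid_reg_of_theta (hπ : Function.Surjective G.π)
    (hC : s36g_ValComap G φ M q hq hqM V)
    (hU : s36g_ValUnif G M q V (s36m_t (K₀ := K₀) M q))
    (hRE : s36e_ValRedEis G φ M q hq hqM V)
    (hD₁ : s35f_Dict (s34m_VV G φ M q hq hqM) S₁) (hD₂ : s35f_Dict V S₂)
    (h1 : s36q_compThrough V S₂ 𝔫 1) (honly : ∀ k, s36q_compThrough V S₂ 𝔫 k → k = 1)
    (honly' : ∀ i, s36q_compThrough (s34m_VV G φ M q hq hqM) S₁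
      (s36q_pt (s34m_VV G φ M q hq hqM) V S₁ S₂ (s36g_alpha M q) hγ 𝔫) i → i = true)
    (u' w' : Localization.AtPrime
      (s36q_pt (s34m_VV G φ M q hq hqM) V S₁ S₂ (s36g_alpha M q) hγ 𝔫))
    (hm' : maximalIdeal (Localization.AtPrime
      (s36q_pt (s34m_VV G φ M q hq hqM) V S₁ S₂ (s36g_alpha M q) hγ 𝔫)) = Ideal.span {u', w'})
    (hw' : s34f_iota (s34x_infRing (s34m_VV G φ M q hq hqM)) S₁
      (s36q_pt (s34m_VV G φ M q hq hqM) V S₁ S₂ (s36g_alpha M q) hγ 𝔫) w' ∈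
        (s34m_VV G φ M q hq hqM true).nonunits)
    (hu' : s34f_iota (s34x_infRing (s34m_VV G φ M q hq hqM)) S₁
      (s36q_pt (s34m_VV G φ M q hq hqM) V S₁ S₂ (s36g_alpha M q) hγ 𝔫) u' ∉
        (s34m_VV G φ M q hq hqM true).nonunits)
    (hfrac : s36q_Frac (s34m_VV G φ M q hq hqM) V S₁ (s36g_alpha M q) true 1)
    (x : s34m_Vinf G M) (hxθ : ffd_theta (s34m_redInf G M x) ≠ 0)
    (ℓ : Localization.AtPrime 𝔫)
    (hℓ : s34f_iota (s34x_infRing V) S₂ 𝔫 ℓ =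
      s36g_beta M q (heckeBetaBar K₀ M q x) - s36g_alpha M q (heckeAlphaBar K₀ M q x))
    (Θ : s34m_F K₀ (M * q)) (hΘ0 : Θ ≠ 0) (hΘV' : Θ⁻¹ ∈ s34m_Vinf G (M * q))
    (hΘV : Θ ∈ s34m_Vinf G (M * q))
    (hΘr : s34m_redInf G (M * q) ⟨Θ, hΘV⟩ = ffd_theta (s34m_redInf G M x) ^ (q - 1))
    (hΘord : ∀ Q ∈ S₁, s34f_through (s34x_infRing (s34m_VV G φ M q hq hqM)) S₁
        (s36q_pt (s34m_VV G φ M q hq hqM) V S₁ S₂ (s36g_alpha M q) hγ 𝔫) Q → Q.ord Θ = 0) :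
    (∀ Q ∈ S₂, s34f_through (s34x_infRing V) S₂ 𝔫 Q → s34f_LocEq (s34x_infRing V) S₂ 𝔫 Q) ∧
    (∀ i, s36q_compThrough V S₂ 𝔫 i → ∃ ℓ' : s34m_F K₀ (M * q * q), ℓ' ≠ 0 ∧
      (∀ U : s34m_F K₀ (M * q * q), U ≠ 0 →
        ∃ (n : ℤ) (v : s34m_F K₀ (M * q * q)), v ∈ V i ∧ v⁻¹ ∈ V i ∧ U = ℓ' ^ n * v) ∧
      (∀ k, k ≠ i → s36q_compThrough V S₂ 𝔫 k → ℓ' ∈ V k ∧ ℓ'⁻¹ ∈ V k) ∧
      (∀ Q ∈ S₂, s34f_through (s34x_infRing V) S₂ 𝔫 Q → Q.ord ℓ' = 0)) ∧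
    (∀ m : ℕ, m ≠ 0 → ∀ i, s36q_compThrough V S₂ 𝔫 i → ∀ y ∈ V i,
      ∀ a : Localization.AtPrime 𝔫, IsUnit a →
      y ^ m - s34f_iota (s34x_infRing V) S₂ 𝔫 a ∈ (V i).nonunits →
      ∃ s : Localization.AtPrime 𝔫, y - s34f_iota (s34x_infRing V) S₂ 𝔫 s ∈ (V i).nonunits) := by
  classical
  have hD₁' := hD₁
  obtain ⟨hN₁, -, -, F3₁⟩ := hD₁'
  haveI := hN₁
  set O₁ := s34m_VV G φ M q hq hqM with hO₁
  set γ : s34m_F K₀ (M * q) →+* s34m_F K₀ (M * q * q) := s36g_alpha M q with hγdef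
  set 𝔪' := s36q_pt O₁ V S₁ S₂ γ hγ 𝔫 with h𝔪'
  -- `Θ` is a unit of `(B₁)_{𝔪'}`
  obtain ⟨zΘ, hzΘu, hzΘ⟩ := s36q_exists_unit_iota_eq O₁ S₁ 𝔪' (s36e_arch_VV G φ M q hq hqM) Θ hΘ0
    (fun i hi => by rw [honly' i hi]; exact ⟨hΘV, hΘV'⟩) hΘord (F3₁ Θ hΘ0)
  -- the Eisenstein congruence
  obtain ⟨c, hc0, hcong⟩ := s36el_eis_cong G φ M q hq hqM V hC hRE hπ x Θ hΘV hΘr
  -- the constants
  set ϖB : s34x_ring (s34x_infRing V) S₂ := s34x_const (s34x_infRing V) S₂ ((G.ϖ : G.A) : K₀)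
    (s34x_inf_const_mem V G.A (s36b_const_mem G φ M q hq hqM hC) G.ϖ) with hϖB
  set cB : s34x_ring (s34x_infRing V) S₂ := s34x_const (s34x_infRing V) S₂ (c : K₀)
    (s34x_inf_const_mem V G.A (s36b_const_mem G φ M q hq hqM hC) c) with hcB
  have hϖ𝔫 : ϖB ∈ 𝔫 := h1 ϖB (hU.1 1)
  have hcB𝔫 : cB ∉ 𝔫 := s36e_const_not_mem G φ M q hq hqM V hC hπ S₂ 𝔫 hϖ𝔫 c hc0
  -- the unit `z₁`
  set z₁ : Localization.AtPrime 𝔫 :=
    algebraMap (s34x_ring (s34x_infRing V) S₂) (Localization.AtPrime 𝔫) cB *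
      s36q_locMap O₁ V S₁ S₂ γ hγ 𝔫 zΘ with hz₁
  have hz₁u : IsUnit z₁ :=
    (IsLocalization.map_units (Localization.AtPrime 𝔫) (⟨cB, hcB𝔫⟩ : 𝔫.primeCompl)).mul
      (hzΘu.map _)
  have hιz₁ : s34f_iota (s34x_infRing V) S₂ 𝔫 z₁ =
      algebraMap K₀ (s34m_F K₀ (M * q * q)) (c : K₀) * γ Θ := by
    rw [hz₁, map_mul, s34f_iota_algebraMap, s36q_iota_locMap, hzΘ]
    rfl
  have hcong' : s34f_iota (s34x_infRing V) S₂ 𝔫 ℓ ^ (q - 1) / s34m_unif G (M * q * q) -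
      s34f_iota (s34x_infRing V) S₂ 𝔫 z₁ ∈ (V 1).nonunits := by
    rw [hℓ, hιz₁]
    exact hcong
  obtain ⟨hℓj, hgen⟩ := s36el_Dx_gen G φ M q hq hqM V hU hRE x hxθ
  rw [← hℓ] at hℓj hgen
  exact s36el_mid_reg_core G φ M q hq hqM V S₁ S₂ hγ 𝔫 hC hU hD₁ hD₂ h1 honly u' w' hm' hw' hu'
    hfrac ℓ hℓj hgen z₁ hz₁u hcong'

/-- the same as `s36p_LocalReg`. -/
theorem s36el_mid_localReg_of_theta (hπ : Function.Surjective G.π)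
    (hC : s36g_ValComap G φ M q hq hqM V)
    (hU : s36g_ValUnif G M q V (s36m_t (K₀ := K₀) M q))
    (hRE : s36e_ValRedEis G φ M q hq hqM V)
    (hD₁ : s35f_Dict (s34m_VV G φ M q hq hqM) S₁) (hD₂ : s35f_Dict V S₂)
    (h1 : s36q_compThrough V S₂ 𝔫 1) (honly : ∀ k, s36q_compThrough V S₂ 𝔫 k → k = 1)
    (honly' : ∀ i, s36q_compThrough (s34m_VV G φ M q hq hqM) S₁
      (s36q_pt (s34m_VV G φ M q hq hqM) V S₁ S₂ (s36g_alpha M q) hγ 𝔫) i → i = true)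
    (u' w' : Localization.AtPrime
      (s36q_pt (s34m_VV G φ M q hq hqM) V S₁ S₂ (s36g_alpha M q) hγ 𝔫))
    (hm' : maximalIdeal (Localization.AtPrime
      (s36q_pt (s34m_VV G φ M q hq hqM) V S₁ S₂ (s36g_alpha M q) hγ 𝔫)) = Ideal.span {u', w'})
    (hw' : s34f_iota (s34x_infRing (s34m_VV G φ M q hq hqM)) S₁
      (s36q_pt (s34m_VV G φ M q hq hqM) V S₁ S₂ (s36g_alpha M q) hγ 𝔫) w' ∈
        (s34m_VV G φ M q hq hqM true).nonunits)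
    (hu' : s34f_iota (s34x_infRing (s34m_VV G φ M q hq hqM)) S₁
      (s36q_pt (s34m_VV G φ M q hq hqM) V S₁ S₂ (s36g_alpha M q) hγ 𝔫) u' ∉
        (s34m_VV G φ M q hq hqM true).nonunits)
    (hfrac : s36q_Frac (s34m_VV G φ M q hq hqM) V S₁ (s36g_alpha M q) true 1)
    (x : s34m_Vinf G M) (hxθ : ffd_theta (s34m_redInf G M x) ≠ 0)
    (ℓ : Localization.AtPrime 𝔫)
    (hℓ : s34f_iota (s34x_infRing V) S₂ 𝔫 ℓ =
      s36g_beta M q (heckeBetaBar K₀ M q x) - s36g_alpha M q (heckeAlphaBar K₀ M q x))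
    (Θ : s34m_F K₀ (M * q)) (hΘ0 : Θ ≠ 0) (hΘV' : Θ⁻¹ ∈ s34m_Vinf G (M * q))
    (hΘV : Θ ∈ s34m_Vinf G (M * q))
    (hΘr : s34m_redInf G (M * q) ⟨Θ, hΘV⟩ = ffd_theta (s34m_redInf G M x) ^ (q - 1))
    (hΘord : ∀ Q ∈ S₁, s34f_through (s34x_infRing (s34m_VV G φ M q hq hqM)) S₁
        (s36q_pt (s34m_VV G φ M q hq hqM) V S₁ S₂ (s36g_alpha M q) hγ 𝔫) Q → Q.ord Θ = 0)
    (m : ℕ) (hm : m ≠ 0) :
    s36p_LocalReg V S₂ 𝔫 m := by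
  have h := s36el_mid_reg_of_theta G φ M q hq hqM V S₁ S₂ hγ 𝔫 hπ hC hU hRE hD₁ hD₂ h1 honly
    honly' u' w' hm' hw' hu' hfrac x hxθ ℓ hℓ Θ hΘ0 hΘV' hΘV hΘr hΘord
  exact ⟨h.1, h.2.1, h.2.2 m hm⟩

end Fermat.Agent.Lib.S36
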