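/-
S36 project, leaf (REG-only 1), NON-CUSPIDAL `V 1`-only points of chart 1, ALL `q` AT ONCE from the
explicit level-`M` data `s36k_Explicit` (helper8, prefix `s36k_`).

`w₁ = α x` the base function, `S₁ = chart1 w₁`, `S₂ = chart1 (α' w₁)`, `𝔫 ⊂ B₂` maximal with `ϖ ∈ 𝔫`
on the component `V 1` only, `𝔪' = α'⁻¹ 𝔫` the image point of level `M q`.

* `s36k_mid_noncusp_of_theta` : helper3's `s36el_mid_localReg_of_theta` in the concrete chart-1 frame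
  (helper2's `s36e_geo_inputs_alpha`, helper5's `s36q_frac_alpha_1`, helper6's `s36m_hRE`), with the
  level-`M q` datum `(t, Θ_t)` at `𝔪'` as a hypothesis; `ℓ = β'(β t) - α'(α t) ∈ B₂` by the strong
  inclusions of `s36k_Explicit`.
-/
import Fermat.Agent.Lib.S36.REllMid
import Fermat.Agent.Lib.S36.MMidCuspInst
import Fermat.Agent.Lib.S36.GGeoInst
import Fermat.Agent.Lib.S36.KExplicit

set_option autoImplicit false
set_option linter.unusedSectionVars false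
set_option linter.style.haveILetI false
set_option synthInstance.maxHeartbeats 400000
set_option maxHeartbeats 800000

noncomputable section

namespace Fermat.Agent.Lib.S36

open ModularCurve AlgebraicCurve HahnSeries Polynomial IsLocalRing
open Fermat.Agent.Lib.FF Fermat.Agent.Lib.S18 Fermat.Agent.Lib.S34 Fermat.Agent.Lib.S35
  Fermat.Agent.Lib.S37

local notation "Kb" => AlgebraicClosure ℚ

variable {K₀ : Type} [Field K₀] [Algebra ℚ K₀] [CharZero K₀] {κ : Type} [Field κ]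
  (G : s18g_GaussData K₀ κ) [IsDiscreteValuationRing G.A]
  (φ : K₀ →+* Kb) (M q : ℕ) [NeZero M] [NeZero q] (hq : q.Prime) (hqM : ¬ q ∣ M)
  [CharP κ q] [PerfectField κ]
  {V : Fin 3 → ValuationSubring (s34m_F K₀ (M * q * q))}

/-- **`s36p_LocalReg` at a `V 1`-only point of chart 1 from the level-`M q` datum `(t, Θ_t)`.** -/
theorem s36k_mid_noncusp_of_theta (hπ : Function.Surjective G.π)
    (hϖq : ((G.ϖ : G.A) : K₀) = (q : K₀))
    (hP : s36g_ValPkg G φ M q hq hqM V (s36m_t (K₀ := K₀) M q))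
    (x : s34m_F K₀ M) (hE : s36k_Explicit G φ M q hq hqM x)
    (hB : s35g_BaseData G φ M q hq hqM (heckeAlphaBar K₀ M q x))
    (hsat : ∀ Q : Place K₀ (s34m_F K₀ (M * q * q)),
      s36g_alpha M q (heckeAlphaBar K₀ M q x) ∈ Q.toValuationSubring ↔
        s36g_beta M q (heckeAlphaBar K₀ M q x) ∈ Q.toValuationSubring)
    (hX : s36q_fi_CrossReg G φ M q hq hqM (heckeAlphaBar K₀ M q x))
    (m : ℕ) (hm : m ≠ 0)
    (𝔫 : Ideal (s34x_ring (L₀ := K₀) (s34x_infRing V)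
      (s18_chart1 (s36g_alpha M q (heckeAlphaBar K₀ M q x)))))
    (h𝔫 : 𝔫.IsMaximal)
    (hϖ : s34x_const (s34x_infRing V)
      (s18_chart1 (L₀ := K₀) (s36g_alpha M q (heckeAlphaBar K₀ M q x))) ((G.ϖ : G.A) : K₀)
      (s34x_inf_const_mem V G.A (s36b_const_mem G φ M q hq hqM hP.1) G.ϖ) ∈ 𝔫)
    (h1 : s36q_compThrough V
      (s18_chart1 (L₀ := K₀) (s36g_alpha M q (heckeAlphaBar K₀ M q x))) 𝔫 1)
    (honly : ∀ k, s36q_compThrough V
      (s18_chart1 (L₀ := K₀) (s36g_alpha M q (heckeAlphaBar K₀ M q x))) 𝔫 k → k = 1)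
    (hΘ : ∃ t : s34m_Vinf G M,
      (t : s34m_F K₀ M) ∈ (s18_ring (L₀ := K₀) (s34m_Vinf G M) (s18_chart1 x) :
        Set (s34m_F K₀ M)) ∧
      ffd_theta (s34m_redInf G M t) ≠ 0 ∧
      ∃ Θ : s34m_F K₀ (M * q), Θ ≠ 0 ∧ Θ⁻¹ ∈ s34m_Vinf G (M * q) ∧
        (∃ hΘV : Θ ∈ s34m_Vinf G (M * q), s34m_redInf G (M * q) ⟨Θ, hΘV⟩ =
          ffd_theta (s34m_redInf G M t) ^ (q - 1)) ∧
        ∀ Q ∈ s18_chart1 (L₀ := K₀) (heckeAlphaBar K₀ M q x),
          s34f_through (s34x_infRing (s34m_VV G φ M q hq hqM))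
            (s18_chart1 (L₀ := K₀) (heckeAlphaBar K₀ M q x))
            (s36q_pt (s34m_VV G φ M q hq hqM) V
              (s18_chart1 (L₀ := K₀) (heckeAlphaBar K₀ M q x))
              (s18_chart1 (L₀ := K₀) (s36g_alpha M q (heckeAlphaBar K₀ M q x)))
              (s36g_alpha M q)
              (s36p_chart1_alpha G φ M q hq hqM hP.1 (heckeAlphaBar K₀ M q x) hB) 𝔫) Q →
          Q.ord Θ = 0) :
    s36p_LocalReg V (s18_chart1 (L₀ := K₀) (s36g_alpha M q (heckeAlphaBar K₀ M q x))) 𝔫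
      (h𝔫 := h𝔫.isPrime) m := by
  haveI h𝔫p : 𝔫.IsPrime := h𝔫.isPrime
  have hFib := s36g_geoFib_of_crossReg G φ M q hq hqM hπ hP _ hB hsat hX
  obtain ⟨honly', u', w', hm', hw', hu'⟩ := s36e_geo_inputs_alpha G φ M q hq hqM hP _ hB hsat hFib
    hπ 1 (by decide) 𝔫 h𝔫 hϖ h1 honly
  obtain ⟨t, htB, hθ, Θ, hΘ0, hΘV', ⟨hΘV, hΘr⟩, hΘord⟩ := hΘ
  obtain ⟨hT, hdegM, hwV, hdeg, hgen, hαM, hcoord, hwtw, hmain, hαB, hβB⟩ := hE
  have hαt := hαB _ htB
  have hβt := hβB _ htB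
  have hα' := s36p_chart1_alpha G φ M q hq hqM hP.1 _ hB _ hαt
  have hβ' := s36p_chart1_beta G φ M q hq hqM hP.1 _ hB (fun Q => (hsat Q).mp) _ hβt
  refine s36el_mid_localReg_of_theta G φ M q hq hqM V _ _
    (s36p_chart1_alpha G φ M q hq hqM hP.1 _ hB) 𝔫 hπ hP.1 hP.2.1
    (s36m_hRE G φ M q hq hqM hϖq hP) (s36e_geo_dict₁ G φ M q hq hqM _ hB)
    (s36e_geo_dict₂ G φ M q hq hqM hP _ hB) h1 honly honly' u' w' hm' hw' hu'
    (s36q_frac_alpha_1 G φ M q hq hqM _ hP.1 hP.2.2.1 hB.2.2.2.2.2.2.2.1 hπ) t hθ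
    (algebraMap _ (Localization.AtPrime 𝔫)
      ((⟨_, hβ'⟩ : s34x_ring (L₀ := K₀) (s34x_infRing V)
        (s18_chart1 (s36g_alpha M q (heckeAlphaBar K₀ M q x)))) - ⟨_, hα'⟩)) ?_
    Θ hΘ0 hΘV' hΘV hΘr hΘord m hm
  rw [s34f_iota_algebraMap]
  rfl

end Fermat.Agent.Lib.S36
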