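/-
S36 project, layer (R-q), piece (K3) (helper7 for helper8, prefix `s36l_`): **`s36k_Explicit` FOR THE
BASE FUNCTION OF `s36g_BaseFull`** — the explicit level-`M` data of chart 1 of `α x` (coordinate `x`
explicit, [HP] frame `FFGen`, (α) at level `M`, STRONG `β`-inclusion), branch by branch
(`x = j_M`, `q ≥ 5`; `x = t₂`, `q = 3`, `2 ∣ M`; `x = t₃`, `q = 2`, `3 ∣ M`).
-/
import Fermat.Agent.Lib.S36.KExplicit
import Fermat.Agent.Lib.S36.GBaseFull

set_option autoImplicit false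
set_option linter.unusedSectionVars false
set_option linter.style.haveILetI false
set_option maxHeartbeats 800000
set_option synthInstance.maxHeartbeats 400000

noncomputable section

namespace Fermat.Agent.Lib.S36

open ModularCurve AlgebraicCurve HahnSeries Polynomial Fermat.Agent.Lib.FF Fermat.Agent.Lib.S18
  Fermat.Agent.Lib.S37 Fermat.Agent.Lib.S34 Fermat.Agent.Lib.S35 Fermat.Agent.Lib.S28

local notation "Kb" => AlgebraicClosure ℚ

section Main

variable (M q : ℕ) [NeZero M] [NeZero q] (hq : q.Prime) (hqM : ¬ q ∣ M)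
  (K₀ : Type) [Field K₀] [NumberField K₀] (φ : K₀ →+* Kb)
  (κ : Type) [Field κ] [CharP κ q] [PerfectField κ]
  (G : s18g_GaussData K₀ κ) [IsDiscreteValuationRing G.A] (hπ : Function.Surjective G.π)

local notation "𝓕M" => laurentBaseChange K₀ (modularFunctionFieldFull M)
local notation "hFM" => (fun (f : LaurentSeries K₀)
  (hf : f ∈ laurentBaseChange K₀ (modularFunctionFieldFull M)) => s18g_baseChange_mem_Frac G M hf)

include hπ in
/-- the branch `x = j_M`, `q ≥ 5`. -/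
theorem s36l_explicit_j (h5 : 5 ≤ q) :
    s36k_Explicit G φ M q hq hqM (s18g_jF (K := K₀) M) := by
  haveI : Fact q.Prime := ⟨hq⟩
  haveI : FFGen K₀ (s18g_jF (K := K₀) (M * q)) :=
    s18b_ffGen_jF (M * q) (fun _ b hb hn => s18g_exists_relation (M * q) φ hn b hb)
  have hT : s18g_HT κ M := s18t_indep_j q M hqM κ
  have hdegM : s18g_HDeg K₀ M := fun _ b hb hn => s18g_exists_relation M φ hn b hb
  have hred1 : s18g_redF G M hFM hT hdegM ⟨s18g_jF (K := K₀) M, s18g_jF_mem_V G M hFM⟩ =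
      s18g_jFbar κ M := s18g_redF_jV G M hFM hT hdegM
  refine ⟨hT, hdegM, s18g_jF_mem_V G M hFM, s34r_deg_HDeg φ M q hq hqM, s18b_ffGen_jF M hdegM,
    s18f_alpha_of_coe G M (s18g_jF (K := K₀) M) (jqModC K₀) (s18g_coe_jF M)
      (s18g_alpha_j_coe G M hT hdegM),
    ?_, ?_, s34d_hmain_five_j M q hqM h5 K₀ φ κ G hπ,
    s34e_ch_alpha₁ G φ M q hq hqM (s18g_jF (K := K₀) M), fun g hg => ?_⟩
  · rw [hred1]
    exact s37b_coord_jq κ q
  · intro τ
    rw [hred1]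
    exact coeffMap_jqModC _
  · refine s34d_beta_mem_ring_of G φ M q hq hqM (s18g_jF (K := K₀) M) _ (fun Q hQ => ?_) hg
    refine s34d_beta_jF_mem M q Q ?_
    rw [s34c_jF_eq_alpha]
    exact hQ

include hπ in
/-- the branch `x = t₂`, `q = 3`, `2 ∣ M`. -/
theorem s36l_explicit_t2 (hq3 : q = 3) (h2M : 2 ∣ M) (x : s34m_F K₀ M)
    (hx2 : (x : LaurentSeries K₀) = s18u_t2 K₀) :
    s36k_Explicit G φ M q hq hqM x := by
  haveI : Fact q.Prime := ⟨hq⟩
  haveI : FFGen K₀ (s18g_jF (K := K₀) (M * q)) :=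
    s18b_ffGen_jF (M * q) (fun _ b hb hn => s18g_exists_relation (M * q) φ hn b hb)
  have hT : s18g_HT κ M := s18t_indep_j q M hqM κ
  have hdegM : s18g_HDeg K₀ M := fun _ b hb hn => s18g_exists_relation M φ hn b hb
  have hq2 : q ≠ 2 := by omega
  obtain ⟨tM, htM, ⟨hwV, hred⟩, -, hgen, -, -, -, -, -, -, -, -, -⟩ :=
    s34m_base_t2 G φ M q hq hqM h2M hq2
  have ex : tM = x := Subtype.ext (htM.trans hx2.symm)
  subst ex
  haveI := hgen
  have htM0 : tM ≠ 0 := by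
    intro h0
    apply s18b_t2_ne_zero K₀
    rw [← htM, h0]; rfl
  refine ⟨hT, hdegM, hwV, s34r_deg_HDeg φ M q hq hqM, hgen,
    s18f_alpha_of_coe G M tM (s18u_t2 K₀) htM (s18u_alpha_t2_coe G M hT hdegM),
    ?_, ?_, s34dt_hmain_t2 M q hqM K₀ φ κ G hπ hT hdegM hq3 h2M tM htM,
    s34e_ch_alpha₁ G φ M q hq hqM tM, fun g hg => ?_⟩
  · show s37b_Coord κ q (s18g_redV G _ (s34m_hF G M) ⟨tM, hwV⟩)
    rw [hred]
    exact s37b_coord_t2 κ q
  · intro τ
    show coeffMap (τ : κ →+* κ) (s18g_redV G _ (s34m_hF G M) ⟨tM, hwV⟩) =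
      s18g_redV G _ (s34m_hF G M) ⟨tM, hwV⟩
    rw [hred]
    exact s18u_coeffMap_t2 _
  · exact s34d_beta_mem_ring_of G φ M q hq hqM tM _
      (fun Q hQ => s34e_ch_mem₁ M q htM0
        (fun P => s34e_cusp_hclaim_t2 G φ M q hq hqM hq2 tM htM P) Q hQ) hg

include hπ in
/-- the branch `x = t₃`, `q = 2`, `3 ∣ M`. -/
theorem s36l_explicit_t3 (hq2 : q = 2) (h3M : 3 ∣ M) (x : s34m_F K₀ M)
    (hx3 : (x : LaurentSeries K₀) = s18u_t3 K₀) :
    s36k_Explicit G φ M q hq hqM x := by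
  haveI : Fact q.Prime := ⟨hq⟩
  haveI : FFGen K₀ (s18g_jF (K := K₀) (M * q)) :=
    s18b_ffGen_jF (M * q) (fun _ b hb hn => s18g_exists_relation (M * q) φ hn b hb)
  have hT : s18g_HT κ M := s18t_indep_j q M hqM κ
  have hdegM : s18g_HDeg K₀ M := fun _ b hb hn => s18g_exists_relation M φ hn b hb
  have hq3 : q ≠ 3 := by omega
  obtain ⟨tM, htM, ⟨hwV, hred⟩, -, hgen, -, -, -, -, -, -, -, -, -⟩ :=
    s34m_base_t3 G φ M q hq hqM h3M hq3
  have ex : tM = x := Subtype.ext (htM.trans hx3.symm)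
  subst ex
  haveI := hgen
  have htM0 : tM ≠ 0 := by
    intro h0
    apply s18b_t3_ne_zero K₀
    rw [← htM, h0]; rfl
  refine ⟨hT, hdegM, hwV, s34r_deg_HDeg φ M q hq hqM, hgen,
    s18f_alpha_of_coe G M tM (s18u_t3 K₀) htM (s18u_alpha_t3_coe G M hT hdegM),
    ?_, ?_, s34dt_hmain_t3 M q hqM K₀ φ κ G hπ hT hdegM hq2 h3M tM htM,
    s34e_ch_alpha₁ G φ M q hq hqM tM, fun g hg => ?_⟩
  · show s37b_Coord κ q (s18g_redV G _ (s34m_hF G M) ⟨tM, hwV⟩)
    rw [hred]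
    exact s37b_coord_t3 κ q
  · intro τ
    show coeffMap (τ : κ →+* κ) (s18g_redV G _ (s34m_hF G M) ⟨tM, hwV⟩) =
      s18g_redV G _ (s34m_hF G M) ⟨tM, hwV⟩
    rw [hred]
    exact s18u_coeffMap_t3 _
  · exact s34d_beta_mem_ring_of G φ M q hq hqM tM _
      (fun Q hQ => s34e_ch_mem₁ M q htM0
        (fun P => s34e_cusp_hclaim_t3 G φ M q hq hqM hq3 tM htM P) Q hQ) hg

include hπ in
/-- **`s36k_Explicit` for the base function of `s36g_BaseFull`.** -/
theorem s36l_explicit_of_baseFull (x : s34m_F K₀ M) (hx : x ∈ s34m_Vinf G M)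
    (hBF : s36g_BaseFull G φ M q hq hqM x hx) : s36k_Explicit G φ M q hq hqM x := by
  obtain ⟨-, -, -, -, -, hbr, -⟩ := hBF
  rcases hbr with ⟨h5, h1⟩ | ⟨hq3, h2M, hx2⟩ | ⟨hq2, h3M, hx3⟩
  · rw [h1]
    exact s36l_explicit_j M q hq hqM K₀ φ κ G hπ h5
  · exact s36l_explicit_t2 M q hq hqM K₀ φ κ G hπ hq3 h2M x hx2
  · exact s36l_explicit_t3 M q hq hqM K₀ φ κ G hπ hq2 h3M x hx3

end Main

end Fermat.Agent.Lib.S36
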