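/-
S36 mega-project, layers (R-q)/(R-mid), piece [HP] "horizontal parameter" (helper4's spec #1722),
ABSTRACT PART (helper3, prefix `s36h_`): Mathlib + FF/Differential + helper4's RKaehler/RSepRes.

* `s36h_centre`, `s36h_ordDifferential_nonneg` : a function regular at a place `v` (residue field
  `K`) is constant or has a centre; its differential is regular at `v`.
* `s36h_ratio_regular_abs` (HP-reg): `ord_v (y - c₀) = 1`, `x` regular at `v`, `dx = c • dy`
  ⟹ `0 ≤ ord_v c`.
* `s36h_simple_of_ratio` : `g` a uniformiser at `v`, `x`, `c` regular at `v`, `dg = c • dx`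
  ⟹ `∃ c₀, ord_v (x - c₀) = 1`.
* **`s36h_sp_abs` (SP)** : `B` an `A`-algebra of finite type, `π : A → κ` onto a perfect field,
  `ρ : B → F` an injective ring hom into a function field `F/K` mapping `A` to constants,
  `𝔪 ⊂ B` maximal over `ker π` with `𝔪 B_𝔪 = (t, p)`, `ρ p` constant; `v` a place of `F/K` with
  `ρ(B) ⊂ O_v`, `ρ⁻¹(𝔪_v) ⊂ 𝔪` and a uniformiser in `ρ(B)`  ⟹  `∃ c, ord_v (ρ t - c) = 1`
  (a local coordinate of the arithmetic surface at a closed point is a uniformiser at every
  horizontal place through the point).  Proof: `K`-derivation `D ∘ ρ'` on `B_𝔪`, Kähler/Nakayama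
  (`s36r_deriv_eq_smul`): `d(ρ g) = ρ'(h) • d(ρ t)` with `h ∈ B_𝔪`, so `ρ' h` regular at `v`.
-/
import Fermat.Agent.Lib.FF.Differential
import Fermat.Agent.Lib.FF.Hurwitz
import Fermat.Agent.Lib.S36.RKaehler
import Fermat.Agent.Lib.S36.RSepRes
import Fermat.Agent.Lib.S34.DNode

set_option autoImplicit false
set_option linter.style.haveILetI false

noncomputable section

namespace Fermat.Agent.Lib.S36

open AlgebraicCurve KaehlerDifferential Fermat.Agent.Lib.FF Fermat.Agent.Lib.S34

section Place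

variable {K F : Type*} [Field K] [CharZero K] [Field F] [Algebra K F]

omit [CharZero K] in
/-- a function regular at `v` is a constant or has a centre. -/
theorem s36h_centre (v : Place K F) (hres : Function.Surjective (algebraMap K v.ResidueField))
    {x : F} (hx : 0 ≤ v.ord x) :
    (∃ c : K, x = algebraMap K F c) ∨ ∃ c : K, 0 < v.ord (x - algebraMap K F c) := by
  by_cases h : ∃ c : K, x = algebraMap K F c
  · exact Or.inl h
  · push Not at h
    exact Or.inr (ffh_exists_centre v hres h hx)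

/-- the differential of a function regular at `v` is regular at `v`: `dx = a • dπ`-coefficient has
nonnegative order (or `dx = 0`). -/
theorem s36h_ordDifferential_nonneg (v : Place K F)
    [Algebra.EssFiniteType K v.toValuationSubring]
    (hres : Function.Surjective (algebraMap K v.ResidueField)) [Nontrivial Ω[F⁄K]]
    {x : F} (hx : 0 ≤ v.ord x) : 0 ≤ v.ordDifferential (D K F x) := by
  rcases s36h_centre v hres hx with ⟨c, rfl⟩ | ⟨c, hc⟩
  · haveI := ffd_dCoordGenerates v hres
    rw [Derivation.map_algebraMap, Place.ordDifferential, v.differentialCoeff_zero, v.ord_zero]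
  · rw [← ffd_D_sub_algebraMap x c, ffd_ordDifferential_D v hres (ne_of_gt hc)]
    omega

/-- **(HP-reg), abstract**: if `y` has a simple zero-centre at `v` (`ord_v (y - c₀) = 1`) and `x` is
regular at `v`, then the ratio `dx/dy` is regular at `v`. -/
theorem s36h_ratio_regular_abs (v : Place K F) [Algebra.EssFiniteType K v.toValuationSubring]
    (hres : Function.Surjective (algebraMap K v.ResidueField)) [Nontrivial Ω[F⁄K]]
    {y : F} {c₀ : K} (hy : v.ord (y - algebraMap K F c₀) = 1)
    {x c : F} (hx : 0 ≤ v.ord x) (hc : D K F x = c • D K F y) : 0 ≤ v.ord c := by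
  haveI := ffd_dCoordGenerates v hres
  by_cases hc0 : c = 0
  · rw [hc0, v.ord_zero]
  have hy1 : v.ord (y - algebraMap K F c₀) ≠ 0 := by rw [hy]; exact one_ne_zero
  obtain ⟨hne, hord⟩ := ffd_differentialCoeff_D v hres hy1
  rw [ffd_D_sub_algebraMap] at hne hord
  have h1 := s36h_ordDifferential_nonneg v hres hx
  rw [hc, v.ordDifferential_smul hc0 hne, Place.ordDifferential, hord, hy] at h1
  omega

/-- if `g` is a uniformiser at `v`, `x` and `c` are regular at `v` and `dg = c • dx`, then `x` has a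
simple centre at `v`. -/
theorem s36h_simple_of_ratio (v : Place K F) [Algebra.EssFiniteType K v.toValuationSubring]
    (hres : Function.Surjective (algebraMap K v.ResidueField)) [Nontrivial Ω[F⁄K]]
    {g x c : F} (hg : v.ord g = 1) (hx : 0 ≤ v.ord x) (hc : 0 ≤ v.ord c)
    (hrel : D K F g = c • D K F x) : ∃ c₀ : K, v.ord (x - algebraMap K F c₀) = 1 := by
  haveI := ffd_dCoordGenerates v hres
  have hg1 : v.ord g ≠ 0 := by rw [hg]; exact one_ne_zero
  obtain ⟨hne, hord⟩ := ffd_differentialCoeff_D v hres hg1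
  have hDg : D K F g ≠ 0 := by
    intro h0
    rw [h0, v.differentialCoeff_zero] at hne
    exact hne rfl
  have hc0 : c ≠ 0 := by
    intro h0
    rw [h0, zero_smul] at hrel
    exact hDg hrel
  have hDx : D K F x ≠ 0 := by
    intro h0
    rw [h0, smul_zero] at hrel
    exact hDg hrel
  rcases s36h_centre v hres hx with ⟨c₀, rfl⟩ | ⟨c₀, hc₀⟩
  · exact absurd (Derivation.map_algebraMap _ _) hDx
  · refine ⟨c₀, ?_⟩
    have h1 : v.ord (x - algebraMap K F c₀) ≠ 0 := ne_of_gt hc₀
    obtain ⟨hne', hord'⟩ := ffd_differentialCoeff_D v hres h1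
    rw [ffd_D_sub_algebraMap] at hne' hord'
    have h2 : v.ordDifferential (D K F g) = v.ord c + v.ordDifferential (D K F x) := by
      rw [hrel, v.ordDifferential_smul hc0 hne']
    rw [Place.ordDifferential, Place.ordDifferential, hord, hord', hg] at h2
    omega

end Place

section Core

variable {A : Type*} [CommRing A] {κ : Type*} [Field κ] [PerfectField κ]
  {B : Type*} [CommRing B] [Algebra A B] [Algebra.FiniteType A B]
  {K F : Type*} [Field K] [CharZero K] [Field F] [Algebra K F]

/-- **(SP), abstract.** -/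
theorem s36h_sp_abs (π : A →+* κ) (hπ : Function.Surjective π)
    (ρ : B →+* F) (hρ : Function.Injective ρ)
    (hρA : ∀ a : A, ∃ c : K, ρ (algebraMap A B a) = algebraMap K F c)
    (𝔪 : Ideal B) [𝔪.IsMaximal] (hker : ∀ a : A, π a = 0 → algebraMap A B a ∈ 𝔪)
    (t p : B) (ht𝔪 : t ∈ 𝔪) (hp𝔪 : p ∈ 𝔪) (hpc : ∃ c : K, ρ p = algebraMap K F c)
    (ht : ∀ y ∈ 𝔪, ∃ c, c ∉ 𝔪 ∧ ∃ z b, c * y = z * t + b * p)
    (v : Place K F) [Algebra.EssFiniteType K v.toValuationSubring]
    (hres : Function.Surjective (algebraMap K v.ResidueField)) [Nontrivial Ω[F⁄K]]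
    (hreg : ∀ g : B, 0 ≤ v.ord (ρ g)) (hthr : ∀ g : B, 0 < v.ord (ρ g) → g ∈ 𝔪)
    (hF1 : ∃ g : B, v.ord (ρ g) = 1) :
    ∃ c : K, v.ord (ρ t - algebraMap K F c) = 1 := by
  classical
  -- extension of `ρ` to the local ring
  have hunits : ∀ s : 𝔪.primeCompl, IsUnit (ρ (s : B)) := by
    intro s
    rw [isUnit_iff_ne_zero, Ne, map_eq_zero_iff ρ hρ]
    intro h0
    exact s.2 (h0 ▸ 𝔪.zero_mem)
  let ρ' : Localization.AtPrime 𝔪 →+* F := IsLocalization.lift (M := 𝔪.primeCompl) (g := ρ) hunits
  have hρ' : ∀ b : B, ρ' (algebraMap B (Localization.AtPrime 𝔪) b) = ρ b :=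
    fun b => IsLocalization.lift_eq _ b
  have hs0 : ∀ s : B, s ∉ 𝔪 → v.ord (ρ s) = 0 := by
    intro s hs
    have h1 := hreg s
    rcases h1.lt_or_eq with h | h
    · exact absurd (hthr s h) hs
    · exact h.symm
  have hR : ∀ h : Localization.AtPrime 𝔪, 0 ≤ v.ord (ρ' h) := by
    intro h
    obtain ⟨⟨b, s⟩, hbs⟩ := IsLocalization.surj 𝔪.primeCompl h
    have h1 : ρ' h * ρ (s : B) = ρ b := by
      rw [← hρ', ← hρ', ← map_mul, hbs]
    by_cases hh0 : ρ' h = 0
    · rw [hh0, v.ord_zero]
    have hs : ρ (s : B) ≠ 0 := (hunits s).ne_zero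
    have h2 := v.ord_mul hh0 hs
    rw [h1, hs0 s s.2, add_zero] at h2
    rw [← h2]
    exact hreg b
  -- the module structures on the differentials
  letI modR : Module (Localization.AtPrime 𝔪) Ω[F⁄K] := Module.compHom _ ρ'
  letI modA : Module A Ω[F⁄K] :=
    Module.compHom _ (ρ'.comp (algebraMap A (Localization.AtPrime 𝔪)))
  haveI : IsScalarTower A (Localization.AtPrime 𝔪) Ω[F⁄K] := ⟨fun a r n => by
    show ρ' (a • r) • n = (ρ' (algebraMap A (Localization.AtPrime 𝔪) a)) • (ρ' r • n)
    rw [Algebra.smul_def, map_mul, mul_smul]⟩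
  have hconstA : ∀ a : A, D K F (ρ' (algebraMap A (Localization.AtPrime 𝔪) a)) = 0 := by
    intro a
    rw [IsScalarTower.algebraMap_apply A B (Localization.AtPrime 𝔪), hρ']
    obtain ⟨c, hc⟩ := hρA a
    rw [hc, Derivation.map_algebraMap]
  let d : Derivation A (Localization.AtPrime 𝔪) Ω[F⁄K] :=
    { toFun := fun r => D K F (ρ' r)
      map_add' := fun r s => by simp only [map_add]
      map_smul' := fun a r => by
        simp only [RingHom.id_apply]
        rw [Algebra.smul_def, map_mul, Derivation.leibniz, hconstA, smul_zero, add_zero]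
        rfl
      map_one_eq_zero' := by
        show D K F (ρ' 1) = 0
        rw [map_one, Derivation.map_one_eq_zero]
      leibniz' := fun r s => by
        show D K F (ρ' (r * s)) = ρ' r • D K F (ρ' s) + ρ' s • D K F (ρ' r)
        rw [map_mul, Derivation.leibniz] }
  have hd : ∀ r, d r = D K F (ρ' r) := fun r => rfl
  have hm : IsLocalRing.maximalIdeal (Localization.AtPrime 𝔪) =
      Ideal.span (insert (algebraMap B (Localization.AtPrime 𝔪) t)
        {algebraMap B (Localization.AtPrime 𝔪) p}) :=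
    s34d_maximalIdeal_eq_span_pair 𝔪 ht𝔪 hp𝔪 ht
  have hsep := s36r_hsep π hπ 𝔪 hker
  have hd0 : ∀ s ∈ ({algebraMap B (Localization.AtPrime 𝔪) p} : Set (Localization.AtPrime 𝔪)),
      d s = 0 := by
    intro s hs
    rw [Set.mem_singleton_iff] at hs
    subst hs
    rw [hd, hρ']
    obtain ⟨c, hc⟩ := hpc
    rw [hc, Derivation.map_algebraMap]
  obtain ⟨g, hg⟩ := hF1
  obtain ⟨h, hh⟩ := s36r_deriv_eq_smul (algebraMap B (Localization.AtPrime 𝔪) t)
    {algebraMap B (Localization.AtPrime 𝔪) p} hm hsep d hd0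
    (algebraMap B (Localization.AtPrime 𝔪) g)
  have hh' : D K F (ρ g) = ρ' h • D K F (ρ t) := by
    rw [hd, hd, hρ', hρ'] at hh
    exact hh
  exact s36h_simple_of_ratio v hres hg (hreg t) (hR h) hh'

end Core

end Fermat.Agent.Lib.S36
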