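/-
S36 mega-project, layers (R-q)/(R-mid), piece [HP] "horizontal parameter" (helper4's spec #1722),
CONCRETE PART (helper3, prefix `s36h_`).

Level `M` chart ring `BM := s18_ring (s34m_Vinf G M) (s18_chart1 wM)` over the DVR `G.A ⊂ K₀`
(`K₀` of characteristic zero with `φ : K₀ →+* Q̄`, perfect residue field, `G.π` surjective, `wM` a
generator with (α) at level `M`), `𝔪 ⊂ BM` maximal with `ϖ ∈ 𝔪` and a LOCAL COORDINATE `t`
(`𝔪 BM_𝔪 = (t, ϖ)` in element form), `ι_M = s34m_iota φ M : F_{K₀}(M) → F̄(M)`.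

* `s36h_exists_simple_centre` (SP): for every `Q̄`-place `v'` of `F̄(M)` through `𝔪`
  (`hreg`: `ι(BM) ⊂ O_{v'}`, `hthr`: `ι⁻¹(𝔪_{v'}) ∩ BM ⊂ 𝔪`): `∃ c, ord_{v'} (ι t - c) = 1`;
  `s36h_ord_D_eq_zero`: the differential form (`d(ι t)` has nonzero coefficient of order `0`).
* `s36h_exists_simple_centre_beta` (HP-β), `s36h_exists_simple_centre_alpha` (HP-α): the same for
  `β̄ (ι t)`, `ᾱ (ι t)` at the places `v` of level `M q` at which `β̄ j` resp. `j` is regular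
  (`ν₂(M) = ν₃(M) = 0`; helper2's `s36u_beta_unram`, `s36u_alpha_unram`).
* level `N`, over `Q̄` (section General): `s36h_local` (local data of a place),
  `s36h_ord_D_of_simple` (`ord_v (y - c) = 1 ⟹ dy` has order `0`), `s36h_ratio_regular` (HP-reg:
  `y` simple at `v`, `x` regular, `dx = c • dy ⟹ 0 ≤ ord_v c`), `s36h_ratio_unit` (both simple
  ⟹ `ord_v c = 0`).
-/
import Fermat.Agent.Lib.S36.RHorizAbs
import Fermat.Agent.Lib.S36.RFinType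
import Fermat.Agent.Lib.S36.RUnramQ
import Fermat.Agent.Lib.S18.FDictI
import Fermat.Agent.Lib.S18.FGeoB
import Fermat.Agent.Lib.S18.RWave2
import Fermat.Agent.Lib.S34.MVal
import Fermat.Agent.Lib.FF.ModularDiff

set_option autoImplicit false
set_option linter.style.haveILetI false
set_option linter.unusedSectionVars false

noncomputable section

namespace Fermat.Agent.Lib.S36

open AlgebraicCurve ModularCurve KaehlerDifferential Polynomial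
open Fermat.Agent.Lib.FF Fermat.Agent.Lib.S18 Fermat.Agent.Lib.S34

local notation "Kb" => AlgebraicClosure ℚ

section General

/-- local data of a place of level `N` over `Q̄`, packaged. -/
theorem s36h_local (N : ℕ) [NeZero N] (v : Place Kb (ffi_F N)) :
    Algebra.EssFiniteType Kb v.toValuationSubring ∧
      Function.Surjective (algebraMap Kb v.ResidueField) ∧ Nontrivial Ω[ffi_F N⁄Kb] := by
  haveI : FFGen ffi_K (ffd_jBar N) := s18r_ffGen N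
  obtain ⟨hEFT, hres⟩ := ff_ifaceLocal ffi_K (ffd_jBar N) v
  exact ⟨hEFT, hres, ⟨⟨_, 0, ffd_D_jBar_ne_zero N⟩⟩⟩

/-- differential form of a simple centre: `ord_v (y - c) = 1 ⟹ dy` has order `0` at `v`. -/
theorem s36h_ord_D_of_simple (N : ℕ) [NeZero N] (v : Place Kb (ffi_F N)) {y : ffi_F N} {c : Kb}
    (hy : v.ord (y - algebraMap Kb (ffi_F N) c) = 1) :
    v.differentialCoeff (D Kb (ffi_F N) y) ≠ 0 ∧ v.ordDifferential (D Kb (ffi_F N) y) = 0 := by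
  obtain ⟨hEFT, hres, hnt⟩ := s36h_local N v
  haveI := hEFT
  haveI := hnt
  have h1 : v.ord (y - algebraMap Kb (ffi_F N) c) ≠ 0 := by rw [hy]; exact one_ne_zero
  obtain ⟨hne, hord⟩ := ffd_differentialCoeff_D v hres h1
  rw [ffd_D_sub_algebraMap] at hne hord
  exact ⟨hne, by rw [Place.ordDifferential, hord, hy, sub_self]⟩

/-- **(HP-reg)** at level `N` over `Q̄`: `y` with a simple centre at `v`, `x` regular at `v`,
`dx = c • dy` ⟹ `c` regular at `v`. -/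
theorem s36h_ratio_regular (N : ℕ) [NeZero N] (v : Place Kb (ffi_F N)) {y : ffi_F N} {c₀ : Kb}
    (hy : v.ord (y - algebraMap Kb (ffi_F N) c₀) = 1) {x c : ffi_F N} (hx : 0 ≤ v.ord x)
    (hc : D Kb (ffi_F N) x = c • D Kb (ffi_F N) y) : 0 ≤ v.ord c := by
  obtain ⟨hEFT, hres, hnt⟩ := s36h_local N v
  haveI := hEFT
  haveI := hnt
  exact s36h_ratio_regular_abs v hres hy hx hc

/-- unit version: both `x` and `y` have simple centres at `v`, `dx = c • dy` ⟹ `ord_v c = 0`. -/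
theorem s36h_ratio_unit (N : ℕ) [NeZero N] (v : Place Kb (ffi_F N)) {x y : ffi_F N} {c₀ c₁ : Kb}
    (hy : v.ord (y - algebraMap Kb (ffi_F N) c₀) = 1)
    (hx : v.ord (x - algebraMap Kb (ffi_F N) c₁) = 1) {c : ffi_F N}
    (hc : D Kb (ffi_F N) x = c • D Kb (ffi_F N) y) : c ≠ 0 ∧ v.ord c = 0 := by
  obtain ⟨hEFT, hres, hnt⟩ := s36h_local N v
  haveI := hEFT
  haveI := hnt
  haveI := ffd_dCoordGenerates v hres
  obtain ⟨hney, hordy⟩ := s36h_ord_D_of_simple N v hy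
  obtain ⟨hnex, hordx⟩ := s36h_ord_D_of_simple N v hx
  have hc0 : c ≠ 0 := by
    intro h0
    rw [h0, zero_smul] at hc
    rw [hc, v.differentialCoeff_zero] at hnex
    exact hnex rfl
  refine ⟨hc0, ?_⟩
  have h1 := v.ordDifferential_smul hc0 hney
  rw [← hc, hordx, hordy, add_zero] at h1
  exact h1.symm

end General

variable {K₀ : Type*} [Field K₀] [Algebra ℚ K₀] [CharZero K₀] (φ : K₀ →+* Kb)
  {κ : Type*} [Field κ] (G : s18g_GaussData K₀ κ)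
  (M : ℕ) [NeZero M] (wM : s34m_F K₀ M)

/-- the constants of `A` in the level-`M` chart ring. -/
def s36h_constHom : G.A →+* s18_ring (L₀ := K₀) (s34m_Vinf G M) (s18_chart1 wM) where
  toFun a := ⟨algebraMap K₀ (s34m_F K₀ M) (a : K₀),
    (s18g_algebraMap_mem_V_iff G _ (s34m_hF G M) _).mpr a.2, fun Q _ => Q.algebraMap_mem' _⟩
  map_one' := Subtype.ext (by simp)
  map_mul' a b := Subtype.ext (by simp)
  map_zero' := Subtype.ext (by simp)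
  map_add' a b := Subtype.ext (by simp)

theorem s36h_coe_constHom (a : G.A) :
    ((s36h_constHom G M wM a : s18_ring (L₀ := K₀) (s34m_Vinf G M) (s18_chart1 wM)) :
      s34m_F K₀ M) = algebraMap K₀ (s34m_F K₀ M) (a : K₀) := rfl

variable [PerfectField κ] [IsDiscreteValuationRing G.A] [FFGen K₀ wM]

/-- **(SP)**: a local coordinate at a closed point of the level-`M` chart is a uniformiser (up to a
constant) at every horizontal `Q̄`-place through the point. -/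
theorem s36h_exists_simple_centre (hπ : Function.Surjective G.π) (hwV : wM ∈ s34m_Vinf G M)
    (hαM : ∀ y ∈ s34m_Vinf G M, ∃ s : G.A[X], s.map G.π ≠ 0 ∧
      (s18b_ev G _ wM).IsIntegralElem (s18b_ev G _ wM s * y))
    (𝔪 : Ideal (s18_ring (L₀ := K₀) (s34m_Vinf G M) (s18_chart1 wM))) [𝔪.IsMaximal]
    (ϖB t : s18_ring (L₀ := K₀) (s34m_Vinf G M) (s18_chart1 wM))
    (hϖB : (ϖB : s34m_F K₀ M) = algebraMap K₀ (s34m_F K₀ M) ((G.ϖ : G.A) : K₀))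
    (hϖ𝔪 : ϖB ∈ 𝔪) (ht𝔪 : t ∈ 𝔪)
    (ht : ∀ y ∈ 𝔪, ∃ c, c ∉ 𝔪 ∧ ∃ z b, c * y = z * t + b * ϖB)
    (v' : Place Kb (ffi_F M))
    (hreg : ∀ g : s18_ring (L₀ := K₀) (s34m_Vinf G M) (s18_chart1 wM),
      0 ≤ v'.ord (s34m_iota φ M (g : s34m_F K₀ M)))
    (hthr : ∀ g : s18_ring (L₀ := K₀) (s34m_Vinf G M) (s18_chart1 wM),
      0 < v'.ord (s34m_iota φ M (g : s34m_F K₀ M)) → g ∈ 𝔪) :
    ∃ c : Kb, v'.ord (s34m_iota φ M (t : s34m_F K₀ M) - algebraMap Kb (ffi_F M) c) = 1 := by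
  classical
  letI algB : Algebra G.A (s18_ring (L₀ := K₀) (s34m_Vinf G M) (s18_chart1 wM)) :=
    (s36h_constHom G M wM).toAlgebra
  haveI : Algebra.FiniteType G.A (s18_ring (L₀ := K₀) (s34m_Vinf G M) (s18_chart1 wM)) :=
    s36r_finiteType_of_integral G _ wM _
      (fun y => s18b_mem_ring_iff G _ (s34m_hF G M) wM hwV hαM y) (s36h_constHom G M wM)
      (fun a => rfl)
  haveI : FFGen ffi_K (ffd_jBar M) := s18r_ffGen M
  obtain ⟨hEFT, hres⟩ := ff_ifaceLocal ffi_K (ffd_jBar M) v'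
  haveI := hEFT
  haveI : Nontrivial Ω[ffi_F M⁄Kb] := ⟨⟨_, 0, ffd_D_jBar_ne_zero M⟩⟩
  -- the embedding of the chart ring into the `Q̄`-function field
  let ρ : s18_ring (L₀ := K₀) (s34m_Vinf G M) (s18_chart1 wM) →+* ffi_F M :=
    (s34m_iota φ M).comp (Subring.subtype _)
  have hρ : ∀ g, ρ g = s34m_iota φ M (g : s34m_F K₀ M) := fun g => rfl
  have hρinj : Function.Injective ρ :=
    (s34m_iota φ M).injective.comp Subtype.val_injective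
  have hρA : ∀ a : G.A, ∃ c : Kb,
      ρ (algebraMap G.A (s18_ring (L₀ := K₀) (s34m_Vinf G M) (s18_chart1 wM)) a) =
        algebraMap Kb (ffi_F M) c := fun a => ⟨φ a, s18q_map_algebraMap φ _ (a : K₀)⟩
  have hpc : ∃ c : Kb, ρ ϖB = algebraMap Kb (ffi_F M) c :=
    ⟨φ ((G.ϖ : G.A) : K₀), by rw [hρ, hϖB]; exact s18q_map_algebraMap φ _ _⟩
  have hker : ∀ a : G.A, G.π a = 0 →
      algebraMap G.A (s18_ring (L₀ := K₀) (s34m_Vinf G M) (s18_chart1 wM)) a ∈ 𝔪 := by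
    intro a ha
    obtain ⟨a', rfl⟩ := (G.π_eq_zero_iff a).mp ha
    rw [map_mul]
    have : algebraMap G.A (s18_ring (L₀ := K₀) (s34m_Vinf G M) (s18_chart1 wM)) G.ϖ = ϖB :=
      Subtype.ext hϖB.symm
    rw [this]
    exact Ideal.mul_mem_right _ _ hϖ𝔪
  -- (F1): a uniformiser of the `K₀`-place below `v'` in the chart ring
  obtain ⟨res, -, hord⟩ := s18r_exists_restrict φ M
  have hw0 : wM ≠ 0 := by
    have := ff_sub_ne_zero (K := K₀) (x := wM) 0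
    simpa using this
  have hwB : wM ∈ s18_ring (L₀ := K₀) (s34m_Vinf G M) (s18_chart1 wM) := ⟨hwV, fun Q hQ => hQ⟩
  have hP : res v' ∈ s18_chart1 (L₀ := K₀) wM := by
    show wM ∈ (res v').toValuationSubring
    rw [ff_mem_iff_ord_nonneg _ hw0, ← hord]
    exact hreg ⟨wM, hwB⟩
  have hO : ∀ f : s34m_F K₀ M, ∃ k : ℕ,
      algebraMap K₀ (s34m_F K₀ M) ((G.ϖ : G.A) : K₀) ^ k * f ∈ s34m_Vinf G M :=
    s18f_hO_of_U (s34m_Vinf G M) ((G.ϖ : G.A) : K₀) (s18f_U_gauss G _ (s34m_hF G M))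
  obtain ⟨u, huB, hu1⟩ := s18f_exists_unif wM (s34m_Vinf G M) ((G.ϖ : G.A) : K₀)
    (s18g_unifK_ne_zero G) hO (res v') hP
  have hF1 : ∃ g : s18_ring (L₀ := K₀) (s34m_Vinf G M) (s18_chart1 wM), v'.ord (ρ g) = 1 :=
    ⟨⟨u, huB⟩, by rw [hρ, hord, hu1]⟩
  exact s36h_sp_abs G.π hπ ρ hρinj hρA 𝔪 hker t ϖB ht𝔪 hϖ𝔪 hpc ht v' hres hreg hthr hF1

/-- **(SP)**, differential form: `d(ι t)` has neither zero nor pole at `v'`. -/
theorem s36h_ord_D_eq_zero (hπ : Function.Surjective G.π) (hwV : wM ∈ s34m_Vinf G M)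
    (hαM : ∀ y ∈ s34m_Vinf G M, ∃ s : G.A[X], s.map G.π ≠ 0 ∧
      (s18b_ev G _ wM).IsIntegralElem (s18b_ev G _ wM s * y))
    (𝔪 : Ideal (s18_ring (L₀ := K₀) (s34m_Vinf G M) (s18_chart1 wM))) [𝔪.IsMaximal]
    (ϖB t : s18_ring (L₀ := K₀) (s34m_Vinf G M) (s18_chart1 wM))
    (hϖB : (ϖB : s34m_F K₀ M) = algebraMap K₀ (s34m_F K₀ M) ((G.ϖ : G.A) : K₀))
    (hϖ𝔪 : ϖB ∈ 𝔪) (ht𝔪 : t ∈ 𝔪)
    (ht : ∀ y ∈ 𝔪, ∃ c, c ∉ 𝔪 ∧ ∃ z b, c * y = z * t + b * ϖB)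
    (v' : Place Kb (ffi_F M))
    (hreg : ∀ g : s18_ring (L₀ := K₀) (s34m_Vinf G M) (s18_chart1 wM),
      0 ≤ v'.ord (s34m_iota φ M (g : s34m_F K₀ M)))
    (hthr : ∀ g : s18_ring (L₀ := K₀) (s34m_Vinf G M) (s18_chart1 wM),
      0 < v'.ord (s34m_iota φ M (g : s34m_F K₀ M)) → g ∈ 𝔪) :
    v'.differentialCoeff (D Kb (ffi_F M) (s34m_iota φ M (t : s34m_F K₀ M))) ≠ 0 ∧
      v'.ordDifferential (D Kb (ffi_F M) (s34m_iota φ M (t : s34m_F K₀ M))) = 0 := by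
  obtain ⟨c, hc⟩ := s36h_exists_simple_centre φ G M wM hπ hwV hαM 𝔪 ϖB t hϖB hϖ𝔪 ht𝔪 ht v'
    hreg hthr
  haveI : FFGen ffi_K (ffd_jBar M) := s18r_ffGen M
  obtain ⟨hEFT, hres⟩ := ff_ifaceLocal ffi_K (ffd_jBar M) v'
  haveI := hEFT
  haveI : Nontrivial Ω[ffi_F M⁄Kb] := ⟨⟨_, 0, ffd_D_jBar_ne_zero M⟩⟩
  have h1 : v'.ord (s34m_iota φ M (t : s34m_F K₀ M) - algebraMap Kb (ffi_F M) c) ≠ 0 := by
    rw [hc]; exact one_ne_zero
  obtain ⟨hne, hord⟩ := ffd_differentialCoeff_D v' hres h1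
  rw [ffd_D_sub_algebraMap] at hne hord
  exact ⟨hne, by rw [Place.ordDifferential, hord, hc, sub_self]⟩

variable (q : ℕ) [NeZero q]

/-- **(HP-β)**: the same for `β̄ (ι t)` at a place `v` of level `M q` at which `β̄ j` is regular. -/
theorem s36h_exists_simple_centre_beta (hq : q.Prime) (hqM : ¬ q ∣ M) (h2 : nuTwo M = 0)
    (h3 : nuThree M = 0) (hπ : Function.Surjective G.π) (hwV : wM ∈ s34m_Vinf G M)
    (hαM : ∀ y ∈ s34m_Vinf G M, ∃ s : G.A[X], s.map G.π ≠ 0 ∧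
      (s18b_ev G _ wM).IsIntegralElem (s18b_ev G _ wM s * y))
    (𝔪 : Ideal (s18_ring (L₀ := K₀) (s34m_Vinf G M) (s18_chart1 wM))) [𝔪.IsMaximal]
    (ϖB t : s18_ring (L₀ := K₀) (s34m_Vinf G M) (s18_chart1 wM))
    (hϖB : (ϖB : s34m_F K₀ M) = algebraMap K₀ (s34m_F K₀ M) ((G.ϖ : G.A) : K₀))
    (hϖ𝔪 : ϖB ∈ 𝔪) (ht𝔪 : t ∈ 𝔪)
    (ht : ∀ y ∈ 𝔪, ∃ c, c ∉ 𝔪 ∧ ∃ z b, c * y = z * t + b * ϖB)
    (v : Place Kb (ffi_F (M * q)))
    (hvj : 0 ≤ v.ord (heckeBetaBar Kb M q (ffd_jBar M)))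
    (hreg : ∀ g : s18_ring (L₀ := K₀) (s34m_Vinf G M) (s18_chart1 wM),
      0 ≤ v.ord (heckeBetaBar Kb M q (s34m_iota φ M (g : s34m_F K₀ M))))
    (hthr : ∀ g : s18_ring (L₀ := K₀) (s34m_Vinf G M) (s18_chart1 wM),
      0 < v.ord (heckeBetaBar Kb M q (s34m_iota φ M (g : s34m_F K₀ M))) → g ∈ 𝔪) :
    ∃ c : Kb, v.ord (heckeBetaBar Kb M q (s34m_iota φ M (t : s34m_F K₀ M)) -
      algebraMap Kb (ffi_F (M * q)) c) = 1 := by
  obtain ⟨v', hv'⟩ := s36u_beta_unram M q hq hqM h2 h3 v hvj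
  obtain ⟨c, hc⟩ := s36h_exists_simple_centre φ G M wM hπ hwV hαM 𝔪 ϖB t hϖB hϖ𝔪 ht𝔪 ht v'
    (fun g => by rw [← hv']; exact hreg g) (fun g hg => hthr g (by rw [hv']; exact hg))
  refine ⟨c, ?_⟩
  rw [← hc, ← hv', map_sub, AlgHom.commutes]

/-- **(HP-α)**: the same for `ᾱ (ι t)` at a place `v` of level `M q` at which `j` is regular. -/
theorem s36h_exists_simple_centre_alpha (h2 : nuTwo M = 0)
    (h3 : nuThree M = 0) (hπ : Function.Surjective G.π) (hwV : wM ∈ s34m_Vinf G M)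
    (hαM : ∀ y ∈ s34m_Vinf G M, ∃ s : G.A[X], s.map G.π ≠ 0 ∧
      (s18b_ev G _ wM).IsIntegralElem (s18b_ev G _ wM s * y))
    (𝔪 : Ideal (s18_ring (L₀ := K₀) (s34m_Vinf G M) (s18_chart1 wM))) [𝔪.IsMaximal]
    (ϖB t : s18_ring (L₀ := K₀) (s34m_Vinf G M) (s18_chart1 wM))
    (hϖB : (ϖB : s34m_F K₀ M) = algebraMap K₀ (s34m_F K₀ M) ((G.ϖ : G.A) : K₀))
    (hϖ𝔪 : ϖB ∈ 𝔪) (ht𝔪 : t ∈ 𝔪)
    (ht : ∀ y ∈ 𝔪, ∃ c, c ∉ 𝔪 ∧ ∃ z b, c * y = z * t + b * ϖB)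
    (v : Place Kb (ffi_F (M * q)))
    (hvj : 0 ≤ v.ord (ffd_jBar (M * q)))
    (hreg : ∀ g : s18_ring (L₀ := K₀) (s34m_Vinf G M) (s18_chart1 wM),
      0 ≤ v.ord (heckeAlphaBar Kb M q (s34m_iota φ M (g : s34m_F K₀ M))))
    (hthr : ∀ g : s18_ring (L₀ := K₀) (s34m_Vinf G M) (s18_chart1 wM),
      0 < v.ord (heckeAlphaBar Kb M q (s34m_iota φ M (g : s34m_F K₀ M))) → g ∈ 𝔪) :
    ∃ c : Kb, v.ord (heckeAlphaBar Kb M q (s34m_iota φ M (t : s34m_F K₀ M)) -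
      algebraMap Kb (ffi_F (M * q)) c) = 1 := by
  obtain ⟨v', hv'⟩ := s36u_alpha_unram M q h2 h3 v hvj
  obtain ⟨c, hc⟩ := s36h_exists_simple_centre φ G M wM hπ hwV hαM 𝔪 ϖB t hϖB hϖ𝔪 ht𝔪 ht v'
    (fun g => by rw [← hv']; exact hreg g) (fun g hg => hthr g (by rw [hv']; exact hg))
  refine ⟨c, ?_⟩
  rw [← hc, ← hv', map_sub, AlgHom.commutes]


end Fermat.Agent.Lib.S36
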