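/-
S36 mega-project, sub-layer (R-mid), ELLIPTIC / GENERAL-COORDINATE case (helper3, prefix `s36el_`),
part 5: **THE FUNCTION `Θ_t = d(β t₂) / (q d(α t))` OF LEVEL `M q`** for a pair `(t, t₂)` of local
coordinates of level `M` (`REllPt.lean`) and its order at the horizontal places.

`BM = s18_ring (V_M) (chart1 wM)`, `𝔪_α, 𝔪_β ⊂ BM` maximal containing `ϖ`, `t` resp. `t₂` local
coordinates at `𝔪_α` resp. `𝔪_β` (element form), `red t₂ = Fr (red t)`, `θ (red t) ≠ 0`; `thr` a set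
of places `Q` of level `M q` over `K₀` ("the places through the point `𝔪'`") at which `j` is
regular and `α, β` map `BM` into the regular functions with centres `𝔪_α`, `𝔪_β`.  Then

* **`s36el_theta_unit`** : there is `Θ ∈ V'_∞` with `Θ⁻¹ ∈ V'_∞`, `red_∞ Θ = (θ (red t))^(q-1)` and
  `ord_Q Θ = 0` for every `Q` with `thr Q`

(helper4's `s36r_invTheta` + the horizontal-parameter lemmas [HP] of `RHoriz.lean`).
-/
import Fermat.Agent.Lib.S36.REllPt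
import Fermat.Agent.Lib.S36.RTheta
import Fermat.Agent.Lib.S36.RHoriz
import Fermat.Agent.Lib.S36.PSat

set_option autoImplicit false
set_option linter.unusedSectionVars false
set_option linter.style.haveILetI false
set_option maxHeartbeats 800000

noncomputable section

namespace Fermat.Agent.Lib.S36

open ModularCurve AlgebraicCurve HahnSeries Polynomial KaehlerDifferential
open Fermat.Agent.Lib.FF Fermat.Agent.Lib.S18 Fermat.Agent.Lib.S34 Fermat.Agent.Lib.S35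
  Fermat.Agent.Lib.S37

local notation "Kb" => AlgebraicClosure ℚ

variable {K₀ : Type} [Field K₀] [CharZero K₀] [Algebra ℚ K₀] {κ : Type} [Field κ]
  (G : s18g_GaussData K₀ κ) (φ : K₀ →+* Kb) (M q : ℕ) [NeZero M] [NeZero q]
  (hq : q.Prime) (hqM : ¬ q ∣ M)

include φ hq hqM in
/-- an element of `V'_∞` with nonzero reduction is a unit of `V'_∞`. -/
theorem s36el_inv_mem_of_red_ne_zero (y : s34m_F K₀ (M * q)) (hy : y ∈ s34m_Vinf G (M * q))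
    (hred : s34m_redInf G (M * q) ⟨y, hy⟩ ≠ 0) : y ≠ 0 ∧ y⁻¹ ∈ s34m_Vinf G (M * q) := by
  have hnn : y ∉ (s34m_VV G φ M q hq hqM true).nonunits := by
    intro hn
    obtain ⟨z, hz, e⟩ := (s36e_mem_nonunits_VV_iff G φ M q hq hqM true y hy).mp hn
    exact hred ((s34m_redInf_eq_zero_iff G (M * q) ⟨y, hy⟩).mpr ⟨z, hz, e⟩)
  rw [ValuationSubring.mem_nonunits_iff_or] at hnn
  push Not at hnn
  exact ⟨hnn.1, hnn.2⟩

variable [hqF : Fact q.Prime] [CharP κ q] [PerfectField κ] [IsDiscreteValuationRing G.A]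

include φ hq hqM in
/-- **The function `Θ_t`.** -/
theorem s36el_theta_unit (h2 : nuTwo M = 0) (h3 : nuThree M = 0)
    (hπ : Function.Surjective G.π) (hπq : G.π ((q : ℕ) : G.A) = 0)
    (wM : s34m_F K₀ M) [FFGen K₀ wM] (hwV : wM ∈ s34m_Vinf G M)
    (hαM : ∀ y ∈ s34m_Vinf G M, ∃ s : G.A[X], s.map G.π ≠ 0 ∧
      (s18b_ev G _ wM).IsIntegralElem (s18b_ev G _ wM s * y))
    (w₀ : s34m_F K₀ (M * q)) [FFGen K₀ w₀]
    (𝔪α 𝔪β : Ideal (s18_ring (L₀ := K₀) (s34m_Vinf G M) (s18_chart1 wM)))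
    [h𝔪α : 𝔪α.IsMaximal] [h𝔪β : 𝔪β.IsMaximal]
    (ϖB t t₂ : s18_ring (L₀ := K₀) (s34m_Vinf G M) (s18_chart1 wM))
    (hϖB : (ϖB : s34m_F K₀ M) = algebraMap K₀ (s34m_F K₀ M) ((G.ϖ : G.A) : K₀))
    (hϖα : ϖB ∈ 𝔪α) (htα : t ∈ 𝔪α)
    (hgα : ∀ y ∈ 𝔪α, ∃ c, c ∉ 𝔪α ∧ ∃ z b, c * y = z * t + b * ϖB)
    (hϖβ : ϖB ∈ 𝔪β) (htβ : t₂ ∈ 𝔪β)
    (hgβ : ∀ y ∈ 𝔪β, ∃ c, c ∉ 𝔪β ∧ ∃ z b, c * y = z * t₂ + b * ϖB)
    (hθ : ffd_theta (s34m_redInf G M ⟨(t : s34m_F K₀ M), t.2.1⟩) ≠ 0)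
    (hFr : s34m_redInf G M ⟨(t₂ : s34m_F K₀ M), t₂.2.1⟩ =
      coeffMap (frobenius κ q) (s34m_redInf G M ⟨(t : s34m_F K₀ M), t.2.1⟩))
    (thr : Place K₀ (s34m_F K₀ (M * q)) → Prop)
    (hj : ∀ Q, thr Q → 0 ≤ Q.ord (s18g_jF (K := K₀) (M * q)))
    (hαreg : ∀ Q, thr Q → ∀ g : s18_ring (L₀ := K₀) (s34m_Vinf G M) (s18_chart1 wM),
      0 ≤ Q.ord (heckeAlphaBar K₀ M q (g : s34m_F K₀ M)))
    (hαthr : ∀ Q, thr Q → ∀ g : s18_ring (L₀ := K₀) (s34m_Vinf G M) (s18_chart1 wM),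
      0 < Q.ord (heckeAlphaBar K₀ M q (g : s34m_F K₀ M)) → g ∈ 𝔪α)
    (hβreg : ∀ Q, thr Q → ∀ g : s18_ring (L₀ := K₀) (s34m_Vinf G M) (s18_chart1 wM),
      0 ≤ Q.ord (heckeBetaBar K₀ M q (g : s34m_F K₀ M)))
    (hβthr : ∀ Q, thr Q → ∀ g : s18_ring (L₀ := K₀) (s34m_Vinf G M) (s18_chart1 wM),
      0 < Q.ord (heckeBetaBar K₀ M q (g : s34m_F K₀ M)) → g ∈ 𝔪β) :
    ∃ Θ : s34m_F K₀ (M * q), Θ ≠ 0 ∧ Θ⁻¹ ∈ s34m_Vinf G (M * q) ∧
      (∃ hΘV : Θ ∈ s34m_Vinf G (M * q), s34m_redInf G (M * q) ⟨Θ, hΘV⟩ =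
        ffd_theta (s34m_redInf G M ⟨(t : s34m_F K₀ M), t.2.1⟩) ^ (q - 1)) ∧
      ∀ Q, thr Q → Q.ord Θ = 0 := by
  classical
  set tb : LaurentSeries κ := s34m_redInf G M ⟨(t : s34m_F K₀ M), t.2.1⟩ with htb
  -- `θ (red t₂) = Fr (θ (red t)) ≠ 0`
  have hθ₂ : ffd_theta (s34m_redInf G M ⟨(t₂ : s34m_F K₀ M), t₂.2.1⟩) =
      coeffMap (frobenius κ q) (ffd_theta tb) := by
    rw [hFr, s36e_coeffMap_theta]
  have hpow : qExpand κ q (ffd_theta (s34m_redInf G M ⟨(t₂ : s34m_F K₀ M), t₂.2.1⟩)) =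
      ffd_theta tb ^ q := by
    rw [hθ₂, ← s37e_pow_char q]
  have hθ₂0 : ffd_theta (s34m_redInf G M ⟨(t₂ : s34m_F K₀ M), t₂.2.1⟩) ≠ 0 := by
    intro h0
    rw [h0, map_zero] at hpow
    exact pow_ne_zero q hθ hpow.symm
  obtain ⟨c, hc, ⟨hy, hyred⟩, -⟩ := s36r_invTheta G φ M q hq hqM hπq w₀
    (t : s34m_F K₀ M) (t₂ : s34m_F K₀ M) t.2.1 t₂.2.1 hθ₂0
  rw [hpow] at hyred
  set y : s34m_F K₀ (M * q) := ((q : ℕ) : s34m_F K₀ (M * q)) * c with hydef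
  have hq1 : q = (q - 1) + 1 := by have := hq.pos; omega
  -- `red y * (θ t̄)^(q-1) = 1`
  have hone : s34m_redInf G (M * q) ⟨y, hy⟩ * ffd_theta tb ^ (q - 1) = 1 := by
    apply mul_right_cancel₀ hθ
    rw [one_mul, mul_assoc, ← pow_succ, ← hq1]
    exact hyred
  have hyred0 : s34m_redInf G (M * q) ⟨y, hy⟩ ≠ 0 := by
    intro h0
    rw [h0, zero_mul] at hone
    exact zero_ne_one hone
  obtain ⟨hy0, hyV'⟩ := s36el_inv_mem_of_red_ne_zero G φ M q hq hqM y hy hyred0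
  have hq0 : ((q : ℕ) : s34m_F K₀ (M * q)) ≠ 0 := by exact_mod_cast (NeZero.ne q)
  have hc0 : c ≠ 0 := by
    intro h0
    apply hy0
    rw [hydef, h0, mul_zero]
  refine ⟨y⁻¹, inv_ne_zero hy0, by rw [inv_inv]; exact hy, ⟨hyV', ?_⟩, ?_⟩
  · -- the reduction
    have hrel : (⟨y⁻¹, hyV'⟩ : s34m_Vinf G (M * q)) * ⟨y, hy⟩ = 1 :=
      Subtype.ext (inv_mul_cancel₀ hy0)
    have hr := congrArg (s34m_redInf G (M * q)) hrel
    rw [map_mul, map_one] at hr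
    calc s34m_redInf G (M * q) ⟨y⁻¹, hyV'⟩
        = s34m_redInf G (M * q) ⟨y⁻¹, hyV'⟩ *
            (s34m_redInf G (M * q) ⟨y, hy⟩ * ffd_theta tb ^ (q - 1)) := by rw [hone, mul_one]
      _ = ffd_theta tb ^ (q - 1) := by rw [← mul_assoc, hr, one_mul]
  · -- the orders at the horizontal places
    intro Q hQ
    obtain ⟨ρ, hsurj, hord⟩ := s18r_exists_restrict φ (M * q)
    obtain ⟨P, rfl⟩ := hsurj Q
    have hordι : ∀ f : s34m_F K₀ (M * q), P.ord (s34m_iota φ (M * q) f) = (ρ P).ord f :=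
      fun f => hord P f
    -- the Kähler relation over `Kb`
    have hcι := s36r_D_map φ (s34m_iota φ (M * q))
      (fun a => s18q_map_algebraMap φ _ a) hc
    rw [s34m_iota_alpha, s34m_iota_beta] at hcι
    -- the simple centres
    have hvjα : 0 ≤ P.ord (ffd_jBar (M * q)) := by
      rw [← s36p_iota_jF φ (M * q), hordι]
      exact hj _ hQ
    have hvjβ : 0 ≤ P.ord (heckeBetaBar Kb M q (ffd_jBar M)) := by
      rw [← s36p_iota_jF φ M, ← s34m_iota_beta, hordι]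
      have hy0' : heckeBetaBar K₀ M q (s18g_jF (K := K₀) M) ≠ 0 :=
        (map_ne_zero (heckeBetaBar K₀ M q)).mpr (s18g_jF_ne_zero M)
      rw [← ff_mem_iff_ord_nonneg (ρ P) hy0', ← s36p_j_mem_iff φ M q hq (ρ P),
        ff_mem_iff_ord_nonneg (ρ P) (s18g_jF_ne_zero (M * q))]
      exact hj _ hQ
    obtain ⟨c₁, hc₁⟩ := s36h_exists_simple_centre_alpha φ G M wM q h2 h3 hπ hwV hαM 𝔪α ϖB t hϖB
      hϖα htα hgα P hvjα
      (fun g => by rw [← s34m_iota_alpha, hordι]; exact hαreg _ hQ g)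
      (fun g hg => hαthr _ hQ g (by rw [← s34m_iota_alpha, hordι] at hg; exact hg))
    obtain ⟨c₂, hc₂⟩ := s36h_exists_simple_centre_beta φ G M wM q hq hqM h2 h3 hπ hwV hαM 𝔪β ϖB
      t₂ hϖB hϖβ htβ hgβ P hvjβ
      (fun g => by rw [← s34m_iota_beta, hordι]; exact hβreg _ hQ g)
      (fun g hg => hβthr _ hQ g (by rw [← s34m_iota_beta, hordι] at hg; exact hg))
    obtain ⟨-, hordc⟩ := s36h_ratio_unit (M * q) P hc₂ hc₁ hcι
    rw [hordι] at hordc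
    -- `ord Θ = -(ord q + ord c) = 0`
    have hqc : ((q : ℕ) : s34m_F K₀ (M * q)) =
        algebraMap K₀ (s34m_F K₀ (M * q)) ((q : ℕ) : K₀) := by rw [map_natCast]
    have hqord : (ρ P).ord ((q : ℕ) : s34m_F K₀ (M * q)) = 0 := by
      rw [hqc]
      exact ffh_ord_algebraMap (ρ P) (by exact_mod_cast (NeZero.ne q))
    rw [(ρ P).ord_inv, hydef, (ρ P).ord_mul hq0 hc0, hqord, hordc, add_zero, neg_zero]

end Fermat.Agent.Lib.S36
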