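/-
S36 mega-project, layers (R-q)/(R-mid), piece (K2) (helper2, prefix `s36e_hk_`): THE `K₀`-PLACE FORMS
OF helper3's [HP] (`RHoriz.lean`), generic in the level-`M` coordinate `wM`.

Frame of `RHoriz.lean`: `wM ∈ V_∞(M)` a generator with (α) at level `M`,
`BM = s18_ring (s34m_Vinf G M) (s18_chart1 wM)`, `𝔪 ⊂ BM` maximal with `ϖ ∈ 𝔪` and a local coordinate
`t` in element form; `ν₂(M) = ν₃(M) = 0`; `Q` a `K₀`-place of `F₁ = s34m_F K₀ (M q)`.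

(Proof: a `Q̄`-place `P` over `Q` (`s18r_exists_restrict`), `ι ∘ β = β̄ ∘ ι`, `s36r_D_map`, [HP-β],
[HP-α], `s36h_ratio_regular`, `s36h_ratio_unit`.)
* `s36e_hk_ratio_regular` (K2): `D x = c • D (β t₂)`, `x` regular at `Q` ⟹ `0 ≤ ord_Q c`;
* `s36e_hk_ratio_unit`: `D (α t) = c • D (β t₂)` with coordinates `t` at `𝔪_α`, `t₂` at `𝔪_β` ⟹
  `c ≠ 0 ∧ ord_Q c = 0`.
-/
import Fermat.Agent.Lib.S36.RHoriz
import Fermat.Agent.Lib.S36.RKmap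
import Fermat.Agent.Lib.S34.MValAL

set_option autoImplicit false
set_option linter.unusedSectionVars false
set_option linter.style.haveILetI false

noncomputable section

namespace Fermat.Agent.Lib.S36

open AlgebraicCurve ModularCurve KaehlerDifferential Polynomial
open Fermat.Agent.Lib.FF Fermat.Agent.Lib.S18 Fermat.Agent.Lib.S34

local notation "Kb" => AlgebraicClosure ℚ

variable {K₀ : Type*} [Field K₀] [Algebra ℚ K₀] [CharZero K₀] (φ : K₀ →+* Kb)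
  {κ : Type*} [Field κ] (G : s18g_GaussData K₀ κ)
  (M : ℕ) [NeZero M] (wM : s34m_F K₀ M)
  [PerfectField κ] [IsDiscreteValuationRing G.A] [FFGen K₀ wM]
  (q : ℕ) [NeZero q]

include φ in
/-- **(K2)**: regularity of the ratio `c = d x / d(β t₂)` at a `K₀`-place through the `β`-preimage
of a closed point of level `M` with local coordinate `t₂`. -/
theorem s36e_hk_ratio_regular (hq : q.Prime) (hqM : ¬ q ∣ M) (h2 : nuTwo M = 0)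
    (h3 : nuThree M = 0) (hπ : Function.Surjective G.π) (hwV : wM ∈ s34m_Vinf G M)
    (hαM : ∀ y ∈ s34m_Vinf G M, ∃ s : G.A[X], s.map G.π ≠ 0 ∧
      (s18b_ev G _ wM).IsIntegralElem (s18b_ev G _ wM s * y))
    (𝔪 : Ideal (s18_ring (L₀ := K₀) (s34m_Vinf G M) (s18_chart1 wM))) [𝔪.IsMaximal]
    (ϖB t₂ : s18_ring (L₀ := K₀) (s34m_Vinf G M) (s18_chart1 wM))
    (hϖB : (ϖB : s34m_F K₀ M) = algebraMap K₀ (s34m_F K₀ M) ((G.ϖ : G.A) : K₀))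
    (hϖ𝔪 : ϖB ∈ 𝔪) (ht𝔪 : t₂ ∈ 𝔪)
    (ht : ∀ y ∈ 𝔪, ∃ c, c ∉ 𝔪 ∧ ∃ z b, c * y = z * t₂ + b * ϖB)
    (Q : Place K₀ (s34m_F K₀ (M * q)))
    (hQj : 0 ≤ Q.ord (heckeBetaBar K₀ M q (s18g_jF (K := K₀) M)))
    (hreg : ∀ g : s18_ring (L₀ := K₀) (s34m_Vinf G M) (s18_chart1 wM),
      0 ≤ Q.ord (heckeBetaBar K₀ M q (g : s34m_F K₀ M)))
    (hthr : ∀ g : s18_ring (L₀ := K₀) (s34m_Vinf G M) (s18_chart1 wM),
      0 < Q.ord (heckeBetaBar K₀ M q (g : s34m_F K₀ M)) → g ∈ 𝔪)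
    (x c : s34m_F K₀ (M * q)) (hx : 0 ≤ Q.ord x)
    (hrel : D K₀ (s34m_F K₀ (M * q)) x =
      c • D K₀ (s34m_F K₀ (M * q)) (heckeBetaBar K₀ M q (t₂ : s34m_F K₀ M))) :
    0 ≤ Q.ord c := by
  obtain ⟨ρ, hsurj, hord⟩ := s18r_exists_restrict φ (M * q)
  obtain ⟨P, rfl⟩ := hsurj Q
  have hιβ : ∀ y : s34m_F K₀ M, s34m_iota φ (M * q) (heckeBetaBar K₀ M q y) =
      heckeBetaBar Kb M q (s34m_iota φ M y) := fun y => s34m_iota_beta φ M q y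
  have hιj : s34m_iota φ M (s18g_jF (K := K₀) M) = ffd_jBar M := s18r_map_jF φ M
  obtain ⟨c₀, hc₀⟩ := s36h_exists_simple_centre_beta φ G M wM q hq hqM h2 h3 hπ hwV hαM 𝔪 ϖB t₂
    hϖB hϖ𝔪 ht𝔪 ht P
    (by rw [← hιj, ← hιβ]; exact (hord P _).symm ▸ hQj)
    (fun g => by rw [← hιβ]; exact (hord P _).symm ▸ hreg g)
    (fun g hg => hthr g (by rw [← hιβ] at hg; exact (hord P _) ▸ hg))
  have hD := s36r_D_map φ (s34m_iota φ (M * q))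
    (fun a => s18q_map_algebraMap φ (modularFunctionFieldFull (M * q)) a) hrel
  rw [hιβ] at hD
  have := s36h_ratio_regular (M * q) P hc₀ (x := s34m_iota φ (M * q) x)
    (c := s34m_iota φ (M * q) c) (by rw [hord]; exact hx) hD
  rw [hord] at this
  exact this

include φ in
/-- **the unit form**: `D (α t) = c • D (β t₂)` with local coordinates `t` at `𝔪_α` and `t₂` at
`𝔪_β` ⟹ `c ≠ 0` and `ord_Q c = 0`. -/
theorem s36e_hk_ratio_unit (hq : q.Prime) (hqM : ¬ q ∣ M) (h2 : nuTwo M = 0)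
    (h3 : nuThree M = 0) (hπ : Function.Surjective G.π) (hwV : wM ∈ s34m_Vinf G M)
    (hαM : ∀ y ∈ s34m_Vinf G M, ∃ s : G.A[X], s.map G.π ≠ 0 ∧
      (s18b_ev G _ wM).IsIntegralElem (s18b_ev G _ wM s * y))
    (ϖB : s18_ring (L₀ := K₀) (s34m_Vinf G M) (s18_chart1 wM))
    (hϖB : (ϖB : s34m_F K₀ M) = algebraMap K₀ (s34m_F K₀ M) ((G.ϖ : G.A) : K₀))
    (𝔪α : Ideal (s18_ring (L₀ := K₀) (s34m_Vinf G M) (s18_chart1 wM))) [𝔪α.IsMaximal]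
    (t : s18_ring (L₀ := K₀) (s34m_Vinf G M) (s18_chart1 wM))
    (hϖα : ϖB ∈ 𝔪α) (htα : t ∈ 𝔪α)
    (ht : ∀ y ∈ 𝔪α, ∃ c, c ∉ 𝔪α ∧ ∃ z b, c * y = z * t + b * ϖB)
    (𝔪β : Ideal (s18_ring (L₀ := K₀) (s34m_Vinf G M) (s18_chart1 wM))) [𝔪β.IsMaximal]
    (t₂ : s18_ring (L₀ := K₀) (s34m_Vinf G M) (s18_chart1 wM))
    (hϖβ : ϖB ∈ 𝔪β) (htβ : t₂ ∈ 𝔪β)
    (ht₂ : ∀ y ∈ 𝔪β, ∃ c, c ∉ 𝔪β ∧ ∃ z b, c * y = z * t₂ + b * ϖB)
    (Q : Place K₀ (s34m_F K₀ (M * q)))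
    (hQjα : 0 ≤ Q.ord (s18g_jF (K := K₀) (M * q)))
    (hregα : ∀ g : s18_ring (L₀ := K₀) (s34m_Vinf G M) (s18_chart1 wM),
      0 ≤ Q.ord (heckeAlphaBar K₀ M q (g : s34m_F K₀ M)))
    (hthrα : ∀ g : s18_ring (L₀ := K₀) (s34m_Vinf G M) (s18_chart1 wM),
      0 < Q.ord (heckeAlphaBar K₀ M q (g : s34m_F K₀ M)) → g ∈ 𝔪α)
    (hQjβ : 0 ≤ Q.ord (heckeBetaBar K₀ M q (s18g_jF (K := K₀) M)))
    (hregβ : ∀ g : s18_ring (L₀ := K₀) (s34m_Vinf G M) (s18_chart1 wM),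
      0 ≤ Q.ord (heckeBetaBar K₀ M q (g : s34m_F K₀ M)))
    (hthrβ : ∀ g : s18_ring (L₀ := K₀) (s34m_Vinf G M) (s18_chart1 wM),
      0 < Q.ord (heckeBetaBar K₀ M q (g : s34m_F K₀ M)) → g ∈ 𝔪β)
    (c : s34m_F K₀ (M * q))
    (hrel : D K₀ (s34m_F K₀ (M * q)) (heckeAlphaBar K₀ M q (t : s34m_F K₀ M)) =
      c • D K₀ (s34m_F K₀ (M * q)) (heckeBetaBar K₀ M q (t₂ : s34m_F K₀ M))) :
    c ≠ 0 ∧ Q.ord c = 0 := by
  obtain ⟨ρ, hsurj, hord⟩ := s18r_exists_restrict φ (M * q)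
  obtain ⟨P, rfl⟩ := hsurj Q
  have hιβ : ∀ y : s34m_F K₀ M, s34m_iota φ (M * q) (heckeBetaBar K₀ M q y) =
      heckeBetaBar Kb M q (s34m_iota φ M y) := fun y => s34m_iota_beta φ M q y
  have hια : ∀ y : s34m_F K₀ M, s34m_iota φ (M * q) (heckeAlphaBar K₀ M q y) =
      heckeAlphaBar Kb M q (s34m_iota φ M y) := fun y => s34m_iota_alpha φ M q y
  have hιj : s34m_iota φ M (s18g_jF (K := K₀) M) = ffd_jBar M := s18r_map_jF φ M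
  have hιjq : s34m_iota φ (M * q) (s18g_jF (K := K₀) (M * q)) = ffd_jBar (M * q) :=
    s18r_map_jF φ (M * q)
  obtain ⟨c₀, hc₀⟩ := s36h_exists_simple_centre_beta φ G M wM q hq hqM h2 h3 hπ hwV hαM 𝔪β ϖB t₂
    hϖB hϖβ htβ ht₂ P
    (by rw [← hιj, ← hιβ]; exact (hord P _).symm ▸ hQjβ)
    (fun g => by rw [← hιβ]; exact (hord P _).symm ▸ hregβ g)
    (fun g hg => hthrβ g (by rw [← hιβ] at hg; exact (hord P _) ▸ hg))
  obtain ⟨c₁, hc₁⟩ := s36h_exists_simple_centre_alpha φ G M wM q h2 h3 hπ hwV hαM 𝔪α ϖB t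
    hϖB hϖα htα ht P
    (by rw [← hιjq]; exact (hord P _).symm ▸ hQjα)
    (fun g => by rw [← hια]; exact (hord P _).symm ▸ hregα g)
    (fun g hg => hthrα g (by rw [← hια] at hg; exact (hord P _) ▸ hg))
  have hD := s36r_D_map φ (s34m_iota φ (M * q))
    (fun a => s18q_map_algebraMap φ (modularFunctionFieldFull (M * q)) a) hrel
  rw [hιβ, hια] at hD
  obtain ⟨hne, h0⟩ := s36h_ratio_unit (M * q) P hc₀ hc₁ hD
  refine ⟨fun hc => hne (by rw [hc, map_zero]), ?_⟩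
  rw [hord] at h0
  exact h0

end Fermat.Agent.Lib.S36
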