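/-
S36 mega-project, sub-layer (R-mid), ELLIPTIC / GENERAL-COORDINATE case (helper3, prefix `s36el_`),
part 2: ABSTRACT INPUTS (Mathlib only).

* `s36el_dedekind_loc`      : in a Dedekind domain, `d ∈ 𝔭 ∖ 𝔭²` (`𝔭` maximal) generates `𝔭` locally:
  `∀ a ∈ 𝔭, ∃ c ∉ 𝔭, ∃ z, c a = z d`;
* `s36el_elem_of_dedekind`  : `ψ : B ↠ D` onto a Dedekind domain with kernel `(ϖ)`, `𝔪 ∋ ϖ` maximal,
  `t ∈ 𝔪` with `ψ t ∉ ψ(𝔪)²`: the element form `∀ y ∈ 𝔪, ∃ c ∉ 𝔪, ∃ z b, c y = z t + b ϖ` of
  `𝔪 B_𝔪 = (t, ϖ)`;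
* `s36el_comap_isMaximal`   : `A → B → C`, `C` of finite type over `A ↠ κ`: the preimage in `B` of a
  maximal ideal of `C` containing `ker π` is maximal (Zariski's lemma);
* `s36el_deriv_eq_zero_of_separable` : a `K`-derivation killing `j` kills every element separable
  over `K(j)` (any characteristic);
* `s36el_not_pow_of_not_mem_sq` : `d ∈ 𝔭 ∖ 𝔭²` is not an `n`-th power (`n ≥ 2`) in the fraction field
  of an integrally closed domain.
-/
import Mathlib

set_option autoImplicit false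
set_option linter.unusedSectionVars false
set_option linter.style.haveILetI false

open Polynomial IntermediateField

namespace Fermat.Agent.Lib.S36

section Dedekind

variable {D : Type*} [CommRing D] [IsDedekindDomain D]

/-- In a Dedekind domain an element of `𝔭 ∖ 𝔭²` generates the maximal ideal `𝔭` locally. -/
theorem s36el_dedekind_loc (𝔭 : Ideal D) [h𝔭 : 𝔭.IsMaximal] (d : D) (hd : d ∈ 𝔭)
    (hd2 : d ∉ 𝔭 ^ 2) : ∀ a ∈ 𝔭, ∃ c, c ∉ 𝔭 ∧ ∃ z, c * a = z * d := by
  classical
  have hbot : 𝔭 ≠ ⊥ := by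
    intro h0
    apply hd2
    rw [h0] at hd
    rw [(Ideal.mem_bot).mp hd]
    exact Ideal.zero_mem _
  let v : IsDedekindDomain.HeightOneSpectrum D := ⟨𝔭, h𝔭.isPrime, hbot⟩
  intro a ha
  have hd0 : algebraMap D (FractionRing D) d ≠ 0 := by
    intro h0
    have : d = 0 := (IsFractionRing.injective D (FractionRing D)) (by rw [h0, map_zero])
    apply hd2
    rw [this]; exact Ideal.zero_mem _
  obtain ⟨n, e, h | h⟩ := v.exists_primeCompl_mul_eq_or_mul_eq
    (algebraMap D (FractionRing D) a / algebraMap D (FractionRing D) d)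
  · refine ⟨e, e.2, n, ?_⟩
    apply IsFractionRing.injective D (FractionRing D)
    rw [map_mul, map_mul]
    field_simp at h
    linear_combination h
  · have e' : a * n = (e : D) * d := by
      apply IsFractionRing.injective D (FractionRing D)
      rw [map_mul, map_mul]
      field_simp at h
      linear_combination h
    refine ⟨n, ?_, e, by rw [mul_comm, e']⟩
    intro hn
    apply hd2
    have he : (e : D) ∉ 𝔭 := e.2
    obtain ⟨e₁, m', hm', hem⟩ := h𝔭.exists_inv he
    have h1 : d = e₁ * ((e : D) * d) + m' * d := by linear_combination (-d) * hem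
    rw [h1, ← e', pow_two]
    exact Ideal.add_mem _ (Ideal.mul_mem_left _ _ (Ideal.mul_mem_mul ha hn))
      (Ideal.mul_mem_mul hm' hd)

/-- **The element form of `𝔪 B_𝔪 = (t, ϖ)`** from a presentation `B / ϖ B ≅ D`, `D` Dedekind. -/
theorem s36el_elem_of_dedekind {B : Type*} [CommRing B] (ψ : B →+* D)
    (hψ : Function.Surjective ψ) (ϖ : B) (hker : RingHom.ker ψ = Ideal.span {ϖ})
    (𝔪 : Ideal B) [h𝔪 : 𝔪.IsMaximal] (hϖ : ϖ ∈ 𝔪) (t : B) (ht : t ∈ 𝔪)
    (ht2 : ψ t ∉ (𝔪.map ψ) ^ 2) :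
    ∀ y ∈ 𝔪, ∃ c, c ∉ 𝔪 ∧ ∃ z b, c * y = z * t + b * ϖ := by
  have hkle : RingHom.ker ψ ≤ 𝔪 := by
    rw [hker, Ideal.span_le]
    intro x hx
    rw [Set.mem_singleton_iff] at hx
    rw [hx]; exact hϖ
  have hcm : Ideal.comap ψ (𝔪.map ψ) = 𝔪 := by
    rw [Ideal.comap_map_of_surjective ψ hψ]
    exact sup_eq_left.mpr hkle
  have hmax : (𝔪.map ψ).IsMaximal := by
    rcases Ideal.map_eq_top_or_isMaximal_of_surjective ψ hψ h𝔪 with h | h
    · exfalso
      rw [h, Ideal.comap_top] at hcm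
      exact h𝔪.ne_top hcm.symm
    · exact h
  have hloc := s36el_dedekind_loc (𝔪.map ψ) (ψ t) (Ideal.mem_map_of_mem ψ ht) ht2
  intro y hy
  obtain ⟨c', hc', z', hcz⟩ := hloc (ψ y) (Ideal.mem_map_of_mem ψ hy)
  obtain ⟨c, rfl⟩ := hψ c'
  obtain ⟨z, rfl⟩ := hψ z'
  have hc : c ∉ 𝔪 := fun h => hc' (Ideal.mem_map_of_mem ψ h)
  have hk : c * y - z * t ∈ RingHom.ker ψ := by
    rw [RingHom.mem_ker, map_sub, map_mul, map_mul, hcz, sub_self]
  rw [hker, Ideal.mem_span_singleton'] at hk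
  obtain ⟨b, hb⟩ := hk
  exact ⟨c, hc, z, b, by linear_combination -hb⟩

end Dedekind

section Zariski

/-- **Preimages of closed points of the special fibre are closed.** -/
theorem s36el_comap_isMaximal {A B C κ : Type*} [CommRing A] [CommRing B] [CommRing C] [Field κ]
    [Algebra A B] [Algebra A C] [Algebra.FiniteType A C] (π : A →+* κ)
    (hπ : Function.Surjective π) (f : B →+* C)
    (hf : ∀ a, f (algebraMap A B a) = algebraMap A C a)
    (𝔫 : Ideal C) [h𝔫 : 𝔫.IsMaximal] (hker : ∀ a : A, π a = 0 → algebraMap A C a ∈ 𝔫) :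
    (𝔫.comap f).IsMaximal := by
  classical
  letI : Field (C ⧸ 𝔫) := Ideal.Quotient.field 𝔫
  let g : A →+* C ⧸ 𝔫 := (Ideal.Quotient.mk 𝔫).comp (algebraMap A C)
  have hg : ∀ a, π a = 0 → g a = 0 := fun a ha =>
    Ideal.Quotient.eq_zero_iff_mem.mpr (hker a ha)
  let ψ : κ →+* C ⧸ 𝔫 := RingHom.liftOfSurjective π hπ ⟨g, fun a ha => hg a ha⟩
  have hψ : ∀ a, ψ (π a) = g a := fun a =>
    RingHom.liftOfRightInverse_comp_apply _ _ _ _ a
  letI algκ : Algebra κ (C ⧸ 𝔫) := ψ.toAlgebra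
  letI algAκ : Algebra A κ := π.toAlgebra
  haveI tower : IsScalarTower A κ (C ⧸ 𝔫) := IsScalarTower.of_algebraMap_eq fun a => (hψ a).symm
  haveI : Algebra.FiniteType A (C ⧸ 𝔫) :=
    Algebra.FiniteType.of_surjective (Ideal.Quotient.mkₐ A 𝔫)
      (Ideal.Quotient.mkₐ_surjective A 𝔫)
  haveI : Algebra.FiniteType κ (C ⧸ 𝔫) := Algebra.FiniteType.of_restrictScalars_finiteType A κ _
  haveI : Module.Finite κ (C ⧸ 𝔫) := finite_of_finite_type_of_isJacobsonRing κ (C ⧸ 𝔫)
  haveI : Algebra.IsAlgebraic κ (C ⧸ 𝔫) := Algebra.IsAlgebraic.of_finite κ (C ⧸ 𝔫)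
  have hfA : f.comp (algebraMap A B) = algebraMap A C := RingHom.ext hf
  have hev : ∀ (x : B) (p : A[X]), f (aeval x p) = aeval (f x) p := by
    intro x p
    rw [aeval_def, aeval_def, Polynomial.hom_eval₂, hfA]
  have hev' : ∀ (c : C) (p : A[X]),
      Ideal.Quotient.mk 𝔫 (aeval c p) = aeval (Ideal.Quotient.mk 𝔫 c) (p.map π) := by
    intro c p
    induction p using Polynomial.induction_on' with
    | add p₁ p₂ h₁ h₂ => simp only [map_add, Polynomial.map_add, h₁, h₂]
    | monomial n a =>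
      rw [Polynomial.map_monomial, aeval_monomial, aeval_monomial, map_mul, map_pow]
      have : algebraMap κ (C ⧸ 𝔫) (π a) = Ideal.Quotient.mk 𝔫 (algebraMap A C a) := hψ a
      rw [this]
  rw [Ideal.isMaximal_iff]
  refine ⟨?_, ?_⟩
  · intro h1
    rw [Ideal.mem_comap, map_one] at h1
    exact h𝔫.ne_top ((Ideal.eq_top_iff_one _).mpr h1)
  · intro J x hJ hx hxJ
    have hfx : f x ∉ 𝔫 := hx
    set ξ : C ⧸ 𝔫 := Ideal.Quotient.mk 𝔫 (f x) with hξ
    have hξ0 : ξ ≠ 0 := fun h0 => hfx (Ideal.Quotient.eq_zero_iff_mem.mp h0)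
    have hint : IsIntegral κ ξ := Algebra.IsIntegral.isIntegral ξ
    have hc0 : (minpoly κ ξ).coeff 0 ≠ 0 := minpoly.coeff_zero_ne_zero hint hξ0
    obtain ⟨μ, hμ⟩ : ∃ μ : A[X], μ.map π = minpoly κ ξ :=
      Polynomial.map_surjective π hπ _
    have hμ𝔫 : aeval x μ ∈ 𝔫.comap f := by
      rw [Ideal.mem_comap, hev, ← Ideal.Quotient.eq_zero_iff_mem, hev', hμ, minpoly.aeval]
    have hμ0 : π (μ.coeff 0) ≠ 0 := by
      rw [← Polynomial.coeff_map, hμ]; exact hc0
    obtain ⟨a', ha'⟩ := hπ (π (μ.coeff 0))⁻¹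
    have h1 : π (μ.coeff 0 * a' - 1) = 0 := by
      rw [map_sub, map_mul, ha', mul_inv_cancel₀ hμ0, map_one, sub_self]
    have hm₁ : algebraMap A B (μ.coeff 0 * a' - 1) ∈ 𝔫.comap f := by
      rw [Ideal.mem_comap, hf]
      exact hker _ h1
    have hdec : aeval x μ = aeval x (divX μ) * x + algebraMap A B (μ.coeff 0) := by
      conv_lhs => rw [← Polynomial.divX_mul_X_add μ]
      rw [map_add, map_mul, aeval_X, aeval_C]
    have key : (1 : B) = -(algebraMap A B a' * aeval x (divX μ)) * x +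
        (algebraMap A B a' * aeval x μ - algebraMap A B (μ.coeff 0 * a' - 1)) := by
      rw [hdec, map_sub, map_mul, map_one]
      ring
    rw [key]
    exact J.add_mem (J.mul_mem_left _ hxJ)
      (hJ ((𝔫.comap f).sub_mem (Ideal.mul_mem_left _ _ hμ𝔫) hm₁))

end Zariski

section Deriv

variable {K F N : Type*} [Field K] [Field F] [Algebra K F]
  [AddCommGroup N] [Module K N] [Module F N] [IsScalarTower K F N]

/-- `d (p(f)) - p'(f) • d f ∈ V` for polynomials over a subfield `E` on which `d` has values in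
`V` (any characteristic). -/
theorem s36el_deriv_aeval_sub_mem (d : Derivation K F N) (V : Submodule F N)
    (E : IntermediateField K F) (hE : ∀ a : E, d (a : F) ∈ V) (f : F) (p : E[X]) :
    d (aeval f p) - aeval f (derivative p) • d f ∈ V := by
  induction p using Polynomial.induction_on' with
  | add p₁ p₂ h₁ h₂ =>
    have : d (aeval f (p₁ + p₂)) - aeval f (derivative (p₁ + p₂)) • d f =
        (d (aeval f p₁) - aeval f (derivative p₁) • d f) +
          (d (aeval f p₂) - aeval f (derivative p₂) • d f) := by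
      rw [map_add, map_add, derivative_add, map_add, add_smul]
      abel
    rw [this]
    exact V.add_mem h₁ h₂
  | monomial n a =>
    have h1 : aeval f (monomial n a) = (a : F) * f ^ n := by
      rw [aeval_monomial]; rfl
    have h2 : aeval f (derivative (monomial n a)) = (a : F) * (n : F) * f ^ (n - 1) := by
      rw [derivative_monomial, aeval_monomial, map_mul, map_natCast]; rfl
    rw [h1, h2, Derivation.leibniz, Derivation.leibniz_pow]
    have : (a : F) • (n • f ^ (n - 1) • d f) + f ^ n • d (a : F) -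
        ((a : F) * (n : F) * f ^ (n - 1)) • d f = f ^ n • d (a : F) := by
      rw [← Nat.cast_smul_eq_nsmul F n, smul_smul, smul_smul]
      abel
    rw [this]
    exact V.smul_mem _ (hE a)

/-- The values of `d` on `K(j)` lie in any subspace containing `d j`. -/
theorem s36el_deriv_mem_adjoin (d : Derivation K F N) (V : Submodule F N) (j : F) (hj : d j ∈ V)
    (a : F) (ha : a ∈ K⟮j⟯) : d a ∈ V := by
  induction ha using IntermediateField.adjoin_induction with
  | mem x hx =>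
    rw [Set.mem_singleton_iff] at hx
    rw [hx]; exact hj
  | algebraMap c => rw [Derivation.map_algebraMap]; exact V.zero_mem
  | add x y _ _ hx hy => rw [map_add]; exact V.add_mem hx hy
  | inv x _ hx =>
    rw [Derivation.leibniz_inv]
    exact V.smul_mem _ hx
  | mul x y _ _ hx hy =>
    rw [Derivation.leibniz]
    exact V.add_mem (V.smul_mem _ hy) (V.smul_mem _ hx)

/-- **A `K`-derivation killing `j` kills every element separable over `K(j)`.** -/
theorem s36el_deriv_eq_zero_of_separable (d : Derivation K F N) (j : F) (hj : d j = 0) (f : F)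
    (hf : IsSeparable K⟮j⟯ f) : d f = 0 := by
  set p := minpoly K⟮j⟯ f with hp
  have hsep : p.Separable := hf
  have h0 : aeval f p = 0 := minpoly.aeval _ _
  have h1 := s36el_deriv_aeval_sub_mem d ⊥ K⟮j⟯
    (fun a => s36el_deriv_mem_adjoin d ⊥ j (by rw [hj]; exact Submodule.zero_mem _) a a.2) f p
  rw [h0, map_zero, zero_sub, Submodule.mem_bot, neg_eq_zero] at h1
  have hne : aeval f (derivative p) ≠ 0 := hsep.aeval_derivative_ne_zero h0
  rcases smul_eq_zero.mp h1 with h | h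
  · exact absurd h hne
  · exact h

end Deriv

section NotPow

/-- An element of `𝔭 ∖ 𝔭²` is not an `n`-th power, `n ≥ 2`, in the fraction field of an integrally
closed domain. -/
theorem s36el_not_pow_of_not_mem_sq {D F : Type*} [CommRing D] [IsDomain D]
    [IsIntegrallyClosed D] [Field F] [Algebra D F] [IsFractionRing D F] (𝔭 : Ideal D)
    [h𝔭 : 𝔭.IsPrime] (d : D) (hd : d ∈ 𝔭) (hd2 : d ∉ 𝔭 ^ 2) (n : ℕ) (hn : 2 ≤ n) :
    ∀ y : F, y ^ n ≠ algebraMap D F d := by
  intro y hy
  have hint : IsIntegral D y := by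
    refine ⟨X ^ n - C d, monic_X_pow_sub_C d (by omega), ?_⟩
    rw [eval₂_sub, eval₂_pow, eval₂_X, eval₂_C, hy, sub_self]
  obtain ⟨y₀, rfl⟩ := IsIntegrallyClosed.isIntegral_iff.mp hint
  have e : y₀ ^ n = d := by
    apply IsFractionRing.injective D F
    rw [map_pow, hy]
  have hy₀ : y₀ ∈ 𝔭 := h𝔭.mem_of_pow_mem n (by rw [e]; exact hd)
  apply hd2
  rw [← e]
  exact Ideal.pow_le_pow_right hn (Ideal.pow_mem_pow hy₀ n)

end NotPow

end Fermat.Agent.Lib.S36
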