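/-
S36 project, geometry layer (X1) (helper1, prefix `s36b_`): **cuspidal closed points lie on at most one
component** (abstract part).

Frame of `QMem.lean`: `O : ι → ValuationSubring 𝓕`, `B = s34x_ring (s34x_infRing O) S`, `𝔫` a prime of
`B`, `R = B_𝔫`.
* `s36b_isUnit_of_cong_one` : an element of `R` which is `≡ 1` modulo the non-units of a component
  through `𝔫` is a unit of `R`;
* `s36b_not_both_through`   : if `g ≡ 1` on the component `i`, `g' ≡ 1` on the component `j`, both are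
  regular at the components and places through `𝔫`, and `g g'` is (the image of) an element of `𝔫`,
  then `i` and `j` do not both pass through `𝔫`.
-/
import Fermat.Agent.Lib.S36.QMem

set_option autoImplicit false
set_option linter.unusedSectionVars false
set_option linter.style.haveILetI false

noncomputable section

namespace Fermat.Agent.Lib.S36

open AlgebraicCurve Fermat.Agent.Lib.FF Fermat.Agent.Lib.S18 Fermat.Agent.Lib.S34 IsLocalRing

variable {L₀ 𝓕 : Type*} [Field L₀] [Field 𝓕] [Algebra L₀ 𝓕]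
variable {ι : Type*} (O : ι → ValuationSubring 𝓕) (S : Set (Place L₀ 𝓕))
  (𝔫 : Ideal (s34x_ring (s34x_infRing O) S)) [h𝔫 : 𝔫.IsPrime]

/-- an element of `B_𝔫` congruent to `1` modulo the non-units of a component through `𝔫` is a unit. -/
theorem s36b_isUnit_of_cong_one (i : ι) (hi : s36q_compThrough O S 𝔫 i)
    (z : Localization.AtPrime 𝔫)
    (hz : s34f_iota (s34x_infRing O) S 𝔫 z - 1 ∈ (O i).nonunits) : IsUnit z := by
  by_contra hnu
  have h1 : IsUnit (1 - z) := IsLocalRing.isUnit_one_sub_self_of_mem_nonunits z hnu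
  obtain ⟨v, hv⟩ := h1.exists_right_inv
  have h2 := congrArg (s34f_iota (s34x_infRing O) S 𝔫) hv
  rw [map_mul, map_sub, map_one] at h2
  set x := s34f_iota (s34x_infRing O) S 𝔫 z - 1 with hx
  have h3 : x * (-s34f_iota (s34x_infRing O) S 𝔫 v) = 1 := by
    rw [← h2, hx]; ring
  have hx0 : x ≠ 0 := by
    rintro h0
    rw [h0, zero_mul] at h3
    exact zero_ne_one h3
  have hxinv : x⁻¹ = -s34f_iota (s34x_infRing O) S 𝔫 v := inv_eq_of_mul_eq_one_right h3
  rcases ((O i).mem_nonunits_iff_or).mp hz with h | h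
  · exact hx0 h
  · apply h
    rw [hxinv]
    have hvO : s34f_iota (s34x_infRing O) S 𝔫 v ∈ O i :=
      s36q_iota_mem_comp O S 𝔫 i hi v
    exact (O i).neg_mem _ hvO

variable [Fintype ι]

/-- **Two components through a point cannot be separated by a pair `g ≡ 1`, `g' ≡ 1` with product in
`𝔫`.** -/
theorem s36b_not_both_through (hA : s36q_Arch O)
    (F3 : ∀ y : 𝓕, y ≠ 0 → {Q : Place L₀ 𝓕 | Q ∈ S ∧ Q.ord y ≠ 0}.Finite)
    (g g' : 𝓕)
    (hgO : ∀ k, s36q_compThrough O S 𝔫 k → g ∈ O k)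
    (hgQ : ∀ Q ∈ S, s34f_through (s34x_infRing O) S 𝔫 Q → 0 ≤ Q.ord g)
    (hgO' : ∀ k, s36q_compThrough O S 𝔫 k → g' ∈ O k)
    (hgQ' : ∀ Q ∈ S, s34f_through (s34x_infRing O) S 𝔫 Q → 0 ≤ Q.ord g')
    (i j : ι) (hgi : g - 1 ∈ (O i).nonunits) (hgj : g' - 1 ∈ (O j).nonunits)
    (b : s34x_ring (s34x_infRing O) S) (hb : b ∈ 𝔫) (hgg : g * g' = (b : 𝓕))
    (hi : s36q_compThrough O S 𝔫 i) (hj : s36q_compThrough O S 𝔫 j) : False := by
  have hfin : ∀ x : 𝓕, {Q : Place L₀ 𝓕 | Q ∈ S ∧ Q.ord x < 0}.Finite := by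
    intro x
    by_cases hx0 : x = 0
    · refine Set.Finite.subset Set.finite_empty ?_
      rintro Q ⟨_, hQ⟩
      rw [hx0, Place.ord_zero] at hQ
      exact absurd hQ (lt_irrefl _)
    · exact (F3 x hx0).subset fun Q hQ => ⟨hQ.1, ne_of_lt hQ.2⟩
  obtain ⟨z, hz⟩ := s36q_exists_iota_eq O S 𝔫 hA g hgO hgQ (hfin g)
  obtain ⟨z', hz'⟩ := s36q_exists_iota_eq O S 𝔫 hA g' hgO' hgQ' (hfin g')
  have hu : IsUnit z := s36b_isUnit_of_cong_one O S 𝔫 i hi z (by rw [hz]; exact hgi)
  have hu' : IsUnit z' := s36b_isUnit_of_cong_one O S 𝔫 j hj z' (by rw [hz']; exact hgj)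
  have hprod : z * z' = algebraMap (s34x_ring (s34x_infRing O) S) (Localization.AtPrime 𝔫) b := by
    apply s34f_iota_injective (s34x_infRing O) S 𝔫
    rw [map_mul, hz, hz', s34f_iota_algebraMap, hgg]
  have hbu : IsUnit (algebraMap (s34x_ring (s34x_infRing O) S) (Localization.AtPrime 𝔫) b) := by
    rw [← hprod]; exact hu.mul hu'
  have hbm : algebraMap (s34x_ring (s34x_infRing O) S) (Localization.AtPrime 𝔫) b ∈
      maximalIdeal (Localization.AtPrime 𝔫) := by
    rw [← Localization.AtPrime.map_eq_maximalIdeal]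
    exact Ideal.mem_map_of_mem _ hb
  exact (mem_nonunits_iff.mp ((mem_maximalIdeal _).mp hbm)) hbu

end Fermat.Agent.Lib.S36
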