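/-
S36 project, geometry layer (X1) (helper1, prefix `s36b_`): **a cuspidal closed point of the special
fibre of level `M q²` lies on at most ONE of the three components.**

Abstract part (frame of `QMem.lean` with `ι = Fin 3`): three functions `j₀, j₁, j₂`, units of all three
valuation rings, with the Kronecker congruences
  `O 0 : j₁ ≡ j₀ᵠ, j₂ ≡ j₁ᵠ`,  `O 1 : j₁ ≡ j₀ᵠ, j₁ ≡ j₂ᵠ`,  `O 2 : j₀ ≡ j₁ᵠ`
and the regularity statements of `XCuspRel.lean` (`y⁻¹` regular at `Q` ⇒ `x y⁻ᵠ` regular at `Q`).  If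
`1/j₀` lies in the maximal ideal of `B_𝔫`, then at most one component passes through `𝔫`:
* `s36b_cusp_lift`   : `y⁻¹ ∈ B_𝔫` ⇒ `x y⁻ᵠ ∈ B_𝔫`;
* `s36b_cusp_step`   : if moreover `x y⁻ᵠ ≡ 1` on a component through `𝔫` and `y⁻¹ ∈ 𝔪`, then `x y⁻ᵠ` is
  a unit of `B_𝔫` and `x⁻¹ ∈ 𝔪`;
* `s36b_cusp_single_abs` : the theorem.
-/
import Fermat.Agent.Lib.S36.XCusp
import Fermat.Agent.Lib.S36.QPlace
import Fermat.Agent.Lib.S36.XLocRad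

set_option autoImplicit false
set_option linter.unusedSectionVars false
set_option linter.style.haveILetI false

noncomputable section

namespace Fermat.Agent.Lib.S36

open AlgebraicCurve Fermat.Agent.Lib.FF Fermat.Agent.Lib.S18 Fermat.Agent.Lib.S34 IsLocalRing

section Abs

variable {L₀ 𝓕 : Type*} [Field L₀] [Field 𝓕] [Algebra L₀ 𝓕]
variable {ι : Type*} [Fintype ι] (O : ι → ValuationSubring 𝓕) (S : Set (Place L₀ 𝓕))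
  (𝔫 : Ideal (s34x_ring (s34x_infRing O) S)) [h𝔫 : 𝔫.IsPrime]

/-- **`y⁻¹ ∈ B_𝔫` ⇒ `x y⁻ᵠ ∈ B_𝔫`** from the place-wise regularity statement. -/
theorem s36b_cusp_lift (hA : s36q_Arch O)
    (F3 : ∀ y : 𝓕, y ≠ 0 → {Q : Place L₀ 𝓕 | Q ∈ S ∧ Q.ord y ≠ 0}.Finite)
    (q : ℕ) (x y : 𝓕) (hx0 : x ≠ 0) (hy0 : y ≠ 0)
    (hO : ∀ k, x * y⁻¹ ^ q ∈ O k)
    (hreg : ∀ Q ∈ S, y⁻¹ ∈ Q.toValuationSubring → x * y⁻¹ ^ q ∈ Q.toValuationSubring)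
    (z : Localization.AtPrime 𝔫) (hz : s34f_iota (s34x_infRing O) S 𝔫 z = y⁻¹) :
    ∃ Z : Localization.AtPrime 𝔫, s34f_iota (s34x_infRing O) S 𝔫 Z = x * y⁻¹ ^ q := by
  have hne : x * y⁻¹ ^ q ≠ 0 := mul_ne_zero hx0 (pow_ne_zero _ (inv_ne_zero hy0))
  refine s36q_exists_iota_eq O S 𝔫 hA _ (fun k _ => hO k) ?_ ?_
  · intro Q hQS hth
    have h1 : y⁻¹ ∈ Q.toValuationSubring := by
      rw [← hz]
      exact s36q_iota_mem (s34x_infRing O) S 𝔫 Q hQS hth z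
    exact (ff_mem_iff_ord_nonneg Q hne).mp (hreg Q hQS h1)
  · exact (F3 _ hne).subset fun Q hQ => ⟨hQ.1, ne_of_lt hQ.2⟩

/-- **The step**: `y⁻¹ ∈ 𝔪(B_𝔫)`, `x y⁻ᵠ ≡ 1` on a component through `𝔫` ⇒ `x y⁻ᵠ ∈ B_𝔫ˣ` and
`x⁻¹ ∈ 𝔪(B_𝔫)`. -/
theorem s36b_cusp_step (hA : s36q_Arch O)
    (F3 : ∀ y : 𝓕, y ≠ 0 → {Q : Place L₀ 𝓕 | Q ∈ S ∧ Q.ord y ≠ 0}.Finite)
    (q : ℕ) (hq : 1 ≤ q) (x y : 𝓕) (hx0 : x ≠ 0) (hy0 : y ≠ 0)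
    (hO : ∀ k, x * y⁻¹ ^ q ∈ O k)
    (hreg : ∀ Q ∈ S, y⁻¹ ∈ Q.toValuationSubring → x * y⁻¹ ^ q ∈ Q.toValuationSubring)
    (z : Localization.AtPrime 𝔫) (hzm : z ∈ maximalIdeal (Localization.AtPrime 𝔫))
    (hz : s34f_iota (s34x_infRing O) S 𝔫 z = y⁻¹)
    (i : ι) (hi : s36q_compThrough O S 𝔫 i) (hcong : x * y⁻¹ ^ q - 1 ∈ (O i).nonunits) :
    (∃ Z : Localization.AtPrime 𝔫, IsUnit Z ∧
      s34f_iota (s34x_infRing O) S 𝔫 Z = x * y⁻¹ ^ q) ∧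
    ∃ z' : Localization.AtPrime 𝔫, z' ∈ maximalIdeal (Localization.AtPrime 𝔫) ∧
      s34f_iota (s34x_infRing O) S 𝔫 z' = x⁻¹ := by
  obtain ⟨Z, hZ⟩ := s36b_cusp_lift O S 𝔫 hA F3 q x y hx0 hy0 hO hreg z hz
  have hZu : IsUnit Z := s36b_isUnit_of_cong_one O S 𝔫 i hi Z (by rw [hZ]; exact hcong)
  refine ⟨⟨Z, hZu, hZ⟩, ?_⟩
  obtain ⟨W, hW⟩ := hZu.exists_right_inv
  refine ⟨z ^ q * W, ?_, ?_⟩
  · refine Ideal.mul_mem_right _ _ ?_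
    obtain ⟨k, rfl⟩ : ∃ k, q = k + 1 := ⟨q - 1, by omega⟩
    rw [pow_succ]
    exact Ideal.mul_mem_left _ _ hzm
  · have h1 := congrArg (s34f_iota (s34x_infRing O) S 𝔫) hW
    rw [map_mul, hZ, map_one] at h1
    have hne : x * y⁻¹ ^ q ≠ 0 := mul_ne_zero hx0 (pow_ne_zero _ (inv_ne_zero hy0))
    have h2 : s34f_iota (s34x_infRing O) S 𝔫 W = (x * y⁻¹ ^ q)⁻¹ :=
      eq_inv_of_mul_eq_one_right h1
    rw [map_mul, map_pow, hz, h2, mul_inv, mul_comm x⁻¹, ← mul_assoc,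
      mul_inv_cancel₀ (pow_ne_zero _ (inv_ne_zero hy0)), one_mul]

end Abs

section Three

variable {L₀ 𝓕 : Type*} [Field L₀] [Field 𝓕] [Algebra L₀ 𝓕]
variable (O : Fin 3 → ValuationSubring 𝓕) (S : Set (Place L₀ 𝓕))
  (𝔫 : Ideal (s34x_ring (s34x_infRing O) S)) [h𝔫 : 𝔫.IsPrime]

omit [Field L₀] [Algebra L₀ 𝓕] in
/-- `x ≡ yᵠ` modulo the non-units, `y` a unit ⇒ `x y⁻ᵠ ≡ 1`. -/
theorem s36b_cong_one_of_kron (V : ValuationSubring 𝓕) (q : ℕ) {x y : 𝓕} (hy0 : y ≠ 0)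
    (hy' : y⁻¹ ∈ V) (h : x - y ^ q ∈ V.nonunits) : x * y⁻¹ ^ q - 1 ∈ V.nonunits := by
  have e : x * y⁻¹ ^ q - 1 = (x - y ^ q) * y⁻¹ ^ q := by
    rw [sub_mul, ← mul_pow, mul_inv_cancel₀ hy0, one_pow]
  rw [e]
  exact s36y_mul_mem_nonunits' V h (pow_mem hy' q)

omit [Field L₀] [Algebra L₀ 𝓕] in
theorem s36b_prod_id {a b : 𝓕} (ha : a ≠ 0) (hb : b ≠ 0) (k : ℕ) :
    a * b⁻¹ ^ (k + 1) * (b * a⁻¹ ^ (k + 1)) = (b⁻¹ * a⁻¹) ^ k := by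
  rw [pow_succ, pow_succ, mul_pow]
  have h1 : a * (b⁻¹ ^ k * b⁻¹) * (b * (a⁻¹ ^ k * a⁻¹)) =
      (b⁻¹ ^ k * a⁻¹ ^ k) * ((a * a⁻¹) * (b⁻¹ * b)) := by ring
  rw [h1, mul_inv_cancel₀ ha, inv_mul_cancel₀ hb, one_mul, mul_one]

/-- **A cuspidal point lies on at most one component** (abstract form). -/
theorem s36b_cusp_single_abs (hA : s36q_Arch O)
    (F3 : ∀ y : 𝓕, y ≠ 0 → {Q : Place L₀ 𝓕 | Q ∈ S ∧ Q.ord y ≠ 0}.Finite)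
    (q : ℕ) (hq : 2 ≤ q) (j₀ j₁ j₂ : 𝓕) (h0 : j₀ ≠ 0) (h1 : j₁ ≠ 0) (h2 : j₂ ≠ 0)
    (hU0 : ∀ k, j₀ ∈ O k ∧ j₀⁻¹ ∈ O k) (hU1 : ∀ k, j₁ ∈ O k ∧ j₁⁻¹ ∈ O k)
    (hU2 : ∀ k, j₂ ∈ O k ∧ j₂⁻¹ ∈ O k)
    (c0a : j₁ - j₀ ^ q ∈ (O 0).nonunits) (c0b : j₂ - j₁ ^ q ∈ (O 0).nonunits)
    (c1a : j₁ - j₀ ^ q ∈ (O 1).nonunits) (c1b : j₁ - j₂ ^ q ∈ (O 1).nonunits)
    (c2a : j₀ - j₁ ^ q ∈ (O 2).nonunits)
    (r10 : ∀ Q ∈ S, j₀⁻¹ ∈ Q.toValuationSubring → j₁ * j₀⁻¹ ^ q ∈ Q.toValuationSubring)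
    (r01 : ∀ Q ∈ S, j₁⁻¹ ∈ Q.toValuationSubring → j₀ * j₁⁻¹ ^ q ∈ Q.toValuationSubring)
    (r21 : ∀ Q ∈ S, j₁⁻¹ ∈ Q.toValuationSubring → j₂ * j₁⁻¹ ^ q ∈ Q.toValuationSubring)
    (r12 : ∀ Q ∈ S, j₂⁻¹ ∈ Q.toValuationSubring → j₁ * j₂⁻¹ ^ q ∈ Q.toValuationSubring)
    (z₀ : Localization.AtPrime 𝔫) (hz₀m : z₀ ∈ maximalIdeal (Localization.AtPrime 𝔫))
    (hz₀ : s34f_iota (s34x_infRing O) S 𝔫 z₀ = j₀⁻¹) :
    ∀ i k, s36q_compThrough O S 𝔫 i → s36q_compThrough O S 𝔫 k → i = k := by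
  have hq1 : 1 ≤ q := by omega
  have hO : ∀ (x y : 𝓕), (∀ k, x ∈ O k) → (∀ k, y⁻¹ ∈ O k) → ∀ k, x * y⁻¹ ^ q ∈ O k :=
    fun x y hx hy k => (O k).mul_mem _ _ (hx k) (pow_mem (hy k) q)
  -- a product of two units cannot lie in the maximal ideal
  have hcontra : ∀ (Z Z' w : Localization.AtPrime 𝔫), IsUnit Z → IsUnit Z' →
      w ∈ maximalIdeal (Localization.AtPrime 𝔫) →
      s34f_iota (s34x_infRing O) S 𝔫 Z * s34f_iota (s34x_infRing O) S 𝔫 Z' =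
        s34f_iota (s34x_infRing O) S 𝔫 w → False := by
    intro Z Z' w hZ hZ' hw he
    have : Z * Z' = w := by
      apply s34f_iota_injective (s34x_infRing O) S 𝔫
      rw [map_mul, he]
    have hu : IsUnit w := by rw [← this]; exact hZ.mul hZ'
    exact (mem_nonunits_iff.mp ((mem_maximalIdeal _).mp hw)) hu
  -- the key alternative: if `O 0` or `O 1` passes through `𝔫`
  have key : ∀ c : Fin 3, (c = 0 ∨ c = 1) → s36q_compThrough O S 𝔫 c →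
      (¬ s36q_compThrough O S 𝔫 2) ∧
      ¬ (s36q_compThrough O S 𝔫 0 ∧ s36q_compThrough O S 𝔫 1) := by
    intro c hc hcth
    have hcong10 : j₁ * j₀⁻¹ ^ q - 1 ∈ (O c).nonunits := by
      rcases hc with rfl | rfl
      · exact s36b_cong_one_of_kron (O 0) q h0 (hU0 0).2 c0a
      · exact s36b_cong_one_of_kron (O 1) q h0 (hU0 1).2 c1a
    obtain ⟨⟨Z10, hZ10u, hZ10⟩, ⟨z₁, hz₁m, hz₁⟩⟩ := s36b_cusp_step O S 𝔫 hA F3 q hq1 j₁ j₀ h1 h0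
      (hO j₁ j₀ (fun k => (hU1 k).1) (fun k => (hU0 k).2)) r10 z₀ hz₀m hz₀ c hcth hcong10
    constructor
    · intro h2th
      obtain ⟨Z01, hZ01⟩ := s36b_cusp_lift O S 𝔫 hA F3 q j₀ j₁ h0 h1
        (hO j₀ j₁ (fun k => (hU0 k).1) (fun k => (hU1 k).2)) r01 z₁ hz₁
      have hZ01u : IsUnit Z01 := s36b_isUnit_of_cong_one O S 𝔫 2 h2th Z01 (by
        rw [hZ01]; exact s36b_cong_one_of_kron (O 2) q h1 (hU1 2).2 c2a)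
      refine hcontra Z10 Z01 ((z₀ * z₁) ^ (q - 1)) hZ10u hZ01u ?_ ?_
      · obtain ⟨k, hk⟩ : ∃ k, q - 1 = k + 1 := ⟨q - 2, by omega⟩
        rw [hk, pow_succ]
        exact Ideal.mul_mem_left _ _ (Ideal.mul_mem_right _ _ hz₀m)
      · rw [hZ10, hZ01, map_pow, map_mul, hz₀, hz₁]
        obtain ⟨k, rfl⟩ : ∃ k, q = k + 1 := ⟨q - 1, by omega⟩
        rw [Nat.add_sub_cancel]
        exact s36b_prod_id h1 h0 k
    · rintro ⟨h0th, h1th⟩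
      obtain ⟨⟨Z21, hZ21u, hZ21⟩, ⟨z₂, hz₂m, hz₂⟩⟩ := s36b_cusp_step O S 𝔫 hA F3 q hq1 j₂ j₁ h2 h1
        (hO j₂ j₁ (fun k => (hU2 k).1) (fun k => (hU1 k).2)) r21 z₁ hz₁m hz₁ 0 h0th
        (s36b_cong_one_of_kron (O 0) q h1 (hU1 0).2 c0b)
      obtain ⟨Z12, hZ12⟩ := s36b_cusp_lift O S 𝔫 hA F3 q j₁ j₂ h1 h2
        (hO j₁ j₂ (fun k => (hU1 k).1) (fun k => (hU2 k).2)) r12 z₂ hz₂
      have hZ12u : IsUnit Z12 := s36b_isUnit_of_cong_one O S 𝔫 1 h1th Z12 (by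
        rw [hZ12]; exact s36b_cong_one_of_kron (O 1) q h2 (hU2 1).2 c1b)
      refine hcontra Z21 Z12 ((z₁ * z₂) ^ (q - 1)) hZ21u hZ12u ?_ ?_
      · obtain ⟨k, hk⟩ : ∃ k, q - 1 = k + 1 := ⟨q - 2, by omega⟩
        rw [hk, pow_succ]
        exact Ideal.mul_mem_left _ _ (Ideal.mul_mem_right _ _ hz₁m)
      · rw [hZ21, hZ12, map_pow, map_mul, hz₁, hz₂]
        obtain ⟨k, rfl⟩ : ∃ k, q = k + 1 := ⟨q - 1, by omega⟩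
        rw [Nat.add_sub_cancel]
        exact s36b_prod_id h2 h1 k
  intro i k hi hk
  by_contra hne
  by_cases h01 : s36q_compThrough O S 𝔫 0 ∨ s36q_compThrough O S 𝔫 1
  · obtain ⟨hno2, hno01⟩ : (¬ s36q_compThrough O S 𝔫 2) ∧
        ¬ (s36q_compThrough O S 𝔫 0 ∧ s36q_compThrough O S 𝔫 1) := by
      rcases h01 with h | h
      · exact key 0 (Or.inl rfl) h
      · exact key 1 (Or.inr rfl) h
    fin_cases i <;> fin_cases k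
    all_goals first
      | exact hne rfl
      | exact hno2 hi
      | exact hno2 hk
      | exact hno01 ⟨hi, hk⟩
      | exact hno01 ⟨hk, hi⟩
  · rw [not_or] at h01
    fin_cases i <;> fin_cases k
    all_goals first
      | exact hne rfl
      | exact h01.1 hi
      | exact h01.1 hk
      | exact h01.2 hi
      | exact h01.2 hk

end Three

end Fermat.Agent.Lib.S36
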