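/-
S36 mega-project, layer (X1) (helper1), part 18 (for (K3)/(K4) of (R-q), board #1820), abstract part:

* `s36b_cusp_two_abs` : two components `a`, `b`, two functions `j₀`, `j₁` (units of all valuation
  rings) with `j₁ ≡ j₀ᵠ` on `a`, `j₀ ≡ j₁ᵠ` on `b` and the place-wise cusp estimates; if
  `1/j₀ ∈ 𝔪(B_𝔫)` then `a` and `b` do not both pass through `𝔫` (two-component twin of
  `s36b_cusp_single_abs`);
* `s36b_isMaximal_of_integral` : `B` integral over `A[X]` (via `e`), `π : A ↠ κ`, `r : B → L` a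
  reduction killing `ker (A[X] → κ[X])`; a prime `𝔫 ⊇ ker r` containing some `b` with `r b ≠ 0` is
  MAXIMAL (incomparability + `κ[X]` has dimension one).
-/
import Fermat.Agent.Lib.S36.XCuspOne
import Mathlib.RingTheory.Ideal.GoingUp
import Mathlib.RingTheory.DedekindDomain.Basic
import Mathlib.RingTheory.PrincipalIdealDomain

set_option autoImplicit false
set_option linter.unusedSectionVars false
set_option linter.style.haveILetI false

noncomputable section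

namespace Fermat.Agent.Lib.S36

open AlgebraicCurve Fermat.Agent.Lib.FF Fermat.Agent.Lib.S18 Fermat.Agent.Lib.S34 IsLocalRing
  Polynomial

section Two

variable {L₀ 𝓕 : Type*} [Field L₀] [Field 𝓕] [Algebra L₀ 𝓕]
variable {ι : Type*} [Fintype ι] (O : ι → ValuationSubring 𝓕) (S : Set (Place L₀ 𝓕))
  (𝔫 : Ideal (s34x_ring (s34x_infRing O) S)) [h𝔫 : 𝔫.IsPrime]

/-- **A cuspidal point does not lie on both components** (two functions, two components). -/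
theorem s36b_cusp_two_abs (hA : s36q_Arch O)
    (F3 : ∀ y : 𝓕, y ≠ 0 → {Q : Place L₀ 𝓕 | Q ∈ S ∧ Q.ord y ≠ 0}.Finite)
    (q : ℕ) (hq : 2 ≤ q) (j₀ j₁ : 𝓕) (h0 : j₀ ≠ 0) (h1 : j₁ ≠ 0)
    (hU0 : ∀ k, j₀ ∈ O k ∧ j₀⁻¹ ∈ O k) (hU1 : ∀ k, j₁ ∈ O k ∧ j₁⁻¹ ∈ O k)
    (a b : ι) (ca : j₁ - j₀ ^ q ∈ (O a).nonunits) (cb : j₀ - j₁ ^ q ∈ (O b).nonunits)
    (r10 : ∀ Q ∈ S, j₀⁻¹ ∈ Q.toValuationSubring → j₁ * j₀⁻¹ ^ q ∈ Q.toValuationSubring)
    (r01 : ∀ Q ∈ S, j₁⁻¹ ∈ Q.toValuationSubring → j₀ * j₁⁻¹ ^ q ∈ Q.toValuationSubring)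
    (z₀ : Localization.AtPrime 𝔫) (hz₀m : z₀ ∈ maximalIdeal (Localization.AtPrime 𝔫))
    (hz₀ : s34f_iota (s34x_infRing O) S 𝔫 z₀ = j₀⁻¹)
    (ha : s36q_compThrough O S 𝔫 a) (hb : s36q_compThrough O S 𝔫 b) : False := by
  have hq1 : 1 ≤ q := by omega
  have hO : ∀ (x y : 𝓕), (∀ k, x ∈ O k) → (∀ k, y⁻¹ ∈ O k) → ∀ k, x * y⁻¹ ^ q ∈ O k :=
    fun x y hx hy k => (O k).mul_mem _ _ (hx k) (pow_mem (hy k) q)
  obtain ⟨⟨Z10, hZ10u, hZ10⟩, ⟨z₁, hz₁m, hz₁⟩⟩ := s36b_cusp_step O S 𝔫 hA F3 q hq1 j₁ j₀ h1 h0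
    (hO j₁ j₀ (fun k => (hU1 k).1) (fun k => (hU0 k).2)) r10 z₀ hz₀m hz₀ a ha
    (s36b_cong_one_of_kron (O a) q h0 (hU0 a).2 ca)
  obtain ⟨Z01, hZ01⟩ := s36b_cusp_lift O S 𝔫 hA F3 q j₀ j₁ h0 h1
    (hO j₀ j₁ (fun k => (hU0 k).1) (fun k => (hU1 k).2)) r01 z₁ hz₁
  have hZ01u : IsUnit Z01 := s36b_isUnit_of_cong_one O S 𝔫 b hb Z01 (by
    rw [hZ01]; exact s36b_cong_one_of_kron (O b) q h1 (hU1 b).2 cb)
  have hw : (z₀ * z₁) ^ (q - 1) ∈ maximalIdeal (Localization.AtPrime 𝔫) := by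
    obtain ⟨k, hk⟩ : ∃ k, q - 1 = k + 1 := ⟨q - 2, by omega⟩
    rw [hk, pow_succ]
    exact Ideal.mul_mem_left _ _ (Ideal.mul_mem_right _ _ hz₀m)
  have he : Z10 * Z01 = (z₀ * z₁) ^ (q - 1) := by
    apply s34f_iota_injective (s34x_infRing O) S 𝔫
    rw [map_mul, hZ10, hZ01, map_pow, map_mul, hz₀, hz₁]
    obtain ⟨k, rfl⟩ : ∃ k, q = k + 1 := ⟨q - 1, by omega⟩
    rw [Nat.add_sub_cancel]
    exact s36b_prod_id h1 h0 k
  have hu : IsUnit ((z₀ * z₁) ^ (q - 1)) := by rw [← he]; exact hZ10u.mul hZ01u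
  exact (mem_nonunits_iff.mp ((mem_maximalIdeal _).mp hw)) hu

end Two

section Max

variable {A B κ L : Type*} [CommRing A] [CommRing B] [Field κ] [CommRing L] [IsDomain L]

/-- **A prime strictly above the kernel of a reduction is maximal** (`B` integral over `A[X]`,
`A ↠ κ`). -/
theorem s36b_isMaximal_of_integral (π : A →+* κ) (hπ : Function.Surjective π)
    (e : A[X] →+* B) (he : e.IsIntegral) (r : B →+* L)
    (hker : ∀ p : A[X], p.map π = 0 → r (e p) = 0)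
    (𝔫 : Ideal B) [h𝔫 : 𝔫.IsPrime] (hr𝔫 : RingHom.ker r ≤ 𝔫) (b : B) (hb : b ∈ 𝔫)
    (hrb : r b ≠ 0) : 𝔫.IsMaximal := by
  letI alg : Algebra A[X] B := e.toAlgebra
  haveI hprime : (RingHom.ker r).IsPrime := RingHom.ker_isPrime r
  have hlt : (RingHom.ker r).comap (algebraMap A[X] B) < 𝔫.comap (algebraMap A[X] B) :=
    Ideal.comap_lt_comap_of_integral_mem_sdiff hr𝔫
      ⟨hb, fun h => hrb ((RingHom.mem_ker).mp h)⟩ (he b)
  set f : A[X] →+* κ[X] := Polynomial.mapRingHom π with hf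
  have hfs : Function.Surjective f := Polynomial.map_surjective π hπ
  set 𝔮 : Ideal A[X] := 𝔫.comap e with h𝔮
  haveI h𝔮p : 𝔮.IsPrime := Ideal.comap_isPrime e 𝔫
  have hK : RingHom.ker f ≤ (RingHom.ker r).comap (algebraMap A[X] B) := by
    intro p hp
    rw [Ideal.mem_comap, RingHom.mem_ker]
    exact hker p ((RingHom.mem_ker).mp hp)
  have hK𝔮 : RingHom.ker f ≤ 𝔮 := hK.trans hlt.le
  have hcm : (𝔮.map f).comap f = 𝔮 := by
    rw [Ideal.comap_map_of_surjective f hfs]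
    exact sup_eq_left.mpr hK𝔮
  have hmp : (𝔮.map f).IsPrime := Ideal.map_isPrime_of_surjective hfs hK𝔮
  have hne : 𝔮.map f ≠ ⊥ := by
    intro h0
    rw [h0] at hcm
    have h1 : 𝔮 ≤ (RingHom.ker r).comap (algebraMap A[X] B) := by
      rw [← hcm]
      exact hK
    exact (not_le_of_gt hlt) h1
  haveI hmm : (𝔮.map f).IsMaximal := hmp.isMaximal hne
  have h𝔮m : 𝔮.IsMaximal := by
    rw [← hcm]
    exact Ideal.comap_isMaximal_of_surjective f hfs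
  exact Ideal.isMaximal_of_isIntegral_of_isMaximal_comap' e he 𝔫 h𝔮m

end Max

end Fermat.Agent.Lib.S36
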