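/-
S36 project, geometry layer (X1) (helper1, prefix `s36b_`): **cuspidal closed points of the special
fibre of level `M q²` lie on at most one of the three components** — instantiation of
`s36b_cusp_single_abs` (`XCuspOne.lean`) for a family `V` with `s36g_ValComap`, `s36g_ValUnif`.

`j₀ = s36b_j0 M q = j(z)`, `j₁ = s36b_j1 M q = j(qz)`, `j₂ = s36b_j2 M q = j(q²z)` (`XCuspRel.lean`).
* `s36b_kron_inf`, `s36b_kron_zero` : Kronecker at level `M q` (`j_q - jᵠ` is a non-unit of `V'_∞`,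
  `j - j_qᵠ` is a non-unit of `V'_0`);
* `s36b_j_units` : `j₀, j₁, j₂` are units of `V 0`, `V 1`, `V 2`;
* `s36b_kron₂`   : the five congruences at level `M q²`;
* **`s36b_cusp_single`** : `1/j₀ ∈ 𝔪(B_𝔫)` ⇒ at most one component through `𝔫` (any chart `S` with F3);
* **`s36b_polar_single_j`** : the polar closed points of chart 2 of `w = j₀`.
-/
import Fermat.Agent.Lib.S36.XCuspOne
import Fermat.Agent.Lib.S36.XCuspRel
import Fermat.Agent.Lib.S36.XBaseLoc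
import Fermat.Agent.Lib.S36.WOuter
import Fermat.Agent.Lib.S36.GRootAbs

set_option autoImplicit false
set_option linter.unusedSectionVars false
set_option linter.style.haveILetI false
set_option synthInstance.maxHeartbeats 400000

noncomputable section

namespace Fermat.Agent.Lib.S36

open ModularCurve AlgebraicCurve HahnSeries Fermat.Agent.Lib.FF Fermat.Agent.Lib.S18
  Fermat.Agent.Lib.S37 Fermat.Agent.Lib.S34 Fermat.Agent.Lib.S35 IsLocalRing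

local notation "Kb" => AlgebraicClosure ℚ

variable {K₀ : Type} [Field K₀] [Algebra ℚ K₀] {κ : Type} [Field κ] (G : s18g_GaussData K₀ κ)
  (φ : K₀ →+* Kb) (M q : ℕ) [NeZero M] [NeZero q] (hq : q.Prime) (hqM : ¬ q ∣ M)

/-! ### Level `M q` -/

/-- non-units of `V'_0` are the `w_q`-transforms of the non-units of `V'_∞`. -/
theorem s36b_mem_Vzero_nonunits (y : s34m_F K₀ (M * q)) :
    y ∈ (s34m_Vzero G φ M q hq hqM).nonunits ↔
      s34m_al φ M q hq hqM y ∈ (s34m_Vinf G (M * q)).nonunits := by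
  rw [ValuationSubring.mem_nonunits_iff_or, ValuationSubring.mem_nonunits_iff_or, s34m_mem_Vzero,
    map_inv₀, map_eq_zero]

/-- the kernel of `red_0` is the set of non-units of `V'_0`. -/
theorem s36b_redZero_eq_zero_iff (y : s34m_Vzero G φ M q hq hqM) :
    s34m_redZero G φ M q hq hqM y = 0 ↔
      (y : s34m_F K₀ (M * q)) ∈ (s34m_Vzero G φ M q hq hqM).nonunits := by
  rw [s34m_redZero_apply, s36w_redInf_eq_zero_iff, s36b_mem_Vzero_nonunits]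

section Kron

variable [CharP κ q]

include hq in
/-- **Kronecker at `∞`**: `j_q - jᵠ` is a non-unit of `V'_∞`. -/
theorem s36b_kron_inf :
    s34m_betaJ (K₀ := K₀) M q - s18g_jF (K := K₀) (M * q) ^ q ∈
      (s34m_Vinf G (M * q)).nonunits := by
  have : Fact q.Prime := ⟨hq⟩
  set jM : s34m_Vinf G M := ⟨s18g_jF (K := K₀) M, s34m_jF_mem_Vinf G M⟩ with hjM
  have haI : heckeAlphaBar K₀ M q (s18g_jF (K := K₀) M) ∈ s34m_Vinf G (M * q) :=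
    s34m_alpha_mem_Vinf G M q jM.2
  have hbI : s34m_betaJ (K₀ := K₀) M q ∈ s34m_Vinf G (M * q) := s34m_betaJ_mem_Vinf G M q
  have hredJ : s34m_redInf G M jM = jqModC κ := s34m_redInf_jF G M
  have e1 : s34m_redInf G (M * q) ⟨_, haI⟩ = jqModC κ := by
    rw [← hredJ]; exact s34m_redInf_alpha G M q jM
  have e2 : s34m_redInf G (M * q) ⟨_, hbI⟩ = qExpand κ q (jqModC κ) := by
    rw [← hredJ]; exact s34m_redInf_beta G M q jM
  rw [← s34m_alpha_jF (K₀ := K₀) M q]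
  have hxI : s34m_betaJ (K₀ := K₀) M q - heckeAlphaBar K₀ M q (s18g_jF (K := K₀) M) ^ q ∈
      s34m_Vinf G (M * q) := sub_mem hbI (pow_mem haI q)
  refine (s36w_redInf_eq_zero_iff G (M * q) ⟨_, hxI⟩).mp ?_
  have e : (⟨_, hxI⟩ : s34m_Vinf G (M * q)) = ⟨_, hbI⟩ - ⟨_, haI⟩ ^ q := Subtype.ext rfl
  rw [e, map_sub, map_pow, e1, e2, s34df_qExpand_jqModC q hq, sub_self]

include hq in
/-- **Kronecker at `0`**: `j - j_qᵠ` is a non-unit of `V'_0`. -/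
theorem s36b_kron_zero :
    s18g_jF (K := K₀) (M * q) - s34m_betaJ (K₀ := K₀) M q ^ q ∈
      (s34m_Vzero G φ M q hq hqM).nonunits := by
  have : Fact q.Prime := ⟨hq⟩
  set jM : s34m_Vinf G M := ⟨s18g_jF (K := K₀) M, s34m_jF_mem_Vinf G M⟩ with hjM
  have ha0 : heckeAlphaBar K₀ M q (s18g_jF (K := K₀) M) ∈ s34m_Vzero G φ M q hq hqM :=
    s34m_alpha_mem_Vzero G φ M q hq hqM jM.2
  have hb0 : s34m_betaJ (K₀ := K₀) M q ∈ s34m_Vzero G φ M q hq hqM :=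
    s34m_betaJ_mem_Vzero G φ M q hq hqM
  have hredJ : s34m_redInf G M jM = jqModC κ := s34m_redInf_jF G M
  have e3 : s34m_redZero G φ M q hq hqM ⟨_, ha0⟩ = qExpand κ q (jqModC κ) := by
    rw [← hredJ]; exact s34m_redZero_alpha G φ M q hq hqM jM
  have e4 : s34m_redZero G φ M q hq hqM ⟨_, hb0⟩ = jqModC κ := by
    rw [← hredJ]; exact s34m_redZero_beta G φ M q hq hqM jM
  rw [← s34m_alpha_jF (K₀ := K₀) M q]
  have hx0 : heckeAlphaBar K₀ M q (s18g_jF (K := K₀) M) - s34m_betaJ (K₀ := K₀) M q ^ q ∈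
      s34m_Vzero G φ M q hq hqM := sub_mem ha0 (pow_mem hb0 q)
  refine (s36b_redZero_eq_zero_iff G φ M q hq hqM ⟨_, hx0⟩).mp ?_
  have e : (⟨_, hx0⟩ : s34m_Vzero G φ M q hq hqM) = ⟨_, ha0⟩ - ⟨_, hb0⟩ ^ q := Subtype.ext rfl
  rw [e, map_sub, map_pow, e3, e4, s34df_qExpand_jqModC q hq, sub_self]

end Kron

/-- `j` and `j_q` are units of `V'_∞` and `V'_0`. -/
theorem s36b_level_units :
    (s18g_jF (K := K₀) (M * q) ∈ s34m_Vinf G (M * q) ∧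
      (s18g_jF (K := K₀) (M * q))⁻¹ ∈ s34m_Vinf G (M * q)) ∧
    (s18g_jF (K := K₀) (M * q) ∈ s34m_Vzero G φ M q hq hqM ∧
      (s18g_jF (K := K₀) (M * q))⁻¹ ∈ s34m_Vzero G φ M q hq hqM) ∧
    (s34m_betaJ (K₀ := K₀) M q ∈ s34m_Vinf G (M * q) ∧
      (s34m_betaJ (K₀ := K₀) M q)⁻¹ ∈ s34m_Vinf G (M * q)) ∧
    (s34m_betaJ (K₀ := K₀) M q ∈ s34m_Vzero G φ M q hq hqM ∧
      (s34m_betaJ (K₀ := K₀) M q)⁻¹ ∈ s34m_Vzero G φ M q hq hqM) := by
  have hinv : (s18g_jF (K := K₀) M)⁻¹ ∈ s34m_Vinf G M := s18g_jF_inv_mem_V G M (s34m_hF G M)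
  have eb : (s34m_betaJ (K₀ := K₀) M q)⁻¹ = heckeBetaBar K₀ M q (s18g_jF (K := K₀) M)⁻¹ := by
    rw [s34m_betaJ, map_inv₀]
  refine ⟨⟨s34m_jF_mem_VV G φ M q hq hqM true, s34m_jF_inv_mem_VV G φ M q hq hqM true⟩,
    ⟨s34m_jF_mem_VV G φ M q hq hqM false, s34m_jF_inv_mem_VV G φ M q hq hqM false⟩,
    ⟨s34m_betaJ_mem_Vinf G M q, ?_⟩, ⟨s34m_betaJ_mem_Vzero G φ M q hq hqM, ?_⟩⟩
  · rw [eb]; exact s34m_beta_mem_Vinf G M q hinv
  · rw [eb]; exact s34m_beta_mem_Vzero G φ M q hq hqM hinv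

/-! ### Level `M q²` -/

variable {V : Fin 3 → ValuationSubring (s34m_F K₀ (M * q * q))} {t : s34m_F K₀ (M * q * q)}

/-- `j₀, j₁, j₂` are units of the three valuation rings. -/
theorem s36b_j_units (hC : s36g_ValComap G φ M q hq hqM V) :
    (∀ k, s36b_j0 (K₀ := K₀) M q ∈ V k ∧ (s36b_j0 (K₀ := K₀) M q)⁻¹ ∈ V k) ∧
    (∀ k, s36b_j1 (K₀ := K₀) M q ∈ V k ∧ (s36b_j1 (K₀ := K₀) M q)⁻¹ ∈ V k) ∧
    (∀ k, s36b_j2 (K₀ := K₀) M q ∈ V k ∧ (s36b_j2 (K₀ := K₀) M q)⁻¹ ∈ V k) := by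
  obtain ⟨-, h0α, h0β, h1α, h1β, h2α, h2β⟩ := hC
  obtain ⟨⟨haI, haI'⟩, ⟨ha0, ha0'⟩, ⟨hbI, hbI'⟩, ⟨hb0, hb0'⟩⟩ := s36b_level_units G φ M q hq hqM
  have mα : ∀ (k : Fin 3) (W : ValuationSubring (s34m_F K₀ (M * q)))
      (_ : (V k).comap (s36g_alpha M q) = W) (x : s34m_F K₀ (M * q)), x ∈ W → x⁻¹ ∈ W →
      s36g_alpha M q x ∈ V k ∧ (s36g_alpha M q x)⁻¹ ∈ V k := by
    intro k W hW x hx hx'
    refine ⟨(s36g_comap_mem (s36g_alpha M q) hW).mp hx, ?_⟩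
    rw [← map_inv₀]
    exact (s36g_comap_mem (s36g_alpha M q) hW).mp hx'
  have mβ : ∀ (k : Fin 3) (W : ValuationSubring (s34m_F K₀ (M * q)))
      (_ : (V k).comap (s36g_beta M q) = W) (x : s34m_F K₀ (M * q)), x ∈ W → x⁻¹ ∈ W →
      s36g_beta M q x ∈ V k ∧ (s36g_beta M q x)⁻¹ ∈ V k := by
    intro k W hW x hx hx'
    refine ⟨(s36g_comap_mem (s36g_beta M q) hW).mp hx, ?_⟩
    rw [← map_inv₀]
    exact (s36g_comap_mem (s36g_beta M q) hW).mp hx'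
  refine ⟨fun k => ?_, fun k => ?_, fun k => ?_⟩
  · rw [s36b_j0_eq]
    fin_cases k
    · exact mα 0 _ h0α _ haI haI'
    · exact mα 1 _ h1α _ haI haI'
    · exact mα 2 _ h2α _ ha0 ha0'
  · rw [s36b_j1]
    fin_cases k
    · exact mα 0 _ h0α _ hbI hbI'
    · exact mα 1 _ h1α _ hbI hbI'
    · exact mα 2 _ h2α _ hb0 hb0'
  · rw [s36b_j2]
    fin_cases k
    · exact mβ 0 _ h0β _ hbI hbI'
    · exact mβ 1 _ h1β _ hb0 hb0'
    · exact mβ 2 _ h2β _ hb0 hb0'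

section Kron2

variable [CharP κ q]

include hq in
/-- **Kronecker at level `M q²`**: on `V 0`: `j₁ ≡ j₀ᵠ`, `j₂ ≡ j₁ᵠ`; on `V 1`: `j₁ ≡ j₀ᵠ`, `j₁ ≡ j₂ᵠ`;
on `V 2`: `j₀ ≡ j₁ᵠ`, `j₁ ≡ j₂ᵠ`. -/
theorem s36b_kron₂ (hC : s36g_ValComap G φ M q hq hqM V) :
    (s36b_j1 (K₀ := K₀) M q - s36b_j0 (K₀ := K₀) M q ^ q ∈ (V 0).nonunits) ∧
    (s36b_j2 (K₀ := K₀) M q - s36b_j1 (K₀ := K₀) M q ^ q ∈ (V 0).nonunits) ∧
    (s36b_j1 (K₀ := K₀) M q - s36b_j0 (K₀ := K₀) M q ^ q ∈ (V 1).nonunits) ∧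
    (s36b_j1 (K₀ := K₀) M q - s36b_j2 (K₀ := K₀) M q ^ q ∈ (V 1).nonunits) ∧
    (s36b_j0 (K₀ := K₀) M q - s36b_j1 (K₀ := K₀) M q ^ q ∈ (V 2).nonunits) ∧
    (s36b_j1 (K₀ := K₀) M q - s36b_j2 (K₀ := K₀) M q ^ q ∈ (V 2).nonunits) := by
  obtain ⟨-, h0α, h0β, h1α, h1β, h2α, h2β⟩ := hC
  have kI := s36b_kron_inf G M q hq
  have k0 := s36b_kron_zero G φ M q hq hqM
  -- the four images
  have eαI : s36g_alpha M q (s34m_betaJ (K₀ := K₀) M q - s18g_jF (K := K₀) (M * q) ^ q) =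
      s36b_j1 (K₀ := K₀) M q - s36b_j0 (K₀ := K₀) M q ^ q := by
    rw [map_sub, map_pow, ← s36b_j0_eq]; rfl
  have eβI : s36g_beta M q (s34m_betaJ (K₀ := K₀) M q - s18g_jF (K := K₀) (M * q) ^ q) =
      s36b_j2 (K₀ := K₀) M q - s36b_j1 (K₀ := K₀) M q ^ q := by
    rw [map_sub, map_pow, ← s36b_j1_eq]; rfl
  have eα0 : s36g_alpha M q (s18g_jF (K := K₀) (M * q) - s34m_betaJ (K₀ := K₀) M q ^ q) =
      s36b_j0 (K₀ := K₀) M q - s36b_j1 (K₀ := K₀) M q ^ q := by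
    rw [map_sub, map_pow, ← s36b_j0_eq]; rfl
  have eβ0 : s36g_beta M q (s18g_jF (K := K₀) (M * q) - s34m_betaJ (K₀ := K₀) M q ^ q) =
      s36b_j1 (K₀ := K₀) M q - s36b_j2 (K₀ := K₀) M q ^ q := by
    rw [map_sub, map_pow, ← s36b_j1_eq]; rfl
  refine ⟨?_, ?_, ?_, ?_, ?_, ?_⟩
  · rw [← eαI]; exact (s36g_comap_nonunit (s36g_alpha M q) h0α).mp kI
  · rw [← eβI]; exact (s36g_comap_nonunit (s36g_beta M q) h0β).mp kI
  · rw [← eαI]; exact (s36g_comap_nonunit (s36g_alpha M q) h1α).mp kI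
  · rw [← eβ0]; exact (s36g_comap_nonunit (s36g_beta M q) h1β).mp k0
  · rw [← eα0]; exact (s36g_comap_nonunit (s36g_alpha M q) h2α).mp k0
  · rw [← eβ0]; exact (s36g_comap_nonunit (s36g_beta M q) h2β).mp k0

variable [CharZero K₀] [IsDiscreteValuationRing G.A]

include φ hq hqM in
/-- **A cuspidal closed point lies on at most one component**: if `1/j₀` lies in the maximal ideal
of `B_𝔫` (`B` the ring of ANY chart `S` with finitely many zeros and poles of each function), then at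
most one of the three components passes through `𝔫` — the hypothesis `hone` of
`s36y_nodeGenRad_of_single`. -/
theorem s36b_cusp_single (hC : s36g_ValComap G φ M q hq hqM V) (hU : s36g_ValUnif G M q V t)
    (S : Set (Place K₀ (s34m_F K₀ (M * q * q))))
    (F3 : ∀ y : s34m_F K₀ (M * q * q), y ≠ 0 →
      {Q : Place K₀ (s34m_F K₀ (M * q * q)) | Q ∈ S ∧ Q.ord y ≠ 0}.Finite)
    (𝔫 : Ideal (s34x_ring (s34x_infRing V) S)) [𝔫.IsPrime]
    (z₀ : Localization.AtPrime 𝔫) (hz₀m : z₀ ∈ maximalIdeal (Localization.AtPrime 𝔫))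
    (hz₀ : s34f_iota (s34x_infRing V) S 𝔫 z₀ = (s36b_j0 (K₀ := K₀) M q)⁻¹) :
    ∀ i k, s36q_compThrough V S 𝔫 i → s36q_compThrough V S 𝔫 k → i = k := by
  obtain ⟨hU0, hU1, hU2⟩ := s36b_j_units G φ M q hq hqM hC
  obtain ⟨c0a, c0b, c1a, c1b, c2a, -⟩ := s36b_kron₂ G φ M q hq hqM hC
  exact s36b_cusp_single_abs V S 𝔫 (s36b_arch G M q hq hU) F3 q hq.two_le _ _ _
    (s36b_j0_ne_zero M q) (s36b_j1_ne_zero M q) (s36b_j2_ne_zero M q) hU0 hU1 hU2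
    c0a c0b c1a c1b c2a
    (fun Q _ h => s36b_cusp_reg_10 φ M q hq hqM Q h)
    (fun Q _ h => s36b_cusp_reg_01 φ M q hq hqM Q h)
    (fun Q _ h => s36b_cusp_reg_21 φ M q hq hqM Q h)
    (fun Q _ h => s36b_cusp_reg_12 φ M q hq hqM Q h) z₀ hz₀m hz₀

include φ hq hqM in
/-- **The polar closed points of chart 2 of `w = j₀`** (`q ≥ 5`: `w = α'(j)`) lie on at most one
component. -/
theorem s36b_polar_single_j (hC : s36g_ValComap G φ M q hq hqM V)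
    (hU : s36g_ValUnif G M q V t)
    (F3 : ∀ y : s34m_F K₀ (M * q * q), y ≠ 0 →
      {Q : Place K₀ (s34m_F K₀ (M * q * q)) |
        Q ∈ s18_chart2 (L₀ := K₀) (s36b_j0 (K₀ := K₀) M q) ∧ Q.ord y ≠ 0}.Finite)
    (𝔫 : Ideal (s34x_ring (s34x_infRing V) (s18_chart2 (L₀ := K₀) (s36b_j0 (K₀ := K₀) M q))))
    [𝔫.IsPrime]
    (hpol : ∃ b ∈ 𝔫, (b : s34m_F K₀ (M * q * q)) = (s36b_j0 (K₀ := K₀) M q)⁻¹) :
    ∀ i k, s36q_compThrough V _ 𝔫 i → s36q_compThrough V _ 𝔫 k → i = k := by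
  obtain ⟨b, hb, hbj⟩ := hpol
  refine s36b_cusp_single G φ M q hq hqM hC hU _ F3 𝔫
    (algebraMap _ (Localization.AtPrime 𝔫) b) ?_ ?_
  · rw [← Localization.AtPrime.map_eq_maximalIdeal]
    exact Ideal.mem_map_of_mem _ hb
  · rw [s34f_iota_algebraMap, hbj]

end Kron2

end Fermat.Agent.Lib.S36
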