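/-
S36 mega-project, layer (X1) (helper1), part 19 (for (K3)/(K4) of (R-q), board #1820/#1821):
**crossing points of level `M q` are not cuspidal** (NC) / `hjβ`.

Frame: `B = s34x_ring (s34x_infRing (s34m_VV G φ M q hq hqM)) S`, `𝔫` a prime of `B` with
`ker r₁ ≤ 𝔫`, `ker r₂ ≤ 𝔫` (both components pass through `𝔫`).

* `s36b_compThrough_of_ker` : `ker r₁ ≤ 𝔫` / `ker r₂ ≤ 𝔫` ⇒ `s36q_compThrough … true / false`;
* `s36b_cusp_two_level` : `1/j ∈ 𝔪(B_𝔫)` ⇒ the two components do not both pass through `𝔫`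
  (any chart `S`);
* `s36b_unif_mem_of_ker`, `s36b_const_not_mem_level` : `ϖ ∈ 𝔫`, constants of nonzero residue are
  not in `𝔫`;
* `s36b_cross_j_reg_haupt` : on chart 1 of `w₁ = α x`, `x` of Hauptmodul type (`j xᵃ = P(x)`, `P(0)` of
  nonzero residue), `j` is regular at the places through a crossing point;
* **`s36b_cross_noncusp_of_coe`** : for the three base functions (`x = j` / `q = 3`, `x = t₂` /
  `q = 2`, `x = t₃`): `j ∈ O_Q` and `0 ≤ ord_Q (β j_M)` at the places `Q` through a crossing point.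
-/
import Fermat.Agent.Lib.S36.XCrossAbs
import Fermat.Agent.Lib.S36.XCuspInst
import Fermat.Agent.Lib.S36.XMidHaupt
import Fermat.Agent.Lib.S36.REisUnit
import Fermat.Agent.Lib.S35.GDich
import Fermat.Agent.Lib.S36.QFibInst

set_option autoImplicit false
set_option linter.unusedSectionVars false
set_option linter.style.haveILetI false

noncomputable section

namespace Fermat.Agent.Lib.S36

open Polynomial ModularCurve AlgebraicCurve HahnSeries Fermat.Agent.Lib.FF Fermat.Agent.Lib.S18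
  Fermat.Agent.Lib.S28 Fermat.Agent.Lib.S37 Fermat.Agent.Lib.S34 Fermat.Agent.Lib.S35 IsLocalRing

local notation "Kb" => AlgebraicClosure ℚ

variable {K₀ : Type} [Field K₀] [Algebra ℚ K₀] [CharZero K₀] {κ : Type} [Field κ]
  (G : s18g_GaussData K₀ κ) [IsDiscreteValuationRing G.A]
  (φ : K₀ →+* Kb) (M q : ℕ) [NeZero M] [NeZero q] (hq : q.Prime) (hqM : ¬ q ∣ M)

section AnyChart

variable (S : Set (Place K₀ (s34m_F K₀ (M * q))))
  (𝔫 : Ideal (s34x_ring (s34x_infRing (s34m_VV G φ M q hq hqM)) S)) [h𝔫 : 𝔫.IsPrime]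

/-- `ker r₁ ≤ 𝔫` ⇒ the component `C_∞` passes through `𝔫`. -/
theorem s36b_compThrough_of_ker1 (h1 : RingHom.ker (s34df_r1 G φ M q hq hqM S) ≤ 𝔫) :
    s36q_compThrough (s34m_VV G φ M q hq hqM) S 𝔫 true := by
  intro b hb
  obtain ⟨c, hc, e⟩ := s36q_fi_gen G φ M q hq hqM true _ hb
  exact h1 ((RingHom.mem_ker).mpr ((s35gd_r1_eq_zero_iff G φ M q hq hqM S b).mpr ⟨c, hc, e⟩))

/-- `ker r₂ ≤ 𝔫` ⇒ the component `C_0` passes through `𝔫`. -/
theorem s36b_compThrough_of_ker2 (h2 : RingHom.ker (s34df_r2 G φ M q hq hqM S) ≤ 𝔫) :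
    s36q_compThrough (s34m_VV G φ M q hq hqM) S 𝔫 false := by
  intro b hb
  obtain ⟨c, hc, e⟩ := s36q_fi_gen G φ M q hq hqM false _ hb
  exact h2 ((RingHom.mem_ker).mpr ((s35gd_r2_eq_zero_iff G φ M q hq hqM S b).mpr ⟨c, hc, e⟩))

/-- `ϖ ∈ 𝔫` at a point of the component `C_∞`. -/
theorem s36b_unif_mem_of_ker (h1 : RingHom.ker (s34df_r1 G φ M q hq hqM S) ≤ 𝔫) :
    s35gd_unifB G φ M q hq hqM S ∈ 𝔫 := by
  apply h1
  rw [RingHom.mem_ker, s35gd_r1_eq_zero_iff]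
  exact ⟨1, (s34m_VV G φ M q hq hqM true).one_mem, (mul_one _).symm⟩

/-- a constant of `A` with nonzero residue is not in a prime containing `ϖ` (level `M q`). -/
theorem s36b_const_not_mem_level (hπ : Function.Surjective G.π)
    (hϖ : s35gd_unifB G φ M q hq hqM S ∈ 𝔫) (c : G.A) (hc : G.π c ≠ 0) :
    s34f_constHom G.A (s34x_infRing (s34m_VV G φ M q hq hqM))
      (s34x_inf_const_mem (s34m_VV G φ M q hq hqM) G.A (s34c_const_mem_VV G φ M q hq hqM)) S c ∉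
      𝔫 := by
  intro hmem
  obtain ⟨c', hc'⟩ := hπ (G.π c)⁻¹
  have h1 : G.π (c * c' - 1) = 0 := by
    rw [map_sub, map_mul, hc', mul_inv_cancel₀ hc, map_one, sub_self]
  obtain ⟨d, hd⟩ := (G.π_eq_zero_iff _).mp h1
  set cst := s34f_constHom G.A (s34x_infRing (s34m_VV G φ M q hq hqM))
    (s34x_inf_const_mem (s34m_VV G φ M q hq hqM) G.A (s34c_const_mem_VV G φ M q hq hqM)) S
    with hcst
  have e : cst c * cst c' - 1 = cst G.ϖ * cst d := by
    rw [← map_mul, ← map_mul, ← hd, map_sub, map_one]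
  have h3 : (1 : s34x_ring (s34x_infRing (s34m_VV G φ M q hq hqM)) S) ∈ 𝔫 := by
    have : (1 : s34x_ring (s34x_infRing (s34m_VV G φ M q hq hqM)) S) =
        cst c * cst c' - cst G.ϖ * cst d := by
      rw [← e]; ring
    rw [this]
    exact 𝔫.sub_mem (𝔫.mul_mem_right _ hmem) (𝔫.mul_mem_right _ hϖ)
  exact h𝔫.ne_top ((Ideal.eq_top_iff_one _).mpr h3)

variable [CharP κ q]

include φ hq hqM in
/-- **A cuspidal point of level `M q` does not lie on both components**: if `1/j ∈ 𝔪(B_𝔫)` then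
`C_∞` and `C_0` do not both pass through `𝔫` (any chart `S`). -/
theorem s36b_cusp_two_level
    (z₀ : Localization.AtPrime 𝔫) (hz₀m : z₀ ∈ maximalIdeal (Localization.AtPrime 𝔫))
    (hz₀ : s34f_iota (s34x_infRing (s34m_VV G φ M q hq hqM)) S 𝔫 z₀ =
      (s18g_jF (K := K₀) (M * q))⁻¹)
    (ha : s36q_compThrough (s34m_VV G φ M q hq hqM) S 𝔫 true)
    (hb : s36q_compThrough (s34m_VV G φ M q hq hqM) S 𝔫 false) : False := by
  obtain ⟨⟨haI, haI'⟩, ⟨ha0, ha0'⟩, ⟨hbI, hbI'⟩, ⟨hb0, hb0'⟩⟩ := s36b_level_units G φ M q hq hqM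
  have hj0 : s18g_jF (K := K₀) (M * q) ≠ 0 := s18g_jF_ne_zero (M * q)
  have hb0' : s34m_betaJ (K₀ := K₀) M q ≠ 0 := s36b_betaJ_ne_zero M q
  refine s36b_cusp_two_abs (s34m_VV G φ M q hq hqM) S 𝔫 (s36e_arch_VV G φ M q hq hqM) ?_ q
    hq.two_le (s18g_jF (K := K₀) (M * q)) (s34m_betaJ (K₀ := K₀) M q) hj0 hb0' ?_ ?_ true false
    (s36b_kron_inf G M q hq) (s36b_kron_zero G φ M q hq hqM) ?_ ?_ z₀ hz₀m hz₀ ha hb
  · intro y hy
    exact (s34d2_finite_ord_ne_zero φ (M * q) y hy).subset fun Q hQ => hQ.2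
  · intro k
    cases k
    · exact ⟨ha0, ha0'⟩
    · exact ⟨haI, haI'⟩
  · intro k
    cases k
    · exact ⟨hb0, by assumption⟩
    · exact ⟨hbI, hbI'⟩
  · intro Q _ h
    exact s36b_modRel_reg_K φ q (M * q) _ _ hb0' hj0
      (by rw [s36b_iota_betaJ, s18r_map_jF]; exact (s36b_modRel_level M q hq hqM).1) Q h
  · intro Q _ h
    exact s36b_modRel_reg_K φ q (M * q) _ _ hj0 hb0'
      (by rw [s36b_iota_betaJ, s18r_map_jF]; exact (s36b_modRel_level M q hq hqM).2) Q h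

end AnyChart

section ChartOne

variable [CharP κ q]

include φ hq hqM in
/-- **`j` is regular at the places through a crossing point** of chart 1 of `w₁ = α x`, `x` of
Hauptmodul type. -/
theorem s36b_cross_j_reg_haupt (hπ : Function.Surjective G.π)
    (x : s34m_F K₀ M) (hx0 : x ≠ 0)
    (hxO : ∀ i, heckeAlphaBar K₀ M q x ∈ s34m_VV G φ M q hq hqM i)
    (hxO' : ∀ i, (heckeAlphaBar K₀ M q x)⁻¹ ∈ s34m_VV G φ M q hq hqM i)
    (P : K₀[X]) (a : ℕ) (ha : 0 < a) (rM : s18g_jF (K := K₀) M * x ^ a = aeval x P)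
    (c : G.A) (hc : G.π c ≠ 0) (hPc : P.coeff 0 = (c : K₀))
    (𝔫 : Ideal (s34x_ring (s34x_infRing (s34m_VV G φ M q hq hqM))
      (s18_chart1 (L₀ := K₀) (heckeAlphaBar K₀ M q x)))) [h𝔫 : 𝔫.IsPrime]
    (h1 : RingHom.ker (s34df_r1 G φ M q hq hqM
      (s18_chart1 (L₀ := K₀) (heckeAlphaBar K₀ M q x))) ≤ 𝔫)
    (h2 : RingHom.ker (s34df_r2 G φ M q hq hqM
      (s18_chart1 (L₀ := K₀) (heckeAlphaBar K₀ M q x))) ≤ 𝔫)
    (Q : Place K₀ (s34m_F K₀ (M * q)))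
    (hQ : Q ∈ s18_chart1 (L₀ := K₀) (heckeAlphaBar K₀ M q x))
    (hth : s34f_through (s34x_infRing (s34m_VV G φ M q hq hqM))
      (s18_chart1 (L₀ := K₀) (heckeAlphaBar K₀ M q x)) 𝔫 Q) :
    s18g_jF (K := K₀) (M * q) ∈ Q.toValuationSubring := by
  by_contra hj
  have r₀ : s18g_jF (K := K₀) (M * q) * heckeAlphaBar K₀ M q x ^ a =
      aeval (heckeAlphaBar K₀ M q x) P := by
    have h := congrArg (heckeAlphaBar K₀ M q) rM
    rw [map_mul, map_pow, ← Polynomial.aeval_algHom_apply, s34m_alpha_jF (K₀ := K₀) M q] at h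
    exact h
  have hw0 : heckeAlphaBar K₀ M q x ≠ 0 := (_root_.map_ne_zero (heckeAlphaBar K₀ M q)).mpr hx0
  obtain ⟨⟨haI, -⟩, ⟨ha0, -⟩, -, -⟩ := s36b_level_units G φ M q hq hqM
  have hjV : ∀ k, s18g_jF (K := K₀) (M * q) ∈ s34m_VV G φ M q hq hqM k := fun k => by
    cases k
    · exact ha0
    · exact haI
  have hϖ := s36b_unif_mem_of_ker G φ M q hq hqM _ 𝔫 h1
  have hc𝔫 := s36b_const_not_mem_level G φ M q hq hqM _ 𝔫 hπ hϖ c hc
  have hT := s36b_compThrough_of_ker1 G φ M q hq hqM _ 𝔫 h1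
  have hF := s36b_compThrough_of_ker2 G φ M q hq hqM _ 𝔫 h2
  -- abbreviations
  generalize hwdef : heckeAlphaBar K₀ M q x = w at *
  have hwQ : w ∈ Q.toValuationSubring := hQ
  have hwinv : ¬ w⁻¹ ∈ Q.toValuationSubring := fun h =>
    hj (s36p_j_mem_of_unit Q.toValuationSubring Q.algebraMap_mem' P a _ w hw0 r₀ hwQ h)
  have hpos : 0 < Q.ord w := by
    by_contra hcon
    apply hwinv
    rw [ff_mem_iff_ord_nonneg Q (inv_ne_zero hw0), Q.ord_inv]
    omega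
  have hwB : w ∈ s34x_ring (s34x_infRing (s34m_VV G φ M q hq hqM)) (s18_chart1 (L₀ := K₀) w) :=
    ⟨(s34x_mem_infRing _ _).mpr hxO, fun Q hQ => hQ⟩
  have hw𝔫 : (⟨w, hwB⟩ : s34x_ring (s34x_infRing (s34m_VV G φ M q hq hqM))
      (s18_chart1 (L₀ := K₀) w)) ∈ 𝔫 := hth ⟨w, hwB⟩ hw0 hpos
  have hpoly : ∀ (R : K₀[X]) (Q : Place K₀ (s34m_F K₀ (M * q))),
      Q ∈ s18_chart1 (L₀ := K₀) w → aeval w R ∈ Q.toValuationSubring := fun R Q hQ =>
    s36u_cusp_aeval_mem Q.toValuationSubring Q.algebraMap_mem' _ hQ R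
  have hPB : aeval w P ∈ s34x_ring (s34x_infRing (s34m_VV G φ M q hq hqM))
      (s18_chart1 (L₀ := K₀) w) :=
    ⟨(s34x_mem_infRing _ _).mpr fun k => by
      rw [← r₀]
      exact (s34m_VV G φ M q hq hqM k).mul_mem _ _ (hjV k) (pow_mem (hxO k) a),
      fun Q hQ => hpoly P Q hQ⟩
  have hR : aeval w P = aeval w P.divX * w +
      algebraMap K₀ (s34m_F K₀ (M * q)) (P.coeff 0) := by
    conv_lhs => rw [← Polynomial.divX_mul_X_add P]
    rw [map_add, map_mul, aeval_X, aeval_C]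
  have hcV : ∀ k, algebraMap K₀ (s34m_F K₀ (M * q)) (P.coeff 0) ∈ s34m_VV G φ M q hq hqM k :=
    fun k => by rw [hPc]; exact s34c_const_mem_VV G φ M q hq hqM k c
  have hRB : aeval w P.divX ∈ s34x_ring (s34x_infRing (s34m_VV G φ M q hq hqM))
      (s18_chart1 (L₀ := K₀) w) :=
    ⟨(s34x_mem_infRing _ _).mpr fun k => by
      have e : aeval w P.divX = (aeval w P -
          algebraMap K₀ (s34m_F K₀ (M * q)) (P.coeff 0)) * w⁻¹ := by
        rw [hR, add_sub_cancel_right]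
        exact (mul_inv_cancel_right₀ hw0 _).symm
      rw [e]
      exact (s34m_VV G φ M q hq hqM k).mul_mem _ _
        ((s34m_VV G φ M q hq hqM k).sub_mem ((s34x_mem_infRing _ _).mp hPB.1 k) (hcV k))
        (hxO' k), fun Q hQ => hpoly _ Q hQ⟩
  have hP𝔫 : (⟨aeval w P, hPB⟩ : s34x_ring (s34x_infRing (s34m_VV G φ M q hq hqM))
      (s18_chart1 (L₀ := K₀) w)) ∉ 𝔫 := by
    intro hmem
    apply hc𝔫
    have e : s34f_constHom G.A (s34x_infRing (s34m_VV G φ M q hq hqM))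
        (s34x_inf_const_mem (s34m_VV G φ M q hq hqM) G.A (s34c_const_mem_VV G φ M q hq hqM))
        (s18_chart1 (L₀ := K₀) w) c =
        ⟨aeval w P, hPB⟩ - ⟨aeval w P.divX, hRB⟩ * ⟨w, hwB⟩ := by
      apply Subtype.ext
      show algebraMap K₀ (s34m_F K₀ (M * q)) (c : K₀) = aeval w P - aeval w P.divX * w
      rw [hR, hPc, add_sub_cancel_left]
    rw [e]
    exact 𝔫.sub_mem hmem (𝔫.mul_mem_left _ hw𝔫)
  -- `z₀ = wᵃ / P(w)`
  have huu : IsUnit (algebraMap _ (Localization.AtPrime 𝔫)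
      (⟨aeval w P, hPB⟩ : s34x_ring (s34x_infRing (s34m_VV G φ M q hq hqM))
        (s18_chart1 (L₀ := K₀) w))) :=
    IsLocalization.map_units (Localization.AtPrime 𝔫) (⟨_, hP𝔫⟩ : 𝔫.primeCompl)
  obtain ⟨v, hv⟩ := huu.exists_right_inv
  have h1' := congrArg (s34f_iota (s34x_infRing (s34m_VV G φ M q hq hqM))
    (s18_chart1 (L₀ := K₀) w) 𝔫) hv
  rw [map_mul, s34f_iota_algebraMap, map_one] at h1'
  have hP0 : aeval w P ≠ 0 := left_ne_zero_of_mul_eq_one h1'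
  have hv' : s34f_iota (s34x_infRing (s34m_VV G φ M q hq hqM)) (s18_chart1 (L₀ := K₀) w) 𝔫 v =
      (aeval w P)⁻¹ := eq_inv_of_mul_eq_one_right h1'
  have hwa𝔫 : (⟨w, hwB⟩ : s34x_ring (s34x_infRing (s34m_VV G φ M q hq hqM))
      (s18_chart1 (L₀ := K₀) w)) ^ a ∈ 𝔫 := by
    obtain ⟨a', rfl⟩ : ∃ a', a = a' + 1 := ⟨a - 1, by omega⟩
    rw [pow_succ]
    exact 𝔫.mul_mem_left _ hw𝔫
  have hz₀m : algebraMap _ (Localization.AtPrime 𝔫)
      ((⟨w, hwB⟩ : s34x_ring (s34x_infRing (s34m_VV G φ M q hq hqM))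
        (s18_chart1 (L₀ := K₀) w)) ^ a) * v ∈ maximalIdeal (Localization.AtPrime 𝔫) :=
    Ideal.mul_mem_right _ _
      ((IsLocalization.AtPrime.to_map_mem_maximal_iff (Localization.AtPrime 𝔫) 𝔫 _).mpr hwa𝔫)
  have hz₀ : s34f_iota (s34x_infRing (s34m_VV G φ M q hq hqM)) (s18_chart1 (L₀ := K₀) w) 𝔫
      (algebraMap _ (Localization.AtPrime 𝔫)
        ((⟨w, hwB⟩ : s34x_ring (s34x_infRing (s34m_VV G φ M q hq hqM))
          (s18_chart1 (L₀ := K₀) w)) ^ a) * v) = (s18g_jF (K := K₀) (M * q))⁻¹ := by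
    rw [map_mul, s34f_iota_algebraMap, hv', ← r₀]
    show w ^ a * (s18g_jF (K := K₀) (M * q) * w ^ a)⁻¹ = (s18g_jF (K := K₀) (M * q))⁻¹
    rw [mul_inv_rev, ← mul_assoc, mul_inv_cancel₀ (pow_ne_zero _ hw0), one_mul]
  exact s36b_cusp_two_level G φ M q hq hqM _ 𝔫 _ hz₀m hz₀ hT hF

include φ hq hqM in
/-- **(NC) / `hjβ`: crossing points of chart 1 of the three base functions are not cuspidal.**
`x = j`, or `q = 3` and `x = t₂`, or `q = 2` and `x = t₃` (the q-expansion disjunct of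
`s36b_base_full_all` / `s36g_BaseFull`): at a place `Q` of chart 1 of `α x` through a prime `𝔫`
with `ker r₁, ker r₂ ≤ 𝔫`, both `j` and `β j_M = j(qz)` are regular. -/
theorem s36b_cross_noncusp_of_coe (hπ : Function.Surjective G.π)
    (x : s34m_F K₀ M) (hB : s35g_BaseData G φ M q hq hqM (heckeAlphaBar K₀ M q x))
    (hcoe : (x : LaurentSeries K₀) = jqModC K₀ ∨ (q = 3 ∧ (x : LaurentSeries K₀) = s18u_t2 K₀) ∨
      (q = 2 ∧ (x : LaurentSeries K₀) = s18u_t3 K₀))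
    (𝔫 : Ideal (s34x_ring (s34x_infRing (s34m_VV G φ M q hq hqM))
      (s18_chart1 (L₀ := K₀) (heckeAlphaBar K₀ M q x)))) [h𝔫 : 𝔫.IsPrime]
    (h1 : RingHom.ker (s34df_r1 G φ M q hq hqM
      (s18_chart1 (L₀ := K₀) (heckeAlphaBar K₀ M q x))) ≤ 𝔫)
    (h2 : RingHom.ker (s34df_r2 G φ M q hq hqM
      (s18_chart1 (L₀ := K₀) (heckeAlphaBar K₀ M q x))) ≤ 𝔫)
    (Q : Place K₀ (s34m_F K₀ (M * q)))
    (hQ : Q ∈ s18_chart1 (L₀ := K₀) (heckeAlphaBar K₀ M q x))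
    (hth : s34f_through (s34x_infRing (s34m_VV G φ M q hq hqM))
      (s18_chart1 (L₀ := K₀) (heckeAlphaBar K₀ M q x)) 𝔫 Q) :
    s18g_jF (K := K₀) (M * q) ∈ Q.toValuationSubring ∧
      0 ≤ Q.ord (heckeBetaBar K₀ M q (s18g_jF (K := K₀) M)) := by
  obtain ⟨hw0, -, hwO, hwO', -⟩ := hB
  have hx0 : x ≠ 0 := by
    rintro rfl
    exact hw0 (map_zero _)
  have hj : s18g_jF (K := K₀) (M * q) ∈ Q.toValuationSubring := by
    rcases hcoe with h | ⟨hq3, h⟩ | ⟨hq2, h⟩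
    · have hx : x = s18g_jF (K := K₀) M := Subtype.ext h
      have hQ' : heckeAlphaBar K₀ M q x ∈ Q.toValuationSubring := hQ
      rw [hx, s34m_alpha_jF (K₀ := K₀) M q] at hQ'
      exact hQ'
    · have hH := s18b_haupt_two K₀
      refine s36b_cross_j_reg_haupt G φ M q hq hqM hπ x hx0 hwO hwO' _ 2 (by norm_num)
        (s34e_cusp_rel_of_coe M _ 2 (s18u_t2 K₀) hH.rel x h) ((256 ^ 3 : ℕ) : G.A) ?_ ?_
        𝔫 h1 h2 Q hQ hth
      · rw [map_natCast]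
        intro h0
        have h1 := (CharP.cast_eq_zero_iff κ q _).mp h0
        rw [hq3] at h1
        norm_num at h1
      · have e : ((((256 ^ 3 : ℕ) : G.A)) : K₀) = ((256 ^ 3 : ℕ) : K₀) :=
          map_natCast G.A.subtype _
        rw [e, Polynomial.coeff_zero_eq_eval_zero]
        norm_num
    · have hH := s18b_haupt_three K₀
      refine s36b_cross_j_reg_haupt G φ M q hq hqM hπ x hx0 hwO hwO' _ 3 (by norm_num)
        (s34e_cusp_rel_of_coe M _ 3 (s18u_t3 K₀) hH.rel x h) ((27 * 243 ^ 3 : ℕ) : G.A) ?_ ?_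
        𝔫 h1 h2 Q hQ hth
      · rw [map_natCast]
        intro h0
        have h1 := (CharP.cast_eq_zero_iff κ q _).mp h0
        rw [hq2] at h1
        norm_num at h1
      · have e : ((((27 * 243 ^ 3 : ℕ) : G.A)) : K₀) = ((27 * 243 ^ 3 : ℕ) : K₀) :=
          map_natCast G.A.subtype _
        rw [e, Polynomial.coeff_zero_eq_eval_zero]
        norm_num
  refine ⟨hj, ?_⟩
  have hu : s34d2_u (K₀ := K₀) M q ∈ Q.toValuationSubring :=
    s34e_cusp_mem_of_intOver Q.toValuationSubring (s34d2_intOver_u M q) hj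
  have hne : heckeBetaBar K₀ M q (s18g_jF (K := K₀) M) ≠ 0 :=
    (_root_.map_ne_zero (heckeBetaBar K₀ M q)).mpr (s18g_jF_ne_zero M)
  exact (ff_mem_iff_ord_nonneg Q hne).mp hu

end ChartOne

end Fermat.Agent.Lib.S36
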