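/-
S36 mega-project, layer (X1) (helper1), part 20 (for (K3)/(K4) of (R-q), board #1820/#1821):
**a crossing point of chart 1 of `w₁ = α x` at level `M q` is a CLOSED point**.

* `s36b_codRestrict_isIntegral` : abstract; if the subring `B` is the set of elements integral over
  the image of `f : R →+* 𝓕`, then `f` corestricts to an integral ring homomorphism `R →+* B`;
* `s36b_cross_indep` : there is `b ∈ B` with `r₂ b = 0` and `r₁ b ≠ 0` (weak approximation + (AlphaW)
  + transcendence of the reduction of `x`);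
* **`s36b_cross_isMaximal`** : a prime `𝔫` of `B` with `ker r₁ ≤ 𝔫` and `ker r₂ ≤ 𝔫` is maximal
  (`B` integral over `A[w₁]`, `r₁` kills `ϖ A[w₁]`, `𝔫 ⊋ ker r₁`; `s36b_isMaximal_of_integral`).
-/
import Fermat.Agent.Lib.S36.XCrossNC
import Fermat.Agent.Lib.S36.QFracInst
import Fermat.Agent.Lib.S34.XFin

set_option autoImplicit false
set_option linter.unusedSectionVars false
set_option linter.style.haveILetI false

noncomputable section

namespace Fermat.Agent.Lib.S36

open Polynomial ModularCurve AlgebraicCurve HahnSeries Fermat.Agent.Lib.FF Fermat.Agent.Lib.S18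
  Fermat.Agent.Lib.S28 Fermat.Agent.Lib.S37 Fermat.Agent.Lib.S34 Fermat.Agent.Lib.S35 IsLocalRing

local notation "Kb" => AlgebraicClosure ℚ

section Abs

variable {R 𝓕 : Type*} [CommRing R] [CommRing 𝓕]

/-- corestriction of `f` to the subring of the elements integral over its image. -/
theorem s36b_codRestrict_isIntegral (f : R →+* 𝓕) (B : Subring 𝓕)
    (hB : ∀ y : 𝓕, y ∈ B ↔ f.IsIntegralElem y) :
    ∃ e : R →+* B, (∀ p, ((e p : B) : 𝓕) = f p) ∧ e.IsIntegral := by
  have hf : ∀ p, f p ∈ B := fun p => (hB _).mpr (f.isIntegralElem_map)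
  refine ⟨f.codRestrict B hf, fun p => rfl, fun b => ?_⟩
  obtain ⟨p, hp, h0⟩ := (hB b).mp b.2
  refine ⟨p, hp, ?_⟩
  apply Subtype.ext
  have h := Polynomial.hom_eval₂ p (f.codRestrict B hf) B.subtype b
  have hcomp : (B.subtype : B →+* 𝓕).comp (f.codRestrict B hf) = f := RingHom.ext fun _ => rfl
  rw [hcomp] at h
  exact h.trans h0

end Abs

variable {K₀ : Type} [Field K₀] [Algebra ℚ K₀] [CharZero K₀] {κ : Type} [Field κ]
  (G : s18g_GaussData K₀ κ) [IsDiscreteValuationRing G.A]
  (φ : K₀ →+* Kb) (M q : ℕ) [NeZero M] [NeZero q] (hq : q.Prime) (hqM : ¬ q ∣ M) [CharP κ q]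
  (x : s34m_F K₀ M) (hx : x ∈ s34m_Vinf G M)

/-- **Independence of the two components**: an element of the chart ring vanishing on `C_0` but not
on `C_∞`. -/
theorem s36b_cross_indep (hB : s35g_BaseData G φ M q hq hqM (heckeAlphaBar K₀ M q x))
    (htr : Transcendental κ (s34m_redInf G M ⟨x, hx⟩)) :
    ∃ b : s34x_ring (s34x_infRing (s34m_VV G φ M q hq hqM))
        (s18_chart1 (L₀ := K₀) (heckeAlphaBar K₀ M q x)),
      s34df_r2 G φ M q hq hqM (s18_chart1 (L₀ := K₀) (heckeAlphaBar K₀ M q x)) b = 0 ∧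
      s34df_r1 G φ M q hq hqM (s18_chart1 (L₀ := K₀) (heckeAlphaBar K₀ M q x)) b ≠ 0 := by
  classical
  obtain ⟨-, hgen, hwO, -, -, hα, -, -, -⟩ := hB
  haveI := hgen
  have hmem := s34x_mem_ring_iff G (laurentBaseChange K₀ (modularFunctionFieldFull (M * q)))
    (heckeAlphaBar K₀ M q x) (s34m_VV G φ M q hq hqM) (s34c_const_mem_VV G φ M q hq hqM) hwO hα
  obtain ⟨y, hy⟩ := s36g_approx_fintype (s34m_VV G φ M q hq hqM)
    (s36e_arch_VV G φ M q hq hqM)
    (fun k => ⟨_, s36e_unif_mem_nonunits_VV G φ M q hq hqM k, s34m_unif_ne_zero G (M * q)⟩)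
    (s36qf_VV_ne G φ M q hq hqM) (fun k => if k = true then 1 else 0)
    (fun k => by
      cases k
      · simp only [Bool.false_eq_true, if_false]
        exact (s34m_VV G φ M q hq hqM false).zero_mem
      · simp only [if_true]
        exact (s34m_VV G φ M q hq hqM true).one_mem)
  have hyT : y - 1 ∈ (s34m_VV G φ M q hq hqM true).nonunits := by
    have := hy true
    simpa using this
  have hyF : y ∈ (s34m_VV G φ M q hq hqM false).nonunits := by
    have := hy false
    simpa using this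
  have hyTm : y ∈ s34m_VV G φ M q hq hqM true := by
    have h1 : y - 1 ∈ s34m_VV G φ M q hq hqM true :=
      (s34m_VV G φ M q hq hqM true).nonunits_le hyT
    have : y = (y - 1) + 1 := by ring
    rw [this]
    exact (s34m_VV G φ M q hq hqM true).add_mem _ _ h1 (s34m_VV G φ M q hq hqM true).one_mem
  have hyO : y ∈ s34x_infRing (s34m_VV G φ M q hq hqM) := (s34x_mem_infRing _ _).mpr fun k => by
    cases k
    · exact (s34m_VV G φ M q hq hqM false).nonunits_le hyF
    · exact hyTm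
  have hyTu : y ∉ (s34m_VV G φ M q hq hqM true).nonunits := by
    intro h
    have h1 : (1 : s34m_F K₀ (M * q)) ∈ (s34m_VV G φ M q hq hqM true).nonunits := by
      have e : (1 : s34m_F K₀ (M * q)) = y + -(y - 1) := by ring
      rw [e]
      refine s36qf_add_mem_nonunits _ h ?_
      rw [ValuationSubring.mem_nonunits_iff, Valuation.map_neg]
      exact (ValuationSubring.mem_nonunits_iff (A := s34m_VV G φ M q hq hqM true)).mp hyT
    rw [ValuationSubring.mem_nonunits_iff, map_one] at h1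
    exact lt_irrefl _ h1
  obtain ⟨s, hs, hsy⟩ := hα y hyO
  have hsB : s18b_ev G (laurentBaseChange K₀ (modularFunctionFieldFull (M * q)))
      (heckeAlphaBar K₀ M q x) s ∈ s34x_ring (L₀ := K₀) (s34x_infRing (s34m_VV G φ M q hq hqM))
        (s18_chart1 (heckeAlphaBar K₀ M q x)) := (hmem _).mpr (RingHom.isIntegralElem_map _)
  have hsV : ∀ k, s18b_ev G (laurentBaseChange K₀ (modularFunctionFieldFull (M * q)))
      (heckeAlphaBar K₀ M q x) s ∈ s34m_VV G φ M q hq hqM k :=
    (s34x_mem_infRing _ _).mp hsB.1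
  have hsu := s36qf_unit_inf G φ M q hq hqM x hx htr s hs
  refine ⟨⟨_, (hmem _).mpr hsy⟩, ?_, ?_⟩
  · rw [s35gd_r2_eq_zero_iff]
    obtain ⟨c, hc, e⟩ := s36q_fi_gen G φ M q hq hqM false y hyF
    refine ⟨s18b_ev G (laurentBaseChange K₀ (modularFunctionFieldFull (M * q)))
      (heckeAlphaBar K₀ M q x) s * c, (s34m_VV G φ M q hq hqM false).mul_mem _ _ (hsV false) hc, ?_⟩
    show s18b_ev G (laurentBaseChange K₀ (modularFunctionFieldFull (M * q)))
      (heckeAlphaBar K₀ M q x) s * y = s34m_unif G (M * q) * _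
    rw [e]
    ring
  · intro h0
    rw [s35gd_r1_eq_zero_iff] at h0
    obtain ⟨y', hy', e⟩ := h0
    have e' : s18b_ev G (laurentBaseChange K₀ (modularFunctionFieldFull (M * q)))
      (heckeAlphaBar K₀ M q x) s * y = s34m_unif G (M * q) * y' := e
    have h1 : s18b_ev G (laurentBaseChange K₀ (modularFunctionFieldFull (M * q)))
        (heckeAlphaBar K₀ M q x) s * y ∈ (s34m_VV G φ M q hq hqM true).nonunits := by
      rw [e']
      exact s36qf_mul_mem_nonunits _ (s36e_unif_mem_nonunits_VV G φ M q hq hqM true) hy'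
    rw [ValuationSubring.mem_nonunits_iff, map_mul] at h1
    have v1 : (s34m_VV G φ M q hq hqM true).valuation (s18b_ev G
        (laurentBaseChange K₀ (modularFunctionFieldFull (M * q))) (heckeAlphaBar K₀ M q x) s) = 1 :=
      le_antisymm (((s34m_VV G φ M q hq hqM true).valuation_le_one_iff _).mpr (hsV true))
        (not_lt.mp fun h => hsu ((ValuationSubring.mem_nonunits_iff _).mpr h))
    have v2 : (s34m_VV G φ M q hq hqM true).valuation y = 1 :=
      le_antisymm (((s34m_VV G φ M q hq hqM true).valuation_le_one_iff _).mpr hyTm)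
        (not_lt.mp fun h => hyTu ((ValuationSubring.mem_nonunits_iff _).mpr h))
    rw [v1, v2, mul_one] at h1
    exact lt_irrefl _ h1

/-- **A crossing point is a closed point.** -/
theorem s36b_cross_isMaximal (hπ : Function.Surjective G.π)
    (hB : s35g_BaseData G φ M q hq hqM (heckeAlphaBar K₀ M q x))
    (htr : Transcendental κ (s34m_redInf G M ⟨x, hx⟩))
    (𝔫 : Ideal (s34x_ring (s34x_infRing (s34m_VV G φ M q hq hqM))
      (s18_chart1 (L₀ := K₀) (heckeAlphaBar K₀ M q x)))) [h𝔫 : 𝔫.IsPrime]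
    (h1 : RingHom.ker (s34df_r1 G φ M q hq hqM
      (s18_chart1 (L₀ := K₀) (heckeAlphaBar K₀ M q x))) ≤ 𝔫)
    (h2 : RingHom.ker (s34df_r2 G φ M q hq hqM
      (s18_chart1 (L₀ := K₀) (heckeAlphaBar K₀ M q x))) ≤ 𝔫) : 𝔫.IsMaximal := by
  obtain ⟨b, hb2, hb1⟩ := s36b_cross_indep G φ M q hq hqM x hx hB htr
  obtain ⟨-, hgen, hwO, -, -, hα, -, -, -⟩ := hB
  haveI := hgen
  have hmem := s34x_mem_ring_iff G (laurentBaseChange K₀ (modularFunctionFieldFull (M * q)))
    (heckeAlphaBar K₀ M q x) (s34m_VV G φ M q hq hqM) (s34c_const_mem_VV G φ M q hq hqM) hwO hα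
  obtain ⟨e, hec, heI⟩ := s36b_codRestrict_isIntegral
    (s18b_ev G (laurentBaseChange K₀ (modularFunctionFieldFull (M * q))) (heckeAlphaBar K₀ M q x))
    (s34x_ring (L₀ := K₀) (s34x_infRing (s34m_VV G φ M q hq hqM))
      (s18_chart1 (heckeAlphaBar K₀ M q x))) hmem
  refine s36b_isMaximal_of_integral G.π hπ e heI
    (s34df_r1 G φ M q hq hqM (s18_chart1 (L₀ := K₀) (heckeAlphaBar K₀ M q x))) ?_ 𝔫 h1 b
    (h2 ((RingHom.mem_ker).mpr hb2)) hb1
  intro p hp
  obtain ⟨p', rfl⟩ := (s18b_C_unif_dvd_iff G p).mpr hp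
  rw [s35gd_r1_eq_zero_iff]
  refine ⟨((e p' : s34x_ring (s34x_infRing (s34m_VV G φ M q hq hqM))
    (s18_chart1 (L₀ := K₀) (heckeAlphaBar K₀ M q x))) : s34m_F K₀ (M * q)),
    (s34x_mem_infRing _ _).mp (e p').2.1 true, ?_⟩
  rw [hec, hec, map_mul, s18b_evA_C]
  rfl

end Fermat.Agent.Lib.S36
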