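/-
S36 mega-project, layer (X1) (helper1), part 21 (for (K2)/(K3)/(K4) of (R-q), board #1821/#1833):
**the K2 inputs at a crossing point of chart 1 of `w₁ = α x`** and the hypothesis `hF5` of helper4's
`s36r_regCross_df` (`RThick.lean`), LITERALLY, for `BM = s18_ring (V_M) (chart1 x)`.

* `s36b_constM` : the constants `A →+* BM`;
* `s36b_ord_nonneg_of_mem` : `y ∈ O_Q ⇒ 0 ≤ ord_Q y` (also for `y = 0`);
* `s36b_cross_comap_isMaximal` : for `f : BM →+* B` the restriction of a `K₀`-algebra map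
  (`α` or `β`) and `𝔫` a MAXIMAL ideal of `B` containing `ϖ`: `f⁻¹ 𝔫` is maximal and contains `ϖ`;
* **`s36b_cross_hF5`** : at a maximal crossing point `𝔫` (`ker r₁, ker r₂ ≤ 𝔫`): for `t₂ ∈ BM` a
  level-`M` local coordinate in element form at `β⁻¹ 𝔫`, `d x = c · d(β t₂)` with `x ∈ B` ⇒
  `0 ≤ ord_Q c` at the places `Q` through `𝔫` (helper2's `s36e_hk_ratio_regular` + (NC)).
-/
import Fermat.Agent.Lib.S36.XCrossMax
import Fermat.Agent.Lib.S36.RHorizK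
import Fermat.Agent.Lib.S36.REllAbs
import Fermat.Agent.Lib.S36.REisPt

set_option autoImplicit false
set_option linter.unusedSectionVars false
set_option linter.style.haveILetI false

noncomputable section

namespace Fermat.Agent.Lib.S36

open Polynomial ModularCurve AlgebraicCurve HahnSeries KaehlerDifferential Fermat.Agent.Lib.FF
  Fermat.Agent.Lib.S18 Fermat.Agent.Lib.S28 Fermat.Agent.Lib.S37 Fermat.Agent.Lib.S34
  Fermat.Agent.Lib.S35 IsLocalRing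

local notation "Kb" => AlgebraicClosure ℚ

/-- `y ∈ O_Q ⇒ 0 ≤ ord_Q y`. -/
theorem s36b_ord_nonneg_of_mem {L₀ 𝓕 : Type*} [Field L₀] [Field 𝓕] [Algebra L₀ 𝓕]
    (Q : Place L₀ 𝓕) (y : 𝓕) (hy : y ∈ Q.toValuationSubring) : 0 ≤ Q.ord y := by
  by_cases h0 : y = 0
  · rw [h0, Place.ord_zero]
  · exact (ff_mem_iff_ord_nonneg Q h0).mp hy

variable {K₀ : Type} [Field K₀] [Algebra ℚ K₀] [CharZero K₀] {κ : Type} [Field κ]
  (G : s18g_GaussData K₀ κ) [IsDiscreteValuationRing G.A]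
  (φ : K₀ →+* Kb) (M q : ℕ) [NeZero M] [NeZero q] (hq : q.Prime) (hqM : ¬ q ∣ M) [CharP κ q]
  [PerfectField κ]
  (x : s34m_F K₀ M)

/-- the constants `A →+* BM` of the chart ring of level `M`. -/
def s36b_constM : G.A →+* s18_ring (L₀ := K₀) (s34m_Vinf G M) (s18_chart1 x) :=
  ((algebraMap K₀ (s34m_F K₀ M)).comp G.A.subtype).codRestrict
    (s18_ring (L₀ := K₀) (s34m_Vinf G M) (s18_chart1 x))
    (fun a => ⟨(s18g_constV G (laurentBaseChange K₀ (modularFunctionFieldFull M))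
      (s34m_hF G M) a).2, fun Q _ => Q.algebraMap_mem' _⟩)

theorem s36b_coe_constM (a : G.A) :
    ((s36b_constM G M x a : s18_ring (L₀ := K₀) (s34m_Vinf G M) (s18_chart1 x)) : s34m_F K₀ M) =
      algebraMap K₀ (s34m_F K₀ M) (a : K₀) := rfl

/-- **Preimages of a closed crossing point at level `M` are closed points containing `ϖ`.** -/
theorem s36b_cross_comap_isMaximal (hπ : Function.Surjective G.π)
    (hB : s35g_BaseData G φ M q hq hqM (heckeAlphaBar K₀ M q x))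
    (σ : s34m_F K₀ M →ₐ[K₀] s34m_F K₀ (M * q))
    (f : s18_ring (L₀ := K₀) (s34m_Vinf G M) (s18_chart1 x) →+*
      s34x_ring (s34x_infRing (s34m_VV G φ M q hq hqM))
        (s18_chart1 (L₀ := K₀) (heckeAlphaBar K₀ M q x)))
    (hf : ∀ g : s18_ring (L₀ := K₀) (s34m_Vinf G M) (s18_chart1 x),
      ((f g : s34x_ring (s34x_infRing (s34m_VV G φ M q hq hqM))
        (s18_chart1 (L₀ := K₀) (heckeAlphaBar K₀ M q x))) : s34m_F K₀ (M * q)) =
        σ (g : s34m_F K₀ M))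
    (𝔫 : Ideal (s34x_ring (s34x_infRing (s34m_VV G φ M q hq hqM))
      (s18_chart1 (L₀ := K₀) (heckeAlphaBar K₀ M q x)))) [h𝔫 : 𝔫.IsMaximal]
    (hϖ : s35gd_unifB G φ M q hq hqM (s18_chart1 (L₀ := K₀) (heckeAlphaBar K₀ M q x)) ∈ 𝔫) :
    (𝔫.comap f).IsMaximal ∧ s36b_constM G M x G.ϖ ∈ 𝔫.comap f := by
  letI algM : Algebra G.A (s18_ring (L₀ := K₀) (s34m_Vinf G M) (s18_chart1 x)) :=
    (s36b_constM G M x).toAlgebra
  letI algB : Algebra G.A (s34x_ring (s34x_infRing (s34m_VV G φ M q hq hqM))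
      (s18_chart1 (L₀ := K₀) (heckeAlphaBar K₀ M q x))) :=
    (s34f_constHom G.A (s34x_infRing (s34m_VV G φ M q hq hqM))
      (s34x_inf_const_mem (s34m_VV G φ M q hq hqM) G.A (s34c_const_mem_VV G φ M q hq hqM))
      (s18_chart1 (L₀ := K₀) (heckeAlphaBar K₀ M q x))).toAlgebra
  haveI hFT : Algebra.FiniteType G.A (s34x_ring (s34x_infRing (s34m_VV G φ M q hq hqM))
      (s18_chart1 (L₀ := K₀) (heckeAlphaBar K₀ M q x))) :=
    s36e_finiteType_chart1 G φ M q hq hqM _ hB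
  have hfc : ∀ a : G.A, f (algebraMap G.A _ a) = algebraMap G.A _ a := by
    intro a
    apply Subtype.ext
    rw [hf]
    show σ (algebraMap K₀ (s34m_F K₀ M) (a : K₀)) = algebraMap K₀ (s34m_F K₀ (M * q)) (a : K₀)
    exact σ.commutes _
  refine ⟨s36el_comap_isMaximal G.π hπ f hfc 𝔫 ?_, ?_⟩
  · intro a ha
    obtain ⟨d, rfl⟩ := (G.π_eq_zero_iff a).mp ha
    rw [map_mul]
    exact 𝔫.mul_mem_right _ hϖ
  · rw [Ideal.mem_comap]
    have := hfc G.ϖ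
    have e : f (s36b_constM G M x G.ϖ) =
        s35gd_unifB G φ M q hq hqM (s18_chart1 (L₀ := K₀) (heckeAlphaBar K₀ M q x)) := this
    rw [e]
    exact hϖ

include φ hq hqM in
/-- **The hypothesis `hF5` of `s36r_regCross_df`** (K2 at a crossing point, place-free form) for
`BM = s18_ring (V_M) (chart1 x)` and the chart `chart1 (α x)`. -/
theorem s36b_cross_hF5 [FFGen K₀ x] (h2 : nuTwo M = 0) (h3 : nuThree M = 0)
    (hπ : Function.Surjective G.π) (hx : x ∈ s34m_Vinf G M)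
    (hαM : ∀ y ∈ s34m_Vinf G M, ∃ s : G.A[X], s.map G.π ≠ 0 ∧
      (s18b_ev G _ x).IsIntegralElem (s18b_ev G _ x s * y))
    (hB : s35g_BaseData G φ M q hq hqM (heckeAlphaBar K₀ M q x))
    (hcoe : (x : LaurentSeries K₀) = jqModC K₀ ∨ (q = 3 ∧ (x : LaurentSeries K₀) = s18u_t2 K₀) ∨
      (q = 2 ∧ (x : LaurentSeries K₀) = s18u_t3 K₀))
    (hβB : ∀ g ∈ s18_ring (L₀ := K₀) (s34m_Vinf G M) (s18_chart1 x),
      heckeBetaBar K₀ M q g ∈ s34x_ring (s34x_infRing (s34m_VV G φ M q hq hqM))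
        (s18_chart1 (L₀ := K₀) (heckeAlphaBar K₀ M q x)))
    (𝔫 : Ideal (s34x_ring (s34x_infRing (s34m_VV G φ M q hq hqM))
      (s18_chart1 (L₀ := K₀) (heckeAlphaBar K₀ M q x)))) [h𝔫 : 𝔫.IsMaximal]
    (h1 : RingHom.ker (s34df_r1 G φ M q hq hqM
      (s18_chart1 (L₀ := K₀) (heckeAlphaBar K₀ M q x))) ≤ 𝔫)
    (h2' : RingHom.ker (s34df_r2 G φ M q hq hqM
      (s18_chart1 (L₀ := K₀) (heckeAlphaBar K₀ M q x))) ≤ 𝔫) :
    ∀ t₂ (ht₂ : t₂ ∈ s18_ring (L₀ := K₀) (s34m_Vinf G M) (s18_chart1 x)),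
      (⟨_, hβB t₂ ht₂⟩ : s34x_ring (s34x_infRing (s34m_VV G φ M q hq hqM))
        (s18_chart1 (L₀ := K₀) (heckeAlphaBar K₀ M q x))) ∈ 𝔫 →
      (∀ y (hy : y ∈ s18_ring (L₀ := K₀) (s34m_Vinf G M) (s18_chart1 x)),
        (⟨_, hβB y hy⟩ : s34x_ring (s34x_infRing (s34m_VV G φ M q hq hqM))
          (s18_chart1 (L₀ := K₀) (heckeAlphaBar K₀ M q x))) ∈ 𝔫 →
        ∃ c, ∃ hc : c ∈ s18_ring (L₀ := K₀) (s34m_Vinf G M) (s18_chart1 x),
          (⟨_, hβB c hc⟩ : s34x_ring (s34x_infRing (s34m_VV G φ M q hq hqM))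
            (s18_chart1 (L₀ := K₀) (heckeAlphaBar K₀ M q x))) ∉ 𝔫 ∧
          ∃ z ∈ s18_ring (L₀ := K₀) (s34m_Vinf G M) (s18_chart1 x),
            ∃ b ∈ s18_ring (L₀ := K₀) (s34m_Vinf G M) (s18_chart1 x),
              c * y = z * t₂ + b * s34m_unif G M) →
      ∀ (x' : s34x_ring (s34x_infRing (s34m_VV G φ M q hq hqM))
          (s18_chart1 (L₀ := K₀) (heckeAlphaBar K₀ M q x))) (c : s34m_F K₀ (M * q)),
        D K₀ (s34m_F K₀ (M * q)) (x' : s34m_F K₀ (M * q)) =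
          c • D K₀ (s34m_F K₀ (M * q)) (heckeBetaBar K₀ M q t₂) →
        ∀ Q ∈ s18_chart1 (L₀ := K₀) (heckeAlphaBar K₀ M q x),
          s34f_through (s34x_infRing (s34m_VV G φ M q hq hqM))
            (s18_chart1 (L₀ := K₀) (heckeAlphaBar K₀ M q x)) 𝔫 Q → 0 ≤ Q.ord c := by
  intro t₂ ht₂ ht₂𝔫 hform x' c hrel Q hQ hth
  haveI h𝔫p : 𝔫.IsPrime := h𝔫.isPrime
  -- `γ = β : BM → B`
  let γ : s18_ring (L₀ := K₀) (s34m_Vinf G M) (s18_chart1 x) →+*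
      s34x_ring (s34x_infRing (s34m_VV G φ M q hq hqM))
        (s18_chart1 (L₀ := K₀) (heckeAlphaBar K₀ M q x)) :=
    ((heckeBetaBar K₀ M q : s34m_F K₀ M →ₐ[K₀] s34m_F K₀ (M * q)) :
      s34m_F K₀ M →+* s34m_F K₀ (M * q)).restrict _ _ hβB
  have hγ : ∀ g : s18_ring (L₀ := K₀) (s34m_Vinf G M) (s18_chart1 x),
      γ g = ⟨heckeBetaBar K₀ M q (g : s34m_F K₀ M), hβB g g.2⟩ := fun g => rfl
  have hϖ := s36b_unif_mem_of_ker G φ M q hq hqM _ 𝔫 h1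
  obtain ⟨hmax, hϖm⟩ := s36b_cross_comap_isMaximal G φ M q hq hqM x hπ hB
    (heckeBetaBar K₀ M q) γ (fun g => rfl) 𝔫 hϖ
  haveI := hmax
  have hNC := s36b_cross_noncusp_of_coe G φ M q hq hqM hπ x hB hcoe 𝔫 h1 h2' Q hQ hth
  refine s36e_hk_ratio_regular φ G M x q hq hqM h2 h3 hπ hx hαM (𝔫.comap γ)
    (s36b_constM G M x G.ϖ) ⟨t₂, ht₂⟩ rfl hϖm ?_ ?_ Q hNC.2 ?_ ?_
    (x' : s34m_F K₀ (M * q)) c (s36b_ord_nonneg_of_mem Q _ (x'.2.2 Q hQ)) hrel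
  · rw [Ideal.mem_comap, hγ]
    exact ht₂𝔫
  · intro y hy
    rw [Ideal.mem_comap, hγ] at hy
    obtain ⟨c', hc', hc'𝔫, z, hz, b, hb, e⟩ := hform (y : s34m_F K₀ M) y.2 hy
    refine ⟨⟨c', hc'⟩, ?_, ⟨z, hz⟩, ⟨b, hb⟩, Subtype.ext e⟩
    rw [Ideal.mem_comap, hγ]
    exact hc'𝔫
  · intro g
    exact s36b_ord_nonneg_of_mem Q _ ((hβB g g.2).2 Q hQ)
  · intro g hg
    rw [Ideal.mem_comap, hγ]
    refine hth ⟨_, hβB g g.2⟩ ?_ hg
    intro h0
    have h0' : heckeBetaBar K₀ M q (g : s34m_F K₀ M) = 0 := h0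
    rw [h0', Place.ord_zero] at hg
    exact lt_irrefl _ hg

end Fermat.Agent.Lib.S36
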