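/-
S36 mega-project, layer (X1) (helper1), part 24 (for the leaf `s36m_LeafMid`, non-cuspidal `V_mid`-only
points; inputs of helper3's `s36el_theta_unit`): **the place-wise inputs at a prime `𝔪'` of chart 1 of
`w₁ = α x` of level `M q`**, for the predicate `thr Q := Q ∈ chart1 w₁ ∧ Q passes through 𝔪'`.

* `s36b_reg_of_not_mem_abs` : abstract; `j wᵃ = P(w)`, `w ∉ 𝔪'` ⇒ `j` regular at the places of chart 1 of
  `w` through `𝔪'`;
* `s36b_thr_j` : `0 ≤ ord_Q j` for `thr Q` when `x = j_M` or `α x ∉ 𝔪'` (non-cuspidal point);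
* `s36b_thr_reg`, `s36b_thr_mem` : `hαreg/hβreg`, `hαthr/hβthr` for `f : BM →+* B₁` the restriction of a
  `K₀`-algebra map (`α` or `β`; REllPt frame `coe (f g) = σ g`);
* `s36b_pt_not_mem_iff` : `α x ∈ γ⁻¹ 𝔫 ↔ ∃ b ∈ 𝔫, b = γ (α x)` (the `hcusp` of helper6's
  `s36m_geoRegOnly_cusp_of_baseFull`).
-/
import Fermat.Agent.Lib.S36.XMidHaupt
import Fermat.Agent.Lib.S36.QTwo
import Fermat.Agent.Lib.S36.XCrossK2

set_option autoImplicit false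
set_option linter.unusedSectionVars false
set_option linter.style.haveILetI false

noncomputable section

namespace Fermat.Agent.Lib.S36

open Polynomial ModularCurve AlgebraicCurve HahnSeries Fermat.Agent.Lib.FF Fermat.Agent.Lib.S18
  Fermat.Agent.Lib.S28 Fermat.Agent.Lib.S37 Fermat.Agent.Lib.S34 Fermat.Agent.Lib.S35 IsLocalRing

local notation "Kb" => AlgebraicClosure ℚ

section Abs

variable {L₀ 𝓕 : Type*} [Field L₀] [Field 𝓕] [Algebra L₀ 𝓕]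

/-- **`j` is regular at the places through a non-cuspidal point** of chart 1 of `w`
(`j wᵃ = P(w)`). -/
theorem s36b_reg_of_not_mem_abs (O : Subring 𝓕) (w j : 𝓕) (hw0 : w ≠ 0) (P : L₀[X]) (a : ℕ)
    (r : j * w ^ a = aeval w P) (hwO : w ∈ O)
    (𝔪 : Ideal (s34x_ring O (s18_chart1 (L₀ := L₀) w)))
    (hw𝔪 : (⟨w, hwO, fun _ hQ => hQ⟩ : s34x_ring O (s18_chart1 (L₀ := L₀) w)) ∉ 𝔪)
    (Q : Place L₀ 𝓕) (hQ : Q ∈ s18_chart1 (L₀ := L₀) w)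
    (hth : s34f_through O (s18_chart1 (L₀ := L₀) w) 𝔪 Q) : j ∈ Q.toValuationSubring := by
  have hwQ : w ∈ Q.toValuationSubring := hQ
  have h0 : 0 ≤ Q.ord w := (ff_mem_iff_ord_nonneg Q hw0).mp hwQ
  have h1 : ¬ 0 < Q.ord w := fun hpos => hw𝔪 (hth ⟨w, hwO, fun _ hQ => hQ⟩ hw0 hpos)
  have hinv : w⁻¹ ∈ Q.toValuationSubring := by
    rw [ff_mem_iff_ord_nonneg Q (inv_ne_zero hw0), Q.ord_inv]
    omega
  exact s36p_j_mem_of_unit Q.toValuationSubring Q.algebraMap_mem' P a j w hw0 r hwQ hinv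

end Abs

variable {K₀ : Type} [Field K₀] [Algebra ℚ K₀] [CharZero K₀] {κ : Type} [Field κ]
  (G : s18g_GaussData K₀ κ) [IsDiscreteValuationRing G.A]
  (φ : K₀ →+* Kb) (M q : ℕ) [NeZero M] [NeZero q] (hq : q.Prime) (hqM : ¬ q ∣ M)
  (x : s34m_F K₀ M)
  (𝔪' : Ideal (s34x_ring (s34x_infRing (s34m_VV G φ M q hq hqM))
    (s18_chart1 (L₀ := K₀) (heckeAlphaBar K₀ M q x))))

/-- **`hj` of `s36el_theta_unit`** at a non-cuspidal prime of chart 1 of `α x` (`x` of Hauptmodul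
type): `j` is regular at the places through it. -/
theorem s36b_thr_j (hx0 : x ≠ 0) (hR : s36b_HauptRel M x)
    (hxO : ∀ i, heckeAlphaBar K₀ M q x ∈ s34m_VV G φ M q hq hqM i)
    (hnc : (⟨heckeAlphaBar K₀ M q x, (s34x_mem_infRing _ _).mpr hxO, fun _ hQ => hQ⟩ :
      s34x_ring (s34x_infRing (s34m_VV G φ M q hq hqM))
        (s18_chart1 (L₀ := K₀) (heckeAlphaBar K₀ M q x))) ∉ 𝔪')
    (Q : Place K₀ (s34m_F K₀ (M * q)))
    (hQ : Q ∈ s18_chart1 (L₀ := K₀) (heckeAlphaBar K₀ M q x))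
    (hth : s34f_through (s34x_infRing (s34m_VV G φ M q hq hqM))
      (s18_chart1 (L₀ := K₀) (heckeAlphaBar K₀ M q x)) 𝔪' Q) :
    0 ≤ Q.ord (s18g_jF (K := K₀) (M * q)) := by
  obtain ⟨P, a, -, -, rM⟩ := hR
  have r₀ : s18g_jF (K := K₀) (M * q) * heckeAlphaBar K₀ M q x ^ a =
      aeval (heckeAlphaBar K₀ M q x) P := by
    have h := congrArg (heckeAlphaBar K₀ M q) rM
    rw [map_mul, map_pow, ← Polynomial.aeval_algHom_apply, s34m_alpha_jF (K₀ := K₀) M q] at h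
    exact h
  have hw0 : heckeAlphaBar K₀ M q x ≠ 0 := (_root_.map_ne_zero (heckeAlphaBar K₀ M q)).mpr hx0
  exact s36b_ord_nonneg_of_mem Q _
    (s36b_reg_of_not_mem_abs (s34x_infRing (s34m_VV G φ M q hq hqM)) _ _ hw0 P a r₀
      ((s34x_mem_infRing _ _).mpr hxO) 𝔪' hnc Q hQ hth)

/-- `hj` for the `j`-chart (`x = j_M`): no condition. -/
theorem s36b_thr_j_of_eq (hxj : x = s18g_jF (K := K₀) M)
    (Q : Place K₀ (s34m_F K₀ (M * q)))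
    (hQ : Q ∈ s18_chart1 (L₀ := K₀) (heckeAlphaBar K₀ M q x)) :
    0 ≤ Q.ord (s18g_jF (K := K₀) (M * q)) := by
  have hQ' : heckeAlphaBar K₀ M q x ∈ Q.toValuationSubring := hQ
  rw [hxj, s34m_alpha_jF (K₀ := K₀) M q] at hQ'
  exact s36b_ord_nonneg_of_mem Q _ hQ'

variable (σ : s34m_F K₀ M →ₐ[K₀] s34m_F K₀ (M * q))
  (f : s18_ring (L₀ := K₀) (s34m_Vinf G M) (s18_chart1 x) →+*
    s34x_ring (s34x_infRing (s34m_VV G φ M q hq hqM))
      (s18_chart1 (L₀ := K₀) (heckeAlphaBar K₀ M q x)))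
  (hf : ∀ g : s18_ring (L₀ := K₀) (s34m_Vinf G M) (s18_chart1 x),
    ((f g : s34x_ring (s34x_infRing (s34m_VV G φ M q hq hqM))
      (s18_chart1 (L₀ := K₀) (heckeAlphaBar K₀ M q x))) : s34m_F K₀ (M * q)) =
      σ (g : s34m_F K₀ M))

include hf in
/-- **`hαreg` / `hβreg`**: the images of `BM` are regular on the chart. -/
theorem s36b_thr_reg (Q : Place K₀ (s34m_F K₀ (M * q)))
    (hQ : Q ∈ s18_chart1 (L₀ := K₀) (heckeAlphaBar K₀ M q x))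
    (g : s18_ring (L₀ := K₀) (s34m_Vinf G M) (s18_chart1 x)) :
    0 ≤ Q.ord (σ (g : s34m_F K₀ M)) := by
  rw [← hf g]
  exact s36b_ord_nonneg_of_mem Q _ ((f g).2.2 Q hQ)

include hf in
/-- **`hαthr` / `hβthr`**: zeros at a place through `𝔪'` come from `f⁻¹ 𝔪'`. -/
theorem s36b_thr_mem (Q : Place K₀ (s34m_F K₀ (M * q)))
    (hth : s34f_through (s34x_infRing (s34m_VV G φ M q hq hqM))
      (s18_chart1 (L₀ := K₀) (heckeAlphaBar K₀ M q x)) 𝔪' Q)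
    (g : s18_ring (L₀ := K₀) (s34m_Vinf G M) (s18_chart1 x))
    (hpos : 0 < Q.ord (σ (g : s34m_F K₀ M))) : g ∈ 𝔪'.comap f := by
  rw [Ideal.mem_comap]
  rw [← hf g] at hpos
  refine hth (f g) ?_ hpos
  intro h0
  rw [h0, Place.ord_zero] at hpos
  exact lt_irrefl _ hpos

section TwoLevel

variable {L₀ 𝓕₁ 𝓕₂ : Type*} [Field L₀] [Field 𝓕₁] [Field 𝓕₂] [Algebra L₀ 𝓕₁] [Algebra L₀ 𝓕₂]
variable {ι₁ ι₂ : Type*} (O₁ : ι₁ → ValuationSubring 𝓕₁) (O₂ : ι₂ → ValuationSubring 𝓕₂)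
  (S₁ : Set (Place L₀ 𝓕₁)) (S₂ : Set (Place L₀ 𝓕₂)) (γ : 𝓕₁ →+* 𝓕₂)
  (hγ : ∀ b ∈ s34x_ring (s34x_infRing O₁) S₁, γ b ∈ s34x_ring (s34x_infRing O₂) S₂)
  (𝔫 : Ideal (s34x_ring (s34x_infRing O₂) S₂))

/-- membership in the image point `γ⁻¹ 𝔫` in terms of the underlying functions (the shape of `hcusp`
in `s36m_geoRegOnly_cusp_of_baseFull` and of `hpol` in `s36g_GeoReg2Only`). -/
theorem s36b_pt_mem_iff (b₁ : s34x_ring (s34x_infRing O₁) S₁) :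
    b₁ ∈ s36q_pt O₁ O₂ S₁ S₂ γ hγ 𝔫 ↔ ∃ b ∈ 𝔫, (b : 𝓕₂) = γ (b₁ : 𝓕₁) := by
  rw [Ideal.mem_comap]
  constructor
  · intro h
    exact ⟨_, h, rfl⟩
  · rintro ⟨b, hb, e⟩
    have : s36q_chartMap O₁ O₂ S₁ S₂ γ hγ b₁ = b := Subtype.ext e.symm
    rw [this]
    exact hb

end TwoLevel

end Fermat.Agent.Lib.S36
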