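/-
S36 (LeafMid), helper4, prefix `s36r_`: **(M1)+(M2) AT A CLOSED POINT OF `C'_∞` OF CHART 1 OF `α w`.**

`s36r_mid_theta_of_explicit`: from helper8's explicit level-`M` data `s36k_Explicit G φ M q hq hqM w` +
`s35g_BaseData` for `α w`, at a MAXIMAL ideal `𝔪'` of the chart ring `B₁` of chart 1 of `α w` (level
`M q`) containing `ϖ`, through which `V'_∞` passes (`s36q_compThrough … 𝔪' true`), and at whose places
`j` is regular (`hj`, non-cuspidal point):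

* (M1) a function `t ∈ BM` (level `M` chart ring) with `θ (red t) ≠ 0` (helper3's
  `s36el_exists_coords`: `t` is a local coordinate at `α⁻¹ 𝔪'`, with Frobenius partner `t₂` at
  `β⁻¹ 𝔪'`);
* (M2) a function `Θ` of level `M q`, a unit of `V'_∞` with `red_∞ Θ = (θ (red t))^(q-1)`, and
  `ord_Q Θ = 0` at all places `Q` of the chart through `𝔪'` (helper3's `s36el_theta_unit`).

The place-wise inputs are helper1's `s36b_thr_reg`, `s36b_thr_mem` (`XMidNC.lean`); the reduction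
frame `ψ : BM ↠ D'` is helper8's (`KData.lean`).
-/
import Fermat.Agent.Lib.S36.REllTheta
import Fermat.Agent.Lib.S36.KData
import Fermat.Agent.Lib.S36.XMidNC
import Fermat.Agent.Lib.S36.RHorizK

set_option autoImplicit false
set_option linter.unusedSectionVars false
set_option linter.style.haveILetI false
set_option synthInstance.maxHeartbeats 400000
set_option maxHeartbeats 1600000

noncomputable section

namespace Fermat.Agent.Lib.S36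

open ModularCurve AlgebraicCurve HahnSeries Polynomial IntermediateField
open Fermat.Agent.Lib.FF Fermat.Agent.Lib.S18 Fermat.Agent.Lib.S34 Fermat.Agent.Lib.S35
  Fermat.Agent.Lib.S37

local notation "Kb" => AlgebraicClosure ℚ

variable {K₀ : Type} [Field K₀] [CharZero K₀] [Algebra ℚ K₀] {κ : Type} [Field κ]
  (G : s18g_GaussData K₀ κ) (φ : K₀ →+* Kb) (M q : ℕ) [NeZero M] [NeZero q]
  (hq : q.Prime) (hqM : ¬ q ∣ M)

local notation "𝓕M" => laurentBaseChange K₀ (modularFunctionFieldFull M)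
local notation "hFM" => (fun (f : LaurentSeries K₀)
  (hf : f ∈ laurentBaseChange K₀ (modularFunctionFieldFull M)) => s18g_baseChange_mem_Frac G M hf)

variable [CharP κ q] [PerfectField κ] [IsDiscreteValuationRing G.A]

local notation "SS" w => s18_chart1 (L₀ := K₀) (heckeAlphaBar K₀ M q w)
local notation "BB" w => s34x_ring (L₀ := K₀) (s34x_infRing (s34m_VV G φ M q hq hqM))
  (s18_chart1 (L₀ := K₀) (heckeAlphaBar K₀ M q w))

/-- **(M1)+(M2) at a closed point of `C'_∞` of chart 1 of `α w`.** -/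
theorem s36r_mid_theta_of_explicit (h2 : nuTwo M = 0) (h3 : nuThree M = 0)
    (hπ : Function.Surjective G.π) (hπq : G.π ((q : ℕ) : G.A) = 0)
    (w : ↥𝓕M) (hE : s36k_Explicit G φ M q hq hqM w)
    (hB : s35g_BaseData G φ M q hq hqM (heckeAlphaBar K₀ M q w))
    (𝔪' : Ideal (BB w)) [h𝔪' : 𝔪'.IsMaximal]
    (hϖ : s35gd_unifB G φ M q hq hqM (SS w) ∈ 𝔪')
    (hth : s36q_compThrough (s34m_VV G φ M q hq hqM) (SS w) 𝔪' true)
    (hj : ∀ Q ∈ SS w, s34f_through (s34x_infRing (s34m_VV G φ M q hq hqM)) (SS w) 𝔪' Q →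
      0 ≤ Q.ord (s18g_jF (K := K₀) (M * q))) :
    ∃ t : s34m_Vinf G M,
      (t : s34m_F K₀ M) ∈ s18_ring (L₀ := K₀) (s34m_Vinf G M) (s18_chart1 w) ∧
      ffd_theta (s34m_redInf G M t) ≠ 0 ∧
      ∃ Θ : s34m_F K₀ (M * q), Θ ≠ 0 ∧ Θ⁻¹ ∈ s34m_Vinf G (M * q) ∧
        (∃ hΘV : Θ ∈ s34m_Vinf G (M * q), s34m_redInf G (M * q) ⟨Θ, hΘV⟩ =
          ffd_theta (s34m_redInf G M t) ^ (q - 1)) ∧
        ∀ Q ∈ SS w, s34f_through (s34x_infRing (s34m_VV G φ M q hq hqM)) (SS w) 𝔪' Q →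
          Q.ord Θ = 0 := by
  obtain ⟨hT, hdegM, hwV, hdeg, hgen, hαM, hcoord, hwtw, hmain, hαB, hβB⟩ := hE
  haveI : Fact q.Prime := ⟨hq⟩
  haveI := hgen
  haveI : 𝔪'.IsPrime := h𝔪'.isPrime
  letI algF := s18f_algF G M hT hdegM w hwV
  have hA : ∀ p : κ[X], algebraMap κ[X] ↥(modularFunctionFieldFullC κ M) p =
      Polynomial.aeval (s18g_redF G M hFM hT hdegM ⟨w, hwV⟩) p :=
    s18f_algF_apply G M hT hdegM w hwV
  obtain ⟨hDed, hFrac⟩ := s37b_dedekind_of_coord κ q M (s18g_redF G M hFM hT hdegM ⟨w, hwV⟩)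
    hcoord hA
  haveI := hDed
  haveI := hFrac
  -- the reduction `ψ : BM ↠ D'` (helper8's frame, `KData.lean`)
  obtain ⟨ψ, ϖM, hψs, hψk, hψc, hϖMc⟩ : ∃ (ψ : s18_ring (L₀ := K₀) (s34m_Vinf G M) (s18_chart1 w) →+*
      ↥(integralClosure κ[X] ↥(modularFunctionFieldFullC κ M)))
      (ϖM : s18_ring (L₀ := K₀) (s34m_Vinf G M) (s18_chart1 w)),
      Function.Surjective ψ ∧ RingHom.ker ψ = Ideal.span {ϖM} ∧
      (∀ g : s18_ring (L₀ := K₀) (s34m_Vinf G M) (s18_chart1 w),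
        (((ψ g : ↥(integralClosure κ[X] ↥(modularFunctionFieldFullC κ M))) :
          ↥(modularFunctionFieldFullC κ M)) : LaurentSeries κ) =
          s34m_redInf G M ⟨(g : s34m_F K₀ M), g.2.1⟩) ∧
      (ϖM : s34m_F K₀ M) = algebraMap K₀ (s34m_F K₀ M) ((G.ϖ : G.A) : K₀) := by
    have hϖ0 : ((G.ϖ : G.A) : K₀) ≠ 0 := s18g_unifK_ne_zero G
    have hϖV : algebraMap K₀ ↥𝓕M ((G.ϖ : G.A) : K₀) ∈ s18g_V G 𝓕M hFM :=
      (s18g_algebraMap_mem_V_iff G 𝓕M hFM _).mpr (G.ϖ : G.A).2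
    have hker : ∀ x : s18g_V G 𝓕M hFM, s18g_redF G M hFM hT hdegM x = 0 →
        ∃ y ∈ s18g_V G 𝓕M hFM, (x : ↥𝓕M) = algebraMap K₀ ↥𝓕M ((G.ϖ : G.A) : K₀) * y := by
      intro x hx
      have hx' : x ∈ RingHom.ker (s18g_redF G M hFM hT hdegM) := hx
      rw [s18g_ker_redF, Ideal.mem_span_singleton'] at hx'
      obtain ⟨a, ha⟩ := hx'
      refine ⟨(a : ↥𝓕M), a.2, ?_⟩
      rw [← ha, mul_comm]
      rfl
    have hkerϖ : s18g_redF G M hFM hT hdegM ⟨algebraMap K₀ ↥𝓕M ((G.ϖ : G.A) : K₀), hϖV⟩ = 0 := by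
      have : (⟨algebraMap K₀ ↥𝓕M ((G.ϖ : G.A) : K₀), hϖV⟩ : s18g_V G 𝓕M hFM) ∈
          RingHom.ker (s18g_redF G M hFM hT hdegM) := by
        rw [s18g_ker_redF]
        exact Ideal.subset_span rfl
      exact this
    have hint : ∀ b : ↥𝓕M, ∀ hb : b ∈ s18_ring (L₀ := K₀) (s18g_V G 𝓕M hFM) (s18_chart1 w),
        IsIntegral κ[X] (s18g_redF G M hFM hT hdegM ⟨b, hb.1⟩) := fun b hb =>
      s18f_isIntegral_redF G M hT hdegM w hwV hA b hb.1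
        (s18b_isIntegralElem_of_mem_ring G 𝓕M hFM w hαM b hb)
    exact ⟨s18f_psi (s18g_V G 𝓕M hFM) (s18_chart1 (L₀ := K₀) w) (s18g_redF G M hFM hT hdegM) hint,
      s18i_const (s18g_V G 𝓕M hFM) (s18_chart1 (L₀ := K₀) w) ((G.ϖ : G.A) : K₀) hϖV,
      s18f_psi_surjective _ _ _ hint hmain,
      s18f_ker_psi _ _ _ hϖ0 hϖV _ hker hkerϖ hint, fun g => rfl, rfl⟩
  -- the two restrictions `a = α|BM`, `b = β|BM`
  obtain ⟨a, ha⟩ : ∃ a : s18_ring (L₀ := K₀) (s34m_Vinf G M) (s18_chart1 w) →+* (BB w),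
      ∀ g : s18_ring (L₀ := K₀) (s34m_Vinf G M) (s18_chart1 w),
        ((a g : BB w) : s34m_F K₀ (M * q)) = heckeAlphaBar K₀ M q (g : s34m_F K₀ M) :=
    ⟨s36k_resHom G φ M q hq hqM w (SS w) (heckeAlphaBar K₀ M q) hαB, fun g => rfl⟩
  obtain ⟨b, hb⟩ : ∃ b : s18_ring (L₀ := K₀) (s34m_Vinf G M) (s18_chart1 w) →+* (BB w),
      ∀ g : s18_ring (L₀ := K₀) (s34m_Vinf G M) (s18_chart1 w),
        ((b g : BB w) : s34m_F K₀ (M * q)) = heckeBetaBar K₀ M q (g : s34m_F K₀ M) :=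
    ⟨s36k_resHom G φ M q hq hqM w (SS w) (heckeBetaBar K₀ M q) hβB, fun g => rfl⟩
  have hFT := s36e_finiteType_chart1 G φ M q hq hqM (heckeAlphaBar K₀ M q w) hB
  haveI hmα : (𝔪'.comap a).IsMaximal :=
    s36k_comap_isMaximal G φ M q hq hqM w (SS w) hπ (heckeAlphaBar K₀ M q) a ha hFT 𝔪' hϖ
  haveI hmβ : (𝔪'.comap b).IsMaximal :=
    s36k_comap_isMaximal G φ M q hq hqM w (SS w) hπ (heckeBetaBar K₀ M q) b hb hFT 𝔪' hϖ
  have haϖ : a ϖM = s35gd_unifB G φ M q hq hqM (SS w) := by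
    apply Subtype.ext
    rw [ha, hϖMc]
    exact (heckeAlphaBar K₀ M q).commutes _
  have hbϖ : b ϖM = s35gd_unifB G φ M q hq hqM (SS w) := by
    apply Subtype.ext
    rw [hb, hϖMc]
    exact (heckeBetaBar K₀ M q).commutes _
  have hϖα : ϖM ∈ 𝔪'.comap a := by rw [Ideal.mem_comap, haϖ]; exact hϖ
  have hϖβ : ϖM ∈ 𝔪'.comap b := by rw [Ideal.mem_comap, hbϖ]; exact hϖ
  have hxtr : Transcendental κ (s18g_redF G M hFM hT hdegM ⟨w, hwV⟩) := fun halg =>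
    hcoord.1 (halg.algHom (modularFunctionFieldFullC κ M).val)
  -- (M1): the pair of local coordinates
  obtain ⟨t, t₂, ⟨htα, hgα⟩, ⟨htβ, hgβ⟩, hθ, hFr⟩ :=
    s36el_exists_coords G φ M q hq hqM w (SS w) a b ha hb 𝔪' hth
      (s18g_redF G M hFM hT hdegM ⟨w, hwV⟩) hA hxtr hwtw ψ hψs ϖM hψk hψc hϖα hϖβ
  -- (M2): the function `Θ`
  obtain ⟨hw0, hgenN, hwO, hwO', hfix, hα, hα', hCD1, hCD2⟩ := hB
  haveI := hgenN
  obtain ⟨Θ, hΘ0, hΘinv, hΘred, hΘord⟩ := s36el_theta_unit G φ M q hq hqM h2 h3 hπ hπq w hwV hαM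
    (heckeAlphaBar K₀ M q w) (𝔪'.comap a) (𝔪'.comap b) ϖM t t₂ hϖMc hϖα htα hgα hϖβ htβ hgβ hθ hFr
    (fun Q => Q ∈ (SS w) ∧
      s34f_through (s34x_infRing (s34m_VV G φ M q hq hqM)) (SS w) 𝔪' Q)
    (fun Q hQ => hj Q hQ.1 hQ.2)
    (fun Q hQ g => s36b_thr_reg G φ M q hq hqM w (heckeAlphaBar K₀ M q) a ha Q hQ.1 g)
    (fun Q hQ g hpos => s36b_thr_mem G φ M q hq hqM w 𝔪' (heckeAlphaBar K₀ M q) a ha Q hQ.2 g hpos)
    (fun Q hQ g => s36b_thr_reg G φ M q hq hqM w (heckeBetaBar K₀ M q) b hb Q hQ.1 g)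
    (fun Q hQ g hpos => s36b_thr_mem G φ M q hq hqM w 𝔪' (heckeBetaBar K₀ M q) b hb Q hQ.2 g hpos)
  exact ⟨⟨(t : s34m_F K₀ M), t.2.1⟩, t.2, hθ, Θ, hΘ0, hΘinv, hΘred,
    fun Q hQ hQth => hΘord Q ⟨hQ, hQth⟩⟩

end Fermat.Agent.Lib.S36
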