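/-
S36 project, leaf (REG-only 1) CLOSED (helper8, prefix `s36k_`): the NON-CUSPIDAL `V 1`-only points of
chart 1 for ALL `q`, and `s36m_LeafMid`.

* `s36k_mid_noncusp_core` : `s36k_mid_noncusp_of_theta` (KMidReg) with the level-`M q` datum `(t, Θ_t)`
  from helper4's `s36r_mid_theta_of_explicit` at the image point `𝔪' = α'⁻¹ 𝔫` (maximal, on `V'_∞`:
  lead's `s36e_img_alpha`);
* `s36k_midNonCusp` : helper1's contract `s36b_MidNonCusp` (explicit data from helper7's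
  `s36l_explicit_of_baseFull`);
* **`s36k_leafMid`** `(h2 : nuTwo M = 0) (h3 : nuThree M = 0) : s36m_LeafMid M q hq hqM`
  (helper1's case split `s36b_leafMid_of_noncusp` with helper6's cuspidal half), and
  `s36k_leafMid_good` in the shape of the hypothesis of helper6's `s36m_core_of_open_leaves`.
-/
import Fermat.Agent.Lib.S36.KMidReg
import Fermat.Agent.Lib.S36.REisOutC1
import Fermat.Agent.Lib.S36.LExplicit
import Fermat.Agent.Lib.S36.RMidTheta
import Fermat.Agent.Lib.S36.XLeafMid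

set_option autoImplicit false
set_option linter.unusedSectionVars false
set_option linter.style.haveILetI false
set_option synthInstance.maxHeartbeats 400000
set_option maxHeartbeats 800000

noncomputable section

namespace Fermat.Agent.Lib.S36

open ModularCurve AlgebraicCurve HahnSeries Polynomial IsLocalRing
open Fermat.Agent.Lib.FF Fermat.Agent.Lib.S18 Fermat.Agent.Lib.S34 Fermat.Agent.Lib.S35
  Fermat.Agent.Lib.S37

local notation "Kb" => AlgebraicClosure ℚ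

variable {K₀ : Type} [Field K₀] [Algebra ℚ K₀] [CharZero K₀] {κ : Type} [Field κ]
  (G : s18g_GaussData K₀ κ) [IsDiscreteValuationRing G.A]
  (φ : K₀ →+* Kb) (M q : ℕ) [NeZero M] [NeZero q] (hq : q.Prime) (hqM : ¬ q ∣ M)
  [CharP κ q] [PerfectField κ]
  {V : Fin 3 → ValuationSubring (s34m_F K₀ (M * q * q))}

/-- **(M5)**: `s36p_LocalReg` at a non-cuspidal `V 1`-only point of chart 1, all `q`. -/
theorem s36k_mid_noncusp_core (h2 : nuTwo M = 0) (h3 : nuThree M = 0)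
    (hπ : Function.Surjective G.π)
    (hϖq : ((G.ϖ : G.A) : K₀) = (q : K₀))
    (hP : s36g_ValPkg G φ M q hq hqM V (s36m_t (K₀ := K₀) M q))
    (x : s34m_F K₀ M) (hE : s36k_Explicit G φ M q hq hqM x)
    (hB : s35g_BaseData G φ M q hq hqM (heckeAlphaBar K₀ M q x))
    (hsat : ∀ Q : Place K₀ (s34m_F K₀ (M * q * q)),
      s36g_alpha M q (heckeAlphaBar K₀ M q x) ∈ Q.toValuationSubring ↔
        s36g_beta M q (heckeAlphaBar K₀ M q x) ∈ Q.toValuationSubring)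
    (hX : s36q_fi_CrossReg G φ M q hq hqM (heckeAlphaBar K₀ M q x))
    (m : ℕ) (hm : m ≠ 0)
    (𝔫 : Ideal (s34x_ring (L₀ := K₀) (s34x_infRing V)
      (s18_chart1 (s36g_alpha M q (heckeAlphaBar K₀ M q x)))))
    (h𝔫 : 𝔫.IsMaximal)
    (hϖ : s34x_const (s34x_infRing V)
      (s18_chart1 (L₀ := K₀) (s36g_alpha M q (heckeAlphaBar K₀ M q x))) ((G.ϖ : G.A) : K₀)
      (s34x_inf_const_mem V G.A (s36b_const_mem G φ M q hq hqM hP.1) G.ϖ) ∈ 𝔫)
    (h1 : s36q_compThrough V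
      (s18_chart1 (L₀ := K₀) (s36g_alpha M q (heckeAlphaBar K₀ M q x))) 𝔫 1)
    (honly : ∀ k, s36q_compThrough V
      (s18_chart1 (L₀ := K₀) (s36g_alpha M q (heckeAlphaBar K₀ M q x))) 𝔫 k → k = 1)
    (hj : ∀ Q ∈ s18_chart1 (L₀ := K₀) (heckeAlphaBar K₀ M q x),
      s34f_through (s34x_infRing (s34m_VV G φ M q hq hqM))
        (s18_chart1 (L₀ := K₀) (heckeAlphaBar K₀ M q x))
        (s36q_pt (s34m_VV G φ M q hq hqM) V
          (s18_chart1 (L₀ := K₀) (heckeAlphaBar K₀ M q x))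
          (s18_chart1 (L₀ := K₀) (s36g_alpha M q (heckeAlphaBar K₀ M q x)))
          (s36g_alpha M q)
          (s36p_chart1_alpha G φ M q hq hqM hP.1 (heckeAlphaBar K₀ M q x) hB) 𝔫) Q →
      0 ≤ Q.ord (s18g_jF (K := K₀) (M * q))) :
    s36p_LocalReg V (s18_chart1 (L₀ := K₀) (s36g_alpha M q (heckeAlphaBar K₀ M q x))) 𝔫
      (h𝔫 := h𝔫.isPrime) m := by
  haveI h𝔫p : 𝔫.IsPrime := h𝔫.isPrime
  haveI := h𝔫
  have hk2 : ¬ s36q_compThrough V
      (s18_chart1 (L₀ := K₀) (s36g_alpha M q (heckeAlphaBar K₀ M q x))) 𝔫 2 := fun h =>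
    absurd (honly 2 h) (by decide)
  obtain ⟨hmax', hthT, -, -⟩ := s36e_img_alpha G φ M q hq hqM hP.1 hP.2.1 hP.2.2.2.1
    hP.2.2.2.2.1 hP.2.2.1 hπ _ hB hX 𝔫 hϖ hk2
  haveI := hmax'
  have hϖ' : s35gd_unifB G φ M q hq hqM (s18_chart1 (L₀ := K₀) (heckeAlphaBar K₀ M q x)) ∈
      s36q_pt (s34m_VV G φ M q hq hqM) V
        (s18_chart1 (L₀ := K₀) (heckeAlphaBar K₀ M q x))
        (s18_chart1 (L₀ := K₀) (s36g_alpha M q (heckeAlphaBar K₀ M q x)))
        (s36g_alpha M q)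
        (s36p_chart1_alpha G φ M q hq hqM hP.1 (heckeAlphaBar K₀ M q x) hB) 𝔫 := by
    apply hthT
    rw [s35gd_coe_unifB]
    exact (ValuationSubring.mem_nonunits_iff_or _).mpr
      (Or.inr (s36b_isUnif_VV G φ M q hq hqM true).2.1)
  have hπq : G.π ((q : ℕ) : G.A) = 0 := by
    have e : ((q : ℕ) : G.A) = G.ϖ := by
      apply Subtype.ext
      rw [hϖq]
      simp
    rw [e]
    exact s18g_pi_unif G
  exact s36k_mid_noncusp_of_theta G φ M q hq hqM hπ hϖq hP x hE hB hsat hX m hm 𝔫 h𝔫 hϖ h1 honly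
    (s36r_mid_theta_of_explicit G φ M q hq hqM h2 h3 hπ hπq x hE hB _ hϖ' hthT hj)

/-- **helper1's contract `s36b_MidNonCusp`.** -/
theorem s36k_midNonCusp (M q : ℕ) [NeZero M] [NeZero q] (hq : q.Prime) (hqM : ¬ q ∣ M)
    (h2 : nuTwo M = 0) (h3 : nuThree M = 0) : s36b_MidNonCusp M q hq hqM := by
  intro K₀ _ _ φ κ _ _ _ G _ hπ hϖ V hP x hx hBF hX m hm0 𝔫 h𝔫 hϖ𝔫 h1 honly hj
  exact s36k_mid_noncusp_core G φ M q hq hqM h2 h3 hπ hϖ hP x
    (s36l_explicit_of_baseFull M q hq hqM K₀ φ κ G hπ x hx hBF) hBF.1 hBF.2.1 hX m hm0 𝔫 h𝔫 hϖ𝔫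
    h1 honly hj

/-- **The leaf (REG-only 1).** -/
theorem s36k_leafMid (M q : ℕ) [NeZero M] [NeZero q] (hq : q.Prime) (hqM : ¬ q ∣ M)
    (h2 : nuTwo M = 0) (h3 : nuThree M = 0) : s36m_LeafMid M q hq hqM :=
  s36b_leafMid_of_noncusp M q hq hqM h2 h3 (s36k_midNonCusp M q hq hqM h2 h3)

/-- the same at the good levels. -/
theorem s36k_leafMid_good : ∀ (M q : ℕ) [NeZero M] [NeZero q] (hq : q.Prime) (hqM : ¬ q ∣ M),
    s36g_GoodLevel q M → s36m_LeafMid M q hq hqM :=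
  fun M q _ _ hq hqM hgood => s36k_leafMid M q hq hqM hgood.2.1 hgood.2.2.1

end Fermat.Agent.Lib.S36
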