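/-
S36 project, wiring layer (W1) + endgame (4) (helper3, prefix `s36k_`).

* `s36k_central_contra` : a CENTRAL endomorphism of a free module of rank two over a domain cannot
  have characteristic polynomial `X² - (1 + q) X + q` with `q ≠ 1`.
* `s36k_core` : the abstract core of S30/S35 (form C) exporting the NON-UNIPOTENCE statement: if
  the rank-two representation `ρ''` is residually absolutely irreducible and, for a Frobenius lift
  `φ` at `q` (with `d φ = q`), every vector of the eigen-module `E` fixed by the inertia group at `A`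
  is fixed by `φ`, then `ρ''` is NOT unipotent on that inertia group.
  (Proof: unipotent ⇒ `t τ = 2`, `d τ = 1` ⇒ `(ρ_E τ - 1)² = 0` on `E`; tame relation
  `s35t_tame_gen`; `s36k_endgame` ⇒ inertia and `φ` act trivially on `E`; third clause of [TWO]-C
  ⇒ `ρ''(φ)` commutes with the image of `ρ''`, which spans `End` (`s31a_span_rho_eq_top`);
  `s36k_central_contra`.)
* `s36k_main` : the S36 conclusion for a system of eigenvalues `χ : 𝕋 →+* 𝒪'` of level `N`, from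
  the LOCAL input at the primes `q` with `q² ∥ N`, `q ≠ p`.
-/
import Fermat.Agent.Lib.S35.Skel
import Fermat.Agent.Lib.S35.TameEnd
import Fermat.Agent.Lib.S31.TraceOne
import Fermat.Agent.Lib.Frobenius.Exists
import Fermat.Agent.Lib.S36.KChain
import Fermat.Prelude.Def_GaloisRep_LocalConditions

set_option autoImplicit false
set_option linter.unusedSectionVars false
set_option linter.style.haveILetI false

open Polynomial IsLocalRing
open scoped TensorProduct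

namespace Fermat.Agent.Lib.S36

open Fermat.Agent.Lib.S29 Fermat.Agent.Lib.S30 Fermat.Agent.Lib.S31 Fermat.Agent.Lib.S35

noncomputable section

section Alg

variable {R : Type*} [CommRing R] [IsDomain R] {V : Type*} [AddCommGroup V] [Module R V]
  [Module.Free R V] [Module.Finite R V]

/-- coefficients of a monic quadratic. -/
theorem s36k_quad_inj {a b a' b' : R}
    (h : (X ^ 2 - C a * X + C b : R[X]) = X ^ 2 - C a' * X + C b') : a = a' ∧ b = b' := by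
  constructor
  · have := congrArg (fun f : R[X] => f.coeff 1) h
    simpa [coeff_X_pow, coeff_X] using this
  · have := congrArg (fun f : R[X] => f.coeff 0) h
    simpa [coeff_X_pow, coeff_X] using this

/-- **a central endomorphism in rank two cannot have charpoly `(X - 1)(X - q)`, `q ≠ 1`.** -/
theorem s36k_central_contra (h2 : Module.finrank R V = 2) (A : Module.End R V)
    (hcen : ∀ B : Module.End R V, A * B = B * A) {q : R} (hq1 : q ≠ 1)
    (hchar : LinearMap.charpoly A = X ^ 2 - C (1 + q) * X + C q) : False := by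
  have htd := s36k_quad_inj ((s35t_charpoly_two h2 A).symm.trans hchar)
  have hcay := s35t_cayley_two h2 A
  rw [htd.1, htd.2] at hcay
  have h2R : ((2 : ℕ) : R) = 2 := by norm_num
  -- `(A - 1) (A - q) = 0`
  have hprod' : (A - q • (1 : Module.End R V)) * (A - 1) = 0 := by
    have e : (A - q • (1 : Module.End R V)) * (A - 1) = A * A - ((1 + q) • A - q • 1) := by
      simp only [mul_sub, sub_mul, one_mul, mul_one, smul_mul_assoc, add_smul, one_smul]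
      abel
    rw [e, hcay, sub_self]
  by_cases hA1 : A - 1 = 0
  · -- `A = 1`: trace `2 = 1 + q`
    have hA : A = 1 := sub_eq_zero.mp hA1
    have htr := htd.1
    rw [hA, LinearMap.trace_one, h2, h2R] at htr
    apply hq1
    have : (1 : R) + 1 = 1 + q := by rw [← htr]; norm_num
    exact (add_left_cancel this).symm
  · -- `A = q`: trace `2 q = 1 + q`
    obtain ⟨v, hv⟩ : ∃ v : V, (A - 1) v ≠ 0 := by
      by_contra hcon
      push Not at hcon
      exact hA1 (LinearMap.ext hcon)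
    set u : V := (A - 1) v with hu
    let b := Module.Free.chooseBasis R V
    obtain ⟨i, hi⟩ : ∃ i, b.repr u i ≠ 0 := by
      by_contra hcon
      push Not at hcon
      apply hv
      apply b.repr.injective
      rw [map_zero]
      exact Finsupp.ext hcon
    have hAq : A - q • (1 : Module.End R V) = 0 := by
      apply LinearMap.ext
      intro x
      rw [LinearMap.zero_apply]
      set Cx : Module.End R V := (b.coord i).smulRight x with hCx
      have hcomm : (A - q • (1 : Module.End R V)) * Cx = Cx * (A - q • (1 : Module.End R V)) := by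
        rw [sub_mul, mul_sub, hcen Cx, smul_mul_assoc, mul_smul_comm, one_mul, mul_one]
      have h1 := congrArg (fun f : Module.End R V => f u) hcomm
      simp only [Module.End.mul_apply] at h1
      have h3 : (A - q • (1 : Module.End R V)) u = 0 := by
        have := congrArg (fun f : Module.End R V => f v) hprod'
        simp only [Module.End.mul_apply, LinearMap.zero_apply] at this
        exact this
      rw [h3, map_zero] at h1
      rw [hCx, LinearMap.smulRight_apply, map_smul] at h1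
      rcases smul_eq_zero.mp h1 with h | h
      · exact absurd h hi
      · exact h
    have hA : A = q • (1 : Module.End R V) := sub_eq_zero.mp hAq
    have htr := htd.1
    rw [hA, map_smul, LinearMap.trace_one, h2, h2R, smul_eq_mul] at htr
    apply hq1
    have : q + q = 1 + q := by rw [← htr]; ring
    exact add_right_cancel this

end Alg

section CoreC

variable {𝒪 : Type} [CommRing 𝒪] [IsDomain 𝒪] [IsDiscreteValuationRing 𝒪]
  {M : Type} [AddCommGroup M] [Module 𝒪 M] [Module.Free 𝒪 M] [Module.Finite 𝒪 M]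
  [IsAdicComplete (maximalIdeal 𝒪) 𝒪] [Finite (ResidueField 𝒪)] [CharZero 𝒪]

/-- **The abstract core of S36** (= the core of S30, form C, exporting non-unipotence). -/
theorem s36k_core (hDens : s30_DensContract) (hTwo : s30_TwoContractC) (p : ℕ) [Fact p.Prime]
    (hp : (p : 𝒪) ∈ maximalIdeal 𝒪)
    (ρ : s29k_G →* Module.End 𝒪 M) (hcont : GaloisActionIsAdicContinuous 𝒪 ρ)
    (d : s29k_G →* 𝒪ˣ) (hd : s30_CharContinuous d)
    (cc : s29k_G) (hcc : cc * cc = 1) (hdcc : d cc = -1)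
    {ι : Type} (T : ι → Module.End 𝒪 M) (c : ι → 𝒪)
    (hcomm : ∀ (σ : s29k_G) (i : ι), Commute (ρ σ) (T i))
    (v : M) (hv0 : v ≠ 0) (hv : v ∈ s30f_eigen T c)
    (S₀ : Finset ℕ) (a : ℕ → 𝒪)
    (hfrob : ∀ ℓ : ℕ, ℓ.Prime → ℓ ∉ S₀ →
      ∀ A : ValuationSubring (AlgebraicClosure ℚ), A.LiesOverPrime ℓ →
        ∀ σ : s29k_G, A.IsFrobeniusAt σ ℓ →
          (∀ w ∈ s30f_eigen T c, ρ σ (ρ σ w) - a ℓ • ρ σ w + (ℓ : 𝒪) • w = 0) ∧
            ((d σ : 𝒪ˣ) : 𝒪) = (ℓ : 𝒪)) :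
    ∃ ρ'' : GaloisRepAdic 𝒪,
      (∀ ℓ : ℕ, ℓ.Prime → ℓ ∉ S₀ →
        ∀ A : ValuationSubring (AlgebraicClosure ℚ), A.LiesOverPrime ℓ →
          ∀ σ : s29k_G, A.IsFrobeniusAt σ ℓ →
            LinearMap.charpoly (ρ''.ρ σ) = X ^ 2 - C (a ℓ) * X + C ((ℓ : 𝒪))) ∧
      ∀ (A : ValuationSubring (AlgebraicClosure ℚ)) (q : ℕ), q.Prime → A.LiesOverPrime q →
        IsUnit (q : 𝒪) → ∀ φ : s29k_G, A.IsFrobeniusAt φ q → ((d φ : 𝒪ˣ) : 𝒪) = (q : 𝒪) →
        ρ''.residual.IsAbsolutelyIrreducible →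
        (∀ w ∈ s30f_eigen T c, (∀ τ ∈ A.inertiaSubgroupIn ℚ, ρ τ w = w) → ρ φ w = w) →
        ¬ ∀ τ ∈ A.inertiaSubgroupIn ℚ, LinearMap.charpoly (ρ''.ρ τ) = (X - 1) ^ 2 := by
  -- the eigen-submodule and the restricted representation
  set E : Submodule 𝒪 M := s30f_eigen T c with hEdef
  have hE : ∀ (g : s29k_G) (w : M), w ∈ E → ρ g w ∈ E := fun g w hw =>
    s30f_map_mem_eigen (fun i => hcomm g i) hw
  have hsat : ∀ (r : 𝒪), r ≠ 0 → ∀ m : M, r • m ∈ E → m ∈ E := fun r hr m hm =>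
    s30f_eigen_saturated hr hm
  haveI : Module.Finite 𝒪 E := s30f_finite_submodule E
  haveI : Module.Free 𝒪 E := s30f_free_submodule E
  haveI : Nontrivial E := ⟨⟨⟨v, hv⟩, 0, fun h => hv0 (congrArg Subtype.val h)⟩⟩
  set ρE : s29k_G →* Module.End 𝒪 E := s30f_restrict ρ E hE with hρE
  have hρEval : ∀ (g : s29k_G) (w : E), ((ρE g w : E) : M) = ρ g (w : M) := fun g w => rfl
  have hcontE : GaloisActionIsAdicContinuous 𝒪 ρE := s30f_continuous_restrict ρ hcont E hE hsat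
  -- [DENS]
  obtain ⟨t, ht, htfrob⟩ := hDens 𝒪 E ρE hcontE d hd S₀ a (by
    intro ℓ hℓ hℓS A hA σ hσ
    obtain ⟨h1, h2⟩ := hfrob ℓ hℓ hℓS A hA σ hσ
    refine ⟨?_, h2⟩
    apply LinearMap.ext
    intro w
    apply Subtype.ext
    exact h1 (w : M) w.2)
  -- [TWO], form C
  obtain ⟨ρ'', hchar, hthird⟩ := hTwo p 𝒪 hp E ρE hcontE d hd t ht cc hcc hdcc
  refine ⟨ρ'', ?_, ?_⟩
  · intro ℓ hℓ hℓS A hA σ hσ
    rw [hchar σ, htfrob ℓ hℓ hℓS A hA σ hσ, (hfrob ℓ hℓ hℓS A hA σ hσ).2]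
  · intro A q hq hA hqO φ hφ hdφ habs hfixM hU
    -- `t τ = 2`, `d τ = 1` on inertia
    have htd : ∀ τ ∈ A.inertiaSubgroupIn ℚ, t τ = 2 ∧ ((d τ : 𝒪ˣ) : 𝒪) = 1 := by
      intro τ hτ
      have h1 := hU τ hτ
      rw [hchar τ] at h1
      have h2 : ((X : 𝒪[X]) - 1) ^ 2 = X ^ 2 - C (2 : 𝒪) * X + C (1 : 𝒪) := by
        simp only [map_ofNat, map_one]
        ring
      rw [h2] at h1
      exact s36k_quad_inj h1
    -- unipotence on `E`
    have hUE : ∀ τ ∈ A.inertiaSubgroupIn ℚ, (ρE τ - 1) * (ρE τ - 1) = 0 := by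
      intro τ hτ
      obtain ⟨h1, h2⟩ := htd τ hτ
      have h3 := ht τ
      rw [h1, h2, one_smul] at h3
      have hinv : ρE τ⁻¹ * ρE τ = 1 := by rw [← map_mul, inv_mul_cancel, map_one]
      have h4 := congrArg (fun f : Module.End 𝒪 E => f * ρE τ) h3
      simp only [add_mul, hinv, smul_mul_assoc, one_mul] at h4
      -- h4 : ρE τ * ρE τ + 1 = 2 • ρE τ
      have h5 : (ρE τ - 1) * (ρE τ - 1) = (ρE τ * ρE τ + 1) - (2 : 𝒪) • ρE τ := by
        simp only [mul_sub, sub_mul, mul_one, one_mul, two_smul]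
        abel
      rw [h5, h4, sub_self]
    -- the tame relation on `E`
    have htame : ∀ τ ∈ A.inertiaSubgroupIn ℚ, ρE (φ * τ * φ⁻¹) = ρE τ ^ q := fun τ hτ =>
      s35t_tame_gen ρE hcontE A hq hA hqO hUE φ τ hφ hτ
    have hrel : ρE φ + (q : 𝒪) • ρE φ⁻¹ = t φ • 1 := by rw [← hdφ]; exact ht φ
    have hfixE : ∀ w : E, (∀ τ ∈ A.inertiaSubgroupIn ℚ, ρE τ w = w) → ρE φ w = w := by
      intro w hw
      apply Subtype.ext
      rw [hρEval]
      refine hfixM (w : M) w.2 (fun τ hτ => ?_)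
      have := congrArg Subtype.val (hw τ hτ)
      rw [hρEval] at this
      exact this
    haveI : IsNoetherian 𝒪 E := isNoetherian_of_isNoetherianRing_of_finite 𝒪 E
    obtain ⟨hτ1, hφ1⟩ := s36k_endgame ρE (A.inertiaSubgroupIn ℚ) hUE hq.two_le htame hrel hfixE
    -- `t φ = 1 + q`
    have hφinv : ρE φ⁻¹ = 1 := by
      have hinv : ρE φ⁻¹ * ρE φ = 1 := by rw [← map_mul, inv_mul_cancel, map_one]
      rw [hφ1, mul_one] at hinv
      exact hinv
    have htφ : t φ = 1 + (q : 𝒪) := by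
      rw [hφ1, hφinv] at hrel
      obtain ⟨w, hw⟩ := exists_ne (0 : E)
      have h1 := congrArg (fun f : Module.End 𝒪 E => f w) hrel
      simp only [LinearMap.add_apply, LinearMap.smul_apply, Module.End.one_apply] at h1
      have h0 : (1 + (q : 𝒪) - t φ) • w = 0 := by
        rw [sub_smul, add_smul, one_smul, h1, sub_self]
      rcases smul_eq_zero.mp h0 with h | h
      · exact (sub_eq_zero.mp h).symm
      · exact absurd h hw
    -- `ρ''(φ)` commutes with the image of `ρ''`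
    have hcommφ : ∀ h : s29k_G, ρ''.ρ φ * ρ''.ρ h = ρ''.ρ h * ρ''.ρ φ := by
      intro h
      have hg : ρ''.ρ (φ * h * φ⁻¹ * h⁻¹) = 1 := by
        apply hthird
        · rw [map_mul, map_mul, map_mul, hφ1, hφinv, one_mul, mul_one, ← map_mul, mul_inv_cancel,
            map_one]
        · rw [map_mul, map_mul, map_mul, map_inv, map_inv]
          rw [mul_comm (d φ) (d h), mul_assoc (d h), mul_inv_cancel, mul_one, mul_inv_cancel]
      have h1 : ρ''.ρ (φ * h * φ⁻¹ * h⁻¹) * (ρ''.ρ h * ρ''.ρ φ) = ρ''.ρ φ * ρ''.ρ h := by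
        rw [← map_mul, ← map_mul, ← map_mul]
        congr 1
        group
      rw [hg, one_mul] at h1
      exact h1.symm
    have hspan := s31a_span_rho_eq_top ρ'' habs
    have hcen : ∀ B : Module.End 𝒪 ρ''.V, ρ''.ρ φ * B = B * ρ''.ρ φ := by
      intro B
      have hB : B ∈ Submodule.span 𝒪 (Set.range ρ''.ρ) := by rw [hspan]; trivial
      induction hB using Submodule.span_induction with
      | mem x hx =>
        obtain ⟨g, rfl⟩ := hx
        exact hcommφ g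
      | zero => rw [mul_zero, zero_mul]
      | add x y _ _ hx hy => rw [mul_add, add_mul, hx, hy]
      | smul r x _ hx => rw [mul_smul_comm, smul_mul_assoc, hx]
    have hq1 : (q : 𝒪) ≠ 1 := by
      intro h
      have : ((q : ℕ) : 𝒪) = ((1 : ℕ) : 𝒪) := by rw [h]; norm_num
      exact hq.one_lt.ne' (Nat.cast_injective this)
    have hcharφ : LinearMap.charpoly (ρ''.ρ φ) = X ^ 2 - C (1 + (q : 𝒪)) * X + C (q : 𝒪) := by
      rw [hchar φ, htφ, hdφ]
    exact s36k_central_contra ρ''.finrank_eq (ρ''.ρ φ) hcen hq1 hcharφ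

end CoreC

section MainC

/-- a prime `q ≠ p` is a unit in a local ring of residue characteristic `p`. -/
theorem s36k_isUnit_natCast {𝒪 : Type*} [CommRing 𝒪] [IsLocalRing 𝒪] {p q : ℕ} (hp : p.Prime)
    (hq : q.Prime) (hqp : q ≠ p) (hp𝒪 : (p : 𝒪) ∈ maximalIdeal 𝒪) : IsUnit (q : 𝒪) := by
  by_contra h
  have hq𝔪 : (q : 𝒪) ∈ maximalIdeal 𝒪 := (IsLocalRing.mem_maximalIdeal _).mpr h
  have hcop : Nat.Coprime q p := (Nat.coprime_primes hq hp).mpr hqp
  obtain ⟨a, b, hab⟩ := Nat.isCoprime_iff_coprime.mpr hcop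
  have h1 : ((a : ℤ) : 𝒪) * (q : 𝒪) + ((b : ℤ) : 𝒪) * (p : 𝒪) = 1 := by
    have := congrArg (fun z : ℤ => (z : 𝒪)) hab
    push_cast at this
    exact this
  have h2 : (1 : 𝒪) ∈ maximalIdeal 𝒪 := by
    rw [← h1]
    exact Ideal.add_mem _ (Ideal.mul_mem_left _ _ hq𝔪) (Ideal.mul_mem_left _ _ hp𝒪)
  exact (Ideal.ne_top_iff_one _).mp (IsLocalRing.maximalIdeal.isMaximal 𝒪).ne_top h2

variable (p : ℕ) [Fact p.Prime]

/-- **S36 from the contracts of S30 and the LOCAL input.**  `χ : 𝕋 →+* 𝒪'` is a system of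
eigenvalues of level `N`; `hres'` is residual absolute irreducibility; the local input at a prime
`q` with `q² ∥ N`, `q ≠ p`, a place `A` over `q` and a Frobenius lift `φ` at `A` is: every
`χ`-eigenvector of `𝒪' ⊗ T_p J₀(N)` fixed by the inertia group at `A` is fixed by `φ`. -/
theorem s36k_main (hExtA : s30_ExtAContract) (hDens : s30_DensContract)
    (hTwo : s30_TwoContractC)
    (N : ℕ) [NeZero N] (D : s30_TateDatum N p) (Cy : s30_CycDatum p)
    (hconj : Cy.ε complexConjugation = -1)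
    (S : Finset ℕ) (hpS : p ∈ S) (hNS : ∀ q : ℕ, q.Prime → q ∣ N → q ∈ S)
    (𝒪' : Type) [CommRing 𝒪'] [IsDomain 𝒪'] [IsDiscreteValuationRing 𝒪']
    [IsAdicComplete (maximalIdeal 𝒪') 𝒪'] [Finite (ResidueField 𝒪')]
    [CharZero 𝒪'] (hp𝒪' : (p : 𝒪') ∈ maximalIdeal 𝒪')
    (χ : CuspForm.heckeAlgebra N 2 (↑S : Set ℕ) →+* 𝒪')
    (hres' : ∀ ρ : GaloisRepAdic 𝒪',
      (∀ (ℓ : ℕ) (hℓ : ℓ.Prime) (hℓN : ¬ ℓ ∣ N) (hℓS : ℓ ∉ (↑S : Set ℕ)),
        ∀ A : ValuationSubring (AlgebraicClosure ℚ), A.LiesOverPrime ℓ →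
          ∀ σ : AlgebraicClosure ℚ ≃ₐ[ℚ] AlgebraicClosure ℚ, A.IsFrobeniusAt σ ℓ →
            LinearMap.charpoly (ρ.ρ σ) =
              X ^ 2 - C (χ (CuspForm.heckeAlgebra.T hℓ hℓN hℓS)) * X + C ((ℓ : 𝒪'))) →
      ρ.residual.IsAbsolutelyIrreducible)
    (hLoc : ∀ [Algebra ℤ_[p] 𝒪'] (q : ℕ), q.Prime → q ≠ p → N.factorization q = 2 →
      ∀ A : ValuationSubring (AlgebraicClosure ℚ), A.LiesOverPrime q →
        ∀ φ : s29k_G, A.IsFrobeniusAt φ q →
          ∀ w : 𝒪' ⊗[ℤ_[p]] D.Λ,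
            (∀ (ℓ : ℕ) (hℓ : ℓ.Prime) (hℓN : ¬ ℓ ∣ N) (hℓS : ℓ ∉ (↑S : Set ℕ)),
              (D.T ⟨ℓ, hℓ⟩).baseChange 𝒪' w = χ (CuspForm.heckeAlgebra.T hℓ hℓN hℓS) • w) →
            (∀ τ ∈ A.inertiaSubgroupIn ℚ, (D.ρ τ).baseChange 𝒪' w = w) →
            (D.ρ φ).baseChange 𝒪' w = w) :
    ∃ (𝒪'' : Type) (_ : CommRing 𝒪'') (_ : IsDomain 𝒪'') (_ : IsDiscreteValuationRing 𝒪'')
      (_ : IsAdicComplete (maximalIdeal 𝒪'') 𝒪'')
      (_ : Finite (ResidueField 𝒪'')) (_ : CharZero 𝒪'')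
      (_ : Algebra 𝒪' 𝒪'') (_ : Module.Finite 𝒪' 𝒪'') (_ : IsLocalHom (algebraMap 𝒪' 𝒪'')),
      Function.Injective (algebraMap 𝒪' 𝒪'') ∧
      ∃ ρ : GaloisRepAdic 𝒪'',
        (∀ (ℓ : ℕ) (hℓ : ℓ.Prime) (hℓN : ¬ ℓ ∣ N) (hℓS : ℓ ∉ (↑S : Set ℕ)),
          ∀ A : ValuationSubring (AlgebraicClosure ℚ), A.LiesOverPrime ℓ →
            ∀ σ : AlgebraicClosure ℚ ≃ₐ[ℚ] AlgebraicClosure ℚ, A.IsFrobeniusAt σ ℓ →
              LinearMap.charpoly (ρ.ρ σ) =
                X ^ 2 - C (algebraMap 𝒪' 𝒪'' (χ (CuspForm.heckeAlgebra.T hℓ hℓN hℓS))) * X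
                  + C ((ℓ : 𝒪''))) ∧
        (∀ q : ℕ, q.Prime → q ≠ p → N.factorization q = 2 →
          ¬ ρ.IsUnipotentOnInertiaAt q) := by
  classical
  obtain ⟨f⟩ := hExtA p 𝒪' hp𝒪'
  letI : Algebra ℤ_[p] 𝒪' := f.toAlgebra
  have hfnat : ∀ m : ℕ, algebraMap ℤ_[p] 𝒪' (m : ℤ_[p]) = (m : 𝒪') := fun m => map_natCast _ m
  -- the base-changed Tate module
  set ρ : s29k_G →* Module.End 𝒪' (𝒪' ⊗[ℤ_[p]] D.Λ) := s30f_baseChange 𝒪' D.ρ with hρ
  have hcont : GaloisActionIsAdicContinuous 𝒪' ρ :=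
    s30f_continuous_baseChange p hp𝒪' D.ρ D.cont
  -- the cyclotomic character
  set d : s29k_G →* 𝒪'ˣ := (Units.map (f : ℤ_[p] →* 𝒪')).comp Cy.ε with hd
  have hdval : ∀ σ : s29k_G, ((d σ : 𝒪'ˣ) : 𝒪') = f ((Cy.ε σ : ℤ_[p]ˣ) : ℤ_[p]) := fun σ => rfl
  have hdcont : s30_CharContinuous d := by
    intro n
    obtain ⟨L, hL, -, h1⟩ := Cy.cont n
    refine ⟨L, hL, fun σ hσ => ?_⟩
    obtain ⟨w, hw⟩ := h1 σ hσ
    have : ((d σ : 𝒪'ˣ) : 𝒪') - 1 = (p : 𝒪') ^ n * f w := by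
      rw [hdval, ← map_one f, ← map_sub, hw, map_mul, map_pow, map_natCast]
    rw [this]
    exact Ideal.mul_mem_right _ _ (Ideal.pow_mem_pow hp𝒪' n)
  have hdcc : d complexConjugation = -1 := by
    apply Units.ext
    rw [hdval, hconj]
    simp
  -- the eigen-system
  let ι : Type := {ℓ : ℕ // ℓ.Prime ∧ ¬ ℓ ∣ N ∧ ℓ ∉ (↑S : Set ℕ)}
  let T : ι → Module.End 𝒪' (𝒪' ⊗[ℤ_[p]] D.Λ) := fun i => (D.T ⟨i.1, i.2.1⟩).baseChange 𝒪'
  let c : ι → 𝒪' := fun i => χ (CuspForm.heckeAlgebra.T i.2.1 i.2.2.1 i.2.2.2)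
  have hcomm : ∀ (σ : s29k_G) (i : ι), Commute (ρ σ) (T i) := fun σ i =>
    s30f_baseChange_commute 𝒪' (D.comm ⟨i.1, i.2.1⟩ σ)
  obtain ⟨v, hv0, hv⟩ := D.eig S 𝒪' χ
  have hvE : v ∈ s30f_eigen T c := fun i => hv i.1 i.2.1 i.2.2.1 i.2.2.2
  -- the Frobenius data
  let a : ℕ → 𝒪' := fun ℓ =>
    if h : ℓ.Prime ∧ ¬ ℓ ∣ N ∧ ℓ ∉ (↑S : Set ℕ) then
      χ (CuspForm.heckeAlgebra.T h.1 h.2.1 h.2.2) else 0
  have hgood : ∀ ℓ : ℕ, ℓ.Prime → ℓ ∉ S → ¬ ℓ ∣ N ∧ ℓ ≠ p := by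
    intro ℓ hℓ hℓS
    exact ⟨fun h => hℓS (hNS ℓ hℓ h), fun h => hℓS (h ▸ hpS)⟩
  have hndvd : ∀ ℓ : ℕ, ℓ.Prime → ¬ ℓ ∣ N → ℓ ≠ p → ¬ ℓ ∣ N * p := by
    intro ℓ hℓ h1 h2 h3
    rcases (Nat.Prime.dvd_mul hℓ).mp h3 with h | h
    · exact h1 h
    · exact h2 ((Nat.prime_dvd_prime_iff_eq hℓ (Fact.out : p.Prime)).mp h)
  have hfrob : ∀ ℓ : ℕ, ℓ.Prime → ℓ ∉ S →
      ∀ A : ValuationSubring (AlgebraicClosure ℚ), A.LiesOverPrime ℓ →
        ∀ σ : s29k_G, A.IsFrobeniusAt σ ℓ →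
          (∀ w ∈ s30f_eigen T c, ρ σ (ρ σ w) - a ℓ • ρ σ w + (ℓ : 𝒪') • w = 0) ∧
            ((d σ : 𝒪'ˣ) : 𝒪') = (ℓ : 𝒪') := by
    intro ℓ hℓ hℓS A hA σ hσ
    obtain ⟨hℓN, hℓp⟩ := hgood ℓ hℓ hℓS
    have hℓS' : ℓ ∉ (↑S : Set ℕ) := fun h => hℓS (Finset.mem_coe.mp h)
    refine ⟨fun w hw => ?_, ?_⟩
    · have hq := D.frobQuad ⟨ℓ, hℓ⟩ (hndvd ℓ hℓ hℓN hℓp) A hA σ hσ
      have hq' := congrArg (fun g : Module.End ℤ_[p] D.Λ => g.baseChange 𝒪' w) hq
      simp only [LinearMap.baseChange_add, LinearMap.baseChange_sub, LinearMap.baseChange_mul,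
        LinearMap.baseChange_smul, LinearMap.baseChange_one, LinearMap.baseChange_zero,
        LinearMap.add_apply, LinearMap.sub_apply, Module.End.mul_apply, LinearMap.smul_apply,
        Module.End.one_apply, LinearMap.zero_apply] at hq'
      have hTw : (D.T ⟨ℓ, hℓ⟩).baseChange 𝒪' (ρ σ w) = a ℓ • ρ σ w := by
        have h1 := s30f_map_mem_eigen (fun i => hcomm σ i) hw ⟨ℓ, hℓ, hℓN, hℓS'⟩
        have ha : a ℓ = c ⟨ℓ, hℓ, hℓN, hℓS'⟩ := by
          show (if h : ℓ.Prime ∧ ¬ ℓ ∣ N ∧ ℓ ∉ (↑S : Set ℕ) then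
            χ (CuspForm.heckeAlgebra.T h.1 h.2.1 h.2.2) else 0) = _
          rw [dif_pos ⟨hℓ, hℓN, hℓS'⟩]
        rw [ha]
        exact h1
      have hsm : (((ℓ : ℕ) : ℤ_[p])) • w = (ℓ : 𝒪') • w := by
        rw [algebra_compatible_smul 𝒪' ((ℓ : ℕ) : ℤ_[p]) w, hfnat]
      rw [s30f_baseChange_apply] at hTw ⊢
      rw [hTw, hsm] at hq'
      exact hq'
    · rw [hdval, Cy.frob ℓ hℓ hℓp A hA σ hσ, map_natCast]
  obtain ⟨ρ'', hchar, hloc⟩ :=
    s36k_core hDens hTwo p hp𝒪' ρ hcont d hdcont complexConjugation complexConjugation_mul_self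
      hdcc T c hcomm v hv0 hvE S a hfrob
  have hcharχ : ∀ (ℓ : ℕ) (hℓ : ℓ.Prime) (hℓN : ¬ ℓ ∣ N) (hℓS : ℓ ∉ (↑S : Set ℕ)),
      ∀ A : ValuationSubring (AlgebraicClosure ℚ), A.LiesOverPrime ℓ →
        ∀ σ : AlgebraicClosure ℚ ≃ₐ[ℚ] AlgebraicClosure ℚ, A.IsFrobeniusAt σ ℓ →
          LinearMap.charpoly (ρ''.ρ σ) =
            X ^ 2 - C (χ (CuspForm.heckeAlgebra.T hℓ hℓN hℓS)) * X + C ((ℓ : 𝒪')) := by
    intro ℓ hℓ hℓN hℓS A hA σ hσ
    have hℓS' : ℓ ∉ S := fun h => hℓS (Finset.mem_coe.mpr h)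
    rw [hchar ℓ hℓ hℓS' A hA σ hσ]
    have ha : a ℓ = χ (CuspForm.heckeAlgebra.T hℓ hℓN hℓS) := by
      show (if h : ℓ.Prime ∧ ¬ ℓ ∣ N ∧ ℓ ∉ (↑S : Set ℕ) then
        χ (CuspForm.heckeAlgebra.T h.1 h.2.1 h.2.2) else 0) = _
      rw [dif_pos ⟨hℓ, hℓN, hℓS⟩]
    rw [ha]
  refine ⟨𝒪', inferInstance, inferInstance, inferInstance, inferInstance, inferInstance,
    inferInstance, Algebra.id 𝒪', Module.Finite.self 𝒪', ?_, ?_, ρ'', ?_, ?_⟩
  · show IsLocalHom (RingHom.id 𝒪')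
    infer_instance
  · exact Function.injective_id
  · intro ℓ hℓ hℓN hℓS A hA σ hσ
    rw [hcharχ ℓ hℓ hℓN hℓS A hA σ hσ]
    rfl
  · intro q hq hqp hfac hU
    obtain ⟨A, hA⟩ := Fermat.Agent.Lib.Frobenius.exists_liesOverPrime q hq
    obtain ⟨φ, hφ⟩ := Fermat.Agent.Lib.Frobenius.exists_isFrobeniusAt_of_liesOverPrime A q hq hA
    have hqO : IsUnit (q : 𝒪') := s36k_isUnit_natCast (Fact.out : p.Prime) hq hqp hp𝒪'
    have hdq : ((d φ : 𝒪'ˣ) : 𝒪') = (q : 𝒪') := by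
      rw [hdval, Cy.frob q hq hqp A hA φ hφ, map_natCast]
    refine hloc A q hq hA hqO φ hφ hdq (hres' ρ'' hcharχ) ?_ (hU A hA)
    intro w hwE hwI
    have h1 := hLoc q hq hqp hfac A hA φ hφ w
      (fun ℓ hℓ hℓN hℓS => hwE ⟨ℓ, hℓ, hℓN, hℓS⟩) (fun τ hτ => hwI τ hτ)
    exact h1

end MainC

end

end Fermat.Agent.Lib.S36
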