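/-
S36 (row 35), TARGET CONTRACT FILE of the wiring side (helper3, prefix `s36k_` / `s36_`).

* `s36_Local` : the LOCAL contract — the only non-formal input of S36.  For a newform `g` of level
  `M`, a prime `q` with `q² ∥ M`, `q ≠ lam`, a place `A` over `q` and a Frobenius lift `φ` at `A`:
  every eigenvector `w ∈ O' ⊗ T_lam J₀(M)` for the eigenvalues of `g` (at the good primes `ℓ ∉ S`)
  which is fixed by the inertia group at `A` is fixed by `φ`.
  (Source: [B3′] newness puts the eigen-module of `g` into the `q`-new part (killed by both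
  push-forwards to level `M / q`) + descent to torsion points + the geometric contract [NN₁].)
* `s36_of_local` : the frozen statement S36 from `s36_Local` (everything else is proved: the
  contracts of S30 are theorems of Lib/S30, the endgame is `Lib/S36/KSkel.lean`).
-/
import Fermat.Agent.Lib.S36.KSkel
import Fermat.Agent.Lib.S30.ExtA
import Fermat.Agent.Lib.S30.Dens
import Fermat.Agent.Lib.S30.TwoC
import Fermat.Agent.Lib.S30.WilesTwoC
import Fermat.Agent.Lib.S30.Latt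
import Fermat.Agent.Lib.S30.TateDatum
import Fermat.Agent.Lib.S30.CycB
import Fermat.Prelude.Def_CuspForm_Newforms
import Fermat.Prelude.Def_GaloisRep_Residual

set_option autoImplicit false

open Polynomial
open scoped TensorProduct

namespace Fermat.Agent.Lib.S36

open Fermat.Agent.Lib.S29 Fermat.Agent.Lib.S30

/-- **LOCAL(q²)**, the target contract of the S36 project.  The `ℤ_[lam]`-algebra structure of
`O'` is arbitrary (an instance argument). -/
def s36_Local : Prop :=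
  ∀ {M : ℕ} [NeZero M] {g : CuspForm (CongruenceSubgroup.Gamma0 M) 2} (_ : g.IsNewform)
    (lam : ℕ) [Fact lam.Prime] (S : Finset ℕ)
    (O' : Type) [CommRing O'] [IsDomain O'] [IsDiscreteValuationRing O']
    [IsAdicComplete (IsLocalRing.maximalIdeal O') O'] [Finite (IsLocalRing.ResidueField O')]
    [CharZero O'] [Algebra ℤ_[lam] O'] (_ : (lam : O') ∈ IsLocalRing.maximalIdeal O')
    (chig : CuspForm.heckeAlgebra M 2 (↑S : Set ℕ) →+* ℂ)
    (_ : ∀ (ℓ : ℕ) (hℓ : ℓ.Prime) (hℓM : ¬ ℓ ∣ M) (hℓS : ℓ ∉ (↑S : Set ℕ)),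
      chig (CuspForm.heckeAlgebra.T hℓ hℓM hℓS) = ModularFormClass.qCoeff g ℓ)
    (iota : chig.range →+* O')
    (_ : lam ∈ S) (_ : ∀ q : ℕ, q.Prime → q ∣ M → q ∈ S)
    (q : ℕ), q.Prime → q ≠ lam → M.factorization q = 2 →
    ∀ A : ValuationSubring (AlgebraicClosure ℚ), A.LiesOverPrime q →
      ∀ φ : s29k_G, A.IsFrobeniusAt φ q →
        ∀ w : O' ⊗[ℤ_[lam]] (s30u_tateDatum M lam).Λ,
          (∀ (ℓ : ℕ) (hℓ : ℓ.Prime) (hℓM : ¬ ℓ ∣ M) (hℓS : ℓ ∉ (↑S : Set ℕ)),
            ((s30u_tateDatum M lam).T ⟨ℓ, hℓ⟩).baseChange O' w =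
              (iota.comp chig.rangeRestrict) (CuspForm.heckeAlgebra.T hℓ hℓM hℓS) • w) →
          (∀ τ ∈ A.inertiaSubgroupIn ℚ, ((s30u_tateDatum M lam).ρ τ).baseChange O' w = w) →
          ((s30u_tateDatum M lam).ρ φ).baseChange O' w = w

/-- **S36 from the LOCAL contract.** -/
theorem s36_of_local (hL : s36_Local)
    {M : ℕ} [NeZero M] {g : CuspForm (CongruenceSubgroup.Gamma0 M) 2} (hg : g.IsNewform)
    (lam : ℕ) [Fact lam.Prime]
    (S : Finset ℕ)
    (O' : Type) [CommRing O'] [IsDomain O'] [IsDiscreteValuationRing O']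
    [IsAdicComplete (IsLocalRing.maximalIdeal O') O'] [Finite (IsLocalRing.ResidueField O')]
    [CharZero O'] (hlamO' : (lam : O') ∈ IsLocalRing.maximalIdeal O')
    (_hlam2 : lam ≠ 2)
    (chig : CuspForm.heckeAlgebra M 2 (↑S : Set ℕ) →+* ℂ)
    (hchig : ∀ (ℓ : ℕ) (hℓ : ℓ.Prime) (hℓM : ¬ ℓ ∣ M) (hℓS : ℓ ∉ (↑S : Set ℕ)),
      chig (CuspForm.heckeAlgebra.T hℓ hℓM hℓS) = ModularFormClass.qCoeff g ℓ)
    (iota : chig.range →+* O')
    (hlamS : lam ∈ S) (hMS : ∀ q : ℕ, q.Prime → q ∣ M → q ∈ S)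
    (hres : ∀ (O'' : Type) [CommRing O''] [IsDomain O''] [IsDiscreteValuationRing O'']
      [IsAdicComplete (IsLocalRing.maximalIdeal O'') O''] [Finite (IsLocalRing.ResidueField O'')] [CharZero O'']
      [Algebra O' O''] [Module.Finite O' O''] [IsLocalHom (algebraMap O' O'')],
      Function.Injective (algebraMap O' O'') → ∀ (ρ : GaloisRepAdic O''),
      (∀ (ℓ : ℕ) (hℓ : ℓ.Prime) (_hℓlam : ℓ ≠ lam) (hℓM : ¬ ℓ ∣ M) (hℓS : ℓ ∉ (↑S : Set ℕ)),
        ∀ A : ValuationSubring (AlgebraicClosure ℚ), A.LiesOverPrime ℓ →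
          ∀ σ : AlgebraicClosure ℚ ≃ₐ[ℚ] AlgebraicClosure ℚ, A.IsFrobeniusAt σ ℓ →
            LinearMap.charpoly (ρ.ρ σ) =
              X ^ 2 - C (algebraMap O' O'' ((iota.comp chig.rangeRestrict) (CuspForm.heckeAlgebra.T hℓ hℓM hℓS))) * X
                + C ((ℓ : O'')))
      → ρ.residual.IsAbsolutelyIrreducible ∧ ρ.residual.IsOdd) :
    ∃ (O'' : Type) (_ : CommRing O'') (_ : IsDomain O'') (_ : IsDiscreteValuationRing O'')
      (_ : IsAdicComplete (IsLocalRing.maximalIdeal O'') O'') (_ : Finite (IsLocalRing.ResidueField O''))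
      (_ : CharZero O'') (_ : Algebra O' O'') (_ : Module.Finite O' O'') (_ : IsLocalHom (algebraMap O' O'')),
      Function.Injective (algebraMap O' O'') ∧
      ∃ ρ : GaloisRepAdic O'',
        (∀ (ℓ : ℕ) (hℓ : ℓ.Prime) (hℓM : ¬ ℓ ∣ M) (hℓS : ℓ ∉ (↑S : Set ℕ)),
          ∀ A : ValuationSubring (AlgebraicClosure ℚ), A.LiesOverPrime ℓ →
            ∀ σ : AlgebraicClosure ℚ ≃ₐ[ℚ] AlgebraicClosure ℚ, A.IsFrobeniusAt σ ℓ →
              LinearMap.charpoly (ρ.ρ σ) =
                X ^ 2 - C (algebraMap O' O'' ((iota.comp chig.rangeRestrict) (CuspForm.heckeAlgebra.T hℓ hℓM hℓS))) * X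
                  + C ((ℓ : O''))) ∧
        (∀ q : ℕ, q.Prime → q ≠ lam → M.factorization q = 2 → ¬ ρ.IsUnipotentOnInertiaAt q) := by
  have hres' : ∀ ρ : GaloisRepAdic O',
      (∀ (ℓ : ℕ) (hℓ : ℓ.Prime) (hℓM : ¬ ℓ ∣ M) (hℓS : ℓ ∉ (↑S : Set ℕ)),
        ∀ A : ValuationSubring (AlgebraicClosure ℚ), A.LiesOverPrime ℓ →
          ∀ σ : AlgebraicClosure ℚ ≃ₐ[ℚ] AlgebraicClosure ℚ, A.IsFrobeniusAt σ ℓ →
            LinearMap.charpoly (ρ.ρ σ) =
              X ^ 2 - C ((iota.comp chig.rangeRestrict) (CuspForm.heckeAlgebra.T hℓ hℓM hℓS)) * X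
                + C ((ℓ : O'))) →
      ρ.residual.IsAbsolutelyIrreducible := by
    intro ρ hρ
    have hloc : IsLocalHom (algebraMap O' O') := by
      show IsLocalHom (RingHom.id O')
      infer_instance
    exact (@hres O' _ _ _ _ _ _ (Algebra.id O') (Module.Finite.self O') hloc
      Function.injective_id ρ
      (fun ℓ hℓ _ hℓM hℓS A hA σ hσ => hρ ℓ hℓ hℓM hℓS A hA σ hσ)).1
  exact s36k_main lam s30x_extA s30d_densContract (s30t2_twoC_of s30w_wilContract s30l_lattContract)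
    M (s30u_tateDatum M lam) (s30y_cycDatum lam) (s30y_conj_datum lam) S hlamS hMS O' hlamO'
    (iota.comp chig.rangeRestrict) hres'
    (fun q hq hql hfac A hA φ hφ w hwE hwI =>
      hL hg lam S O' hlamO' chig hchig iota hlamS hMS q hq hql hfac A hA φ hφ w hwE hwI)

end Fermat.Agent.Lib.S36
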