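/-
S36 project, GEOMETRY side, item (3c)(i) of the `s36g_InLocal` checklist (helper7, prefix `s36l_`):
**THE f-INDEPENDENT LOCAL PACKAGE `s36p_LocalReg` AT THE TRIPLE POINTS**, abstract two-level frame.

Frame of helper5's `QTriple2.lean` (`s36q_triple`): `O₁ : ι₁ → ValuationSubring 𝓕₁` (level `q`, two
distinguished components `iI`, `i0`, constant uniformiser `π₁`), `O₂ : Fin 3 → ValuationSubring 𝓕₂`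
(level `q²`), `γα, γβ : 𝓕₁ → 𝓕₂` with the six comaps, `𝔫` a prime of the chart ring `B₂` through
which all three components pass and whose two images are regular crossings of level `q`.

Differences with `s36q_triple`: the uniformiser `t` of `O₂ 1` is only required in the LOCAL ring
`(B₂)_𝔫` (for the Hauptmodul charts `t₂, t₃` the global function `j(q²τ) - j(τ)` has poles on the
chart), no factorisation of `π₂` is produced, and the normality `hN` of the three branches is added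
(helper2's `s36e_normal`; needs residue degree one for `(γα, iI, 0)`, `(γα, iI, 1)`, `(γβ, i0, 2)`).

* `s36l_triple_branches` : the three branch equations `ℓ j` (kernel generators, uniformisers, units
  on the other branches, no horizontal zeros) and "every prime `≠ 𝔪` is principal";
* `s36l_triple_reg_abs`  : `s36p_LocalReg O₂ S₂ 𝔫 m`.
-/
import Fermat.Agent.Lib.S36.QTriple2
import Fermat.Agent.Lib.S36.REisAbs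
import Fermat.Agent.Lib.S36.PCase

set_option autoImplicit false
set_option linter.unusedSectionVars false
set_option linter.style.haveILetI false
set_option maxHeartbeats 800000

noncomputable section

namespace Fermat.Agent.Lib.S36

open AlgebraicCurve Fermat.Agent.Lib.FF Fermat.Agent.Lib.S18 Fermat.Agent.Lib.S34 IsLocalRing

variable {L₀ 𝓕₁ 𝓕₂ : Type*} [Field L₀] [Field 𝓕₁] [Field 𝓕₂] [Algebra L₀ 𝓕₁] [Algebra L₀ 𝓕₂]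
variable {ι₁ : Type*} (O₁ : ι₁ → ValuationSubring 𝓕₁) (O₂ : Fin 3 → ValuationSubring 𝓕₂)
  (S₁ : Set (Place L₀ 𝓕₁)) (S₂ : Set (Place L₀ 𝓕₂)) (γα γβ : 𝓕₁ →+* 𝓕₂)
  (hγα : ∀ b ∈ s34x_ring (s34x_infRing O₁) S₁, γα b ∈ s34x_ring (s34x_infRing O₂) S₂)
  (hγβ : ∀ b ∈ s34x_ring (s34x_infRing O₁) S₁, γβ b ∈ s34x_ring (s34x_infRing O₂) S₂)
  (𝔫 : Ideal (s34x_ring (s34x_infRing O₂) S₂)) [h𝔫 : 𝔫.IsPrime]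
  [hB₁ : IsNoetherianRing (s34x_ring (s34x_infRing O₁) S₁)]
  [hB₂ : IsNoetherianRing (s34x_ring (s34x_infRing O₂) S₂)]

/-- **The three branches at a triple point**, with a LOCAL uniformiser `tR` of `O₂ 1`. -/
theorem s36l_triple_branches (hA : s36q_Arch O₂)
    (hfin : ∀ y : 𝓕₂, y ≠ 0 → {Q : Place L₀ 𝓕₂ | Q ∈ S₂ ∧ Q.ord y ≠ 0}.Finite)
    (iI i0 : ι₁) (π₁ : 𝓕₁) (hπ₁0 : π₁ ≠ 0) (hππ : γα π₁ = γβ π₁)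
    (hπI : π₁ ∈ (O₁ iI).nonunits ∧ ∀ y ∈ (O₁ iI).nonunits, ∃ c ∈ O₁ iI, y = π₁ * c)
    (hπ0 : π₁ ∈ (O₁ i0).nonunits ∧ ∀ y ∈ (O₁ i0).nonunits, ∃ c ∈ O₁ i0, y = π₁ * c)
    (hc0α : ∀ x, γα x ∈ O₂ 0 ↔ x ∈ O₁ iI) (hc0β : ∀ x, γβ x ∈ O₂ 0 ↔ x ∈ O₁ iI)
    (hc1α : ∀ x, γα x ∈ O₂ 1 ↔ x ∈ O₁ iI) (hc1β : ∀ x, γβ x ∈ O₂ 1 ↔ x ∈ O₁ i0)
    (hc2α : ∀ x, γα x ∈ O₂ 2 ↔ x ∈ O₁ i0) (hc2β : ∀ x, γβ x ∈ O₂ 2 ↔ x ∈ O₁ i0)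
    (he0 : ∀ y ∈ (O₂ 0).nonunits, ∃ c ∈ O₂ 0, y = γα π₁ * c)
    (he2 : ∀ y ∈ (O₂ 2).nonunits, ∃ c ∈ O₂ 2, y = γα π₁ * c)
    (pB : s34x_ring (s34x_infRing O₂) S₂) (hpB : (pB : 𝓕₂) = γα π₁)
    (tR : Localization.AtPrime 𝔫)
    (ht : s34f_iota (s34x_infRing O₂) S₂ 𝔫 tR ∈ (O₂ 1).nonunits)
    (htgen : ∀ y ∈ (O₂ 1).nonunits, ∃ c ∈ O₂ 1, y = s34f_iota (s34x_infRing O₂) S₂ 𝔫 tR * c)
    (hf2β : s36q_Frac O₁ O₂ S₁ γβ i0 2)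
    (hthru : ∀ j, s36q_compThrough O₂ S₂ 𝔫 j)
    (hπord : ∀ Q ∈ S₂, Q.ord (γα π₁) = 0)
    (hXα : s36q_RegCross O₁ S₁ (s36q_pt O₁ O₂ S₁ S₂ γα hγα 𝔫) iI i0 π₁)
    (hXβ : s36q_RegCross O₁ S₁ (s36q_pt O₁ O₂ S₁ S₂ γβ hγβ 𝔫) iI i0 π₁) :
    (∃ ℓ : Fin 3 → Localization.AtPrime 𝔫,
      (∀ j, ℓ j ≠ 0) ∧
      (∀ j, s34f_iota (s34x_infRing O₂) S₂ 𝔫 (ℓ j) ∈ (O₂ j).nonunits) ∧
      (∀ j, ∀ y ∈ (O₂ j).nonunits, ∃ c ∈ O₂ j,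
        y = s34f_iota (s34x_infRing O₂) S₂ 𝔫 (ℓ j) * c) ∧
      (∀ i j, i ≠ j → (s34f_iota (s34x_infRing O₂) S₂ 𝔫 (ℓ i))⁻¹ ∈ O₂ j) ∧
      (∀ j, ∀ Q ∈ S₂, s34f_through (s34x_infRing O₂) S₂ 𝔫 Q →
        Q.ord (s34f_iota (s34x_infRing O₂) S₂ 𝔫 (ℓ j)) = 0)) ∧
    (∀ 𝔭 : Ideal (Localization.AtPrime 𝔫), 𝔭.IsPrime →
      𝔭 ≠ maximalIdeal (Localization.AtPrime 𝔫) → 𝔭.IsPrincipal) ∧
    (∃ uα wα : Localization.AtPrime (s36q_pt O₁ O₂ S₁ S₂ γα hγα 𝔫),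
      maximalIdeal (Localization.AtPrime (s36q_pt O₁ O₂ S₁ S₂ γα hγα 𝔫)) = Ideal.span {uα, wα} ∧
      s34f_iota (s34x_infRing O₁) S₁ (s36q_pt O₁ O₂ S₁ S₂ γα hγα 𝔫) uα ∈ (O₁ iI).nonunits ∧
      s34f_iota (s34x_infRing O₁) S₁ (s36q_pt O₁ O₂ S₁ S₂ γα hγα 𝔫) wα ∈ (O₁ i0).nonunits) ∧
    (∃ uβ wβ : Localization.AtPrime (s36q_pt O₁ O₂ S₁ S₂ γβ hγβ 𝔫),
      maximalIdeal (Localization.AtPrime (s36q_pt O₁ O₂ S₁ S₂ γβ hγβ 𝔫)) = Ideal.span {uβ, wβ} ∧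
      s34f_iota (s34x_infRing O₁) S₁ (s36q_pt O₁ O₂ S₁ S₂ γβ hγβ 𝔫) uβ ∈ (O₁ iI).nonunits ∧
      s34f_iota (s34x_infRing O₁) S₁ (s36q_pt O₁ O₂ S₁ S₂ γβ hγβ 𝔫) wβ ∈ (O₁ i0).nonunits) := by
  classical
  have hπordβ : ∀ Q ∈ S₂, Q.ord (γβ π₁) = 0 := by rw [← hππ]; exact hπord
  -- the branch `ℓ 2` (component `V_0`), pulled back along `γα`
  obtain ⟨uα, wα, hmα, huα, hwα, hK2, hℓ2nu, hgen2, hunit2, hord2, hℓ2m, hℓ2ne⟩ :=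
    s36q_branch_of_cross O₁ O₂ S₁ S₂ γα hγα 𝔫 hA hfin iI i0 2 π₁ hπ₁0 hπ0 hπI.2 hc2α
      (by
        intro j' hj' _
        fin_cases j'
        · exact hc0α
        · exact hc1α
        · exact absurd rfl hj') he2 (hthru 2) hπord hXα
  -- the branch `ℓ 0` (component `V_∞`), pulled back along `γβ`
  obtain ⟨wβ, uβ, hmβ, hwβ, huβ, hK0, hℓ0nu, hgen0, hunit0, hord0, hℓ0m, hℓ0ne⟩ :=
    s36q_branch_of_cross O₁ O₂ S₁ S₂ γβ hγβ 𝔫 hA hfin i0 iI 0 π₁ hπ₁0 hπI hπ0.2 hc0β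
      (by
        intro j' hj' _
        fin_cases j'
        · exact absurd rfl hj'
        · exact hc1β
        · exact hc2β) (by rw [← hππ]; exact he0) (hthru 0) hπordβ
      (s36q_RegCross_symm O₁ S₁ _ iI i0 π₁ hXβ)
  set ℓ2 := s36q_locMap O₁ O₂ S₁ S₂ γα hγα 𝔫 wα with hℓ2
  set ℓ0 := s36q_locMap O₁ O₂ S₁ S₂ γβ hγβ 𝔫 uβ with hℓ0
  have hnot : ∀ (x : 𝓕₂) (j : Fin 3), x ≠ 0 → x⁻¹ ∈ O₂ j → x ∉ (O₂ j).nonunits := by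
    intro x j hx0 hinv hmem
    rcases ((O₂ j).mem_nonunits_iff_or).mp hmem with h | h
    · exact hx0 h
    · exact h hinv
  have hιℓ0ne : s34f_iota (s34x_infRing O₂) S₂ 𝔫 ℓ0 ≠ 0 := fun h =>
    hℓ0ne (s34f_iota_injective (s34x_infRing O₂) S₂ 𝔫 (by rw [h, map_zero]))
  have hιℓ2ne : s34f_iota (s34x_infRing O₂) S₂ 𝔫 ℓ2 ≠ 0 := fun h =>
    hℓ2ne (s34f_iota_injective (s34x_infRing O₂) S₂ 𝔫 (by rw [h, map_zero]))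
  have hℓ0_1 : s34f_iota (s34x_infRing O₂) S₂ 𝔫 ℓ0 ∉ (O₂ 1).nonunits :=
    hnot _ 1 hιℓ0ne (hunit0 1 (by decide) (hthru 1))
  have hℓ0_2 : s34f_iota (s34x_infRing O₂) S₂ 𝔫 ℓ0 ∉ (O₂ 2).nonunits :=
    hnot _ 2 hιℓ0ne (hunit0 2 (by decide) (hthru 2))
  have hℓ2_1 : s34f_iota (s34x_infRing O₂) S₂ 𝔫 ℓ2 ∉ (O₂ 1).nonunits :=
    hnot _ 1 hιℓ2ne (hunit2 1 (by decide) (hthru 1))
  -- (D) at `V_0` along `γβ`: generator `red ℓ0`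
  have hD2 := s36q_D_chart O₁ O₂ S₁ S₂ γβ hγβ 𝔫 i0 2 hc2β (hthru 2) uβ wβ
    (by rw [hmβ, Set.pair_comm]) hwβ hf2β
  have hm20 : maximalIdeal (Localization.AtPrime 𝔫) = Ideal.span {ℓ2, ℓ0} :=
    s36q_span_pair_of_KD O₂ S₂ 𝔫 2 (hthru 2) ℓ2 ℓ0 hℓ2m hℓ0m hK2 hD2
  have hprin := s36q_principal_of_KD O₂ S₂ 𝔫 2 (hthru 2) ℓ2 ℓ0 hm20 hK2 hℓ2nu hℓ2ne hℓ0_2
  -- the middle branch
  obtain ⟨ℓ1, hℓ1⟩ := s36q_exists_ker_gen O₂ S₂ 𝔫 hprin 1 (hthru 1) ℓ0 hℓ0m hℓ0_1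
  have hK0' := s36q_ker_iff_of_K O₂ S₂ 𝔫 0 (hthru 0) ℓ0 hℓ0nu hK0
  have hK2' := s36q_ker_iff_of_K O₂ S₂ 𝔫 2 (hthru 2) ℓ2 hℓ2nu hK2
  have hℓ1nu : s34f_iota (s34x_infRing O₂) S₂ 𝔫 ℓ1 ∈ (O₂ 1).nonunits :=
    (hℓ1 ℓ1).mpr ⟨1, by rw [mul_one]⟩
  have hγπ0 : γα π₁ ≠ 0 := by rwa [Ne, map_eq_zero]
  have hγπ1 : γα π₁ ∈ (O₂ 1).nonunits :=
    (s36q_nonunits_comap O₁ O₂ γα iI 1 hc1α π₁).mpr hπI.1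
  have ht0 : s34f_iota (s34x_infRing O₂) S₂ 𝔫 tR ≠ 0 := by
    intro h0
    obtain ⟨c, _, hc⟩ := htgen _ hγπ1
    rw [h0, zero_mul] at hc
    exact hγπ0 hc
  have hpR : s34f_iota (s34x_infRing O₂) S₂ 𝔫 (algebraMap _ (Localization.AtPrime 𝔫) pB) =
      γα π₁ := by rw [s34f_iota_algebraMap, hpB]
  have hℓ1ne : ℓ1 ≠ 0 := by
    rintro rfl
    obtain ⟨c, hc⟩ := (hℓ1 tR).mp ht
    rw [zero_mul] at hc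
    rw [hc, map_zero] at ht0
    exact ht0 rfl
  have hgen1 : ∀ y ∈ (O₂ 1).nonunits, ∃ c ∈ O₂ 1,
      y = s34f_iota (s34x_infRing O₂) S₂ 𝔫 ℓ1 * c :=
    s36q_ker_gen_unif O₂ S₂ 𝔫 1 ℓ1 tR hℓ1 (hthru 1) ht htgen
  have hord1 : ∀ Q ∈ S₂, s34f_through (s34x_infRing O₂) S₂ 𝔫 Q →
      Q.ord (s34f_iota (s34x_infRing O₂) S₂ 𝔫 ℓ1) = 0 := fun Q hQS hth =>
    s36q_ker_gen_ord O₂ S₂ 𝔫 1 ℓ1 (algebraMap _ _ pB) hℓ1 (by rw [hpR]; exact hγπ1)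
      (by rw [hpR]; exact hγπ0) Q hQS hth (by rw [hpR]; exact hπord Q hQS)
  have hℓ0nunit : ¬ IsUnit ℓ0 := (mem_maximalIdeal _).mp hℓ0m
  have hℓ2nunit : ¬ IsUnit ℓ2 := (mem_maximalIdeal _).mp hℓ2m
  have hℓ1_0 : (s34f_iota (s34x_infRing O₂) S₂ 𝔫 ℓ1)⁻¹ ∈ O₂ 0 :=
    s36q_ker_gen_unit O₂ S₂ 𝔫 1 0 (hthru 0) ℓ1 ℓ0 hℓ1 hK0' hℓ0_1 hℓ0nunit hℓ1ne
  have hℓ1_2 : (s34f_iota (s34x_infRing O₂) S₂ 𝔫 ℓ1)⁻¹ ∈ O₂ 2 :=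
    s36q_ker_gen_unit O₂ S₂ 𝔫 1 2 (hthru 2) ℓ1 ℓ2 hℓ1 hK2' hℓ2_1 hℓ2nunit hℓ1ne
  -- assemble
  let ℓ : Fin 3 → Localization.AtPrime 𝔫 := ![ℓ0, ℓ1, ℓ2]
  refine ⟨⟨ℓ, ?_, ?_, ?_, ?_, ?_⟩, hprin, ⟨uα, wα, hmα, huα, hwα⟩, ⟨uβ, wβ, ?_, huβ, hwβ⟩⟩
  · intro j
    fin_cases j
    · exact hℓ0ne
    · exact hℓ1ne
    · exact hℓ2ne
  · intro j
    fin_cases j
    · exact hℓ0nu
    · exact hℓ1nu
    · exact hℓ2nu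
  · intro j
    fin_cases j
    · exact hgen0
    · exact hgen1
    · exact hgen2
  · intro i j hij
    fin_cases i <;> fin_cases j
    · exact absurd rfl hij
    · exact hunit0 1 (by decide) (hthru 1)
    · exact hunit0 2 (by decide) (hthru 2)
    · exact hℓ1_0
    · exact absurd rfl hij
    · exact hℓ1_2
    · exact hunit2 0 (by decide) (hthru 0)
    · exact hunit2 1 (by decide) (hthru 1)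
    · exact absurd rfl hij
  · intro j
    fin_cases j
    · exact hord0
    · exact hord1
    · exact hord2
  · rw [hmβ, Set.pair_comm]

/-- **`s36p_LocalReg` at a triple point** (abstract two-level frame). -/
theorem s36l_triple_reg_abs (hA : s36q_Arch O₂)
    (hfin : ∀ y : 𝓕₂, y ≠ 0 → {Q : Place L₀ 𝓕₂ | Q ∈ S₂ ∧ Q.ord y ≠ 0}.Finite)
    (F1 : ∀ Q ∈ S₂, ∃ u : s34x_ring (s34x_infRing O₂) S₂, Q.ord (u : 𝓕₂) = 1)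
    (F2 : ∀ Q ∈ S₂, ∀ Q' ∈ S₂, Q' ≠ Q →
      ∃ y : s34x_ring (s34x_infRing O₂) S₂, 0 < Q.ord (y : 𝓕₂) ∧ Q'.ord (y : 𝓕₂) = 0)
    (iI i0 : ι₁) (π₁ : 𝓕₁) (hπ₁0 : π₁ ≠ 0) (hππ : γα π₁ = γβ π₁)
    (hπI : π₁ ∈ (O₁ iI).nonunits ∧ ∀ y ∈ (O₁ iI).nonunits, ∃ c ∈ O₁ iI, y = π₁ * c)
    (hπ0 : π₁ ∈ (O₁ i0).nonunits ∧ ∀ y ∈ (O₁ i0).nonunits, ∃ c ∈ O₁ i0, y = π₁ * c)
    (hc0α : ∀ x, γα x ∈ O₂ 0 ↔ x ∈ O₁ iI) (hc0β : ∀ x, γβ x ∈ O₂ 0 ↔ x ∈ O₁ iI)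
    (hc1α : ∀ x, γα x ∈ O₂ 1 ↔ x ∈ O₁ iI) (hc1β : ∀ x, γβ x ∈ O₂ 1 ↔ x ∈ O₁ i0)
    (hc2α : ∀ x, γα x ∈ O₂ 2 ↔ x ∈ O₁ i0) (hc2β : ∀ x, γβ x ∈ O₂ 2 ↔ x ∈ O₁ i0)
    (he0 : ∀ y ∈ (O₂ 0).nonunits, ∃ c ∈ O₂ 0, y = γα π₁ * c)
    (he2 : ∀ y ∈ (O₂ 2).nonunits, ∃ c ∈ O₂ 2, y = γα π₁ * c)
    (pB : s34x_ring (s34x_infRing O₂) S₂) (hpB : (pB : 𝓕₂) = γα π₁)
    (tR : Localization.AtPrime 𝔫)
    (ht : s34f_iota (s34x_infRing O₂) S₂ 𝔫 tR ∈ (O₂ 1).nonunits)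
    (htgen : ∀ y ∈ (O₂ 1).nonunits, ∃ c ∈ O₂ 1, y = s34f_iota (s34x_infRing O₂) S₂ 𝔫 tR * c)
    (hf0α : s36q_Frac O₁ O₂ S₁ γα iI 0) (hf1α : s36q_Frac O₁ O₂ S₁ γα iI 1)
    (hf2β : s36q_Frac O₁ O₂ S₁ γβ i0 2)
    (hthru : ∀ j, s36q_compThrough O₂ S₂ 𝔫 j)
    (hπord : ∀ Q ∈ S₂, Q.ord (γα π₁) = 0)
    (hXα : s36q_RegCross O₁ S₁ (s36q_pt O₁ O₂ S₁ S₂ γα hγα 𝔫) iI i0 π₁)
    (hXβ : s36q_RegCross O₁ S₁ (s36q_pt O₁ O₂ S₁ S₂ γβ hγβ 𝔫) iI i0 π₁)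
    (m : ℕ) (hm : m ≠ 0) :
    s36p_LocalReg O₂ S₂ 𝔫 m := by
  classical
  obtain ⟨⟨ℓ, hℓne, hℓnu, hgen, hunit, hord⟩, hprin, ⟨uα, wα, hmα, huα, hwα⟩,
      ⟨uβ, wβ, hmβ, huβ, hwβ⟩⟩ :=
    s36l_triple_branches O₁ O₂ S₁ S₂ γα γβ hγα hγβ 𝔫 hA hfin iI i0 π₁ hπ₁0 hππ hπI hπ0 hc0α hc0β
      hc1α hc1β hc2α hc2β he0 he2 pB hpB tR ht htgen hf2β hthru hπord hXα hXβ
  have hγπ0 : γα π₁ ≠ 0 := by rwa [Ne, map_eq_zero]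
  have hιℓne : ∀ j : Fin 3, s34f_iota (s34x_infRing O₂) S₂ 𝔫 (ℓ j) ≠ 0 := fun j h =>
    hℓne j (s34f_iota_injective (s34x_infRing O₂) S₂ 𝔫 (by rw [h, map_zero]))
  have hpB𝔫 : pB ∈ 𝔫 := by
    refine hthru 0 pB ?_
    rw [hpB]
    exact (s36q_nonunits_comap O₁ O₂ γα iI 0 hc0α π₁).mpr hπI.1
  refine ⟨?_, ?_, ?_⟩
  · -- local equations
    intro Q hQS hth
    exact s36q_locEq_of_forall (s34x_infRing O₂) S₂ 𝔫 Q hQS hth hprin pB hpB𝔫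
      (by rw [hpB]; exact hγπ0) (by rw [hpB]; exact hπord Q hQS) (F1 Q hQS) (F2 Q hQS)
  · -- branch uniformisers
    intro i _
    refine ⟨s34f_iota (s34x_infRing O₂) S₂ 𝔫 (ℓ i), hιℓne i, ?_, ?_, hord i⟩
    · exact s36e_dec_of_gen (O₂ i) _ (hgen i) (fun y => hA i _ (hℓnu i) (hιℓne i) y)
    · intro j hji hj
      exact ⟨s36q_iota_mem_comp O₂ S₂ 𝔫 j hj (ℓ i), hunit i j (Ne.symm hji)⟩
  · -- normality of the branches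
    intro i _ y hy a ha hya
    have hmα' : maximalIdeal (Localization.AtPrime (s36q_pt O₁ O₂ S₁ S₂ γα hγα 𝔫)) =
        Ideal.span {wα, uα} := by rw [hmα, Set.pair_comm]
    fin_cases i
    · obtain ⟨s, -, hs⟩ := s36e_normal O₁ O₂ S₁ S₂ γα hγα 𝔫 iI 0 hc0α (hthru 0) wα uα hmα' huα
        hf0α m hm y hy a ha hya
      exact ⟨s, hs⟩
    · obtain ⟨s, -, hs⟩ := s36e_normal O₁ O₂ S₁ S₂ γα hγα 𝔫 iI 1 hc1α (hthru 1) wα uα hmα' huα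
        hf1α m hm y hy a ha hya
      exact ⟨s, hs⟩
    · obtain ⟨s, -, hs⟩ := s36e_normal O₁ O₂ S₁ S₂ γβ hγβ 𝔫 i0 2 hc2β (hthru 2) uβ wβ hmβ hwβ
        hf2β m hm y hy a ha hya
      exact ⟨s, hs⟩

end Fermat.Agent.Lib.S36
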