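/-
S36 project, GEOMETRY side, item (3c)(i) of the `s36g_InLocal` checklist (helper7, prefix `s36l_`):
**`s36p_LocalReg` AT THE TRIPLE POINTS OF THE LEVEL-`M q²` CHARTS**, concrete frame of `GeoFrame.lean`.

Same hypothesis shapes as helper2's `s36e_mid_reg` and lead's `s36e_out_reg_V0/_V2`: arbitrary
valuation package `V`, `t`, charts `S₁` (level `M q`), `S₂` (level `M q²`) with dictionaries and
`α'(B₁) ⊆ B₂`, `β'(B₁) ⊆ B₂`.  Inputs at the point: all three components pass through `𝔫`; the two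
image points `α'⁻¹𝔫`, `β'⁻¹𝔫` are REGULAR crossings of level `M q` (helper4's thickness one, in
helper5's `s36q_RegCross` shape); residue degree one (helper5: `QFracGeo.lean`); the uniformiser `t`
of `V 1` is regular at the places through `𝔫` (a triple point is not cuspidal).
-/
import Fermat.Agent.Lib.S36.LTriple
import Fermat.Agent.Lib.S36.XBaseLoc
import Fermat.Agent.Lib.S36.REisUnit
import Fermat.Agent.Lib.S36.PClass

set_option autoImplicit false
set_option linter.unusedSectionVars false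
set_option linter.style.haveILetI false
set_option maxHeartbeats 800000

noncomputable section

namespace Fermat.Agent.Lib.S36

open ModularCurve AlgebraicCurve HahnSeries Fermat.Agent.Lib.FF Fermat.Agent.Lib.S18
  Fermat.Agent.Lib.S37 Fermat.Agent.Lib.S34 Fermat.Agent.Lib.S35 IsLocalRing

local notation "Kb" => AlgebraicClosure ℚ

/-- a non-unit `t` such that every element is `t ^ n · unit` generates the non-units. -/
theorem s36l_gen_of_dec {𝓕 : Type*} [Field 𝓕] (W : ValuationSubring 𝓕) (t : 𝓕)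
    (ht : t ∈ W.nonunits)
    (hdec : ∀ U : 𝓕, U ≠ 0 → ∃ (n : ℤ) (u : 𝓕), u ∈ W ∧ u⁻¹ ∈ W ∧ U = t ^ n * u) :
    ∀ y ∈ W.nonunits, ∃ c ∈ W, y = t * c := by
  intro y hy
  have htW : t ∈ W := (ValuationSubring.nonunits_le (A := W)) ht
  rcases eq_or_ne y 0 with rfl | hy0
  · exact ⟨0, W.zero_mem, by rw [mul_zero]⟩
  obtain ⟨n, u, hu, hu', e⟩ := hdec y hy0
  have ht0 : t ≠ 0 := by
    rintro rfl
    rcases lt_trichotomy n 0 with h | h | h
    · rw [zero_zpow n h.ne, zero_mul] at e; exact hy0 e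
    · subst h
      rw [zpow_zero, one_mul] at e
      rcases (W.mem_nonunits_iff_or).mp hy with h1 | h1
      · exact hy0 h1
      · exact h1 (by rw [e]; exact hu')
    · rw [zero_zpow n h.ne', zero_mul] at e; exact hy0 e
  rcases le_or_gt n 0 with hn | hn
  · exfalso
    rcases (W.mem_nonunits_iff_or).mp hy with h1 | h1
    · exact hy0 h1
    · apply h1
      obtain ⟨k, rfl⟩ : ∃ k : ℕ, n = -(k : ℤ) := ⟨n.natAbs, by omega⟩
      have : y⁻¹ = t ^ k * u⁻¹ := by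
        rw [e, mul_inv, zpow_neg, inv_inv, zpow_natCast]
      rw [this]
      exact W.mul_mem _ _ (W.pow_mem htW k) hu'
  · obtain ⟨k, rfl⟩ : ∃ k : ℕ, n = (k : ℤ) + 1 := ⟨(n - 1).toNat, by omega⟩
    refine ⟨t ^ k * u, W.mul_mem _ _ (W.pow_mem htW k) hu, ?_⟩
    rw [e, zpow_add₀ ht0, zpow_natCast, zpow_one]
    ring

variable {K₀ : Type} [Field K₀] [Algebra ℚ K₀] [CharZero K₀] {κ : Type} [Field κ]
  (G : s18g_GaussData K₀ κ) [IsDiscreteValuationRing G.A]
  (φ : K₀ →+* Kb) (M q : ℕ) [NeZero M] [NeZero q] (hq : q.Prime) (hqM : ¬ q ∣ M)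
  (V : Fin 3 → ValuationSubring (s34m_F K₀ (M * q * q))) (t : s34m_F K₀ (M * q * q))
  (S₁ : Set (Place K₀ (s34m_F K₀ (M * q)))) (S₂ : Set (Place K₀ (s34m_F K₀ (M * q * q))))

/-- the uniformiser `ϖ₁` generates the non-units of both valuation rings of level `M q`. -/
theorem s36l_unif_gen_VV (i : Bool) :
    s34m_unif G (M * q) ∈ (s34m_VV G φ M q hq hqM i).nonunits ∧
      ∀ y ∈ (s34m_VV G φ M q hq hqM i).nonunits, ∃ c ∈ s34m_VV G φ M q hq hqM i,
        y = s34m_unif G (M * q) * c :=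
  ⟨s36e_unif_mem_nonunits_VV G φ M q hq hqM i,
    s36l_gen_of_dec _ _ (s36e_unif_mem_nonunits_VV G φ M q hq hqM i)
      (fun U hU => s34m_exists_zpow_VV G φ M q hq hqM i U hU)⟩

/-- **`s36p_LocalReg` at a triple point of a chart of level `M q²`.** -/
theorem s36l_triple_reg (hC : s36g_ValComap G φ M q hq hqM V) (hU : s36g_ValUnif G M q V t)
    (hγα : ∀ b ∈ s34x_ring (s34x_infRing (s34m_VV G φ M q hq hqM)) S₁,
      s36g_alpha M q b ∈ s34x_ring (s34x_infRing V) S₂)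
    (hγβ : ∀ b ∈ s34x_ring (s34x_infRing (s34m_VV G φ M q hq hqM)) S₁,
      s36g_beta M q b ∈ s34x_ring (s34x_infRing V) S₂)
    (𝔫 : Ideal (s34x_ring (s34x_infRing V) S₂)) [h𝔫 : 𝔫.IsPrime]
    (hD₁ : s35f_Dict (s34m_VV G φ M q hq hqM) S₁) (hD₂ : s35f_Dict V S₂)
    (hthru : ∀ j, s36q_compThrough V S₂ 𝔫 j)
    (hf0α : s36q_Frac (s34m_VV G φ M q hq hqM) V S₁ (s36g_alpha M q) true 0)
    (hf1α : s36q_Frac (s34m_VV G φ M q hq hqM) V S₁ (s36g_alpha M q) true 1)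
    (hf2β : s36q_Frac (s34m_VV G φ M q hq hqM) V S₁ (s36g_beta M q) false 2)
    (hXα : s36q_RegCross (s34m_VV G φ M q hq hqM) S₁
      (s36q_pt (s34m_VV G φ M q hq hqM) V S₁ S₂ (s36g_alpha M q) hγα 𝔫) true false
      (s34m_unif G (M * q)))
    (hXβ : s36q_RegCross (s34m_VV G φ M q hq hqM) S₁
      (s36q_pt (s34m_VV G φ M q hq hqM) V S₁ S₂ (s36g_beta M q) hγβ 𝔫) true false
      (s34m_unif G (M * q)))
    (htV : ∀ i, t ∈ V i)
    (hreg : ∀ Q ∈ S₂, s34f_through (s34x_infRing V) S₂ 𝔫 Q → 0 ≤ Q.ord t)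
    (m : ℕ) (hm : m ≠ 0) :
    s36p_LocalReg V S₂ 𝔫 m := by
  obtain ⟨hN₁, -, -, -⟩ := hD₁
  obtain ⟨hN₂, F1₂, F2₂, F3₂⟩ := hD₂
  haveI := hN₁
  haveI := hN₂
  have hA : s36q_Arch V := s36b_arch G M q hq hU
  obtain ⟨hϖnu, he0, he2, htnu, htgen, -, -⟩ := hU
  -- `t` in the local ring
  have ht0 : t ≠ 0 := by
    rintro rfl
    obtain ⟨c, -, hc⟩ := htgen _ (hϖnu 1)
    rw [zero_mul] at hc
    exact s34m_unif_ne_zero G (M * q * q) hc
  obtain ⟨tR, htR⟩ := s36q_exists_iota_eq V S₂ 𝔫 hA t (fun i _ => htV i) hreg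
    ((F3₂ t ht0).subset fun Q hQ => ⟨hQ.1, fun h => by
      have h2 : Q.ord t < 0 := hQ.2
      rw [h] at h2
      exact lt_irrefl _ h2⟩)
  -- the constants
  have hαϖ : s36g_alpha M q (s34m_unif G (M * q)) = s34m_unif G (M * q * q) :=
    (heckeAlphaBar K₀ (M * q) q).commutes _
  have hβϖ : s36g_beta M q (s34m_unif G (M * q)) = s34m_unif G (M * q * q) :=
    (heckeBetaBar K₀ (M * q) q).commutes _
  exact s36l_triple_reg_abs (s34m_VV G φ M q hq hqM) V S₁ S₂ (s36g_alpha M q) (s36g_beta M q)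
    hγα hγβ 𝔫 hA F3₂ F1₂ F2₂ true false (s34m_unif G (M * q)) (s34m_unif_ne_zero G (M * q))
    (hαϖ.trans hβϖ.symm)
    (s36l_unif_gen_VV G φ M q hq hqM true) (s36l_unif_gen_VV G φ M q hq hqM false)
    (fun x => (s36b_alpha_mem_iff G φ M q hq hqM hC x).1)
    (fun x => (s36p_beta_mem_iff G φ M q hq hqM hC x).1)
    (fun x => (s36b_alpha_mem_iff G φ M q hq hqM hC x).2.1)
    (fun x => (s36p_beta_mem_iff G φ M q hq hqM hC x).2.1)
    (fun x => (s36b_alpha_mem_iff G φ M q hq hqM hC x).2.2)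
    (fun x => (s36p_beta_mem_iff G φ M q hq hqM hC x).2.2)
    (by rw [hαϖ]; exact he0) (by rw [hαϖ]; exact he2)
    (s34x_const (s34x_infRing V) S₂ ((G.ϖ : G.A) : K₀)
      (s34x_inf_const_mem V G.A (s36b_const_mem G φ M q hq hqM hC) G.ϖ))
    (by rw [hαϖ]; rfl) tR (by rw [htR]; exact htnu) (by rw [htR]; exact htgen)
    hf0α hf1α hf2β hthru
    (fun Q _ => by rw [hαϖ]; exact ffh_ord_algebraMap Q (s18g_unifK_ne_zero G))
    hXα hXβ m hm

end Fermat.Agent.Lib.S36
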