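/-
S36 project, GEOMETRY side, item (3c)(i) of the `s36g_InLocal` checklist (helper7, prefix `s36l_`):
**`s36g_GeoRegTriple`** (helper8's target of `GRegCases.lean`) from the valuation package, the base
data of `w₁`, thickness one at level `M q` (helper4's (R-q) in helper3's shape `s36q_fi_CrossReg`) and
the regularity of the uniformiser `t = j_{q²} - j` of `V 1` at the places through the triple points
(`s36l_TReg`: "a triple point is not cuspidal").

* `s36l_geoRegTriple` : the general statement;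
* `s36l_tReg_of_sat`  : `s36l_TReg` when `t` is regular on the whole chart (the case `w₁ = j`,
  `q ≥ 5`).
-/
import Fermat.Agent.Lib.S36.LTripleGeo
import Fermat.Agent.Lib.S36.GRegCases
import Fermat.Agent.Lib.S36.QFibInst
import Fermat.Agent.Lib.S36.QFracGeo
import Fermat.Agent.Lib.S36.PSat

set_option autoImplicit false
set_option linter.unusedSectionVars false
set_option linter.style.haveILetI false
set_option maxHeartbeats 800000

noncomputable section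

namespace Fermat.Agent.Lib.S36

open ModularCurve AlgebraicCurve HahnSeries Fermat.Agent.Lib.FF Fermat.Agent.Lib.S18
  Fermat.Agent.Lib.S37 Fermat.Agent.Lib.S34 Fermat.Agent.Lib.S35 Fermat.Agent.Lib.S28 IsLocalRing

local notation "Kb" => AlgebraicClosure ℚ

variable {K₀ : Type} [Field K₀] [Algebra ℚ K₀] [CharZero K₀] {κ : Type} [Field κ]
  (G : s18g_GaussData K₀ κ) [IsDiscreteValuationRing G.A]
  (φ : K₀ →+* Kb) (M q : ℕ) [NeZero M] [NeZero q] (hq : q.Prime) (hqM : ¬ q ∣ M)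
  {V : Fin 3 → ValuationSubring (s34m_F K₀ (M * q * q))}
  (hC : s36g_ValComap G φ M q hq hqM V) (w₁ : s34m_F K₀ (M * q))

/-- **The uniformiser `t` is regular at the places through the triple points** of chart 1 of
`α' w₁`. -/
def s36l_TReg (t : s34m_F K₀ (M * q * q)) : Prop :=
  ∀ (𝔫 : Ideal (s34x_ring (L₀ := K₀) (s34x_infRing V) (s18_chart1 (s36g_alpha M q w₁))))
    (_ : 𝔫.IsMaximal),
    s34x_const (s34x_infRing V) (s18_chart1 (L₀ := K₀) (s36g_alpha M q w₁)) ((G.ϖ : G.A) : K₀)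
      (s34x_inf_const_mem V G.A (s36b_const_mem G φ M q hq hqM hC) G.ϖ) ∈ 𝔫 →
    (∀ j, s36q_compThrough V (s18_chart1 (L₀ := K₀) (s36g_alpha M q w₁)) 𝔫 j) →
    ∀ Q ∈ s18_chart1 (L₀ := K₀) (s36g_alpha M q w₁),
      s34f_through (s34x_infRing V) (s18_chart1 (L₀ := K₀) (s36g_alpha M q w₁)) 𝔫 Q → 0 ≤ Q.ord t

/-- `s36l_TReg` when `t` is regular on the whole chart. -/
theorem s36l_tReg_of_sat (t : s34m_F K₀ (M * q * q))
    (h : ∀ Q ∈ s18_chart1 (L₀ := K₀) (s36g_alpha M q w₁), 0 ≤ Q.ord t) :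
    s36l_TReg G φ M q hq hqM hC w₁ t :=
  fun _ _ _ _ Q hQ _ => h Q hQ

/-- **(REG1) at the triple points.** -/
theorem s36l_geoRegTriple [CharP κ q] [PerfectField κ] {t : s34m_F K₀ (M * q * q)}
    (hP : s36g_ValPkg G φ M q hq hqM V t) (hπ : Function.Surjective G.π)
    (hB : s35g_BaseData G φ M q hq hqM w₁)
    (hsat : ∀ Q : Place K₀ (s34m_F K₀ (M * q * q)),
      s36g_alpha M q w₁ ∈ Q.toValuationSubring ↔ s36g_beta M q w₁ ∈ Q.toValuationSubring)
    (hX : s36q_fi_CrossReg G φ M q hq hqM w₁)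
    (htV : ∀ i, t ∈ V i)
    (htreg : s36l_TReg G φ M q hq hqM hP.1 w₁ t)
    (m : ℕ) (hm : m ≠ 0) :
    s36g_GeoRegTriple G φ M q hq hqM hP.1 w₁ m := by
  have hP' := hP
  obtain ⟨hC', hU, hR, hCompl, hI, -, -⟩ := hP'
  have hB' := hB
  obtain ⟨-, -, -, -, -, -, -, hCD, -⟩ := hB'
  intro 𝔫 h𝔫 hϖ hthru
  haveI := h𝔫.isPrime
  have hγα := s36p_chart1_alpha G φ M q hq hqM hC' w₁ hB
  have hγβ := s36p_chart1_beta G φ M q hq hqM hC' w₁ hB (fun Q => (hsat Q).mp)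
  have hD₁ := s35g_dict₁ G φ M q hq hqM w₁ hB
  have hD₂ := s36b_dict₁ G φ M q hq hqM hC' hU _
    (s36b_baseData₂_of_base G φ M q hq hqM hC' hCompl hI w₁ hB)
  -- the two image points are crossings
  have hα0 : ∀ x : s34m_F K₀ (M * q),
      s36g_alpha M q x ∈ V 0 ↔ x ∈ s34m_VV G φ M q hq hqM true :=
    fun x => (s36b_alpha_mem_iff G φ M q hq hqM hC' x).1
  have hα2 : ∀ x : s34m_F K₀ (M * q),
      s36g_alpha M q x ∈ V 2 ↔ x ∈ s34m_VV G φ M q hq hqM false :=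
    fun x => (s36b_alpha_mem_iff G φ M q hq hqM hC' x).2.2
  have hβ0 : ∀ x : s34m_F K₀ (M * q),
      s36g_beta M q x ∈ V 0 ↔ x ∈ s34m_VV G φ M q hq hqM true :=
    fun x => (s36p_beta_mem_iff G φ M q hq hqM hC' x).1
  have hβ2 : ∀ x : s34m_F K₀ (M * q),
      s36g_beta M q x ∈ V 2 ↔ x ∈ s34m_VV G φ M q hq hqM false :=
    fun x => (s36p_beta_mem_iff G φ M q hq hqM hC' x).2.2
  have hXα := hX (s36q_pt (s34m_VV G φ M q hq hqM) V _ _ (s36g_alpha M q) hγα 𝔫)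
    (s36q_compThrough_comap (s34m_VV G φ M q hq hqM) V _ _ (s36g_alpha M q) hγα 𝔫 true 0 hα0
      (hthru 0))
    (s36q_compThrough_comap (s34m_VV G φ M q hq hqM) V _ _ (s36g_alpha M q) hγα 𝔫 false 2 hα2
      (hthru 2))
  have hXβ := hX (s36q_pt (s34m_VV G φ M q hq hqM) V _ _ (s36g_beta M q) hγβ 𝔫)
    (s36q_compThrough_comap (s34m_VV G φ M q hq hqM) V _ _ (s36g_beta M q) hγβ 𝔫 true 0 hβ0
      (hthru 0))
    (s36q_compThrough_comap (s34m_VV G φ M q hq hqM) V _ _ (s36g_beta M q) hγβ 𝔫 false 2 hβ2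
      (hthru 2))
  exact s36l_triple_reg G φ M q hq hqM V t _ _ hC' hU hγα hγβ 𝔫 hD₁ hD₂ hthru
    (s36q_frac_alpha_0 G φ M q hq hqM _ hC' hR hCD hπ)
    (s36q_frac_alpha_1 G φ M q hq hqM _ hC' hR hCD hπ)
    (s36q_frac_beta_2 G φ M q hq hqM _ hC' hR hCD hπ)
    hXα hXβ htV (htreg 𝔫 h𝔫 hϖ hthru) m hm

/-! ### The case `w₁ = j` -/

section J

include φ hq in
/-- `j_{q²} - j` is regular at every place of level `M q²` at which `j` is regular. -/
theorem s36l_t_reg_j (Q : Place K₀ (s34m_F K₀ (M * q * q)))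
    (hQ : s18g_jF (K := K₀) (M * q * q) ∈ Q.toValuationSubring) :
    0 ≤ Q.ord (s36m_t (K₀ := K₀) M q) := by
  have h1 : heckeBetaBar K₀ (M * q) q (s18g_jF (K := K₀) (M * q)) ∈ Q.toValuationSubring :=
    (s36p_j_mem_iff φ (M * q) q hq Q).mp hQ
  have hint : s28d_IntOver (s36g_beta M q (s18g_jF (K := K₀) (M * q)))
      (s36g_beta M q (s34d2_u (K₀ := K₀) M q)) :=
    s28d_intOver_map (s36g_beta M q) (s34d2_intOver_u (K₀ := K₀) M q)
  have h2 : s36m_jqq (K₀ := K₀) M q ∈ Q.toValuationSubring :=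
    s34e_cusp_mem_of_intOver Q.toValuationSubring hint h1
  have h3 : s36m_t (K₀ := K₀) M q ∈ Q.toValuationSubring :=
    Q.toValuationSubring.sub_mem h2 hQ
  by_cases h0 : s36m_t (K₀ := K₀) M q = 0
  · rw [h0, Place.ord_zero]
  · exact (ff_mem_iff_ord_nonneg Q h0).mp h3

/-- **`s36l_TReg` for `w₁ = j`.** -/
theorem s36l_tReg_j :
    s36l_TReg G φ M q hq hqM hC (s18g_jF (K := K₀) (M * q)) (s36m_t (K₀ := K₀) M q) := by
  refine s36l_tReg_of_sat G φ M q hq hqM hC _ _ (fun Q hQ => ?_)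
  have e : s36g_alpha M q (s18g_jF (K := K₀) (M * q)) = s18g_jF (K := K₀) (M * q * q) :=
    s34d2_alpha_j (M * q) q
  have hQ' : s36g_alpha M q (s18g_jF (K := K₀) (M * q)) ∈ Q.toValuationSubring := hQ
  rw [e] at hQ'
  exact s36l_t_reg_j φ M q hq Q hQ'

end J

end Fermat.Agent.Lib.S36
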