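/-
S36 project, GEOMETRY side, item (3c)(i) of the `s36g_InLocal` checklist (helper7, prefix `s36l_`):
**`s36l_TReg` FROM THE HAUPTMODUL RELATION** `j₀ · w ^ a = A(w)` (`w = α' w₁`, `A ∈ 𝒪[X]`, `A(0) ∈ 𝒪ˣ`,
`a ≥ 1`; `t₂`: `A = (X + 256)³`, `a = 2`; `t₃`: `A = (X + 27)(X + 243)³`, `a = 3`).

At a triple point `𝔫` of chart 1 of `w`: if `w ∈ 𝔫` then `1/j₀ = w ^ a / A(w)` lies in the maximal
ideal of `B_𝔫` and helper1's `s36b_cusp_single` says that at most one component passes through `𝔫`;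
so `w` is a unit of `B_𝔫`, `j₀ = A(w) / w ^ a` is regular at every place through `𝔫`, and so is
`t = j_{q²} - j₀` (`s36l_t_reg_j`).
-/
import Fermat.Agent.Lib.S36.LTripleInst
import Fermat.Agent.Lib.S36.XCuspInst
import Fermat.Agent.Lib.S36.XMidHaupt

set_option autoImplicit false
set_option linter.unusedSectionVars false
set_option linter.style.haveILetI false
set_option maxHeartbeats 800000
set_option synthInstance.maxHeartbeats 400000

noncomputable section

namespace Fermat.Agent.Lib.S36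

open ModularCurve AlgebraicCurve HahnSeries Polynomial Fermat.Agent.Lib.FF Fermat.Agent.Lib.S18
  Fermat.Agent.Lib.S37 Fermat.Agent.Lib.S34 Fermat.Agent.Lib.S35 Fermat.Agent.Lib.S28 IsLocalRing

local notation "Kb" => AlgebraicClosure ℚ

variable {K₀ : Type} [Field K₀] [Algebra ℚ K₀] [CharZero K₀] {κ : Type} [Field κ]
  (G : s18g_GaussData K₀ κ) [IsDiscreteValuationRing G.A]
  (φ : K₀ →+* Kb) (M q : ℕ) [NeZero M] [NeZero q] (hq : q.Prime) (hqM : ¬ q ∣ M)
  [CharP κ q]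
  {V : Fin 3 → ValuationSubring (s34m_F K₀ (M * q * q))}

/-- a polynomial with coefficients in `𝒪` evaluated at an element of a chart ring lies in the chart
ring. -/
theorem s36l_aeval_mem (hC : s36g_ValComap G φ M q hq hqM V)
    (S : Set (Place K₀ (s34m_F K₀ (M * q * q))))
    (w : s34m_F K₀ (M * q * q)) (hw : w ∈ s34x_ring (s34x_infRing V) S)
    (A : K₀[X]) (hA : ∀ n, A.coeff n ∈ G.A) :
    aeval w A ∈ s34x_ring (s34x_infRing V) S := by
  rw [aeval_eq_sum_range]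
  refine Subring.sum_mem _ fun n _ => ?_
  rw [Algebra.smul_def]
  refine Subring.mul_mem _ ?_ (Subring.pow_mem _ hw n)
  exact (s34x_const (s34x_infRing V) S (A.coeff n)
    (s34x_inf_const_mem V G.A (s36b_const_mem G φ M q hq hqM hC) ⟨_, hA n⟩)).2

/-- **Regularity of `t` at the places through a triple point from a Hauptmodul relation**, for the
chart 1 of an arbitrary `W`. -/
theorem s36l_tReg_of_rel_gen (hC : s36g_ValComap G φ M q hq hqM V)
    {t : s34m_F K₀ (M * q * q)} (hU : s36g_ValUnif G M q V t)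
    (W : s34m_F K₀ (M * q * q)) (hW0 : W ≠ 0) (hwV : ∀ i, W ∈ V i)
    (F3 : ∀ y : s34m_F K₀ (M * q * q), y ≠ 0 →
      {Q : Place K₀ (s34m_F K₀ (M * q * q)) | Q ∈ s18_chart1 (L₀ := K₀) W ∧ Q.ord y ≠ 0}.Finite)
    (A : K₀[X]) (a : ℕ) (ha : 0 < a) (hA : ∀ n, A.coeff n ∈ G.A) (hA00 : A.coeff 0 ≠ 0)
    (hA0 : (A.coeff 0)⁻¹ ∈ G.A)
    (hrel : s18g_jF (K := K₀) (M * q * q) * W ^ a = aeval W A)
    (𝔫 : Ideal (s34x_ring (L₀ := K₀) (s34x_infRing V) (s18_chart1 W))) (h𝔫 : 𝔫.IsMaximal)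
    (hthru : ∀ j, s36q_compThrough V (s18_chart1 (L₀ := K₀) W) 𝔫 j)
    (Q : Place K₀ (s34m_F K₀ (M * q * q))) (hQ : Q ∈ s18_chart1 (L₀ := K₀) W)
    (hth : s34f_through (s34x_infRing V) (s18_chart1 (L₀ := K₀) W) 𝔫 Q) :
    0 ≤ Q.ord (s36m_t (K₀ := K₀) M q) := by
  haveI := h𝔫.isPrime
  have hj0 : s18g_jF (K := K₀) (M * q * q) ≠ 0 := s18g_jF_ne_zero (M * q * q)
  have hAW0 : aeval W A ≠ 0 := by
    rw [← hrel]
    exact mul_ne_zero hj0 (pow_ne_zero _ hW0)
  -- `W` and `A(W)` in the chart ring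
  have hWmem : W ∈ s34x_ring (s34x_infRing V) (s18_chart1 (L₀ := K₀) W) :=
    ⟨(s34x_mem_infRing V W).mpr hwV, fun Q' hQ' => hQ'⟩
  set WB : s34x_ring (s34x_infRing V) (s18_chart1 (L₀ := K₀) W) := ⟨W, hWmem⟩ with hWB
  have hAmem := s36l_aeval_mem G φ M q hq hqM hC (s18_chart1 (L₀ := K₀) W) W hWmem A hA
  set AB : s34x_ring (s34x_infRing V) (s18_chart1 (L₀ := K₀) W) := ⟨aeval W A, hAmem⟩ with hAB
  have hj0Q : s18g_jF (K := K₀) (M * q * q) ∈ Q.toValuationSubring := by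
    by_cases hWn : WB ∈ 𝔫
    · -- the cuspidal case is impossible at a triple point
      exfalso
      -- `A(W) ∉ 𝔫`
      have hdiv := s36l_aeval_mem G φ M q hq hqM hC (s18_chart1 (L₀ := K₀) W) W hWmem A.divX
        (fun n => by rw [coeff_divX]; exact hA (n + 1))
      have hcst : algebraMap K₀ (s34m_F K₀ (M * q * q)) (A.coeff 0) ∈
          s34x_ring (s34x_infRing V) (s18_chart1 (L₀ := K₀) W) :=
        (s34x_const (s34x_infRing V) _ (A.coeff 0)
          (s34x_inf_const_mem V G.A (s36b_const_mem G φ M q hq hqM hC) ⟨_, hA 0⟩)).2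
      have hcst' : algebraMap K₀ (s34m_F K₀ (M * q * q)) (A.coeff 0)⁻¹ ∈
          s34x_ring (s34x_infRing V) (s18_chart1 (L₀ := K₀) W) :=
        (s34x_const (s34x_infRing V) _ (A.coeff 0)⁻¹
          (s34x_inf_const_mem V G.A (s36b_const_mem G φ M q hq hqM hC) ⟨_, hA0⟩)).2
      have hc0 : A.coeff 0 ≠ 0 := hA00
      have key : aeval W A = aeval W A.divX * W +
          algebraMap K₀ (s34m_F K₀ (M * q * q)) (A.coeff 0) := by
        conv_lhs => rw [← divX_mul_X_add A]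
        rw [map_add, map_mul, aeval_X, aeval_C]
      have hABn : AB ∉ 𝔫 := by
        intro hAn
        have e : (⟨_, hcst⟩ : s34x_ring (s34x_infRing V) (s18_chart1 (L₀ := K₀) W)) =
            AB - ⟨aeval W A.divX, hdiv⟩ * WB := by
          apply Subtype.ext
          show algebraMap K₀ _ (A.coeff 0) = aeval W A - aeval W A.divX * W
          rw [key, add_sub_cancel_left]
        have hcn : (⟨_, hcst⟩ : s34x_ring (s34x_infRing V) (s18_chart1 (L₀ := K₀) W)) ∈ 𝔫 := by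
          rw [e]
          exact 𝔫.sub_mem hAn (𝔫.mul_mem_left _ hWn)
        have h1 : (1 : s34x_ring (s34x_infRing V) (s18_chart1 (L₀ := K₀) W)) ∈ 𝔫 := by
          have e1 : (1 : s34x_ring (s34x_infRing V) (s18_chart1 (L₀ := K₀) W)) =
              ⟨_, hcst⟩ * ⟨_, hcst'⟩ := by
            apply Subtype.ext
            show (1 : s34m_F K₀ (M * q * q)) = algebraMap K₀ _ (A.coeff 0) *
              algebraMap K₀ _ (A.coeff 0)⁻¹
            rw [← map_mul, mul_inv_cancel₀ hc0, map_one]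
          rw [e1]
          exact 𝔫.mul_mem_right _ hcn
        exact h𝔫.isPrime.ne_top ((Ideal.eq_top_iff_one _).mpr h1)
      -- the element `z₀ = W^a / A(W)` of the maximal ideal
      obtain ⟨vA, hvA⟩ := IsLocalization.map_units (Localization.AtPrime 𝔫)
        (⟨AB, hABn⟩ : 𝔫.primeCompl)
      have hιvA : s34f_iota (s34x_infRing V) _ 𝔫 (vA : Localization.AtPrime 𝔫) = aeval W A := by
        rw [hvA, s34f_iota_algebraMap]
      have hιvA' : s34f_iota (s34x_infRing V) _ 𝔫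
          ((vA⁻¹ : (Localization.AtPrime 𝔫)ˣ) : Localization.AtPrime 𝔫) = (aeval W A)⁻¹ := by
        have h2 : s34f_iota (s34x_infRing V) _ 𝔫 (vA : Localization.AtPrime 𝔫) *
            s34f_iota (s34x_infRing V) _ 𝔫
              ((vA⁻¹ : (Localization.AtPrime 𝔫)ˣ) : Localization.AtPrime 𝔫) = 1 := by
          rw [← map_mul, Units.mul_inv, map_one]
        rw [hιvA] at h2
        exact eq_inv_of_mul_eq_one_right h2
      set z₀ : Localization.AtPrime 𝔫 :=
        algebraMap _ (Localization.AtPrime 𝔫) (WB ^ a) *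
          ((vA⁻¹ : (Localization.AtPrime 𝔫)ˣ) : Localization.AtPrime 𝔫) with hz₀
      have hz₀m : z₀ ∈ maximalIdeal (Localization.AtPrime 𝔫) := by
        refine Ideal.mul_mem_right _ _ ?_
        rw [← Localization.AtPrime.map_eq_maximalIdeal]
        exact Ideal.mem_map_of_mem _ (𝔫.pow_mem_of_mem hWn a ha)
      have hιz₀ : s34f_iota (s34x_infRing V) _ 𝔫 z₀ = (s36b_j0 (K₀ := K₀) M q)⁻¹ := by
        rw [hz₀, map_mul, s34f_iota_algebraMap, hιvA']
        show W ^ a * (aeval W A)⁻¹ = (s18g_jF (K := K₀) (M * q * q))⁻¹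
        have e0 : W ^ a * (aeval W A)⁻¹ * s18g_jF (K := K₀) (M * q * q) =
            (s18g_jF (K := K₀) (M * q * q) * W ^ a) * (aeval W A)⁻¹ := by ring
        have e1 : W ^ a * (aeval W A)⁻¹ * s18g_jF (K := K₀) (M * q * q) = 1 := by
          rw [e0, hrel, mul_inv_cancel₀ hAW0]
        exact eq_inv_of_mul_eq_one_left e1
      have h01 := s36b_cusp_single G φ M q hq hqM hC hU _ F3 𝔫 z₀ hz₀m hιz₀ 0 1 (hthru 0)
        (hthru 1)
      exact absurd h01 (by decide)
    · -- `W` is a unit at `𝔫`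
      have hu : IsUnit (algebraMap _ (Localization.AtPrime 𝔫) WB) :=
        IsLocalization.map_units (Localization.AtPrime 𝔫) (⟨WB, hWn⟩ : 𝔫.primeCompl)
      have hord := s36q_unit_ord_zero V _ 𝔫 _ hu Q hQ hth
      rw [s34f_iota_algebraMap] at hord
      have hWinv : W⁻¹ ∈ Q.toValuationSubring := by
        rw [ff_mem_iff_ord_nonneg Q (inv_ne_zero hW0), Q.ord_inv]
        have : Q.ord W = 0 := hord
        omega
      have hWa : W ^ a * W⁻¹ ^ a = 1 := by rw [← mul_pow, mul_inv_cancel₀ hW0, one_pow]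
      have e : s18g_jF (K := K₀) (M * q * q) = aeval W A * (W⁻¹) ^ a := by
        rw [← hrel]
        calc s18g_jF (K := K₀) (M * q * q)
            = s18g_jF (K := K₀) (M * q * q) * (W ^ a * W⁻¹ ^ a) := by rw [hWa, mul_one]
          _ = s18g_jF (K := K₀) (M * q * q) * W ^ a * W⁻¹ ^ a := by ring
      rw [e]
      exact Q.toValuationSubring.mul_mem _ _ (hAmem.2 Q hQ)
        (Q.toValuationSubring.pow_mem hWinv a)
  exact s36l_t_reg_j φ M q hq Q hj0Q

/-- **`s36l_TReg` from the Hauptmodul relation.** -/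
theorem s36l_tReg_of_rel (hC : s36g_ValComap G φ M q hq hqM V)
    {t : s34m_F K₀ (M * q * q)} (hU : s36g_ValUnif G M q V t)
    (w : s34m_F K₀ (M * q)) (hw0 : w ≠ 0)
    (hwV : ∀ i, s36g_alpha M q w ∈ V i)
    (F3 : ∀ y : s34m_F K₀ (M * q * q), y ≠ 0 →
      {Q : Place K₀ (s34m_F K₀ (M * q * q)) |
        Q ∈ s18_chart1 (L₀ := K₀) (s36g_alpha M q w) ∧ Q.ord y ≠ 0}.Finite)
    (A : K₀[X]) (a : ℕ) (ha : 0 < a) (hA : ∀ n, A.coeff n ∈ G.A) (hA00 : A.coeff 0 ≠ 0)
    (hA0 : (A.coeff 0)⁻¹ ∈ G.A)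
    (hrel : s18g_jF (K := K₀) (M * q * q) * s36g_alpha M q w ^ a = aeval (s36g_alpha M q w) A) :
    s36l_TReg G φ M q hq hqM hC w (s36m_t (K₀ := K₀) M q) :=
  fun 𝔫 h𝔫 _ hthru Q hQ hth =>
    s36l_tReg_of_rel_gen G φ M q hq hqM hC hU _
      ((_root_.map_ne_zero (s36g_alpha M q)).mpr hw0) hwV F3 A a ha hA hA00 hA0 hrel 𝔫 h𝔫 hthru
      Q hQ hth

/-! ### The three branches `j`, `t₂` (`q = 3`), `t₃` (`q = 2`) -/

/-- natural numbers prime to the residue characteristic are units of `𝒪`. -/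
theorem s36l_natCast_inv_mem (n : ℕ) (hn : ¬ q ∣ n) : ((n : ℕ) : K₀)⁻¹ ∈ G.A := by
  have hπ : G.π ((n : ℕ) : G.A) ≠ 0 := by
    rw [map_natCast]
    intro h
    exact hn ((CharP.cast_eq_zero_iff κ q n).mp h)
  have hu : IsUnit ((n : ℕ) : G.A) := by
    by_contra h
    exact hπ ((s18g_pi_eq_zero_iff_not_isUnit G _).mpr h)
  obtain ⟨y, hy⟩ := hu.exists_right_inv
  have h1 : ((n : ℕ) : K₀) * (y : K₀) = 1 := by
    have := congrArg (fun z : G.A => (z : K₀)) hy
    simpa using this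
  rw [← eq_inv_of_mul_eq_one_right h1]
  exact y.2

/-- the coefficients of the image of an integral polynomial lie in `𝒪`. -/
theorem s36l_coeff_map_int_mem (P : ℤ[X]) (n : ℕ) :
    (P.map (Int.castRingHom K₀)).coeff n ∈ G.A := by
  rw [coeff_map, eq_intCast]
  exact intCast_mem _ _

variable (hC : s36g_ValComap G φ M q hq hqM V)

/-- **`s36l_TReg` for the three base functions of `s36b_base_full_all`.** -/
theorem s36l_tReg_of_coe (hU : s36g_ValUnif G M q V (s36m_t (K₀ := K₀) M q))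
    (hCompl : s36g_ValComplete G φ M q hq hqM V) (hI : s36g_ValIndep M q V)
    (x : s34m_F K₀ M) (hB : s35g_BaseData G φ M q hq hqM (heckeAlphaBar K₀ M q x))
    (hcoe : (x : LaurentSeries K₀) = jqModC K₀ ∨ (q = 3 ∧ (x : LaurentSeries K₀) = s18u_t2 K₀) ∨
      (q = 2 ∧ (x : LaurentSeries K₀) = s18u_t3 K₀)) :
    s36l_TReg G φ M q hq hqM hC (heckeAlphaBar K₀ M q x) (s36m_t (K₀ := K₀) M q) := by
  have hB₂ := s36b_baseData₂_of_base G φ M q hq hqM hC hCompl hI _ hB
  have hD₂ := s36b_dict₁ G φ M q hq hqM hC hU _ hB₂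
  have hw0 : heckeAlphaBar K₀ M q x ≠ 0 := hB.1
  have hwV : ∀ i, s36g_alpha M q (heckeAlphaBar K₀ M q x) ∈ V i := hB₂.2.2.1
  rcases hcoe with h1 | ⟨hq3, h2⟩ | ⟨hq2, h3⟩
  · have ex : x = s18g_jF (K := K₀) M := Subtype.ext (by rw [h1, s18g_coe_jF])
    rw [ex, s34d2_alpha_j M q]
    exact s36l_tReg_j G φ M q hq hqM hC
  · have hH := s18b_haupt_two K₀
    have rM := s34e_cusp_rel_of_coe M _ 2 (s18u_t2 K₀) hH.rel x h2
    have r₀ := s36b_hauptRel_level (K₀ := K₀) M q x _ 2 rM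
    have eA : ((X + Polynomial.C (256 : K₀)) ^ 3 : K₀[X]) =
        (((X + Polynomial.C (256 : ℤ)) ^ 3 : ℤ[X])).map (Int.castRingHom K₀) := by
      rw [Polynomial.map_pow, Polynomial.map_add, Polynomial.map_X, Polynomial.map_C, eq_intCast]
      simp only [Int.cast_ofNat]
    have e0 : ((X + Polynomial.C (256 : K₀)) ^ 3 : K₀[X]).coeff 0 = ((256 ^ 3 : ℕ) : K₀) := by
      rw [coeff_zero_eq_eval_zero, eval_pow, eval_add, eval_X, eval_C, zero_add]
      norm_num
    refine s36l_tReg_of_rel G φ M q hq hqM hC hU _ hw0 hwV hD₂.2.2.2 _ 2 (by norm_num)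
      (fun n => ?_) ?_ ?_ r₀
    · rw [eA]
      exact s36l_coeff_map_int_mem G _ n
    · rw [e0]
      exact_mod_cast (by norm_num : (256 ^ 3 : ℕ) ≠ 0)
    · rw [e0]
      refine s36l_natCast_inv_mem G q _ ?_
      rw [hq3]
      norm_num
  · have hH := s18b_haupt_three K₀
    have rM := s34e_cusp_rel_of_coe M _ 3 (s18u_t3 K₀) hH.rel x h3
    have r₀ := s36b_hauptRel_level (K₀ := K₀) M q x _ 3 rM
    have eA : ((X + Polynomial.C (27 : K₀)) * (X + Polynomial.C (243 : K₀)) ^ 3 : K₀[X]) =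
        (((X + Polynomial.C (27 : ℤ)) * (X + Polynomial.C (243 : ℤ)) ^ 3 : ℤ[X])).map
          (Int.castRingHom K₀) := by
      rw [Polynomial.map_mul, Polynomial.map_pow, Polynomial.map_add, Polynomial.map_add,
        Polynomial.map_X, Polynomial.map_C, Polynomial.map_C, eq_intCast, eq_intCast]
      simp only [Int.cast_ofNat]
    have e0 : ((X + Polynomial.C (27 : K₀)) * (X + Polynomial.C (243 : K₀)) ^ 3 : K₀[X]).coeff 0 =
        ((27 * 243 ^ 3 : ℕ) : K₀) := by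
      rw [coeff_zero_eq_eval_zero, eval_mul, eval_pow, eval_add, eval_add, eval_X, eval_C, eval_C,
        zero_add, zero_add]
      norm_num
    refine s36l_tReg_of_rel G φ M q hq hqM hC hU _ hw0 hwV hD₂.2.2.2 _ 3 (by norm_num)
      (fun n => ?_) ?_ ?_ r₀
    · rw [eA]
      exact s36l_coeff_map_int_mem G _ n
    · rw [e0]
      exact_mod_cast (by norm_num : (27 * 243 ^ 3 : ℕ) ≠ 0)
    · rw [e0]
      refine s36l_natCast_inv_mem G q _ ?_
      rw [hq2]
      norm_num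

/-- **(REG1) at the triple points for the base function of `s36b_base_full_all`**: helper8's
`s36g_GeoRegTriple` with `t = j_{q²} - j`; the only open input is thickness one at level `M q`
(`s36q_fi_CrossReg`, helper4's (R-q)). -/
theorem s36l_geoRegTriple_of_coe [PerfectField κ]
    (hP : s36g_ValPkg G φ M q hq hqM V (s36m_t (K₀ := K₀) M q))
    (hπ : Function.Surjective G.π) (x : s34m_F K₀ M)
    (hB : s35g_BaseData G φ M q hq hqM (heckeAlphaBar K₀ M q x))
    (hsat : ∀ Q : Place K₀ (s34m_F K₀ (M * q * q)),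
      s36g_alpha M q (heckeAlphaBar K₀ M q x) ∈ Q.toValuationSubring ↔
        s36g_beta M q (heckeAlphaBar K₀ M q x) ∈ Q.toValuationSubring)
    (hcoe : (x : LaurentSeries K₀) = jqModC K₀ ∨ (q = 3 ∧ (x : LaurentSeries K₀) = s18u_t2 K₀) ∨
      (q = 2 ∧ (x : LaurentSeries K₀) = s18u_t3 K₀))
    (hX : s36q_fi_CrossReg G φ M q hq hqM (heckeAlphaBar K₀ M q x))
    (m : ℕ) (hm : m ≠ 0) :
    s36g_GeoRegTriple G φ M q hq hqM hP.1 (heckeAlphaBar K₀ M q x) m :=
  s36l_geoRegTriple G φ M q hq hqM _ hP hπ hB hsat hX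
    (fun i => s36m_rc_t_mem G φ M q hq hqM hP.1 i)
    (s36l_tReg_of_coe G φ M q hq hqM hP.1 hP.2.1 hP.2.2.2.1 hP.2.2.2.2.1 x hB hcoe) m hm

end Fermat.Agent.Lib.S36
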