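/-
S36 project, GEOMETRY side, item (3c)(i) of the `s36g_InLocal` checklist (helper7, prefix `s36l_`):
**THE (REG-triple) COMPONENT OF helper8's LEAF `s36g_LeafReg`** (`GInGeo.lean`), literally: for every
base function `x` with `s36g_BaseFull` (`GBaseFull.lean`) and every valuation package,
`s36g_GeoRegTriple … (α x) m` follows from thickness one at level `M q` (`s36q_fi_CrossReg`).
-/
import Fermat.Agent.Lib.S36.LTripleReg
import Fermat.Agent.Lib.S36.GBaseFull

set_option autoImplicit false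
set_option linter.unusedSectionVars false
set_option linter.style.haveILetI false
set_option maxHeartbeats 800000
set_option synthInstance.maxHeartbeats 400000

noncomputable section

namespace Fermat.Agent.Lib.S36

open ModularCurve AlgebraicCurve HahnSeries Polynomial Fermat.Agent.Lib.FF Fermat.Agent.Lib.S18
  Fermat.Agent.Lib.S37 Fermat.Agent.Lib.S34 Fermat.Agent.Lib.S35 Fermat.Agent.Lib.S28 IsLocalRing

local notation "Kb" => AlgebraicClosure ℚ

/-- the `q`-expansion disjunct of `s36g_BaseFull` in the shape of `s36l_tReg_of_coe`. -/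
theorem s36l_coe_of_baseFull {K₀ : Type} [Field K₀] [Algebra ℚ K₀] [CharZero K₀] {κ : Type}
    [Field κ] (G : s18g_GaussData K₀ κ) [IsDiscreteValuationRing G.A]
    (φ : K₀ →+* Kb) (M q : ℕ) [NeZero M] [NeZero q] (hq : q.Prime) (hqM : ¬ q ∣ M)
    (x : s34m_F K₀ M) (hx : x ∈ s34m_Vinf G M) (hBF : s36g_BaseFull G φ M q hq hqM x hx) :
    (x : LaurentSeries K₀) = jqModC K₀ ∨ (q = 3 ∧ (x : LaurentSeries K₀) = s18u_t2 K₀) ∨
      (q = 2 ∧ (x : LaurentSeries K₀) = s18u_t3 K₀) := by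
  obtain ⟨-, -, -, -, -, h, -⟩ := hBF
  rcases h with ⟨-, h1⟩ | ⟨h3, -, h2⟩ | ⟨h2, -, h3⟩
  · exact Or.inl (by rw [h1, s18g_coe_jF])
  · exact Or.inr (Or.inl ⟨h3, h2⟩)
  · exact Or.inr (Or.inr ⟨h2, h3⟩)

/-- **The (REG-triple) component of `s36g_LeafReg`.** -/
theorem s36l_leafRegTriple (M q : ℕ) [NeZero M] [NeZero q] (hq : q.Prime) (hqM : ¬ q ∣ M)
    (K₀ : Type) [Field K₀] [NumberField K₀] (φ : K₀ →+* Kb)
    (κ : Type) [Field κ] [CharP κ q] [PerfectField κ]
    (G : s18g_GaussData K₀ κ) [IsDiscreteValuationRing G.A] (hπ : Function.Surjective G.π)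
    (V : Fin 3 → ValuationSubring (s34m_F K₀ (M * q * q)))
    (hP : s36g_ValPkg G φ M q hq hqM V (s36m_t M q))
    (x : s34m_F K₀ M) (hx : x ∈ s34m_Vinf G M) (hBF : s36g_BaseFull G φ M q hq hqM x hx)
    (hX : s36q_fi_CrossReg G φ M q hq hqM (heckeAlphaBar K₀ M q x))
    (m : ℕ) (hm : m ≠ 0) :
    s36g_GeoRegTriple G φ M q hq hqM hP.1 (heckeAlphaBar K₀ M q x) m :=
  s36l_geoRegTriple_of_coe G φ M q hq hqM hP hπ x hBF.1 hBF.2.1
    (s36l_coe_of_baseFull G φ M q hq hqM x hx hBF) hX m hm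

end Fermat.Agent.Lib.S36
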