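/-
S36 mega-project (helper6): CHART 2 AT THE TWO LEVELS along `α'` — the inputs of
`s36m_mc_reg'` / `s36e_image_pt` for `S₁ = chart2 w₁`, `S₂ = chart2 (α' w₁)`.

* `s36m_chart2_alpha`     : `α'(B₁(chart2 w₁)) ⊆ B₂(chart2 (α' w₁))`   (the `hγ`);
* `s36m_chart2_int_alpha` : `B₂` is integral over `α'(B₁)`              (INT).
-/
import Fermat.Agent.Lib.S36.PChart
import Fermat.Agent.Lib.S36.XCuspInst
import Fermat.Agent.Lib.S36.REisUnit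

set_option autoImplicit false
set_option linter.unusedSectionVars false
set_option linter.style.haveILetI false
set_option synthInstance.maxHeartbeats 400000

noncomputable section

namespace Fermat.Agent.Lib.S36

open ModularCurve AlgebraicCurve HahnSeries Polynomial Fermat.Agent.Lib.FF
  Fermat.Agent.Lib.S18 Fermat.Agent.Lib.S37 Fermat.Agent.Lib.S34 Fermat.Agent.Lib.S35 IsLocalRing

local notation "Kb" => AlgebraicClosure ℚ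

variable {K₀ : Type} [Field K₀] [Algebra ℚ K₀] [CharZero K₀] {κ : Type} [Field κ]
  (G : s18g_GaussData K₀ κ) [IsDiscreteValuationRing G.A]
  (φ : K₀ →+* Kb) (M q : ℕ) [NeZero M] [NeZero q] (hq : q.Prime) (hqM : ¬ q ∣ M)
  {V : Fin 3 → ValuationSubring (s34m_F K₀ (M * q * q))}

/-- **`α'(B₁) ⊆ B₂`** for chart 2. -/
theorem s36m_chart2_alpha (hC : s36g_ValComap G φ M q hq hqM V)
    (w₁ : s34m_F K₀ (M * q)) (hB : s35g_BaseData G φ M q hq hqM w₁) :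
    ∀ b ∈ s34x_ring (L₀ := K₀) (s34x_infRing (s34m_VV G φ M q hq hqM)) (s18_chart2 w₁),
      s36g_alpha M q b ∈
        s34x_ring (L₀ := K₀) (s34x_infRing V) (s18_chart2 (s36g_alpha M q w₁)) := by
  obtain ⟨-, hgen, -, hwO', -, -, hα', -, -⟩ := hB
  haveI := hgen
  haveI : FFGen K₀ w₁⁻¹ := ff_gen_inv
  exact s36p_chart_mem_gen G φ M q hq hqM (heckeAlphaBar K₀ (M * q) q)
    (fun x hx => s36b_alpha_mem G φ M q hq hqM hC x hx) w₁⁻¹ ff_gen_inv hwO' hα'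
    (s36g_alpha M q w₁)⁻¹ (fun Q hQ => by rw [map_inv₀]; exact hQ)

/-- **(INT) for `α'`**, chart 2. -/
theorem s36m_chart2_int_alpha (hC : s36g_ValComap G φ M q hq hqM V)
    (hCompl : s36g_ValComplete G φ M q hq hqM V) (hInd : s36g_ValIndep M q V)
    (w₁ : s34m_F K₀ (M * q)) (hB : s35g_BaseData G φ M q hq hqM w₁)
    (hγ : ∀ b ∈ s34x_ring (L₀ := K₀) (s34x_infRing (s34m_VV G φ M q hq hqM)) (s18_chart2 w₁),
      s36g_alpha M q b ∈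
        s34x_ring (L₀ := K₀) (s34x_infRing V) (s18_chart2 (s36g_alpha M q w₁))) :
    (s36q_chartMap (s34m_VV G φ M q hq hqM) V (s18_chart2 (L₀ := K₀) w₁)
      (s18_chart2 (L₀ := K₀) (s36g_alpha M q w₁)) (s36g_alpha M q) hγ).IsIntegral := by
  obtain ⟨-, hgen, -, hwO', -, -, hα', -, -⟩ := hB
  haveI := hgen
  haveI : FFGen K₀ w₁⁻¹ := ff_gen_inv
  exact s36p_chart_int_gen G φ M q hq hqM (heckeAlphaBar K₀ (M * q) q)
    (fun x hx => s36b_alpha_mem G φ M q hq hqM hC x hx)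
    (s36b_VV_ne G φ M q hq hqM hC hCompl hInd) (s36p_compl_alpha G φ M q hq hqM hCompl)
    w₁⁻¹ ff_gen_inv hwO' hα' (s36g_alpha M q w₁)⁻¹ (fun Q hQ => by rw [← map_inv₀]; exact hQ) hγ

/-! ### A cuspidal point of level `M q` lies on one component only -/

section Single

variable [CharP κ q]
  (S₁ : Set (Place K₀ (s34m_F K₀ (M * q))))
  (𝔪 : Ideal (s34x_ring (s34x_infRing (s34m_VV G φ M q hq hqM)) S₁)) [h𝔪 : 𝔪.IsPrime]

/-- **A cuspidal closed point of level `M q` lies on at most one of the two components**: if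
`1/j ∈ 𝔪(B_𝔪)` then `V'_∞` and `V'_0` do not both pass through `𝔪`. -/
theorem s36m_polar_single
    (F3 : ∀ y : s34m_F K₀ (M * q), y ≠ 0 →
      {Q : Place K₀ (s34m_F K₀ (M * q)) | Q ∈ S₁ ∧ Q.ord y ≠ 0}.Finite)
    (z₀ : Localization.AtPrime 𝔪) (hz₀m : z₀ ∈ maximalIdeal (Localization.AtPrime 𝔪))
    (hz₀ : s34f_iota (s34x_infRing (s34m_VV G φ M q hq hqM)) S₁ 𝔪 z₀ =
      (s18g_jF (K := K₀) (M * q))⁻¹) :
    ¬ (s36q_compThrough (s34m_VV G φ M q hq hqM) S₁ 𝔪 true ∧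
      s36q_compThrough (s34m_VV G φ M q hq hqM) S₁ 𝔪 false) := by
  rintro ⟨hT, hF⟩
  have hq1 : 1 ≤ q := hq.one_le
  have hq2 : 2 ≤ q := hq.two_le
  have hA := s36e_arch_VV G φ M q hq hqM
  set J : s34m_F K₀ (M * q) := s18g_jF (K := K₀) (M * q) with hJ
  set J' : s34m_F K₀ (M * q) := s34m_betaJ (K₀ := K₀) M q with hJ'
  have hJ0 : J ≠ 0 := s18g_jF_ne_zero (M * q)
  have hJ'0 : J' ≠ 0 := s36b_betaJ_ne_zero M q
  obtain ⟨⟨hJi, hJi'⟩, ⟨hJz, hJz'⟩, ⟨hJ'i, hJ'i'⟩, ⟨hJ'z, hJ'z'⟩⟩ :=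
    s36b_level_units G φ M q hq hqM
  have hUJ : ∀ k, J ∈ s34m_VV G φ M q hq hqM k ∧ J⁻¹ ∈ s34m_VV G φ M q hq hqM k := by
    intro k; cases k
    · exact ⟨hJz, hJz'⟩
    · exact ⟨hJi, hJi'⟩
  have hUJ' : ∀ k, J' ∈ s34m_VV G φ M q hq hqM k ∧ J'⁻¹ ∈ s34m_VV G φ M q hq hqM k := by
    intro k; cases k
    · exact ⟨hJ'z, hJ'z'⟩
    · exact ⟨hJ'i, hJ'i'⟩
  have hO : ∀ (x y : s34m_F K₀ (M * q)), (∀ k, x ∈ s34m_VV G φ M q hq hqM k) →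
      (∀ k, y⁻¹ ∈ s34m_VV G φ M q hq hqM k) → ∀ k, x * y⁻¹ ^ q ∈ s34m_VV G φ M q hq hqM k :=
    fun x y hx hy k => (s34m_VV G φ M q hq hqM k).mul_mem _ _ (hx k) (pow_mem (hy k) q)
  obtain ⟨hrel10, hrel01⟩ := s36b_modRel_level M q hq hqM
  have hιJ : s34m_iota φ (M * q) J = ffd_jBar (M * q) := s18r_map_jF φ (M * q)
  have hιJ' : s34m_iota φ (M * q) J' = heckeBetaBar Kb M q (ffd_jBar M) :=
    s36b_iota_betaJ φ M q
  have r10 : ∀ Q ∈ S₁, J⁻¹ ∈ Q.toValuationSubring → J' * J⁻¹ ^ q ∈ Q.toValuationSubring :=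
    fun Q _ h => s36b_modRel_reg_K φ q (M * q) J' J hJ'0 hJ0 (by rw [hιJ, hιJ']; exact hrel10) Q h
  have r01 : ∀ Q ∈ S₁, J'⁻¹ ∈ Q.toValuationSubring → J * J'⁻¹ ^ q ∈ Q.toValuationSubring :=
    fun Q _ h => s36b_modRel_reg_K φ q (M * q) J J' hJ0 hJ'0 (by rw [hιJ, hιJ']; exact hrel01) Q h
  have c10 : J' * J⁻¹ ^ q - 1 ∈ (s34m_VV G φ M q hq hqM true).nonunits :=
    s36b_cong_one_of_kron (s34m_VV G φ M q hq hqM true) q hJ0 hJi' (s36b_kron_inf G M q hq)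
  have c01 : J * J'⁻¹ ^ q - 1 ∈ (s34m_VV G φ M q hq hqM false).nonunits :=
    s36b_cong_one_of_kron (s34m_VV G φ M q hq hqM false) q hJ'0 hJ'z'
      (s36b_kron_zero G φ M q hq hqM)
  obtain ⟨⟨Z10, hZ10u, hZ10⟩, ⟨z₁, hz₁m, hz₁⟩⟩ := s36b_cusp_step (s34m_VV G φ M q hq hqM) S₁ 𝔪 hA
    F3 q hq1 J' J hJ'0 hJ0 (hO J' J (fun k => (hUJ' k).1) (fun k => (hUJ k).2)) r10 z₀ hz₀m hz₀
    true hT c10
  obtain ⟨Z01, hZ01⟩ := s36b_cusp_lift (s34m_VV G φ M q hq hqM) S₁ 𝔪 hA F3 q J J' hJ0 hJ'0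
    (hO J J' (fun k => (hUJ k).1) (fun k => (hUJ' k).2)) r01 z₁ hz₁
  have hZ01u : IsUnit Z01 := s36b_isUnit_of_cong_one (s34m_VV G φ M q hq hqM) S₁ 𝔪 false hF Z01
    (by rw [hZ01]; exact c01)
  have hprod : Z10 * Z01 = (z₀ * z₁) ^ (q - 1) := by
    apply s34f_iota_injective (s34x_infRing (s34m_VV G φ M q hq hqM)) S₁ 𝔪
    rw [map_mul, hZ10, hZ01, map_pow, map_mul, hz₀, hz₁]
    obtain ⟨k, rfl⟩ : ∃ k, q = k + 1 := ⟨q - 1, by omega⟩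
    rw [Nat.add_sub_cancel]
    exact s36b_prod_id hJ'0 hJ0 k
  have hmem : (z₀ * z₁) ^ (q - 1) ∈ maximalIdeal (Localization.AtPrime 𝔪) := by
    obtain ⟨k, hk⟩ : ∃ k, q - 1 = k + 1 := ⟨q - 2, by omega⟩
    rw [hk, pow_succ]
    exact Ideal.mul_mem_left _ _ (Ideal.mul_mem_right _ _ hz₀m)
  have hu : IsUnit ((z₀ * z₁) ^ (q - 1)) := by rw [← hprod]; exact hZ10u.mul hZ01u
  exact (mem_nonunits_iff.mp ((mem_maximalIdeal _).mp hmem)) hu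

end Single

end Fermat.Agent.Lib.S36
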