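/-
S36 mega-project (helper6): **(REG2) at the polar points of chart 2 lying on `C_mid` only** — the
named target `s36g_GeoReg2Only … m 1` of `GRegCases.lean` / `GInGeo.lean`.

`s36m_mc_reg'` with `S₁ = chart2 w₁`, `S₂ = chart2 (α' w₁)`, `w₁ = α x`:
* `hγ`, (INT) : `MPolarLow.lean`;
* `honly'`, `u'`, `w'`, `hm'`, `hw'`, `hu'` : helper2's `s36e_image_pt`, whose (FIB) premise is
  contradictory at a polar image point (`s36m_polar_single`);
* the cusp data `(x, ε) = (1/w₁, P^rev(1/w₁))` : `s36m_cuspData_polar` + `s36m_HauptZ`.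
-/
import Fermat.Agent.Lib.S36.MMidCuspInst
import Fermat.Agent.Lib.S36.MPolarLow
import Fermat.Agent.Lib.S36.GRegCases
import Fermat.Agent.Lib.S36.REisOuter

set_option autoImplicit false
set_option linter.unusedSectionVars false
set_option linter.style.haveILetI false
set_option synthInstance.maxHeartbeats 400000

noncomputable section

namespace Fermat.Agent.Lib.S36

open Polynomial ModularCurve AlgebraicCurve HahnSeries Fermat.Agent.Lib.FF Fermat.Agent.Lib.S18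
  Fermat.Agent.Lib.S28 Fermat.Agent.Lib.S37 Fermat.Agent.Lib.S34 Fermat.Agent.Lib.S35 IsLocalRing

local notation "Kb" => AlgebraicClosure ℚ

section Abs

variable {L₀ 𝓕 : Type*} [Field L₀] [Field 𝓕] [Algebra L₀ 𝓕]
variable {ι : Type*} (O : ι → ValuationSubring 𝓕) (S : Set (Place L₀ 𝓕))
  (𝔪 : Ideal (s34x_ring (s34x_infRing O) S)) [h𝔪 : 𝔪.IsPrime]

/-- `1/j ∈ 𝔪(B_𝔪)` from the cusp data `x ∈ 𝔪`, `ε ∉ 𝔪`, `j x = ε`. -/
theorem s36m_z0_of_data (x ε : s34x_ring (s34x_infRing O) S) (hx : x ∈ 𝔪) (hε : ε ∉ 𝔪) (j : 𝓕)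
    (hjx : j * (x : 𝓕) = (ε : 𝓕)) :
    ∃ z₀ : Localization.AtPrime 𝔪, z₀ ∈ maximalIdeal (Localization.AtPrime 𝔪) ∧
      s34f_iota (s34x_infRing O) S 𝔪 z₀ = j⁻¹ := by
  have hu : IsUnit (algebraMap _ (Localization.AtPrime 𝔪) ε) :=
    IsLocalization.map_units (Localization.AtPrime 𝔪) (⟨ε, hε⟩ : 𝔪.primeCompl)
  obtain ⟨v, hv⟩ := hu.exists_right_inv
  refine ⟨algebraMap _ (Localization.AtPrime 𝔪) x * v, Ideal.mul_mem_right _ _
    ((IsLocalization.AtPrime.to_map_mem_maximal_iff (Localization.AtPrime 𝔪) 𝔪 _).mpr hx), ?_⟩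
  have h1 := congrArg (s34f_iota (s34x_infRing O) S 𝔪) hv
  rw [map_mul, s34f_iota_algebraMap, map_one] at h1
  have hv' : s34f_iota (s34x_infRing O) S 𝔪 v = ((ε : 𝓕))⁻¹ := eq_inv_of_mul_eq_one_right h1
  rw [map_mul, s34f_iota_algebraMap, hv']
  have hε0 : (ε : 𝓕) ≠ 0 := by
    intro h0
    apply hε
    have : ε = 0 := Subtype.ext h0
    rw [this]
    exact Ideal.zero_mem _
  exact s36m_mc_field_id _ _ _ hjx hε0

end Abs

section Conc

variable {K₀ : Type} [Field K₀] [Algebra ℚ K₀] [CharZero K₀] {κ : Type} [Field κ]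
  (G : s18g_GaussData K₀ κ) [IsDiscreteValuationRing G.A]
  (φ : K₀ →+* Kb) (M q : ℕ) [NeZero M] [NeZero q] (hq : q.Prime) (hqM : ¬ q ∣ M)
  [CharP κ q] [PerfectField κ]
  {V : Fin 3 → ValuationSubring (s34m_F K₀ (M * q * q))}

/-- **(REG2) at the polar points of chart 2 on the middle component only.** -/
theorem s36m_geoReg2Only_mid (h2 : nuTwo M = 0) (h3 : nuThree M = 0)
    (hπ : Function.Surjective G.π) (hϖq : ((G.ϖ : G.A) : K₀) = (q : K₀))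
    (hP : s36g_ValPkg G φ M q hq hqM V (s36m_t (K₀ := K₀) M q))
    (x : s34m_F K₀ M)
    (hB : s35g_BaseData G φ M q hq hqM (heckeAlphaBar K₀ M q x))
    (hZ : s36m_HauptZ M q x) (m : ℕ) (hm : m ≠ 0) :
    s36g_GeoReg2Only G φ M q hq hqM hP.1 (heckeAlphaBar K₀ M q x) m 1 := by
  intro 𝔫 h𝔫 hϖ hpol h1 honly
  haveI := h𝔫.isPrime
  have hC := hP.1
  have hU := hP.2.1
  have hR := hP.2.2.1
  have hCompl := hP.2.2.2.1
  have hInd := hP.2.2.2.2.1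
  have hRE := s36m_hRE G φ M q hq hqM hϖq hP
  have hw0 : heckeAlphaBar K₀ M q x ≠ 0 := hB.1
  have hγ := s36m_chart2_alpha G φ M q hq hqM hC (heckeAlphaBar K₀ M q x) hB
  have hint := s36m_chart2_int_alpha G φ M q hq hqM hC hCompl hInd (heckeAlphaBar K₀ M q x) hB hγ
  have hD₁ := s35g_dict₂ G φ M q hq hqM (heckeAlphaBar K₀ M q x) hB
  have hD₂ := s36b_dict₂ G φ M q hq hqM hC hU _
    (s36b_baseData₂_of_base G φ M q hq hqM hC hCompl hInd (heckeAlphaBar K₀ M q x) hB)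
  -- the cusp data
  obtain ⟨P, a, hPm, hdeg, r, -⟩ := hZ
  have rq := s36m_hauptZ_level (K₀ := K₀) M q x P a r
  obtain ⟨x', ε, hxw, hjx, hdata⟩ := s36m_cuspData_polar (L₀ := K₀) (s34m_VV G φ M q hq hqM) P hPm
    a hdeg (s18g_jF (K := K₀) (M * q)) (heckeAlphaBar K₀ M q x) hw0 rq hB.2.2.2.1
  obtain ⟨b, hb, hbw⟩ := hpol
  have hx : x' ∈ s36q_pt (s34m_VV G φ M q hq hqM) V
      (s18_chart2 (L₀ := K₀) (heckeAlphaBar K₀ M q x))
      (s18_chart2 (L₀ := K₀) (s36g_alpha M q (heckeAlphaBar K₀ M q x))) (s36g_alpha M q)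
      hγ 𝔫 := by
    rw [Ideal.mem_comap]
    convert hb using 1
    apply Subtype.ext
    rw [s36q_chartMap_coe, hxw, hbw, map_inv₀]
  have hε := hdata _ (Ideal.comap_isPrime _ _) hx
  -- only one component through the image point
  obtain ⟨z₀, hz₀m, hz₀⟩ := s36m_z0_of_data (s34m_VV G φ M q hq hqM)
    (s18_chart2 (L₀ := K₀) (heckeAlphaBar K₀ M q x)) _ x' ε hx hε _ hjx
  have hsingle := s36m_polar_single G φ M q hq hqM
    (s18_chart2 (L₀ := K₀) (heckeAlphaBar K₀ M q x)) _ hD₁.2.2.2 z₀ hz₀m hz₀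
  have hcj : ∀ y : s34m_F K₀ (M * q), s36g_alpha M q y ∈ V 1 ↔
      y ∈ s34m_VV G φ M q hq hqM true :=
    fun y => (s36b_alpha_mem_iff G φ M q hq hqM hC y).2.1
  have hck : ∀ y : s34m_F K₀ (M * q), s36g_alpha M q y ∈ V 2 ↔
      y ∈ s34m_VV G φ M q hq hqM (!true) :=
    fun y => (s36b_alpha_mem_iff G φ M q hq hqM hC y).2.2
  have hk : ¬ s36q_compThrough V
      (s18_chart2 (L₀ := K₀) (s36g_alpha M q (heckeAlphaBar K₀ M q x))) 𝔫 2 :=
    fun h => absurd (honly 2 h) (by decide)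
  obtain ⟨honly', u', w', hm', hw', hu'⟩ := s36e_image_pt G φ M q hq hqM V
    (s18_chart2 (L₀ := K₀) (heckeAlphaBar K₀ M q x))
    (s18_chart2 (L₀ := K₀) (s36g_alpha M q (heckeAlphaBar K₀ M q x))) (s36g_alpha M q) hγ
    hB.2.2.2.2.2.2.2.2 (s36e_finiteType_chart2 G φ M q hq hqM _ hB) hπ hint 𝔫 h𝔫 true 1 2
    hcj hck h1 hk (fun hT hF => absurd ⟨hT, hF⟩ hsingle)
  haveI : FFGen K₀ (heckeAlphaBar K₀ M q x) := hB.2.1
  exact s36m_mc_reg' G φ M q hq hqM V _ _ hγ 𝔫 h2 h3 hπ (heckeAlphaBar K₀ M q x) hC hU hRE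
    hD₁ hD₂ hϖ h1 honly honly' u' w' hm' hw' hu'
    (s36q_frac_alpha_1 G φ M q hq hqM _ hC hR hB.2.2.2.2.2.2.2.2 hπ) x' ε hx hε hjx m hm

/-- the same from helper8's `s36g_BaseFull`. -/
theorem s36m_geoReg2Only_mid_of_baseFull (h2 : nuTwo M = 0) (h3 : nuThree M = 0)
    (hπ : Function.Surjective G.π) (hϖq : ((G.ϖ : G.A) : K₀) = (q : K₀))
    (hP : s36g_ValPkg G φ M q hq hqM V (s36m_t (K₀ := K₀) M q))
    (x : s34m_F K₀ M) (hx : x ∈ s34m_Vinf G M) (hBF : s36g_BaseFull G φ M q hq hqM x hx)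
    (m : ℕ) (hm : m ≠ 0) :
    s36g_GeoReg2Only G φ M q hq hqM hP.1 (heckeAlphaBar K₀ M q x) m 1 :=
  s36m_geoReg2Only_mid G φ M q hq hqM h2 h3 hπ hϖq hP x hBF.1
    (s36m_hauptZ_of_baseFull G φ M q hq hqM x hx hBF) m hm

/-- **(REG2) at the polar points of chart 2 on the component `V 0` only** (`γ = α'`, image point on
`C'_∞`; lead's `s36e_out_reg_V0`). -/
theorem s36m_geoReg2Only_zero (hπ : Function.Surjective G.π)
    (hP : s36g_ValPkg G φ M q hq hqM V (s36m_t (K₀ := K₀) M q))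
    (x : s34m_F K₀ M)
    (hB : s35g_BaseData G φ M q hq hqM (heckeAlphaBar K₀ M q x))
    (hZ : s36m_HauptZ M q x) (m : ℕ) (hm : m ≠ 0) :
    s36g_GeoReg2Only G φ M q hq hqM hP.1 (heckeAlphaBar K₀ M q x) m 0 := by
  intro 𝔫 h𝔫 hϖ hpol h0 honly
  haveI := h𝔫.isPrime
  have hC := hP.1
  have hU := hP.2.1
  have hR := hP.2.2.1
  have hCompl := hP.2.2.2.1
  have hInd := hP.2.2.2.2.1
  have hw0 : heckeAlphaBar K₀ M q x ≠ 0 := hB.1
  have hγ := s36m_chart2_alpha G φ M q hq hqM hC (heckeAlphaBar K₀ M q x) hB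
  have hint := s36m_chart2_int_alpha G φ M q hq hqM hC hCompl hInd (heckeAlphaBar K₀ M q x) hB hγ
  have hD₁ := s35g_dict₂ G φ M q hq hqM (heckeAlphaBar K₀ M q x) hB
  have hD₂ := s36b_dict₂ G φ M q hq hqM hC hU _
    (s36b_baseData₂_of_base G φ M q hq hqM hC hCompl hInd (heckeAlphaBar K₀ M q x) hB)
  -- the cusp data
  obtain ⟨P, a, hPm, hdeg, r, -⟩ := hZ
  have rq := s36m_hauptZ_level (K₀ := K₀) M q x P a r
  obtain ⟨x', ε, hxw, hjx, hdata⟩ := s36m_cuspData_polar (L₀ := K₀) (s34m_VV G φ M q hq hqM) P hPm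
    a hdeg (s18g_jF (K := K₀) (M * q)) (heckeAlphaBar K₀ M q x) hw0 rq hB.2.2.2.1
  obtain ⟨b, hb, hbw⟩ := hpol
  have hx : x' ∈ s36q_pt (s34m_VV G φ M q hq hqM) V
      (s18_chart2 (L₀ := K₀) (heckeAlphaBar K₀ M q x))
      (s18_chart2 (L₀ := K₀) (s36g_alpha M q (heckeAlphaBar K₀ M q x))) (s36g_alpha M q)
      hγ 𝔫 := by
    rw [Ideal.mem_comap]
    convert hb using 1
    apply Subtype.ext
    rw [s36q_chartMap_coe, hxw, hbw, map_inv₀]
  have hε := hdata _ (Ideal.comap_isPrime _ _) hx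
  -- only one component through the image point
  obtain ⟨z₀, hz₀m, hz₀⟩ := s36m_z0_of_data (s34m_VV G φ M q hq hqM)
    (s18_chart2 (L₀ := K₀) (heckeAlphaBar K₀ M q x)) _ x' ε hx hε _ hjx
  have hsingle := s36m_polar_single G φ M q hq hqM
    (s18_chart2 (L₀ := K₀) (heckeAlphaBar K₀ M q x)) _ hD₁.2.2.2 z₀ hz₀m hz₀
  have hcj : ∀ y : s34m_F K₀ (M * q), s36g_alpha M q y ∈ V 0 ↔
      y ∈ s34m_VV G φ M q hq hqM true :=
    fun y => (s36b_alpha_mem_iff G φ M q hq hqM hC y).1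
  have hck : ∀ y : s34m_F K₀ (M * q), s36g_alpha M q y ∈ V 2 ↔
      y ∈ s34m_VV G φ M q hq hqM (!true) :=
    fun y => (s36b_alpha_mem_iff G φ M q hq hqM hC y).2.2
  have hk : ¬ s36q_compThrough V
      (s18_chart2 (L₀ := K₀) (s36g_alpha M q (heckeAlphaBar K₀ M q x))) 𝔫 2 :=
    fun h => absurd (honly 2 h) (by decide)
  obtain ⟨-, u', w', hm', hw', hu'⟩ := s36e_image_pt G φ M q hq hqM V
    (s18_chart2 (L₀ := K₀) (heckeAlphaBar K₀ M q x))
    (s18_chart2 (L₀ := K₀) (s36g_alpha M q (heckeAlphaBar K₀ M q x))) (s36g_alpha M q) hγ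
    hB.2.2.2.2.2.2.2.2 (s36e_finiteType_chart2 G φ M q hq hqM _ hB) hπ hint 𝔫 h𝔫 true 0 2
    hcj hck h0 hk (fun hT hF => absurd ⟨hT, hF⟩ hsingle)
  exact s36e_out_reg_V0 G φ M q hq hqM V (s36m_t (K₀ := K₀) M q) _ _ hC hU hγ 𝔫 hD₁ hD₂ h0 honly
    u' w' hm' hw' hu'
    (s36q_frac_alpha_0 G φ M q hq hqM _ hC hR hB.2.2.2.2.2.2.2.2 hπ) m hm

/-- the same from helper8's `s36g_BaseFull`. -/
theorem s36m_geoReg2Only_zero_of_baseFull (hπ : Function.Surjective G.π)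
    (hP : s36g_ValPkg G φ M q hq hqM V (s36m_t (K₀ := K₀) M q))
    (x : s34m_F K₀ M) (hx : x ∈ s34m_Vinf G M) (hBF : s36g_BaseFull G φ M q hq hqM x hx)
    (m : ℕ) (hm : m ≠ 0) :
    s36g_GeoReg2Only G φ M q hq hqM hP.1 (heckeAlphaBar K₀ M q x) m 0 :=
  s36m_geoReg2Only_zero G φ M q hq hqM hπ hP x hBF.1
    (s36m_hauptZ_of_baseFull G φ M q hq hqM x hx hBF) m hm

end Conc

end Fermat.Agent.Lib.S36
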