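/-
S36 mega-project (helper6): **`s36g_LeafReg` FROM THE LANDED LEAVES**, modulo the two leaves that are
still open (as explicit hypotheses in the literal leaf shape):

* `hMid` : `s36g_GeoRegOnly … (α x) m 1`  (points of chart 1 on `C_mid` only; helper2/helper3 — the
  cuspidal ones are `s36m_geoRegOnly_cusp_of_baseFull`);
* `hTwo` : `s36g_GeoReg2Only … (α x) m 2` (polar points of chart 2 on `V 2` only; helper9).

Everything else is on main: (REG-triple) helper7's `s36l_leafRegTriple`, `GeoRegOnly 0/2` lead's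
`s36g_geoRegOnly_0/_2`, `GeoReg2Only 0/1` `MReg2Mid.lean`.
-/
import Fermat.Agent.Lib.S36.GInGeo
import Fermat.Agent.Lib.S36.LTripleLeaf
import Fermat.Agent.Lib.S36.GRegOnly02
import Fermat.Agent.Lib.S36.MReg2Mid

set_option autoImplicit false
set_option linter.unusedSectionVars false
set_option linter.style.haveILetI false
set_option synthInstance.maxHeartbeats 400000

noncomputable section

namespace Fermat.Agent.Lib.S36

open ModularCurve AlgebraicCurve HahnSeries Fermat.Agent.Lib.FF Fermat.Agent.Lib.S18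
  Fermat.Agent.Lib.S37 Fermat.Agent.Lib.S34 Fermat.Agent.Lib.S35 IsLocalRing

local notation "Kb" => AlgebraicClosure ℚ

variable (M q : ℕ) [NeZero M] [NeZero q] (hq : q.Prime) (hqM : ¬ q ∣ M)

/-- the open leaf "points of chart 1 on `C_mid` only". -/
def s36m_LeafMid : Prop :=
  ∀ (K₀ : Type) [Field K₀] [NumberField K₀] (φ : K₀ →+* Kb)
    (κ : Type) [Field κ] [CharP κ q] [PerfectField κ]
    (G : s18g_GaussData K₀ κ) [IsDiscreteValuationRing G.A], Function.Surjective G.π →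
    ((G.ϖ : G.A) : K₀) = (q : K₀) →
    ∀ (V : Fin 3 → ValuationSubring (s34m_F K₀ (M * q * q)))
      (hP : s36g_ValPkg G φ M q hq hqM V (s36m_t M q))
      (x : s34m_F K₀ M) (hx : x ∈ s34m_Vinf G M), s36g_BaseFull G φ M q hq hqM x hx →
      s36q_fi_CrossReg G φ M q hq hqM (heckeAlphaBar K₀ M q x) →
      ∀ m : ℕ, m ≠ 0 →
        s36g_GeoRegOnly G φ M q hq hqM hP.1 (heckeAlphaBar K₀ M q x) m 1

/-- the open leaf "polar points of chart 2 on `V 2` only". -/
def s36m_LeafTwo : Prop :=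
  ∀ (K₀ : Type) [Field K₀] [NumberField K₀] (φ : K₀ →+* Kb)
    (κ : Type) [Field κ] [CharP κ q] [PerfectField κ]
    (G : s18g_GaussData K₀ κ) [IsDiscreteValuationRing G.A], Function.Surjective G.π →
    ((G.ϖ : G.A) : K₀) = (q : K₀) →
    ∀ (V : Fin 3 → ValuationSubring (s34m_F K₀ (M * q * q)))
      (hP : s36g_ValPkg G φ M q hq hqM V (s36m_t M q))
      (x : s34m_F K₀ M) (hx : x ∈ s34m_Vinf G M), s36g_BaseFull G φ M q hq hqM x hx →
      s36q_fi_CrossReg G φ M q hq hqM (heckeAlphaBar K₀ M q x) →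
      ∀ m : ℕ, m ≠ 0 →
        s36g_GeoReg2Only G φ M q hq hqM hP.1 (heckeAlphaBar K₀ M q x) m 2

/-- **`s36g_LeafReg` from the two open leaves.** -/
theorem s36m_leafReg (h2 : nuTwo M = 0) (h3 : nuThree M = 0)
    (hMid : s36m_LeafMid M q hq hqM) (hTwo : s36m_LeafTwo M q hq hqM) :
    s36g_LeafReg M q hq hqM := by
  intro K₀ _ _ φ κ _ _ _ G _ hπ hϖ V hP x hx hBF hX m hm0 _
  refine ⟨s36l_leafRegTriple M q hq hqM K₀ φ κ G hπ V hP x hx hBF hX m hm0, ?_, ?_⟩
  · intro i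
    fin_cases i
    · exact s36g_geoRegOnly_0 G φ M q hq hqM hP hπ _ hBF.1 hX m hm0
    · exact hMid K₀ φ κ G hπ hϖ V hP x hx hBF hX m hm0
    · exact s36g_geoRegOnly_2 G φ M q hq hqM hP hπ _ hBF.1 hBF.2.1 hX m hm0
  · intro i
    fin_cases i
    · exact s36m_geoReg2Only_zero_of_baseFull G φ M q hq hqM hπ hP x hx hBF m hm0
    · exact s36m_geoReg2Only_mid_of_baseFull G φ M q hq hqM h2 h3 hπ hϖ hP x hx hBF m hm0
    · exact hTwo K₀ φ κ G hπ hϖ V hP x hx hBF hX m hm0

/-- **`s36g_Core` from (R-q) and the two open (REG) leaves.** -/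
theorem s36m_core_of_open_leaves
    (hX : ∀ (M q : ℕ) [NeZero M] [NeZero q] (hq : q.Prime) (hqM : ¬ q ∣ M), s36g_GoodLevel q M →
      s36g_LeafCross M q hq hqM)
    (hMid : ∀ (M q : ℕ) [NeZero M] [NeZero q] (hq : q.Prime) (hqM : ¬ q ∣ M),
      s36g_GoodLevel q M → s36m_LeafMid M q hq hqM)
    (hTwo : ∀ (M q : ℕ) [NeZero M] [NeZero q] (hq : q.Prime) (hqM : ¬ q ∣ M),
      s36g_GoodLevel q M → s36m_LeafTwo M q hq hqM) : s36g_Core :=
  s36g_core_of_leaves hX fun M q _ _ hq hqM hgood =>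
    s36m_leafReg M q hq hqM hgood.2.1 hgood.2.2.1 (hMid M q hq hqM hgood) (hTwo M q hq hqM hgood)

end Fermat.Agent.Lib.S36
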