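/-
S36 mega-project, sub-layer (R-mid) (helper2, prefix `s36e_`), part 1: THE ABSTRACT FORM of the
regularity statement at a closed point of the special fibre through which ONLY ONE vertical
component `j` passes, this component having a uniformiser `ℓ` of EISENSTEIN TYPE
(`ℓ ^ e / π ≡ unit of B_𝔫` modulo the component, `π` a constant): the points of the level-`M q²`
fibre lying on `C_mid` only (`e = q - 1`, `ℓ = "t₂ - t₀"`).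

Single-level frame of `Lib/S36/QMem.lean` (`O`, `S`, `B = s34x_ring (s34x_infRing O) S`, `𝔫`,
`R = B_𝔫 ⊂ 𝓕` by `s34f_iota`):
* `s36e_dec_of_gen`          : generator form of a uniformiser + rank one ⇒ decomposition form
  `U = t ^ n * unit` (the shape of helper3's `hℓ`);
* `s36e_exists_unit_of_cong` : `x ∈ 𝓕` regular at the places through `𝔫` and congruent to a unit of
  `B_𝔫` modulo the ONLY component through `𝔫` is (the image of) a unit of `B_𝔫`;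
* `s36e_ord_zero`            : `ℓ ^ e / π ≡ unit` ⇒ `ℓ ^ e / π ∈ B_𝔫ˣ` and `ℓ` has no zero at the places
  through `𝔫`;
* `s36e_ker`                 : (K) `ker (red_j) = ℓ B_𝔫`;
* `s36e_branch`              : the input `hℓ` of helper3's `s36y_exists_gen_lifts` at such a point.
Two-level frame of `Lib/S36/QTwo.lean` (`γ : 𝓕₁ → 𝓕₂`, image point `γ⁻¹𝔫` a smooth point
`𝔪 = (u', w')` of the component `i`, `(O₂ j).comap γ = O₁ i`, residue degree one):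
* `s36e_normal_abs`, `s36e_normal` : the branch `B_𝔫 / ℓ` is normal (input `hN` of helper3);
* `s36e_maximalIdeal`        : `𝔪(B_𝔫) = (ℓ, γ u')`;
* `s36e_locEq`               : every place of the chart through `𝔫` has a local equation.
-/
import Fermat.Agent.Lib.S36.QCross
import Fermat.Agent.Lib.S36.QRegular

set_option autoImplicit false

noncomputable section

namespace Fermat.Agent.Lib.S36

open AlgebraicCurve Fermat.Agent.Lib.FF Fermat.Agent.Lib.S18 Fermat.Agent.Lib.S34 IsLocalRing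

/-! ### Uniformisers: generator form ⇒ decomposition form -/

/-- a generator `t` of the non-units of a valuation ring of rank one (`t ^ k * y ∈ V` for `k ≫ 0`)
decomposes every nonzero element as `t ^ n * unit`. -/
theorem s36e_dec_of_gen {𝓕 : Type*} [Field 𝓕] (V : ValuationSubring 𝓕) (t : 𝓕)
    (hgen : ∀ y ∈ V.nonunits, ∃ c ∈ V, y = t * c)
    (harch : ∀ y : 𝓕, ∃ k : ℕ, t ^ k * y ∈ V) :
    ∀ U : 𝓕, U ≠ 0 → ∃ (n : ℤ) (v : 𝓕), v ∈ V ∧ v⁻¹ ∈ V ∧ U = t ^ n * v := by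
  have key : ∀ k : ℕ, ∀ U : 𝓕, U ∈ V → U ≠ 0 → t ^ k * U⁻¹ ∈ V →
      ∃ (n : ℕ) (v : 𝓕), v ∈ V ∧ v⁻¹ ∈ V ∧ U = t ^ n * v := by
    intro k
    induction k with
    | zero =>
      intro U hU _ h
      rw [pow_zero, one_mul] at h
      exact ⟨0, U, hU, h, by rw [pow_zero, one_mul]⟩
    | succ k ih =>
      intro U hU hU0 h
      by_cases hinv : U⁻¹ ∈ V
      · exact ⟨0, U, hU, hinv, by rw [pow_zero, one_mul]⟩
      · have hnu : U ∈ V.nonunits := (V.mem_nonunits_iff_or).mpr (Or.inr hinv)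
        obtain ⟨c, hc, hUc⟩ := hgen U hnu
        have ht0 : t ≠ 0 := by
          rintro rfl
          rw [zero_mul] at hUc
          exact hU0 hUc
        have hc0 : c ≠ 0 := by
          rintro rfl
          rw [mul_zero] at hUc
          exact hU0 hUc
        have h2 : t ^ k * c⁻¹ = t ^ (k + 1) * U⁻¹ := by
          rw [hUc, mul_inv, pow_succ]
          field_simp
        obtain ⟨n, v, hv, hv', hcv⟩ := ih c hc hc0 (by rw [h2]; exact h)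
        exact ⟨n + 1, v, hv, hv', by rw [hUc, hcv, pow_succ]; ring⟩
  intro U hU0
  rcases V.mem_or_inv_mem U with hU | hU
  · obtain ⟨k, hk⟩ := harch U⁻¹
    obtain ⟨n, v, hv, hv', h⟩ := key k U hU hU0 hk
    exact ⟨n, v, hv, hv', by rw [zpow_natCast]; exact h⟩
  · obtain ⟨k, hk⟩ := harch U
    obtain ⟨n, v, hv, hv', h⟩ := key k U⁻¹ hU (inv_ne_zero hU0) (by rw [inv_inv]; exact hk)
    refine ⟨-(n : ℤ), v⁻¹, hv', by rw [inv_inv]; exact hv, ?_⟩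
    rw [zpow_neg, zpow_natCast, ← mul_inv, ← h, inv_inv]

/-! ### The single-level frame -/

section One

variable {L₀ 𝓕 : Type*} [Field L₀] [Field 𝓕] [Algebra L₀ 𝓕]
variable {ι : Type*} [Fintype ι] (O : ι → ValuationSubring 𝓕) (S : Set (Place L₀ 𝓕))
  (𝔫 : Ideal (s34x_ring (s34x_infRing O) S)) [h𝔫 : 𝔫.IsPrime]

/-- **Unit criterion modulo the only component**: `x` regular at the places through `𝔫`, congruent
to a unit of `B_𝔫` modulo the only component `j` through `𝔫`, is (the image of) a unit of `B_𝔫`. -/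
theorem s36e_exists_unit_of_cong (hA : s36q_Arch O) (j : ι) (hj : s36q_compThrough O S 𝔫 j)
    (honly : ∀ i, s36q_compThrough O S 𝔫 i → i = j) (x : 𝓕)
    (hpl : ∀ Q ∈ S, s34f_through (s34x_infRing O) S 𝔫 Q → 0 ≤ Q.ord x)
    (hfin : {Q : Place L₀ 𝓕 | Q ∈ S ∧ Q.ord x < 0}.Finite)
    (z₁ : Localization.AtPrime 𝔫) (hz₁ : IsUnit z₁)
    (hcong : x - s34f_iota (s34x_infRing O) S 𝔫 z₁ ∈ (O j).nonunits) :
    ∃ z : Localization.AtPrime 𝔫, IsUnit z ∧ s34f_iota (s34x_infRing O) S 𝔫 z = x := by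
  have hz₁O : s34f_iota (s34x_infRing O) S 𝔫 z₁ ∈ O j := s36q_iota_mem_comp O S 𝔫 j hj z₁
  have hdO : x - s34f_iota (s34x_infRing O) S 𝔫 z₁ ∈ O j := by
    have := ((O j).mem_nonunits_iff).mp hcong
    exact ((O j).valuation_le_one_iff _).mp this.le
  have hxO : x ∈ O j := by
    have := (O j).add_mem _ _ hdO hz₁O
    rwa [sub_add_cancel] at this
  obtain ⟨z, hz⟩ := s36q_exists_iota_eq O S 𝔫 hA x
    (fun i hi => by rw [honly i hi]; exact hxO) hpl hfin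
  refine ⟨z, ?_, hz⟩
  have hred : s36q_red O S 𝔫 j hj (z - z₁) = 0 := by
    rw [s36q_red_eq_zero_iff, map_sub, hz]
    exact hcong
  have hm := s36q_red_ker_le O S 𝔫 j hj _ hred
  by_contra hnu
  have hzm : z ∈ maximalIdeal (Localization.AtPrime 𝔫) := by
    rw [mem_maximalIdeal, mem_nonunits_iff]; exact hnu
  have : z₁ ∈ maximalIdeal (Localization.AtPrime 𝔫) := by
    have := Ideal.sub_mem _ hzm hm
    rwa [sub_sub_cancel] at this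
  exact (mem_maximalIdeal _).mp this hz₁

/-- **No horizontal zero of an Eisenstein uniformiser**: if `ℓ ^ e / π` (`π` a constant, `e ≠ 0`) is
congruent to a unit of `B_𝔫` modulo the only component through `𝔫`, then it IS a unit of `B_𝔫` and
`ℓ` has order zero at all places of the chart through `𝔫`. -/
theorem s36e_ord_zero (hA : s36q_Arch O) (j : ι) (hj : s36q_compThrough O S 𝔫 j)
    (honly : ∀ i, s36q_compThrough O S 𝔫 i → i = j)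
    (F3 : ∀ y : 𝓕, y ≠ 0 → {Q : Place L₀ 𝓕 | Q ∈ S ∧ Q.ord y ≠ 0}.Finite)
    (ℓ : Localization.AtPrime 𝔫) (e : ℕ) (he : e ≠ 0) (π : 𝓕) (hπ0 : π ≠ 0)
    (hπ : ∀ Q ∈ S, Q.ord π = 0)
    (z₁ : Localization.AtPrime 𝔫) (hz₁ : IsUnit z₁)
    (hcong : s34f_iota (s34x_infRing O) S 𝔫 ℓ ^ e / π - s34f_iota (s34x_infRing O) S 𝔫 z₁ ∈
      (O j).nonunits) :
    s34f_iota (s34x_infRing O) S 𝔫 ℓ ≠ 0 ∧
    (∃ z : Localization.AtPrime 𝔫, IsUnit z ∧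
      s34f_iota (s34x_infRing O) S 𝔫 z = s34f_iota (s34x_infRing O) S 𝔫 ℓ ^ e / π) ∧
    ∀ Q ∈ S, s34f_through (s34x_infRing O) S 𝔫 Q →
      Q.ord (s34f_iota (s34x_infRing O) S 𝔫 ℓ) = 0 := by
  set x : 𝓕 := s34f_iota (s34x_infRing O) S 𝔫 ℓ ^ e / π with hx
  have hℓ0 : s34f_iota (s34x_infRing O) S 𝔫 ℓ ≠ 0 := by
    intro h0
    have hx0 : x = 0 := by rw [hx, h0, zero_pow he, zero_div]
    rw [hx0, zero_sub] at hcong
    have h1 : s34f_iota (s34x_infRing O) S 𝔫 z₁ ∈ (O j).nonunits := by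
      have := ((O j).mem_nonunits_iff).mp hcong
      rw [Valuation.map_neg] at this
      exact ((O j).mem_nonunits_iff).mpr this
    have h2 := s36q_red_ker_le O S 𝔫 j hj z₁ ((s36q_red_eq_zero_iff O S 𝔫 j hj z₁).mpr h1)
    exact (mem_maximalIdeal _).mp h2 hz₁
  have hx0 : x ≠ 0 := div_ne_zero (pow_ne_zero _ hℓ0) hπ0
  have hordx : ∀ Q ∈ S, Q.ord x = (e : ℤ) * Q.ord (s34f_iota (s34x_infRing O) S 𝔫 ℓ) := by
    intro Q hQS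
    rw [hx, div_eq_mul_inv, Q.ord_mul (pow_ne_zero _ hℓ0) (inv_ne_zero hπ0), Q.ord_inv, hπ Q hQS,
      neg_zero, add_zero, ← zpow_natCast, Q.ord_zpow]
  obtain ⟨z, hzu, hz⟩ := s36e_exists_unit_of_cong O S 𝔫 hA j hj honly x
    (fun Q hQS hth => by
      rw [hordx Q hQS]
      exact mul_nonneg (Int.natCast_nonneg e) (s34f_iota_ord_nonneg (s34x_infRing O) S 𝔫 ℓ Q hQS hth))
    ((F3 x hx0).subset fun Q hQ => ⟨hQ.1, fun h => by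
      have h2 : Q.ord x < 0 := hQ.2
      rw [h] at h2
      exact lt_irrefl _ h2⟩)
    z₁ hz₁ hcong
  refine ⟨hℓ0, ⟨z, hzu, hz⟩, ?_⟩
  intro Q hQS hth
  have h1 := s36q_unit_ord_zero O S 𝔫 z hzu Q hQS hth
  rw [hz, hordx Q hQS] at h1
  have he' : (e : ℤ) ≠ 0 := by exact_mod_cast he
  exact (mul_eq_zero.mp h1).resolve_left he'

/-- **(K) at a point on the component `j` only**: `ker (red_j) = ℓ B_𝔫`. -/
theorem s36e_ker (hA : s36q_Arch O) (j : ι) (hj : s36q_compThrough O S 𝔫 j)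
    (honly : ∀ i, s36q_compThrough O S 𝔫 i → i = j)
    (F3 : ∀ y : 𝓕, y ≠ 0 → {Q : Place L₀ 𝓕 | Q ∈ S ∧ Q.ord y ≠ 0}.Finite)
    (ℓ : Localization.AtPrime 𝔫)
    (hgen : ∀ y ∈ (O j).nonunits, ∃ c ∈ O j, y = s34f_iota (s34x_infRing O) S 𝔫 ℓ * c)
    (hord : ∀ Q ∈ S, s34f_through (s34x_infRing O) S 𝔫 Q →
      Q.ord (s34f_iota (s34x_infRing O) S 𝔫 ℓ) = 0)
    (z : Localization.AtPrime 𝔫) (hz : s36q_red O S 𝔫 j hj z = 0) :
    ∃ c : Localization.AtPrime 𝔫, z = ℓ * c :=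
  s36q_ker_local' O S 𝔫 hA j ℓ hgen (fun i hij hi => absurd (honly i hi) hij) hord F3 z
    ((s36q_red_eq_zero_iff O S 𝔫 j hj z).mp hz)

omit [Fintype ι] in
/-- **The branch equation** in the shape of the hypothesis `hℓ` of `s36y_exists_gen_lifts`. -/
theorem s36e_branch (hA : s36q_Arch O) (j : ι)
    (honly : ∀ i, s36q_compThrough O S 𝔫 i → i = j)
    (ℓ : Localization.AtPrime 𝔫)
    (hℓ0 : s34f_iota (s34x_infRing O) S 𝔫 ℓ ≠ 0)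
    (hℓj : s34f_iota (s34x_infRing O) S 𝔫 ℓ ∈ (O j).nonunits)
    (hgen : ∀ y ∈ (O j).nonunits, ∃ c ∈ O j, y = s34f_iota (s34x_infRing O) S 𝔫 ℓ * c)
    (hord : ∀ Q ∈ S, s34f_through (s34x_infRing O) S 𝔫 Q →
      Q.ord (s34f_iota (s34x_infRing O) S 𝔫 ℓ) = 0) :
    ∀ i, s36q_compThrough O S 𝔫 i → ∃ ℓ' : 𝓕, ℓ' ≠ 0 ∧
      (∀ U : 𝓕, U ≠ 0 → ∃ (n : ℤ) (v : 𝓕), v ∈ O i ∧ v⁻¹ ∈ O i ∧ U = ℓ' ^ n * v) ∧
      (∀ k, k ≠ i → s36q_compThrough O S 𝔫 k → ℓ' ∈ O k ∧ ℓ'⁻¹ ∈ O k) ∧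
      (∀ Q ∈ S, s34f_through (s34x_infRing O) S 𝔫 Q → Q.ord ℓ' = 0) := by
  intro i hi
  have hij := honly i hi
  subst hij
  refine ⟨s34f_iota (s34x_infRing O) S 𝔫 ℓ, hℓ0, ?_, ?_, hord⟩
  · refine s36e_dec_of_gen (O i) _ hgen ?_
    intro y
    obtain ⟨k, hk⟩ := hA i _ hℓj hℓ0 y
    exact ⟨k, hk⟩
  · intro k hki hk
    exact absurd (honly k hk) hki

omit [Fintype ι] in
/-- residues of elements of `O j` against reductions of elements of `B_𝔫`. -/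
theorem s36e_residue_eq_red_iff (j : ι) (hj : s36q_compThrough O S 𝔫 j) (y : 𝓕) (hy : y ∈ O j)
    (z : Localization.AtPrime 𝔫) :
    IsLocalRing.residue (O j) ⟨y, hy⟩ = s36q_red O S 𝔫 j hj z ↔
      y - s34f_iota (s34x_infRing O) S 𝔫 z ∈ (O j).nonunits := by
  rw [s36q_red, RingHom.comp_apply, ← sub_eq_zero, ← map_sub, IsLocalRing.residue_eq_zero_iff,
    ← ValuationSubring.coe_mem_nonunits_iff]
  rfl

end One

/-! ### Normality of the branch, abstractly -/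

section Abstract

variable {R' R κ' κ : Type*} [CommRing R'] [IsLocalRing R'] [IsNoetherianRing R']
  [CommRing R] [IsLocalRing R] [CommRing κ'] [IsDomain κ'] [Field κ]

/-- **Normality of the branch** (twin of `s36q_red_gen'`): `R'` a regular local ring `𝔪' = (u', w')`,
`r'` a reduction killing `w'`, `β : R' → R` local with `r ∘ β` and `r'` having the same kernel,
`β u'` in the maximal ideal of `R`.  An element `y = r (β b) / r (β c)` of the residue field whose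
`m`-th power is the reduction of a unit of `R` is the reduction of a unit of `R`. -/
theorem s36e_normal_abs (β : R' →+* R) (r' : R' →+* κ') (r : R →+* κ)
    (hiff : ∀ x, r (β x) = 0 ↔ r' x = 0)
    (u' w' : R') (hm' : maximalIdeal R' = Ideal.span {u', w'}) (hw' : r' w' = 0)
    (hker : ∀ a, r a = 0 → a ∈ maximalIdeal R)
    (hu' : β u' ∈ maximalIdeal R)
    (m : ℕ) (hm : m ≠ 0) (y : κ) (b c : R') (hc : r' c ≠ 0) (hfr : y * r (β c) = r (β b))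
    (a : R) (ha : IsUnit a) (hy : y ^ m = r a) :
    ∃ s : R, IsUnit s ∧ y = r s := by
  have hfac : ∀ x z : R', r' x = r' z → r (β x) = r (β z) := by
    intro x z hxz
    have : r' (x - z) = 0 := by rw [map_sub, hxz, sub_self]
    have h2 := (hiff (x - z)).mpr this
    rw [map_sub, map_sub, sub_eq_zero] at h2
    exact h2
  have hβc : r (β c) ≠ 0 := fun h => hc ((hiff c).mp h)
  have hra : r a ≠ 0 := fun h => (mem_maximalIdeal _).mp (hker a h) ha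
  have hy0 : y ≠ 0 := by
    rintro rfl
    rw [zero_pow hm] at hy
    exact hra hy.symm
  have hb : r' b ≠ 0 := by
    intro h
    have h0 : r (β b) = 0 := (hiff b).mpr h
    rw [h0] at hfr
    rcases mul_eq_zero.mp hfr with h1 | h1
    · exact hy0 h1
    · exact hβc h1
  obtain ⟨k, εc, hεc, hck⟩ := s36q_exists_unit_pow r' u' w' hm' hw' c hc
  obtain ⟨n, εb, hεb, hbn⟩ := s36q_exists_unit_pow r' u' w' hm' hw' b hb
  set T : κ := r (β u') with hT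
  have hck' : r (β c) = r (β εc) * T ^ k := by
    have := hfac c (εc * u' ^ k) (by rw [hck, map_mul, map_pow])
    rw [this, map_mul, map_mul, map_pow, map_pow]
  have hbn' : r (β b) = r (β εb) * T ^ n := by
    have := hfac b (εb * u' ^ n) (by rw [hbn, map_mul, map_pow])
    rw [this, map_mul, map_mul, map_pow, map_pow]
  have hβb : r (β b) ≠ 0 := fun h => hb ((hiff b).mp h)
  have hTk : T ^ k ≠ 0 := by
    intro h0
    apply hβc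
    rw [hck', h0, mul_zero]
  have hTn : T ^ n ≠ 0 := by
    intro h0
    apply hβb
    rw [hbn', h0, mul_zero]
  have hUc : IsUnit (β εc) := hεc.map β
  have hUb : IsUnit (β εb) := hεb.map β
  have hrel : y * r (β εc) * T ^ k = r (β εb) * T ^ n := by
    rw [← hbn', ← hfr, hck']; ring
  rcases lt_trichotomy n k with hnk | hnk | hnk
  · -- `n < k`: impossible
    exfalso
    obtain ⟨d, rfl⟩ : ∃ d, k = n + (d + 1) := ⟨k - n - 1, by omega⟩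
    have h1 : y * r (β εc) * T ^ (d + 1) = r (β εb) := by
      have h2 : (y * r (β εc) * T ^ (d + 1)) * T ^ n = r (β εb) * T ^ n := by
        rw [← hrel, pow_add]; ring
      exact mul_right_cancel₀ hTn h2
    have h3 : r (a * β εc ^ m * (β u' ^ (d + 1)) ^ m - β εb ^ m) = 0 := by
      rw [map_sub, map_mul, map_mul, map_pow, map_pow, map_pow, map_pow, ← hT, ← hy, ← h1]
      ring
    have h4 := hker _ h3
    have h5 : a * β εc ^ m * (β u' ^ (d + 1)) ^ m ∈ maximalIdeal R := by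
      apply Ideal.mul_mem_left
      apply Ideal.pow_mem_of_mem _ _ _ (Nat.pos_of_ne_zero hm)
      exact Ideal.pow_mem_of_mem _ hu' _ (Nat.succ_pos d)
    have h6 : β εb ^ m ∈ maximalIdeal R := by
      have := Ideal.sub_mem _ h5 h4
      rwa [sub_sub_cancel] at this
    exact (mem_maximalIdeal _).mp h6 (hUb.pow m)
  · -- `n = k`
    subst hnk
    have h1 : y * r (β εc) = r (β εb) := mul_right_cancel₀ hTn hrel
    obtain ⟨vc, hvc⟩ := hUc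
    refine ⟨β εb * ((vc⁻¹ : Rˣ) : R), hUb.mul (Units.isUnit _), ?_⟩
    have hinv : r (β εc) * r ((vc⁻¹ : Rˣ) : R) = 1 := by
      rw [← hvc, ← map_mul, Units.mul_inv, map_one]
    rw [map_mul, ← h1]
    linear_combination (-y) * hinv
  · -- `k < n`: impossible
    exfalso
    obtain ⟨d, rfl⟩ : ∃ d, n = k + (d + 1) := ⟨n - k - 1, by omega⟩
    have h1 : y * r (β εc) = r (β εb) * T ^ (d + 1) := by
      have h2 : (y * r (β εc)) * T ^ k = (r (β εb) * T ^ (d + 1)) * T ^ k := by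
        rw [hrel, pow_add]; ring
      exact mul_right_cancel₀ hTk h2
    have h3 : r (a * β εc ^ m - β εb ^ m * (β u' ^ (d + 1)) ^ m) = 0 := by
      rw [map_sub, map_mul, map_mul, map_pow, map_pow, map_pow, map_pow, ← hT, ← hy,
        ← mul_pow, ← mul_pow, h1, sub_self]
    have h4 := hker _ h3
    have h5 : β εb ^ m * (β u' ^ (d + 1)) ^ m ∈ maximalIdeal R := by
      apply Ideal.mul_mem_left
      apply Ideal.pow_mem_of_mem _ _ _ (Nat.pos_of_ne_zero hm)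
      exact Ideal.pow_mem_of_mem _ hu' _ (Nat.succ_pos d)
    have h6 : a * β εc ^ m ∈ maximalIdeal R := by
      have := Ideal.add_mem _ h4 h5
      rwa [sub_add_cancel] at this
    exact (mem_maximalIdeal _).mp h6 (ha.mul (hUc.pow m))

end Abstract

/-! ### The two-level frame -/

section Two

variable {L₀ 𝓕₁ 𝓕₂ : Type*} [Field L₀] [Field 𝓕₁] [Field 𝓕₂] [Algebra L₀ 𝓕₁] [Algebra L₀ 𝓕₂]
variable {ι₁ ι₂ : Type*} (O₁ : ι₁ → ValuationSubring 𝓕₁) (O₂ : ι₂ → ValuationSubring 𝓕₂)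
  (S₁ : Set (Place L₀ 𝓕₁)) (S₂ : Set (Place L₀ 𝓕₂)) (γ : 𝓕₁ →+* 𝓕₂)
  (hγ : ∀ b ∈ s34x_ring (s34x_infRing O₁) S₁, γ b ∈ s34x_ring (s34x_infRing O₂) S₂)
  (𝔫 : Ideal (s34x_ring (s34x_infRing O₂) S₂)) [h𝔫 : 𝔫.IsPrime]
  (i : ι₁) (j : ι₂) (hcomap : ∀ x : 𝓕₁, γ x ∈ O₂ j ↔ x ∈ O₁ i)
  [hB₁ : IsNoetherianRing (s34x_ring (s34x_infRing O₁) S₁)]

include hcomap in
/-- **Normality of the branch `j` at `𝔫`** (hypothesis `hN` of `s36y_exists_gen_lifts`): the image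
point `γ⁻¹𝔫` is a smooth point `𝔪 = (u', w')` of the component `i`, `(O₂ j).comap γ = O₁ i` with
residue degree one. -/
theorem s36e_normal (hj : s36q_compThrough O₂ S₂ 𝔫 j)
    (u' w' : Localization.AtPrime (s36q_pt O₁ O₂ S₁ S₂ γ hγ 𝔫))
    (hm' : maximalIdeal (Localization.AtPrime (s36q_pt O₁ O₂ S₁ S₂ γ hγ 𝔫)) =
      Ideal.span {u', w'})
    (hw' : s34f_iota (s34x_infRing O₁) S₁ (s36q_pt O₁ O₂ S₁ S₂ γ hγ 𝔫) w' ∈ (O₁ i).nonunits)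
    (hfrac : ∀ y ∈ O₂ j, ∃ b c : s34x_ring (s34x_infRing O₁) S₁,
      (c : 𝓕₁) ∉ (O₁ i).nonunits ∧ y * γ (c : 𝓕₁) - γ (b : 𝓕₁) ∈ (O₂ j).nonunits)
    (m : ℕ) (hm : m ≠ 0) (y : 𝓕₂) (hy : y ∈ O₂ j) (a : Localization.AtPrime 𝔫) (ha : IsUnit a)
    (hya : y ^ m - s34f_iota (s34x_infRing O₂) S₂ 𝔫 a ∈ (O₂ j).nonunits) :
    ∃ s : Localization.AtPrime 𝔫, IsUnit s ∧
      y - s34f_iota (s34x_infRing O₂) S₂ 𝔫 s ∈ (O₂ j).nonunits := by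
  have hi : s36q_compThrough O₁ S₁ (s36q_pt O₁ O₂ S₁ S₂ γ hγ 𝔫) i :=
    s36q_compThrough_comap O₁ O₂ S₁ S₂ γ hγ 𝔫 i j hcomap hj
  have : IsNoetherianRing (Localization.AtPrime (s36q_pt O₁ O₂ S₁ S₂ γ hγ 𝔫)) :=
    IsLocalization.isNoetherianRing (s36q_pt O₁ O₂ S₁ S₂ γ hγ 𝔫).primeCompl _ hB₁
  have hu'm : u' ∈ maximalIdeal (Localization.AtPrime (s36q_pt O₁ O₂ S₁ S₂ γ hγ 𝔫)) := by
    rw [hm']; exact Ideal.subset_span (by simp)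
  obtain ⟨b, c, hc, hbc⟩ := hfrac y hy
  have hiff : ∀ x, s36q_red O₂ S₂ 𝔫 j hj (s36q_locMap O₁ O₂ S₁ S₂ γ hγ 𝔫 x) = 0 ↔
      s36q_red O₁ S₁ (s36q_pt O₁ O₂ S₁ S₂ γ hγ 𝔫) i hi x = 0 := by
    intro x
    rw [s36q_red_eq_zero_iff, s36q_red_eq_zero_iff, s36q_iota_locMap]
    exact s36q_nonunits_comap O₁ O₂ γ i j hcomap _
  have hymem : (⟨y, hy⟩ : O₂ j) ^ m = ⟨y ^ m, (O₂ j).pow_mem hy m⟩ := rfl
  obtain ⟨s, hsu, hs⟩ := s36e_normal_abs (s36q_locMap O₁ O₂ S₁ S₂ γ hγ 𝔫)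
    (s36q_red O₁ S₁ (s36q_pt O₁ O₂ S₁ S₂ γ hγ 𝔫) i hi) (s36q_red O₂ S₂ 𝔫 j hj) hiff u' w' hm'
    ((s36q_red_eq_zero_iff _ _ _ _ _ _).mpr hw') (s36q_red_ker_le O₂ S₂ 𝔫 j hj)
    (s36q_locMap_mem_maximalIdeal O₁ O₂ S₁ S₂ γ hγ 𝔫 u' hu'm) m hm
    (IsLocalRing.residue (O₂ j) ⟨y, hy⟩) (algebraMap _ _ b) (algebraMap _ _ c)
    (by rw [Ne, s36q_red_eq_zero_iff, s34f_iota_algebraMap]; exact hc)
    (by
      have hγc : γ (c : 𝓕₁) ∈ O₂ j := by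
        have := s36q_iota_mem_comp O₂ S₂ 𝔫 j hj
          (s36q_locMap O₁ O₂ S₁ S₂ γ hγ 𝔫 (algebraMap _ _ c))
        rwa [s36q_iota_locMap, s34f_iota_algebraMap] at this
      have h1 : IsLocalRing.residue (O₂ j) ⟨y, hy⟩ *
          s36q_red O₂ S₂ 𝔫 j hj (s36q_locMap O₁ O₂ S₁ S₂ γ hγ 𝔫 (algebraMap _ _ c)) =
          IsLocalRing.residue (O₂ j) ⟨y * γ (c : 𝓕₁), (O₂ j).mul_mem _ _ hy hγc⟩ := by
        rw [s36q_red, RingHom.comp_apply, ← map_mul]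
        congr 1
        apply Subtype.ext
        show y * s34f_iota (s34x_infRing O₂) S₂ 𝔫
          (s36q_locMap O₁ O₂ S₁ S₂ γ hγ 𝔫 (algebraMap _ _ c)) = y * γ (c : 𝓕₁)
        rw [s36q_iota_locMap, s34f_iota_algebraMap]
      rw [h1, s36e_residue_eq_red_iff, s36q_iota_locMap, s34f_iota_algebraMap]
      exact hbc)
    a ha
    (by
      rw [← map_pow, hymem, s36e_residue_eq_red_iff]
      exact hya)
  exact ⟨s, hsu, (s36e_residue_eq_red_iff O₂ S₂ 𝔫 j hj y hy s).mp hs⟩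

variable [Fintype ι₂]

include hcomap in
/-- **The package (K), (D) at a point on the Eisenstein component `j` only**: `ℓ` and `γ u'` lie in
the maximal ideal of `B_𝔫`, `ker red_j = ℓ B_𝔫`, `red_j 𝔪 = red_j (γ u') · red_j B_𝔫`, `red_j ℓ = 0`,
`ℓ ≠ 0`, `red_j (γ u') ≠ 0`, and `ℓ` has no zero at the places through `𝔫`. -/
theorem s36e_KD (hA : s36q_Arch O₂) (hj : s36q_compThrough O₂ S₂ 𝔫 j)
    (honly : ∀ k, s36q_compThrough O₂ S₂ 𝔫 k → k = j)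
    (F3 : ∀ y : 𝓕₂, y ≠ 0 → {Q : Place L₀ 𝓕₂ | Q ∈ S₂ ∧ Q.ord y ≠ 0}.Finite)
    (u' w' : Localization.AtPrime (s36q_pt O₁ O₂ S₁ S₂ γ hγ 𝔫))
    (hm' : maximalIdeal (Localization.AtPrime (s36q_pt O₁ O₂ S₁ S₂ γ hγ 𝔫)) =
      Ideal.span {u', w'})
    (hw' : s34f_iota (s34x_infRing O₁) S₁ (s36q_pt O₁ O₂ S₁ S₂ γ hγ 𝔫) w' ∈ (O₁ i).nonunits)
    (hu' : s34f_iota (s34x_infRing O₁) S₁ (s36q_pt O₁ O₂ S₁ S₂ γ hγ 𝔫) u' ∉ (O₁ i).nonunits)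
    (hfrac : ∀ y ∈ O₂ j, ∃ b c : s34x_ring (s34x_infRing O₁) S₁,
      (c : 𝓕₁) ∉ (O₁ i).nonunits ∧ y * γ (c : 𝓕₁) - γ (b : 𝓕₁) ∈ (O₂ j).nonunits)
    (ℓ : Localization.AtPrime 𝔫)
    (hℓj : s34f_iota (s34x_infRing O₂) S₂ 𝔫 ℓ ∈ (O₂ j).nonunits)
    (hgen : ∀ y ∈ (O₂ j).nonunits, ∃ c ∈ O₂ j, y = s34f_iota (s34x_infRing O₂) S₂ 𝔫 ℓ * c)
    (e : ℕ) (he : e ≠ 0) (π : 𝓕₂) (hπ0 : π ≠ 0) (hπ : ∀ Q ∈ S₂, Q.ord π = 0)
    (z₁ : Localization.AtPrime 𝔫) (hz₁ : IsUnit z₁)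
    (hcong : s34f_iota (s34x_infRing O₂) S₂ 𝔫 ℓ ^ e / π - s34f_iota (s34x_infRing O₂) S₂ 𝔫 z₁ ∈
      (O₂ j).nonunits) :
    ℓ ∈ maximalIdeal (Localization.AtPrime 𝔫) ∧
    s36q_locMap O₁ O₂ S₁ S₂ γ hγ 𝔫 u' ∈ maximalIdeal (Localization.AtPrime 𝔫) ∧
    (∀ a, s36q_red O₂ S₂ 𝔫 j hj a = 0 → ∃ c, a = ℓ * c) ∧
    (∀ a ∈ maximalIdeal (Localization.AtPrime 𝔫), ∃ c, s36q_red O₂ S₂ 𝔫 j hj a =
      s36q_red O₂ S₂ 𝔫 j hj c * s36q_red O₂ S₂ 𝔫 j hj (s36q_locMap O₁ O₂ S₁ S₂ γ hγ 𝔫 u')) ∧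
    s36q_red O₂ S₂ 𝔫 j hj ℓ = 0 ∧ ℓ ≠ 0 ∧
    s36q_red O₂ S₂ 𝔫 j hj (s36q_locMap O₁ O₂ S₁ S₂ γ hγ 𝔫 u') ≠ 0 ∧
    (∀ Q ∈ S₂, s34f_through (s34x_infRing O₂) S₂ 𝔫 Q →
      Q.ord (s34f_iota (s34x_infRing O₂) S₂ 𝔫 ℓ) = 0) ∧
    ∃ z : Localization.AtPrime 𝔫, IsUnit z ∧
      s34f_iota (s34x_infRing O₂) S₂ 𝔫 z = s34f_iota (s34x_infRing O₂) S₂ 𝔫 ℓ ^ e / π := by
  obtain ⟨hℓ0, hunit, hord⟩ := s36e_ord_zero O₂ S₂ 𝔫 hA j hj honly F3 ℓ e he π hπ0 hπ z₁ hz₁ hcong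
  have hredℓ : s36q_red O₂ S₂ 𝔫 j hj ℓ = 0 := (s36q_red_eq_zero_iff O₂ S₂ 𝔫 j hj ℓ).mpr hℓj
  have hu'm : u' ∈ maximalIdeal (Localization.AtPrime (s36q_pt O₁ O₂ S₁ S₂ γ hγ 𝔫)) := by
    rw [hm']; exact Ideal.subset_span (by simp)
  refine ⟨s36q_red_ker_le O₂ S₂ 𝔫 j hj ℓ hredℓ,
    s36q_locMap_mem_maximalIdeal O₁ O₂ S₁ S₂ γ hγ 𝔫 u' hu'm,
    fun a ha => s36e_ker O₂ S₂ 𝔫 hA j hj honly F3 ℓ hgen hord a ha,
    fun a ha => s36q_D_chart O₁ O₂ S₁ S₂ γ hγ 𝔫 i j hcomap hj u' w' hm' hw' hfrac a ha,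
    hredℓ, ?_, ?_, hord, hunit⟩
  · intro h0
    apply hℓ0
    rw [h0, map_zero]
  · rw [Ne, s36q_red_eq_zero_iff, s36q_iota_locMap]
    intro h
    exact hu' ((s36q_nonunits_comap O₁ O₂ γ i j hcomap _).mp h)

include hcomap in
/-- **`𝔪(B_𝔫) = (ℓ, γ u')`** at a point on the Eisenstein component only. -/
theorem s36e_maximalIdeal (hA : s36q_Arch O₂) (hj : s36q_compThrough O₂ S₂ 𝔫 j)
    (honly : ∀ k, s36q_compThrough O₂ S₂ 𝔫 k → k = j)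
    (F3 : ∀ y : 𝓕₂, y ≠ 0 → {Q : Place L₀ 𝓕₂ | Q ∈ S₂ ∧ Q.ord y ≠ 0}.Finite)
    (u' w' : Localization.AtPrime (s36q_pt O₁ O₂ S₁ S₂ γ hγ 𝔫))
    (hm' : maximalIdeal (Localization.AtPrime (s36q_pt O₁ O₂ S₁ S₂ γ hγ 𝔫)) =
      Ideal.span {u', w'})
    (hw' : s34f_iota (s34x_infRing O₁) S₁ (s36q_pt O₁ O₂ S₁ S₂ γ hγ 𝔫) w' ∈ (O₁ i).nonunits)
    (hu' : s34f_iota (s34x_infRing O₁) S₁ (s36q_pt O₁ O₂ S₁ S₂ γ hγ 𝔫) u' ∉ (O₁ i).nonunits)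
    (hfrac : ∀ y ∈ O₂ j, ∃ b c : s34x_ring (s34x_infRing O₁) S₁,
      (c : 𝓕₁) ∉ (O₁ i).nonunits ∧ y * γ (c : 𝓕₁) - γ (b : 𝓕₁) ∈ (O₂ j).nonunits)
    (ℓ : Localization.AtPrime 𝔫)
    (hℓj : s34f_iota (s34x_infRing O₂) S₂ 𝔫 ℓ ∈ (O₂ j).nonunits)
    (hgen : ∀ y ∈ (O₂ j).nonunits, ∃ c ∈ O₂ j, y = s34f_iota (s34x_infRing O₂) S₂ 𝔫 ℓ * c)
    (e : ℕ) (he : e ≠ 0) (π : 𝓕₂) (hπ0 : π ≠ 0) (hπ : ∀ Q ∈ S₂, Q.ord π = 0)
    (z₁ : Localization.AtPrime 𝔫) (hz₁ : IsUnit z₁)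
    (hcong : s34f_iota (s34x_infRing O₂) S₂ 𝔫 ℓ ^ e / π - s34f_iota (s34x_infRing O₂) S₂ 𝔫 z₁ ∈
      (O₂ j).nonunits) :
    maximalIdeal (Localization.AtPrime 𝔫) =
      Ideal.span {ℓ, s36q_locMap O₁ O₂ S₁ S₂ γ hγ 𝔫 u'} := by
  obtain ⟨hw, hs, hK, hD, -, -, -, -, -⟩ := s36e_KD O₁ O₂ S₁ S₂ γ hγ 𝔫 i j hcomap hA hj honly F3
    u' w' hm' hw' hu' hfrac ℓ hℓj hgen e he π hπ0 hπ z₁ hz₁ hcong
  exact s36q_maximalIdeal_eq_span_pair (s36q_red O₂ S₂ 𝔫 j hj) ℓ _ hw hs hK hD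

variable [hB₂ : IsNoetherianRing (s34x_ring (s34x_infRing O₂) S₂)]

include hcomap in
/-- **Local equations at a point on the Eisenstein component only**: every place of the chart
through `𝔫` (of any degree) has a local equation. -/
theorem s36e_locEq (hA : s36q_Arch O₂) (hj : s36q_compThrough O₂ S₂ 𝔫 j)
    (honly : ∀ k, s36q_compThrough O₂ S₂ 𝔫 k → k = j)
    (F3 : ∀ y : 𝓕₂, y ≠ 0 → {Q : Place L₀ 𝓕₂ | Q ∈ S₂ ∧ Q.ord y ≠ 0}.Finite)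
    (u' w' : Localization.AtPrime (s36q_pt O₁ O₂ S₁ S₂ γ hγ 𝔫))
    (hm' : maximalIdeal (Localization.AtPrime (s36q_pt O₁ O₂ S₁ S₂ γ hγ 𝔫)) =
      Ideal.span {u', w'})
    (hw' : s34f_iota (s34x_infRing O₁) S₁ (s36q_pt O₁ O₂ S₁ S₂ γ hγ 𝔫) w' ∈ (O₁ i).nonunits)
    (hu' : s34f_iota (s34x_infRing O₁) S₁ (s36q_pt O₁ O₂ S₁ S₂ γ hγ 𝔫) u' ∉ (O₁ i).nonunits)
    (hfrac : ∀ y ∈ O₂ j, ∃ b c : s34x_ring (s34x_infRing O₁) S₁,
      (c : 𝓕₁) ∉ (O₁ i).nonunits ∧ y * γ (c : 𝓕₁) - γ (b : 𝓕₁) ∈ (O₂ j).nonunits)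
    (ℓ : Localization.AtPrime 𝔫)
    (hℓj : s34f_iota (s34x_infRing O₂) S₂ 𝔫 ℓ ∈ (O₂ j).nonunits)
    (hgen : ∀ y ∈ (O₂ j).nonunits, ∃ c ∈ O₂ j, y = s34f_iota (s34x_infRing O₂) S₂ 𝔫 ℓ * c)
    (e : ℕ) (he : e ≠ 0) (π : 𝓕₂) (hπ0 : π ≠ 0) (hπ : ∀ Q ∈ S₂, Q.ord π = 0)
    (z₁ : Localization.AtPrime 𝔫) (hz₁ : IsUnit z₁)
    (hcong : s34f_iota (s34x_infRing O₂) S₂ 𝔫 ℓ ^ e / π - s34f_iota (s34x_infRing O₂) S₂ 𝔫 z₁ ∈
      (O₂ j).nonunits)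
    (Q : Place L₀ 𝓕₂) (hQS : Q ∈ S₂) (hth : s34f_through (s34x_infRing O₂) S₂ 𝔫 Q)
    (b : s34x_ring (s34x_infRing O₂) S₂) (hb : b ∈ 𝔫) (hb0 : (b : 𝓕₂) ≠ 0)
    (hbQ : Q.ord (b : 𝓕₂) = 0)
    (F1 : ∃ u : s34x_ring (s34x_infRing O₂) S₂, Q.ord (u : 𝓕₂) = 1)
    (F2 : ∀ Q' ∈ S₂, Q' ≠ Q → ∃ y : s34x_ring (s34x_infRing O₂) S₂,
      0 < Q.ord (y : 𝓕₂) ∧ Q'.ord (y : 𝓕₂) = 0) :
    s34f_LocEq (s34x_infRing O₂) S₂ 𝔫 Q := by
  obtain ⟨hw, hs, hK, hD, hrw, hw0, hrs, -, -⟩ := s36e_KD O₁ O₂ S₁ S₂ γ hγ 𝔫 i j hcomap hA hj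
    honly F3 u' w' hm' hw' hu' hfrac ℓ hℓj hgen e he π hπ0 hπ z₁ hz₁ hcong
  exact s36q_locEq_of_red (s34x_infRing O₂) S₂ 𝔫 Q hQS hth (s36q_red O₂ S₂ 𝔫 j hj) ℓ _ hw hs hK hD
    hrw hw0 hrs b hb hb0 hbQ F1 F2

end Two

end Fermat.Agent.Lib.S36
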