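/-
S36 project, geometry layer (X1) (helper9, prefix `s36p_`): THE LOCAL TWO-LEVEL FRAME.

Helper5's two-level frame (`QTwo.lean`) needs the GLOBAL chart inclusion `γ(B₁) ⊆ B₂`.  At the polar
points of chart 2 of `w = j(z)` lying on `V 2` the relevant embedding is `γ = β'`, and
`β'(B₁(chart2 w₁)) ⊄ B₂(chart2 w)` (the set `{j(z) ≠ 0}` is not saturated under the Hecke
correspondence); only the LOCAL inclusion `γ(B₁) ⊆ (B₂)_𝔫` holds.  This file redoes the frame with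

  `hγ : ∀ b ∈ B₁, ∃ z : (B₂)_𝔫, ι₂ z = γ b`

* `s36p_lchartMap : B₁ →+* (B₂)_𝔫`, `s36p_lpt = (lchartMap)⁻¹ 𝔪` (the image point), the local
  homomorphism `s36p_llocMap : (B₁)_{lpt} →+* (B₂)_𝔫` with `ι₂ ∘ llocMap = γ ∘ ι₁`;
* `s36p_compThrough_lpt`, `s36p_D_loc` (twins of `s36q_compThrough_comap`, `s36q_D_chart`);
* `s36p_normal_loc`, `s36p_KD_loc`, `s36p_locEq_loc` (twins of helper2's `s36e_normal`, `s36e_KD`,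
  `s36e_locEq`);
* **`s36p_out_reg_loc`** : `s36p_LocalReg O₂ S₂ 𝔫 m` at a point on ONE unramified component (twin of
  lead's `s36e_out_reg_abs`).
-/
import Fermat.Agent.Lib.S36.REisAbs
import Fermat.Agent.Lib.S36.PCase

set_option autoImplicit false
set_option linter.unusedSectionVars false
set_option linter.style.haveILetI false

noncomputable section

namespace Fermat.Agent.Lib.S36

open AlgebraicCurve Fermat.Agent.Lib.FF Fermat.Agent.Lib.S18 Fermat.Agent.Lib.S34 IsLocalRing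

variable {L₀ 𝓕₁ 𝓕₂ : Type*} [Field L₀] [Field 𝓕₁] [Field 𝓕₂] [Algebra L₀ 𝓕₁] [Algebra L₀ 𝓕₂]
variable {ι₁ ι₂ : Type*} (O₁ : ι₁ → ValuationSubring 𝓕₁) (O₂ : ι₂ → ValuationSubring 𝓕₂)
  (S₁ : Set (Place L₀ 𝓕₁)) (S₂ : Set (Place L₀ 𝓕₂)) (γ : 𝓕₁ →+* 𝓕₂)
  (𝔫 : Ideal (s34x_ring (s34x_infRing O₂) S₂)) [h𝔫 : 𝔫.IsPrime]
  (hγ : ∀ b ∈ s34x_ring (s34x_infRing O₁) S₁, ∃ z : Localization.AtPrime 𝔫,
    s34f_iota (s34x_infRing O₂) S₂ 𝔫 z = γ b)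

/-- the map of the chart ring of level one into the LOCAL ring of level two induced by `γ`. -/
def s36p_lchartMap : s34x_ring (s34x_infRing O₁) S₁ →+* Localization.AtPrime 𝔫 where
  toFun b := Classical.choose (hγ b b.2)
  map_one' := by
    apply s34f_iota_injective (s34x_infRing O₂) S₂ 𝔫
    rw [Classical.choose_spec (hγ _ (1 : s34x_ring (s34x_infRing O₁) S₁).2), map_one]
    exact map_one γ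
  map_mul' x y := by
    apply s34f_iota_injective (s34x_infRing O₂) S₂ 𝔫
    rw [map_mul, Classical.choose_spec (hγ _ (x * y).2), Classical.choose_spec (hγ _ x.2),
      Classical.choose_spec (hγ _ y.2)]
    exact map_mul γ _ _
  map_zero' := by
    apply s34f_iota_injective (s34x_infRing O₂) S₂ 𝔫
    rw [Classical.choose_spec (hγ _ (0 : s34x_ring (s34x_infRing O₁) S₁).2), map_zero]
    exact map_zero γ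
  map_add' x y := by
    apply s34f_iota_injective (s34x_infRing O₂) S₂ 𝔫
    rw [map_add, Classical.choose_spec (hγ _ (x + y).2), Classical.choose_spec (hγ _ x.2),
      Classical.choose_spec (hγ _ y.2)]
    exact map_add γ _ _

theorem s36p_iota_lchartMap (b : s34x_ring (s34x_infRing O₁) S₁) :
    s34f_iota (s34x_infRing O₂) S₂ 𝔫 (s36p_lchartMap O₁ O₂ S₁ S₂ γ 𝔫 hγ b) = γ (b : 𝓕₁) :=
  Classical.choose_spec (hγ b b.2)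

/-- the image point. -/
abbrev s36p_lpt : Ideal (s34x_ring (s34x_infRing O₁) S₁) :=
  (maximalIdeal (Localization.AtPrime 𝔫)).comap (s36p_lchartMap O₁ O₂ S₁ S₂ γ 𝔫 hγ)

theorem s36p_lchartMap_isUnit (y : (s36p_lpt O₁ O₂ S₁ S₂ γ 𝔫 hγ).primeCompl) :
    IsUnit (s36p_lchartMap O₁ O₂ S₁ S₂ γ 𝔫 hγ y) := by
  have h : (y : s34x_ring (s34x_infRing O₁) S₁) ∉ s36p_lpt O₁ O₂ S₁ S₂ γ 𝔫 hγ := y.2
  rw [Ideal.mem_comap, mem_maximalIdeal, mem_nonunits_iff, not_not] at h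
  exact h

/-- the local homomorphism `(B₁)_{lpt} → (B₂)_𝔫`. -/
def s36p_llocMap :
    Localization.AtPrime (s36p_lpt O₁ O₂ S₁ S₂ γ 𝔫 hγ) →+* Localization.AtPrime 𝔫 :=
  IsLocalization.lift (M := (s36p_lpt O₁ O₂ S₁ S₂ γ 𝔫 hγ).primeCompl)
    (g := s36p_lchartMap O₁ O₂ S₁ S₂ γ 𝔫 hγ) (s36p_lchartMap_isUnit O₁ O₂ S₁ S₂ γ 𝔫 hγ)

@[simp]
theorem s36p_llocMap_algebraMap (b : s34x_ring (s34x_infRing O₁) S₁) :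
    s36p_llocMap O₁ O₂ S₁ S₂ γ 𝔫 hγ (algebraMap _ _ b) = s36p_lchartMap O₁ O₂ S₁ S₂ γ 𝔫 hγ b :=
  IsLocalization.lift_eq _ _

/-- `ι₂ ∘ llocMap = γ ∘ ι₁`. -/
theorem s36p_iota_llocMap (z : Localization.AtPrime (s36p_lpt O₁ O₂ S₁ S₂ γ 𝔫 hγ)) :
    s34f_iota (s34x_infRing O₂) S₂ 𝔫 (s36p_llocMap O₁ O₂ S₁ S₂ γ 𝔫 hγ z) =
      γ (s34f_iota (s34x_infRing O₁) S₁ (s36p_lpt O₁ O₂ S₁ S₂ γ 𝔫 hγ) z) := by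
  have h : ((s34f_iota (s34x_infRing O₂) S₂ 𝔫).comp (s36p_llocMap O₁ O₂ S₁ S₂ γ 𝔫 hγ)) =
      (γ.comp (s34f_iota (s34x_infRing O₁) S₁ (s36p_lpt O₁ O₂ S₁ S₂ γ 𝔫 hγ))) := by
    apply IsLocalization.ringHom_ext (s36p_lpt O₁ O₂ S₁ S₂ γ 𝔫 hγ).primeCompl
    ext b
    simp only [RingHom.comp_apply, s36p_llocMap_algebraMap, s34f_iota_algebraMap,
      s36p_iota_lchartMap]
  exact RingHom.congr_fun h z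

/-- the image of a maximal-ideal element is in the maximal ideal. -/
theorem s36p_llocMap_mem_maximalIdeal
    (z : Localization.AtPrime (s36p_lpt O₁ O₂ S₁ S₂ γ 𝔫 hγ))
    (hz : z ∈ maximalIdeal (Localization.AtPrime (s36p_lpt O₁ O₂ S₁ S₂ γ 𝔫 hγ))) :
    s36p_llocMap O₁ O₂ S₁ S₂ γ 𝔫 hγ z ∈ maximalIdeal (Localization.AtPrime 𝔫) := by
  obtain ⟨b, s, hs, h⟩ := s34f_exists_frac (s34x_infRing O₁) S₁ (s36p_lpt O₁ O₂ S₁ S₂ γ 𝔫 hγ) z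
  -- `z * s = b`
  have hb : b ∈ s36p_lpt O₁ O₂ S₁ S₂ γ 𝔫 hγ := by
    by_contra hb
    have hbu : IsUnit (algebraMap (s34x_ring (s34x_infRing O₁) S₁)
        (Localization.AtPrime (s36p_lpt O₁ O₂ S₁ S₂ γ 𝔫 hγ)) b) :=
      IsLocalization.map_units _ (⟨b, hb⟩ : (s36p_lpt O₁ O₂ S₁ S₂ γ 𝔫 hγ).primeCompl)
    rw [← h] at hbu
    have hzu : IsUnit z := isUnit_of_mul_isUnit_left hbu
    exact (mem_nonunits_iff.mp ((mem_maximalIdeal _).mp hz)) hzu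
  have h1 := congrArg (s36p_llocMap O₁ O₂ S₁ S₂ γ 𝔫 hγ) h
  rw [map_mul, s36p_llocMap_algebraMap, s36p_llocMap_algebraMap] at h1
  have hbm : s36p_lchartMap O₁ O₂ S₁ S₂ γ 𝔫 hγ b ∈ maximalIdeal (Localization.AtPrime 𝔫) := hb
  have hsu : IsUnit (s36p_lchartMap O₁ O₂ S₁ S₂ γ 𝔫 hγ s) :=
    s36p_lchartMap_isUnit O₁ O₂ S₁ S₂ γ 𝔫 hγ ⟨s, hs⟩
  rw [← h1] at hbm
  exact ((Ideal.IsPrime.mem_or_mem (Ideal.IsMaximal.isPrime' _) hbm).resolve_right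
    (fun h' => (mem_nonunits_iff.mp ((mem_maximalIdeal _).mp h')) hsu))

section Comap

variable (i : ι₁) (j : ι₂) (hcomap : ∀ x : 𝓕₁, γ x ∈ O₂ j ↔ x ∈ O₁ i)

include hcomap in
/-- a component through `𝔫` restricts to a component through the image point. -/
theorem s36p_compThrough_lpt (hj : s36q_compThrough O₂ S₂ 𝔫 j) :
    s36q_compThrough O₁ S₁ (s36p_lpt O₁ O₂ S₁ S₂ γ 𝔫 hγ) i := by
  intro b hb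
  show s36p_lchartMap O₁ O₂ S₁ S₂ γ 𝔫 hγ b ∈ maximalIdeal (Localization.AtPrime 𝔫)
  apply s36q_red_ker_le O₂ S₂ 𝔫 j hj
  rw [s36q_red_eq_zero_iff, s36p_iota_lchartMap]
  exact (s36q_nonunits_comap O₁ O₂ γ i j hcomap _).mpr hb

variable [hB₁ : IsNoetherianRing (s34x_ring (s34x_infRing O₁) S₁)]

include hcomap in
/-- **(D) in the local frame** (twin of `s36q_D_chart`). -/
theorem s36p_D_loc (hj : s36q_compThrough O₂ S₂ 𝔫 j)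
    (u' w' : Localization.AtPrime (s36p_lpt O₁ O₂ S₁ S₂ γ 𝔫 hγ))
    (hm' : maximalIdeal (Localization.AtPrime (s36p_lpt O₁ O₂ S₁ S₂ γ 𝔫 hγ)) =
      Ideal.span {u', w'})
    (hw' : s34f_iota (s34x_infRing O₁) S₁ (s36p_lpt O₁ O₂ S₁ S₂ γ 𝔫 hγ) w' ∈ (O₁ i).nonunits)
    (hfrac : ∀ y ∈ O₂ j, ∃ b c : s34x_ring (s34x_infRing O₁) S₁,
      (c : 𝓕₁) ∉ (O₁ i).nonunits ∧ y * γ (c : 𝓕₁) - γ (b : 𝓕₁) ∈ (O₂ j).nonunits)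
    (a : Localization.AtPrime 𝔫) (ha : a ∈ maximalIdeal (Localization.AtPrime 𝔫)) :
    ∃ c, s36q_red O₂ S₂ 𝔫 j hj a = s36q_red O₂ S₂ 𝔫 j hj c *
      s36q_red O₂ S₂ 𝔫 j hj (s36p_llocMap O₁ O₂ S₁ S₂ γ 𝔫 hγ u') := by
  have hi : s36q_compThrough O₁ S₁ (s36p_lpt O₁ O₂ S₁ S₂ γ 𝔫 hγ) i :=
    s36p_compThrough_lpt O₁ O₂ S₁ S₂ γ 𝔫 hγ i j hcomap hj
  haveI : IsNoetherianRing (Localization.AtPrime (s36p_lpt O₁ O₂ S₁ S₂ γ 𝔫 hγ)) :=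
    IsLocalization.isNoetherianRing (s36p_lpt O₁ O₂ S₁ S₂ γ 𝔫 hγ).primeCompl _ hB₁
  refine s36q_red_gen' (s36p_llocMap O₁ O₂ S₁ S₂ γ 𝔫 hγ)
    (s36q_red O₁ S₁ (s36p_lpt O₁ O₂ S₁ S₂ γ 𝔫 hγ) i hi) (s36q_red O₂ S₂ 𝔫 j hj) ?_ u' w' hm' ?_
    (s36q_red_ker_le O₂ S₂ 𝔫 j hj) ?_ a ha
  · intro x
    rw [s36q_red_eq_zero_iff, s36q_red_eq_zero_iff, s36p_iota_llocMap]
    exact s36q_nonunits_comap O₁ O₂ γ i j hcomap _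
  · rw [s36q_red_eq_zero_iff]; exact hw'
  · intro a
    obtain ⟨b, c, hc, hbc⟩ := hfrac _ (s36q_iota_mem_comp O₂ S₂ 𝔫 j hj a)
    refine ⟨algebraMap _ _ b, algebraMap _ _ c, ?_, ?_⟩
    · rw [Ne, s36q_red_eq_zero_iff, s34f_iota_algebraMap]; exact hc
    · rw [← map_mul, ← sub_eq_zero, ← map_sub, s36q_red_eq_zero_iff, map_sub, map_mul,
        s36p_iota_llocMap, s36p_iota_llocMap, s34f_iota_algebraMap, s34f_iota_algebraMap]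
      exact hbc

include hcomap in
/-- **Normality of the branch `j` at `𝔫`** in the local frame (twin of `s36e_normal`). -/
theorem s36p_normal_loc (hj : s36q_compThrough O₂ S₂ 𝔫 j)
    (u' w' : Localization.AtPrime (s36p_lpt O₁ O₂ S₁ S₂ γ 𝔫 hγ))
    (hm' : maximalIdeal (Localization.AtPrime (s36p_lpt O₁ O₂ S₁ S₂ γ 𝔫 hγ)) =
      Ideal.span {u', w'})
    (hw' : s34f_iota (s34x_infRing O₁) S₁ (s36p_lpt O₁ O₂ S₁ S₂ γ 𝔫 hγ) w' ∈ (O₁ i).nonunits)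
    (hfrac : ∀ y ∈ O₂ j, ∃ b c : s34x_ring (s34x_infRing O₁) S₁,
      (c : 𝓕₁) ∉ (O₁ i).nonunits ∧ y * γ (c : 𝓕₁) - γ (b : 𝓕₁) ∈ (O₂ j).nonunits)
    (m : ℕ) (hm : m ≠ 0) (y : 𝓕₂) (hy : y ∈ O₂ j) (a : Localization.AtPrime 𝔫) (ha : IsUnit a)
    (hya : y ^ m - s34f_iota (s34x_infRing O₂) S₂ 𝔫 a ∈ (O₂ j).nonunits) :
    ∃ s : Localization.AtPrime 𝔫, IsUnit s ∧
      y - s34f_iota (s34x_infRing O₂) S₂ 𝔫 s ∈ (O₂ j).nonunits := by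
  have hi : s36q_compThrough O₁ S₁ (s36p_lpt O₁ O₂ S₁ S₂ γ 𝔫 hγ) i :=
    s36p_compThrough_lpt O₁ O₂ S₁ S₂ γ 𝔫 hγ i j hcomap hj
  have : IsNoetherianRing (Localization.AtPrime (s36p_lpt O₁ O₂ S₁ S₂ γ 𝔫 hγ)) :=
    IsLocalization.isNoetherianRing (s36p_lpt O₁ O₂ S₁ S₂ γ 𝔫 hγ).primeCompl _ hB₁
  have hu'm : u' ∈ maximalIdeal (Localization.AtPrime (s36p_lpt O₁ O₂ S₁ S₂ γ 𝔫 hγ)) := by
    rw [hm']; exact Ideal.subset_span (by simp)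
  obtain ⟨b, c, hc, hbc⟩ := hfrac y hy
  have hiff : ∀ x, s36q_red O₂ S₂ 𝔫 j hj (s36p_llocMap O₁ O₂ S₁ S₂ γ 𝔫 hγ x) = 0 ↔
      s36q_red O₁ S₁ (s36p_lpt O₁ O₂ S₁ S₂ γ 𝔫 hγ) i hi x = 0 := by
    intro x
    rw [s36q_red_eq_zero_iff, s36q_red_eq_zero_iff, s36p_iota_llocMap]
    exact s36q_nonunits_comap O₁ O₂ γ i j hcomap _
  have hymem : (⟨y, hy⟩ : O₂ j) ^ m = ⟨y ^ m, (O₂ j).pow_mem hy m⟩ := rfl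
  obtain ⟨s, hsu, hs⟩ := s36e_normal_abs (s36p_llocMap O₁ O₂ S₁ S₂ γ 𝔫 hγ)
    (s36q_red O₁ S₁ (s36p_lpt O₁ O₂ S₁ S₂ γ 𝔫 hγ) i hi) (s36q_red O₂ S₂ 𝔫 j hj) hiff u' w' hm'
    ((s36q_red_eq_zero_iff _ _ _ _ _ _).mpr hw') (s36q_red_ker_le O₂ S₂ 𝔫 j hj)
    (s36p_llocMap_mem_maximalIdeal O₁ O₂ S₁ S₂ γ 𝔫 hγ u' hu'm) m hm
    (IsLocalRing.residue (O₂ j) ⟨y, hy⟩) (algebraMap _ _ b) (algebraMap _ _ c)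
    (by rw [Ne, s36q_red_eq_zero_iff, s34f_iota_algebraMap]; exact hc)
    (by
      have hγc : γ (c : 𝓕₁) ∈ O₂ j := by
        have := s36q_iota_mem_comp O₂ S₂ 𝔫 j hj
          (s36p_llocMap O₁ O₂ S₁ S₂ γ 𝔫 hγ (algebraMap _ _ c))
        rwa [s36p_iota_llocMap, s34f_iota_algebraMap] at this
      have h1 : IsLocalRing.residue (O₂ j) ⟨y, hy⟩ *
          s36q_red O₂ S₂ 𝔫 j hj (s36p_llocMap O₁ O₂ S₁ S₂ γ 𝔫 hγ (algebraMap _ _ c)) =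
          IsLocalRing.residue (O₂ j) ⟨y * γ (c : 𝓕₁), (O₂ j).mul_mem _ _ hy hγc⟩ := by
        rw [s36q_red, RingHom.comp_apply, ← map_mul]
        congr 1
        apply Subtype.ext
        show y * s34f_iota (s34x_infRing O₂) S₂ 𝔫
          (s36p_llocMap O₁ O₂ S₁ S₂ γ 𝔫 hγ (algebraMap _ _ c)) = y * γ (c : 𝓕₁)
        rw [s36p_iota_llocMap, s34f_iota_algebraMap]
      rw [h1, s36e_residue_eq_red_iff, s36p_iota_llocMap, s34f_iota_algebraMap]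
      exact hbc)
    a ha
    (by
      rw [← map_pow, hymem, s36e_residue_eq_red_iff]
      exact hya)
  exact ⟨s, hsu, (s36e_residue_eq_red_iff O₂ S₂ 𝔫 j hj y hy s).mp hs⟩

variable [Fintype ι₂]

include hcomap in
/-- **The package (K), (D)** in the local frame (twin of `s36e_KD`). -/
theorem s36p_KD_loc (hA : s36q_Arch O₂) (hj : s36q_compThrough O₂ S₂ 𝔫 j)
    (honly : ∀ k, s36q_compThrough O₂ S₂ 𝔫 k → k = j)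
    (F3 : ∀ y : 𝓕₂, y ≠ 0 → {Q : Place L₀ 𝓕₂ | Q ∈ S₂ ∧ Q.ord y ≠ 0}.Finite)
    (u' w' : Localization.AtPrime (s36p_lpt O₁ O₂ S₁ S₂ γ 𝔫 hγ))
    (hm' : maximalIdeal (Localization.AtPrime (s36p_lpt O₁ O₂ S₁ S₂ γ 𝔫 hγ)) =
      Ideal.span {u', w'})
    (hw' : s34f_iota (s34x_infRing O₁) S₁ (s36p_lpt O₁ O₂ S₁ S₂ γ 𝔫 hγ) w' ∈ (O₁ i).nonunits)
    (hu' : s34f_iota (s34x_infRing O₁) S₁ (s36p_lpt O₁ O₂ S₁ S₂ γ 𝔫 hγ) u' ∉ (O₁ i).nonunits)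
    (hfrac : ∀ y ∈ O₂ j, ∃ b c : s34x_ring (s34x_infRing O₁) S₁,
      (c : 𝓕₁) ∉ (O₁ i).nonunits ∧ y * γ (c : 𝓕₁) - γ (b : 𝓕₁) ∈ (O₂ j).nonunits)
    (ℓ : Localization.AtPrime 𝔫)
    (hℓj : s34f_iota (s34x_infRing O₂) S₂ 𝔫 ℓ ∈ (O₂ j).nonunits)
    (hgen : ∀ y ∈ (O₂ j).nonunits, ∃ c ∈ O₂ j, y = s34f_iota (s34x_infRing O₂) S₂ 𝔫 ℓ * c)
    (e : ℕ) (he : e ≠ 0) (π : 𝓕₂) (hπ0 : π ≠ 0) (hπ : ∀ Q ∈ S₂, Q.ord π = 0)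
    (z₁ : Localization.AtPrime 𝔫) (hz₁ : IsUnit z₁)
    (hcong : s34f_iota (s34x_infRing O₂) S₂ 𝔫 ℓ ^ e / π - s34f_iota (s34x_infRing O₂) S₂ 𝔫 z₁ ∈
      (O₂ j).nonunits) :
    ℓ ∈ maximalIdeal (Localization.AtPrime 𝔫) ∧
    s36p_llocMap O₁ O₂ S₁ S₂ γ 𝔫 hγ u' ∈ maximalIdeal (Localization.AtPrime 𝔫) ∧
    (∀ a, s36q_red O₂ S₂ 𝔫 j hj a = 0 → ∃ c, a = ℓ * c) ∧
    (∀ a ∈ maximalIdeal (Localization.AtPrime 𝔫), ∃ c, s36q_red O₂ S₂ 𝔫 j hj a =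
      s36q_red O₂ S₂ 𝔫 j hj c * s36q_red O₂ S₂ 𝔫 j hj (s36p_llocMap O₁ O₂ S₁ S₂ γ 𝔫 hγ u')) ∧
    s36q_red O₂ S₂ 𝔫 j hj ℓ = 0 ∧ ℓ ≠ 0 ∧
    s36q_red O₂ S₂ 𝔫 j hj (s36p_llocMap O₁ O₂ S₁ S₂ γ 𝔫 hγ u') ≠ 0 ∧
    (∀ Q ∈ S₂, s34f_through (s34x_infRing O₂) S₂ 𝔫 Q →
      Q.ord (s34f_iota (s34x_infRing O₂) S₂ 𝔫 ℓ) = 0) ∧
    ∃ z : Localization.AtPrime 𝔫, IsUnit z ∧
      s34f_iota (s34x_infRing O₂) S₂ 𝔫 z = s34f_iota (s34x_infRing O₂) S₂ 𝔫 ℓ ^ e / π := by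
  obtain ⟨hℓ0, hunit, hord⟩ := s36e_ord_zero O₂ S₂ 𝔫 hA j hj honly F3 ℓ e he π hπ0 hπ z₁ hz₁ hcong
  have hredℓ : s36q_red O₂ S₂ 𝔫 j hj ℓ = 0 := (s36q_red_eq_zero_iff O₂ S₂ 𝔫 j hj ℓ).mpr hℓj
  have hu'm : u' ∈ maximalIdeal (Localization.AtPrime (s36p_lpt O₁ O₂ S₁ S₂ γ 𝔫 hγ)) := by
    rw [hm']; exact Ideal.subset_span (by simp)
  refine ⟨s36q_red_ker_le O₂ S₂ 𝔫 j hj ℓ hredℓ,
    s36p_llocMap_mem_maximalIdeal O₁ O₂ S₁ S₂ γ 𝔫 hγ u' hu'm,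
    fun a ha => s36e_ker O₂ S₂ 𝔫 hA j hj honly F3 ℓ hgen hord a ha,
    fun a ha => s36p_D_loc O₁ O₂ S₁ S₂ γ 𝔫 hγ i j hcomap hj u' w' hm' hw' hfrac a ha,
    hredℓ, ?_, ?_, hord, hunit⟩
  · intro h0
    apply hℓ0
    rw [h0, map_zero]
  · rw [Ne, s36q_red_eq_zero_iff, s36p_iota_llocMap]
    intro h
    exact hu' ((s36q_nonunits_comap O₁ O₂ γ i j hcomap _).mp h)

variable [hB₂ : IsNoetherianRing (s34x_ring (s34x_infRing O₂) S₂)]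

include hcomap in
/-- **Local equations** in the local frame (twin of `s36e_locEq`). -/
theorem s36p_locEq_loc (hA : s36q_Arch O₂) (hj : s36q_compThrough O₂ S₂ 𝔫 j)
    (honly : ∀ k, s36q_compThrough O₂ S₂ 𝔫 k → k = j)
    (F3 : ∀ y : 𝓕₂, y ≠ 0 → {Q : Place L₀ 𝓕₂ | Q ∈ S₂ ∧ Q.ord y ≠ 0}.Finite)
    (u' w' : Localization.AtPrime (s36p_lpt O₁ O₂ S₁ S₂ γ 𝔫 hγ))
    (hm' : maximalIdeal (Localization.AtPrime (s36p_lpt O₁ O₂ S₁ S₂ γ 𝔫 hγ)) =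
      Ideal.span {u', w'})
    (hw' : s34f_iota (s34x_infRing O₁) S₁ (s36p_lpt O₁ O₂ S₁ S₂ γ 𝔫 hγ) w' ∈ (O₁ i).nonunits)
    (hu' : s34f_iota (s34x_infRing O₁) S₁ (s36p_lpt O₁ O₂ S₁ S₂ γ 𝔫 hγ) u' ∉ (O₁ i).nonunits)
    (hfrac : ∀ y ∈ O₂ j, ∃ b c : s34x_ring (s34x_infRing O₁) S₁,
      (c : 𝓕₁) ∉ (O₁ i).nonunits ∧ y * γ (c : 𝓕₁) - γ (b : 𝓕₁) ∈ (O₂ j).nonunits)
    (ℓ : Localization.AtPrime 𝔫)
    (hℓj : s34f_iota (s34x_infRing O₂) S₂ 𝔫 ℓ ∈ (O₂ j).nonunits)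
    (hgen : ∀ y ∈ (O₂ j).nonunits, ∃ c ∈ O₂ j, y = s34f_iota (s34x_infRing O₂) S₂ 𝔫 ℓ * c)
    (e : ℕ) (he : e ≠ 0) (π : 𝓕₂) (hπ0 : π ≠ 0) (hπ : ∀ Q ∈ S₂, Q.ord π = 0)
    (z₁ : Localization.AtPrime 𝔫) (hz₁ : IsUnit z₁)
    (hcong : s34f_iota (s34x_infRing O₂) S₂ 𝔫 ℓ ^ e / π - s34f_iota (s34x_infRing O₂) S₂ 𝔫 z₁ ∈
      (O₂ j).nonunits)
    (Q : Place L₀ 𝓕₂) (hQS : Q ∈ S₂) (hth : s34f_through (s34x_infRing O₂) S₂ 𝔫 Q)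
    (b : s34x_ring (s34x_infRing O₂) S₂) (hb : b ∈ 𝔫) (hb0 : (b : 𝓕₂) ≠ 0)
    (hbQ : Q.ord (b : 𝓕₂) = 0)
    (F1 : ∃ u : s34x_ring (s34x_infRing O₂) S₂, Q.ord (u : 𝓕₂) = 1)
    (F2 : ∀ Q' ∈ S₂, Q' ≠ Q → ∃ y : s34x_ring (s34x_infRing O₂) S₂,
      0 < Q.ord (y : 𝓕₂) ∧ Q'.ord (y : 𝓕₂) = 0) :
    s34f_LocEq (s34x_infRing O₂) S₂ 𝔫 Q := by
  obtain ⟨hw, hs, hK, hD, hrw, hw0, hrs, -, -⟩ := s36p_KD_loc O₁ O₂ S₁ S₂ γ 𝔫 hγ i j hcomap hA hj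
    honly F3 u' w' hm' hw' hu' hfrac ℓ hℓj hgen e he π hπ0 hπ z₁ hz₁ hcong
  exact s36q_locEq_of_red (s34x_infRing O₂) S₂ 𝔫 Q hQS hth (s36q_red O₂ S₂ 𝔫 j hj) ℓ _ hw hs hK hD
    hrw hw0 hrs b hb hb0 hbQ F1 F2

include hcomap in
/-- **LocalReg at a point on an unramified component only, local frame** (twin of lead's
`s36e_out_reg_abs`). -/
theorem s36p_out_reg_loc (hA : s36q_Arch O₂) (hj : s36q_compThrough O₂ S₂ 𝔫 j)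
    (honly : ∀ k, s36q_compThrough O₂ S₂ 𝔫 k → k = j)
    (F1 : ∀ Q ∈ S₂, ∃ u : s34x_ring (s34x_infRing O₂) S₂, Q.ord (u : 𝓕₂) = 1)
    (F2 : ∀ Q ∈ S₂, ∀ Q' ∈ S₂, Q' ≠ Q → ∃ y : s34x_ring (s34x_infRing O₂) S₂,
      0 < Q.ord (y : 𝓕₂) ∧ Q'.ord (y : 𝓕₂) = 0)
    (F3 : ∀ y : 𝓕₂, y ≠ 0 → {Q : Place L₀ 𝓕₂ | Q ∈ S₂ ∧ Q.ord y ≠ 0}.Finite)
    (u' w' : Localization.AtPrime (s36p_lpt O₁ O₂ S₁ S₂ γ 𝔫 hγ))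
    (hm' : maximalIdeal (Localization.AtPrime (s36p_lpt O₁ O₂ S₁ S₂ γ 𝔫 hγ)) =
      Ideal.span {u', w'})
    (hw' : s34f_iota (s34x_infRing O₁) S₁ (s36p_lpt O₁ O₂ S₁ S₂ γ 𝔫 hγ) w' ∈ (O₁ i).nonunits)
    (hu' : s34f_iota (s34x_infRing O₁) S₁ (s36p_lpt O₁ O₂ S₁ S₂ γ 𝔫 hγ) u' ∉ (O₁ i).nonunits)
    (hfrac : ∀ y ∈ O₂ j, ∃ b c : s34x_ring (s34x_infRing O₁) S₁,
      (c : 𝓕₁) ∉ (O₁ i).nonunits ∧ y * γ (c : 𝓕₁) - γ (b : 𝓕₁) ∈ (O₂ j).nonunits)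
    (ϖB : s34x_ring (s34x_infRing O₂) S₂) (hϖ0 : (ϖB : 𝓕₂) ≠ 0)
    (hϖj : (ϖB : 𝓕₂) ∈ (O₂ j).nonunits)
    (hgen : ∀ y ∈ (O₂ j).nonunits, ∃ c ∈ O₂ j, y = (ϖB : 𝓕₂) * c)
    (hϖord : ∀ Q ∈ S₂, Q.ord (ϖB : 𝓕₂) = 0) (m : ℕ) (hm : m ≠ 0) :
    s36p_LocalReg O₂ S₂ 𝔫 m := by
  have hϖ𝔫 : ϖB ∈ 𝔫 := hj ϖB hϖj
  set ℓ : Localization.AtPrime 𝔫 :=
    algebraMap (s34x_ring (s34x_infRing O₂) S₂) (Localization.AtPrime 𝔫) ϖB with hℓdef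
  have hιℓ : s34f_iota (s34x_infRing O₂) S₂ 𝔫 ℓ = (ϖB : 𝓕₂) := by
    rw [hℓdef, s34f_iota_algebraMap]
  have hℓj : s34f_iota (s34x_infRing O₂) S₂ 𝔫 ℓ ∈ (O₂ j).nonunits := by rw [hιℓ]; exact hϖj
  have hgen' : ∀ y ∈ (O₂ j).nonunits, ∃ c ∈ O₂ j,
      y = s34f_iota (s34x_infRing O₂) S₂ 𝔫 ℓ * c := by
    rw [hιℓ]; exact hgen
  have hcong : s34f_iota (s34x_infRing O₂) S₂ 𝔫 ℓ ^ 1 / (ϖB : 𝓕₂) -
      s34f_iota (s34x_infRing O₂) S₂ 𝔫 1 ∈ (O₂ j).nonunits := by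
    rw [hιℓ, pow_one, div_self hϖ0, map_one, sub_self, ValuationSubring.mem_nonunits_iff,
      map_zero]
    exact zero_lt_one
  obtain ⟨-, -, -, -, -, hw0, -, hord, -⟩ := s36p_KD_loc O₁ O₂ S₁ S₂ γ 𝔫 hγ i j hcomap hA hj
    honly F3 u' w' hm' hw' hu' hfrac ℓ hℓj hgen' 1 one_ne_zero (ϖB : 𝓕₂) hϖ0 hϖord 1 isUnit_one
    hcong
  have hℓ0 : s34f_iota (s34x_infRing O₂) S₂ 𝔫 ℓ ≠ 0 := by rw [hιℓ]; exact hϖ0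
  refine ⟨?_, s36e_branch O₂ S₂ 𝔫 hA j honly ℓ hℓ0 hℓj hgen' hord, ?_⟩
  · intro Q hQS hth
    exact s36p_locEq_loc O₁ O₂ S₁ S₂ γ 𝔫 hγ i j hcomap hA hj honly F3 u' w' hm' hw' hu' hfrac ℓ
      hℓj hgen' 1 one_ne_zero (ϖB : 𝓕₂) hϖ0 hϖord 1 isUnit_one hcong Q hQS hth ϖB hϖ𝔫 hϖ0
      (hϖord Q hQS) (F1 Q hQS) (F2 Q hQS)
  · intro k hk y hy a ha hya
    have hkj := honly k hk
    subst hkj
    obtain ⟨s, -, hs⟩ := s36p_normal_loc O₁ O₂ S₁ S₂ γ 𝔫 hγ i k hcomap hj u' w' hm' hw' hfrac m hm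
      y hy a ha hya
    exact ⟨s, hs⟩

end Comap

end Fermat.Agent.Lib.S36
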