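/-
S36 mega-project (helper6): **the polar points of chart 2 of `α' w₁` on `V 2`: `β'` is regular there**
(piece (C) of the leaf `s36g_GeoReg2Only … m 2`; `w₁ = α x`).

* `s36m_chart2_beta`   : `β'(B₁(chart2 w₁)) ⊆ B₂(chart2 (β' w₁))`;
* `s36m_no_zero_x1`    : abstract: no zero of `x₁ = t(qz)` at a place through a pole of `w = t(z)`;
* `s36m_x1_inv_mem`    : `(β' w₁)⁻¹ ∈ O_Q` at every place `Q` of chart 2 of `α' w₁` through a polar `𝔫`;
* `s36m_polar_beta_reg`: the same from `s36g_BaseFull`;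
* `s36m_beta_local`    : the local inclusion `∀ b ∈ B₁, ∃ z : B_𝔫, ι z = β' b`.
-/
import Fermat.Agent.Lib.S36.MReg2Mid
import Fermat.Agent.Lib.S36.PLocTwo
import Fermat.Agent.Lib.S36.PReg
import Fermat.Agent.Lib.S36.REllAbs

set_option autoImplicit false
set_option linter.unusedSectionVars false
set_option linter.style.haveILetI false
set_option synthInstance.maxHeartbeats 400000

noncomputable section

namespace Fermat.Agent.Lib.S36

open Polynomial ModularCurve AlgebraicCurve HahnSeries Fermat.Agent.Lib.FF Fermat.Agent.Lib.S18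
  Fermat.Agent.Lib.S28 Fermat.Agent.Lib.S37 Fermat.Agent.Lib.S34 Fermat.Agent.Lib.S35 IsLocalRing

local notation "Kb" => AlgebraicClosure ℚ

variable {K₀ : Type} [Field K₀] [Algebra ℚ K₀] [CharZero K₀] {κ : Type} [Field κ]
  (G : s18g_GaussData K₀ κ) [IsDiscreteValuationRing G.A]
  (φ : K₀ →+* Kb) (M q : ℕ) [NeZero M] [NeZero q] (hq : q.Prime) (hqM : ¬ q ∣ M)
  {V : Fin 3 → ValuationSubring (s34m_F K₀ (M * q * q))}

/-- **`β'(B₁(chart2 w₁)) ⊆ B₂(chart2 (β' w₁))`.** -/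
theorem s36m_chart2_beta (hC : s36g_ValComap G φ M q hq hqM V)
    (w₁ : s34m_F K₀ (M * q)) (hB : s35g_BaseData G φ M q hq hqM w₁) :
    ∀ b ∈ s34x_ring (L₀ := K₀) (s34x_infRing (s34m_VV G φ M q hq hqM)) (s18_chart2 w₁),
      s36g_beta M q b ∈
        s34x_ring (L₀ := K₀) (s34x_infRing V) (s18_chart2 (s36g_beta M q w₁)) := by
  obtain ⟨-, hgen, -, hwO', -, -, hα', -, -⟩ := hB
  haveI := hgen
  haveI : FFGen K₀ w₁⁻¹ := ff_gen_inv
  exact s36p_chart_mem_gen G φ M q hq hqM (heckeBetaBar K₀ (M * q) q)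
    (fun x hx => s36p_beta_mem G φ M q hq hqM hC x hx) w₁⁻¹ ff_gen_inv hwO' hα'
    (s36g_beta M q w₁)⁻¹ (fun Q hQ => by rw [map_inv₀]; exact hQ)

/-- the chart ring of chart 2 of a base function of level `M q²` is of finite type over `G.A`. -/
theorem s36m_finiteType₂_chart2 (hC : s36g_ValComap G φ M q hq hqM V)
    (w : s34m_F K₀ (M * q * q)) (hB : s36b_BaseData₂ G M q V w) :
    @Algebra.FiniteType G.A (s34x_ring (s34x_infRing V) (s18_chart2 (L₀ := K₀) w)) _ _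
      (s34f_constHom G.A (s34x_infRing V)
        (s34x_inf_const_mem V G.A (s36b_const_mem G φ M q hq hqM hC))
        (s18_chart2 (L₀ := K₀) w)).toAlgebra := by
  obtain ⟨-, hgen, -, hwO', -, -, hα'⟩ := hB
  haveI := hgen
  haveI : FFGen K₀ w⁻¹ := ff_gen_inv
  exact s36r_finiteType_of_integral G (laurentBaseChange K₀ (modularFunctionFieldFull (M * q * q)))
    w⁻¹ (s34x_ring (s34x_infRing V) (s18_chart1 (L₀ := K₀) w⁻¹))
    (s34x_mem_ring_iff G (laurentBaseChange K₀ (modularFunctionFieldFull (M * q * q))) w⁻¹ V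
      (s36b_const_mem G φ M q hq hqM hC) hwO' hα') _ (fun _ => rfl)

/-! ### Abstract part: no zero of `x₁ = t(qz)` through a polar point of `w = t(z)` -/

section Abs

variable {L₀ 𝓕 : Type*} [Field L₀] [CharZero L₀] [Field 𝓕] [Algebra L₀ 𝓕]

omit [CharZero L₀] in
/-- evaluation of an integer polynomial at an element of a valuation ring. -/
theorem s36m_aeval_int_mem (A : ValuationSubring 𝓕) {y : 𝓕} (hy : y ∈ A) (P : ℤ[X]) :
    aeval y P ∈ A := by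
  have h := s36m_coe_aeval_int A.toSubring ⟨y, hy⟩ P
  rw [← h]
  exact Subtype.mem _

/-- a nonzero integer is a unit of every valuation ring containing the constants. -/
theorem s36m_int_unit (Q : Place L₀ 𝓕) {c : ℤ} (hc : c ≠ 0) :
    ((c : ℤ) : 𝓕) ∉ Q.toValuationSubring.nonunits := by
  have e : ((c : ℤ) : 𝓕) = algebraMap L₀ 𝓕 ((c : ℤ) : L₀) := by simp
  have hc' : ((c : ℤ) : L₀) ≠ 0 := Int.cast_ne_zero.mpr hc
  rw [ValuationSubring.mem_nonunits_iff_or, not_or, not_not, e]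
  refine ⟨fun h0 => hc' ((algebraMap L₀ 𝓕).injective (by rw [h0, map_zero])), ?_⟩
  rw [← map_inv₀]
  exact Q.algebraMap_mem' _

/-- **no zero of `x₁` at a place `Q` of the chart `{w ≠ 0}` through a polar point `𝔫`**
(`j₀ wᵃ = P(w)`, `j₁ x₁ᵃ = P(x₁)`; `a = 0`: `j₀` integral over `ℤ[j₁]`; `a ≥ 1`: saturation). -/
theorem s36m_no_zero_x1 (O : Subring 𝓕) (S : Set (Place L₀ 𝓕)) (𝔫 : Ideal (s34x_ring O S))
    [h𝔫 : 𝔫.IsPrime] (Q : Place L₀ 𝓕) (hQ : Q ∈ S) (hthr : s34f_through O S 𝔫 Q)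
    (x₀ ε₀ : s34x_ring O S) (hx : x₀ ∈ 𝔫) (hε : ε₀ ∉ 𝔫) (j₀ j₁ w x₁ : 𝓕)
    (hjx : j₀ * (x₀ : 𝓕) = (ε₀ : 𝓕)) (hint : s28d_IntOver j₁ j₀)
    (P : ℤ[X]) (hP : P.Monic) (a : ℕ) (hdeg : P.natDegree = a + 1) (hc0 : a ≠ 0 → P.coeff 0 ≠ 0)
    (r₀ : j₀ * w ^ a = aeval w P) (r₁ : j₁ * x₁ ^ a = aeval x₁ P)
    (hw0 : w ≠ 0) (hx₁0 : x₁ ≠ 0) (hwQ : w⁻¹ ∈ Q.toValuationSubring)
    (hj01 : j₀ ∈ Q.toValuationSubring ↔ j₁ ∈ Q.toValuationSubring)
    (hsat : w ∈ Q.toValuationSubring ↔ x₁ ∈ Q.toValuationSubring) :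
    x₁⁻¹ ∈ Q.toValuationSubring := by
  by_contra hcon
  have hx₁A : x₁ ∈ Q.toValuationSubring :=
    (Q.toValuationSubring.mem_or_inv_mem x₁).resolve_right hcon
  have hx₁n : x₁ ∈ Q.toValuationSubring.nonunits := by
    rw [ValuationSubring.mem_nonunits_iff_or]
    exact Or.inr hcon
  rcases Nat.eq_zero_or_pos a with ha | ha
  · -- `a = 0`: `x₁ = j₁ - c₀`
    subst ha
    have hPe : P = X + Polynomial.C (P.coeff 0) := hP.eq_X_add_C (by rw [hdeg])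
    have e : x₁ = j₁ - ((P.coeff 0 : ℤ) : 𝓕) := by
      have h1 : j₁ = x₁ + ((P.coeff 0 : ℤ) : 𝓕) := by
        have := r₁
        rw [pow_zero, mul_one, hPe, map_add, aeval_X, aeval_C] at this
        simpa using this
      rw [h1]; ring
    have hno := s36m_mc_no_zero O S 𝔫 Q hQ hthr x₀ ε₀ hx hε j₀ j₁ hjx hint (P.coeff 0)
    apply hno
    rw [← e]
    exact (ff_ord_pos_iff Q hx₁0).mpr ⟨hx₁A, hcon⟩
  · -- `a ≥ 1`: saturation
    obtain ⟨B, hB⟩ : ∃ B : ℤ[X], P = Polynomial.C (P.coeff 0) + X * B := by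
      refine ⟨P.divX, ?_⟩
      conv_lhs => rw [← Polynomial.divX_mul_X_add P]
      ring
    have hPx : aeval x₁ P = ((P.coeff 0 : ℤ) : 𝓕) + x₁ * aeval x₁ B := by
      conv_lhs => rw [hB]
      rw [map_add, aeval_C, map_mul, aeval_X]
      simp
    have hj₁ : j₁ ∉ Q.toValuationSubring := by
      intro hj
      apply s36m_int_unit Q (hc0 (by omega))
      have h1 : aeval x₁ P ∈ Q.toValuationSubring.nonunits := by
        rw [← r₁]
        obtain ⟨k, rfl⟩ : ∃ k, a = k + 1 := ⟨a - 1, by omega⟩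
        rw [pow_succ, ← mul_assoc]
        exact s36y_mul_mem_nonunits Q.toValuationSubring
          (Q.toValuationSubring.mul_mem _ _ hj (pow_mem hx₁A k)) hx₁n
      have h2 : x₁ * aeval x₁ B ∈ Q.toValuationSubring.nonunits :=
        s36y_mul_mem_nonunits' Q.toValuationSubring hx₁n
          (s36m_aeval_int_mem Q.toValuationSubring hx₁A B)
      have h3 : ((P.coeff 0 : ℤ) : 𝓕) = aeval x₁ P - x₁ * aeval x₁ B := by rw [hPx]; ring
      rw [h3, ValuationSubring.mem_nonunits_iff]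
      rw [ValuationSubring.mem_nonunits_iff] at h1 h2
      exact lt_of_le_of_lt (Valuation.map_sub _ _ _) (max_lt h1 h2)
    have hj₀ : j₀ ∉ Q.toValuationSubring := fun h => hj₁ (hj01.mp h)
    have hwA : w ∉ Q.toValuationSubring := by
      intro hw
      apply hj₀
      have e : j₀ = aeval w P * w⁻¹ ^ a := by
        rw [← r₀, mul_assoc, ← mul_pow, mul_inv_cancel₀ hw0, one_pow, mul_one]
      rw [e]
      exact Q.toValuationSubring.mul_mem _ _ (s36m_aeval_int_mem _ hw P) (pow_mem hwQ a)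
    exact hwA (hsat.mpr hx₁A)

end Abs

/-! ### The local inclusion `β'(B₁) ⊆ B_𝔫` at a polar point on `V 2` only -/

section Local

variable [CharP κ q]

/-- the relation `j₁ x₁ᵃ = P(x₁)` for `x₁ = β'(α x)`, `j₁ = β'(j)`. -/
theorem s36m_hauptZ_beta (w₁ : s34m_F K₀ (M * q)) (P : ℤ[X]) (a : ℕ)
    (rq : s18g_jF (K := K₀) (M * q) * w₁ ^ a = aeval w₁ P) :
    s36b_j1 (K₀ := K₀) M q * (s36g_beta M q w₁) ^ a = aeval (s36g_beta M q w₁) P := by
  have h1 := congrArg (s36g_beta M q) rq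
  rw [map_mul, map_pow, ← s36b_j1_eq] at h1
  rw [h1]
  exact (Polynomial.aeval_algHom_apply ((s36g_beta M q).toIntAlgHom) w₁ P).symm

/-- **`(β' w₁)⁻¹ ∈ O_Q`** at every place `Q` of chart 2 of `α' w₁` through a polar point. -/
theorem s36m_x1_inv_mem (hC : s36g_ValComap G φ M q hq hqM V)
    (x : s34m_F K₀ M) (hB : s35g_BaseData G φ M q hq hqM (heckeAlphaBar K₀ M q x))
    (hsat : ∀ Q : Place K₀ (s34m_F K₀ (M * q * q)),
      s36g_alpha M q (heckeAlphaBar K₀ M q x) ∈ Q.toValuationSubring ↔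
        s36g_beta M q (heckeAlphaBar K₀ M q x) ∈ Q.toValuationSubring)
    (P : ℤ[X]) (hPm : P.Monic) (a : ℕ) (hdeg : P.natDegree = a + 1) (hc0 : a ≠ 0 → P.coeff 0 ≠ 0)
    (r : s18g_jF (K := K₀) M * x ^ a = aeval x P)
    (𝔫 : Ideal (s34x_ring (L₀ := K₀) (s34x_infRing V)
      (s18_chart2 (s36g_alpha M q (heckeAlphaBar K₀ M q x))))) [h𝔫 : 𝔫.IsPrime]
    (hpol : ∃ b ∈ 𝔫, (b : s34m_F K₀ (M * q * q)) =
      (s36g_alpha M q (heckeAlphaBar K₀ M q x))⁻¹)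
    (Q : Place K₀ (s34m_F K₀ (M * q * q)))
    (hQ : Q ∈ s18_chart2 (L₀ := K₀) (s36g_alpha M q (heckeAlphaBar K₀ M q x)))
    (hthr : s34f_through (s34x_infRing V)
      (s18_chart2 (L₀ := K₀) (s36g_alpha M q (heckeAlphaBar K₀ M q x))) 𝔫 Q) :
    (s36g_beta M q (heckeAlphaBar K₀ M q x))⁻¹ ∈ Q.toValuationSubring := by
  have hw₁0 : heckeAlphaBar K₀ M q x ≠ 0 := hB.1
  have hw0 : s36g_alpha M q (heckeAlphaBar K₀ M q x) ≠ 0 :=
    (_root_.map_ne_zero (s36g_alpha M q)).mpr hw₁0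
  have hx₁0 : s36g_beta M q (heckeAlphaBar K₀ M q x) ≠ 0 :=
    (_root_.map_ne_zero (s36g_beta M q)).mpr hw₁0
  have rq := s36m_hauptZ_level (K₀ := K₀) M q x P a r
  have r₀ : s18g_jF (K := K₀) (M * q * q) * (s36g_alpha M q (heckeAlphaBar K₀ M q x)) ^ a =
      aeval (s36g_alpha M q (heckeAlphaBar K₀ M q x)) P :=
    s36m_hauptZ_level (K₀ := K₀) (M * q) q (heckeAlphaBar K₀ M q x) P a rq
  have r₁ := s36m_hauptZ_beta M q (heckeAlphaBar K₀ M q x) P a rq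
  have hwO' : ∀ k, (s36g_alpha M q (heckeAlphaBar K₀ M q x))⁻¹ ∈ V k := fun k => by
    rw [← map_inv₀]
    exact s36b_alpha_mem G φ M q hq hqM hC _ hB.2.2.2.1 k
  obtain ⟨x₀, ε₀, hx₀w, hjx, hdata⟩ := s36m_cuspData_polar (L₀ := K₀) V P hPm a hdeg
    (s18g_jF (K := K₀) (M * q * q)) (s36g_alpha M q (heckeAlphaBar K₀ M q x)) hw0 r₀ hwO'
  obtain ⟨b, hb, hbw⟩ := hpol
  have hx₀ : x₀ ∈ 𝔫 := by
    have : x₀ = b := Subtype.ext (by rw [hx₀w, hbw])
    rw [this]; exact hb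
  have hε₀ := hdata 𝔫 h𝔫 hx₀
  have hint : s28d_IntOver (s36b_j1 (K₀ := K₀) M q) (s18g_jF (K := K₀) (M * q * q)) := by
    have h := s28d_intOver_map (s36g_alpha M q) (s34d2_intOver_j (K₀ := K₀) φ M q hq hqM)
    have e : s36g_alpha M q (s18g_jF (K := K₀) (M * q)) = s18g_jF (K := K₀) (M * q * q) :=
      s34m_alpha_jF (K₀ := K₀) (M * q) q
    rw [e] at h
    exact h
  exact s36m_no_zero_x1 (s34x_infRing V) _ 𝔫 Q hQ hthr x₀ ε₀ hx₀ hε₀
    (s18g_jF (K := K₀) (M * q * q)) (s36b_j1 (K₀ := K₀) M q)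
    (s36g_alpha M q (heckeAlphaBar K₀ M q x)) (s36g_beta M q (heckeAlphaBar K₀ M q x))
    hjx hint P hPm a hdeg hc0 r₀ r₁ hw0 hx₁0 hQ (s36p_j01_iff φ M q hq Q) (hsat Q)

/-- **The local inclusion**: `β'(B₁(chart2 w₁)) ⊆ B_𝔫` at a polar point `𝔫` on `V 2` only. -/
theorem s36m_beta_local (hC : s36g_ValComap G φ M q hq hqM V)
    {t : s34m_F K₀ (M * q * q)} (hU : s36g_ValUnif G M q V t)
    (x : s34m_F K₀ M) (hB : s35g_BaseData G φ M q hq hqM (heckeAlphaBar K₀ M q x))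
    (hsat : ∀ Q : Place K₀ (s34m_F K₀ (M * q * q)),
      s36g_alpha M q (heckeAlphaBar K₀ M q x) ∈ Q.toValuationSubring ↔
        s36g_beta M q (heckeAlphaBar K₀ M q x) ∈ Q.toValuationSubring)
    (P : ℤ[X]) (hPm : P.Monic) (a : ℕ) (hdeg : P.natDegree = a + 1) (hc0 : a ≠ 0 → P.coeff 0 ≠ 0)
    (r : s18g_jF (K := K₀) M * x ^ a = aeval x P)
    (F3 : ∀ y : s34m_F K₀ (M * q * q), y ≠ 0 → {Q : Place K₀ (s34m_F K₀ (M * q * q)) |
      Q ∈ s18_chart2 (L₀ := K₀) (s36g_alpha M q (heckeAlphaBar K₀ M q x)) ∧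
        Q.ord y ≠ 0}.Finite)
    (𝔫 : Ideal (s34x_ring (L₀ := K₀) (s34x_infRing V)
      (s18_chart2 (s36g_alpha M q (heckeAlphaBar K₀ M q x))))) [h𝔫 : 𝔫.IsPrime]
    (hpol : ∃ b ∈ 𝔫, (b : s34m_F K₀ (M * q * q)) =
      (s36g_alpha M q (heckeAlphaBar K₀ M q x))⁻¹) :
    ∀ b ∈ s34x_ring (L₀ := K₀) (s34x_infRing (s34m_VV G φ M q hq hqM))
        (s18_chart2 (heckeAlphaBar K₀ M q x)),
      ∃ z : Localization.AtPrime 𝔫,
        s34f_iota (s34x_infRing V)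
          (s18_chart2 (L₀ := K₀) (s36g_alpha M q (heckeAlphaBar K₀ M q x))) 𝔫 z =
          s36g_beta M q b := by
  intro b hb
  have hbVV : ∀ i, b ∈ s34m_VV G φ M q hq hqM i := (s34x_mem_infRing _ _).mp hb.1
  have hβb := s36m_chart2_beta G φ M q hq hqM hC (heckeAlphaBar K₀ M q x) hB b hb
  refine s36q_exists_iota_eq V _ 𝔫 (s36b_arch G M q hq hU) (s36g_beta M q b)
    (fun k _ => s36p_beta_mem G φ M q hq hqM hC b hbVV k) ?_ ?_
  · intro Q hQ hthr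
    by_cases h0 : s36g_beta M q b = 0
    · rw [h0, Place.ord_zero]
    · refine (ff_mem_iff_ord_nonneg Q h0).mp (hβb.2 Q ?_)
      exact s36m_x1_inv_mem G φ M q hq hqM hC x hB hsat P hPm a hdeg hc0 r 𝔫 hpol Q hQ hthr
  · by_cases h0 : s36g_beta M q b = 0
    · rw [h0]
      refine Set.Finite.subset Set.finite_empty fun Q hQ => ?_
      have h2 : Q.ord (0 : s34m_F K₀ (M * q * q)) < 0 := hQ.2
      rw [Place.ord_zero] at h2
      exact absurd h2 (lt_irrefl _)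
    · exact (F3 _ h0).subset fun Q hQ => ⟨hQ.1, ne_of_lt hQ.2⟩

/-- the constant-term condition from `s36m_HauptZ`. -/
theorem s36m_hauptZ_c0 {q' : ℕ} (hq' : q'.Prime) (P : ℤ[X]) (a : ℕ)
    (hc : a = 0 ∨ IsCoprime (P.coeff 0) (q' : ℤ)) : a ≠ 0 → P.coeff 0 ≠ 0 := by
  intro ha h0
  rcases hc with h | h
  · exact ha h
  · rw [h0] at h
    have hu : IsUnit (q' : ℤ) := isCoprime_zero_left.mp h
    rw [Int.isUnit_iff_natAbs_eq, Int.natAbs_natCast] at hu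
    exact hq'.one_lt.ne' hu

variable [PerfectField κ]

/-- **(C): `(β' w₁)⁻¹ ∈ O_Q` at every place `Q` of chart 2 of `α' w₁` through a polar point, from
`s36g_BaseFull`.** -/
theorem s36m_polar_beta_reg {t : s34m_F K₀ (M * q * q)} (hP : s36g_ValPkg G φ M q hq hqM V t)
    (x : s34m_F K₀ M) (hx : x ∈ s34m_Vinf G M) (hBF : s36g_BaseFull G φ M q hq hqM x hx)
    (𝔫 : Ideal (s34x_ring (L₀ := K₀) (s34x_infRing V)
      (s18_chart2 (s36g_alpha M q (heckeAlphaBar K₀ M q x))))) [h𝔫 : 𝔫.IsPrime]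
    (hpol : ∃ b ∈ 𝔫, (b : s34m_F K₀ (M * q * q)) =
      (s36g_alpha M q (heckeAlphaBar K₀ M q x))⁻¹) :
    ∀ Q ∈ s18_chart2 (L₀ := K₀) (s36g_alpha M q (heckeAlphaBar K₀ M q x)),
      s34f_through (s34x_infRing V)
        (s18_chart2 (L₀ := K₀) (s36g_alpha M q (heckeAlphaBar K₀ M q x))) 𝔫 Q →
      (s36g_beta M q (heckeAlphaBar K₀ M q x))⁻¹ ∈ Q.toValuationSubring := by
  obtain ⟨P, a, hPm, hdeg, r, hc⟩ := s36m_hauptZ_of_baseFull G φ M q hq hqM x hx hBF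
  intro Q hQ hthr
  exact s36m_x1_inv_mem G φ M q hq hqM hP.1 x hBF.1 hBF.2.1 P hPm a hdeg
    (s36m_hauptZ_c0 hq P a hc) r 𝔫 hpol Q hQ hthr

/-- **the local inclusion `β'(B₁(chart2 w₁)) ⊆ B_𝔫` at a polar point, from `s36g_BaseFull`.** -/
theorem s36m_beta_local_of_baseFull {t : s34m_F K₀ (M * q * q)}
    (hP : s36g_ValPkg G φ M q hq hqM V t)
    (x : s34m_F K₀ M) (hx : x ∈ s34m_Vinf G M) (hBF : s36g_BaseFull G φ M q hq hqM x hx)
    (F3 : ∀ y : s34m_F K₀ (M * q * q), y ≠ 0 → {Q : Place K₀ (s34m_F K₀ (M * q * q)) |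
      Q ∈ s18_chart2 (L₀ := K₀) (s36g_alpha M q (heckeAlphaBar K₀ M q x)) ∧
        Q.ord y ≠ 0}.Finite)
    (𝔫 : Ideal (s34x_ring (L₀ := K₀) (s34x_infRing V)
      (s18_chart2 (s36g_alpha M q (heckeAlphaBar K₀ M q x))))) [h𝔫 : 𝔫.IsPrime]
    (hpol : ∃ b ∈ 𝔫, (b : s34m_F K₀ (M * q * q)) =
      (s36g_alpha M q (heckeAlphaBar K₀ M q x))⁻¹) :
    ∀ b ∈ s34x_ring (L₀ := K₀) (s34x_infRing (s34m_VV G φ M q hq hqM))
        (s18_chart2 (heckeAlphaBar K₀ M q x)),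
      ∃ z : Localization.AtPrime 𝔫,
        s34f_iota (s34x_infRing V)
          (s18_chart2 (L₀ := K₀) (s36g_alpha M q (heckeAlphaBar K₀ M q x))) 𝔫 z =
          s36g_beta M q b := by
  obtain ⟨P, a, hPm, hdeg, r, hc⟩ := s36m_hauptZ_of_baseFull G φ M q hq hqM x hx hBF
  exact s36m_beta_local G φ M q hq hqM hP.1 hP.2.1 x hBF.1 hBF.2.1 P hPm a hdeg
    (s36m_hauptZ_c0 hq P a hc) r F3 𝔫 hpol

end Local

end Fermat.Agent.Lib.S36
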