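/-
S36 mega-project (helper6): **(REG2) at the polar points of chart 2 lying on `V 2` only** — the
named target `s36g_GeoReg2Only … m 2`, in helper9's LOCAL two-level frame (`PLocTwo.lean`):
`γ = β'`, `S₁ = chart2 w₁`, `S₂ = chart2 (α' w₁)`, `w₁ = α x`.  The local inclusion is in
`MPolarBeta.lean`; here the image point and the wiring.
-/
import Fermat.Agent.Lib.S36.MPolarBeta

set_option autoImplicit false
set_option linter.unusedSectionVars false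
set_option linter.style.haveILetI false
set_option synthInstance.maxHeartbeats 400000

noncomputable section

namespace Fermat.Agent.Lib.S36

open Polynomial ModularCurve AlgebraicCurve HahnSeries Fermat.Agent.Lib.FF Fermat.Agent.Lib.S18
  Fermat.Agent.Lib.S28 Fermat.Agent.Lib.S37 Fermat.Agent.Lib.S34 Fermat.Agent.Lib.S35 IsLocalRing

local notation "Kb" => AlgebraicClosure ℚ

variable {K₀ : Type} [Field K₀] [Algebra ℚ K₀] [CharZero K₀] {κ : Type} [Field κ]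
  (G : s18g_GaussData K₀ κ) [IsDiscreteValuationRing G.A]
  (φ : K₀ →+* Kb) (M q : ℕ) [NeZero M] [NeZero q] (hq : q.Prime) (hqM : ¬ q ∣ M)
  {V : Fin 3 → ValuationSubring (s34m_F K₀ (M * q * q))}

section Max

/-- the contraction of the maximal ideal of `(B₂)_𝔫` along a map `B₁ → (B₂)_𝔫` of `A`-algebras is
maximal (`B₂` of finite type over `A`, `𝔫` a closed point of the special fibre). -/
theorem s36m_lpt_isMaximal_abs {A B₁ B₂ κ' : Type*} [CommRing A] [CommRing B₁] [CommRing B₂]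
    [Field κ'] [Algebra A B₁] [Algebra A B₂] [Algebra.FiniteType A B₂]
    (π : A →+* κ') (hπ : Function.Surjective π) (𝔫 : Ideal B₂) [h𝔫 : 𝔫.IsMaximal]
    (f : B₁ →+* Localization.AtPrime 𝔫)
    (hf : ∀ a, f (algebraMap A B₁ a) =
      algebraMap B₂ (Localization.AtPrime 𝔫) (algebraMap A B₂ a))
    (hker : ∀ a : A, π a = 0 → algebraMap A B₂ a ∈ 𝔫) :
    ((maximalIdeal (Localization.AtPrime 𝔫)).comap f).IsMaximal := by
  classical
  letI : Field (B₂ ⧸ 𝔫) := Ideal.Quotient.field 𝔫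
  let e := IsLocalization.AtPrime.equivQuotMaximalIdeal 𝔫 (Localization.AtPrime 𝔫)
  let g : B₁ →+* B₂ ⧸ 𝔫 :=
    (e.symm : _ →+* B₂ ⧸ 𝔫).comp
      ((Ideal.Quotient.mk (maximalIdeal (Localization.AtPrime 𝔫))).comp f)
  haveI : Algebra.FiniteType A (B₂ ⧸ 𝔫) :=
    Algebra.FiniteType.of_surjective (Ideal.Quotient.mkₐ A 𝔫)
      (Ideal.Quotient.mkₐ_surjective A 𝔫)
  have hg : ∀ a, g (algebraMap A B₁ a) = algebraMap A (B₂ ⧸ 𝔫) a := by
    intro a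
    show e.symm (Ideal.Quotient.mk _ (f (algebraMap A B₁ a))) = _
    rw [hf, RingEquiv.symm_apply_eq]
    rfl
  haveI : (⊥ : Ideal (B₂ ⧸ 𝔫)).IsMaximal := Ideal.bot_isMaximal
  have hmax := s36el_comap_isMaximal π hπ g hg (⊥ : Ideal (B₂ ⧸ 𝔫)) (fun a ha => by
    rw [Ideal.mem_bot]
    show Ideal.Quotient.mk 𝔫 (algebraMap A B₂ a) = 0
    exact Ideal.Quotient.eq_zero_iff_mem.mpr (hker a ha))
  have heq : (⊥ : Ideal (B₂ ⧸ 𝔫)).comap g =
      (maximalIdeal (Localization.AtPrime 𝔫)).comap f := by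
    ext b
    rw [Ideal.mem_comap, Ideal.mem_comap, Ideal.mem_bot]
    show e.symm (Ideal.Quotient.mk _ (f b)) = 0 ↔ _
    rw [RingEquiv.map_eq_zero_iff, Ideal.Quotient.eq_zero_iff_mem]
  rw [← heq]
  exact hmax

end Max

/-! ### The target -/

section Final

variable [CharP κ q] [PerfectField κ]

/-- `α'(β x) = β'(α x)`. -/
theorem s36m_alpha_beta_comm (x : s34m_F K₀ M) :
    s36g_alpha M q (heckeBetaBar K₀ M q x) = s36g_beta M q (heckeAlphaBar K₀ M q x) := by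
  apply Subtype.ext
  show ((heckeAlphaBar K₀ (M * q) q (heckeBetaBar K₀ M q x) : s34m_F K₀ (M * q * q)) :
      LaurentSeries K₀) =
    ((heckeBetaBar K₀ (M * q) q (heckeAlphaBar K₀ M q x) : s34m_F K₀ (M * q * q)) :
      LaurentSeries K₀)
  rw [coe_heckeAlphaBar, coe_heckeBetaBar, coe_heckeBetaBar, coe_heckeAlphaBar]

include hq in
/-- **Kronecker at `0` for a general `x`** with `Φ(x̄) = x̄ᵠ`: `α x - (β x)ᵠ` is a non-unit of
`V'_0`. -/
theorem s36m_kron_zero_gen (x : s34m_F K₀ M) (hx : x ∈ s34m_Vinf G M)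
    (hfrob : qExpand κ q (s34m_redInf G M ⟨x, hx⟩) = s34m_redInf G M ⟨x, hx⟩ ^ q) :
    heckeAlphaBar K₀ M q x - heckeBetaBar K₀ M q x ^ q ∈
      (s34m_Vzero G φ M q hq hqM).nonunits := by
  set xM : s34m_Vinf G M := ⟨x, hx⟩ with hxM
  have ha0 : heckeAlphaBar K₀ M q x ∈ s34m_Vzero G φ M q hq hqM :=
    s34m_alpha_mem_Vzero G φ M q hq hqM xM.2
  have hb0 : heckeBetaBar K₀ M q x ∈ s34m_Vzero G φ M q hq hqM :=
    s34m_beta_mem_Vzero G φ M q hq hqM xM.2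
  have e3 : s34m_redZero G φ M q hq hqM ⟨_, ha0⟩ = qExpand κ q (s34m_redInf G M xM) :=
    s34m_redZero_alpha G φ M q hq hqM xM
  have e4 : s34m_redZero G φ M q hq hqM ⟨_, hb0⟩ = s34m_redInf G M xM :=
    s34m_redZero_beta G φ M q hq hqM xM
  have hx0 : heckeAlphaBar K₀ M q x - heckeBetaBar K₀ M q x ^ q ∈
      s34m_Vzero G φ M q hq hqM := sub_mem ha0 (pow_mem hb0 q)
  refine (s36b_redZero_eq_zero_iff G φ M q hq hqM ⟨_, hx0⟩).mp ?_
  have e : (⟨_, hx0⟩ : s34m_Vzero G φ M q hq hqM) = ⟨_, ha0⟩ - ⟨_, hb0⟩ ^ q := Subtype.ext rfl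
  rw [e, map_sub, map_pow, e3, e4, hfrob, sub_self]

/-- the image point of a closed point under the local chart map along `β'` is a closed point. -/
theorem s36m_lpt_isMaximal (hπ : Function.Surjective G.π)
    (hC : s36g_ValComap G φ M q hq hqM V)
    (w₁ : s34m_F K₀ (M * q))
    (hB₂ : s36b_BaseData₂ G M q V (s36g_alpha M q w₁))
    (𝔫 : Ideal (s34x_ring (L₀ := K₀) (s34x_infRing V) (s18_chart2 (s36g_alpha M q w₁))))
    (h𝔫 : 𝔫.IsMaximal)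
    (hϖ : s34x_const (s34x_infRing V) (s18_chart2 (L₀ := K₀) (s36g_alpha M q w₁))
      ((G.ϖ : G.A) : K₀) (s34x_inf_const_mem V G.A (s36b_const_mem G φ M q hq hqM hC) G.ϖ) ∈ 𝔫)
    (hγ : ∀ b ∈ s34x_ring (L₀ := K₀) (s34x_infRing (s34m_VV G φ M q hq hqM)) (s18_chart2 w₁),
      ∃ z : Localization.AtPrime 𝔫 (hp := h𝔫.isPrime),
        s34f_iota (s34x_infRing V) (s18_chart2 (L₀ := K₀) (s36g_alpha M q w₁)) 𝔫
          (h𝔫 := h𝔫.isPrime) z = s36g_beta M q b) :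
    (s36p_lpt (s34m_VV G φ M q hq hqM) V (s18_chart2 (L₀ := K₀) w₁)
      (s18_chart2 (L₀ := K₀) (s36g_alpha M q w₁)) (s36g_beta M q) 𝔫 (h𝔫 := h𝔫.isPrime)
      hγ).IsMaximal := by
  haveI := h𝔫.isPrime
  letI alg₁ : Algebra G.A (s34x_ring (s34x_infRing (s34m_VV G φ M q hq hqM))
      (s18_chart2 (L₀ := K₀) w₁)) :=
    (s34f_constHom G.A (s34x_infRing (s34m_VV G φ M q hq hqM))
      (s34x_inf_const_mem (s34m_VV G φ M q hq hqM) G.A (s34c_const_mem_VV G φ M q hq hqM))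
      (s18_chart2 (L₀ := K₀) w₁)).toAlgebra
  letI alg₂ : Algebra G.A (s34x_ring (s34x_infRing V)
      (s18_chart2 (L₀ := K₀) (s36g_alpha M q w₁))) :=
    (s34f_constHom G.A (s34x_infRing V)
      (s34x_inf_const_mem V G.A (s36b_const_mem G φ M q hq hqM hC))
      (s18_chart2 (L₀ := K₀) (s36g_alpha M q w₁))).toAlgebra
  haveI hFT₂ : Algebra.FiniteType G.A (s34x_ring (s34x_infRing V)
      (s18_chart2 (L₀ := K₀) (s36g_alpha M q w₁))) :=
    s36m_finiteType₂_chart2 G φ M q hq hqM hC _ hB₂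
  refine s36m_lpt_isMaximal_abs G.π hπ 𝔫 (s36p_lchartMap (s34m_VV G φ M q hq hqM) V
    (s18_chart2 (L₀ := K₀) w₁)
    (s18_chart2 (L₀ := K₀) (s36g_alpha M q w₁)) (s36g_beta M q) 𝔫 hγ) ?_ ?_
  · intro c
    apply s34f_iota_injective (s34x_infRing V) _ 𝔫
    rw [s36p_iota_lchartMap, s34f_iota_algebraMap]
    show s36g_beta M q (algebraMap K₀ (s34m_F K₀ (M * q)) (c : K₀)) =
      algebraMap K₀ (s34m_F K₀ (M * q * q)) (c : K₀)
    exact (heckeBetaBar K₀ (M * q) q).commutes _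
  · intro c hc
    obtain ⟨d, rfl⟩ := (G.π_eq_zero_iff c).mp hc
    rw [map_mul]
    exact 𝔫.mul_mem_right _ hϖ

/-- `x₁⁻ᵠ - w⁻¹ = (w - x₁ᵠ) · (w⁻¹ x₁⁻ᵠ)`. -/
theorem s36m_inv_pow_sub {F : Type*} [Field F] (w x₁ : F) (n : ℕ) (hw : w ≠ 0) (hx : x₁ ≠ 0) :
    x₁⁻¹ ^ n - w⁻¹ = (w - x₁ ^ n) * (w⁻¹ * x₁⁻¹ ^ n) := by
  have h1 : w * w⁻¹ = 1 := mul_inv_cancel₀ hw
  have h2 : x₁ ^ n * x₁⁻¹ ^ n = 1 := by rw [← mul_pow, mul_inv_cancel₀ hx, one_pow]
  calc x₁⁻¹ ^ n - w⁻¹ = (w * w⁻¹) * x₁⁻¹ ^ n - w⁻¹ * (x₁ ^ n * x₁⁻¹ ^ n) := by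
        rw [h1, h2]; ring
    _ = _ := by ring

/-- **`1/w₁` lies in the image point**: `1/x₁ ∈ 𝔪(B_𝔫)` at a polar point on `V 2`, by Kronecker. -/
theorem s36m_inv_mem_lpt (hC : s36g_ValComap G φ M q hq hqM V)
    (x : s34m_F K₀ M) (hx : x ∈ s34m_Vinf G M)
    (hB : s35g_BaseData G φ M q hq hqM (heckeAlphaBar K₀ M q x))
    (hfrob : qExpand κ q (s34m_redInf G M ⟨x, hx⟩) = s34m_redInf G M ⟨x, hx⟩ ^ q)
    (𝔫 : Ideal (s34x_ring (L₀ := K₀) (s34x_infRing V)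
      (s18_chart2 (s36g_alpha M q (heckeAlphaBar K₀ M q x))))) [h𝔫 : 𝔫.IsPrime]
    (hγ : ∀ b ∈ s34x_ring (L₀ := K₀) (s34x_infRing (s34m_VV G φ M q hq hqM))
        (s18_chart2 (heckeAlphaBar K₀ M q x)),
      ∃ z : Localization.AtPrime 𝔫,
        s34f_iota (s34x_infRing V)
          (s18_chart2 (L₀ := K₀) (s36g_alpha M q (heckeAlphaBar K₀ M q x))) 𝔫 z =
          s36g_beta M q b)
    (hpol : ∃ b ∈ 𝔫, (b : s34m_F K₀ (M * q * q)) =
      (s36g_alpha M q (heckeAlphaBar K₀ M q x))⁻¹)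
    (h2 : s36q_compThrough V
      (s18_chart2 (L₀ := K₀) (s36g_alpha M q (heckeAlphaBar K₀ M q x))) 𝔫 2)
    (x' : s34x_ring (L₀ := K₀) (s34x_infRing (s34m_VV G φ M q hq hqM))
      (s18_chart2 (heckeAlphaBar K₀ M q x)))
    (hxw : (x' : s34m_F K₀ (M * q)) = (heckeAlphaBar K₀ M q x)⁻¹) :
    x' ∈ s36p_lpt (s34m_VV G φ M q hq hqM) V
      (s18_chart2 (L₀ := K₀) (heckeAlphaBar K₀ M q x))
      (s18_chart2 (L₀ := K₀) (s36g_alpha M q (heckeAlphaBar K₀ M q x))) (s36g_beta M q) 𝔫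
      hγ := by
  rw [Ideal.mem_comap]
  have hw₁0 : heckeAlphaBar K₀ M q x ≠ 0 := hB.1
  obtain ⟨z, hz⟩ : ∃ z : Localization.AtPrime 𝔫, z = s36p_lchartMap (s34m_VV G φ M q hq hqM) V
      (s18_chart2 (L₀ := K₀) (heckeAlphaBar K₀ M q x))
      (s18_chart2 (L₀ := K₀) (s36g_alpha M q (heckeAlphaBar K₀ M q x))) (s36g_beta M q) 𝔫 hγ x' :=
    ⟨_, rfl⟩
  rw [← hz]
  have hιz : s34f_iota (s34x_infRing V) _ 𝔫 z =
      (s36g_beta M q (heckeAlphaBar K₀ M q x))⁻¹ := by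
    rw [hz, s36p_iota_lchartMap, hxw, map_inv₀]
  obtain ⟨b, hb, hbw⟩ := hpol
  have hzb : algebraMap _ (Localization.AtPrime 𝔫) b ∈
      maximalIdeal (Localization.AtPrime 𝔫) :=
    (IsLocalization.AtPrime.to_map_mem_maximal_iff (Localization.AtPrime 𝔫) 𝔫 _).mpr hb
  have hkron : s36g_alpha M q (heckeAlphaBar K₀ M q x) -
      s36g_beta M q (heckeAlphaBar K₀ M q x) ^ q ∈ (V 2).nonunits := by
    have h1 := s36m_kron_zero_gen G φ M q hq hqM x hx hfrob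
    have h2' := s36q_map_mem_nonunits (s34m_VV G φ M q hq hqM) V (s36g_alpha M q) false 2
      (fun y => (s36b_alpha_mem_iff G φ M q hq hqM hC y).2.2) h1
    rwa [map_sub, map_pow, s36m_alpha_beta_comm] at h2'
  have hwV : (s36g_alpha M q (heckeAlphaBar K₀ M q x))⁻¹ ∈ V 2 := by
    rw [← map_inv₀]
    exact s36b_alpha_mem G φ M q hq hqM hC _ hB.2.2.2.1 2
  have hx₁V : (s36g_beta M q (heckeAlphaBar K₀ M q x))⁻¹ ∈ V 2 := by
    rw [← map_inv₀]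
    exact s36p_beta_mem G φ M q hq hqM hC _ hB.2.2.2.1 2
  have hw0 : s36g_alpha M q (heckeAlphaBar K₀ M q x) ≠ 0 :=
    (_root_.map_ne_zero (s36g_alpha M q)).mpr hw₁0
  have hx₁0 : s36g_beta M q (heckeAlphaBar K₀ M q x) ≠ 0 :=
    (_root_.map_ne_zero (s36g_beta M q)).mpr hw₁0
  have hdiff : z ^ q - algebraMap _ (Localization.AtPrime 𝔫) b ∈
      maximalIdeal (Localization.AtPrime 𝔫) := by
    apply s36q_red_ker_le V _ 𝔫 2 h2
    rw [s36q_red_eq_zero_iff, map_sub, map_pow, hιz, s34f_iota_algebraMap, hbw]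
    rw [s36m_inv_pow_sub _ _ q hw0 hx₁0]
    exact s36y_mul_mem_nonunits' (V 2) hkron ((V 2).mul_mem _ _ hwV (pow_mem hx₁V q))
  have hzq : z ^ q ∈ maximalIdeal (Localization.AtPrime 𝔫) := by
    have := Ideal.add_mem _ hdiff hzb
    rwa [sub_add_cancel] at this
  exact (Ideal.IsMaximal.isPrime' _).mem_of_pow_mem q hzq

/-- **(REG2) at the polar points of chart 2 on the component `V 2` only** (`γ = β'`, local
frame). -/
theorem s36m_geoReg2Only_two (hπ : Function.Surjective G.π)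
    (hP : s36g_ValPkg G φ M q hq hqM V (s36m_t (K₀ := K₀) M q))
    (x : s34m_F K₀ M) (hx : x ∈ s34m_Vinf G M)
    (hB : s35g_BaseData G φ M q hq hqM (heckeAlphaBar K₀ M q x))
    (hsat : ∀ Q : Place K₀ (s34m_F K₀ (M * q * q)),
      s36g_alpha M q (heckeAlphaBar K₀ M q x) ∈ Q.toValuationSubring ↔
        s36g_beta M q (heckeAlphaBar K₀ M q x) ∈ Q.toValuationSubring)
    (hfrob : qExpand κ q (s34m_redInf G M ⟨x, hx⟩) = s34m_redInf G M ⟨x, hx⟩ ^ q)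
    (P : ℤ[X]) (hPm : P.Monic) (a : ℕ) (hdeg : P.natDegree = a + 1) (hc0 : a ≠ 0 → P.coeff 0 ≠ 0)
    (r : s18g_jF (K := K₀) M * x ^ a = aeval x P) (m : ℕ) (hm : m ≠ 0) :
    s36g_GeoReg2Only G φ M q hq hqM hP.1 (heckeAlphaBar K₀ M q x) m 2 := by
  intro 𝔫 h𝔫 hϖ hpol h2 honly
  haveI := h𝔫.isPrime
  have hC := hP.1
  have hU := hP.2.1
  have hR := hP.2.2.1
  have hCompl := hP.2.2.2.1
  have hInd := hP.2.2.2.2.1
  have hw₁0 : heckeAlphaBar K₀ M q x ≠ 0 := hB.1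
  have hD₁ := s35g_dict₂ G φ M q hq hqM (heckeAlphaBar K₀ M q x) hB
  have hB₂ := s36b_baseData₂_of_base G φ M q hq hqM hC hCompl hInd (heckeAlphaBar K₀ M q x) hB
  have hD₂ := s36b_dict₂ G φ M q hq hqM hC hU _ hB₂
  obtain ⟨-, F1₂, F2₂, F3₂⟩ := id hD₂
  have hγ := s36m_beta_local G φ M q hq hqM hC hU x hB hsat P hPm a hdeg hc0 r F3₂ 𝔫 hpol
  have hcomap : ∀ y : s34m_F K₀ (M * q), s36g_beta M q y ∈ V 2 ↔
      y ∈ s34m_VV G φ M q hq hqM false :=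
    fun y => (s36q_beta_mem_iff G φ M q hq hqM hC y).2.2
  -- the image point is a closed point
  haveI hmax'' := s36m_lpt_isMaximal G φ M q hq hqM hπ hC (heckeAlphaBar K₀ M q x) hB₂ 𝔫 h𝔫 hϖ hγ
  haveI hprime'' := hmax''.isPrime
  -- `V'_0` passes through the image point
  have hthF := s36p_compThrough_lpt (s34m_VV G φ M q hq hqM) V
    (s18_chart2 (L₀ := K₀) (heckeAlphaBar K₀ M q x))
    (s18_chart2 (L₀ := K₀) (s36g_alpha M q (heckeAlphaBar K₀ M q x))) (s36g_beta M q) 𝔫 hγ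
    false 2 hcomap h2
  -- the cusp data of level `M q`
  have rq := s36m_hauptZ_level (K₀ := K₀) M q x P a r
  obtain ⟨x', ε, hxw, hjx, hdata⟩ := s36m_cuspData_polar (L₀ := K₀) (s34m_VV G φ M q hq hqM) P hPm
    a hdeg (s18g_jF (K := K₀) (M * q)) (heckeAlphaBar K₀ M q x) hw₁0 rq hB.2.2.2.1
  have hx'' := s36m_inv_mem_lpt G φ M q hq hqM hC x hx hB hfrob 𝔫 hγ hpol h2 x' hxw
  have hε'' := hdata _ hprime'' hx''
  -- only `V'_0` passes through the image point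
  obtain ⟨z₀, hz₀m, hz₀⟩ := s36m_z0_of_data (s34m_VV G φ M q hq hqM)
    (s18_chart2 (L₀ := K₀) (heckeAlphaBar K₀ M q x)) _ x' ε hx'' hε'' _ hjx
  have hsingle := s36m_polar_single G φ M q hq hqM
    (s18_chart2 (L₀ := K₀) (heckeAlphaBar K₀ M q x)) _ hD₁.2.2.2 z₀ hz₀m hz₀
  have hmiss : ¬ s36q_compThrough (s34m_VV G φ M q hq hqM)
      (s18_chart2 (L₀ := K₀) (heckeAlphaBar K₀ M q x)) _ (!false) :=
    fun hT => hsingle ⟨hT, hthF⟩
  have hϖ'' : s35gd_unifB G φ M q hq hqM (s18_chart2 (L₀ := K₀) (heckeAlphaBar K₀ M q x)) ∈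
      s36p_lpt (s34m_VV G φ M q hq hqM) V
        (s18_chart2 (L₀ := K₀) (heckeAlphaBar K₀ M q x))
        (s18_chart2 (L₀ := K₀) (s36g_alpha M q (heckeAlphaBar K₀ M q x))) (s36g_beta M q) 𝔫 hγ :=
    hthF _ (s36e_unif_mem_nonunits_VV G φ M q hq hqM false)
  obtain ⟨t, -, hm', htn⟩ := s36e_smooth_pt G φ M q hq hqM
    (s18_chart2 (L₀ := K₀) (heckeAlphaBar K₀ M q x)) hB.2.2.2.2.2.2.2.2
    (s36e_finiteType_chart2 G φ M q hq hqM _ hB) hπ _ hϖ'' false hthF hmiss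
  haveI := hD₁.1
  haveI := hD₂.1
  exact s36p_out_reg_loc (s34m_VV G φ M q hq hqM) V
    (s18_chart2 (L₀ := K₀) (heckeAlphaBar K₀ M q x))
    (s18_chart2 (L₀ := K₀) (s36g_alpha M q (heckeAlphaBar K₀ M q x))) (s36g_beta M q) 𝔫 hγ
    false 2 hcomap (s36b_arch G M q hq hU) h2 honly F1₂ F2₂ F3₂
    (algebraMap _ _ t) (algebraMap _ _ (s35gd_unifB G φ M q hq hqM
      (s18_chart2 (L₀ := K₀) (heckeAlphaBar K₀ M q x)))) hm'
    (by rw [s34f_iota_algebraMap]; exact s36e_unif_mem_nonunits_VV G φ M q hq hqM false)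
    (by rw [s34f_iota_algebraMap]; exact htn)
    (s36q_frac_beta_2 G φ M q hq hqM _ hC hR hB.2.2.2.2.2.2.2.2 hπ)
    (s34x_const (s34x_infRing V) _ ((G.ϖ : G.A) : K₀)
      (s34x_inf_const_mem V G.A (s36b_const_mem G φ M q hq hqM hC) G.ϖ))
    (s34m_unif_ne_zero G (M * q * q)) (hU.1 2) hU.2.2.1
    (fun Q _ => ffh_ord_algebraMap Q (s18g_unifK_ne_zero G)) m hm

/-- **(REG2) at the polar points of chart 2 on `V 2` only, from `s36g_BaseFull`** — the leaf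
`s36g_GeoReg2Only … m 2`. -/
theorem s36m_geoReg2Only_two_of_baseFull (hπ : Function.Surjective G.π)
    (hP : s36g_ValPkg G φ M q hq hqM V (s36m_t (K₀ := K₀) M q))
    (x : s34m_F K₀ M) (hx : x ∈ s34m_Vinf G M) (hBF : s36g_BaseFull G φ M q hq hqM x hx)
    (m : ℕ) (hm : m ≠ 0) :
    s36g_GeoReg2Only G φ M q hq hqM hP.1 (heckeAlphaBar K₀ M q x) m 2 := by
  obtain ⟨P, a, hPm, hdeg, r, hc⟩ := s36m_hauptZ_of_baseFull G φ M q hq hqM x hx hBF
  exact s36m_geoReg2Only_two G φ M q hq hqM hπ hP x hx hBF.1 hBF.2.1 hBF.2.2.1 P hPm a hdeg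
    (s36m_hauptZ_c0 hq P a hc) r m hm

end Final

end Fermat.Agent.Lib.S36
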