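/-
S36 mega-project, layer (X1) (helper1), part 22: **the leaf `s36g_LeafCross` (R-q)** assembled from
helper4's `s36r_crossReg_of_explicit` (`RLeafCross.lean`), helper7's `s36l_explicit_of_baseFull`
(`LExplicit.lean`) and `s36l_coe_of_baseFull`, and the two inputs
`s36b_cross_isMaximal` (crossings are closed points, `XCrossMax.lean`) and
`s36b_cross_noncusp_of_coe` (crossings are not cuspidal, `XCrossNC.lean`).
-/
import Fermat.Agent.Lib.S36.XCrossMax
import Fermat.Agent.Lib.S36.RLeafCross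
import Fermat.Agent.Lib.S36.LExplicit
import Fermat.Agent.Lib.S36.LTripleLeaf
import Fermat.Agent.Lib.S36.GInGeo

set_option autoImplicit false
set_option linter.unusedSectionVars false
set_option linter.style.haveILetI false

noncomputable section

namespace Fermat.Agent.Lib.S36

open Polynomial ModularCurve AlgebraicCurve HahnSeries Fermat.Agent.Lib.FF Fermat.Agent.Lib.S18
  Fermat.Agent.Lib.S28 Fermat.Agent.Lib.S37 Fermat.Agent.Lib.S34 Fermat.Agent.Lib.S35 IsLocalRing

local notation "Kb" => AlgebraicClosure ℚ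

variable (M q : ℕ) [NeZero M] [NeZero q] (hq : q.Prime) (hqM : ¬ q ∣ M)

/-- **(R-q): the leaf `s36g_LeafCross`** at the levels with `ν₂(M) = ν₃(M) = 0`. -/
theorem s36b_leafCross (h2 : nuTwo M = 0) (h3 : nuThree M = 0) : s36g_LeafCross M q hq hqM := by
  intro K₀ _ _ φ κ _ _ _ G _ hπ hϖ x hx hBF
  have hcoe := s36l_coe_of_baseFull G φ M q hq hqM x hx hBF
  have hunr : ∃ ε : G.A, IsUnit ε ∧ ((q : ℕ) : G.A) = G.ϖ * ε := by
    refine ⟨1, isUnit_one, ?_⟩
    rw [mul_one]
    apply Subtype.ext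
    rw [hϖ]
    exact map_natCast G.A.subtype q
  exact s36r_crossReg_of_explicit G φ M q hq hqM h2 h3 hπ hunr x
    (s36l_explicit_of_baseFull M q hq hqM K₀ φ κ G hπ x hx hBF) hBF.1
    (fun 𝔫 _ h1 h2 => s36b_cross_isMaximal G φ M q hq hqM x hx hπ hBF.1 hBF.2.2.2.2.1 𝔫 h1 h2)
    (fun 𝔫 _ h1 h2 Q hQ hth =>
      (s36b_cross_noncusp_of_coe G φ M q hq hqM hπ x hBF.1 hcoe 𝔫 h1 h2 Q hQ hth).2)

/-- (R-q) at the good levels, in the shape of the first hypothesis of `s36g_core_of_leaves` /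
`s36m_core_of_open_leaves`. -/
theorem s36b_leafCross_good :
    ∀ (M q : ℕ) [NeZero M] [NeZero q] (hq : q.Prime) (hqM : ¬ q ∣ M), s36g_GoodLevel q M →
      s36g_LeafCross M q hq hqM :=
  fun M q _ _ hq hqM hgood => s36b_leafCross M q hq hqM hgood.2.1 hgood.2.2.1

end Fermat.Agent.Lib.S36
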