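/-
S36 mega-project (helper6): **`s36g_Core` FROM THE SINGLE OPEN LEAF `s36m_LeafMid`**.

* `s36m_leafTwo`        : the leaf `s36m_LeafTwo` (`s36g_GeoReg2Only … m 2`, `MReg2Two.lean`);
* `s36m_leafReg_of_mid` : `s36g_LeafReg` from `s36m_LeafMid`;
* `s36m_core_of_leafMid`: `s36g_Core` from `s36m_LeafMid` at the good levels ((R-q) is helper1's
  `s36b_leafCross_good`).
-/
import Fermat.Agent.Lib.S36.MLeafReg
import Fermat.Agent.Lib.S36.MReg2Two
import Fermat.Agent.Lib.S36.XLeafCross

set_option autoImplicit false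
set_option linter.unusedSectionVars false
set_option linter.style.haveILetI false
set_option synthInstance.maxHeartbeats 400000

noncomputable section

namespace Fermat.Agent.Lib.S36

open ModularCurve AlgebraicCurve HahnSeries Fermat.Agent.Lib.FF Fermat.Agent.Lib.S18
  Fermat.Agent.Lib.S37 Fermat.Agent.Lib.S34 Fermat.Agent.Lib.S35 IsLocalRing

local notation "Kb" => AlgebraicClosure ℚ

variable (M q : ℕ) [NeZero M] [NeZero q] (hq : q.Prime) (hqM : ¬ q ∣ M)

/-- **the leaf "polar points of chart 2 on `V 2` only".** -/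
theorem s36m_leafTwo : s36m_LeafTwo M q hq hqM := by
  intro K₀ _ _ φ κ _ _ _ G _ hπ _ V hP x hx hBF _ m hm0
  exact s36m_geoReg2Only_two_of_baseFull G φ M q hq hqM hπ hP x hx hBF m hm0

/-- **`s36g_LeafReg` from the single open leaf `s36m_LeafMid`.** -/
theorem s36m_leafReg_of_mid (h2 : nuTwo M = 0) (h3 : nuThree M = 0)
    (hMid : s36m_LeafMid M q hq hqM) : s36g_LeafReg M q hq hqM :=
  s36m_leafReg M q hq hqM h2 h3 hMid (s36m_leafTwo M q hq hqM)

/-- **`s36g_Core` from the single open leaf `s36m_LeafMid`** (at the good levels). -/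
theorem s36m_core_of_leafMid
    (hMid : ∀ (M q : ℕ) [NeZero M] [NeZero q] (hq : q.Prime) (hqM : ¬ q ∣ M),
      s36g_GoodLevel q M → s36m_LeafMid M q hq hqM) : s36g_Core :=
  s36m_core_of_open_leaves s36b_leafCross_good hMid
    (fun M q _ _ hq hqM _ => s36m_leafTwo M q hq hqM)

end Fermat.Agent.Lib.S36
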