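/-
S36 mega-project, layer (X1) (helper1), part 26 (board #1848): **`s36m_LeafMid` from the level-`M q`
datum `(t, Θ_t)`** — the glue between helper4's planned `s36r_mid_theta_of_explicit` ((M1+M2), here the
contract `s36b_MidTheta`), helper8's `s36k_mid_noncusp_of_theta` ((M3+M5), `KMidReg.lean`) and the case
split `s36b_leafMid_of_noncusp` ((M6), `XLeafMid.lean`); image point data from lead's `s36e_img_alpha`,
`s36e_img_unif_mem`; `s36k_Explicit` from helper7's `s36l_explicit_of_baseFull`.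

* `s36b_MidTheta M q hq hqM` : at a maximal ideal `𝔪' ∋ ϖ` of chart 1 of `α w` (level `M q`) lying on
  `V'_∞`, with `j` regular at the places through `𝔪'`: a level-`M` function `t ∈ BM` with `θ(t̄) ≠ 0` and
  `Θ ∈ V'_∞ˣ` with `red Θ = (θ t̄)^(q-1)` and `ord_Q Θ = 0` at the places through `𝔪'`;
* `s36b_midNonCusp_of_theta : s36b_MidTheta → s36b_MidNonCusp`;
* **`s36b_leafMid_of_theta : s36b_MidTheta → s36m_LeafMid`**.
-/
import Fermat.Agent.Lib.S36.XLeafMid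
import Fermat.Agent.Lib.S36.KMidReg
import Fermat.Agent.Lib.S36.REisOutC1
import Fermat.Agent.Lib.S36.LExplicit

set_option autoImplicit false
set_option linter.unusedSectionVars false
set_option linter.style.haveILetI false
set_option synthInstance.maxHeartbeats 400000

noncomputable section

namespace Fermat.Agent.Lib.S36

open Polynomial ModularCurve AlgebraicCurve HahnSeries Fermat.Agent.Lib.FF Fermat.Agent.Lib.S18
  Fermat.Agent.Lib.S28 Fermat.Agent.Lib.S37 Fermat.Agent.Lib.S34 Fermat.Agent.Lib.S35 IsLocalRing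

local notation "Kb" => AlgebraicClosure ℚ

variable (M q : ℕ) [NeZero M] [NeZero q] (hq : q.Prime) (hqM : ¬ q ∣ M)

/-- **The contract (M1+M2)** (helper4's `s36r_mid_theta_of_explicit`, ∀-closed). -/
def s36b_MidTheta : Prop :=
  ∀ {K₀ : Type} [Field K₀] [CharZero K₀] [Algebra ℚ K₀] {κ : Type} [Field κ]
    (G : s18g_GaussData K₀ κ) (φ : K₀ →+* Kb) [CharP κ q] [PerfectField κ]
    [IsDiscreteValuationRing G.A],
    nuTwo M = 0 → nuThree M = 0 → Function.Surjective G.π → G.π ((q : ℕ) : G.A) = 0 →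
    ∀ (w : s34m_F K₀ M) (_ : s36k_Explicit G φ M q hq hqM w)
      (_ : s35g_BaseData G φ M q hq hqM (heckeAlphaBar K₀ M q w))
      (𝔪' : Ideal (s34x_ring (s34x_infRing (s34m_VV G φ M q hq hqM))
        (s18_chart1 (L₀ := K₀) (heckeAlphaBar K₀ M q w)))) [𝔪'.IsMaximal],
      s35gd_unifB G φ M q hq hqM (s18_chart1 (L₀ := K₀) (heckeAlphaBar K₀ M q w)) ∈ 𝔪' →
      s36q_compThrough (s34m_VV G φ M q hq hqM)
        (s18_chart1 (L₀ := K₀) (heckeAlphaBar K₀ M q w)) 𝔪' true →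
      (∀ Q ∈ s18_chart1 (L₀ := K₀) (heckeAlphaBar K₀ M q w),
        s34f_through (s34x_infRing (s34m_VV G φ M q hq hqM))
          (s18_chart1 (L₀ := K₀) (heckeAlphaBar K₀ M q w)) 𝔪' Q →
        0 ≤ Q.ord (s18g_jF (K := K₀) (M * q))) →
      ∃ t : s34m_Vinf G M,
        (t : s34m_F K₀ M) ∈ (s18_ring (L₀ := K₀) (s34m_Vinf G M) (s18_chart1 w) :
          Set (s34m_F K₀ M)) ∧
        ffd_theta (s34m_redInf G M t) ≠ 0 ∧
        ∃ Θ : s34m_F K₀ (M * q), Θ ≠ 0 ∧ Θ⁻¹ ∈ s34m_Vinf G (M * q) ∧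
          (∃ hΘV : Θ ∈ s34m_Vinf G (M * q), s34m_redInf G (M * q) ⟨Θ, hΘV⟩ =
            ffd_theta (s34m_redInf G M t) ^ (q - 1)) ∧
          ∀ Q ∈ s18_chart1 (L₀ := K₀) (heckeAlphaBar K₀ M q w),
            s34f_through (s34x_infRing (s34m_VV G φ M q hq hqM))
              (s18_chart1 (L₀ := K₀) (heckeAlphaBar K₀ M q w)) 𝔪' Q → Q.ord Θ = 0

/-- the non-cuspidal half of `s36m_LeafMid` from the datum `(t, Θ_t)`. -/
theorem s36b_midNonCusp_of_theta (h2 : nuTwo M = 0) (h3 : nuThree M = 0)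
    (hT : s36b_MidTheta M q hq hqM) :
    s36b_MidNonCusp M q hq hqM := by
  intro K₀ _ _ φ κ _ _ _ G _ hπ hϖ V hP x hx hBF hX m hm 𝔫 h𝔫 hϖ𝔫 h1 honly hj
  haveI := h𝔫
  have hE := s36l_explicit_of_baseFull M q hq hqM K₀ φ κ G hπ x hx hBF
  have hnot2 : ¬ s36q_compThrough V
      (s18_chart1 (L₀ := K₀) (s36g_alpha M q (heckeAlphaBar K₀ M q x))) 𝔫 2 := fun h =>
    absurd (honly 2 h) (by decide)
  obtain ⟨hmax, hthT, -, -⟩ := s36e_img_alpha G φ M q hq hqM hP.1 hP.2.1 hP.2.2.2.1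
    hP.2.2.2.2.1 hP.2.2.1 hπ _ hBF.1 hX 𝔫 hϖ𝔫 hnot2
  haveI := hmax
  have hϖ' := s36e_img_unif_mem G φ M q hq hqM (heckeAlphaBar K₀ (M * q) q) hP.1
    (s18_chart1 (L₀ := K₀) (heckeAlphaBar K₀ M q x))
    (s18_chart1 (L₀ := K₀) (s36g_alpha M q (heckeAlphaBar K₀ M q x)))
    (s36p_chart1_alpha G φ M q hq hqM hP.1 (heckeAlphaBar K₀ M q x) hBF.1) 𝔫 hϖ𝔫
  have hπq : G.π ((q : ℕ) : G.A) = 0 := by
    rw [G.π_eq_zero_iff]
    refine ⟨1, ?_⟩
    rw [mul_one]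
    apply Subtype.ext
    rw [hϖ]
    exact map_natCast G.A.subtype q
  exact s36k_mid_noncusp_of_theta G φ M q hq hqM hπ hϖ hP x hE hBF.1 hBF.2.1 hX m hm 𝔫 h𝔫 hϖ𝔫
    h1 honly (hT G φ h2 h3 hπ hπq x hE hBF.1 _ hϖ' hthT hj)

/-- **`s36m_LeafMid` from the datum `(t, Θ_t)`.** -/
theorem s36b_leafMid_of_theta (h2 : nuTwo M = 0) (h3 : nuThree M = 0)
    (hT : s36b_MidTheta M q hq hqM) :
    s36m_LeafMid M q hq hqM :=
  s36b_leafMid_of_noncusp M q hq hqM h2 h3 (s36b_midNonCusp_of_theta M q hq hqM h2 h3 hT)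

end Fermat.Agent.Lib.S36
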