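/-
S36 mega-project (helper6): **`s36g_Core` — the closing term.**

`s36g_Core` from: (R-q) helper1's `s36b_leafCross_good`; the leaf `s36m_LeafTwo` (`MReg2Two.lean`);
the leaf `s36m_LeafMid` = helper1's `s36b_leafMid_of_theta` applied to helper4's
`s36r_mid_theta_of_explicit`.
-/
import Fermat.Agent.Lib.S36.MLeafFinal
import Fermat.Agent.Lib.S36.XLeafMidGlue
import Fermat.Agent.Lib.S36.RMidTheta

set_option autoImplicit false
set_option linter.unusedSectionVars false
set_option linter.style.haveILetI false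
set_option synthInstance.maxHeartbeats 400000

noncomputable section

namespace Fermat.Agent.Lib.S36

open ModularCurve AlgebraicCurve HahnSeries Fermat.Agent.Lib.FF Fermat.Agent.Lib.S18
  Fermat.Agent.Lib.S37 Fermat.Agent.Lib.S34 Fermat.Agent.Lib.S35 IsLocalRing

local notation "Kb" => AlgebraicClosure ℚ

variable (M q : ℕ) [NeZero M] [NeZero q] (hq : q.Prime) (hqM : ¬ q ∣ M)

/-- the contract `s36b_MidTheta` holds (helper4's `s36r_mid_theta_of_explicit`). -/
theorem s36m_midTheta : s36b_MidTheta M q hq hqM := by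
  intro K₀ _ _ _ κ _ G φ _ _ _ h2 h3 hπ hπq w hE hB 𝔪' _ hϖ hth hj
  exact s36r_mid_theta_of_explicit G φ M q hq hqM h2 h3 hπ hπq w hE hB 𝔪' hϖ hth hj

/-- **the leaf `s36m_LeafMid`.** -/
theorem s36m_leafMid (h2 : nuTwo M = 0) (h3 : nuThree M = 0) : s36m_LeafMid M q hq hqM :=
  s36b_leafMid_of_theta M q hq hqM h2 h3 (s36m_midTheta M q hq hqM)

/-- **`s36g_Core`.** -/
theorem s36m_core : s36g_Core :=
  s36m_core_of_leafMid fun M q _ _ hq hqM hgood =>
    s36m_leafMid M q hq hqM hgood.2.1 hgood.2.2.1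

end Fermat.Agent.Lib.S36
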