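/-
S36 mega-project, layer (M), contract (C2) of helper6 (#1734), abstract part (helper3, prefix
`s36m_cy`): the totally ramified cyclotomic extension of a discretely valued field, UNRAMIFIED over
the prime `q`, by a primitive `q`-th root of unity.

* `s36m_cy_max`  : terms `t i`, `i < m`, with values `γ ^ (m n_i + i)` (`0 < γ < 1`) have pairwise
  distinct values, so the value of their sum is the largest one.
* `s36m_cy_abs`  : `ψ : K₀ → K₁` fields, `G` Gauss data on `K₀` with `q = ϖ · unit`, `ξ₁ ∈ K₁` a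
  primitive `q`-th root of unity, `K₁ = Σ_{i<q-1} ψ(K₀) (ξ₁ - 1)^i`  ⟹  Gauss data `G₁` on `K₁`
  with the SAME residue target `κ`, dominating `G` (`ψ a ∈ G₁.A ↔ a ∈ G.A`, `G₁.π ∘ ψ = G.π`),
  uniformiser `ξ₁ - 1`, and `ψ ϖ = unit · (ξ₁ - 1)^(q-1)`.  (Any valuation ring of `K₁` dominating
  `ψ(G.A)`: Mathlib `IsLocalRing.exists_factor_valuationRing`; cyclotomic units:
  `IsPrimitiveRoot.prod_one_sub_pow_eq_order`, `associated_sub_one_pow_sub_one_of_coprime`.)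
* `s36m_cy_span` : `K₀(ξ)` is spanned over `K₀` by `(ξ - 1)^i`, `i < q - 1`.
-/
import Mathlib
import Fermat.Agent.Lib.S18.GO

set_option autoImplicit false

noncomputable section

namespace Fermat.Agent.Lib.S36

open Polynomial Fermat.Agent.Lib.S18

theorem s36m_cy_exp_ne (m : ℕ) (n : ℤ) (k : ℕ) (hk0 : 0 < k) (hkm : k < m) :
    (m : ℤ) * n + k ≠ 0 := by
  intro h
  have h1 : ((m : ℤ) * n + k) % m = 0 := by rw [h]; simp
  rw [add_comm, Int.add_mul_emod_self_left,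
    Int.emod_eq_of_lt (by positivity) (by exact_mod_cast hkm)] at h1
  omega

/-- distinct exponents: the terms `t i`, `i < m`, with values `γ ^ (m n_i + i)` have pairwise
distinct values, so the value of the sum is the largest one. -/
theorem s36m_cy_max {K Γ₀ : Type*} [Field K] [LinearOrderedCommGroupWithZero Γ₀]
    (v : Valuation K Γ₀) (γ : Γ₀) (hγ0 : γ ≠ 0) (hγ1 : γ < 1) (m : ℕ) (t : ℕ → K)
    (ht : ∀ i < m, t i ≠ 0 → ∃ n : ℤ, v (t i) = γ ^ ((m : ℤ) * n + i))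
    (hx : ∑ i ∈ Finset.range m, t i ≠ 0) :
    ∃ j < m, t j ≠ 0 ∧ v (∑ i ∈ Finset.range m, t i) = v (t j) ∧ ∀ i < m, v (t i) ≤ v (t j) := by
  classical
  have hm : m ≠ 0 := by
    rintro rfl
    simp at hx
  obtain ⟨j, hj, hmax⟩ := Finset.exists_max_image (Finset.range m) (fun i => v (t i))
    ⟨0, by simp; omega⟩
  obtain ⟨i0, hi0, hti0⟩ := Finset.exists_ne_zero_of_sum_ne_zero hx
  rw [Finset.mem_range] at hj
  have htj : t j ≠ 0 := by
    intro h
    have h1 := hmax i0 hi0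
    simp only [h, map_zero, le_zero_iff] at h1
    exact hti0 ((v.zero_iff).mp h1)
  have hγpos : 0 < γ := zero_lt_iff.mpr hγ0
  refine ⟨j, hj, htj, ?_, fun i hi => hmax i (Finset.mem_range.mpr hi)⟩
  refine v.map_sum_eq_of_lt (Finset.mem_range.mpr hj) ?_
  intro i hi
  rw [Finset.mem_sdiff, Finset.mem_range, Finset.mem_singleton] at hi
  refine lt_of_le_of_ne (hmax i (Finset.mem_range.mpr hi.1)) ?_
  intro heq
  by_cases hti : t i = 0
  · rw [hti, map_zero] at heq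
    exact htj ((v.zero_iff).mp heq.symm)
  · obtain ⟨n, hn⟩ := ht i hi.1 hti
    obtain ⟨n', hn'⟩ := ht j hj htj
    rw [hn, hn'] at heq
    have hinj := zpow_right_injective₀ hγpos (ne_of_lt hγ1) heq
    have h1 : ((m : ℤ) * n + i) % m = ((m : ℤ) * n' + j) % m := by
      rw [hinj]
    rw [add_comm, Int.add_mul_emod_self_left, add_comm, Int.add_mul_emod_self_left] at h1
    have h2 : ((i : ℤ) % m) = i := Int.emod_eq_of_lt (by positivity) (by exact_mod_cast hi.1)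
    have h3 : ((j : ℤ) % m) = j := Int.emod_eq_of_lt (by positivity) (by exact_mod_cast hj)
    rw [h2, h3] at h1
    exact hi.2 (by exact_mod_cast h1)

/-- **The abstract cyclotomic extension of Gauss data.** -/
theorem s36m_cy_abs {K₀ K₁ κ : Type*} [Field K₀] [Field K₁] [Field κ] (G : s18g_GaussData K₀ κ)
    (ψ : K₀ →+* K₁) (q : ℕ) (hq : q.Prime)
    (hunr : ∃ u : G.A, IsUnit u ∧ ((q : ℕ) : G.A) = G.ϖ * u)
    (ξ₁ : K₁) (hξ : IsPrimitiveRoot ξ₁ q)
    (hspan : ∀ x : K₁, ∃ a : ℕ → K₀, x = ∑ i ∈ Finset.range (q - 1), ψ (a i) * (ξ₁ - 1) ^ i) :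
    ∃ G₁ : s18g_GaussData K₁ κ,
      (∀ a : K₀, ψ a ∈ G₁.A ↔ a ∈ G.A) ∧
      (∀ (a : K₀) (h : a ∈ G.A) (h' : ψ a ∈ G₁.A), G₁.π ⟨ψ a, h'⟩ = G.π ⟨a, h⟩) ∧
      ξ₁ ∈ G₁.A ∧ ((G₁.ϖ : G₁.A) : K₁) = ξ₁ - 1 ∧
      ∃ u : K₁, u ∈ G₁.A ∧ u⁻¹ ∈ G₁.A ∧ ψ ((G.ϖ : G.A) : K₀) = u * (ξ₁ - 1) ^ (q - 1) := by
  classical
  have hq2 : 2 ≤ q := hq.two_le
  -- the dominating valuation ring
  obtain ⟨A₁, hmem, hloc⟩ := IsLocalRing.exists_factor_valuationRing (ψ.comp G.A.subtype)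
  set v := A₁.valuation with hv
  -- domination
  have hd1 : ∀ a : G.A, v (ψ a) ≤ 1 := fun a => (A₁.valuation_le_one_iff _).mpr (hmem a)
  have hd2 : ∀ a : G.A, ¬ IsUnit a → v (ψ a) < 1 := by
    intro a ha
    refine lt_of_le_of_ne (hd1 a) (fun h1 => ha ?_)
    have h2 : IsUnit ((ψ.comp G.A.subtype).codRestrict A₁.toSubring hmem a) :=
      (A₁.valuation_eq_one_iff ⟨ψ a, hmem a⟩).mpr h1
    exact hloc.map_nonunit a h2
  have hd3 : ∀ a : G.A, IsUnit a → v (ψ a) = 1 := by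
    intro a ha
    obtain ⟨b, hb⟩ := ha.exists_right_inv
    have h1 : v (ψ a) * v (ψ b) = 1 := by
      rw [← map_mul, ← map_mul]
      have := congrArg (fun z : G.A => ψ (z : K₀)) hb
      simp only [MulMemClass.coe_mul, OneMemClass.coe_one, map_one] at this
      rw [this, map_one]
    refine le_antisymm (hd1 a) ?_
    calc (1 : A₁.ValueGroup) = v (ψ a) * v (ψ b) := h1.symm
      _ ≤ v (ψ a) * 1 := mul_le_mul' le_rfl (hd1 b)
      _ = v (ψ a) := mul_one _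
  -- the root of unity is a unit of `A₁`
  have hξv : v ξ₁ = 1 := by
    have h1 : v ξ₁ ^ q = 1 := by rw [← map_pow, hξ.pow_eq_one, map_one]
    exact (pow_eq_one_iff.mp h1).resolve_right (by omega)
  have hξmem : ξ₁ ∈ A₁ := (A₁.valuation_le_one_iff _).mp (le_of_eq hξv)
  have hζ : IsPrimitiveRoot (⟨ξ₁, hξmem⟩ : A₁) q :=
    IsPrimitiveRoot.of_map_of_injective (f := A₁.subtype) hξ Subtype.val_injective
  set γ := v (ξ₁ - 1) with hγ
  have hassoc : ∀ j : ℕ, j.Coprime q → v (ξ₁ ^ j - 1) = γ := by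
    intro j hj
    obtain ⟨u, hu⟩ := hζ.associated_sub_one_pow_sub_one_of_coprime hj
    have h1 := congrArg (fun z : A₁ => v (z : K₁)) hu
    have hu1 : v ((u : A₁) : K₁) = 1 := (A₁.valuation_eq_one_iff _).mp u.isUnit
    simp only [MulMemClass.coe_mul, AddSubgroupClass.coe_sub, OneMemClass.coe_one,
      SubmonoidClass.coe_pow, map_mul, hu1, mul_one] at h1
    exact h1.symm
  have hprod : (q : K₁) = ∏ k ∈ Finset.range (q - 1), (1 - ξ₁ ^ (k + 1)) := by
    have hξ' : IsPrimitiveRoot ξ₁ ((q - 1) + 1) := by rwa [Nat.sub_add_cancel (by omega)]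
    rw [hξ'.prod_one_sub_pow_eq_order]
    have : ((q - 1 : ℕ) : K₁) + 1 = ((q - 1 + 1 : ℕ) : K₁) := by push_cast; ring
    rw [this, Nat.sub_add_cancel (by omega)]
  have hvq : v (q : K₁) = γ ^ (q - 1) := by
    rw [hprod, map_prod]
    have : ∀ k ∈ Finset.range (q - 1), v (1 - ξ₁ ^ (k + 1)) = γ := by
      intro k hk
      rw [Finset.mem_range] at hk
      rw [← v.map_neg, neg_sub]
      refine hassoc (k + 1) ?_
      exact (Nat.coprime_of_lt_prime (by omega) (by omega) hq).symm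
    rw [Finset.prod_congr rfl this, Finset.prod_const, Finset.card_range]
  have hvϖ : v (ψ ((G.ϖ : G.A) : K₀)) = γ ^ (q - 1) := by
    obtain ⟨u, hu, hqu⟩ := hunr
    have h1 : (q : K₁) = ψ ((G.ϖ : G.A) : K₀) * ψ ((u : G.A) : K₀) := by
      have := congrArg (fun z : G.A => ψ (z : K₀)) hqu
      simpa using this
    rw [← hvq, h1, map_mul, hd3 u hu, mul_one]
  have hγ0 : γ ≠ 0 := by
    rw [hγ, Ne, v.zero_iff, sub_eq_zero]
    exact hξ.ne_one (by omega)
  have hγpos : 0 < γ := zero_lt_iff.mpr hγ0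
  have hγ1 : γ < 1 := by
    by_contra h
    push Not at h
    have h1 : 1 ≤ γ ^ (q - 1) := one_le_pow_of_one_le' h _
    have h2 := hd2 G.ϖ (s18g_not_isUnit_unif G)
    rw [hvϖ] at h2
    exact absurd h1 (not_le.mpr h2)
  -- values of the elements of `K₀`
  have hvalA : ∀ a : G.A, a ≠ 0 → ∃ n : ℕ, v (ψ (a : K₀)) = γ ^ ((q - 1) * n) := by
    intro a ha
    obtain ⟨n, y, hy, hdvd⟩ := G.exists_pow_mul a ha
    have hyu : IsUnit y := by
      by_contra h
      exact hdvd (s18g_dvd_of_not_isUnit G y h)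
    refine ⟨n, ?_⟩
    rw [hy]
    push_cast
    rw [map_mul, map_pow, map_mul, map_pow, hvϖ, hd3 y hyu, mul_one, ← pow_mul]
  have hval : ∀ a : K₀, a ≠ 0 → ∃ n : ℤ, v (ψ a) = γ ^ (((q - 1 : ℕ) : ℤ) * n) := by
    intro a ha
    rcases G.A.mem_or_inv_mem a with h | h
    · obtain ⟨n, hn⟩ := hvalA ⟨a, h⟩ (by simpa [Subtype.ext_iff] using ha)
      refine ⟨n, ?_⟩
      rw [hn]
      norm_cast
    · obtain ⟨n, hn⟩ := hvalA ⟨a⁻¹, h⟩ (by simpa [Subtype.ext_iff] using ha)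
      refine ⟨-n, ?_⟩
      have h1 : v (ψ a) = (v (ψ a⁻¹))⁻¹ := by rw [map_inv₀, map_inv₀, inv_inv]
      rw [h1, hn, mul_neg, zpow_neg]
      norm_cast
  -- domination, as an equivalence
  have hdom : ∀ a : K₀, ψ a ∈ A₁ ↔ a ∈ G.A := by
    intro a
    constructor
    · intro h
      by_contra ha
      have hinv : a⁻¹ ∈ G.A := (G.A.mem_or_inv_mem a).resolve_left ha
      have hnu : ¬ IsUnit (⟨a⁻¹, hinv⟩ : G.A) := by
        intro hu
        have h1 := (G.A.valuation_eq_one_iff ⟨a⁻¹, hinv⟩).mp hu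
        simp only [map_inv₀, inv_eq_one] at h1
        exact ha ((G.A.valuation_le_one_iff a).mp (le_of_eq h1))
      have h1 := hd2 _ hnu
      have h2 : v (ψ a) ≤ 1 := (A₁.valuation_le_one_iff _).mpr h
      simp only [map_inv₀] at h1
      have ha0 : a ≠ 0 := fun h0 => ha (h0 ▸ zero_mem _)
      have h3 : v (ψ a) ≠ 0 := by
        rw [Ne, v.zero_iff, map_eq_zero]
        exact ha0
      exact absurd ((one_le_inv₀ (zero_lt_iff.mpr h3)).mpr h2) (not_le.mpr h1)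
    · intro h
      exact hmem ⟨a, h⟩
  -- the terms of an expansion
  have hterm : ∀ (a : ℕ → K₀) (i : ℕ), ψ (a i) * (ξ₁ - 1) ^ i ≠ 0 →
      ∃ n : ℤ, v (ψ (a i) * (ξ₁ - 1) ^ i) = γ ^ (((q - 1 : ℕ) : ℤ) * n + i) := by
    intro a i hne
    have hai : a i ≠ 0 := by
      intro h0
      rw [h0, map_zero, zero_mul] at hne
      exact hne rfl
    obtain ⟨n, hn⟩ := hval (a i) hai
    refine ⟨n, ?_⟩
    rw [map_mul, map_pow, hn, zpow_add₀ hγ0, zpow_natCast]
  -- the value group is generated by `γ`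
  have hdvr : ∀ x : K₁, x ≠ 0 → ∃ N : ℤ, v x = γ ^ N := by
    intro x hx
    obtain ⟨a, ha⟩ := hspan x
    rw [ha] at hx
    obtain ⟨j, hj, htj, hvj, -⟩ := s36m_cy_max v γ hγ0 hγ1 (q - 1)
      (fun i => ψ (a i) * (ξ₁ - 1) ^ i) (fun i _ hne => hterm a i hne) hx
    obtain ⟨n, hn⟩ := hterm a j htj
    exact ⟨_, by rw [ha, hvj, hn]⟩
  -- the residue field does not grow
  have hres : ∀ x : K₁, x ∈ A₁ → ∃ a : G.A, v (x - ψ (a : K₀)) < 1 := by
    intro x hxA
    by_cases hx0 : x = 0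
    · exact ⟨0, by simp [hx0]⟩
    obtain ⟨a, ha⟩ := hspan x
    have hx : ∑ i ∈ Finset.range (q - 1), ψ (a i) * (ξ₁ - 1) ^ i ≠ 0 := by rwa [← ha]
    obtain ⟨j, hj, htj, hvj, hle⟩ := s36m_cy_max v γ hγ0 hγ1 (q - 1)
      (fun i => ψ (a i) * (ξ₁ - 1) ^ i) (fun i _ hne => hterm a i hne) hx
    have hvx : v x ≤ 1 := (A₁.valuation_le_one_iff _).mpr hxA
    have hle1 : ∀ i < q - 1, v (ψ (a i) * (ξ₁ - 1) ^ i) ≤ 1 := by
      intro i hi
      refine le_trans (hle i hi) ?_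
      rw [← hvj, ← ha]
      exact hvx
    have ha0 : a 0 ∈ G.A := by
      rw [← hdom]
      refine (A₁.valuation_le_one_iff _).mp ?_
      have h0 := hle1 0 (by omega)
      rw [pow_zero, mul_one] at h0
      exact h0
    refine ⟨⟨a 0, ha0⟩, ?_⟩
    obtain ⟨m, hm⟩ : ∃ m, q - 1 = m + 1 := ⟨q - 2, by omega⟩
    have hsplit : x - ψ (a 0) = ∑ i ∈ Finset.range m, ψ (a (i + 1)) * (ξ₁ - 1) ^ (i + 1) := by
      rw [ha, hm, Finset.sum_range_succ']
      simp
    rw [hsplit]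
    refine v.map_sum_lt one_ne_zero ?_
    intro i hi
    rw [Finset.mem_range] at hi
    by_cases hne : ψ (a (i + 1)) * (ξ₁ - 1) ^ (i + 1) = 0
    · rw [hne, map_zero]
      exact zero_lt_one
    · obtain ⟨n, hn⟩ := hterm a (i + 1) hne
      have h1 := hle1 (i + 1) (by omega)
      rw [hn] at h1 ⊢
      rw [zpow_le_one_iff_right_of_lt_one₀ hγpos hγ1] at h1
      rw [zpow_lt_one_iff_right_of_lt_one₀ hγpos hγ1]
      have h2 := s36m_cy_exp_ne (q - 1) n (i + 1) (by omega) (by omega)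
      omega
  -- the residue homomorphism
  have hπ0 : ξ₁ - 1 ≠ 0 := by
    rw [Ne, sub_eq_zero]
    exact hξ.ne_one (by omega)
  let ψA : G.A →+* A₁ := (ψ.comp G.A.subtype).codRestrict A₁ (fun a => hmem a)
  have hψA : ∀ a : G.A, ((ψA a : A₁) : K₁) = ψ (a : K₀) := fun a => rfl
  let ρ : G.A →+* IsLocalRing.ResidueField A₁ := (IsLocalRing.residue A₁).comp ψA
  have hmax : ∀ x : A₁, x ∈ IsLocalRing.maximalIdeal A₁ ↔ v (x : K₁) < 1 :=
    fun x => A₁.valuation_lt_one_iff x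
  have hρsurj : Function.Surjective ρ := by
    intro y
    obtain ⟨x, rfl⟩ := IsLocalRing.residue_surjective y
    obtain ⟨a, ha⟩ := hres x x.2
    refine ⟨a, ?_⟩
    symm
    rw [← sub_eq_zero, RingHom.comp_apply, ← map_sub, IsLocalRing.residue_eq_zero_iff, hmax]
    exact ha
  have hρker : RingHom.ker ρ ≤ RingHom.ker G.π := by
    intro a ha
    rw [RingHom.mem_ker] at ha ⊢
    rw [RingHom.comp_apply, IsLocalRing.residue_eq_zero_iff, hmax, hψA] at ha
    rw [s18g_pi_eq_zero_iff_not_isUnit]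
    intro hu
    exact absurd (hd3 a hu) (ne_of_lt ha)
  let lift : IsLocalRing.ResidueField A₁ →+* κ := ρ.liftOfSurjective hρsurj ⟨G.π, hρker⟩
  have hlift : ∀ a : G.A, lift (ρ a) = G.π a :=
    fun a => ρ.liftOfSurjective_comp_apply hρsurj ⟨G.π, hρker⟩ a
  have hπmem : ξ₁ - 1 ∈ A₁ := sub_mem hξmem (one_mem _)
  have hdvd : ∀ x : A₁, (⟨ξ₁ - 1, hπmem⟩ : A₁) ∣ x ↔ v (x : K₁) < 1 := by
    intro x
    constructor
    · rintro ⟨y, rfl⟩
      push_cast
      rw [map_mul]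
      calc v (ξ₁ - 1) * v (y : K₁) ≤ γ * 1 :=
            mul_le_mul' le_rfl ((A₁.valuation_le_one_iff _).mpr y.2)
        _ = γ := mul_one _
        _ < 1 := hγ1
    · intro hx
      by_cases hx0 : x = 0
      · rw [hx0]
        exact dvd_zero _
      have hx0' : (x : K₁) ≠ 0 := fun h => hx0 (Subtype.ext h)
      obtain ⟨N, hN⟩ := hdvr x hx0'
      rw [hN, zpow_lt_one_iff_right_of_lt_one₀ hγpos hγ1] at hx
      have hy : (x : K₁) / (ξ₁ - 1) ∈ A₁ := by
        refine (A₁.valuation_le_one_iff _).mp ?_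
        change v ((x : K₁) / (ξ₁ - 1)) ≤ 1
        rw [map_div₀, hN, ← hγ, div_le_one₀ hγpos]
        calc γ ^ N ≤ γ ^ (1 : ℤ) := (zpow_le_zpow_iff_right_of_lt_one₀ hγpos hγ1).mpr hx
          _ = γ := zpow_one γ
      refine ⟨⟨_, hy⟩, Subtype.ext ?_⟩
      push_cast
      field_simp
  have hexists : ∀ x : A₁, x ≠ 0 → ∃ (n : ℕ) (y : A₁),
      x = (⟨ξ₁ - 1, hπmem⟩ : A₁) ^ n * y ∧ ¬ (⟨ξ₁ - 1, hπmem⟩ : A₁) ∣ y := by
    intro x hx0
    have hx0' : (x : K₁) ≠ 0 := fun h => hx0 (Subtype.ext h)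
    obtain ⟨N, hN⟩ := hdvr x hx0'
    have hN0 : 0 ≤ N := by
      have h1 : v (x : K₁) ≤ 1 := (A₁.valuation_le_one_iff _).mpr x.2
      rwa [hN, zpow_le_one_iff_right_of_lt_one₀ hγpos hγ1] at h1
    obtain ⟨n, rfl⟩ := Int.eq_ofNat_of_zero_le hN0
    have hvy : v ((x : K₁) / (ξ₁ - 1) ^ n) = 1 := by
      rw [map_div₀, map_pow, hN, ← hγ, zpow_natCast, div_self (pow_ne_zero _ hγ0)]
    have hy : (x : K₁) / (ξ₁ - 1) ^ n ∈ A₁ := (A₁.valuation_le_one_iff _).mp (le_of_eq hvy)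
    refine ⟨n, ⟨_, hy⟩, Subtype.ext ?_, ?_⟩
    · push_cast
      field_simp
    · rw [hdvd]
      change ¬ v ((x : K₁) / (ξ₁ - 1) ^ n) < 1
      rw [hvy]
      exact lt_irrefl _
  refine ⟨{ A := A₁
            ϖ := ⟨ξ₁ - 1, hπmem⟩
            π := lift.comp (IsLocalRing.residue A₁)
            ϖ_ne_zero := fun h => hπ0 (congrArg Subtype.val h)
            π_eq_zero_iff := fun x => by
              rw [RingHom.comp_apply, map_eq_zero, IsLocalRing.residue_eq_zero_iff, hmax, hdvd]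
            exists_pow_mul := hexists }, hdom, ?_, hξmem, rfl, ?_⟩
  · intro a h h'
    exact hlift ⟨a, h⟩
  · have hvu : v (ψ ((G.ϖ : G.A) : K₀) / (ξ₁ - 1) ^ (q - 1)) = 1 := by
      rw [map_div₀, map_pow, hvϖ, ← hγ, div_self (pow_ne_zero _ hγ0)]
    refine ⟨ψ ((G.ϖ : G.A) : K₀) / (ξ₁ - 1) ^ (q - 1),
      (A₁.valuation_le_one_iff _).mp (le_of_eq hvu), ?_, ?_⟩
    · refine (A₁.valuation_le_one_iff _).mp (le_of_eq ?_)
      change v (ψ ((G.ϖ : G.A) : K₀) / (ξ₁ - 1) ^ (q - 1))⁻¹ = 1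
      rw [map_inv₀, hvu, inv_one]
    · field_simp

/-- the field generated by a primitive `q`-th root of unity `ξ` (`q` prime) is spanned by the
powers `(ξ - 1) ^ i`, `i < q - 1`. -/
theorem s36m_cy_span {K₀ L : Type*} [Field K₀] [Field L] [Algebra K₀ L] (q : ℕ) (hq : q.Prime)
    (ξ : L) (hξ : IsPrimitiveRoot ξ q) (x : L) (hx : x ∈ IntermediateField.adjoin K₀ {ξ}) :
    ∃ a : ℕ → K₀, x = ∑ i ∈ Finset.range (q - 1), algebraMap K₀ L (a i) * (ξ - 1) ^ i := by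
  have hint : IsIntegral K₀ ξ :=
    ⟨X ^ q - C 1, monic_X_pow_sub_C 1 hq.ne_zero, by simp [hξ.pow_eq_one]⟩
  have hx' : x ∈ (IntermediateField.adjoin K₀ {ξ}).toSubalgebra := hx
  rw [IntermediateField.adjoin_simple_toSubalgebra_of_isAlgebraic hint.isAlgebraic,
    Algebra.adjoin_singleton_eq_range_aeval] at hx'
  obtain ⟨p, rfl⟩ := hx'
  set g : K₀[X] := (cyclotomic q K₀).comp (X + C 1) with hg
  have hgm : g.Monic := (cyclotomic.monic q K₀).comp_X_add_C 1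
  have hgdeg : g.natDegree = q - 1 := by
    rw [hg, natDegree_comp, natDegree_X_add_C, mul_one, natDegree_cyclotomic,
      Nat.totient_prime hq]
  have hgroot : aeval (ξ - 1) g = 0 := by
    rw [hg, aeval_comp]
    simp only [map_add, aeval_X, map_one, sub_add_cancel]
    rw [aeval_def, eval₂_eq_eval_map, map_cyclotomic]
    exact (hξ.isRoot_cyclotomic hq.pos)
  set p' : K₀[X] := p.comp (X + C 1) with hp'
  have hpp' : aeval (ξ - 1) p' = aeval ξ p := by
    rw [hp', aeval_comp]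
    simp only [map_add, aeval_X, map_one, sub_add_cancel]
  set r : K₀[X] := p' %ₘ g with hr
  have hrr : aeval (ξ - 1) r = aeval ξ p := by
    rw [hr, aeval_modByMonic_eq_self_of_root hgroot, hpp']
  have hrdeg : r.natDegree < q - 1 := by
    rw [← hgdeg]
    refine natDegree_modByMonic_lt p' hgm ?_
    intro h1
    rw [h1, natDegree_one] at hgdeg
    have := hq.two_le
    omega
  refine ⟨fun i => r.coeff i, ?_⟩
  have := aeval_eq_sum_range' hrdeg (ξ - 1)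
  change aeval ξ p = _
  rw [← hrr, this]
  refine Finset.sum_congr rfl (fun i _ => ?_)
  rw [Algebra.smul_def]

end Fermat.Agent.Lib.S36
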