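/-
S36 mega-project, layer (M), contract (C2) of helper6 (#1734) (helper3): `s36m_cycloExt`, the
totally ramified cyclotomic extension `K₁ = φ(K₀)(ξ) ⊆ Q̄` of the Gauss data `G` (unramified over
`q`), in the exact shape of `s36m_CycloExt` (MContracts.lean).
-/
import Fermat.Agent.Lib.S36.MContracts
import Fermat.Agent.Lib.S36.MCycloAbs

set_option autoImplicit false
set_option linter.style.haveILetI false

noncomputable section

namespace Fermat.Agent.Lib.S36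

open Fermat.Agent.Lib.S18

local notation "Kb" => AlgebraicClosure ℚ

/-- **Contract (C2)**: the totally ramified cyclotomic extension of the Gauss data. -/
theorem s36m_cycloExt {K₀ κ : Type} [Field K₀] [Field κ] (G : s18g_GaussData K₀ κ)
    (φ : K₀ →+* Kb) (q : ℕ) (hq : q.Prime)
    (hunr : ∃ u : G.A, IsUnit u ∧ ((q : ℕ) : G.A) = G.ϖ * u) (ξ : Kbˣ)
    (hξ : IsPrimitiveRoot (ξ : Kb) q) : s36m_CycloExt G φ q ξ := by
  letI : Algebra K₀ Kb := φ.toAlgebra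
  let K₁ : IntermediateField K₀ Kb := IntermediateField.adjoin K₀ {(ξ : Kb)}
  have hξmem : (ξ : Kb) ∈ K₁ := IntermediateField.mem_adjoin_simple_self K₀ _
  let ξ₁' : K₁ := ⟨ξ, hξmem⟩
  have hξ₁' : IsPrimitiveRoot ξ₁' q :=
    IsPrimitiveRoot.of_map_of_injective (f := algebraMap K₁ Kb) hξ (algebraMap K₁ Kb).injective
  have hξ₁0 : ξ₁' ≠ 0 := hξ₁'.ne_zero hq.ne_zero
  have hspan : ∀ x : K₁, ∃ a : ℕ → K₀,
      x = ∑ i ∈ Finset.range (q - 1), algebraMap K₀ K₁ (a i) * (ξ₁' - 1) ^ i := by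
    intro x
    obtain ⟨a, ha⟩ := s36m_cy_span (K₀ := K₀) q hq (ξ : Kb) hξ x x.2
    refine ⟨a, Subtype.ext ?_⟩
    rw [ha]
    push_cast
    rfl
  obtain ⟨G₁, h1, h2, h3, h4, h5⟩ := s36m_cy_abs G (algebraMap K₀ K₁) q hq hunr ξ₁' hξ₁' hspan
  refine ⟨K₁, inferInstance, algebraMap K₀ K₁, algebraMap K₁ Kb, Units.mk0 ξ₁' hξ₁0, G₁, ?_, rfl,
    h1, h2, h3, h4, h5⟩
  ext a
  rfl

end Fermat.Agent.Lib.S36
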