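/-
S36 mega-project, layer (M) (helper6), part 6: a ring homomorphism `Θ : F̄(N) → Q̄((T))` maps the
image of `F_{K₀}(N)` into a subfield `R` of `Q̄((T))` as soon as it does so for the constants
`φ c` (`c ∈ K₀`) and for the generators `j(T^d)`, `d ∣ N`.
-/
import Fermat.Agent.Lib.S36.MDescent

set_option autoImplicit false

noncomputable section

namespace Fermat.Agent.Lib.S36

open ModularCurve AlgebraicCurve Fermat.Agent.Lib.FF Fermat.Agent.Lib.S18 Fermat.Agent.Lib.S28
  Fermat.Agent.Lib.S37 Fermat.Agent.Lib.S34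

local notation "Kb" => AlgebraicClosure ℚ

variable {K₀ : Type*} [Field K₀] [Algebra ℚ K₀] (φ : K₀ →+* Kb)
variable {N : ℕ} [NeZero N] (Θ : ffi_F N →+* LaurentSeries Kb)
  (R : Subfield (LaurentSeries Kb))

theorem s36m_range_rat
    (hg : ∀ (d : s28w_Idx N) (y : ffi_F N), (y : LaurentSeries Kb) = s37w_gen N d → Θ y ∈ R)
    (z : LaurentSeries ℚ) (hz : z ∈ modularFunctionFieldFull N) :
    ∀ y : ffi_F N, (y : LaurentSeries Kb) = coeffEmb Kb z → Θ y ∈ R := by
  rw [modularFunctionFieldFull] at hz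
  induction hz using IntermediateField.adjoin_induction with
  | mem x hx =>
    intro y hy
    obtain ⟨d, hne, hd, rfl⟩ := hx
    exact hg ⟨d, hd⟩ y hy
  | algebraMap r =>
    intro y hy
    have e : y = algebraMap Kb (ffi_F N) (algebraMap ℚ Kb r) := by
      apply Subtype.ext
      rw [hy, s34m_coeffEmb_algebraMap]
      rfl
    rw [e, eq_ratCast (algebraMap ℚ Kb) r, map_ratCast, map_ratCast]
    exact SubfieldClass.ratCast_mem R r
  | add x y hx hy ihx ihy =>
    intro u hu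
    have hx' : coeffEmb Kb x ∈ laurentBaseChange Kb (modularFunctionFieldFull N) :=
      coeffEmb_mem_laurentBaseChange Kb hx
    have hy' : coeffEmb Kb y ∈ laurentBaseChange Kb (modularFunctionFieldFull N) :=
      coeffEmb_mem_laurentBaseChange Kb hy
    have e : u = (⟨_, hx'⟩ : ffi_F N) + ⟨_, hy'⟩ := by
      apply Subtype.ext
      rw [hu, map_add]
      rfl
    rw [e, map_add]
    exact R.add_mem (ihx ⟨_, hx'⟩ rfl) (ihy ⟨_, hy'⟩ rfl)
  | inv x hx ihx =>
    intro u hu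
    have hx' : coeffEmb Kb x ∈ laurentBaseChange Kb (modularFunctionFieldFull N) :=
      coeffEmb_mem_laurentBaseChange Kb hx
    have e : u = (⟨_, hx'⟩ : ffi_F N)⁻¹ := by
      apply Subtype.ext
      rw [hu, map_inv₀]
      rfl
    rw [e, map_inv₀]
    exact R.inv_mem (ihx ⟨_, hx'⟩ rfl)
  | mul x y hx hy ihx ihy =>
    intro u hu
    have hx' : coeffEmb Kb x ∈ laurentBaseChange Kb (modularFunctionFieldFull N) :=
      coeffEmb_mem_laurentBaseChange Kb hx
    have hy' : coeffEmb Kb y ∈ laurentBaseChange Kb (modularFunctionFieldFull N) :=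
      coeffEmb_mem_laurentBaseChange Kb hy
    have e : u = (⟨_, hx'⟩ : ffi_F N) * ⟨_, hy'⟩ := by
      apply Subtype.ext
      rw [hu, map_mul]
      rfl
    rw [e, map_mul]
    exact R.mul_mem (ihx ⟨_, hx'⟩ rfl) (ihy ⟨_, hy'⟩ rfl)

theorem s36m_range_aux
    (hc : ∀ c : K₀, Θ (algebraMap Kb (ffi_F N) (φ c)) ∈ R)
    (hg : ∀ (d : s28w_Idx N) (y : ffi_F N), (y : LaurentSeries Kb) = s37w_gen N d → Θ y ∈ R)
    (x : LaurentSeries K₀) (hx : x ∈ laurentBaseChange K₀ (modularFunctionFieldFull N)) :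
    ∀ y : ffi_F N, (y : LaurentSeries Kb) = coeffMap φ x → Θ y ∈ R := by
  rw [mem_laurentBaseChange_iff] at hx
  induction hx using Subfield.closure_induction with
  | mem u hu =>
    intro y hy
    rcases hu with ⟨c, rfl⟩ | ⟨z, hz, rfl⟩
    · have e : y = algebraMap Kb (ffi_F N) (φ c) := by
        apply Subtype.ext
        rw [hy, s18q_coeffMap_algebraMap]
        rfl
      rw [e]
      exact hc c
    · exact s36m_range_rat Θ R hg z hz y (by rw [hy, s18q_coeffMap_coeffEmb])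
  | one =>
    intro y hy
    have e : y = 1 := by
      apply Subtype.ext
      rw [hy, map_one]
      rfl
    rw [e, map_one]
    exact R.one_mem
  | add u v hu hv ihu ihv =>
    intro y hy
    have e : y = (⟨coeffMap φ u, s18q_coeffMap_mem φ hu⟩ : ffi_F N) +
        ⟨coeffMap φ v, s18q_coeffMap_mem φ hv⟩ := by
      apply Subtype.ext
      rw [hy, map_add]
      rfl
    rw [e, map_add]
    exact R.add_mem (ihu ⟨coeffMap φ u, s18q_coeffMap_mem φ hu⟩ rfl)
      (ihv ⟨coeffMap φ v, s18q_coeffMap_mem φ hv⟩ rfl)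
  | neg u hu ihu =>
    intro y hy
    have e : y = -(⟨coeffMap φ u, s18q_coeffMap_mem φ hu⟩ : ffi_F N) := by
      apply Subtype.ext
      rw [hy, map_neg]
      rfl
    rw [e, map_neg]
    exact R.neg_mem (ihu ⟨coeffMap φ u, s18q_coeffMap_mem φ hu⟩ rfl)
  | inv u hu ihu =>
    intro y hy
    have e : y = (⟨coeffMap φ u, s18q_coeffMap_mem φ hu⟩ : ffi_F N)⁻¹ := by
      apply Subtype.ext
      rw [hy, map_inv₀]
      rfl
    rw [e, map_inv₀]
    exact R.inv_mem (ihu ⟨coeffMap φ u, s18q_coeffMap_mem φ hu⟩ rfl)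
  | mul u v hu hv ihu ihv =>
    intro y hy
    have e : y = (⟨coeffMap φ u, s18q_coeffMap_mem φ hu⟩ : ffi_F N) *
        ⟨coeffMap φ v, s18q_coeffMap_mem φ hv⟩ := by
      apply Subtype.ext
      rw [hy, map_mul]
      rfl
    rw [e, map_mul]
    exact R.mul_mem (ihu ⟨coeffMap φ u, s18q_coeffMap_mem φ hu⟩ rfl)
      (ihv ⟨coeffMap φ v, s18q_coeffMap_mem φ hv⟩ rfl)

/-- **The range lemma.** -/
theorem s36m_range_le
    (hc : ∀ c : K₀, Θ (algebraMap Kb (ffi_F N) (φ c)) ∈ R)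
    (hg : ∀ (d : s28w_Idx N) (y : ffi_F N), (y : LaurentSeries Kb) = s37w_gen N d → Θ y ∈ R)
    (y : s34m_F K₀ N) : Θ (s34m_iota φ N y) ∈ R :=
  s36m_range_aux φ Θ R hc hg y.1 y.2 _ rfl

end Fermat.Agent.Lib.S36
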