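/-
S36 mega-project, layer (M) (helper6), part 7: THE MIDDLE VALUATION `V_mid` of the function field
`F₂ = F_{K₀}(M q q)`, as the Gauss valuation of the `q`-expansion at the middle cusp:

  `s36m_mid : F₂ →+* K₁((T))`,  `coeffMap φ₁ ∘ s36m_mid = ih ∘ ι`   (`ih` the cusp expansion over `Q̄`),
  `s36m_Vmid := { y | s36m_mid y ∈ s18g_O G₁ }`,

from the data of the two contracts `s36m_CuspEmb` (`ξ`, `ih`) and `s36m_CycloExt`
(`K₁ = K₀(ξ)`, `ψ`, `φ₁`, `ξ₁`, `G₁`), taken here as section hypotheses.  Main formulas: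
`s36m_mid_alpha : mid (α' y) = coeffMap ψ y`, `s36m_mid_beta : mid (β' y) = twist ξ₁ (coeffMap ψ (w_q y))`.
-/
import Fermat.Agent.Lib.S36.MContracts
import Fermat.Agent.Lib.S36.MGaussMap
import Fermat.Agent.Lib.S36.MRange
import Fermat.Agent.Lib.S34.MValRed
import Fermat.Agent.Lib.S18.GInst

set_option autoImplicit false

noncomputable section

namespace Fermat.Agent.Lib.S36

open ModularCurve AlgebraicCurve HahnSeries Fermat.Agent.Lib.FF Fermat.Agent.Lib.S18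
  Fermat.Agent.Lib.S28 Fermat.Agent.Lib.S37 Fermat.Agent.Lib.S34

set_option linter.unusedSectionVars false

local notation "Kb" => AlgebraicClosure ℚ

/-- Divisors of `M q q` (`q` prime, `q ∤ M`): either a divisor of `M q`, or `d' q q` with
`d' ∣ M`. -/
theorem s36m_dvd_cases (M q : ℕ) (hq : q.Prime) (hqM : ¬ q ∣ M) (d : ℕ) (hd : d ∣ M * q * q) :
    d ∣ M * q ∨ ∃ d', d' ∣ M ∧ d = d' * q * q := by
  by_cases h2 : q * q ∣ d
  · right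
    obtain ⟨d', rfl⟩ := h2
    refine ⟨d', ?_, by ring⟩
    have h3 : d' * (q * q) ∣ M * (q * q) := by
      have : q * q * d' = d' * (q * q) := by ring
      rw [← this, ← mul_assoc]; exact hd
    exact (Nat.mul_dvd_mul_iff_right (Nat.mul_pos hq.pos hq.pos)).mp h3
  · left
    by_cases h1 : q ∣ d
    · obtain ⟨d₁, rfl⟩ := h1
      have hq1 : ¬ q ∣ d₁ := fun ⟨e, he⟩ => h2 ⟨e, by rw [he]; ring⟩
      have hcop : Nat.Coprime d₁ q := ((Nat.Prime.coprime_iff_not_dvd hq).mpr hq1).symm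
      have h3 : q * d₁ ∣ q * (M * q) := by
        have : M * q * q = q * (M * q) := by ring
        rwa [this] at hd
      have h4 : d₁ ∣ M * q := (Nat.mul_dvd_mul_iff_left hq.pos).mp h3
      have h5 : d₁ ∣ M := hcop.dvd_of_dvd_mul_right h4
      rw [mul_comm M q]
      exact Nat.mul_dvd_mul_left q h5
    · have hcop : Nat.Coprime d q := ((Nat.Prime.coprime_iff_not_dvd hq).mpr h1).symm
      exact hcop.dvd_of_dvd_mul_right hd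

/-- The twist as a `K`-algebra homomorphism. -/
def s36m_twistAlg {K : Type*} [Field K] (ξ : Kˣ) : LaurentSeries K →ₐ[K] LaurentSeries K :=
  { s36m_twist ξ with
    commutes' := fun c => by
      show s36m_twist ξ (algebraMap K (LaurentSeries K) c) = algebraMap K (LaurentSeries K) c
      rw [algebraMap_laurentSeries_eq_single, ← HahnSeries.C_apply, s36m_twist_C] }

@[simp] theorem s36m_twistAlg_apply {K : Type*} [Field K] (ξ : Kˣ) (f : LaurentSeries K) :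
    s36m_twistAlg ξ f = s36m_twist ξ f := rfl

variable {K₀ κ : Type} [Field K₀] [Algebra ℚ K₀] [Field κ] (G : s18g_GaussData K₀ κ)
  (φ : K₀ →+* Kb) (M q : ℕ) [NeZero M] [NeZero q] (hq : q.Prime) (hqM : ¬ q ∣ M)
  (ξ : Kbˣ) (hξ : IsPrimitiveRoot (ξ : Kb) q)
  (ih : ffi_F (M * q * q) →ₐ[Kb] LaurentSeries Kb)
  (hih1 : ∀ (D : ℕ) [NeZero D], D ∣ M * q → ∀ x : ffi_F (M * q * q),
    (x : LaurentSeries Kb) = coeffEmb Kb (qExpand ℚ D jq) →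
      ih x = coeffEmb Kb (qExpand ℚ D jq))
  (hih2 : ∀ (d : ℕ) [NeZero d], d ∣ M → ∀ x : ffi_F (M * q * q),
    (x : LaurentSeries Kb) = coeffEmb Kb (qExpand ℚ (d * q * q) jq) →
      ih x = s36m_twist ξ (coeffEmb Kb (qExpand ℚ d jq)))
  {K₁ : Type} [Field K₁] [Algebra ℚ K₁] (ψ : K₀ →+* K₁) (φ₁ : K₁ →+* Kb) (ξ₁ : K₁ˣ)
  (G₁ : s18g_GaussData K₁ κ)
  (hφ : φ₁.comp ψ = φ) (hξ₁ : φ₁ (ξ₁ : K₁) = (ξ : Kb))
  (hA : ∀ a : K₀, ψ a ∈ G₁.A ↔ a ∈ G.A)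
  (hπ : ∀ (a : K₀) (h : a ∈ G.A) (h' : ψ a ∈ G₁.A), G₁.π ⟨ψ a, h'⟩ = G.π ⟨a, h⟩)
  (hξA : (ξ₁ : K₁) ∈ G₁.A) (hϖ₁ : ((G₁.ϖ : G₁.A) : K₁) = (ξ₁ : K₁) - 1)

/-! ### Elementary consequences for `ξ₁` -/

include hξ hξ₁ in
theorem s36m_xi1_pow : ξ₁ ^ q = 1 := by
  apply Units.ext
  apply φ₁.injective
  rw [Units.val_pow_eq_pow_val, map_pow, hξ₁, Units.val_one, map_one]
  exact hξ.pow_eq_one

include hξ hξ₁ hξA in
theorem s36m_xi1_inv_mem : ((ξ₁⁻¹ : K₁ˣ) : K₁) ∈ G₁.A := by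
  have h : ξ₁⁻¹ = ξ₁ ^ (q - 1) := by
    rw [inv_eq_iff_eq_inv, ← mul_eq_one_iff_eq_inv, ← pow_succ',
      Nat.sub_add_cancel (NeZero.pos q), s36m_xi1_pow q ξ hξ φ₁ ξ₁ hξ₁]
  rw [h, Units.val_pow_eq_pow_val]
  exact G₁.A.pow_mem hξA _

include hϖ₁ in
theorem s36m_pi_xi1 : G₁.π ⟨(ξ₁ : K₁), hξA⟩ = 1 := by
  have h1 : (⟨(ξ₁ : K₁), hξA⟩ : G₁.A) = G₁.ϖ + 1 := by
    apply Subtype.ext
    show (ξ₁ : K₁) = ((G₁.ϖ : G₁.A) : K₁) + 1
    rw [hϖ₁]; ring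
  rw [h1, map_add, s18g_pi_unif, zero_add, map_one]

/-! ### The subfield `R` and the embedding `mid` -/

/-- The image in `Q̄((T))` of the Gauss fraction field of `K₁((T))`. -/
def s36m_R : Subfield (LaurentSeries Kb) := (s18g_Frac G₁).map (coeffMap φ₁)

theorem s36m_coeffMap_coeffEmb₁ (x : LaurentSeries ℚ) :
    coeffMap φ₁ (coeffEmb K₁ x) = coeffEmb Kb x := s18q_coeffMap_coeffEmb φ₁ x

theorem s36m_jqN_mem_Frac (d : ℕ) [NeZero d] :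
    coeffEmb K₁ (qExpand ℚ d jq) ∈ s18g_Frac G₁ := by
  rw [s18g_coeffEmb_jqN]
  exact s18g_O_le_Frac G₁ (s18g_jqN_mem_O G₁ d)

include hξ₁ in
theorem s36m_coeffMap_twist₁ (x : LaurentSeries K₁) :
    coeffMap φ₁ (s36m_twist ξ₁ x) = s36m_twist ξ (coeffMap φ₁ x) := by
  have e : Units.map (φ₁ : K₁ →* Kb) ξ₁ = ξ := Units.ext hξ₁
  rw [s36m_coeffMap_twist, e]

include hφ in
theorem s36m_ih_const (c : K₀) : (ih : ffi_F (M * q * q) →+* LaurentSeries Kb)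
      (algebraMap Kb (ffi_F (M * q * q)) (φ c)) ∈ s36m_R φ₁ G₁ := by
  have e1 : (ih : ffi_F (M * q * q) →+* LaurentSeries Kb)
      (algebraMap Kb (ffi_F (M * q * q)) (φ c)) = algebraMap Kb (LaurentSeries Kb) (φ c) :=
    ih.commutes (φ c)
  have e2 : coeffMap φ₁ (HahnSeries.C (ψ c)) = algebraMap Kb (LaurentSeries Kb) (φ c) := by
    rw [algebraMap_laurentSeries_eq_single, HahnSeries.C_apply, coeffMap_single, ← hφ]
    rfl
  rw [e1, ← e2]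
  exact Subfield.mem_map.mpr ⟨_, s18g_C_mem_Frac G₁ (ψ c), rfl⟩

include hih1 in
theorem s36m_ih_gen1 (D : ℕ) [NeZero D] (hD : D ∣ M * q) (y : ffi_F (M * q * q))
    (hy : (y : LaurentSeries Kb) = coeffEmb Kb (qExpand ℚ D jq)) :
    ih y ∈ s36m_R φ₁ G₁ := by
  have e1 : ih y = coeffMap φ₁ (coeffEmb K₁ (qExpand ℚ D jq)) := by
    rw [s36m_coeffMap_coeffEmb₁]
    exact hih1 D hD y hy
  rw [e1]
  exact Subfield.mem_map.mpr ⟨_, s36m_jqN_mem_Frac G₁ D, rfl⟩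

include hξ hih2 hξ₁ hξA in
theorem s36m_ih_gen2 (d : ℕ) [NeZero d] (hd : d ∣ M) (y : ffi_F (M * q * q))
    (hy : (y : LaurentSeries Kb) = coeffEmb Kb (qExpand ℚ (d * q * q) jq)) :
    ih y ∈ s36m_R φ₁ G₁ := by
  have e1 : ih y = coeffMap φ₁ (s36m_twist ξ₁ (coeffEmb K₁ (qExpand ℚ d jq))) := by
    rw [s36m_coeffMap_twist₁ ξ φ₁ ξ₁ hξ₁, s36m_coeffMap_coeffEmb₁]
    exact hih2 d hd y hy
  rw [e1]
  exact Subfield.mem_map.mpr ⟨_, s36m_tw_mem_Frac G₁ ξ₁ hξA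
    (s36m_xi1_inv_mem q ξ hξ φ₁ ξ₁ G₁ hξ₁ hξA) (s36m_jqN_mem_Frac G₁ d), rfl⟩

include hq hqM hξ hih1 hih2 hφ hξ₁ hξA in
theorem s36m_ih_mem (y : s34m_F K₀ (M * q * q)) :
    ih (s34m_iota φ (M * q * q) y) ∈ s36m_R φ₁ G₁ := by
  refine s36m_range_le φ (ih : ffi_F (M * q * q) →+* LaurentSeries Kb) (s36m_R φ₁ G₁)
    (s36m_ih_const φ M q ih ψ φ₁ G₁ hφ) ?_ y
  intro d y hy
  rcases s36m_dvd_cases M q hq hqM d.1 d.2 with h | ⟨d', hd', e⟩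
  · exact s36m_ih_gen1 M q ih hih1 φ₁ G₁ d.1 h y hy
  · have hne : NeZero d' := ⟨fun h0 => NeZero.ne d.1 (by rw [e, h0]; ring)⟩
    have hy' : (y : LaurentSeries Kb) = coeffEmb Kb (qExpand ℚ (d' * q * q) jq) := by
      rw [hy, s37w_gen]
      exact congrArg (coeffEmb Kb) (qExpand_congr e jq)
    exact s36m_ih_gen2 M q ξ hξ ih hih2 φ₁ ξ₁ G₁ hξ₁ hξA d' hd' y hy'

include hq hqM hξ hih1 hih2 hφ hξ₁ hξA in
theorem s36m_exists_mid (y : s34m_F K₀ (M * q * q)) :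
    ∃ f : LaurentSeries K₁, f ∈ s18g_Frac G₁ ∧
      coeffMap φ₁ f = ih (s34m_iota φ (M * q * q) y) := by
  obtain ⟨f, hf, e⟩ := Subfield.mem_map.mp
    (s36m_ih_mem φ M q hq hqM ξ hξ ih hih1 hih2 ψ φ₁ ξ₁ G₁ hφ hξ₁ hξA y)
  exact ⟨f, hf, e⟩

/-- The underlying function of the middle-cusp expansion over `K₁`. -/
def s36m_midFun (y : s34m_F K₀ (M * q * q)) : LaurentSeries K₁ :=
  (s36m_exists_mid φ M q hq hqM ξ hξ ih hih1 hih2 ψ φ₁ ξ₁ G₁ hφ hξ₁ hξA y).choose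

theorem s36m_midFun_mem_Frac (y : s34m_F K₀ (M * q * q)) :
    s36m_midFun φ M q hq hqM ξ hξ ih hih1 hih2 ψ φ₁ ξ₁ G₁ hφ hξ₁ hξA y ∈ s18g_Frac G₁ :=
  (s36m_exists_mid φ M q hq hqM ξ hξ ih hih1 hih2 ψ φ₁ ξ₁ G₁ hφ hξ₁ hξA y).choose_spec.1

theorem s36m_coeffMap_midFun (y : s34m_F K₀ (M * q * q)) :
    coeffMap φ₁ (s36m_midFun φ M q hq hqM ξ hξ ih hih1 hih2 ψ φ₁ ξ₁ G₁ hφ hξ₁ hξA y) =
      ih (s34m_iota φ (M * q * q) y) :=
  (s36m_exists_mid φ M q hq hqM ξ hξ ih hih1 hih2 ψ φ₁ ξ₁ G₁ hφ hξ₁ hξA y).choose_spec.2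

theorem s36m_coeffMap_injective : Function.Injective (coeffMap φ₁) :=
  ffb_coeffMap_injective φ₁ φ₁.injective

/-- `ih ∘ ι` as a ring homomorphism. -/
def s36m_ihι : s34m_F K₀ (M * q * q) →+* LaurentSeries Kb :=
  (ih : ffi_F (M * q * q) →+* LaurentSeries Kb).comp (s34m_iota φ (M * q * q))

theorem s36m_ihι_apply (y : s34m_F K₀ (M * q * q)) :
    s36m_ihι φ M q ih y = ih (s34m_iota φ (M * q * q) y) := rfl

/-- **The middle-cusp expansion** `F₂ →+* K₁((T))`. -/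
def s36m_mid : s34m_F K₀ (M * q * q) →+* LaurentSeries K₁ where
  toFun := s36m_midFun φ M q hq hqM ξ hξ ih hih1 hih2 ψ φ₁ ξ₁ G₁ hφ hξ₁ hξA
  map_one' := by
    apply s36m_coeffMap_injective φ₁
    rw [s36m_coeffMap_midFun, ← s36m_ihι_apply, map_one, map_one]
  map_zero' := by
    apply s36m_coeffMap_injective φ₁
    rw [s36m_coeffMap_midFun, ← s36m_ihι_apply, map_zero, map_zero]
  map_mul' x y := by
    apply s36m_coeffMap_injective φ₁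
    rw [map_mul, s36m_coeffMap_midFun, s36m_coeffMap_midFun, s36m_coeffMap_midFun,
      ← s36m_ihι_apply, ← s36m_ihι_apply, ← s36m_ihι_apply, map_mul]
  map_add' x y := by
    apply s36m_coeffMap_injective φ₁
    rw [map_add, s36m_coeffMap_midFun, s36m_coeffMap_midFun, s36m_coeffMap_midFun,
      ← s36m_ihι_apply, ← s36m_ihι_apply, ← s36m_ihι_apply, map_add]

theorem s36m_mid_mem_Frac (y : s34m_F K₀ (M * q * q)) :
    s36m_mid φ M q hq hqM ξ hξ ih hih1 hih2 ψ φ₁ ξ₁ G₁ hφ hξ₁ hξA y ∈ s18g_Frac G₁ :=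
  s36m_midFun_mem_Frac φ M q hq hqM ξ hξ ih hih1 hih2 ψ φ₁ ξ₁ G₁ hφ hξ₁ hξA y

theorem s36m_coeffMap_mid (y : s34m_F K₀ (M * q * q)) :
    coeffMap φ₁ (s36m_mid φ M q hq hqM ξ hξ ih hih1 hih2 ψ φ₁ ξ₁ G₁ hφ hξ₁ hξA y) =
      ih (s34m_iota φ (M * q * q) y) :=
  s36m_coeffMap_midFun φ M q hq hqM ξ hξ ih hih1 hih2 ψ φ₁ ξ₁ G₁ hφ hξ₁ hξA y

/-- **`V_mid`**: the Gauss valuation ring of the middle-cusp expansion. -/
def s36m_Vmid : ValuationSubring (s34m_F K₀ (M * q * q)) :=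
  { (s18g_O G₁).comap (s36m_mid φ M q hq hqM ξ hξ ih hih1 hih2 ψ φ₁ ξ₁ G₁ hφ hξ₁ hξA) with
    mem_or_inv_mem' := by
      intro y
      by_cases hy : y = 0
      · left
        rw [hy]
        exact Subring.zero_mem _
      · have hm := s36m_mid_mem_Frac φ M q hq hqM ξ hξ ih hih1 hih2 ψ φ₁ ξ₁ G₁ hφ hξ₁ hξA y
        have h0 : s36m_mid φ M q hq hqM ξ hξ ih hih1 hih2 ψ φ₁ ξ₁ G₁ hφ hξ₁ hξA y ≠ 0 :=
          (map_ne_zero _).mpr hy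
        rcases s18g_mem_or_inv_mem G₁ hm h0 with h | ⟨h, -⟩
        · left; exact h
        · right
          show s36m_mid φ M q hq hqM ξ hξ ih hih1 hih2 ψ φ₁ ξ₁ G₁ hφ hξ₁ hξA y⁻¹ ∈ s18g_O G₁
          rw [map_inv₀]
          exact h }

theorem s36m_mem_Vmid (y : s34m_F K₀ (M * q * q)) :
    y ∈ s36m_Vmid φ M q hq hqM ξ hξ ih hih1 hih2 ψ φ₁ ξ₁ G₁ hφ hξ₁ hξA ↔
      s36m_mid φ M q hq hqM ξ hξ ih hih1 hih2 ψ φ₁ ξ₁ G₁ hφ hξ₁ hξA y ∈ s18g_O G₁ := Iff.rfl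

end Fermat.Agent.Lib.S36
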