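/-
S36 mega-project, layer (M) (helper6), part 8: the two restrictions of `V_mid` to level `M q`:
`V_mid.comap α' = V'_∞`, `V_mid.comap β' = V'_0`, from
`mid (α' y) = coeffMap ψ y` and `mid (β' y) = twist ξ₁ (coeffMap ψ (w_q y))`.
-/
import Fermat.Agent.Lib.S36.MMid
import Fermat.Agent.Lib.S34.MVal

set_option autoImplicit false

noncomputable section

namespace Fermat.Agent.Lib.S36

open ModularCurve AlgebraicCurve HahnSeries Fermat.Agent.Lib.FF Fermat.Agent.Lib.S18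
  Fermat.Agent.Lib.S28 Fermat.Agent.Lib.S37 Fermat.Agent.Lib.S34

set_option linter.unusedSectionVars false

local notation "Kb" => AlgebraicClosure ℚ

variable {K₀ κ : Type} [Field K₀] [Algebra ℚ K₀] [Field κ] (G : s18g_GaussData K₀ κ)
  (φ : K₀ →+* Kb) (M q : ℕ) [NeZero M] [NeZero q] (hq : q.Prime) (hqM : ¬ q ∣ M)
  (ξ : Kbˣ) (hξ : IsPrimitiveRoot (ξ : Kb) q)
  (ih : ffi_F (M * q * q) →ₐ[Kb] LaurentSeries Kb)
  (hih1 : ∀ (D : ℕ) [NeZero D], D ∣ M * q → ∀ x : ffi_F (M * q * q),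
    (x : LaurentSeries Kb) = coeffEmb Kb (qExpand ℚ D jq) →
      ih x = coeffEmb Kb (qExpand ℚ D jq))
  (hih2 : ∀ (d : ℕ) [NeZero d], d ∣ M → ∀ x : ffi_F (M * q * q),
    (x : LaurentSeries Kb) = coeffEmb Kb (qExpand ℚ (d * q * q) jq) →
      ih x = s36m_twist ξ (coeffEmb Kb (qExpand ℚ d jq)))
  {K₁ : Type} [Field K₁] [Algebra ℚ K₁] (ψ : K₀ →+* K₁) (φ₁ : K₁ →+* Kb) (ξ₁ : K₁ˣ)
  (G₁ : s18g_GaussData K₁ κ)
  (hφ : φ₁.comp ψ = φ) (hξ₁ : φ₁ (ξ₁ : K₁) = (ξ : Kb))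
  (hA : ∀ a : K₀, ψ a ∈ G₁.A ↔ a ∈ G.A)
  (hπ : ∀ (a : K₀) (h : a ∈ G.A) (h' : ψ a ∈ G₁.A), G₁.π ⟨ψ a, h'⟩ = G.π ⟨a, h⟩)
  (hξA : (ξ₁ : K₁) ∈ G₁.A) (hϖ₁ : ((G₁.ϖ : G₁.A) : K₁) = (ξ₁ : K₁) - 1)

/-! ### The cusp expansion over `Q̄` on the two copies of level `M q` -/

include hih1 in
/-- `ih ∘ ᾱ' = ` the expansion at `∞`. -/
theorem s36m_ih_alpha (x : ffi_F (M * q)) :
    ih (heckeAlphaBar Kb (M * q) q x) = (x : LaurentSeries Kb) := by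
  have key : ih.comp (heckeAlphaBar Kb (M * q) q) = (modularFunctionFieldBar (M * q)).val := by
    refine s37w_algHom_ext (M * q) _ _ fun d x hx => ?_
    rw [AlgHom.comp_apply]
    have h1 : ((heckeAlphaBar Kb (M * q) q x : ffi_F (M * q * q)) : LaurentSeries Kb) =
        coeffEmb Kb (qExpand ℚ d.1 jq) := by
      rw [coe_heckeAlphaBar, hx]; rfl
    rw [hih1 d.1 d.2 _ h1]
    show coeffEmb Kb (qExpand ℚ d.1 jq) = (x : LaurentSeries Kb)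
    rw [hx]; rfl
  exact AlgHom.congr_fun key x

include hq hqM hξ hih1 hih2 in
/-- `ih ∘ β̄' = twist ∘ (expansion at ∞) ∘ w̄_q`. -/
theorem s36m_ih_beta (x : ffi_F (M * q)) :
    ih (heckeBetaBar Kb (M * q) q x) =
      s36m_twist ξ ((s37w_al M q hq hqM x : ffi_F (M * q)) : LaurentSeries Kb) := by
  have key : ih.comp (heckeBetaBar Kb (M * q) q) =
      (s36m_twistAlg ξ).comp ((modularFunctionFieldBar (M * q)).val.comp
        (s37w_al M q hq hqM : ffi_F (M * q) →ₐ[Kb] ffi_F (M * q))) := by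
    refine s37w_algHom_ext (M * q) _ _ fun d x hx => ?_
    rw [AlgHom.comp_apply, AlgHom.comp_apply, AlgHom.comp_apply, s36m_twistAlg_apply]
    show ih (heckeBetaBar Kb (M * q) q x) =
      s36m_twist ξ ((s37w_al M q hq hqM x : ffi_F (M * q)) : LaurentSeries Kb)
    rw [s37w_al_gen M q hq hqM d x hx]
    have hb : ((heckeBetaBar Kb (M * q) q x : ffi_F (M * q * q)) : LaurentSeries Kb) =
        coeffEmb Kb (qExpand ℚ (d.1 * q) jq) := by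
      rw [coe_heckeBetaBar, hx, s37w_gen_qExpand]
    by_cases h : q ∣ d.1
    · -- `d = d₀ q`, `d₀ ∣ M`
      have hco : (s37w_alCo M q hq d).1 = d.1 / q := s37w_alCo_of_dvd M q hq d h
      have hd₀M : d.1 / q ∣ M := s37w_div_dvd_of_dvd M q hq d h
      have hne : NeZero (d.1 / q) := ⟨fun h0 => NeZero.ne M (Nat.eq_zero_of_zero_dvd (h0 ▸ hd₀M))⟩
      have e : d.1 * q = d.1 / q * q * q := by rw [Nat.div_mul_cancel h]
      have hb' : ((heckeBetaBar Kb (M * q) q x : ffi_F (M * q * q)) : LaurentSeries Kb) =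
          coeffEmb Kb (qExpand ℚ (d.1 / q * q * q) jq) := by
        rw [hb]
        exact congrArg (coeffEmb Kb) (qExpand_congr e jq)
      rw [hih2 (d.1 / q) hd₀M _ hb', s37w_gen]
      exact congrArg (fun z => s36m_twist ξ (coeffEmb Kb z)) (qExpand_congr hco.symm jq)
    · -- `d ∣ M`
      have hco : (s37w_alCo M q hq d).1 = d.1 * q := s37w_alCo_of_not_dvd M q hq d h
      have hdM : d.1 ∣ M := s37w_dvd_of_not_dvd M q hq d h
      have hdq : d.1 * q ∣ M * q := Nat.mul_dvd_mul_right hdM q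
      rw [hih1 (d.1 * q) hdq _ hb, s37w_gen]
      have e2 : coeffEmb Kb (qExpand ℚ (s37w_alCo M q hq d).1 jq) =
          coeffEmb Kb (qExpand ℚ (d.1 * q) jq) :=
        congrArg (coeffEmb Kb) (qExpand_congr hco jq)
      rw [e2, s18g_coeffEmb_jqN]
      have hpow : ξ ^ (d.1 * q) = 1 := by
        apply Units.ext
        rw [Units.val_pow_eq_pow_val, Units.val_one, mul_comm, pow_mul, hξ.pow_eq_one, one_pow]
      rw [s36m_twist_qExpand_of_pow_eq_one ξ (d.1 * q) hpow]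
  exact AlgHom.congr_fun key x

/-! ### The expansion `mid` on the two copies of level `M q` -/

local notation "mid" => s36m_mid φ M q hq hqM ξ hξ ih hih1 hih2 ψ φ₁ ξ₁ G₁ hφ hξ₁ hξA

local notation "Vmid" => s36m_Vmid φ M q hq hqM ξ hξ ih hih1 hih2 ψ φ₁ ξ₁ G₁ hφ hξ₁ hξA

theorem s36m_mid_alpha (y : s34m_F K₀ (M * q)) :
    mid (heckeAlphaBar K₀ (M * q) q y) = coeffMap ψ (y : LaurentSeries K₀) := by
  apply s36m_coeffMap_injective φ₁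
  rw [s36m_coeffMap_mid, s34m_iota_alpha, s36m_ih_alpha M q ih hih1, coeffMap_coeffMap, hφ]
  rfl

theorem s36m_mid_beta (y : s34m_F K₀ (M * q)) :
    mid (heckeBetaBar K₀ (M * q) q y) =
      s36m_twist ξ₁ (coeffMap ψ ((s34m_al φ M q hq hqM y : s34m_F K₀ (M * q)) :
        LaurentSeries K₀)) := by
  apply s36m_coeffMap_injective φ₁
  rw [s36m_coeffMap_mid, s34m_iota_beta, s36m_ih_beta M q hq hqM ξ hξ ih hih1 hih2,
    s36m_coeffMap_twist₁ ξ φ₁ ξ₁ hξ₁, coeffMap_coeffMap, hφ, ← s34m_iota_al]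
  rfl

/-! ### The two restrictions -/

include hA in
theorem s36m_hA' : ∀ a : K₀, a ∈ G.A → ψ a ∈ G₁.A := fun a h => (hA a).mpr h

include hπ in
theorem s36m_hπ' : ∀ (a : K₀) (h : a ∈ G.A),
    G₁.π ⟨ψ a, s36m_hA' G ψ G₁ hA a h⟩ = G.π ⟨a, h⟩ := fun a h => hπ a h _

include hA hπ in
/-- **(P1)** `α' y ∈ V_mid ↔ y ∈ V'_∞`. -/
theorem s36m_alpha_mem_Vmid_iff (y : s34m_F K₀ (M * q)) :
    heckeAlphaBar K₀ (M * q) q y ∈ Vmid ↔ y ∈ s34m_Vinf G (M * q) := by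
  rw [s36m_mem_Vmid, s36m_mid_alpha, s34m_mem_Vinf]
  exact s36m_bc_mem_O_iff G G₁ ψ (s36m_hA' G ψ G₁ hA) (s36m_hπ' G ψ G₁ hA hπ)
    (s34m_hF G (M * q) _ y.2)

include hA hπ hϖ₁ in
/-- **(P2)** `β' y ∈ V_mid ↔ y ∈ V'_0`. -/
theorem s36m_beta_mem_Vmid_iff (y : s34m_F K₀ (M * q)) :
    heckeBetaBar K₀ (M * q) q y ∈ Vmid ↔ y ∈ s34m_Vzero G φ M q hq hqM := by
  rw [s36m_mem_Vmid, s36m_mid_beta, s34m_mem_Vzero, s34m_mem_Vinf]
  have hF : ((s34m_al φ M q hq hqM y : s34m_F K₀ (M * q)) : LaurentSeries K₀) ∈ s18g_Frac G :=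
    s34m_hF G (M * q) _ (s34m_al φ M q hq hqM y).2
  rw [s36m_tw_mem_O_iff G₁ ξ₁ hξA (s36m_xi1_inv_mem q ξ hξ φ₁ ξ₁ G₁ hξ₁ hξA)
    (s36m_pi_xi1 ξ₁ G₁ hξA hϖ₁)
    (s36m_bc_mem_Frac G G₁ ψ (s36m_hA' G ψ G₁ hA) hF)]
  exact s36m_bc_mem_O_iff G G₁ ψ (s36m_hA' G ψ G₁ hA) (s36m_hπ' G ψ G₁ hA hπ) hF

include hA hπ in
theorem s36m_Vmid_comap_alpha :
    (Vmid).comap ((heckeAlphaBar K₀ (M * q) q : s34m_F K₀ (M * q) →ₐ[K₀] s34m_F K₀ (M * q * q)) :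
      s34m_F K₀ (M * q) →+* s34m_F K₀ (M * q * q)) = s34m_Vinf G (M * q) := by
  ext y
  rw [ValuationSubring.mem_comap, RingHom.coe_coe]
  exact s36m_alpha_mem_Vmid_iff G φ M q hq hqM ξ hξ ih hih1 hih2 ψ φ₁ ξ₁ G₁ hφ hξ₁ hA hπ hξA y

include hA hπ hϖ₁ in
theorem s36m_Vmid_comap_beta :
    (Vmid).comap ((heckeBetaBar K₀ (M * q) q : s34m_F K₀ (M * q) →ₐ[K₀] s34m_F K₀ (M * q * q)) :
      s34m_F K₀ (M * q) →+* s34m_F K₀ (M * q * q)) = s34m_Vzero G φ M q hq hqM := by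
  ext y
  rw [ValuationSubring.mem_comap, RingHom.coe_coe]
  exact s36m_beta_mem_Vmid_iff G φ M q hq hqM ξ hξ ih hih1 hih2 ψ φ₁ ξ₁ G₁ hφ hξ₁ hA hπ hξA hϖ₁ y

end Fermat.Agent.Lib.S36
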