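/-
S36 mega-project, layer (M) (helper6), part 9: THE UNIFORMISER of `V_mid` is `t = j_{q²} - j`
(`mid t = (ξ₁ - 1) · Gauss unit`), `ϖ₂ = unit · t ^ (q - 1)` (ramification index `q - 1`), the
non-units of `V_mid` are `t · V_mid`, and the reduction `r_mid = red ∘ mid`.
-/
import Fermat.Agent.Lib.S36.MMidProp

set_option autoImplicit false

noncomputable section

namespace Fermat.Agent.Lib.S36

open ModularCurve AlgebraicCurve HahnSeries Fermat.Agent.Lib.FF Fermat.Agent.Lib.S18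
  Fermat.Agent.Lib.S28 Fermat.Agent.Lib.S37 Fermat.Agent.Lib.S34

set_option linter.unusedSectionVars false

local notation "Kb" => AlgebraicClosure ℚ

variable {K₀ κ : Type} [Field K₀] [Algebra ℚ K₀] [Field κ] (G : s18g_GaussData K₀ κ)
  (φ : K₀ →+* Kb) (M q : ℕ) [NeZero M] [NeZero q] (hq : q.Prime) (hqM : ¬ q ∣ M)
  (ξ : Kbˣ) (hξ : IsPrimitiveRoot (ξ : Kb) q)
  (ih : ffi_F (M * q * q) →ₐ[Kb] LaurentSeries Kb)
  (hih1 : ∀ (D : ℕ) [NeZero D], D ∣ M * q → ∀ x : ffi_F (M * q * q),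
    (x : LaurentSeries Kb) = coeffEmb Kb (qExpand ℚ D jq) →
      ih x = coeffEmb Kb (qExpand ℚ D jq))
  (hih2 : ∀ (d : ℕ) [NeZero d], d ∣ M → ∀ x : ffi_F (M * q * q),
    (x : LaurentSeries Kb) = coeffEmb Kb (qExpand ℚ (d * q * q) jq) →
      ih x = s36m_twist ξ (coeffEmb Kb (qExpand ℚ d jq)))
  {K₁ : Type} [Field K₁] [Algebra ℚ K₁] (ψ : K₀ →+* K₁) (φ₁ : K₁ →+* Kb) (ξ₁ : K₁ˣ)
  (G₁ : s18g_GaussData K₁ κ)
  (hφ : φ₁.comp ψ = φ) (hξ₁ : φ₁ (ξ₁ : K₁) = (ξ : Kb))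
  (hA : ∀ a : K₀, ψ a ∈ G₁.A ↔ a ∈ G.A)
  (hπ : ∀ (a : K₀) (h : a ∈ G.A) (h' : ψ a ∈ G₁.A), G₁.π ⟨ψ a, h'⟩ = G.π ⟨a, h⟩)
  (hξA : (ξ₁ : K₁) ∈ G₁.A) (hϖ₁ : ((G₁.ϖ : G₁.A) : K₁) = (ξ₁ : K₁) - 1)

local notation "mid" => s36m_mid φ M q hq hqM ξ hξ ih hih1 hih2 ψ φ₁ ξ₁ G₁ hφ hξ₁ hξA

local notation "Vmid" => s36m_Vmid φ M q hq hqM ξ hξ ih hih1 hih2 ψ φ₁ ξ₁ G₁ hφ hξ₁ hξA

/-! ### Values of `mid` -/

theorem s36m_mid_const (c : K₀) :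
    mid (algebraMap K₀ (s34m_F K₀ (M * q * q)) c) = HahnSeries.C (ψ c) := by
  have e : algebraMap K₀ (s34m_F K₀ (M * q * q)) c =
      heckeAlphaBar K₀ (M * q) q (algebraMap K₀ (s34m_F K₀ (M * q)) c) :=
    ((heckeAlphaBar K₀ (M * q) q).commutes c).symm
  rw [e, s36m_mid_alpha, s18g_coe_algebraMap, HahnSeries.C_apply, coeffMap_single,
    HahnSeries.C_apply]

theorem s36m_mid_j : mid (s18g_jF (K := K₀) (M * q * q)) = jqModC K₁ := by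
  have e : s18g_jF (K := K₀) (M * q * q) =
      heckeAlphaBar K₀ (M * q) q (s18g_jF (K := K₀) (M * q)) :=
    (s34m_alpha_jF (K₀ := K₀) (M * q) q).symm
  rw [e, s36m_mid_alpha, s18g_coe_jF, coeffMap_jqModC]

theorem s36m_mid_jqq : mid (s36m_jqq (K₀ := K₀) M q) = s36m_twist ξ₁ (jqModC K₁) := by
  have e : s34m_al φ M q hq hqM (s34m_betaJ (K₀ := K₀) M q) = s18g_jF (K := K₀) (M * q) := by
    rw [s34m_betaJ, s34m_al_beta, s34m_alpha_jF]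
  rw [s36m_jqq, s36m_mid_beta, e, s18g_coe_jF, coeffMap_jqModC]

include hϖ₁ in
/-- **`mid t = (ξ₁ - 1) · (Gauss unit)`.** -/
theorem s36m_mid_t :
    ∃ g : LaurentSeries K₁, g ≠ 0 ∧ g ∈ s18g_O G₁ ∧ g⁻¹ ∈ s18g_O G₁ ∧
      mid (s36m_t (K₀ := K₀) M q) = HahnSeries.C ((G₁.ϖ : G₁.A) : K₁) * g := by
  have hξA' := s36m_xi1_inv_mem q ξ hξ φ₁ ξ₁ G₁ hξ₁ hξA
  have hπξ := s36m_pi_xi1 ξ₁ G₁ hξA hϖ₁
  set ξA : (G₁.A)ˣ := s36m_unitA G₁ ξ₁ hξA hξA' with hξAdef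
  set P : LaurentSeries G₁.A := jqModC G₁.A with hP
  set D : LaurentSeries G₁.A := s36m_twist ξA P - P with hD
  have hmid : mid (s36m_t (K₀ := K₀) M q) = s18g_iota G₁ D := by
    rw [s36m_t, map_sub, s36m_mid_jqq, s36m_mid_j, hD, map_sub, ← s36m_tw_iota, hP,
      s18g_iota_jq]
  have hρ : s18g_rho G₁ D = 0 := by
    rw [hD, map_sub, s36m_tw_rho G₁ ξ₁ hξA hξA' hπξ, RingHom.id_apply, sub_self]
  obtain ⟨D', hD'⟩ := (s18g_rho_eq_zero_iff G₁ D).mp hρ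
  -- the coefficient of `T⁻¹`
  have hϖA : (G₁.ϖ : G₁.A) = (ξA : G₁.A) - 1 := Subtype.ext hϖ₁
  have hc1 : D.coeff (-1) = ((ξA⁻¹ : (G₁.A)ˣ) : G₁.A) - 1 := by
    rw [hD, HahnSeries.coeff_sub, s36m_twist_coeff, hP, coeff_jqModC_neg_one, mul_one,
      zpow_neg_one]
  have hc2 : D.coeff (-1) = G₁.ϖ * D'.coeff (-1) := by
    rw [hD', s18g_coeff_C_mul]
  have hc3 : ((ξA⁻¹ : (G₁.A)ˣ) : G₁.A) - 1 = G₁.ϖ * (-((ξA⁻¹ : (G₁.A)ˣ) : G₁.A)) := by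
    rw [hϖA]
    have : (ξA : G₁.A) * ((ξA⁻¹ : (G₁.A)ˣ) : G₁.A) = 1 := Units.mul_inv ξA
    linear_combination this
  have hc4 : D'.coeff (-1) = -((ξA⁻¹ : (G₁.A)ˣ) : G₁.A) :=
    mul_left_cancel₀ G₁.ϖ_ne_zero (by rw [← hc2, hc1, hc3])
  have hρ' : s18g_rho G₁ D' ≠ 0 := by
    intro h0
    have h1 := congrArg (fun f => f.coeff (-1)) h0
    simp only [s18g_rho_coeff, HahnSeries.coeff_zero] at h1
    rw [hc4, map_neg, neg_eq_zero] at h1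
    have h2 : G₁.π (ξA : G₁.A) * G₁.π ((ξA⁻¹ : (G₁.A)ˣ) : G₁.A) = 1 := by
      rw [← map_mul, Units.mul_inv, map_one]
    rw [h1, mul_zero] at h2
    exact zero_ne_one h2
  have hD'0 : D' ≠ 0 := by
    rintro rfl
    exact hρ' (map_zero _)
  refine ⟨s18g_iota G₁ D', s18g_iota_ne_zero G₁ hD'0, s18g_iota_mem_O G₁ D',
    s18g_inv_iota_mem_O G₁ D' hρ', ?_⟩
  rw [hmid, hD', map_mul, s18g_iota_C]

/-! ### The non-units of `V_mid` and the reduction -/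

theorem s36m_mem_nonunits_Vmid_iff (y : s34m_F K₀ (M * q * q)) :
    y ∈ (Vmid).nonunits ↔ ∃ h : mid y ∈ s18g_O G₁, s18g_red G₁ ⟨mid y, h⟩ = 0 := by
  rw [ValuationSubring.mem_nonunits_iff_or]
  constructor
  · rintro (rfl | hinv)
    · refine ⟨by rw [map_zero]; exact Subring.zero_mem _, ?_⟩
      have : (⟨mid 0, by rw [map_zero]; exact Subring.zero_mem _⟩ : s18g_O G₁) = 0 :=
        Subtype.ext (map_zero _)
      rw [this, map_zero]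
    · have hy0 : y ≠ 0 := by
        rintro rfl
        exact hinv (by rw [inv_zero]; exact (Vmid).zero_mem)
      have hyV : y ∈ Vmid := ((Vmid).mem_or_inv_mem y).resolve_right hinv
      refine ⟨hyV, ?_⟩
      by_contra hne
      have hu : IsUnit (⟨mid y, hyV⟩ : s18g_O G₁) := (s18g_isUnit_iff G₁ _).mpr hne
      obtain ⟨z, hz⟩ := hu.exists_right_inv
      have hz' : mid y * (z : LaurentSeries K₁) = 1 := congrArg Subtype.val hz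
      apply hinv
      show mid y⁻¹ ∈ s18g_O G₁
      rw [map_inv₀, ← eq_inv_of_mul_eq_one_right hz']
      exact z.2
  · rintro ⟨h, hred⟩
    by_cases hy0 : y = 0
    · left; exact hy0
    · right
      intro hinv
      have hinv' : mid y⁻¹ ∈ s18g_O G₁ := hinv
      have hmul : (⟨mid y, h⟩ : s18g_O G₁) * ⟨mid y⁻¹, hinv'⟩ = 1 := by
        apply Subtype.ext
        show mid y * mid y⁻¹ = 1
        rw [← map_mul, mul_inv_cancel₀ hy0, map_one]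
      have := congrArg (s18g_red G₁) hmul
      rw [map_mul, hred, zero_mul, map_one] at this
      exact zero_ne_one this

/-- `mid` restricted to `V_mid`, with values in the Gauss ring. -/
def s36m_midV : Vmid →+* s18g_O G₁ where
  toFun y := ⟨mid (y : s34m_F K₀ (M * q * q)), y.2⟩
  map_one' := Subtype.ext (map_one _)
  map_mul' _ _ := Subtype.ext (map_mul _ _ _)
  map_zero' := Subtype.ext (map_zero _)
  map_add' _ _ := Subtype.ext (map_add _ _ _)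

/-- **The reduction `r_mid : V_mid → κ((T))`.** -/
def s36m_redMid : Vmid →+* LaurentSeries κ :=
  (s18g_red G₁).comp (s36m_midV φ M q hq hqM ξ hξ ih hih1 hih2 ψ φ₁ ξ₁ G₁ hφ hξ₁ hξA)

theorem s36m_redMid_apply (y : Vmid) :
    s36m_redMid φ M q hq hqM ξ hξ ih hih1 hih2 ψ φ₁ ξ₁ G₁ hφ hξ₁ hξA y =
      s18g_red G₁ ⟨mid (y : s34m_F K₀ (M * q * q)), y.2⟩ := rfl

theorem s36m_redMid_eq_zero_iff (y : Vmid) :
    s36m_redMid φ M q hq hqM ξ hξ ih hih1 hih2 ψ φ₁ ξ₁ G₁ hφ hξ₁ hξA y = 0 ↔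
      (y : s34m_F K₀ (M * q * q)) ∈ (Vmid).nonunits := by
  rw [s36m_mem_nonunits_Vmid_iff, s36m_redMid_apply]
  exact ⟨fun h => ⟨y.2, h⟩, fun ⟨_, h⟩ => h⟩

/-! ### (H3) for `V_mid` -/

include hϖ₁ in
theorem s36m_mid_t_ne_zero : mid (s36m_t (K₀ := K₀) M q) ≠ 0 := by
  obtain ⟨g, hg0, -, -, e⟩ := s36m_mid_t φ M q hq hqM ξ hξ ih hih1 hih2 ψ φ₁ ξ₁ G₁ hφ hξ₁ hξA hϖ₁
  rw [e]
  exact mul_ne_zero (s18g_C_unifK_ne_zero G₁) hg0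

include hϖ₁ in
/-- `t` is a non-unit of `V_mid`. -/
theorem s36m_t_mem_nonunits : s36m_t (K₀ := K₀) M q ∈ (Vmid).nonunits := by
  obtain ⟨g, -, hg, -, e⟩ := s36m_mid_t φ M q hq hqM ξ hξ ih hih1 hih2 ψ φ₁ ξ₁ G₁ hφ hξ₁ hξA hϖ₁
  rw [s36m_mem_nonunits_Vmid_iff]
  have hmem : mid (s36m_t (K₀ := K₀) M q) ∈ s18g_O G₁ := by
    rw [e]; exact (s18g_O G₁).mul_mem (s18g_unifO G₁).2 hg
  exact ⟨hmem, (s18g_red_eq_zero_iff G₁ _).mpr ⟨⟨g, hg⟩, Subtype.ext e⟩⟩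

include hϖ₁ in
/-- **The non-units of `V_mid` are `t · V_mid`.** -/
theorem s36m_nonunits_Vmid (y : s34m_F K₀ (M * q * q)) (hy : y ∈ (Vmid).nonunits) :
    ∃ z ∈ Vmid, y = s36m_t (K₀ := K₀) M q * z := by
  obtain ⟨g, hg0, hg, hg', e⟩ :=
    s36m_mid_t φ M q hq hqM ξ hξ ih hih1 hih2 ψ φ₁ ξ₁ G₁ hφ hξ₁ hξA hϖ₁
  have ht0 : s36m_t (K₀ := K₀) M q ≠ 0 := fun h0 =>
    s36m_mid_t_ne_zero φ M q hq hqM ξ hξ ih hih1 hih2 ψ φ₁ ξ₁ G₁ hφ hξ₁ hξA hϖ₁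
      (by rw [h0, map_zero])
  obtain ⟨h, hred⟩ := (s36m_mem_nonunits_Vmid_iff φ M q hq hqM ξ hξ ih hih1 hih2 ψ φ₁ ξ₁ G₁ hφ
    hξ₁ hξA y).mp hy
  obtain ⟨g', hg'e⟩ := (s18g_red_eq_zero_iff G₁ _).mp hred
  have e' : mid y = HahnSeries.C ((G₁.ϖ : G₁.A) : K₁) * (g' : LaurentSeries K₁) :=
    congrArg Subtype.val hg'e
  refine ⟨y / s36m_t (K₀ := K₀) M q, ?_, by field_simp⟩
  show mid (y / s36m_t (K₀ := K₀) M q) ∈ s18g_O G₁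
  have hC := s18g_C_unifK_ne_zero G₁
  have : mid (y / s36m_t (K₀ := K₀) M q) = (g' : LaurentSeries K₁) * g⁻¹ := by
    rw [map_div₀, e, e']
    field_simp
  rw [this]
  exact (s18g_O G₁).mul_mem g'.2 hg'

variable (u₀ : K₁) (hu₀ : u₀ ∈ G₁.A) (hu₀' : u₀⁻¹ ∈ G₁.A)
  (hu₀e : ψ ((G.ϖ : G.A) : K₀) = u₀ * ((ξ₁ : K₁) - 1) ^ (q - 1))

theorem s36m_mid_unif :
    mid (s34m_unif G (M * q * q)) = HahnSeries.C (ψ ((G.ϖ : G.A) : K₀)) :=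
  s36m_mid_const φ M q hq hqM ξ hξ ih hih1 hih2 ψ φ₁ ξ₁ G₁ hφ hξ₁ hξA _

include hϖ₁ hu₀ hu₀' hu₀e in
/-- **`ϖ₂ = unit · t ^ (q - 1)` in `V_mid`.** -/
theorem s36m_unif_eq_unit_mul :
    ∃ u, u ∈ Vmid ∧ u⁻¹ ∈ Vmid ∧
      s34m_unif G (M * q * q) = u * s36m_t (K₀ := K₀) M q ^ (q - 1) := by
  obtain ⟨g, hg0, hg, hg', e⟩ :=
    s36m_mid_t φ M q hq hqM ξ hξ ih hih1 hih2 ψ φ₁ ξ₁ G₁ hφ hξ₁ hξA hϖ₁
  have ht0 : s36m_t (K₀ := K₀) M q ≠ 0 := fun h0 =>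
    s36m_mid_t_ne_zero φ M q hq hqM ξ hξ ih hih1 hih2 ψ φ₁ ξ₁ G₁ hφ hξ₁ hξA hϖ₁
      (by rw [h0, map_zero])
  have hC := s18g_C_unifK_ne_zero G₁
  have hu₀0 : u₀ ≠ 0 := by
    rintro rfl
    rw [zero_mul] at hu₀e
    exact s18g_unifK_ne_zero G ((map_eq_zero ψ).mp hu₀e)
  have hmidu : mid (s34m_unif G (M * q * q) / s36m_t (K₀ := K₀) M q ^ (q - 1)) =
      HahnSeries.C u₀ * (g⁻¹) ^ (q - 1) := by
    rw [map_div₀, map_pow, e, s36m_mid_unif, hu₀e, hϖ₁, map_mul, map_pow, mul_pow, inv_pow]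
    rw [hϖ₁] at hC
    have hgn : g ^ (q - 1) ≠ 0 := pow_ne_zero _ hg0
    have hCn : (HahnSeries.C ((ξ₁ : K₁) - 1) : LaurentSeries K₁) ^ (q - 1) ≠ 0 :=
      pow_ne_zero _ hC
    field_simp
  refine ⟨s34m_unif G (M * q * q) / s36m_t (K₀ := K₀) M q ^ (q - 1), ?_, ?_, by field_simp⟩
  · show mid _ ∈ s18g_O G₁
    rw [hmidu]
    exact (s18g_O G₁).mul_mem (s18g_C_mem_O G₁ ⟨u₀, hu₀⟩) ((s18g_O G₁).pow_mem hg' _)
  · show mid _ ∈ s18g_O G₁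
    have hCinv : (HahnSeries.C u₀ : LaurentSeries K₁)⁻¹ = HahnSeries.C u₀⁻¹ :=
      (map_inv₀ _ _).symm
    rw [map_inv₀, hmidu, mul_inv, hCinv, inv_pow, inv_inv]
    exact (s18g_O G₁).mul_mem (s18g_C_mem_O G₁ ⟨u₀⁻¹, hu₀'⟩) ((s18g_O G₁).pow_mem hg _)

end Fermat.Agent.Lib.S36
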