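/-
S36 mega-project, layer (M) (helper6), part 10: remaining items of (H3) for `V_mid`
(`ϖ₂` is a non-unit, every element becomes integral after multiplication by a power of `ϖ₂`) and
(H6): the reduction `r_mid` restricted along `α'` is `red_∞`, along `β'` it is `red_0`.
-/
import Fermat.Agent.Lib.S36.MMidUnif

set_option autoImplicit false

noncomputable section

namespace Fermat.Agent.Lib.S36

open ModularCurve AlgebraicCurve HahnSeries Fermat.Agent.Lib.FF Fermat.Agent.Lib.S18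
  Fermat.Agent.Lib.S28 Fermat.Agent.Lib.S37 Fermat.Agent.Lib.S34

set_option linter.unusedSectionVars false

local notation "Kb" => AlgebraicClosure ℚ

variable {K₀ κ : Type} [Field K₀] [Algebra ℚ K₀] [Field κ] (G : s18g_GaussData K₀ κ)
  (φ : K₀ →+* Kb) (M q : ℕ) [NeZero M] [NeZero q] (hq : q.Prime) (hqM : ¬ q ∣ M)
  (ξ : Kbˣ) (hξ : IsPrimitiveRoot (ξ : Kb) q)
  (ih : ffi_F (M * q * q) →ₐ[Kb] LaurentSeries Kb)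
  (hih1 : ∀ (D : ℕ) [NeZero D], D ∣ M * q → ∀ x : ffi_F (M * q * q),
    (x : LaurentSeries Kb) = coeffEmb Kb (qExpand ℚ D jq) →
      ih x = coeffEmb Kb (qExpand ℚ D jq))
  (hih2 : ∀ (d : ℕ) [NeZero d], d ∣ M → ∀ x : ffi_F (M * q * q),
    (x : LaurentSeries Kb) = coeffEmb Kb (qExpand ℚ (d * q * q) jq) →
      ih x = s36m_twist ξ (coeffEmb Kb (qExpand ℚ d jq)))
  {K₁ : Type} [Field K₁] [Algebra ℚ K₁] (ψ : K₀ →+* K₁) (φ₁ : K₁ →+* Kb) (ξ₁ : K₁ˣ)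
  (G₁ : s18g_GaussData K₁ κ)
  (hφ : φ₁.comp ψ = φ) (hξ₁ : φ₁ (ξ₁ : K₁) = (ξ : Kb))
  (hA : ∀ a : K₀, ψ a ∈ G₁.A ↔ a ∈ G.A)
  (hπ : ∀ (a : K₀) (h : a ∈ G.A) (h' : ψ a ∈ G₁.A), G₁.π ⟨ψ a, h'⟩ = G.π ⟨a, h⟩)
  (hξA : (ξ₁ : K₁) ∈ G₁.A) (hϖ₁ : ((G₁.ϖ : G₁.A) : K₁) = (ξ₁ : K₁) - 1)

local notation "mid" => s36m_mid φ M q hq hqM ξ hξ ih hih1 hih2 ψ φ₁ ξ₁ G₁ hφ hξ₁ hξA

local notation "Vmid" => s36m_Vmid φ M q hq hqM ξ hξ ih hih1 hih2 ψ φ₁ ξ₁ G₁ hφ hξ₁ hξA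

local notation "redMid" => s36m_redMid φ M q hq hqM ξ hξ ih hih1 hih2 ψ φ₁ ξ₁ G₁ hφ hξ₁ hξA

include hA hπ in
/-- `ϖ₂` is a non-unit of `V_mid`. -/
theorem s36m_unif_mem_nonunits_Vmid : s34m_unif G (M * q * q) ∈ (Vmid).nonunits := by
  rw [s36m_mem_nonunits_Vmid_iff, s36m_mid_unif]
  have hϖA : ψ ((G.ϖ : G.A) : K₀) ∈ G₁.A := (hA _).mpr (G.ϖ : G.A).2
  have h := s18g_red_C G₁ ⟨ψ ((G.ϖ : G.A) : K₀), hϖA⟩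
  rw [hπ _ (G.ϖ : G.A).2 hϖA] at h
  refine ⟨s18g_C_mem_O G₁ ⟨_, hϖA⟩, ?_⟩
  rw [h]
  have : G.π ⟨((G.ϖ : G.A) : K₀), (G.ϖ : G.A).2⟩ = 0 := s18g_pi_unif G
  rw [this, map_zero]

variable (u₀ : K₁) (hu₀ : u₀ ∈ G₁.A) (hu₀' : u₀⁻¹ ∈ G₁.A)
  (hu₀e : ψ ((G.ϖ : G.A) : K₀) = u₀ * ((ξ₁ : K₁) - 1) ^ (q - 1))

include hq hϖ₁ hu₀ hu₀' hu₀e in
/-- Every element of `F₂` becomes integral for `V_mid` after multiplication by a power of `ϖ₂`. -/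
theorem s36m_exists_pow_mul_mem_Vmid (y : s34m_F K₀ (M * q * q)) :
    ∃ k : ℕ, s34m_unif G (M * q * q) ^ k * y ∈ Vmid := by
  by_cases hy0 : y = 0
  · exact ⟨0, by rw [hy0, mul_zero]; exact (Vmid).zero_mem⟩
  have hmy0 : mid y ≠ 0 := (map_ne_zero _).mpr hy0
  obtain ⟨n, u, hu, -, -, e⟩ := s18g_exists_zpow_mul G₁
    (s36m_mid_mem_Frac φ M q hq hqM ξ hξ ih hih1 hih2 ψ φ₁ ξ₁ G₁ hφ hξ₁ hξA y) hmy0
  have hC := s18g_C_unifK_ne_zero G₁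
  have hq1 : 1 ≤ q - 1 := by have := hq.two_le; omega
  refine ⟨n.natAbs, ?_⟩
  show mid _ ∈ s18g_O G₁
  have hexp : (0 : ℤ) ≤ ((n.natAbs * (q - 1) : ℕ) : ℤ) + n := by
    have h1 : (n.natAbs : ℤ) ≤ ((n.natAbs * (q - 1) : ℕ) : ℤ) := by
      exact_mod_cast Nat.le_mul_of_pos_right _ hq1
    have h2 : -(n.natAbs : ℤ) ≤ n := by
      rw [← Int.abs_eq_natAbs]; exact neg_abs_le n
    omega
  obtain ⟨m, hm⟩ := Int.eq_ofNat_of_zero_le hexp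
  have : mid (s34m_unif G (M * q * q) ^ n.natAbs * y) =
      HahnSeries.C u₀ ^ n.natAbs * HahnSeries.C ((G₁.ϖ : G₁.A) : K₁) ^ m * u := by
    rw [map_mul, map_pow, s36m_mid_unif, hu₀e, ← hϖ₁, map_mul, map_pow, mul_pow, ← pow_mul, e,
      ← zpow_natCast (HahnSeries.C ((G₁.ϖ : G₁.A) : K₁)) m, ← hm, zpow_add₀ hC, zpow_natCast,
      mul_comm (q - 1) n.natAbs]
    ring
  rw [this]
  exact (s18g_O G₁).mul_mem ((s18g_O G₁).mul_mem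
    ((s18g_O G₁).pow_mem (s18g_C_mem_O G₁ ⟨u₀, hu₀⟩) _)
    ((s18g_O G₁).pow_mem (s18g_unifO G₁).2 _)) hu

/-! ### (H6): the reduction of `V_mid` along `α'` and `β'` -/

include hA hπ in
/-- **`r_mid ∘ α' = red_∞`.** -/
theorem s36m_redMid_alpha (x : s34m_Vinf G (M * q))
    (h : heckeAlphaBar K₀ (M * q) q (x : s34m_F K₀ (M * q)) ∈ Vmid) :
    redMid ⟨_, h⟩ = s34m_redInf G (M * q) x := by
  rw [s36m_redMid_apply, s34m_redInf_apply]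
  have hx : ((x : s34m_F K₀ (M * q)) : LaurentSeries K₀) ∈ s18g_O G := x.2
  rw [← s36m_bc_red G G₁ ψ (s36m_hA' G ψ G₁ hA) (s36m_hπ' G ψ G₁ hA hπ) ⟨_, hx⟩]
  congr 1
  exact Subtype.ext (s36m_mid_alpha φ M q hq hqM ξ hξ ih hih1 hih2 ψ φ₁ ξ₁ G₁ hφ hξ₁ hξA _)

include hA hπ hϖ₁ in
/-- **`r_mid ∘ β' = red_0`.** -/
theorem s36m_redMid_beta (x : s34m_Vzero G φ M q hq hqM)
    (h : heckeBetaBar K₀ (M * q) q (x : s34m_F K₀ (M * q)) ∈ Vmid) :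
    redMid ⟨_, h⟩ = s34m_redZero G φ M q hq hqM x := by
  rw [s36m_redMid_apply, s34m_redZero_apply, s34m_redInf_apply]
  have hx : ((s34m_al φ M q hq hqM (x : s34m_F K₀ (M * q)) : s34m_F K₀ (M * q)) :
      LaurentSeries K₀) ∈ s18g_O G := x.2
  have hξA' := s36m_xi1_inv_mem q ξ hξ φ₁ ξ₁ G₁ hξ₁ hξA
  have hπξ := s36m_pi_xi1 ξ₁ G₁ hξA hϖ₁
  have hbc := s36m_bc_mem_O G G₁ ψ (s36m_hA' G ψ G₁ hA) (s36m_hπ' G ψ G₁ hA hπ) hx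
  rw [← s36m_bc_red G G₁ ψ (s36m_hA' G ψ G₁ hA) (s36m_hπ' G ψ G₁ hA hπ) ⟨_, hx⟩,
    ← s36m_tw_red G₁ ξ₁ hξA hξA' hπξ ⟨_, hbc⟩]
  congr 1
  exact Subtype.ext (s36m_mid_beta φ M q hq hqM ξ hξ ih hih1 hih2 ψ φ₁ ξ₁ G₁ hφ hξ₁ hξA _)

end Fermat.Agent.Lib.S36
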