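/-
S36 mega-project, layer (M) (helper6), part 11: (H10) THE EISENSTEIN EXPANSION at the middle cusp.

Abstract part (`G : s18g_GaussData K κ`, `ξ` a unit of `G.A` with `ϖ = ξ - 1`): for every `X` in the
Gauss ring, `X(ξ T) - X(T) = ϖ · Y` with `Y` in the Gauss ring and `red Y = θ (red X)`, `θ = T d/dT`
(`ξ^n - 1 = (ξ - 1) [n]_ξ`, `[n]_ξ ≡ n`).

Concrete part: for `x` of level `M` in `V_∞(M)`: `D = β'(β x) - α'(α x)` is a non-unit of `V_mid`,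
`D^(q-1)/ϖ₂ ∈ V_mid` and `r_mid (D^(q-1)/ϖ₂) = c₀ · (θ (red_∞ x))^(q-1)`, `c₀ = π₁(u₀⁻¹) ≠ 0`.
-/
import Fermat.Agent.Lib.S36.MMidRed
import Fermat.Agent.Lib.FF.LaurentDeriv

set_option autoImplicit false

noncomputable section

namespace Fermat.Agent.Lib.S36

open ModularCurve AlgebraicCurve HahnSeries Fermat.Agent.Lib.FF Fermat.Agent.Lib.S18
  Fermat.Agent.Lib.S28 Fermat.Agent.Lib.S37 Fermat.Agent.Lib.S34

set_option linter.unusedSectionVars false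

local notation "Kb" => AlgebraicClosure ℚ

section Abs

variable {K : Type*} [Field K] {κ : Type*} [Field κ] (G : s18g_GaussData K κ)
  (ξA : (G.A)ˣ) (hϖ : (G.ϖ : G.A) = (ξA : G.A) - 1)

include hϖ in
theorem s36m_eis_pi_xi : G.π (ξA : G.A) = 1 := by
  have h1 : (ξA : G.A) = G.ϖ + 1 := by rw [hϖ]; ring
  rw [h1, map_add, s18g_pi_unif, zero_add, map_one]

include hϖ in
theorem s36m_eis_pi_xi_inv : G.π ((ξA⁻¹ : (G.A)ˣ) : G.A) = 1 := by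
  have h2 : G.π (ξA : G.A) * G.π ((ξA⁻¹ : (G.A)ˣ) : G.A) = 1 := by
    rw [← map_mul, Units.mul_inv, map_one]
  rw [s36m_eis_pi_xi G ξA hϖ, one_mul] at h2
  exact h2

include hϖ in
/-- The `ξ`-number `[n]_ξ`: `ξ^n - 1 = ϖ · [n]_ξ` and `[n]_ξ ≡ n`. -/
theorem s36m_eis_exists_c (n : ℤ) :
    ∃ c : G.A, ((ξA ^ n : (G.A)ˣ) : G.A) - 1 = G.ϖ * c ∧ G.π c = (n : κ) := by
  have hπξ := s36m_eis_pi_xi G ξA hϖ
  have hπξ' := s36m_eis_pi_xi_inv G ξA hϖ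
  induction n using Int.induction_on with
  | zero => exact ⟨0, by simp, by simp⟩
  | succ i ih =>
    obtain ⟨c, hc, hcπ⟩ := ih
    refine ⟨c * (ξA : G.A) + 1, ?_, ?_⟩
    · rw [zpow_add_one, Units.val_mul]
      have : ((ξA ^ (i : ℤ) : (G.A)ˣ) : G.A) = G.ϖ * c + 1 := by rw [← hc]; ring
      rw [this, hϖ]; ring
    · rw [map_add, map_mul, hcπ, hπξ, map_one]; push_cast; ring
  | pred i ih =>
    obtain ⟨c, hc, hcπ⟩ := ih
    refine ⟨(c - 1) * ((ξA⁻¹ : (G.A)ˣ) : G.A), ?_, ?_⟩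
    · rw [zpow_sub_one, Units.val_mul]
      have h1 : ((ξA ^ (-(i : ℤ)) : (G.A)ˣ) : G.A) = G.ϖ * c + 1 := by rw [← hc]; ring
      have h2 : (ξA : G.A) * ((ξA⁻¹ : (G.A)ˣ) : G.A) = 1 := Units.mul_inv ξA
      rw [h1, hϖ]
      linear_combination h2
    · rw [map_mul, map_sub, hcπ, hπξ', map_one]; push_cast; ring

/-- `[n]_ξ`. -/
def s36m_eisC (n : ℤ) : G.A := (s36m_eis_exists_c G ξA hϖ n).choose

theorem s36m_eisC_spec (n : ℤ) :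
    ((ξA ^ n : (G.A)ˣ) : G.A) - 1 = G.ϖ * s36m_eisC G ξA hϖ n :=
  (s36m_eis_exists_c G ξA hϖ n).choose_spec.1

theorem s36m_pi_eisC (n : ℤ) : G.π (s36m_eisC G ξA hϖ n) = (n : κ) :=
  (s36m_eis_exists_c G ξA hϖ n).choose_spec.2

/-- `Y_P = Σ [n]_ξ a_n T^n`. -/
def s36m_eisY (P : LaurentSeries G.A) : LaurentSeries G.A where
  coeff n := s36m_eisC G ξA hϖ n * P.coeff n
  isPWO_support' := P.isPWO_support.mono (fun n hn => by
    simp only [Function.mem_support, ne_eq] at hn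
    simp only [HahnSeries.mem_support, ne_eq]
    intro h
    apply hn
    rw [h, mul_zero])

@[simp] theorem s36m_eisY_coeff (P : LaurentSeries G.A) (n : ℤ) :
    (s36m_eisY G ξA hϖ P).coeff n = s36m_eisC G ξA hϖ n * P.coeff n := rfl

theorem s36m_eis_twist (P : LaurentSeries G.A) :
    s36m_twist ξA P = P + HahnSeries.C G.ϖ * s36m_eisY G ξA hϖ P := by
  ext n
  rw [s36m_twist_coeff, HahnSeries.coeff_add, s18g_coeff_C_mul, s36m_eisY_coeff, ← mul_assoc,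
    ← s36m_eisC_spec]
  ring_nf

theorem s36m_eis_rho (P : LaurentSeries G.A) :
    s18g_rho G (s36m_eisY G ξA hϖ P) = ffd_theta (s18g_rho G P) := by
  ext n
  rw [s18g_rho_coeff, s36m_eisY_coeff, ffd_theta_coeff, s18g_rho_coeff, map_mul, s36m_pi_eisC]

end Abs

section AbsO

variable {K : Type*} [Field K] {κ : Type*} [Field κ] (G : s18g_GaussData K κ)
  (ξ : Kˣ) (hξ : (ξ : K) ∈ G.A) (hξ' : ((ξ⁻¹ : Kˣ) : K) ∈ G.A)
  (hϖK : ((G.ϖ : G.A) : K) = (ξ : K) - 1)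

include hξ hξ' hϖK in
/-- **`X(ξT) - X(T) = ϖ · Y`, `red Y = θ (red X)`** for `X` in the Gauss ring. -/
theorem s36m_eis_O (X : s18g_O G) :
    ∃ Y : s18g_O G, s36m_twist ξ (X : LaurentSeries K) - (X : LaurentSeries K) =
        HahnSeries.C ((G.ϖ : G.A) : K) * (Y : LaurentSeries K) ∧
      s18g_red G Y = ffd_theta (s18g_red G X) := by
  set ξA : (G.A)ˣ := s36m_unitA G ξ hξ hξ' with hξAdef
  have hϖ : (G.ϖ : G.A) = (ξA : G.A) - 1 := Subtype.ext hϖK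
  have hπξ : G.π ⟨(ξ : K), hξ⟩ = 1 := s36m_eis_pi_xi G ξA hϖ
  obtain ⟨P, Q, hQ, h⟩ := X.2
  set YP := s36m_eisY G ξA hϖ P with hYP
  set YQ := s36m_eisY G ξA hϖ Q with hYQ
  set tQ := s36m_twist ξA Q with htQ
  have htwP : s36m_twist ξ (s18g_iota G P) =
      s18g_iota G P + HahnSeries.C ((G.ϖ : G.A) : K) * s18g_iota G YP := by
    rw [s36m_tw_iota G ξ hξ hξ', s36m_eis_twist G ξA hϖ P, map_add, map_mul, s18g_iota_C]
  have htwQ : s36m_twist ξ (s18g_iota G Q) =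
      s18g_iota G Q + HahnSeries.C ((G.ϖ : G.A) : K) * s18g_iota G YQ := by
    rw [s36m_tw_iota G ξ hξ hξ', s36m_eis_twist G ξA hϖ Q, map_add, map_mul, s18g_iota_C]
  have htQι : s36m_twist ξ (s18g_iota G Q) = s18g_iota G tQ := s36m_tw_iota G ξ hξ hξ' Q
  have hρtQ : s18g_rho G tQ ≠ 0 := by
    rw [htQ, s36m_tw_rho G ξ hξ hξ' hπξ]; exact hQ
  have htQ0 : s18g_iota G tQ ≠ 0 :=
    s18g_iota_ne_zero G (fun h0 => hρtQ (by rw [h0, map_zero]))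
  -- the elements of the Gauss ring
  set yP : s18g_O G := ⟨s18g_iota G YP, s18g_iota_mem_O G YP⟩ with hyP
  set yQ : s18g_O G := ⟨s18g_iota G YQ, s18g_iota_mem_O G YQ⟩ with hyQ
  set tq : s18g_O G := ⟨s18g_iota G tQ, s18g_iota_mem_O G tQ⟩ with htq
  set ti : s18g_O G := ⟨(s18g_iota G tQ)⁻¹, s18g_inv_iota_mem_O G tQ hρtQ⟩ with hti
  have htqti : tq * ti = 1 := Subtype.ext (mul_inv_cancel₀ htQ0)
  refine ⟨(yP - yQ * X) * ti, ?_, ?_⟩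
  · show _ = HahnSeries.C ((G.ϖ : G.A) : K) *
      ((s18g_iota G YP - s18g_iota G YQ * (X : LaurentSeries K)) * (s18g_iota G tQ)⁻¹)
    have key : s18g_iota G tQ * (s36m_twist ξ (X : LaurentSeries K) - (X : LaurentSeries K)) =
        HahnSeries.C ((G.ϖ : G.A) : K) *
          (s18g_iota G YP - s18g_iota G YQ * (X : LaurentSeries K)) := by
      have e1 : s18g_iota G tQ * s36m_twist ξ (X : LaurentSeries K) =
          s36m_twist ξ (s18g_iota G P) := by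
        rw [← htQι, ← map_mul, h]
      rw [mul_sub, e1, htwP, ← htQι, htwQ, ← h]
      ring
    rw [← mul_assoc, ← key]
    field_simp
  · have hredX : s18g_red G X = s18g_rho G P / s18g_rho G Q := s18g_red_eq G X P Q hQ h
    have hredti : s18g_red G ti = (s18g_rho G tQ)⁻¹ := by
      have h1 := congrArg (s18g_red G) htqti
      rw [map_mul, map_one, htq, s18g_red_iota] at h1
      exact eq_inv_of_mul_eq_one_right h1
    have hρtQ' : s18g_rho G tQ = s18g_rho G Q := by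
      rw [htQ, s36m_tw_rho G ξ hξ hξ' hπξ]; rfl
    rw [map_mul, map_sub, map_mul, hyP, hyQ, s18g_red_iota, s18g_red_iota, hredti, hρtQ', hYP,
      hYQ, s36m_eis_rho, s36m_eis_rho, hredX]
    -- quotient rule
    have hθ : ffd_theta (s18g_rho G P) =
        (s18g_rho G P / s18g_rho G Q) * ffd_theta (s18g_rho G Q) +
          s18g_rho G Q * ffd_theta (s18g_rho G P / s18g_rho G Q) := by
      rw [← ffd_theta_mul, div_mul_cancel₀ _ hQ]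
    rw [hθ]
    field_simp
    ring

end AbsO

variable {K₀ κ : Type} [Field K₀] [Algebra ℚ K₀] [Field κ] (G : s18g_GaussData K₀ κ)
  (φ : K₀ →+* Kb) (M q : ℕ) [NeZero M] [NeZero q] (hq : q.Prime) (hqM : ¬ q ∣ M)
  (ξ : Kbˣ) (hξ : IsPrimitiveRoot (ξ : Kb) q)
  (ih : ffi_F (M * q * q) →ₐ[Kb] LaurentSeries Kb)
  (hih1 : ∀ (D : ℕ) [NeZero D], D ∣ M * q → ∀ x : ffi_F (M * q * q),
    (x : LaurentSeries Kb) = coeffEmb Kb (qExpand ℚ D jq) →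
      ih x = coeffEmb Kb (qExpand ℚ D jq))
  (hih2 : ∀ (d : ℕ) [NeZero d], d ∣ M → ∀ x : ffi_F (M * q * q),
    (x : LaurentSeries Kb) = coeffEmb Kb (qExpand ℚ (d * q * q) jq) →
      ih x = s36m_twist ξ (coeffEmb Kb (qExpand ℚ d jq)))
  {K₁ : Type} [Field K₁] [Algebra ℚ K₁] (ψ : K₀ →+* K₁) (φ₁ : K₁ →+* Kb) (ξ₁ : K₁ˣ)
  (G₁ : s18g_GaussData K₁ κ)
  (hφ : φ₁.comp ψ = φ) (hξ₁ : φ₁ (ξ₁ : K₁) = (ξ : Kb))
  (hA : ∀ a : K₀, ψ a ∈ G₁.A ↔ a ∈ G.A)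
  (hπ : ∀ (a : K₀) (h : a ∈ G.A) (h' : ψ a ∈ G₁.A), G₁.π ⟨ψ a, h'⟩ = G.π ⟨a, h⟩)
  (hξA : (ξ₁ : K₁) ∈ G₁.A) (hϖ₁ : ((G₁.ϖ : G₁.A) : K₁) = (ξ₁ : K₁) - 1)
  (u₀ : K₁) (hu₀ : u₀ ∈ G₁.A) (hu₀' : u₀⁻¹ ∈ G₁.A)
  (hu₀e : ψ ((G.ϖ : G.A) : K₀) = u₀ * ((ξ₁ : K₁) - 1) ^ (q - 1))

local notation "mid" => s36m_mid φ M q hq hqM ξ hξ ih hih1 hih2 ψ φ₁ ξ₁ G₁ hφ hξ₁ hξA

local notation "Vmid" => s36m_Vmid φ M q hq hqM ξ hξ ih hih1 hih2 ψ φ₁ ξ₁ G₁ hφ hξ₁ hξA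

local notation "redMid" => s36m_redMid φ M q hq hqM ξ hξ ih hih1 hih2 ψ φ₁ ξ₁ G₁ hφ hξ₁ hξA

/-- `mid (β'(β x) - α'(α x)) = X(ξ₁ T) - X(T)`, `X = x` with coefficients in `K₁`. -/
theorem s36m_mid_eisD (x : s34m_F K₀ M) :
    mid (heckeBetaBar K₀ (M * q) q (heckeBetaBar K₀ M q x) -
        heckeAlphaBar K₀ (M * q) q (heckeAlphaBar K₀ M q x)) =
      s36m_twist ξ₁ (coeffMap ψ (x : LaurentSeries K₀)) - coeffMap ψ (x : LaurentSeries K₀) := by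
  rw [map_sub, s36m_mid_beta, s36m_mid_alpha, s34m_al_beta, coe_heckeAlphaBar]

include hA hπ hϖ₁ hu₀ hu₀' hu₀e in
/-- **(H10)** the Eisenstein expansion. -/
theorem s36m_eis (x : s34m_F K₀ M) (hx : x ∈ s34m_Vinf G M) :
    (heckeBetaBar K₀ (M * q) q (heckeBetaBar K₀ M q x) -
        heckeAlphaBar K₀ (M * q) q (heckeAlphaBar K₀ M q x)) ∈ (Vmid).nonunits ∧
    ∀ h : (heckeBetaBar K₀ (M * q) q (heckeBetaBar K₀ M q x) -
        heckeAlphaBar K₀ (M * q) q (heckeAlphaBar K₀ M q x)) ^ (q - 1) /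
          s34m_unif G (M * q * q) ∈ Vmid,
      redMid ⟨_, h⟩ = HahnSeries.C (G₁.π ⟨u₀⁻¹, hu₀'⟩) *
        ffd_theta (s34m_redInf G M ⟨x, hx⟩) ^ (q - 1) := by
  have hξA' := s36m_xi1_inv_mem q ξ hξ φ₁ ξ₁ G₁ hξ₁ hξA
  have hxO : (x : LaurentSeries K₀) ∈ s18g_O G := hx
  have hXO := s36m_bc_mem_O G G₁ ψ (s36m_hA' G ψ G₁ hA) (s36m_hπ' G ψ G₁ hA hπ) hxO
  obtain ⟨Y, hY, hYred⟩ := s36m_eis_O G₁ ξ₁ hξA hξA' hϖ₁ ⟨_, hXO⟩
  have hredX : s18g_red G₁ ⟨coeffMap ψ (x : LaurentSeries K₀), hXO⟩ =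
      s34m_redInf G M ⟨x, hx⟩ := by
    rw [s34m_redInf_apply]
    exact s36m_bc_red G G₁ ψ (s36m_hA' G ψ G₁ hA) (s36m_hπ' G ψ G₁ hA hπ) ⟨_, hxO⟩
  rw [hredX] at hYred
  set D := heckeBetaBar K₀ (M * q) q (heckeBetaBar K₀ M q x) -
        heckeAlphaBar K₀ (M * q) q (heckeAlphaBar K₀ M q x) with hD
  have hmidD : mid D = HahnSeries.C ((G₁.ϖ : G₁.A) : K₁) * (Y : LaurentSeries K₁) := by
    rw [hD, s36m_mid_eisD]; exact hY
  constructor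
  · rw [s36m_mem_nonunits_Vmid_iff]
    have hmem : mid D ∈ s18g_O G₁ := by
      rw [hmidD]; exact (s18g_O G₁).mul_mem (s18g_unifO G₁).2 Y.2
    exact ⟨hmem, (s18g_red_eq_zero_iff G₁ _).mpr ⟨Y, Subtype.ext hmidD⟩⟩
  · intro h
    have hC := s18g_C_unifK_ne_zero G₁
    have hu₀0 : u₀ ≠ 0 := by
      rintro rfl
      rw [zero_mul] at hu₀e
      exact s18g_unifK_ne_zero G ((map_eq_zero ψ).mp hu₀e)
    have hmidq : mid (D ^ (q - 1) / s34m_unif G (M * q * q)) =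
        HahnSeries.C u₀⁻¹ * (Y : LaurentSeries K₁) ^ (q - 1) := by
      rw [map_div₀, map_pow, hmidD, s36m_mid_unif, hu₀e, hϖ₁, map_mul, map_pow, mul_pow]
      rw [hϖ₁] at hC
      have hCn : (HahnSeries.C ((ξ₁ : K₁) - 1) : LaurentSeries K₁) ^ (q - 1) ≠ 0 :=
        pow_ne_zero _ hC
      have hCu : (HahnSeries.C u₀ : LaurentSeries K₁) ≠ 0 := by
        intro h0
        exact hu₀0 (HahnSeries.C_injective (by rw [h0, map_zero]))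
      have hCinv : (HahnSeries.C u₀⁻¹ : LaurentSeries K₁) = (HahnSeries.C u₀)⁻¹ :=
        map_inv₀ _ _
      rw [hCinv]
      field_simp
    rw [s36m_redMid_apply]
    have hcoe : (⟨mid (D ^ (q - 1) / s34m_unif G (M * q * q)), h⟩ : s18g_O G₁) =
        ⟨HahnSeries.C ((⟨u₀⁻¹, hu₀'⟩ : G₁.A) : K₁), s18g_C_mem_O G₁ ⟨u₀⁻¹, hu₀'⟩⟩ *
          Y ^ (q - 1) := Subtype.ext hmidq
    rw [hcoe, map_mul, map_pow, s18g_red_C, hYred]

include hu₀ hu₀' hu₀e in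
theorem s36m_eis_const_ne_zero : G₁.π ⟨u₀⁻¹, hu₀'⟩ ≠ 0 := by
  have hu₀0 : u₀ ≠ 0 := by
    rintro rfl
    rw [zero_mul] at hu₀e
    exact s18g_unifK_ne_zero G ((map_eq_zero ψ).mp hu₀e)
  have hmul : (⟨u₀, hu₀⟩ : G₁.A) * ⟨u₀⁻¹, hu₀'⟩ = 1 := Subtype.ext (mul_inv_cancel₀ hu₀0)
  intro h0
  have := congrArg G₁.π hmul
  rw [map_mul, h0, mul_zero, map_one] at this
  exact zero_ne_one this

end Fermat.Agent.Lib.S36
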