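/-
S36 mega-project, layer (M), complement to (D2) (helper3, prefix `s36m_ri`), requested by lead (#1769):
**the two independence statements `hindα`, `hindβ`** of `s36n_frame` (NormInst.lean) — the `hind`
hypothesis of `s36c_fund_insep` for the two purely inseparable branches — as separate named lemmas,
in the literal shape of `s36n_frame`:

* `s36m_ri_hind_alpha` : `θ = j_{q²}` (`s36m_jqq M q`), `α'` over `V'_0` with `V 2`;
* `s36m_ri_hind_beta`  : `θ = j` (`s18g_jF (M q q)`), `β'` over `V'_∞` with `V 0`;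
* `s36m_ri_hindα`, `s36m_ri_hindβ` : the `∃ θ ∈ V i, …` forms (exactly the hypotheses of `s36n_frame`).
-/
import Fermat.Agent.Lib.S36.MResComplete

set_option autoImplicit false
set_option linter.unusedSectionVars false
set_option linter.style.haveILetI false

noncomputable section

namespace Fermat.Agent.Lib.S36

open ModularCurve AlgebraicCurve HahnSeries Fermat.Agent.Lib.FF Fermat.Agent.Lib.S18
  Fermat.Agent.Lib.S37 Fermat.Agent.Lib.S34

local notation "Kb" => AlgebraicClosure ℚ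

variable {K₀ : Type} [Field K₀] [Algebra ℚ K₀] {κ : Type} [Field κ] (G : s18g_GaussData K₀ κ)
  (φ : K₀ →+* Kb) (M q : ℕ) [NeZero M] [NeZero q] (hq : q.Prime) (hqM : ¬ q ∣ M)
  {V : Fin 3 → ValuationSubring (s34m_F K₀ (M * q * q))}

/-- **`hindβ`** with `θ = j`: over `V'_∞` along `β'`, the powers `1, j, …, j^(q-1)` are independent
modulo the non-units of `V 0`. -/
theorem s36m_ri_hind_beta [CharP κ q] (hC : s36g_ValComap G φ M q hq hqM V)
    (hR : s36g_ValRed G φ M q hq hqM V) (c : Fin q → s34m_F K₀ (M * q))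
    (hc : ∀ k, c k ∈ s34m_Vinf G (M * q))
    (hnu : (∑ k, heckeBetaBar K₀ (M * q) q (c k) * s18g_jF (K := K₀) (M * q * q) ^ (k : ℕ)) ∈
      (V 0).nonunits) :
    ∀ k, ∃ d ∈ s34m_Vinf G (M * q), c k = s34m_unif G (M * q) * d := by
  haveI : Fact q.Prime := ⟨hq⟩
  obtain ⟨r, hker, h0α, h0β, -, -, -, -⟩ := hR
  have hOV : ∀ x ∈ s34m_Vinf G (M * q), s36g_beta M q x ∈ V 0 :=
    fun x hx => (s36m_rc_beta_mem_iff G φ M q hq hqM hC x).1.mpr hx
  have hr : ∀ x : s34m_Vinf G (M * q),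
      r 0 ⟨s36g_beta M q x, hOV x x.2⟩ = qExpand κ q (s34m_redInf G (M * q) x) :=
    fun x => h0β x _
  set y₀ : V 0 := ⟨s18g_jF (K := K₀) (M * q * q), s36m_rc_jF_mem G φ M q hq hqM hC 0⟩ with hy₀
  have hJ : r 0 y₀ = jqModC κ := by
    have e : s36g_alpha M q (s18g_jF (K := K₀) (M * q)) = s18g_jF (K := K₀) (M * q * q) :=
      s34m_alpha_jF (M * q) q
    have hmem : s36g_alpha M q (s18g_jF (K := K₀) (M * q)) ∈ V 0 := by
      rw [e]; exact s36m_rc_jF_mem G φ M q hq hqM hC 0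
    have e' : y₀ = ⟨s36g_alpha M q (s18g_jF (K := K₀) (M * q)), hmem⟩ := Subtype.ext e.symm
    rw [e', h0α ⟨s18g_jF (K := K₀) (M * q), s34m_jF_mem_Vinf G (M * q)⟩ hmem]
    exact s34m_redInf_jF G (M * q)
  have hρ : ∀ x : s34m_Vinf G (M * q), s34m_redInf G (M * q) x = 0 →
      ∃ d ∈ s34m_Vinf G (M * q), (x : s34m_F K₀ (M * q)) = s34m_unif G (M * q) * d :=
    fun x hx => (s34m_redInf_eq_zero_iff G (M * q) x).mp hx
  have hindep : ∀ a : Fin q → LaurentSeries κ,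
      ∑ k, qExpand κ q (a k) * r 0 y₀ ^ (k : ℕ) = 0 → ∀ k, a k = 0 := by
    intro a ha
    rw [hJ] at ha
    exact s36m_rc_indep q a ha
  exact s36m_rc_hind (s36g_beta M q) (s34m_Vinf G (M * q)) (V 0) hOV (r 0)
    (fun y hy => (hker 0 y).mpr hy) (s34m_redInf G (M * q)) (qExpand κ q) hr
    (s34m_unif G (M * q)) hρ y₀ q hindep c hc hnu

/-- **`hindα`** with `θ = j_{q²}`: over `V'_0` along `α'`, the powers `1, j_{q²}, …, j_{q²}^(q-1)` are
independent modulo the non-units of `V 2`. -/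
theorem s36m_ri_hind_alpha [CharP κ q] (hC : s36g_ValComap G φ M q hq hqM V)
    (hR : s36g_ValRed G φ M q hq hqM V) (c : Fin q → s34m_F K₀ (M * q))
    (hc : ∀ k, c k ∈ s34m_Vzero G φ M q hq hqM)
    (hnu : (∑ k, heckeAlphaBar K₀ (M * q) q (c k) * s36m_jqq (K₀ := K₀) M q ^ (k : ℕ)) ∈
      (V 2).nonunits) :
    ∀ k, ∃ d ∈ s34m_Vzero G φ M q hq hqM, c k = s34m_unif G (M * q) * d := by
  haveI : Fact q.Prime := ⟨hq⟩
  obtain ⟨r, hker, -, -, -, -, h2α, h2β⟩ := hR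
  have hOV : ∀ x ∈ s34m_Vzero G φ M q hq hqM, s36g_alpha M q x ∈ V 2 :=
    fun x hx => (s36b_alpha_mem_iff G φ M q hq hqM hC x).2.2.mpr hx
  have hr : ∀ x : s34m_Vzero G φ M q hq hqM,
      r 2 ⟨s36g_alpha M q x, hOV x x.2⟩ = qExpand κ q (s34m_redZero G φ M q hq hqM x) :=
    fun x => h2α x _
  set y₀ : V 2 := ⟨s36m_jqq (K₀ := K₀) M q, s36m_rc_jqq_mem G φ M q hq hqM hC 2⟩ with hy₀
  have hJ : r 2 y₀ = jqModC κ := by
    have hmem : s36g_beta M q (s34m_betaJ (K₀ := K₀) M q) ∈ V 2 :=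
      s36m_rc_jqq_mem G φ M q hq hqM hC 2
    have e' : y₀ = ⟨s36g_beta M q (s34m_betaJ (K₀ := K₀) M q), hmem⟩ := Subtype.ext rfl
    rw [e', h2β ⟨s34m_betaJ (K₀ := K₀) M q, s34m_betaJ_mem_Vzero G φ M q hq hqM⟩ hmem]
    exact s36m_rc_redZero_betaJ G φ M q hq hqM
  have hρ : ∀ x : s34m_Vzero G φ M q hq hqM, s34m_redZero G φ M q hq hqM x = 0 →
      ∃ d ∈ s34m_Vzero G φ M q hq hqM, (x : s34m_F K₀ (M * q)) = s34m_unif G (M * q) * d :=
    fun x hx => (s34m_redZero_eq_zero_iff G φ M q hq hqM x).mp hx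
  have hindep : ∀ a : Fin q → LaurentSeries κ,
      ∑ k, qExpand κ q (a k) * r 2 y₀ ^ (k : ℕ) = 0 → ∀ k, a k = 0 := by
    intro a ha
    rw [hJ] at ha
    exact s36m_rc_indep q a ha
  exact s36m_rc_hind (s36g_alpha M q) (s34m_Vzero G φ M q hq hqM) (V 2) hOV (r 2)
    (fun y hy => (hker 2 y).mpr hy) (s34m_redZero G φ M q hq hqM) (qExpand κ q) hr
    (s34m_unif G (M * q)) hρ y₀ q hindep c hc hnu

/-- `hindα` of `s36n_frame`, literally. -/
theorem s36m_ri_hindα [CharP κ q] (hC : s36g_ValComap G φ M q hq hqM V)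
    (hR : s36g_ValRed G φ M q hq hqM V) :
    ∃ θ ∈ V 2, ∀ c : Fin q → s34m_F K₀ (M * q), (∀ k, c k ∈ s34m_Vzero G φ M q hq hqM) →
      (∑ k, heckeAlphaBar K₀ (M * q) q (c k) * θ ^ (k : ℕ)) ∈ (V 2).nonunits →
      ∀ k, ∃ d ∈ s34m_Vzero G φ M q hq hqM, c k = s34m_unif G (M * q) * d :=
  ⟨s36m_jqq (K₀ := K₀) M q, s36m_rc_jqq_mem G φ M q hq hqM hC 2,
    fun c hc hnu => s36m_ri_hind_alpha G φ M q hq hqM hC hR c hc hnu⟩

/-- `hindβ` of `s36n_frame`, literally. -/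
theorem s36m_ri_hindβ [CharP κ q] (hC : s36g_ValComap G φ M q hq hqM V)
    (hR : s36g_ValRed G φ M q hq hqM V) :
    ∃ θ ∈ V 0, ∀ c : Fin q → s34m_F K₀ (M * q), (∀ k, c k ∈ s34m_Vinf G (M * q)) →
      (∑ k, heckeBetaBar K₀ (M * q) q (c k) * θ ^ (k : ℕ)) ∈ (V 0).nonunits →
      ∀ k, ∃ d ∈ s34m_Vinf G (M * q), c k = s34m_unif G (M * q) * d :=
  ⟨s18g_jF (K := K₀) (M * q * q), s36m_rc_jF_mem G φ M q hq hqM hC 0,
    fun c hc hnu => s36m_ri_hind_beta G φ M q hq hqM hC hR c hc hnu⟩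

end Fermat.Agent.Lib.S36
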