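/-
S36 mega-project (helper3, prefix `s36m_fi`): **THE CONCRETE ROOT FRAME FROM THE PACKAGE ALONE** —
lead's `s36n_frame` (NormInst.lean) with `t := s36m_t M q` and the side hypotheses `t ∈ V 0`,
`t ∈ V 2`, `hindα`, `hindβ` discharged from the package (`MResComplete.lean`, `MResInd.lean`).
-/
import Fermat.Agent.Lib.S36.MResInd
import Fermat.Agent.Lib.S36.NormInst

set_option autoImplicit false
set_option linter.unusedSectionVars false
set_option linter.style.haveILetI false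

noncomputable section

namespace Fermat.Agent.Lib.S36

open ModularCurve AlgebraicCurve HahnSeries Fermat.Agent.Lib.FF Fermat.Agent.Lib.S18
  Fermat.Agent.Lib.S37 Fermat.Agent.Lib.S34 Fermat.Agent.Lib.S35

local notation "Kb" => AlgebraicClosure ℚ

variable {K₀ : Type} [Field K₀] [Algebra ℚ K₀] {κ : Type} [Field κ] (G : s18g_GaussData K₀ κ)
  (φ : K₀ →+* Kb) (M q : ℕ) [NeZero M] [NeZero q] (hq : q.Prime) (hqM : ¬ q ∣ M)
  (V : Fin 3 → ValuationSubring (s34m_F K₀ (M * q * q)))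
  (V' : Fin 2 → ValuationSubring (s34m_F K₀ (M * q)))

/-- **The concrete frame** for the package `V`, `t = j_{q²} - j`: no side hypotheses left besides
`Surjective G.π`, unramifiedness and `[CharP κ q]`. -/
theorem s36m_fi_frame [CharP κ q] (hπ : Function.Surjective G.π)
    (hunr : ∃ u : G.A, IsUnit u ∧ ((q : ℕ) : G.A) = G.ϖ * u)
    (hP : s36g_ValPkg G φ M q hq hqM V (s36m_t M q))
    (hV'0 : V' 0 = s34m_Vinf G (M * q)) (hV'1 : V' 1 = s34m_Vzero G φ M q hq hqM) :
    s36g_RootFrame G.A q V V' (heckeAlphaBar K₀ (M * q) q) (heckeBetaBar K₀ (M * q) q)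
      (s36n_normHom (heckeAlphaBar K₀ (M * q) q)) (s36n_normHom (heckeBetaBar K₀ (M * q) q)) :=
  s36n_frame G φ M q hq hqM V (s36m_t M q) V' hπ hunr hP
    (s36m_rc_t_mem G φ M q hq hqM hP.1 0) (s36m_rc_t_mem G φ M q hq hqM hP.1 2)
    (s36m_ri_hindα G φ M q hq hqM hP.1 hP.2.2.2.2.2.2)
    (s36m_ri_hindβ G φ M q hq hqM hP.1 hP.2.2.2.2.2.2) hV'0 hV'1

end Fermat.Agent.Lib.S36
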