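/-
S36 mega-project, layer (M) (helper6), part 12: ASSEMBLY of the valuation package at level `M q q`
from the data of the two contracts (cusp embedding `ih`, cyclotomic Gauss data `G₁`):
`V = ![V_∞, V_mid, V_0]`, the reductions `r = (red_∞, r_mid, red_0 ∘ w₂)`, and the clauses
`s36g_ValComap`, `s36g_ValUnif`, `s36g_ValRed` (+ the Eisenstein clause (H10)), `s36g_ValIndep`.
-/
import Fermat.Agent.Lib.S36.MEis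
import Fermat.Agent.Lib.S36.WOuter

set_option autoImplicit false

noncomputable section

namespace Fermat.Agent.Lib.S36

open ModularCurve AlgebraicCurve HahnSeries Fermat.Agent.Lib.FF Fermat.Agent.Lib.S18
  Fermat.Agent.Lib.S28 Fermat.Agent.Lib.S37 Fermat.Agent.Lib.S34

set_option linter.unusedSectionVars false

local notation "Kb" => AlgebraicClosure ℚ

variable {K₀ κ : Type} [Field K₀] [Algebra ℚ K₀] [Field κ] (G : s18g_GaussData K₀ κ)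
  (φ : K₀ →+* Kb) (M q : ℕ) [NeZero M] [NeZero q] (hq : q.Prime) (hqM : ¬ q ∣ M)

/-- **(H10)** the Eisenstein clause, for a family `V` with reductions `r`. -/
def s36m_ValEisFor (V : Fin 3 → ValuationSubring (s34m_F K₀ (M * q * q)))
    (r1 : V 1 →+* LaurentSeries κ) : Prop :=
  ∃ c₀ : κ, c₀ ≠ 0 ∧ ∀ (x : s34m_F K₀ M) (hx : x ∈ s34m_Vinf G M),
    (s36g_beta M q (heckeBetaBar K₀ M q x) - s36g_alpha M q (heckeAlphaBar K₀ M q x)) ∈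
      (V 1).nonunits ∧
    ∀ h : (s36g_beta M q (heckeBetaBar K₀ M q x) - s36g_alpha M q (heckeAlphaBar K₀ M q x)) ^
        (q - 1) / s34m_unif G (M * q * q) ∈ V 1,
      r1 ⟨_, h⟩ = HahnSeries.C c₀ * ffd_theta (s34m_redInf G M ⟨x, hx⟩) ^ (q - 1)

/-- **(H6)+(H10)**: `s36g_ValRed` together with the Eisenstein clause for the same `r`. -/
def s36m_ValRedEis (V : Fin 3 → ValuationSubring (s34m_F K₀ (M * q * q))) : Prop :=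
  ∃ r : ∀ i : Fin 3, V i →+* LaurentSeries κ,
    (∀ i, ∀ y : V i, r i y = 0 ↔ (y : s34m_F K₀ (M * q * q)) ∈ (V i).nonunits) ∧
    (∀ (x : s34m_Vinf G (M * q)) (h : s36g_alpha M q x ∈ V 0),
      r 0 ⟨_, h⟩ = s34m_redInf G (M * q) x) ∧
    (∀ (x : s34m_Vinf G (M * q)) (h : s36g_beta M q x ∈ V 0),
      r 0 ⟨_, h⟩ = qExpand κ q (s34m_redInf G (M * q) x)) ∧
    (∀ (x : s34m_Vinf G (M * q)) (h : s36g_alpha M q x ∈ V 1),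
      r 1 ⟨_, h⟩ = s34m_redInf G (M * q) x) ∧
    (∀ (x : s34m_Vzero G φ M q hq hqM) (h : s36g_beta M q x ∈ V 1),
      r 1 ⟨_, h⟩ = s34m_redZero G φ M q hq hqM x) ∧
    (∀ (x : s34m_Vzero G φ M q hq hqM) (h : s36g_alpha M q x ∈ V 2),
      r 2 ⟨_, h⟩ = qExpand κ q (s34m_redZero G φ M q hq hqM x)) ∧
    (∀ (x : s34m_Vzero G φ M q hq hqM) (h : s36g_beta M q x ∈ V 2),
      r 2 ⟨_, h⟩ = s34m_redZero G φ M q hq hqM x) ∧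
    s36m_ValEisFor G M q V (r 1)

theorem s36m_ValRedEis.red {V : Fin 3 → ValuationSubring (s34m_F K₀ (M * q * q))}
    (h : s36m_ValRedEis G φ M q hq hqM V) : s36g_ValRed G φ M q hq hqM V := by
  obtain ⟨r, h1, h2, h3, h4, h5, h6, h7, -⟩ := h
  exact ⟨r, h1, h2, h3, h4, h5, h6, h7⟩

variable (ξ : Kbˣ) (hξ : IsPrimitiveRoot (ξ : Kb) q)
  (ih : ffi_F (M * q * q) →ₐ[Kb] LaurentSeries Kb)
  (hih1 : ∀ (D : ℕ) [NeZero D], D ∣ M * q → ∀ x : ffi_F (M * q * q),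
    (x : LaurentSeries Kb) = coeffEmb Kb (qExpand ℚ D jq) →
      ih x = coeffEmb Kb (qExpand ℚ D jq))
  (hih2 : ∀ (d : ℕ) [NeZero d], d ∣ M → ∀ x : ffi_F (M * q * q),
    (x : LaurentSeries Kb) = coeffEmb Kb (qExpand ℚ (d * q * q) jq) →
      ih x = s36m_twist ξ (coeffEmb Kb (qExpand ℚ d jq)))
  {K₁ : Type} [Field K₁] [Algebra ℚ K₁] (ψ : K₀ →+* K₁) (φ₁ : K₁ →+* Kb) (ξ₁ : K₁ˣ)
  (G₁ : s18g_GaussData K₁ κ)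
  (hφ : φ₁.comp ψ = φ) (hξ₁ : φ₁ (ξ₁ : K₁) = (ξ : Kb))
  (hA : ∀ a : K₀, ψ a ∈ G₁.A ↔ a ∈ G.A)
  (hπ : ∀ (a : K₀) (h : a ∈ G.A) (h' : ψ a ∈ G₁.A), G₁.π ⟨ψ a, h'⟩ = G.π ⟨a, h⟩)
  (hξA : (ξ₁ : K₁) ∈ G₁.A) (hϖ₁ : ((G₁.ϖ : G₁.A) : K₁) = (ξ₁ : K₁) - 1)
  (u₀ : K₁) (hu₀ : u₀ ∈ G₁.A) (hu₀' : u₀⁻¹ ∈ G₁.A)
  (hu₀e : ψ ((G.ϖ : G.A) : K₀) = u₀ * ((ξ₁ : K₁) - 1) ^ (q - 1))

local notation "mid" => s36m_mid φ M q hq hqM ξ hξ ih hih1 hih2 ψ φ₁ ξ₁ G₁ hφ hξ₁ hξA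

local notation "Vmid" => s36m_Vmid φ M q hq hqM ξ hξ ih hih1 hih2 ψ φ₁ ξ₁ G₁ hφ hξ₁ hξA

local notation "redMid" => s36m_redMid φ M q hq hqM ξ hξ ih hih1 hih2 ψ φ₁ ξ₁ G₁ hφ hξ₁ hξA

/-- **The three valuation rings of level `M q q`.** -/
def s36m_VV3 : Fin 3 → ValuationSubring (s34m_F K₀ (M * q * q)) :=
  ![s34m_Vinf G (M * q * q), Vmid, s36w_V2 G φ M q hq hqM]

local notation "VV3" => s36m_VV3 G φ M q hq hqM ξ hξ ih hih1 hih2 ψ φ₁ ξ₁ G₁ hφ hξ₁ hξA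

theorem s36m_VV3_zero : VV3 0 = s34m_Vinf G (M * q * q) := rfl

theorem s36m_VV3_one : VV3 1 = Vmid := rfl

theorem s36m_VV3_two : VV3 2 = s36w_V2 G φ M q hq hqM := rfl

/-- **The three reductions.** -/
def s36m_r3 : ∀ i : Fin 3, VV3 i →+* LaurentSeries κ
  | ⟨0, _⟩ => s34m_redInf G (M * q * q)
  | ⟨1, _⟩ => redMid
  | ⟨2, _⟩ => s36w_red2 G φ M q hq hqM

local notation "r3" => s36m_r3 G φ M q hq hqM ξ hξ ih hih1 hih2 ψ φ₁ ξ₁ G₁ hφ hξ₁ hξA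

theorem s36m_r3_zero : r3 0 = s34m_redInf G (M * q * q) := rfl

theorem s36m_r3_one : r3 1 = redMid := rfl

theorem s36m_r3_two : r3 2 = s36w_red2 G φ M q hq hqM := rfl

include hA hπ hϖ₁ in
/-- **(H1)+(H2)** for `VV3`. -/
theorem s36m_VV3_comap : s36g_ValComap G φ M q hq hqM VV3 :=
  ⟨rfl, s36w_V0_comap_alpha G M q, s36w_V0_comap_beta G M q,
    s36m_Vmid_comap_alpha G φ M q hq hqM ξ hξ ih hih1 hih2 ψ φ₁ ξ₁ G₁ hφ hξ₁ hA hπ hξA,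
    s36m_Vmid_comap_beta G φ M q hq hqM ξ hξ ih hih1 hih2 ψ φ₁ ξ₁ G₁ hφ hξ₁ hA hπ hξA hϖ₁,
    s36w_V2_comap_alpha G φ M q hq hqM, s36w_V2_comap_beta G φ M q hq hqM⟩

include hA hπ hϖ₁ hu₀ hu₀' hu₀e in
/-- **(H3)** for `VV3`. -/
theorem s36m_VV3_unif : s36g_ValUnif G M q VV3 (s36m_t M q) := by
  refine ⟨?_, s36w_V0_gen G M q, s36w_V2_gen G φ M q hq hqM,
    s36m_t_mem_nonunits φ M q hq hqM ξ hξ ih hih1 hih2 ψ φ₁ ξ₁ G₁ hφ hξ₁ hξA hϖ₁,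
    s36m_nonunits_Vmid φ M q hq hqM ξ hξ ih hih1 hih2 ψ φ₁ ξ₁ G₁ hφ hξ₁ hξA hϖ₁,
    s36m_unif_eq_unit_mul G φ M q hq hqM ξ hξ ih hih1 hih2 ψ φ₁ ξ₁ G₁ hφ hξ₁ hξA hϖ₁ u₀ hu₀ hu₀'
      hu₀e, ?_⟩
  · intro i
    fin_cases i
    · exact s36w_V0_unif G M q
    · exact s36m_unif_mem_nonunits_Vmid G φ M q hq hqM ξ hξ ih hih1 hih2 ψ φ₁ ξ₁ G₁ hφ hξ₁ hA hπ
        hξA
    · exact s36w_V2_unif G φ M q hq hqM
  · intro i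
    fin_cases i
    · exact s36w_V0_arch G M q
    · exact s36m_exists_pow_mul_mem_Vmid G φ M q hq hqM ξ hξ ih hih1 hih2 ψ φ₁ ξ₁ G₁ hφ hξ₁ hξA
        hϖ₁ u₀ hu₀ hu₀' hu₀e
    · exact s36w_V2_arch G φ M q hq hqM

include hA hπ hϖ₁ hu₀ hu₀' hu₀e in
/-- **(H6)+(H10)** for `VV3`. -/
theorem s36m_VV3_redEis : s36m_ValRedEis G φ M q hq hqM VV3 := by
  refine ⟨r3, ?_, s36w_red0_alpha G M q, s36w_red0_beta G M q,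
    s36m_redMid_alpha G φ M q hq hqM ξ hξ ih hih1 hih2 ψ φ₁ ξ₁ G₁ hφ hξ₁ hA hπ hξA,
    s36m_redMid_beta G φ M q hq hqM ξ hξ ih hih1 hih2 ψ φ₁ ξ₁ G₁ hφ hξ₁ hA hπ hξA hϖ₁,
    s36w_red2_alpha G φ M q hq hqM, s36w_red2_beta G φ M q hq hqM, ?_⟩
  · intro i
    fin_cases i
    · exact s36w_red0_eq_zero_iff G M q
    · exact s36m_redMid_eq_zero_iff φ M q hq hqM ξ hξ ih hih1 hih2 ψ φ₁ ξ₁ G₁ hφ hξ₁ hξA
    · exact s36w_red2_eq_zero_iff G φ M q hq hqM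
  · exact ⟨G₁.π ⟨u₀⁻¹, hu₀'⟩,
      s36m_eis_const_ne_zero G q ψ ξ₁ G₁ u₀ hu₀ hu₀' hu₀e,
      fun x hx => s36m_eis G φ M q hq hqM ξ hξ ih hih1 hih2 ψ φ₁ ξ₁ G₁ hφ hξ₁ hA hπ hξA hϖ₁ u₀
        hu₀ hu₀' hu₀e x hx⟩

end Fermat.Agent.Lib.S36
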