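/-
S36 mega-project, layer (M) (helper6), part 13: the CORE of the valuation package, with the data
of the two contracts (helper1's `s36m_cuspEmb`, helper3's `s36m_cycloExt`) plugged in:
`∃ V, ValComap ∧ ValUnif ∧ ValIndep ∧ (ValRed + Eisenstein clause) ∧ (H8) for V 0`.
The remaining clauses (H4), (H5), (H8) follow from these by `MResComplete.lean`.
-/
import Fermat.Agent.Lib.S36.MPkg
import Fermat.Agent.Lib.S36.WCuspMid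
import Fermat.Agent.Lib.S36.MCyclo

set_option autoImplicit false

noncomputable section

namespace Fermat.Agent.Lib.S36

open ModularCurve AlgebraicCurve HahnSeries Fermat.Agent.Lib.FF Fermat.Agent.Lib.S18
  Fermat.Agent.Lib.S28 Fermat.Agent.Lib.S37 Fermat.Agent.Lib.S34

set_option linter.unusedSectionVars false

local notation "Kb" => AlgebraicClosure ℚ

variable {K₀ κ : Type} [Field K₀] [Algebra ℚ K₀] [Field κ] (G : s18g_GaussData K₀ κ)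
  (φ : K₀ →+* Kb) (M q : ℕ) [NeZero M] [NeZero q] (hq : q.Prime) (hqM : ¬ q ∣ M)

/-- **The core of the valuation package of level `M q q`.** -/
theorem s36m_exists_core [CharP κ q]
    (hunr : ∃ u : G.A, IsUnit u ∧ ((q : ℕ) : G.A) = G.ϖ * u) :
    ∃ V : Fin 3 → ValuationSubring (s34m_F K₀ (M * q * q)),
      s36g_ValComap G φ M q hq hqM V ∧ s36g_ValUnif G M q V (s36m_t M q) ∧
      s36g_ValIndep M q V ∧ s36m_ValRedEis G φ M q hq hqM V ∧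
      (∀ σ₀ : K₀ ≃ₐ[ℚ] K₀, (∀ a : K₀, σ₀ a ∈ G.A ↔ a ∈ G.A) →
        ∀ y : s34m_F K₀ (M * q * q),
          arithmeticGalois (modularFunctionFieldFull (M * q * q)) σ₀ • y ∈ V 0 ↔ y ∈ V 0) ∧
      (∀ σ₀ : K₀ ≃ₐ[ℚ] K₀, (∀ a : K₀, σ₀ a ∈ G.A ↔ a ∈ G.A) →
        ∀ y : s34m_F K₀ (M * q * q),
          arithmeticGalois (modularFunctionFieldFull (M * q * q)) σ₀ • y ∈ V 2 ↔ y ∈ V 2) := by
  obtain ⟨ξ, hξ, ih, hih1, hih2⟩ := s36m_cuspEmb M q hq hqM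
  obtain ⟨K₁, instF, ψ, φ₁, ξ₁, G₁, hφ, hξ₁, hA, hπ, hξA, hϖ₁, u₀, hu₀, hu₀', hu₀e⟩ :=
    s36m_cycloExt G φ q hq hunr ξ hξ
  have : CharZero K₁ := (RingHom.charZero_iff φ₁.injective).mpr inferInstance
  have hC := s36m_VV3_comap G φ M q hq hqM ξ hξ ih hih1 hih2 ψ φ₁ ξ₁ G₁ hφ hξ₁ hA hπ hξA hϖ₁
  refine ⟨s36m_VV3 G φ M q hq hqM ξ hξ ih hih1 hih2 ψ φ₁ ξ₁ G₁ hφ hξ₁ hξA, hC,
    s36m_VV3_unif G φ M q hq hqM ξ hξ ih hih1 hih2 ψ φ₁ ξ₁ G₁ hφ hξ₁ hA hπ hξA hϖ₁ u₀ hu₀ hu₀'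
      hu₀e,
    s36w_indep_of_comap G φ M q hq hqM _ hC,
    s36m_VV3_redEis G φ M q hq hqM ξ hξ ih hih1 hih2 ψ φ₁ ξ₁ G₁ hφ hξ₁ hA hπ hξA hϖ₁ u₀ hu₀ hu₀'
      hu₀e,
    fun σ₀ hσ y => s36w_galois_V0 G M q σ₀ hσ y,
    fun σ₀ hσ y => s36w_galois_V2 G φ M q hq hqM σ₀ hσ y⟩

end Fermat.Agent.Lib.S36
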