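/-
S36 project, geometry layer (X1) (helper9, prefix `s36p_`): THE CUSPIDAL POINTS OF LEVEL `M q`
(inputs of the kind "polar point of chart 2" of level `M q²`, item (3f) of the checklist).

* `s36p_cusp_two_abs` : abstract two-component form of helper1's `s36b_cusp_single_abs`: two
  functions `j₀, j₁`, units of all components, with `j₁ ≡ j₀ᵠ` on the component `a` and `j₀ ≡ j₁ᵠ`
  on the component `b`, and the regularity statements; if `1/j₀` lies in the maximal ideal of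
  `B_𝔫`, the components `a`, `b` do not both pass through `𝔫`;
* `s36p_low_not_both` : at a cuspidal prime (`1/j ∈ 𝔪(B_𝔪)`) of ANY chart of level `M q` the two
  components `C'_∞`, `C'_0` do not both pass;
* `s36p_low_cusp_of_polar` : a polar prime of chart 2 of a function `w₁` with `j - w₁` regular on
  the chart (e.g. `w₁ = j`, or `w₁` of Hauptmodul type) is cuspidal;
* `s36p_smooth_polar` : the smooth structure `𝔪 B_𝔪 = (t, ϖ)`, `t` a unit of the component through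
  `𝔪`, at a prime `𝔪 ∋ ϖ` of a chart with `s35g_ChartData` lying on one component only and
  containing an element which is a unit of that component (twin of helper2's `s36e_smooth_pt`
  without maximality / finite type).
-/
import Fermat.Agent.Lib.S36.REisPt
import Fermat.Agent.Lib.S36.XCuspInst

set_option autoImplicit false
set_option linter.unusedSectionVars false
set_option linter.style.haveILetI false

noncomputable section

namespace Fermat.Agent.Lib.S36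

open ModularCurve AlgebraicCurve HahnSeries Polynomial Fermat.Agent.Lib.FF Fermat.Agent.Lib.S18
  Fermat.Agent.Lib.S37 Fermat.Agent.Lib.S34 Fermat.Agent.Lib.S35 IsLocalRing

local notation "Kb" => AlgebraicClosure ℚ

/-! ### The abstract two-component statement -/

section Abs

variable {L₀ 𝓕 : Type*} [Field L₀] [Field 𝓕] [Algebra L₀ 𝓕]
variable {ι : Type*} [Fintype ι] (O : ι → ValuationSubring 𝓕) (S : Set (Place L₀ 𝓕))
  (𝔫 : Ideal (s34x_ring (s34x_infRing O) S)) [h𝔫 : 𝔫.IsPrime]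

/-- **A cuspidal point does not lie on both components** `a` (`j₁ ≡ j₀ᵠ`) and `b` (`j₀ ≡ j₁ᵠ`). -/
theorem s36p_cusp_two_abs (hA : s36q_Arch O)
    (F3 : ∀ y : 𝓕, y ≠ 0 → {Q : Place L₀ 𝓕 | Q ∈ S ∧ Q.ord y ≠ 0}.Finite)
    (q : ℕ) (hq : 2 ≤ q) (j₀ j₁ : 𝓕) (h0 : j₀ ≠ 0) (h1 : j₁ ≠ 0)
    (hU0 : ∀ k, j₀ ∈ O k ∧ j₀⁻¹ ∈ O k) (hU1 : ∀ k, j₁ ∈ O k ∧ j₁⁻¹ ∈ O k)
    (a b : ι) (ca : j₁ - j₀ ^ q ∈ (O a).nonunits) (cb : j₀ - j₁ ^ q ∈ (O b).nonunits)
    (r10 : ∀ Q ∈ S, j₀⁻¹ ∈ Q.toValuationSubring → j₁ * j₀⁻¹ ^ q ∈ Q.toValuationSubring)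
    (r01 : ∀ Q ∈ S, j₁⁻¹ ∈ Q.toValuationSubring → j₀ * j₁⁻¹ ^ q ∈ Q.toValuationSubring)
    (z₀ : Localization.AtPrime 𝔫) (hz₀m : z₀ ∈ maximalIdeal (Localization.AtPrime 𝔫))
    (hz₀ : s34f_iota (s34x_infRing O) S 𝔫 z₀ = j₀⁻¹) :
    ¬ (s36q_compThrough O S 𝔫 a ∧ s36q_compThrough O S 𝔫 b) := by
  rintro ⟨hath, hbth⟩
  have hq1 : 1 ≤ q := by omega
  have hO : ∀ (x y : 𝓕), (∀ k, x ∈ O k) → (∀ k, y⁻¹ ∈ O k) → ∀ k, x * y⁻¹ ^ q ∈ O k :=
    fun x y hx hy k => (O k).mul_mem _ _ (hx k) (pow_mem (hy k) q)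
  obtain ⟨⟨Z10, hZ10u, hZ10⟩, ⟨z₁, hz₁m, hz₁⟩⟩ := s36b_cusp_step O S 𝔫 hA F3 q hq1 j₁ j₀ h1 h0
    (hO j₁ j₀ (fun k => (hU1 k).1) (fun k => (hU0 k).2)) r10 z₀ hz₀m hz₀ a hath
    (s36b_cong_one_of_kron (O a) q h0 (hU0 a).2 ca)
  obtain ⟨Z01, hZ01⟩ := s36b_cusp_lift O S 𝔫 hA F3 q j₀ j₁ h0 h1
    (hO j₀ j₁ (fun k => (hU0 k).1) (fun k => (hU1 k).2)) r01 z₁ hz₁
  have hZ01u : IsUnit Z01 := s36b_isUnit_of_cong_one O S 𝔫 b hbth Z01 (by
    rw [hZ01]; exact s36b_cong_one_of_kron (O b) q h1 (hU1 b).2 cb)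
  have hw : (z₀ * z₁) ^ (q - 1) ∈ maximalIdeal (Localization.AtPrime 𝔫) := by
    obtain ⟨k, hk⟩ : ∃ k, q - 1 = k + 1 := ⟨q - 2, by omega⟩
    rw [hk, pow_succ]
    exact Ideal.mul_mem_left _ _ (Ideal.mul_mem_right _ _ hz₀m)
  have he : Z10 * Z01 = (z₀ * z₁) ^ (q - 1) := by
    apply s34f_iota_injective (s34x_infRing O) S 𝔫
    rw [map_mul, hZ10, hZ01, map_pow, map_mul, hz₀, hz₁]
    obtain ⟨k, rfl⟩ : ∃ k, q = k + 1 := ⟨q - 1, by omega⟩
    rw [Nat.add_sub_cancel]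
    exact s36b_prod_id h1 h0 k
  have hu : IsUnit ((z₀ * z₁) ^ (q - 1)) := by rw [← he]; exact hZ10u.mul hZ01u
  exact (mem_nonunits_iff.mp ((mem_maximalIdeal _).mp hw)) hu

end Abs

/-! ### Level `M q` -/

section Low

variable {K₀ : Type} [Field K₀] [Algebra ℚ K₀] {κ : Type} [Field κ] (G : s18g_GaussData K₀ κ)
  (φ : K₀ →+* Kb) (M q : ℕ) [NeZero M] [NeZero q] (hq : q.Prime) (hqM : ¬ q ∣ M)

include φ hq hqM in
/-- `1/j` regular at `P` ⇒ `j_q / jᵠ` regular at `P` (level `M q`). -/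
theorem s36p_low_reg_10 (P : Place K₀ (s34m_F K₀ (M * q)))
    (h : (s18g_jF (K := K₀) (M * q))⁻¹ ∈ P.toValuationSubring) :
    s34m_betaJ (K₀ := K₀) M q * (s18g_jF (K := K₀) (M * q))⁻¹ ^ q ∈ P.toValuationSubring :=
  s36b_modRel_reg_K φ q (M * q) _ _ (s36b_betaJ_ne_zero M q) (s18g_jF_ne_zero (M * q))
    (by
      rw [s36b_iota_betaJ]
      have e : s34m_iota φ (M * q) (s18g_jF (K := K₀) (M * q)) = ffd_jBar (M * q) :=
        s18r_map_jF φ (M * q)
      rw [e]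
      exact (s36b_modRel_level M q hq hqM).1) P h

include φ hq hqM in
/-- `1/j_q` regular at `P` ⇒ `j / j_qᵠ` regular at `P` (level `M q`). -/
theorem s36p_low_reg_01 (P : Place K₀ (s34m_F K₀ (M * q)))
    (h : (s34m_betaJ (K₀ := K₀) M q)⁻¹ ∈ P.toValuationSubring) :
    s18g_jF (K := K₀) (M * q) * (s34m_betaJ (K₀ := K₀) M q)⁻¹ ^ q ∈ P.toValuationSubring :=
  s36b_modRel_reg_K φ q (M * q) _ _ (s18g_jF_ne_zero (M * q)) (s36b_betaJ_ne_zero M q)
    (by
      rw [s36b_iota_betaJ]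
      have e : s34m_iota φ (M * q) (s18g_jF (K := K₀) (M * q)) = ffd_jBar (M * q) :=
        s18r_map_jF φ (M * q)
      rw [e]
      exact (s36b_modRel_level M q hq hqM).2) P h

variable [CharP κ q]

/-- **A cuspidal prime of a chart of level `M q` does not lie on both components.** -/
theorem s36p_low_not_both (S : Set (Place K₀ (s34m_F K₀ (M * q))))
    (F3 : ∀ y : s34m_F K₀ (M * q), y ≠ 0 →
      {Q : Place K₀ (s34m_F K₀ (M * q)) | Q ∈ S ∧ Q.ord y ≠ 0}.Finite)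
    (𝔪 : Ideal (s34x_ring (s34x_infRing (s34m_VV G φ M q hq hqM)) S)) [h𝔪 : 𝔪.IsPrime]
    (z₀ : Localization.AtPrime 𝔪) (hz₀m : z₀ ∈ maximalIdeal (Localization.AtPrime 𝔪))
    (hz₀ : s34f_iota (s34x_infRing (s34m_VV G φ M q hq hqM)) S 𝔪 z₀ =
      (s18g_jF (K := K₀) (M * q))⁻¹) :
    ¬ (s36q_compThrough (s34m_VV G φ M q hq hqM) S 𝔪 true ∧
      s36q_compThrough (s34m_VV G φ M q hq hqM) S 𝔪 false) := by
  obtain ⟨hjI, hj0, hbI, hb0⟩ := s36b_level_units G φ M q hq hqM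
  refine s36p_cusp_two_abs (s34m_VV G φ M q hq hqM) S 𝔪 (s36e_arch_VV G φ M q hq hqM) F3 q
    hq.two_le (s18g_jF (K := K₀) (M * q)) (s34m_betaJ (K₀ := K₀) M q) (s18g_jF_ne_zero (M * q))
    (s36b_betaJ_ne_zero M q) ?_ ?_ true false (s36b_kron_inf G M q hq)
    (s36b_kron_zero G φ M q hq hqM)
    (fun Q _ h => s36p_low_reg_10 φ M q hq hqM Q h)
    (fun Q _ h => s36p_low_reg_01 φ M q hq hqM Q h) z₀ hz₀m hz₀
  · intro k
    cases k
    · exact hj0
    · exact hjI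
  · intro k
    cases k
    · exact hb0
    · exact hbI

end Low

/-! ### Cuspidal from polar, smooth structure -/

section Smooth

variable {K₀ : Type} [Field K₀] [CharZero K₀] [Algebra ℚ K₀] {κ : Type} [Field κ]
  (G : s18g_GaussData K₀ κ) (φ : K₀ →+* Kb) (M q : ℕ) [NeZero M] [NeZero q]
  (hq : q.Prime) (hqM : ¬ q ∣ M)

local notation "OO" => s34m_VV G φ M q hq hqM

/-- **A polar prime of chart 2 of `w₁` is cuspidal** as soon as `j - w₁` is regular on the chart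
(`hB`): `1/j = (1/w₁) / (1 + (j - w₁)/w₁)` lies in the maximal ideal of the local ring. -/
theorem s36p_low_cusp_of_polar (S : Set (Place K₀ (s34m_F K₀ (M * q))))
    (w₁ : s34m_F K₀ (M * q)) (hw0 : w₁ ≠ 0)
    (𝔪 : Ideal (s34x_ring (s34x_infRing OO) S)) [h𝔪 : 𝔪.IsPrime]
    (sB : s34x_ring (s34x_infRing OO) S) (hsB : (sB : s34m_F K₀ (M * q)) = w₁⁻¹) (hs𝔪 : sB ∈ 𝔪)
    (hB : s34x_ring (s34x_infRing OO) S)
    (hhB : (hB : s34m_F K₀ (M * q)) = s18g_jF (K := K₀) (M * q) - w₁) :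
    ∃ z₀ : Localization.AtPrime 𝔪, z₀ ∈ maximalIdeal (Localization.AtPrime 𝔪) ∧
      s34f_iota (s34x_infRing OO) S 𝔪 z₀ = (s18g_jF (K := K₀) (M * q))⁻¹ := by
  set e : s34x_ring (s34x_infRing OO) S := 1 + hB * sB with he
  have he𝔪 : e ∉ 𝔪 := by
    intro h
    have h1 : (1 : s34x_ring (s34x_infRing OO) S) ∈ 𝔪 := by
      have := 𝔪.sub_mem h (𝔪.mul_mem_left hB hs𝔪)
      rwa [he, add_sub_cancel_right] at this
    exact h𝔪.ne_top ((Ideal.eq_top_iff_one _).mpr h1)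
  have hj0 : s18g_jF (K := K₀) (M * q) ≠ 0 := s18g_jF_ne_zero (M * q)
  have hecoe : (e : s34m_F K₀ (M * q)) = s18g_jF (K := K₀) (M * q) * w₁⁻¹ := by
    rw [he, Subring.coe_add, Subring.coe_one, Subring.coe_mul, hhB, hsB, sub_mul,
      mul_inv_cancel₀ hw0]
    ring
  have heu : IsUnit (algebraMap (s34x_ring (s34x_infRing OO) S) (Localization.AtPrime 𝔪) e) :=
    IsLocalization.map_units (Localization.AtPrime 𝔪) (⟨e, he𝔪⟩ : 𝔪.primeCompl)
  obtain ⟨v, hv⟩ := heu.exists_right_inv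
  refine ⟨algebraMap _ (Localization.AtPrime 𝔪) sB * v, ?_, ?_⟩
  · refine Ideal.mul_mem_right _ _ ?_
    rw [IsLocalization.AtPrime.to_map_mem_maximal_iff (Localization.AtPrime 𝔪) 𝔪]
    exact hs𝔪
  · have h1 := congrArg (s34f_iota (s34x_infRing OO) S 𝔪) hv
    rw [map_mul, map_one, s34f_iota_algebraMap, hecoe] at h1
    have hne : s18g_jF (K := K₀) (M * q) * w₁⁻¹ ≠ 0 := mul_ne_zero hj0 (inv_ne_zero hw0)
    have h2 : s34f_iota (s34x_infRing OO) S 𝔪 v = (s18g_jF (K := K₀) (M * q) * w₁⁻¹)⁻¹ :=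
      eq_inv_of_mul_eq_one_right h1
    rw [map_mul, s34f_iota_algebraMap, hsB, h2, mul_inv, inv_inv, mul_comm _ w₁, ← mul_assoc,
      inv_mul_cancel₀ hw0, one_mul]

variable [CharP κ q] [PerfectField κ] [IsDiscreteValuationRing G.A]

/-- **The smooth structure at a prime `𝔪 ∋ ϖ` of a chart of level `M q` lying on one component
only and containing a unit of that component** (no maximality needed). -/
theorem s36p_smooth_polar (S : Set (Place K₀ (s34m_F K₀ (M * q))))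
    (hCD : s35g_ChartData G φ M q hq hqM S)
    (𝔪 : Ideal (s34x_ring (s34x_infRing (s34m_VV G φ M q hq hqM)) S)) [h𝔪 : 𝔪.IsPrime]
    (hϖ : s35gd_unifB G φ M q hq hqM S ∈ 𝔪) (i₀ : Bool)
    (hth : s36q_compThrough (s34m_VV G φ M q hq hqM) S 𝔪 i₀)
    (hmiss : ¬ s36q_compThrough (s34m_VV G φ M q hq hqM) S 𝔪 (!i₀))
    (s : s34x_ring (s34x_infRing (s34m_VV G φ M q hq hqM)) S) (hs : s ∈ 𝔪)
    (hsu : (s : s34m_F K₀ (M * q)) ∉ (s34m_VV G φ M q hq hqM i₀).nonunits) :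
    ∃ t ∈ 𝔪, IsLocalRing.maximalIdeal (Localization.AtPrime 𝔪) =
        Ideal.span {algebraMap _ (Localization.AtPrime 𝔪) t,
          algebraMap _ (Localization.AtPrime 𝔪) (s35gd_unifB G φ M q hq hqM S)} ∧
      (t : s34m_F K₀ (M * q)) ∉ (s34m_VV G φ M q hq hqM i₀).nonunits := by
  classical
  have hElem := s35gd_elem_of_chartData G φ M q hq hqM S hCD
  have hmemO : ∀ (b : s34x_ring (s34x_infRing OO) S) (i : Bool),
      (b : s34m_F K₀ (M * q)) ∈ OO i := fun b i =>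
    ((s34df_mem_O_iff G φ M q hq hqM _).mp b.2.1) |> fun h => by
      cases i
      · exact h.2
      · exact h.1
  have hk1 : ∀ b : s34x_ring (s34x_infRing OO) S, s34df_r1 G φ M q hq hqM S b = 0 ↔
      (b : s34m_F K₀ (M * q)) ∈ (OO true).nonunits := fun b =>
    (s35gd_r1_eq_zero_iff G φ M q hq hqM S b).trans
      (s36e_mem_nonunits_VV_iff G φ M q hq hqM true _ (hmemO b true)).symm
  have hk2 : ∀ b : s34x_ring (s34x_infRing OO) S, s34df_r2 G φ M q hq hqM S b = 0 ↔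
      (b : s34m_F K₀ (M * q)) ∈ (OO false).nonunits := fun b =>
    (s35gd_r2_eq_zero_iff G φ M q hq hqM S b).trans
      (s36e_mem_nonunits_VV_iff G φ M q hq hqM false _ (hmemO b false)).symm
  rcases hElem 𝔪 hϖ with ⟨t, ht, hgen, -⟩ | ⟨h1, h2, -⟩
  · refine ⟨t, ht, s34d_maximalIdeal_eq_span_pair 𝔪 ht hϖ hgen, ?_⟩
    intro htn
    have hϖn : ((s35gd_unifB G φ M q hq hqM S : s34x_ring (s34x_infRing OO) S) :
        s34m_F K₀ (M * q)) ∈ (OO i₀).nonunits :=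
      s36e_unif_mem_nonunits_VV G φ M q hq hqM i₀
    -- every element of `𝔪` is a non-unit of `V'_{i₀}`
    have hall : ∀ y ∈ 𝔪, ((y : s34x_ring (s34x_infRing OO) S) : s34m_F K₀ (M * q)) ∈
        (OO i₀).nonunits := by
      intro y hy
      obtain ⟨c, hc, z, b, e⟩ := hgen y hy
      have hcu : ((c : s34x_ring (s34x_infRing OO) S) : s34m_F K₀ (M * q)) ∉ (OO i₀).nonunits :=
        fun h => hc (hth c h)
      have hcy : ((c * y : s34x_ring (s34x_infRing OO) S) : s34m_F K₀ (M * q)) ∈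
          (OO i₀).nonunits := by
        rw [e]
        have h1 : ((z * t : s34x_ring (s34x_infRing OO) S) : s34m_F K₀ (M * q)) ∈
            (OO i₀).nonunits := by
          rw [Subring.coe_mul]
          exact s36y_mul_mem_nonunits _ (hmemO z i₀) htn
        have h2 : ((b * s35gd_unifB G φ M q hq hqM S : s34x_ring (s34x_infRing OO) S) :
            s34m_F K₀ (M * q)) ∈ (OO i₀).nonunits := by
          rw [Subring.coe_mul]
          exact s36y_mul_mem_nonunits _ (hmemO b i₀) hϖn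
        rw [Subring.coe_add]
        rw [ValuationSubring.mem_nonunits_iff] at h1 h2 ⊢
        exact lt_of_le_of_lt (Valuation.map_add _ _ _) (max_lt h1 h2)
      rw [Subring.coe_mul] at hcy
      rw [ValuationSubring.mem_nonunits_iff] at hcy hcu ⊢
      rw [map_mul] at hcy
      have hc1 : (OO i₀).valuation ((c : s34x_ring (s34x_infRing OO) S) : s34m_F K₀ (M * q)) = 1 :=
        le_antisymm ((OO i₀).valuation_le_one_iff _ |>.mpr (hmemO c i₀)) (not_lt.mp hcu)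
      rwa [hc1, one_mul] at hcy
    exact hsu (hall s hs)
  · exfalso
    apply hmiss
    intro b hb
    cases i₀
    · exact h1 ((RingHom.mem_ker).mpr ((hk1 b).mpr hb))
    · exact h2 ((RingHom.mem_ker).mpr ((hk2 b).mpr hb))

end Smooth

end Fermat.Agent.Lib.S36
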