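/-
S36 project, package (L2) (helper9), part 4: **THE LAYER `s36g_LevelRaise`** of helper8's
`GeoContracts.lean`: for a prime `r ∤ M' q`,  [NN₁] at the level `(M' r) q²` implies [NN₁] at the
level `M' q²`, with the loss `c' = c + v_lam([F̄(M' r q²) : F̄(M' q²)])` (the degree is `r + 1`).

Proof: `Z := π^* z ∈ J₀(M' r q²)` is again killed by `lam^k`, fixed by the inertia group
(`s36p_pull_smul`) and killed by `α_*, β_*` (`s36p_pull_alphaPush`, `s36p_pull_betaPush`), so
`lam^c (φ Z - Z) = π^* (lam^c (φ z - z)) = 0`, hence `n · lam^c (φ z - z) = 0` with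
`n = [F̄(M' r q²) : F̄(M' q²)]` (`s36p_pull_eq_zero`); together with `lam^k (φ z - z) = 0` this gives
`lam^(c + v_lam n) (φ z - z) = 0`.
-/
import Fermat.Agent.Lib.S36.PSquare
import Fermat.Agent.Lib.S36.GeoContracts

set_option autoImplicit false
set_option linter.unusedSectionVars false
set_option linter.style.haveILetI false

noncomputable section

namespace Fermat.Agent.Lib.S36

open ModularCurve AlgebraicCurve Fermat.Agent.Lib.FF Fermat.Agent.Lib.S18
  Fermat.Agent.Lib.S28 Fermat.Agent.Lib.S29 Fermat.Agent.Lib.S35 Fermat.Agent.Lib.S37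

local notation "Kb" => AlgebraicClosure ℚ

/-- an element of an additive group killed by `lam^k` and by `n · lam^c` is killed by
`lam^(c + v_lam n)`. -/
theorem s36p_kill {A : Type*} [AddCommGroup A] (lam : ℕ) (hlam : lam.Prime) (n : ℕ) (hn : n ≠ 0)
    (c k : ℕ) (y : A) (hk : (lam ^ k) • y = 0) (hn' : n • ((lam ^ c) • y) = 0) :
    (lam ^ (c + n.factorization lam)) • y = 0 := by
  set v := n.factorization lam with hv
  set u := n / lam ^ v
  have hnu : lam ^ v * u = n := Nat.ordProj_mul_ordCompl_eq_self n lam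
  have hcop : Nat.Coprime lam u := Nat.coprime_ordCompl hlam hn
  set B : A := (lam ^ (c + v)) • y with hB
  have h1 : u • B = 0 := by
    rw [hB, ← mul_smul]
    have : u * lam ^ (c + v) = n * lam ^ c := by rw [← hnu, pow_add]; ring
    rw [this, mul_smul]
    exact hn'
  have h2 : (lam ^ k) • B = 0 := by
    rw [hB, smul_comm, hk, smul_zero]
  have hd1 := addOrderOf_dvd_of_nsmul_eq_zero h1
  have hd2 := addOrderOf_dvd_of_nsmul_eq_zero h2
  have hg : addOrderOf B ∣ Nat.gcd u (lam ^ k) := Nat.dvd_gcd hd1 hd2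
  have hc1 : Nat.gcd u (lam ^ k) = 1 := (Nat.Coprime.pow_right k hcop.symm)
  rw [hc1, Nat.dvd_one] at hg
  exact AddMonoid.addOrderOf_eq_one_iff.mp hg

/-- **Layer (L2)**: raising the level by an auxiliary prime `r ∤ M' q`. -/
theorem s36p_levelRaise : s36g_LevelRaise := by
  intro M' q lam r _ _ _ hlam hq hqlam hqM' hr hrMq hNN
  obtain ⟨c, hc⟩ := hNN
  have h₁ : M' * q ∣ M' * r * q := ⟨r, by ring⟩
  have h₂ : M' * q * q ∣ M' * r * q * q := s36p_dvd_top _ _ q h₁
  have hqN : q ∣ M' * q := dvd_mul_left q M'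
  -- the degree of the level inclusion
  set n := finrankAlong Kb (s37l_incl (M' * q * q) (M' * r * q * q) h₂) with hn
  have hn0 : n ≠ 0 := by
    have h1 := s36m_psi_mul_finrank_incl h₂
    have h2 := s18l_dedekindPsi_pos (M' * r * q * q)
    intro h0
    rw [← hn, h0, mul_zero] at h1
    omega
  -- the quotient of the levels is `r`, prime to `q`
  have hquot : M' * r * q * q / (M' * q * q) = r := by
    have hpos : 0 < M' * q * q := Nat.pos_of_ne_zero (NeZero.ne _)
    have : M' * r * q * q = r * (M' * q * q) := by ring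
    rw [this, Nat.mul_div_cancel _ hpos]
  have hrq : r ≠ q := by
    rintro rfl
    exact hrMq (dvd_mul_left r M')
  have hcop : Nat.Coprime (M' * r * q * q / (M' * q * q)) q := by
    rw [hquot]
    exact (Nat.coprime_primes hr hq).mpr hrq
  refine ⟨c + n.factorization lam, ?_⟩
  intro P hP φ hφ k z hk hI hα hβ
  set Z := s36p_pull h₂ z with hZ
  have hZk : (lam ^ k) • Z = 0 := by rw [hZ, ← map_nsmul, hk, map_zero]
  have hZI : ∀ σ ∈ P.inertiaSubgroupIn ℚ, σ • Z = Z := fun σ hσ => by
    rw [hZ, ← s36p_pull_smul, hI σ hσ]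
  have hZα : s36w_alphaPush (M' * r * q) q Z = 0 := by
    rw [hZ, s36p_pull_alphaPush (M' * q) (M' * r * q) q h₁ hq hqN hcop z, hα, map_zero]
  have hZβ : s36w_betaPush (M' * r * q) q Z = 0 := by
    rw [hZ, s36p_pull_betaPush (M' * q) (M' * r * q) q h₁ hq hqN z, hβ, map_zero]
  have key := hc P hP φ hφ k Z hZk hZI hZα hZβ
  have hpull : s36p_pull h₂ ((lam ^ c) • (φ • z - z)) = 0 := by
    rw [map_nsmul, map_sub, s36p_pull_smul]
    exact key
  have hdeg := s36p_pull_eq_zero h₂ _ hpull
  have hky : (lam ^ k) • (φ • z - z) = 0 := by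
    have hcomm : φ • ((lam ^ k) • z) = (lam ^ k) • (φ • z) :=
      map_nsmul (DistribSMul.toAddMonoidHom (JZero (M' * q * q)) φ) (lam ^ k) z
    have h0 : φ • (0 : JZero (M' * q * q)) = 0 :=
      map_zero (DistribSMul.toAddMonoidHom (JZero (M' * q * q)) φ)
    rw [nsmul_sub, ← hcomm, hk, h0, sub_self]
  exact s36p_kill lam hlam.out n hn0 c k (φ • z - z) hky hdeg

end Fermat.Agent.Lib.S36
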