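/-
S36 mega-project, item (3b) of helper8's checklist #1783, final form (helper3, prefix `s36q_fi`):
**`hClass1` of `s36p_zero_of_cases` FROM THE VALUATION PACKAGE** and the base function of
`s36qf_base_full` (lead's `QFracBase.lean`), with the two purely inseparable fraction statements
discharged by lead's `s36qf_fracq_alpha2/_beta0` (`QFracInst.lean`).  The ONLY remaining hypothesis is
helper4's (R-q): `s36q_fi_CrossReg G φ M q hq hqM (α x)` (every crossing point of chart 1 of level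
`M q` is a regular crossing; bridge from the thickness-one statement:
`s36q_fi_crossReg_of_thick`, `QFibInst.lean`).
-/
import Fermat.Agent.Lib.S36.QFibInst
import Fermat.Agent.Lib.S36.QFracInst

set_option autoImplicit false
set_option linter.unusedSectionVars false
set_option linter.style.haveILetI false
set_option synthInstance.maxHeartbeats 400000

noncomputable section

namespace Fermat.Agent.Lib.S36

open ModularCurve AlgebraicCurve Polynomial Fermat.Agent.Lib.FF Fermat.Agent.Lib.S18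
  Fermat.Agent.Lib.S37 Fermat.Agent.Lib.S34 Fermat.Agent.Lib.S35

local notation "Kb" => AlgebraicClosure ℚ

variable {K₀ : Type} [Field K₀] [Algebra ℚ K₀] {κ : Type} [Field κ] (G : s18g_GaussData K₀ κ)
  (φ : K₀ →+* Kb) (M q : ℕ) [NeZero M] [NeZero q] (hq : q.Prime) (hqM : ¬ q ∣ M)
  {V : Fin 3 → ValuationSubring (s34m_F K₀ (M * q * q))} {t : s34m_F K₀ (M * q * q)}
  [CharZero K₀] [IsDiscreteValuationRing G.A]

/-- **The classification at every prime of chart 1 of `α'(α x)`** from the package. -/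
theorem s36q_fi_class_pkg [CharP κ q] (hP : s36g_ValPkg G φ M q hq hqM V t)
    (x : s34m_F K₀ M) (hx : x ∈ s34m_Vinf G M)
    (hB : s35g_BaseData G φ M q hq hqM (heckeAlphaBar K₀ M q x))
    (hsat : ∀ Q : Place K₀ (s34m_F K₀ (M * q * q)),
      s36g_alpha M q (heckeAlphaBar K₀ M q x) ∈ Q.toValuationSubring ↔
        s36g_beta M q (heckeAlphaBar K₀ M q x) ∈ Q.toValuationSubring)
    (htr : Transcendental κ (s34m_redInf G M ⟨x, hx⟩))
    (hX : s36q_fi_CrossReg G φ M q hq hqM (heckeAlphaBar K₀ M q x))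
    (𝔫 : Ideal (s34x_ring (L₀ := K₀) (s34x_infRing V)
      (s18_chart1 (s36g_alpha M q (heckeAlphaBar K₀ M q x))))) [h𝔫 : 𝔫.IsPrime] :
    (∀ j, s36q_compThrough V
      (s18_chart1 (L₀ := K₀) (s36g_alpha M q (heckeAlphaBar K₀ M q x))) 𝔫 j) ∨
    (¬ s36q_compThrough V
        (s18_chart1 (L₀ := K₀) (s36g_alpha M q (heckeAlphaBar K₀ M q x))) 𝔫 0 ∧
      ¬ s36q_compThrough V
        (s18_chart1 (L₀ := K₀) (s36g_alpha M q (heckeAlphaBar K₀ M q x))) 𝔫 1) ∨
    (¬ s36q_compThrough V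
        (s18_chart1 (L₀ := K₀) (s36g_alpha M q (heckeAlphaBar K₀ M q x))) 𝔫 0 ∧
      ¬ s36q_compThrough V
        (s18_chart1 (L₀ := K₀) (s36g_alpha M q (heckeAlphaBar K₀ M q x))) 𝔫 2) ∨
    (¬ s36q_compThrough V
        (s18_chart1 (L₀ := K₀) (s36g_alpha M q (heckeAlphaBar K₀ M q x))) 𝔫 1 ∧
      ¬ s36q_compThrough V
        (s18_chart1 (L₀ := K₀) (s36g_alpha M q (heckeAlphaBar K₀ M q x))) 𝔫 2) :=
  s36q_fi_class G φ M q hq hqM hP.1 hP.2.1 hP.2.2.2.1 hP.2.2.2.2.1 _ hB hsat hX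
    (s36qf_fracq_alpha2 G φ M q hq hqM x hx V hB htr hP.1 hP.2.2.1)
    (s36qf_fracq_beta0 G φ M q hq hqM x hx V hB htr hP.1 hP.2.2.1) 𝔫

/-- **`hClass1` of `s36p_zero_of_cases`**, literally, for `w := α'(α x)` and ANY proof `hC` of
`s36g_ValComap`, from the package. -/
theorem s36q_fi_hClass1_pkg [CharP κ q] (hP : s36g_ValPkg G φ M q hq hqM V t)
    (hC : s36g_ValComap G φ M q hq hqM V)
    (x : s34m_F K₀ M) (hx : x ∈ s34m_Vinf G M)
    (hB : s35g_BaseData G φ M q hq hqM (heckeAlphaBar K₀ M q x))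
    (hsat : ∀ Q : Place K₀ (s34m_F K₀ (M * q * q)),
      s36g_alpha M q (heckeAlphaBar K₀ M q x) ∈ Q.toValuationSubring ↔
        s36g_beta M q (heckeAlphaBar K₀ M q x) ∈ Q.toValuationSubring)
    (htr : Transcendental κ (s34m_redInf G M ⟨x, hx⟩))
    (hX : s36q_fi_CrossReg G φ M q hq hqM (heckeAlphaBar K₀ M q x)) :
    ∀ 𝔫 : Ideal (s34x_ring (s34x_infRing V)
        (s18_chart1 (L₀ := K₀) (s36g_alpha M q (heckeAlphaBar K₀ M q x)))),
      𝔫.IsMaximal →
      s34x_const (s34x_infRing V)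
        (s18_chart1 (L₀ := K₀) (s36g_alpha M q (heckeAlphaBar K₀ M q x))) ((G.ϖ : G.A) : K₀)
        (s34x_inf_const_mem V G.A (s36b_const_mem G φ M q hq hqM hC) G.ϖ) ∈ 𝔫 →
      (∀ j, s36q_compThrough V
        (s18_chart1 (L₀ := K₀) (s36g_alpha M q (heckeAlphaBar K₀ M q x))) 𝔫 j) ∨
      (¬ s36q_compThrough V
          (s18_chart1 (L₀ := K₀) (s36g_alpha M q (heckeAlphaBar K₀ M q x))) 𝔫 0 ∧
        ¬ s36q_compThrough V
          (s18_chart1 (L₀ := K₀) (s36g_alpha M q (heckeAlphaBar K₀ M q x))) 𝔫 1) ∨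
      (¬ s36q_compThrough V
          (s18_chart1 (L₀ := K₀) (s36g_alpha M q (heckeAlphaBar K₀ M q x))) 𝔫 0 ∧
        ¬ s36q_compThrough V
          (s18_chart1 (L₀ := K₀) (s36g_alpha M q (heckeAlphaBar K₀ M q x))) 𝔫 2) ∨
      (¬ s36q_compThrough V
          (s18_chart1 (L₀ := K₀) (s36g_alpha M q (heckeAlphaBar K₀ M q x))) 𝔫 1 ∧
        ¬ s36q_compThrough V
          (s18_chart1 (L₀ := K₀) (s36g_alpha M q (heckeAlphaBar K₀ M q x))) 𝔫 2) := by
  intro 𝔫 h𝔫 _
  haveI := h𝔫.isPrime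
  exact s36q_fi_class_pkg G φ M q hq hqM hP x hx hB hsat htr hX 𝔫

end Fermat.Agent.Lib.S36
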