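/-
S36 mega-project, item (3b) of helper8's checklist #1783 against the assembly frame `GLocalAsm.lean`
(helper3, prefix `s36q_fi`): **the input `s36g_GeoFib` (FIB) of `s36g_InGeo`.**

* `s36q_fi_geoFib`     : `s36g_GeoFib G φ M q hq hqM hC w₁ hB hsat` for a base function `w₁` from
  (R-q) `s36q_fi_CrossReg` and the two purely inseparable fraction statements;
* `s36q_fi_geoFib_pkg` : the same for `w₁ = α x` from the valuation package (`hfracq` discharged by
  lead's `QFracInst.lean`); the only remaining hypothesis is (R-q).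
-/
import Fermat.Agent.Lib.S36.QFibPkg
import Fermat.Agent.Lib.S36.GLocalAsm

set_option autoImplicit false
set_option linter.unusedSectionVars false
set_option linter.style.haveILetI false
set_option synthInstance.maxHeartbeats 400000

noncomputable section

namespace Fermat.Agent.Lib.S36

open ModularCurve AlgebraicCurve Polynomial Fermat.Agent.Lib.FF Fermat.Agent.Lib.S18
  Fermat.Agent.Lib.S37 Fermat.Agent.Lib.S34 Fermat.Agent.Lib.S35

local notation "Kb" => AlgebraicClosure ℚ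

variable {K₀ : Type} [Field K₀] [Algebra ℚ K₀] [CharZero K₀] {κ : Type} [Field κ]
  (G : s18g_GaussData K₀ κ) [IsDiscreteValuationRing G.A]
  (φ : K₀ →+* Kb) (M q : ℕ) [NeZero M] [NeZero q] (hq : q.Prime) (hqM : ¬ q ∣ M)
  {V : Fin 3 → ValuationSubring (s34m_F K₀ (M * q * q))} {t : s34m_F K₀ (M * q * q)}

/-- **(FIB)** of `GLocalAsm.lean` for a base function `w₁`. -/
theorem s36q_fi_geoFib (hC : s36g_ValComap G φ M q hq hqM V)
    (hU : s36g_ValUnif G M q V t) (hCompl : s36g_ValComplete G φ M q hq hqM V)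
    (hInd : s36g_ValIndep M q V)
    (w₁ : s34m_F K₀ (M * q)) (hB : s35g_BaseData G φ M q hq hqM w₁)
    (hsat : ∀ Q : Place K₀ (s34m_F K₀ (M * q * q)),
      s36g_alpha M q w₁ ∈ Q.toValuationSubring ↔ s36g_beta M q w₁ ∈ Q.toValuationSubring)
    (hX : s36q_fi_CrossReg G φ M q hq hqM w₁)
    (hfqα : ∀ y ∈ V 2, ∃ b c : s34x_ring (L₀ := K₀) (s34x_infRing (s34m_VV G φ M q hq hqM))
        (s18_chart1 (L₀ := K₀) w₁),
      (c : s34m_F K₀ (M * q)) ∉ (s34m_VV G φ M q hq hqM false).nonunits ∧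
        y ^ q * s36g_alpha M q (c : s34m_F K₀ (M * q)) -
          s36g_alpha M q (b : s34m_F K₀ (M * q)) ∈ (V 2).nonunits)
    (hfqβ : ∀ y ∈ V 0, ∃ b c : s34x_ring (L₀ := K₀) (s34x_infRing (s34m_VV G φ M q hq hqM))
        (s18_chart1 (L₀ := K₀) w₁),
      (c : s34m_F K₀ (M * q)) ∉ (s34m_VV G φ M q hq hqM true).nonunits ∧
        y ^ q * s36g_beta M q (c : s34m_F K₀ (M * q)) -
          s36g_beta M q (b : s34m_F K₀ (M * q)) ∈ (V 0).nonunits) :
    s36g_GeoFib G φ M q hq hqM hC w₁ hB hsat := by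
  intro 𝔫 h𝔫 _
  haveI := h𝔫.isPrime
  exact ⟨s36q_fi_fib_alpha G φ M q hq hqM hC hU hCompl hInd w₁ hB hX hfqα 𝔫,
    s36q_fi_fib_beta G φ M q hq hqM hC hU hCompl hInd w₁ hB hsat hX hfqβ 𝔫⟩

/-- **(FIB)** of `GLocalAsm.lean` for `w₁ = α x` from the valuation package; only (R-q) remains. -/
theorem s36q_fi_geoFib_pkg [CharP κ q] (hP : s36g_ValPkg G φ M q hq hqM V t)
    (x : s34m_F K₀ M) (hx : x ∈ s34m_Vinf G M)
    (hB : s35g_BaseData G φ M q hq hqM (heckeAlphaBar K₀ M q x))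
    (hsat : ∀ Q : Place K₀ (s34m_F K₀ (M * q * q)),
      s36g_alpha M q (heckeAlphaBar K₀ M q x) ∈ Q.toValuationSubring ↔
        s36g_beta M q (heckeAlphaBar K₀ M q x) ∈ Q.toValuationSubring)
    (htr : Transcendental κ (s34m_redInf G M ⟨x, hx⟩))
    (hX : s36q_fi_CrossReg G φ M q hq hqM (heckeAlphaBar K₀ M q x)) :
    s36g_GeoFib G φ M q hq hqM hP.1 (heckeAlphaBar K₀ M q x) hB hsat :=
  s36q_fi_geoFib G φ M q hq hqM hP.1 hP.2.1 hP.2.2.2.1 hP.2.2.2.2.1 _ hB hsat hX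
    (s36qf_fracq_alpha2 G φ M q hq hqM x hx V hB htr hP.1 hP.2.2.1)
    (s36qf_fracq_beta0 G φ M q hq hqM x hx V hB htr hP.1 hP.2.2.1)

end Fermat.Agent.Lib.S36
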