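/-
S36 mega-project, layer (R2) (helper5), part 17: **(FRAC)** — the residue field of a component is the
fraction field of the image of the chart ring.

* `s36q_Frac1 O S i` : every `r ∈ O i` is, modulo the non-units of `O i`, a fraction `b / c` of elements
  of the chart ring `B = s34x_ring (⨅ O) S` with `c` a unit of `O i`;
* `s36q_frac_of_frac1`, `s36q_fracq_of_frac1` : along `γ`, (FRAC₁) below and residue degree one
  (resp. purely inseparable of exponent `q`) give `s36q_Frac` (resp. the `hfracq` of `QFibre.lean`);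
* **`s36q_frac1_chart`** : (FRAC₁) for BOTH components of level `M q` and every chart `S` with
  `s35g_ChartData` (in particular the two charts of a base function): from S18's `hmain` (every
  element of the integral closure of `κ[w̄]` in `F̄_M` lifts to the chart ring of level `M`),
  `F̄_M = Frac` of that integral closure, `f_∞ = f_0 = 1` (`DFibreF.lean`) and approximation.
-/
import Fermat.Agent.Lib.S36.QTriple2
import Fermat.Agent.Lib.S36.GApprox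
import Fermat.Agent.Lib.S36.REisUnit
import Fermat.Agent.Lib.S36.XCuspInst
import Fermat.Agent.Lib.S35.Geo

set_option autoImplicit false
set_option linter.unusedSectionVars false
set_option linter.style.haveILetI false
set_option synthInstance.maxHeartbeats 400000

noncomputable section

namespace Fermat.Agent.Lib.S36

open ModularCurve AlgebraicCurve HahnSeries Polynomial Fermat.Agent.Lib.FF Fermat.Agent.Lib.S18
  Fermat.Agent.Lib.S37 Fermat.Agent.Lib.S34 Fermat.Agent.Lib.S35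

section Abs

variable {L₀ 𝓕₁ 𝓕₂ : Type*} [Field L₀] [Field 𝓕₁] [Field 𝓕₂] [Algebra L₀ 𝓕₁]
variable {ι₁ ι₂ : Type*} (O₁ : ι₁ → ValuationSubring 𝓕₁) (O₂ : ι₂ → ValuationSubring 𝓕₂)
  (S₁ : Set (Place L₀ 𝓕₁)) (γ : 𝓕₁ →+* 𝓕₂)

/-- **(FRAC₁)**: the residue field of the component `i` is the fraction field of the image of the
chart ring. -/
def s36q_Frac1 (i : ι₁) : Prop :=
  ∀ r ∈ O₁ i, ∃ b c : s34x_ring (s34x_infRing O₁) S₁,
    (c : 𝓕₁) ∉ (O₁ i).nonunits ∧ r * (c : 𝓕₁) - (b : 𝓕₁) ∈ (O₁ i).nonunits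

omit [Field L₀] [Algebra L₀ 𝓕₁] in
/-- the image of a non-unit of `O₁ i` is a non-unit of `O₂ j`. -/
theorem s36q_map_mem_nonunits (i : ι₁) (j : ι₂) (hcomap : ∀ x : 𝓕₁, γ x ∈ O₂ j ↔ x ∈ O₁ i)
    {x : 𝓕₁} (hx : x ∈ (O₁ i).nonunits) : γ x ∈ (O₂ j).nonunits := by
  rw [ValuationSubring.mem_nonunits_iff_or] at hx ⊢
  rcases hx with h | h
  · left; rw [h, map_zero]
  · right
    rw [← map_inv₀, hcomap]
    exact h

/-- (FRAC₁) below and residue degree one along `γ` give `s36q_Frac`. -/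
theorem s36q_frac_of_frac1 (i : ι₁) (j : ι₂) (hcomap : ∀ x : 𝓕₁, γ x ∈ O₂ j ↔ x ∈ O₁ i)
    (h1 : s36q_Frac1 O₁ S₁ i)
    (hres : ∀ y ∈ O₂ j, ∃ r ∈ O₁ i, y - γ r ∈ (O₂ j).nonunits) :
    s36q_Frac O₁ O₂ S₁ γ i j := by
  intro y hy
  obtain ⟨r, hr, hyr⟩ := hres y hy
  obtain ⟨b, c, hc, hrc⟩ := h1 r hr
  refine ⟨b, c, hc, ?_⟩
  have hcO : (c : 𝓕₁) ∈ O₁ i := (s34x_mem_infRing O₁ _).mp c.2.1 i
  have e : y * γ (c : 𝓕₁) - γ (b : 𝓕₁) =
      (y - γ r) * γ (c : 𝓕₁) + γ (r * (c : 𝓕₁) - (b : 𝓕₁)) := by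
    rw [map_sub, map_mul]; ring
  rw [e]
  have h2 : (y - γ r) * γ (c : 𝓕₁) ∈ (O₂ j).nonunits := by
    rw [(O₂ j).mem_nonunits_iff] at hyr ⊢
    rw [map_mul]
    have h3 : (O₂ j).valuation (γ (c : 𝓕₁)) ≤ 1 :=
      ((O₂ j).valuation_le_one_iff _).mpr ((hcomap _).mpr hcO)
    calc _ ≤ (O₂ j).valuation (y - γ r) * 1 := by gcongr
      _ < 1 := by rw [mul_one]; exact hyr
  have h4 := s36q_map_mem_nonunits O₁ O₂ γ i j hcomap hrc
  rw [(O₂ j).mem_nonunits_iff] at h2 h4 ⊢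
  exact lt_of_le_of_lt (Valuation.map_add _ _ _) (max_lt h2 h4)

/-- (FRAC₁) below and a purely inseparable residue extension of exponent `q` along `γ` give the
`hfracq` of `s36q_fibre_unique`. -/
theorem s36q_fracq_of_frac1 (i : ι₁) (j : ι₂) (hcomap : ∀ x : 𝓕₁, γ x ∈ O₂ j ↔ x ∈ O₁ i)
    (h1 : s36q_Frac1 O₁ S₁ i) (q : ℕ)
    (hres : ∀ y ∈ O₂ j, ∃ r ∈ O₁ i, y ^ q - γ r ∈ (O₂ j).nonunits) :
    ∀ y ∈ O₂ j, ∃ b c : s34x_ring (s34x_infRing O₁) S₁,
      (c : 𝓕₁) ∉ (O₁ i).nonunits ∧ y ^ q * γ (c : 𝓕₁) - γ (b : 𝓕₁) ∈ (O₂ j).nonunits := by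
  intro y hy
  obtain ⟨r, hr, hyr⟩ := hres y hy
  obtain ⟨b, c, hc, hrc⟩ := h1 r hr
  refine ⟨b, c, hc, ?_⟩
  have hcO : (c : 𝓕₁) ∈ O₁ i := (s34x_mem_infRing O₁ _).mp c.2.1 i
  have e : y ^ q * γ (c : 𝓕₁) - γ (b : 𝓕₁) =
      (y ^ q - γ r) * γ (c : 𝓕₁) + γ (r * (c : 𝓕₁) - (b : 𝓕₁)) := by
    rw [map_sub, map_mul]; ring
  rw [e]
  have h2 : (y ^ q - γ r) * γ (c : 𝓕₁) ∈ (O₂ j).nonunits := by
    rw [(O₂ j).mem_nonunits_iff] at hyr ⊢
    rw [map_mul]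
    have h3 : (O₂ j).valuation (γ (c : 𝓕₁)) ≤ 1 :=
      ((O₂ j).valuation_le_one_iff _).mpr ((hcomap _).mpr hcO)
    calc _ ≤ (O₂ j).valuation (y ^ q - γ r) * 1 := by gcongr
      _ < 1 := by rw [mul_one]; exact hyr
  have h4 := s36q_map_mem_nonunits O₁ O₂ γ i j hcomap hrc
  rw [(O₂ j).mem_nonunits_iff] at h2 h4 ⊢
  exact lt_of_le_of_lt (Valuation.map_add _ _ _) (max_lt h2 h4)

end Abs

section Conc

local notation "Kb" => AlgebraicClosure ℚ

variable {K₀ : Type} [Field K₀] [CharZero K₀] [Algebra ℚ K₀] {κ : Type} [Field κ]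
  (G : s18g_GaussData K₀ κ) (φ : K₀ →+* Kb) (M q : ℕ) [NeZero M] [NeZero q]
  (hq : q.Prime) (hqM : ¬ q ∣ M) [CharP κ q] [PerfectField κ]

local notation "𝓕M" => laurentBaseChange K₀ (modularFunctionFieldFull M)
local notation "hFM" => (fun (f : LaurentSeries K₀)
  (hf : f ∈ laurentBaseChange K₀ (modularFunctionFieldFull M)) => s18g_baseChange_mem_Frac G M hf)

include hq in
/-- **(FRAC) at level `M`**: every element of `F̄_M` is a fraction of reductions of elements of the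
chart ring of `w`. -/
theorem s36q_frac_levelM (hT : s18g_HT κ M) (hdegM : s18g_HDeg K₀ M) (w : ↥𝓕M)
    (hwV : w ∈ s18g_V G 𝓕M hFM)
    (hcoord : s37b_Coord κ q
      ((s18g_redF G M hFM hT hdegM ⟨w, hwV⟩ : ↥(modularFunctionFieldFullC κ M)) : LaurentSeries κ))
    (hmain : letI := s18f_algF G M hT hdegM w hwV
      ∀ z : ↥(modularFunctionFieldFullC κ M), IsIntegral κ[X] z →
        ∃ (b : ↥𝓕M) (hb : b ∈ s18_ring (L₀ := K₀) (s18g_V G 𝓕M hFM) (s18_chart1 w)),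
          s18g_redF G M hFM hT hdegM ⟨b, hb.1⟩ = z)
    (z : ↥(modularFunctionFieldFullC κ M)) :
    ∃ (b c : ↥𝓕M) (hb : b ∈ s18_ring (L₀ := K₀) (s18g_V G 𝓕M hFM) (s18_chart1 w))
      (hc : c ∈ s18_ring (L₀ := K₀) (s18g_V G 𝓕M hFM) (s18_chart1 w)),
      s18g_redF G M hFM hT hdegM ⟨c, hc.1⟩ ≠ 0 ∧
      z * s18g_redF G M hFM hT hdegM ⟨c, hc.1⟩ = s18g_redF G M hFM hT hdegM ⟨b, hb.1⟩ := by
  haveI : Fact q.Prime := ⟨hq⟩
  letI algF := s18f_algF G M hT hdegM w hwV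
  have hA : ∀ p : κ[X], algebraMap κ[X] ↥(modularFunctionFieldFullC κ M) p =
      Polynomial.aeval (s18g_redF G M hFM hT hdegM ⟨w, hwV⟩) p :=
    s18f_algF_apply G M hT hdegM w hwV
  obtain ⟨hDed, hFrac⟩ := s37b_dedekind_of_coord κ q M (s18g_redF G M hFM hT hdegM ⟨w, hwV⟩)
    hcoord hA
  haveI := hFrac
  obtain ⟨d₁, d₂, hd₂, e⟩ := IsFractionRing.div_surjective
    (A := ↥(integralClosure κ[X] ↥(modularFunctionFieldFullC κ M))) z
  obtain ⟨b, hb, eb⟩ := hmain (d₁ : ↥(modularFunctionFieldFullC κ M)) d₁.2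
  obtain ⟨c, hc, ec⟩ := hmain (d₂ : ↥(modularFunctionFieldFullC κ M)) d₂.2
  have hd₂0 : algebraMap ↥(integralClosure κ[X] ↥(modularFunctionFieldFullC κ M))
      ↥(modularFunctionFieldFullC κ M) d₂ ≠ 0 :=
    IsFractionRing.to_map_ne_zero_of_mem_nonZeroDivisors hd₂
  refine ⟨b, c, hb, hc, ?_, ?_⟩
  · rw [ec]
    exact hd₂0
  · rw [eb, ec, ← e]
    exact div_mul_cancel₀ _ hd₂0

omit [CharZero K₀] [PerfectField κ] in
include hq hqM in
/-- `f_∞ = 1` on `O₂ = V'_∞ ⊓ V'_0`: the reduction at `∞` of `y ∈ O₂` is the reduction of an element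
of `V_M`. -/
theorem s36q_resInf (hdeg : s34m_HDeg K₀ M q) (hT : s18g_HT κ M) (hdegM : s18g_HDeg K₀ M)
    (hπ : Function.Surjective G.π) (y : s34m_F K₀ (M * q)) (hy : y ∈ s34m_O2 G φ M q hq hqM)
    (hyI : y ∈ s34m_Vinf G (M * q)) :
    ∃ r : s34m_Vinf G M, s34m_redInf G (M * q) ⟨y, hyI⟩ = s34m_redInf G M r := by
  have h1 := s34df_redInf_mem_fullC G φ M q hq hqM hdeg hT hdegM y hy hyI
  obtain ⟨r, hr⟩ := s18g_redF_surjective G M (s34m_hF G M) hT hdegM hπ ⟨_, h1⟩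
  refine ⟨r, ?_⟩
  have h2 := congrArg (fun z : ↥(modularFunctionFieldFullC κ M) => (z : LaurentSeries κ)) hr
  exact h2.symm

omit [CharZero K₀] in
include hq hqM in
/-- `f_0 = 1` on `O₂`. -/
theorem s36q_resZero (hdeg : s34m_HDeg K₀ M q) (hT : s18g_HT κ M) (hdegM : s18g_HDeg K₀ M)
    (hπ : Function.Surjective G.π) (y : s34m_F K₀ (M * q)) (hy : y ∈ s34m_O2 G φ M q hq hqM)
    (hy0 : y ∈ s34m_Vzero G φ M q hq hqM) :
    ∃ r : s34m_Vinf G M, s34m_redZero G φ M q hq hqM ⟨y, hy0⟩ = s34m_redInf G M r := by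
  haveI : Fact q.Prime := ⟨hq⟩
  have h1 := s34df_redZero_mem_fullC G φ M q hq hqM hdeg hT hdegM y hy hy0
  obtain ⟨r, hr⟩ := s18g_redF_surjective G M (s34m_hF G M) hT hdegM hπ ⟨_, h1⟩
  refine ⟨r, ?_⟩
  have h2 := congrArg (fun z : ↥(modularFunctionFieldFullC κ M) => (z : LaurentSeries κ)) hr
  exact h2.symm

/-- (FRAC₁) from a reduction map: `r̄ c̄ = b̄`, `c̄ ≠ 0`. -/
theorem s36q_frac1_of_red {𝓕 : Type*} [Field 𝓕] (O : ValuationSubring 𝓕) {L : Type*} [Field L]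
    (red : O →+* L) (hker : ∀ y : O, red y = 0 ↔ (y : 𝓕) ∈ O.nonunits) (r c b : O)
    (hc : red c ≠ 0) (e : red r * red c = red b) :
    (c : 𝓕) ∉ O.nonunits ∧ (r : 𝓕) * c - b ∈ O.nonunits := by
  refine ⟨fun h => hc ((hker c).mpr h), ?_⟩
  have h1 : red (r * c - b) = 0 := by rw [map_sub, map_mul, e, sub_self]
  exact (hker _).mp h1

/-- passing from an approximation `x` of `r` to `r`. -/
theorem s36q_frac1_shift {𝓕 : Type*} [Field 𝓕] (O : ValuationSubring 𝓕) {r x c b : 𝓕}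
    (hxr : x - r ∈ O.nonunits) (hc : c ∈ O) (h : x * c - b ∈ O.nonunits) :
    r * c - b ∈ O.nonunits := by
  have e : r * c - b = (x * c - b) - (x - r) * c := by ring
  rw [e]
  have h2 : (x - r) * c ∈ O.nonunits := by
    rw [O.mem_nonunits_iff] at hxr ⊢
    rw [map_mul]
    have h3 : O.valuation c ≤ 1 := (O.valuation_le_one_iff _).mpr hc
    calc _ ≤ O.valuation (x - r) * 1 := by gcongr
      _ < 1 := by rw [mul_one]; exact hxr
  rw [O.mem_nonunits_iff] at h h2 ⊢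
  exact lt_of_le_of_lt (Valuation.map_sub _ _ _) (max_lt h h2)

include hq hqM in
/-- approximation: every `r ∈ VV i` is congruent modulo the non-units of `VV i` to an element of
`O₂ = V'_∞ ⊓ V'_0`. -/
theorem s36q_approx_O2 (i : Bool) (r : s34m_F K₀ (M * q)) (hr : r ∈ s34m_VV G φ M q hq hqM i) :
    ∃ x : s34m_F K₀ (M * q), (∀ k, x ∈ s34m_VV G φ M q hq hqM k) ∧
      x - r ∈ (s34m_VV G φ M q hq hqM i).nonunits := by
  classical
  have hne : ∀ a b : Bool, a ≠ b → s34m_VV G φ M q hq hqM a ≠ s34m_VV G φ M q hq hqM b := by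
    intro a b hab
    cases a <;> cases b
    · exact absurd rfl hab
    · exact (s36w_Vinf_ne_Vzero G φ M q hq hqM).symm
    · exact s36w_Vinf_ne_Vzero G φ M q hq hqM
    · exact absurd rfl hab
  obtain ⟨x, hx⟩ := s36g_approx_fintype (s34m_VV G φ M q hq hqM) (s36e_arch_VV G φ M q hq hqM)
    (fun k => ⟨s34m_unif G (M * q), s36e_unif_mem_nonunits_VV G φ M q hq hqM k,
      s34m_unif_ne_zero G (M * q)⟩) hne (fun k => if k = i then r else 0)
    (fun k => by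
      by_cases hk : k = i
      · rw [if_pos hk, hk]; exact hr
      · rw [if_neg hk]; exact (s34m_VV G φ M q hq hqM k).zero_mem)
  have hxi : x - r ∈ (s34m_VV G φ M q hq hqM i).nonunits := by
    have := hx i
    rwa [if_pos rfl] at this
  refine ⟨x, fun k => ?_, hxi⟩
  by_cases hk : k = i
  · rw [hk]
    have e : x = (x - r) + r := by ring
    rw [e]
    exact (s34m_VV G φ M q hq hqM i).add_mem _ _
      ((s34m_VV G φ M q hq hqM i).nonunits_subset hxi) hr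
  · have := hx k
    rw [if_neg hk, sub_zero] at this
    exact (s34m_VV G φ M q hq hqM k).nonunits_subset this

include hq hqM in
/-- **(FRAC₁) for both components of level `M q` and every chart with `s35g_ChartData`.** -/
theorem s36q_frac1_chart (S : Set (Place K₀ (s34m_F K₀ (M * q))))
    (hCD : s35g_ChartData G φ M q hq hqM S) (hπ : Function.Surjective G.π) (i : Bool) :
    s36q_Frac1 (s34m_VV G φ M q hq hqM) S i := by
  obtain ⟨hT, hdegM, w, hwV, hdeg, hcoord, -, hmain, hαB, hβB⟩ := hCD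
  intro r hr
  obtain ⟨x, hxO, hxr⟩ := s36q_approx_O2 G φ M q hq hqM i r hr
  have hxO2 : x ∈ s34m_O2 G φ M q hq hqM := (s34x_mem_infRing _ _).mpr hxO
  cases i
  · -- the component `V'_0`, along `β`
    have hx0 : x ∈ s34m_Vzero G φ M q hq hqM := hxO false
    obtain ⟨r₀, hr₀⟩ := s36q_resZero G φ M q hq hqM hdeg hT hdegM hπ x hxO2 hx0
    obtain ⟨b₀, c₀, hb₀, hc₀, hc0, e⟩ := s36q_frac_levelM G M q hq hT hdegM w hwV hcoord hmain
      (s18g_redF G M hFM hT hdegM r₀)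
    obtain ⟨b', hb'B, zb, hzbI, hzb0, eb⟩ := hβB b₀ hb₀
    obtain ⟨c', hc'B, zc, hzcI, hzc0, ec⟩ := hβB c₀ hc₀
    have hb'0 : b' ∈ s34m_Vzero G φ M q hq hqM := (s34x_mem_infRing _ _).mp hb'B.1 false
    have hc'0 : c' ∈ s34m_Vzero G φ M q hq hqM := (s34x_mem_infRing _ _).mp hc'B.1 false
    -- reductions of `b'`, `c'`
    have hϖ0 : s34m_redZero G φ M q hq hqM
        ⟨s34m_unif G (M * q), s34m_unif_mem_VV G φ M q hq hqM false⟩ = 0 :=
      (s36b_redZero_eq_zero_iff G φ M q hq hqM _).mpr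
        (s36e_unif_mem_nonunits_VV G φ M q hq hqM false)
    have hredb : s34m_redZero G φ M q hq hqM ⟨b', hb'0⟩ = s34m_redInf G M ⟨b₀, hb₀.1⟩ := by
      have e1 : (⟨b', hb'0⟩ : s34m_Vzero G φ M q hq hqM) =
          ⟨heckeBetaBar K₀ M q b₀, s34m_beta_mem_Vzero G φ M q hq hqM hb₀.1⟩ +
            ⟨s34m_unif G (M * q), s34m_unif_mem_VV G φ M q hq hqM false⟩ * ⟨zb, hzb0⟩ := by
        apply Subtype.ext
        show b' = heckeBetaBar K₀ M q b₀ + s34m_unif G (M * q) * zb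
        rw [← eb]; ring
      rw [e1, map_add, map_mul, hϖ0, zero_mul, add_zero]
      exact s34m_redZero_beta G φ M q hq hqM ⟨b₀, hb₀.1⟩
    have hredc : s34m_redZero G φ M q hq hqM ⟨c', hc'0⟩ = s34m_redInf G M ⟨c₀, hc₀.1⟩ := by
      have e1 : (⟨c', hc'0⟩ : s34m_Vzero G φ M q hq hqM) =
          ⟨heckeBetaBar K₀ M q c₀, s34m_beta_mem_Vzero G φ M q hq hqM hc₀.1⟩ +
            ⟨s34m_unif G (M * q), s34m_unif_mem_VV G φ M q hq hqM false⟩ * ⟨zc, hzc0⟩ := by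
        apply Subtype.ext
        show c' = heckeBetaBar K₀ M q c₀ + s34m_unif G (M * q) * zc
        rw [← ec]; ring
      rw [e1, map_add, map_mul, hϖ0, zero_mul, add_zero]
      exact s34m_redZero_beta G φ M q hq hqM ⟨c₀, hc₀.1⟩
    have e' := congrArg (fun z : ↥(modularFunctionFieldFullC κ M) => (z : LaurentSeries κ)) e
    have hc0' : s34m_redInf G M ⟨c₀, hc₀.1⟩ ≠ 0 := by
      intro h
      apply hc0
      exact Subtype.ext h
    obtain ⟨h1, h2⟩ := s36q_frac1_of_red (s34m_Vzero G φ M q hq hqM)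
      (s34m_redZero G φ M q hq hqM) (s36b_redZero_eq_zero_iff G φ M q hq hqM)
      ⟨x, hx0⟩ ⟨c', hc'0⟩ ⟨b', hb'0⟩ (by rw [hredc]; exact hc0')
      (by rw [hredc, hredb, hr₀]; exact e')
    exact ⟨⟨b', hb'B⟩, ⟨c', hc'B⟩, h1,
      s36q_frac1_shift (s34m_Vzero G φ M q hq hqM) hxr hc'0 h2⟩
  · -- the component `V'_∞`, along `α`
    have hxI : x ∈ s34m_Vinf G (M * q) := hxO true
    obtain ⟨r₀, hr₀⟩ := s36q_resInf G φ M q hq hqM hdeg hT hdegM hπ x hxO2 hxI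
    obtain ⟨b₀, c₀, hb₀, hc₀, hc0, e⟩ := s36q_frac_levelM G M q hq hT hdegM w hwV hcoord hmain
      (s18g_redF G M hFM hT hdegM r₀)
    have hbB := hαB b₀ hb₀
    have hcB := hαB c₀ hc₀
    have hbI : heckeAlphaBar K₀ M q b₀ ∈ s34m_Vinf G (M * q) :=
      s34m_alpha_mem_Vinf G M q hb₀.1
    have hcI : heckeAlphaBar K₀ M q c₀ ∈ s34m_Vinf G (M * q) :=
      s34m_alpha_mem_Vinf G M q hc₀.1
    have hredb : s34m_redInf G (M * q) ⟨_, hbI⟩ = s34m_redInf G M ⟨b₀, hb₀.1⟩ :=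
      s34m_redInf_alpha G M q ⟨b₀, hb₀.1⟩
    have hredc : s34m_redInf G (M * q) ⟨_, hcI⟩ = s34m_redInf G M ⟨c₀, hc₀.1⟩ :=
      s34m_redInf_alpha G M q ⟨c₀, hc₀.1⟩
    have e' := congrArg (fun z : ↥(modularFunctionFieldFullC κ M) => (z : LaurentSeries κ)) e
    have hc0' : s34m_redInf G M ⟨c₀, hc₀.1⟩ ≠ 0 := by
      intro h
      apply hc0
      exact Subtype.ext h
    obtain ⟨h1, h2⟩ := s36q_frac1_of_red (s34m_Vinf G (M * q))
      (s34m_redInf G (M * q)) (s36w_redInf_eq_zero_iff G (M * q))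
      ⟨x, hxI⟩ ⟨_, hcI⟩ ⟨_, hbI⟩ (by rw [hredc]; exact hc0')
      (by rw [hredc, hredb, hr₀]; exact e')
    exact ⟨⟨_, hbB⟩, ⟨_, hcB⟩, h1,
      s36q_frac1_shift (s34m_Vinf G (M * q)) hxr hcI h2⟩

end Conc

end Fermat.Agent.Lib.S36
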