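/-
S36 mega-project, layer (R2) (helper5), part 23: **(K1) the hypothesis `H3` of helper4's
`s36r_thick_abs`, chart-frame half** (for (R-q), board #1808).

`y ∈ 𝓕` lying in all components, a non-unit of a component `j` through `𝔫`, regular at every place of
the chart through `𝔫`.  Then `y ∈ 𝔫 B_𝔫`: there are `a ∈ 𝔫`, `b ∉ 𝔫` in the chart ring with `a = b y`.
Consequently, for every ring homomorphism `r : O i → L` and every `k, e ∈ L` with `r y * k = e`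
(e.g. `y = 1/Θ`, `k = (θ τ̄₂)^q`, `e = θ t̄`): `k * r a = e * r b`, which is `H3`.
-/
import Fermat.Agent.Lib.S36.QMem

set_option autoImplicit false

noncomputable section

namespace Fermat.Agent.Lib.S36

open AlgebraicCurve Fermat.Agent.Lib.FF Fermat.Agent.Lib.S18 Fermat.Agent.Lib.S34 IsLocalRing

variable {L₀ 𝓕 : Type*} [Field L₀] [Field 𝓕] [Algebra L₀ 𝓕]
variable {ι : Type*} [Fintype ι] (O : ι → ValuationSubring 𝓕) (S : Set (Place L₀ 𝓕))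
  (𝔫 : Ideal (s34x_ring (s34x_infRing O) S)) [h𝔫 : 𝔫.IsPrime]

/-- **(K1)** an element of all components, vanishing on a component through `𝔫` and regular at the
places through `𝔫`, lies in `𝔫 B_𝔫`. -/
theorem s36q_mem_max_of_vanish (hA : s36q_Arch O) (y : 𝓕) (hO : ∀ i, y ∈ O i) (j : ι)
    (hj : s36q_compThrough O S 𝔫 j) (hyj : y ∈ (O j).nonunits)
    (hpl : ∀ Q ∈ S, s34f_through (s34x_infRing O) S 𝔫 Q → 0 ≤ Q.ord y)
    (hfin : {Q : Place L₀ 𝓕 | Q ∈ S ∧ Q.ord y < 0}.Finite) :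
    ∃ a ∈ 𝔫, ∃ b : s34x_ring (s34x_infRing O) S, b ∉ 𝔫 ∧ (a : 𝓕) = (b : 𝓕) * y := by
  obtain ⟨s, hs𝔫, hsy⟩ := s36q_mem_local O S 𝔫 hA y (fun i _ => hO i) hpl hfin
  refine ⟨⟨_, hsy⟩, ?_, s, hs𝔫, rfl⟩
  apply hj
  show (s : 𝓕) * y ∈ (O j).nonunits
  have hsO : (s : 𝓕) ∈ O j := (s34x_mem_infRing O _).mp s.2.1 j
  rw [(O j).mem_nonunits_iff] at hyj ⊢
  rw [map_mul]
  have h3 : (O j).valuation (s : 𝓕) ≤ 1 := ((O j).valuation_le_one_iff _).mpr hsO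
  calc _ ≤ 1 * (O j).valuation y := by gcongr
    _ < 1 := by rw [one_mul]; exact hyj

/-- **`H3` of `s36r_thick_abs`** from (K1): `r` a reduction map on the component `i`, `r y * k = e`. -/
theorem s36q_H3_of_vanish (hA : s36q_Arch O) (y : 𝓕) (hO : ∀ i, y ∈ O i) (j : ι)
    (hj : s36q_compThrough O S 𝔫 j) (hyj : y ∈ (O j).nonunits)
    (hpl : ∀ Q ∈ S, s34f_through (s34x_infRing O) S 𝔫 Q → 0 ≤ Q.ord y)
    (hfin : {Q : Place L₀ 𝓕 | Q ∈ S ∧ Q.ord y < 0}.Finite)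
    (i : ι) {L : Type*} [CommRing L] (r : O i →+* L) (k e : L)
    (hred : r ⟨y, hO i⟩ * k = e) :
    ∃ a ∈ 𝔫, ∃ b : s34x_ring (s34x_infRing O) S, b ∉ 𝔫 ∧
      k * r ⟨(a : 𝓕), (s34x_mem_infRing O _).mp a.2.1 i⟩ =
        e * r ⟨(b : 𝓕), (s34x_mem_infRing O _).mp b.2.1 i⟩ := by
  obtain ⟨a, ha, b, hb, hab⟩ := s36q_mem_max_of_vanish O S 𝔫 hA y hO j hj hyj hpl hfin
  refine ⟨a, ha, b, hb, ?_⟩
  have e1 : (⟨(a : 𝓕), (s34x_mem_infRing O _).mp a.2.1 i⟩ : O i) =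
      ⟨(b : 𝓕), (s34x_mem_infRing O _).mp b.2.1 i⟩ * ⟨y, hO i⟩ := Subtype.ext hab
  rw [e1, map_mul, ← hred]
  ring

end Fermat.Agent.Lib.S36
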