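/-
S36 mega-project, layer (R-q) (helper5, prefix `s36q_`), piece (K4), part 1: **THE CROSSING POINTS OF
LEVEL `M q` ARE REGULAR — local assembly.**

At a prime `𝔫` of the chart ring `B` of a chart `S` of level `M q` through which both components pass,
the (K3) contract `s36q_K3Data` (maximality, a level-`M` chart ring `B_M` with `α(B_M), β(B_M) ⊆ B`,
helper8's node data `s36k_node_data`, the level-`M` point `𝔪_β` with its local coordinate in element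
form, non-cuspidality) gives helper4's `s36q_fi_RegAt` (`𝔪 = (u, w)`, `u w = ϖ · unit`) through

* helper4's `s36r_thick_abs` (thickness one, abstract), `s36r_invTheta` (the function `1/Θ`),
  `s36r_red_theta_A` (`H2`);
* helper2's (K2) `s36e_hk_ratio_regular` (regularity of `1/Θ` at the horizontal places);
* (K1) `s36q_H3_of_vanish` (`QThickH3.lean`).
-/
import Fermat.Agent.Lib.S36.RThickAbs
import Fermat.Agent.Lib.S36.RTheta
import Fermat.Agent.Lib.S36.RHorizK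
import Fermat.Agent.Lib.S36.QThickH3
import Fermat.Agent.Lib.S36.QFibInst
import Fermat.Agent.Lib.S36.REisPt
import Fermat.Agent.Lib.S35.MPoly

set_option autoImplicit false
set_option linter.unusedSectionVars false
set_option linter.style.haveILetI false
set_option synthInstance.maxHeartbeats 400000

noncomputable section

namespace Fermat.Agent.Lib.S36

open ModularCurve AlgebraicCurve HahnSeries Polynomial KaehlerDifferential
  Fermat.Agent.Lib.FF Fermat.Agent.Lib.S18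
  Fermat.Agent.Lib.S37 Fermat.Agent.Lib.S34 Fermat.Agent.Lib.S35

local notation "Kb" => AlgebraicClosure ℚ

variable {K₀ : Type} [Field K₀] [CharZero K₀] [Algebra ℚ K₀] {κ : Type} [Field κ]
  (G : s18g_GaussData K₀ κ) (φ : K₀ →+* Kb) (M q : ℕ) [NeZero M] [NeZero q]
  (hq : q.Prime) (hqM : ¬ q ∣ M)

/-- **The (K3) contract at a prime `𝔫` of the chart ring of the chart `S` of level `M q`.** -/
def s36q_K3Data [IsDiscreteValuationRing G.A] (S : Set (Place K₀ (s34m_F K₀ (M * q))))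
    (𝔫 : Ideal (s34x_ring (s34x_infRing (s34m_VV G φ M q hq hqM)) S)) : Prop :=
  𝔫.IsMaximal ∧
  ∃ (wM : s34m_F K₀ M) (_ : FFGen K₀ wM) (_ : wM ∈ s34m_Vinf G M)
    (_ : ∀ y ∈ s34m_Vinf G M, ∃ s : G.A[X], s.map G.π ≠ 0 ∧
      (s18b_ev G _ wM).IsIntegralElem (s18b_ev G _ wM s * y))
    (hαB : ∀ g ∈ (s18_ring (L₀ := K₀) (s34m_Vinf G M) (s18_chart1 wM) : Set (s34m_F K₀ M)),
      heckeAlphaBar K₀ M q g ∈ s34x_ring (s34x_infRing (s34m_VV G φ M q hq hqM)) S)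
    (hβB : ∀ g ∈ (s18_ring (L₀ := K₀) (s34m_Vinf G M) (s18_chart1 wM) : Set (s34m_F K₀ M)),
      heckeBetaBar K₀ M q g ∈ s34x_ring (s34x_infRing (s34m_VV G φ M q hq hqM)) S),
    (∀ Q ∈ S, s34f_through (s34x_infRing (s34m_VV G φ M q hq hqM)) S 𝔫 Q →
      0 ≤ Q.ord (heckeBetaBar K₀ M q (s18g_jF (K := K₀) M))) ∧
    (∃ (g : s34m_F K₀ M)
      (hg : g ∈ (s18_ring (L₀ := K₀) (s34m_Vinf G M) (s18_chart1 wM) : Set (s34m_F K₀ M))),
      ffd_theta (s34m_redInf G M ⟨g, hg.1⟩) ≠ 0) ∧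
    ∃ (g₀ g₁ g₀' g₁' : s34m_F K₀ M)
      (hg₀ : g₀ ∈ (s18_ring (L₀ := K₀) (s34m_Vinf G M) (s18_chart1 wM) : Set (s34m_F K₀ M)))
      (hg₁ : g₁ ∈ (s18_ring (L₀ := K₀) (s34m_Vinf G M) (s18_chart1 wM) : Set (s34m_F K₀ M)))
      (hg₀' : g₀' ∈ (s18_ring (L₀ := K₀) (s34m_Vinf G M) (s18_chart1 wM) : Set (s34m_F K₀ M)))
      (hg₁' : g₁' ∈ (s18_ring (L₀ := K₀) (s34m_Vinf G M) (s18_chart1 wM) : Set (s34m_F K₀ M))),
      s34d_LocGenAt (s34df_r1 G φ M q hq hqM S) 𝔫 ⟨_, hαB g₀ hg₀⟩ ∧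
      qExpand κ q (s34m_redInf G M ⟨g₀, hg₀.1⟩) = s34m_redInf G M ⟨g₁, hg₁.1⟩ ^ q ∧
      s34d_LocGenAt (s34df_r2 G φ M q hq hqM S) 𝔫 ⟨_, hβB g₀' hg₀'⟩ ∧
      qExpand κ q (s34m_redInf G M ⟨g₀', hg₀'.1⟩) = s34m_redInf G M ⟨g₁', hg₁'.1⟩ ^ q ∧
      ∃ (𝔪 : Ideal (s18_ring (L₀ := K₀) (s34m_Vinf G M) (s18_chart1 wM))) (_ : 𝔪.IsMaximal)
        (ϖB : s18_ring (L₀ := K₀) (s34m_Vinf G M) (s18_chart1 wM)),
        (ϖB : s34m_F K₀ M) = algebraMap K₀ (s34m_F K₀ M) ((G.ϖ : G.A) : K₀) ∧ ϖB ∈ 𝔪 ∧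
        (⟨g₀', hg₀'⟩ : s18_ring (L₀ := K₀) (s34m_Vinf G M) (s18_chart1 wM)) ∈ 𝔪 ∧
        (∀ y ∈ 𝔪, ∃ c, c ∉ 𝔪 ∧ ∃ z b, c * y = z * ⟨g₀', hg₀'⟩ + b * ϖB) ∧
        ∀ (g : s34m_F K₀ M)
          (hg : g ∈ (s18_ring (L₀ := K₀) (s34m_Vinf G M) (s18_chart1 wM) : Set (s34m_F K₀ M))),
          (⟨_, hβB g hg⟩ : s34x_ring (s34x_infRing (s34m_VV G φ M q hq hqM)) S) ∈ 𝔫 →
            (⟨g, hg⟩ : s18_ring (L₀ := K₀) (s34m_Vinf G M) (s18_chart1 wM)) ∈ 𝔪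

variable [CharP κ q] [PerfectField κ] [IsDiscreteValuationRing G.A]

/-- membership in a place gives non-negative order (also for `0`). -/
theorem s36q_ord_nonneg_of_mem {L₀ 𝓕 : Type*} [Field L₀] [Field 𝓕] [Algebra L₀ 𝓕]
    (Q : Place L₀ 𝓕) {y : 𝓕} (hy : y ∈ Q.toValuationSubring) : 0 ≤ Q.ord y := by
  rcases eq_or_ne y 0 with rfl | h0
  · rw [Q.ord_zero]
  · exact (ff_mem_iff_ord_nonneg Q h0).mp hy

/-- `θ` kills the constants of `κ((T))`. -/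
theorem s36q_theta_C (c : κ) : ffd_theta (HahnSeries.C c : LaurentSeries κ) = 0 := by
  ext n
  rw [ffd_theta_coeff, HahnSeries.coeff_zero]
  by_cases h : n = 0
  · rw [h, Int.cast_zero, zero_mul]
  · have h0 : (HahnSeries.C c : LaurentSeries κ).coeff n = 0 := by
      rw [HahnSeries.C_apply, HahnSeries.coeff_single_of_ne h]
    rw [h0, mul_zero]

/-- a derivation of a field as a `ℤ`-derivation (with the canonical `ℤ`-algebra structure). -/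
def s36q_derivZ {L : Type*} [Field L] (d : L →+ L) (h1 : d 1 = 0)
    (hmul : ∀ a b, d (a * b) = a * d b + b * d a) : Derivation ℤ L L where
  toFun := d
  map_add' := d.map_add
  map_smul' c f := by
    have h0 : d ((c : ℤ) : L) = 0 := by
      rw [← zsmul_one c, map_zsmul, h1, smul_zero]
    rw [Algebra.smul_def, RingHom.id_apply, zsmul_eq_mul, eq_intCast]
    show d (_ * f) = _
    rw [hmul, h0, mul_zero, add_zero]
  map_one_eq_zero' := h1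
  leibniz' f g := by
    show d (f * g) = f • d g + g • d f
    rw [hmul, smul_eq_mul, smul_eq_mul]

/-- `θ` as a `ℤ`-derivation of the field `κ((T))`. -/
def s36q_thetaZ (κ : Type*) [Field κ] :=
  s36q_derivZ (L := LaurentSeries κ) (ffd_thetaDeriv (K := κ)).toLinearMap.toAddMonoidHom
    (ffd_thetaDeriv (K := κ)).map_one_eq_zero (fun a b => ffd_theta_mul a b)

theorem s36q_thetaZ_apply {κ : Type*} [Field κ] (f : LaurentSeries κ) :
    s36q_thetaZ κ f = ffd_theta f := rfl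

/-- **`Ā`, `hA` and `H2` of `s36r_thick_abs`** for `w = β g₀' - (α g₁')^q` with `r₁ w = 0`
(uniformiser `q`). -/
theorem s36q_node_H2 (hϖq : ((G.ϖ : G.A) : K₀) = (q : K₀))
    (S : Set (Place K₀ (s34m_F K₀ (M * q))))
    (g₀' g₁' : s34m_F K₀ M) (hg₀' : g₀' ∈ s34m_Vinf G M) (hg₁' : g₁' ∈ s34m_Vinf G M)
    (htw₂ : qExpand κ q (s34m_redInf G M ⟨g₀', hg₀'⟩) = s34m_redInf G M ⟨g₁', hg₁'⟩ ^ q)
    (w : s34x_ring (s34x_infRing (s34m_VV G φ M q hq hqM)) S)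
    (hw : (w : s34m_F K₀ (M * q)) = heckeBetaBar K₀ M q g₀' - heckeAlphaBar K₀ M q g₁' ^ q)
    (hw₁ : s34df_r1 G φ M q hq hqM S w = 0) :
    ∃ Abar : LaurentSeries κ,
      (∀ u β₀ : s34x_ring (s34x_infRing (s34m_VV G φ M q hq hqM)) S,
        u * w = s35gd_unifB G φ M q hq hqM S * β₀ →
        s34df_r1 G φ M q hq hqM S β₀ = s34df_r1 G φ M q hq hqM S u * Abar) ∧
      ffd_theta Abar = ffd_theta (s34m_redInf G M ⟨g₁', hg₁'⟩) ^ q -
        s34m_redInf G M ⟨g₁', hg₁'⟩ ^ (q - 1) * ffd_theta (s34m_redInf G M ⟨g₁', hg₁'⟩) := by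
  haveI : Fact q.Prime := ⟨hq⟩
  have hFr : coeffMap ((frobeniusEquiv κ q).symm : κ →+* κ) (s34m_redInf G M ⟨g₀', hg₀'⟩) =
      s34m_redInf G M ⟨g₁', hg₁'⟩ := by
    have h := htw₂
    rw [s37e_qExpand_eq_pow q] at h
    haveI : CharP (LaurentSeries κ) q :=
      (RingHom.charP_iff (HahnSeries.C : κ →+* LaurentSeries κ) HahnSeries.C_injective q).mp
        inferInstance
    exact frobenius_inj (LaurentSeries κ) q h
  rw [s34df_r1_apply, s34m_redInf_eq_zero_iff] at hw₁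
  obtain ⟨z, hz, e⟩ := hw₁
  have e' : (w : s34m_F K₀ (M * q)) = s34m_unif G (M * q) * z := e
  refine ⟨s34m_redInf G (M * q) ⟨z, hz⟩, ?_, ?_⟩
  · intro u β₀ huw
    have h1 : (u : s34m_F K₀ (M * q)) * (w : s34m_F K₀ (M * q)) =
        s34m_unif G (M * q) * (β₀ : s34m_F K₀ (M * q)) := by
      have := congrArg (fun b : s34x_ring (s34x_infRing (s34m_VV G φ M q hq hqM)) S =>
        (b : s34m_F K₀ (M * q))) huw
      simpa only [Subring.coe_mul, s35gd_coe_unifB] using this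
    have h2 : (β₀ : s34m_F K₀ (M * q)) = (u : s34m_F K₀ (M * q)) * z := by
      apply mul_left_cancel₀ (s34m_unif_ne_zero G (M * q))
      rw [← h1, e']
      ring
    have huV : (u : s34m_F K₀ (M * q)) ∈ s34m_Vinf G (M * q) :=
      ((s34df_mem_O_iff G φ M q hq hqM _).mp u.2.1).1
    rw [s34df_r1_eq G φ M q hq hqM S β₀ _ ((s34m_Vinf G (M * q)).mul_mem _ _ huV hz) h2,
      s34df_r1_apply, ← map_mul]
    rfl
  · -- the series identity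
    have hser : ((q : ℕ) : LaurentSeries K₀) * ((z : s34m_F K₀ (M * q)) : LaurentSeries K₀) =
        qExpand K₀ q ((g₀' : s34m_F K₀ M) : LaurentSeries K₀) -
          ((g₁' : s34m_F K₀ M) : LaurentSeries K₀) ^ q := by
      have h3 := congrArg (fun y : s34m_F K₀ (M * q) => (y : LaurentSeries K₀)) (hw.symm.trans e')
      simp only [AddSubgroupClass.coe_sub, SubmonoidClass.coe_pow, MulMemClass.coe_mul,
        coe_heckeBetaBar, coe_heckeAlphaBar, s34m_coe_unif] at h3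
      rw [h3, hϖq, map_natCast]
    have key := s36r_red_theta_A G q ⟨_, hz⟩ ⟨_, hg₀'⟩ ⟨_, hg₁'⟩ hser
    rw [s36r_theta_qExpand_char q] at key
    have e1 : s18g_red G ⟨((g₀' : s34m_F K₀ M) : LaurentSeries K₀), hg₀'⟩ =
        s34m_redInf G M ⟨g₀', hg₀'⟩ := rfl
    have e2 : s18g_red G ⟨((g₁' : s34m_F K₀ M) : LaurentSeries K₀), hg₁'⟩ =
        s34m_redInf G M ⟨g₁', hg₁'⟩ := rfl
    have e3 : s18g_red G ⟨((z : s34m_F K₀ (M * q)) : LaurentSeries K₀), hz⟩ =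
        s34m_redInf G (M * q) ⟨z, hz⟩ := rfl
    rw [e1, e2, e3, hFr] at key
    exact key

set_option maxHeartbeats 400000 in
/-- **`H3` of `s36r_thick_abs`** at a crossing point: from `s36r_invTheta` (the function `1/Θ`), (K2)
(regularity of `1/Θ` at the horizontal places through the point) and (K1). -/
theorem s36q_node_H3 (hπ : Function.Surjective G.π)
    (hϖq : ((G.ϖ : G.A) : K₀) = (q : K₀)) (h2 : nuTwo M = 0) (h3 : nuThree M = 0)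
    (w₁ : s34m_F K₀ (M * q)) [FFGen K₀ w₁]
    (𝔫 : Ideal (s34x_ring (s34x_infRing (s34m_VV G φ M q hq hqM)) (s18_chart1 (L₀ := K₀) w₁)))
    [h𝔫 : 𝔫.IsPrime]
    (hk2 : RingHom.ker (s34df_r2 G φ M q hq hqM (s18_chart1 (L₀ := K₀) w₁)) ≤ 𝔫)
    (wM : s34m_F K₀ M) [FFGen K₀ wM] (hwV : wM ∈ s34m_Vinf G M)
    (hαM : ∀ y ∈ s34m_Vinf G M, ∃ s : G.A[X], s.map G.π ≠ 0 ∧
      (s18b_ev G _ wM).IsIntegralElem (s18b_ev G _ wM s * y))
    (hαB : ∀ g ∈ (s18_ring (L₀ := K₀) (s34m_Vinf G M) (s18_chart1 wM) : Set (s34m_F K₀ M)),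
      heckeAlphaBar K₀ M q g ∈ s34x_ring (s34x_infRing (s34m_VV G φ M q hq hqM))
        (s18_chart1 (L₀ := K₀) w₁))
    (hβB : ∀ g ∈ (s18_ring (L₀ := K₀) (s34m_Vinf G M) (s18_chart1 wM) : Set (s34m_F K₀ M)),
      heckeBetaBar K₀ M q g ∈ s34x_ring (s34x_infRing (s34m_VV G φ M q hq hqM))
        (s18_chart1 (L₀ := K₀) w₁))
    (hjβ : ∀ Q ∈ s18_chart1 (L₀ := K₀) w₁,
      s34f_through (s34x_infRing (s34m_VV G φ M q hq hqM)) (s18_chart1 (L₀ := K₀) w₁) 𝔫 Q →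
      0 ≤ Q.ord (heckeBetaBar K₀ M q (s18g_jF (K := K₀) M)))
    (g₀ g₀' : s34m_F K₀ M)
    (hg₀ : g₀ ∈ (s18_ring (L₀ := K₀) (s34m_Vinf G M) (s18_chart1 wM) : Set (s34m_F K₀ M)))
    (hg₀' : g₀' ∈ (s18_ring (L₀ := K₀) (s34m_Vinf G M) (s18_chart1 wM) : Set (s34m_F K₀ M)))
    (hθ₂ : ffd_theta (s34m_redInf G M ⟨g₀', hg₀'.1⟩) ≠ 0)
    (𝔪 : Ideal (s18_ring (L₀ := K₀) (s34m_Vinf G M) (s18_chart1 wM))) [𝔪.IsMaximal]
    (ϖM : s18_ring (L₀ := K₀) (s34m_Vinf G M) (s18_chart1 wM))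
    (hϖM : (ϖM : s34m_F K₀ M) = algebraMap K₀ (s34m_F K₀ M) ((G.ϖ : G.A) : K₀))
    (hϖ𝔪 : ϖM ∈ 𝔪)
    (ht𝔪 : (⟨g₀', hg₀'⟩ : s18_ring (L₀ := K₀) (s34m_Vinf G M) (s18_chart1 wM)) ∈ 𝔪)
    (ht : ∀ y ∈ 𝔪, ∃ c, c ∉ 𝔪 ∧ ∃ z b, c * y = z * ⟨g₀', hg₀'⟩ + b * ϖM)
    (hcomap : ∀ (g : s34m_F K₀ M)
      (hg : g ∈ (s18_ring (L₀ := K₀) (s34m_Vinf G M) (s18_chart1 wM) : Set (s34m_F K₀ M))),
      (⟨_, hβB g hg⟩ : s34x_ring (s34x_infRing (s34m_VV G φ M q hq hqM))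
        (s18_chart1 (L₀ := K₀) w₁)) ∈ 𝔫 →
      (⟨g, hg⟩ : s18_ring (L₀ := K₀) (s34m_Vinf G M) (s18_chart1 wM)) ∈ 𝔪) :
    ∃ a ∈ 𝔫, ∃ b : s34x_ring (s34x_infRing (s34m_VV G φ M q hq hqM)) (s18_chart1 (L₀ := K₀) w₁),
      b ∉ 𝔫 ∧
      qExpand κ q (ffd_theta (s34m_redInf G M ⟨g₀', hg₀'.1⟩)) *
          s34df_r1 G φ M q hq hqM (s18_chart1 (L₀ := K₀) w₁) a =
        ffd_theta (s34m_redInf G M ⟨g₀, hg₀.1⟩) *
          s34df_r1 G φ M q hq hqM (s18_chart1 (L₀ := K₀) w₁) b := by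
  classical
  haveI : Fact q.Prime := ⟨hq⟩
  -- `π q = 0`
  have hπq : G.π ((q : ℕ) : G.A) = 0 := by
    have e : ((q : ℕ) : G.A) = G.ϖ := Subtype.ext (by rw [hϖq]; simp)
    rw [e, s18g_pi_unif]
  obtain ⟨c, hc, ⟨hy, e1⟩, ⟨hy0, e2⟩⟩ :=
    s36r_invTheta G φ M q hq hqM hπq w₁ g₀ g₀' hg₀.1 hg₀'.1 hθ₂
  generalize hydef : ((q : ℕ) : s34m_F K₀ (M * q)) * c = y at hy e1 hy0 e2
  -- `y` lies in both components and is a non-unit of `V'_0`
  have hyZ : y ∈ s34m_Vzero G φ M q hq hqM := (s34m_mem_Vzero G φ M q hq hqM y).mpr hy0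
  have hO : ∀ i, y ∈ s34m_VV G φ M q hq hqM i := by
    intro i
    cases i
    · exact hyZ
    · exact hy
  have hyj : y ∈ (s34m_VV G φ M q hq hqM false).nonunits := by
    have h0 : s34m_redZero G φ M q hq hqM ⟨y, hyZ⟩ = 0 := e2
    obtain ⟨z, hz, ez⟩ := (s34m_redZero_eq_zero_iff G φ M q hq hqM ⟨y, hyZ⟩).mp h0
    exact (s36e_mem_nonunits_VV_iff G φ M q hq hqM false y hyZ).mpr ⟨z, hz, ez⟩
  -- the component `V'_0` passes through `𝔫`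
  have hj : s36q_compThrough (s34m_VV G φ M q hq hqM) (s18_chart1 (L₀ := K₀) w₁) 𝔫 false := by
    intro b hb
    apply hk2
    rw [RingHom.mem_ker, s35gd_r2_eq_zero_iff]
    exact (s36e_mem_nonunits_VV_iff G φ M q hq hqM false _
      ((s34df_mem_O_iff G φ M q hq hqM _).mp b.2.1).2).mp hb
  -- regularity at the horizontal places through `𝔫` (K2)
  have hqF : ((q : ℕ) : s34m_F K₀ (M * q)) = algebraMap K₀ (s34m_F K₀ (M * q)) ((q : ℕ) : K₀) :=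
    (map_natCast _ q).symm
  have hpl : ∀ Q ∈ s18_chart1 (L₀ := K₀) w₁,
      s34f_through (s34x_infRing (s34m_VV G φ M q hq hqM)) (s18_chart1 (L₀ := K₀) w₁) 𝔫 Q →
      0 ≤ Q.ord y := by
    intro Q hQ hthr
    have hc0 : 0 ≤ Q.ord c := by
      refine s36e_hk_ratio_regular φ G M wM q hq hqM h2 h3 hπ hwV hαM 𝔪 ϖM ⟨g₀', hg₀'⟩ hϖM hϖ𝔪
        ht𝔪 ht Q (hjβ Q hQ hthr) ?_ ?_ (heckeAlphaBar K₀ M q g₀) c ?_ hc
      · intro g
        exact s36q_ord_nonneg_of_mem Q ((hβB g g.2).2 Q hQ)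
      · intro g hpos
        have hne : heckeBetaBar K₀ M q (g : s34m_F K₀ M) ≠ 0 := by
          intro h0
          rw [h0, Q.ord_zero] at hpos
          exact lt_irrefl _ hpos
        exact hcomap g g.2 (hthr ⟨_, hβB g g.2⟩ hne hpos)
      · exact s36q_ord_nonneg_of_mem Q ((hαB g₀ hg₀).2 Q hQ)
    rcases eq_or_ne c 0 with rfl | hcne
    · rw [← hydef, mul_zero, Q.ord_zero]
    · have hq0 : ((q : ℕ) : s34m_F K₀ (M * q)) ≠ 0 := by exact_mod_cast NeZero.ne q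
      rw [← hydef, Q.ord_mul hq0 hcne, hqF, ff_ord_algebraMap, zero_add]
      exact hc0
  -- finitely many poles
  have hfin : {Q : Place K₀ (s34m_F K₀ (M * q)) |
      Q ∈ s18_chart1 (L₀ := K₀) w₁ ∧ Q.ord y < 0}.Finite := by
    rcases eq_or_ne y 0 with h0 | h0
    · refine Set.Finite.subset Set.finite_empty ?_
      rintro Q ⟨-, hlt⟩
      rw [h0, Q.ord_zero] at hlt
      exact absurd hlt (lt_irrefl _)
    · exact (s18f_finite_ord_ne_zero w₁ h0).subset fun Q hQ => ⟨hQ.1, ne_of_lt hQ.2⟩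
  -- (K1)
  obtain ⟨a, ha, b, hb, hab⟩ := s36q_H3_of_vanish (s34m_VV G φ M q hq hqM)
    (s18_chart1 (L₀ := K₀) w₁) 𝔫 (s36e_arch_VV G φ M q hq hqM) y hO false hj hyj hpl hfin true
    (s35m_redVV G φ M q hq hqM true)
    (qExpand κ q (ffd_theta (s34m_redInf G M ⟨g₀', hg₀'.1⟩)))
    (ffd_theta (s34m_redInf G M ⟨g₀, hg₀.1⟩)) e1
  exact ⟨a, ha, b, hb, hab⟩

end Fermat.Agent.Lib.S36
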