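/-
S36 mega-project, layer (R-q) (helper5, prefix `s36q_`), piece (K4), part 2: the local assembly
`s36q_regAt_of_K3` and the leaf `s36g_LeafCross`.
-/
import Fermat.Agent.Lib.S36.QLeafNode
import Fermat.Agent.Lib.S36.GInGeo

set_option autoImplicit false
set_option linter.unusedSectionVars false
set_option linter.style.haveILetI false
set_option synthInstance.maxHeartbeats 400000

noncomputable section

namespace Fermat.Agent.Lib.S36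

open ModularCurve AlgebraicCurve HahnSeries Polynomial KaehlerDifferential
  Fermat.Agent.Lib.FF Fermat.Agent.Lib.S18
  Fermat.Agent.Lib.S37 Fermat.Agent.Lib.S34 Fermat.Agent.Lib.S35

local notation "Kb" => AlgebraicClosure ℚ

variable {K₀ : Type} [Field K₀] [CharZero K₀] [Algebra ℚ K₀] {κ : Type} [Field κ]
  (G : s18g_GaussData K₀ κ) (φ : K₀ →+* Kb) (M q : ℕ) [NeZero M] [NeZero q]
  (hq : q.Prime) (hqM : ¬ q ∣ M)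

variable [CharP κ q] [PerfectField κ] [IsDiscreteValuationRing G.A]

set_option maxHeartbeats 1000000 in
/-- **(K4), local form**: the (K3) contract at a crossing point gives helper4's `s36q_fi_RegAt`. -/
theorem s36q_regAt_of_K3 (hπ : Function.Surjective G.π)
    (hϖq : ((G.ϖ : G.A) : K₀) = (q : K₀)) (h2 : nuTwo M = 0) (h3 : nuThree M = 0)
    (w₁ : s34m_F K₀ (M * q)) (hB : s35g_BaseData G φ M q hq hqM w₁)
    (𝔫 : Ideal (s34x_ring (s34x_infRing (s34m_VV G φ M q hq hqM)) (s18_chart1 (L₀ := K₀) w₁)))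
    [h𝔫 : 𝔫.IsPrime]
    (hk1 : RingHom.ker (s34df_r1 G φ M q hq hqM (s18_chart1 (L₀ := K₀) w₁)) ≤ 𝔫)
    (hk2 : RingHom.ker (s34df_r2 G φ M q hq hqM (s18_chart1 (L₀ := K₀) w₁)) ≤ 𝔫)
    (hK3 : s36q_K3Data G φ M q hq hqM (s18_chart1 (L₀ := K₀) w₁) 𝔫) :
    s36q_fi_RegAt G φ M q hq hqM (s18_chart1 (L₀ := K₀) w₁) 𝔫 := by
  classical
  haveI : Fact q.Prime := ⟨hq⟩
  obtain ⟨hmax, wM, hgenM, hwV, hαM, hαB, hβB, hjβ, ⟨gθ, hgθ, hθne⟩, g₀, g₁, g₀', g₁', hg₀, hg₁,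
    hg₀', hg₁', hU, htw₁, hW, htw₂, 𝔪, h𝔪, ϖM, hϖM, hϖ𝔪, ht𝔪, ht, hcomap⟩ := hK3
  haveI := hmax
  haveI := hgenM
  haveI := h𝔪
  haveI : FFGen K₀ w₁ := hB.2.1
  letI algB : Algebra G.A (s34x_ring (s34x_infRing (s34m_VV G φ M q hq hqM))
      (s18_chart1 (L₀ := K₀) w₁)) :=
    (s34f_constHom G.A (s34x_infRing (s34m_VV G φ M q hq hqM))
      (s34x_inf_const_mem (s34m_VV G φ M q hq hqM) G.A (s34c_const_mem_VV G φ M q hq hqM))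
      (s18_chart1 (L₀ := K₀) w₁)).toAlgebra
  haveI hFT : Algebra.FiniteType G.A (s34x_ring (s34x_infRing (s34m_VV G φ M q hq hqM))
      (s18_chart1 (L₀ := K₀) w₁)) := s36e_finiteType_chart1 G φ M q hq hqM w₁ hB
  -- the four reduction formulas
  have hr1α : ∀ g (hg : g ∈ (s18_ring (L₀ := K₀) (s34m_Vinf G M) (s18_chart1 wM) :
      Set (s34m_F K₀ M))), s34df_r1 G φ M q hq hqM (s18_chart1 (L₀ := K₀) w₁) ⟨_, hαB g hg⟩ =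
      s34m_redInf G M ⟨g, hg.1⟩ := fun g hg =>
    (s34df_r1_eq G φ M q hq hqM _ _ _ (s34m_alpha_mem_Vinf G M q hg.1) rfl).trans
      (s34m_redInf_alpha G M q ⟨g, hg.1⟩)
  have hr2α : ∀ g (hg : g ∈ (s18_ring (L₀ := K₀) (s34m_Vinf G M) (s18_chart1 wM) :
      Set (s34m_F K₀ M))), s34df_r2 G φ M q hq hqM (s18_chart1 (L₀ := K₀) w₁) ⟨_, hαB g hg⟩ =
      qExpand κ q (s34m_redInf G M ⟨g, hg.1⟩) := fun g hg =>
    (s34df_r2_eq G φ M q hq hqM _ _ _ (s34m_alpha_mem_Vzero G φ M q hq hqM hg.1) rfl).trans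
      (s34m_redZero_alpha G φ M q hq hqM ⟨g, hg.1⟩)
  have hr1β : ∀ g (hg : g ∈ (s18_ring (L₀ := K₀) (s34m_Vinf G M) (s18_chart1 wM) :
      Set (s34m_F K₀ M))), s34df_r1 G φ M q hq hqM (s18_chart1 (L₀ := K₀) w₁) ⟨_, hβB g hg⟩ =
      qExpand κ q (s34m_redInf G M ⟨g, hg.1⟩) := fun g hg =>
    (s34df_r1_eq G φ M q hq hqM _ _ _ (s34m_beta_mem_Vinf G M q hg.1) rfl).trans
      (s34m_redInf_beta G M q ⟨g, hg.1⟩)
  have hr2β : ∀ g (hg : g ∈ (s18_ring (L₀ := K₀) (s34m_Vinf G M) (s18_chart1 wM) :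
      Set (s34m_F K₀ M))), s34df_r2 G φ M q hq hqM (s18_chart1 (L₀ := K₀) w₁) ⟨_, hβB g hg⟩ =
      s34m_redInf G M ⟨g, hg.1⟩ := fun g hg =>
    (s34df_r2_eq G φ M q hq hqM _ _ _ (s34m_beta_mem_Vzero G φ M q hq hqM hg.1) rfl).trans
      (s34m_redZero_beta G φ M q hq hqM ⟨g, hg.1⟩)
  -- the derivation
  set θ := s36q_thetaZ κ with hθdef
  have hθ : ∀ f, θ f = ffd_theta f := fun _ => rfl
  -- constants
  have hr1A : ∀ a : G.A, s34df_r1 G φ M q hq hqM (s18_chart1 (L₀ := K₀) w₁)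
      (algebraMap G.A _ a) = HahnSeries.C (G.π a) := fun a =>
    (s34df_r1_eq G φ M q hq hqM _ _ _ (s34c_const_mem_VV G φ M q hq hqM true a) rfl).trans
      (s35m_redVV_const G φ M q hq hqM true a)
  have hr2A : ∀ a : G.A, s34df_r2 G φ M q hq hqM (s18_chart1 (L₀ := K₀) w₁)
      (algebraMap G.A _ a) = HahnSeries.C (G.π a) := fun a =>
    (s34df_r2_eq G φ M q hq hqM _ _ _ (s34c_const_mem_VV G φ M q hq hqM false a) rfl).trans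
      (s35m_redVV_const G φ M q hq hqM false a)
  have hθA₁ : ∀ a : G.A, θ (s34df_r1 G φ M q hq hqM (s18_chart1 (L₀ := K₀) w₁)
      (algebraMap G.A _ a)) = 0 := fun a => by rw [hθ, hr1A, s36q_theta_C]
  have hθA₂ : ∀ a : G.A, θ (s34df_r2 G φ M q hq hqM (s18_chart1 (L₀ := K₀) w₁)
      (algebraMap G.A _ a)) = 0 := fun a => by rw [hθ, hr2A, s36q_theta_C]
  have hθq : ∀ x : LaurentSeries κ, θ (x ^ q) = 0 := fun x => by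
    rw [hθ]; exact s36r_theta_pow_char q x
  -- the uniformiser
  have hC0 : (HahnSeries.C (G.π G.ϖ) : LaurentSeries κ) = 0 := by
    rw [s18g_pi_unif, map_zero]
  have hq₁ : s34df_r1 G φ M q hq hqM (s18_chart1 (L₀ := K₀) w₁)
      (s35gd_unifB G φ M q hq hqM (s18_chart1 (L₀ := K₀) w₁)) = 0 :=
    (hr1A G.ϖ).trans hC0
  have hq₂ : s34df_r2 G φ M q hq hqM (s18_chart1 (L₀ := K₀) w₁)
      (s35gd_unifB G φ M q hq hqM (s18_chart1 (L₀ := K₀) w₁)) = 0 :=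
    (hr2A G.ϖ).trans hC0
  have hϖ𝔫 : s35gd_unifB G φ M q hq hqM (s18_chart1 (L₀ := K₀) w₁) ∈ 𝔫 :=
    hk1 ((RingHom.mem_ker).mpr hq₁)
  have hkerπ : ∀ a : G.A, G.π a = 0 → algebraMap G.A (s34x_ring (s34x_infRing
      (s34m_VV G φ M q hq hqM)) (s18_chart1 (L₀ := K₀) w₁)) a ∈ 𝔫 := by
    intro a ha
    obtain ⟨a', rfl⟩ := (G.π_eq_zero_iff a).mp ha
    rw [map_mul]
    exact 𝔫.mul_mem_right _ hϖ𝔫
  have hpur : ∀ b, s34df_r1 G φ M q hq hqM (s18_chart1 (L₀ := K₀) w₁) b = 0 →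
      s34df_r2 G φ M q hq hqM (s18_chart1 (L₀ := K₀) w₁) b = 0 →
      s35gd_unifB G φ M q hq hqM (s18_chart1 (L₀ := K₀) w₁) ∣ b := fun b h1 h2 =>
    s34df_purity G φ M q hq hqM _ _ rfl b h1 h2
  -- the node data
  have hu₂ : s34df_r2 G φ M q hq hqM (s18_chart1 (L₀ := K₀) w₁) ⟨_, hαB g₀ hg₀⟩ =
      s34df_r2 G φ M q hq hqM (s18_chart1 (L₀ := K₀) w₁) ⟨_, hβB g₁ hg₁⟩ ^ q := by
    rw [hr2α g₀ hg₀, hr2β g₁ hg₁, htw₁]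
  have hw₁ : s34df_r1 G φ M q hq hqM (s18_chart1 (L₀ := K₀) w₁) ⟨_, hβB g₀' hg₀'⟩ =
      s34df_r1 G φ M q hq hqM (s18_chart1 (L₀ := K₀) w₁) ⟨_, hαB g₁' hg₁'⟩ ^ q := by
    rw [hr1β g₀' hg₀', hr1α g₁' hg₁', htw₂]
  obtain ⟨-, -, -, -, hu₂', hw₁', -, hm3⟩ :=
    s36r_node_setup (s35gd_unifB G φ M q hq hqM (s18_chart1 (L₀ := K₀) w₁))
      (s34df_r1 G φ M q hq hqM (s18_chart1 (L₀ := K₀) w₁))
      (s34df_r2 G φ M q hq hqM (s18_chart1 (L₀ := K₀) w₁)) hpur q hq.two_le 𝔫 hϖ𝔫 hk1 hk2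
      ⟨_, hαB g₀ hg₀⟩ ⟨_, hβB g₁ hg₁⟩ ⟨_, hβB g₀' hg₀'⟩ ⟨_, hαB g₁' hg₁'⟩ hu₂ hw₁ hU hW
  -- `θ (red g₀') ≠ 0`
  obtain ⟨-, H1b⟩ := s36r_H1_pair (κ := κ) G.π hπ 𝔫 hkerπ
    (s34df_r1 G φ M q hq hqM (s18_chart1 (L₀ := K₀) w₁))
    (s34df_r2 G φ M q hq hqM (s18_chart1 (L₀ := K₀) w₁)) hk1 hk2 θ hθA₁ hθA₂ _ _ _ hu₂' hw₁'
    hq₁ hq₂ hm3
  have hθ₂ : ffd_theta (s34m_redInf G M ⟨g₀', hg₀'.1⟩) ≠ 0 := by
    have h := s36r_theta_gen_ne_zero 𝔫 (s34df_r2 G φ M q hq hqM (s18_chart1 (L₀ := K₀) w₁)) hk2 θ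
      _ H1b ⟨⟨_, hβB gθ hgθ⟩, by rw [hθ, hr2β gθ hgθ]; exact hθne⟩
    rw [map_sub, map_pow, map_sub, hθq, sub_zero, hθ, hr2β g₀' hg₀'] at h
    exact h
  -- the Frobenius twist of `red g₀'`
  have hkq : qExpand κ q (ffd_theta (s34m_redInf G M ⟨g₀', hg₀'.1⟩)) =
      ffd_theta (s34m_redInf G M ⟨g₁', hg₁'.1⟩) ^ q := by
    have hFr : coeffMap ((frobeniusEquiv κ q).symm : κ →+* κ) (s34m_redInf G M ⟨g₀', hg₀'.1⟩) =
        s34m_redInf G M ⟨g₁', hg₁'.1⟩ := by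
      have h := htw₂
      rw [s37e_qExpand_eq_pow q] at h
      haveI : CharP (LaurentSeries κ) q :=
        (RingHom.charP_iff (HahnSeries.C : κ →+* LaurentSeries κ) HahnSeries.C_injective q).mp
          inferInstance
      exact frobenius_inj (LaurentSeries κ) q h
    rw [s36r_theta_qExpand_char q, hFr]
  -- `Ā`, `hA`, `H2`
  have hwcoe : (((⟨_, hβB g₀' hg₀'⟩ : s34x_ring (s34x_infRing (s34m_VV G φ M q hq hqM))
        (s18_chart1 (L₀ := K₀) w₁)) - ⟨_, hαB g₁' hg₁'⟩ ^ q :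
        s34x_ring (s34x_infRing (s34m_VV G φ M q hq hqM)) (s18_chart1 (L₀ := K₀) w₁)) :
        s34m_F K₀ (M * q)) = heckeBetaBar K₀ M q g₀' - heckeAlphaBar K₀ M q g₁' ^ q := by
    rw [AddSubgroupClass.coe_sub, SubmonoidClass.coe_pow]
  obtain ⟨Abar, hA, H2⟩ := s36q_node_H2 G φ M q hq hqM hϖq (s18_chart1 (L₀ := K₀) w₁) g₀' g₁'
    hg₀'.1 hg₁'.1 htw₂ _ hwcoe hw₁'
  -- `H3`
  obtain ⟨a, ha, b, hb, hab⟩ := s36q_node_H3 G φ M q hq hqM hπ hϖq h2 h3 w₁ 𝔫 hk2 wM hwV hαM hαB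
    hβB hjβ g₀ g₀' hg₀ hg₀' hθ₂ 𝔪 ϖM hϖM hϖ𝔪 ht𝔪 ht hcomap
  have H2' : θ Abar = θ (s34df_r1 G φ M q hq hqM (s18_chart1 (L₀ := K₀) w₁)
        ⟨_, hαB g₁' hg₁'⟩) ^ q -
      s34df_r1 G φ M q hq hqM (s18_chart1 (L₀ := K₀) w₁) ⟨_, hαB g₁' hg₁'⟩ ^ (q - 1) *
        θ (s34df_r1 G φ M q hq hqM (s18_chart1 (L₀ := K₀) w₁) ⟨_, hαB g₁' hg₁'⟩) := by
    rw [hθ, hθ, hr1α g₁' hg₁']
    exact H2
  have hnz₁ : ∃ f : s34x_ring (s34x_infRing (s34m_VV G φ M q hq hqM)) (s18_chart1 (L₀ := K₀) w₁),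
      θ (s34df_r1 G φ M q hq hqM (s18_chart1 (L₀ := K₀) w₁) f) ≠ 0 :=
    ⟨⟨_, hαB gθ hgθ⟩, by rw [hθ, hr1α gθ hgθ]; exact hθne⟩
  have H3' : ∃ a ∈ 𝔫, ∃ b, b ∉ 𝔫 ∧
      θ (s34df_r1 G φ M q hq hqM (s18_chart1 (L₀ := K₀) w₁) ⟨_, hαB g₁' hg₁'⟩) ^ q *
          s34df_r1 G φ M q hq hqM (s18_chart1 (L₀ := K₀) w₁) a =
        θ (s34df_r1 G φ M q hq hqM (s18_chart1 (L₀ := K₀) w₁) ⟨_, hαB g₀ hg₀⟩) *
          s34df_r1 G φ M q hq hqM (s18_chart1 (L₀ := K₀) w₁) b := by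
    refine ⟨a, ha, b, hb, ?_⟩
    rw [hθ, hθ, hr1α g₁' hg₁', hr1α g₀ hg₀, ← hkq]
    exact hab
  -- thickness one
  obtain ⟨β₀, hβ₀, hβ𝔫, hm⟩ := s36r_thick_abs (κ := κ) G.π hπ 𝔫 hkerπ
    (s34df_r1 G φ M q hq hqM (s18_chart1 (L₀ := K₀) w₁))
    (s34df_r2 G φ M q hq hqM (s18_chart1 (L₀ := K₀) w₁)) hk1 hk2 θ hθA₁ hθA₂ q hq.two_le hθq
    (s35gd_unifB G φ M q hq hqM (s18_chart1 (L₀ := K₀) w₁)) hϖ𝔫 hq₁ hq₂ hpur
    ⟨_, hαB g₀ hg₀⟩ ⟨_, hβB g₁ hg₁⟩ ⟨_, hβB g₀' hg₀'⟩ ⟨_, hαB g₁' hg₁'⟩ hu₂ hw₁ hU hW Abar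
    (fun β₀ h => hA _ β₀ h) H2' hnz₁ H3'
  have hunit : IsUnit (algebraMap (s34x_ring (s34x_infRing (s34m_VV G φ M q hq hqM))
      (s18_chart1 (L₀ := K₀) w₁)) (Localization.AtPrime 𝔫) β₀) :=
    IsLocalization.map_units (Localization.AtPrime 𝔫) (⟨β₀, hβ𝔫⟩ : 𝔫.primeCompl)
  refine ⟨_, _, hu₂', hw₁', ⟨_, hunit, ?_⟩, hm⟩
  rw [← map_mul, ← map_mul, hβ₀]

/-- **(R-q) for a base function from the (K3) contract at its crossing points.** -/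
theorem s36q_crossReg_of_K3 (hπ : Function.Surjective G.π)
    (hϖq : ((G.ϖ : G.A) : K₀) = (q : K₀)) (h2 : nuTwo M = 0) (h3 : nuThree M = 0)
    (w₁ : s34m_F K₀ (M * q)) (hB : s35g_BaseData G φ M q hq hqM w₁)
    (hK3 : ∀ (𝔫 : Ideal (s34x_ring (s34x_infRing (s34m_VV G φ M q hq hqM))
        (s18_chart1 (L₀ := K₀) w₁))) [𝔫.IsPrime],
      s35gd_CrossAt G φ M q hq hqM (s18_chart1 (L₀ := K₀) w₁) 𝔫 →
      s36q_K3Data G φ M q hq hqM (s18_chart1 (L₀ := K₀) w₁) 𝔫) :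
    s36q_fi_CrossReg G φ M q hq hqM w₁ :=
  s36q_fi_crossReg_of_thick G φ M q hq hqM w₁ hB fun 𝔫 _ hc =>
    s36q_regAt_of_K3 G φ M q hq hqM hπ hϖq h2 h3 w₁ hB 𝔫 hc.1 hc.2.1 (hK3 𝔫 hc)

end Fermat.Agent.Lib.S36

namespace Fermat.Agent.Lib.S36

open ModularCurve AlgebraicCurve HahnSeries Polynomial
  Fermat.Agent.Lib.FF Fermat.Agent.Lib.S18
  Fermat.Agent.Lib.S37 Fermat.Agent.Lib.S34 Fermat.Agent.Lib.S35

local notation "Kb" => AlgebraicClosure ℚ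

section Leaf

variable (M q : ℕ) [NeZero M] [NeZero q] (hq : q.Prime) (hqM : ¬ q ∣ M)

/-- **The (K3) contract at all crossing points of chart 1 of the base function**, for all Gauss data
with uniformiser `q` (the hypotheses of helper8's `s36g_LeafCross`). -/
def s36q_K3Contract : Prop :=
  ∀ (K₀ : Type) [Field K₀] [NumberField K₀] (φ : K₀ →+* Kb)
    (κ : Type) [Field κ] [CharP κ q] [PerfectField κ]
    (G : s18g_GaussData K₀ κ) [IsDiscreteValuationRing G.A], Function.Surjective G.π →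
    ((G.ϖ : G.A) : K₀) = (q : K₀) →
    ∀ (x : s34m_F K₀ M) (hx : x ∈ s34m_Vinf G M), s36g_BaseFull G φ M q hq hqM x hx →
      ∀ (𝔫 : Ideal (s34x_ring (s34x_infRing (s34m_VV G φ M q hq hqM))
        (s18_chart1 (L₀ := K₀) (heckeAlphaBar K₀ M q x)))) [𝔫.IsPrime],
      s35gd_CrossAt G φ M q hq hqM (s18_chart1 (L₀ := K₀) (heckeAlphaBar K₀ M q x)) 𝔫 →
      s36q_K3Data G φ M q hq hqM (s18_chart1 (L₀ := K₀) (heckeAlphaBar K₀ M q x)) 𝔫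

/-- **The leaf (R-q)** from the (K3) contract, at the levels without elliptic points. -/
theorem s36q_leafCross (h2 : nuTwo M = 0) (h3 : nuThree M = 0)
    (hK3 : s36q_K3Contract M q hq hqM) : s36g_LeafCross M q hq hqM := by
  intro K₀ _ _ φ κ _ _ _ G _ hπ hϖ x hx hBF
  exact s36q_crossReg_of_K3 G φ M q hq hqM hπ hϖ h2 h3 _ hBF.1
    (fun 𝔫 _ hc => hK3 K₀ φ κ G hπ hϖ x hx hBF 𝔫 hc)

end Leaf

end Fermat.Agent.Lib.S36
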