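/-
S36 mega-project, layer (R2) (helper5), part 9b: [S1], [S2] in the LITERAL shape consumed by
`s36t_rel_chart` / `s36t_hmatch_chart` (board #1718, #1746): `ι₂ (locMap c - s) ∈ (O₂ j).nonunits`.
-/
import Fermat.Agent.Lib.S36.QSurj

set_option autoImplicit false

noncomputable section

namespace Fermat.Agent.Lib.S36

open AlgebraicCurve Fermat.Agent.Lib.FF Fermat.Agent.Lib.S18 Fermat.Agent.Lib.S34 IsLocalRing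

variable {L₀ 𝓕₁ 𝓕₂ : Type*} [Field L₀] [Field 𝓕₁] [Field 𝓕₂] [Algebra L₀ 𝓕₁] [Algebra L₀ 𝓕₂]
variable {ι₁ ι₂ : Type*} (O₁ : ι₁ → ValuationSubring 𝓕₁) (O₂ : ι₂ → ValuationSubring 𝓕₂)
  (S₁ : Set (Place L₀ 𝓕₁)) (S₂ : Set (Place L₀ 𝓕₂)) (γ : 𝓕₁ →+* 𝓕₂)
  (hγ : ∀ b ∈ s34x_ring (s34x_infRing O₁) S₁, γ b ∈ s34x_ring (s34x_infRing O₂) S₂)
  (𝔫 : Ideal (s34x_ring (s34x_infRing O₂) S₂)) [h𝔫 : 𝔫.IsPrime]
  (i : ι₁) (j : ι₂) (hcomap : ∀ x : 𝓕₁, γ x ∈ O₂ j ↔ x ∈ O₁ i)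
  [hB₁ : IsNoetherianRing (s34x_ring (s34x_infRing O₁) S₁)]

/-- negation preserves the non-units of a valuation ring. -/
theorem s36q_neg_mem_nonunits {K : Type*} [Field K] (V : ValuationSubring K) (x : K)
    (hx : x ∈ V.nonunits) : -x ∈ V.nonunits := by
  rw [V.mem_nonunits_iff] at hx ⊢
  rwa [Valuation.map_neg]

include hcomap in
/-- **[S1]**, literal shape. -/
theorem s36q_S1_lit (hj : s36q_compThrough O₂ S₂ 𝔫 j)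
    (u' w' : Localization.AtPrime (s36q_pt O₁ O₂ S₁ S₂ γ hγ 𝔫))
    (hm' : maximalIdeal (Localization.AtPrime (s36q_pt O₁ O₂ S₁ S₂ γ hγ 𝔫)) =
      Ideal.span {u', w'})
    (hw' : s34f_iota (s34x_infRing O₁) S₁ (s36q_pt O₁ O₂ S₁ S₂ γ hγ 𝔫) w' ∈ (O₁ i).nonunits)
    (hfrac : ∀ y ∈ O₂ j, ∃ b c : s34x_ring (s34x_infRing O₁) S₁,
      (c : 𝓕₁) ∉ (O₁ i).nonunits ∧ y * γ (c : 𝓕₁) - γ (b : 𝓕₁) ∈ (O₂ j).nonunits) :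
    ∀ s : Localization.AtPrime 𝔫,
      ∃ c : Localization.AtPrime (s36q_pt O₁ O₂ S₁ S₂ γ hγ 𝔫),
        s34f_iota (s34x_infRing O₂) S₂ 𝔫 (s36q_locMap O₁ O₂ S₁ S₂ γ hγ 𝔫 c - s) ∈
          (O₂ j).nonunits := by
  intro s
  obtain ⟨c, hc⟩ := s36q_S1_chart O₁ O₂ S₁ S₂ γ hγ 𝔫 i j hcomap hj u' w' hm' hw' hfrac s
  refine ⟨c, ?_⟩
  rw [map_sub, s36q_iota_locMap]
  have := s36q_neg_mem_nonunits (O₂ j) _ hc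
  rwa [neg_sub] at this

include hcomap in
/-- **[S2]**, literal shape. -/
theorem s36q_S2_lit (hj : s36q_compThrough O₂ S₂ 𝔫 j)
    (u' w' : Localization.AtPrime (s36q_pt O₁ O₂ S₁ S₂ γ hγ 𝔫))
    (hm' : maximalIdeal (Localization.AtPrime (s36q_pt O₁ O₂ S₁ S₂ γ hγ 𝔫)) =
      Ideal.span {u', w'})
    (hw' : s34f_iota (s34x_infRing O₁) S₁ (s36q_pt O₁ O₂ S₁ S₂ γ hγ 𝔫) w' ∈ (O₁ i).nonunits)
    (q : ℕ)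
    (hfrac : ∀ y ∈ O₂ j, ∃ b c : s34x_ring (s34x_infRing O₁) S₁,
      (c : 𝓕₁) ∉ (O₁ i).nonunits ∧ y ^ q * γ (c : 𝓕₁) - γ (b : 𝓕₁) ∈ (O₂ j).nonunits) :
    ∀ s : Localization.AtPrime 𝔫,
      ∃ c : Localization.AtPrime (s36q_pt O₁ O₂ S₁ S₂ γ hγ 𝔫),
        s34f_iota (s34x_infRing O₂) S₂ 𝔫 (s36q_locMap O₁ O₂ S₁ S₂ γ hγ 𝔫 c - s ^ q) ∈
          (O₂ j).nonunits := by
  intro s
  obtain ⟨c, hc⟩ := s36q_S2_chart O₁ O₂ S₁ S₂ γ hγ 𝔫 i j hcomap hj u' w' hm' hw' q hfrac s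
  refine ⟨c, ?_⟩
  rw [map_sub, s36q_iota_locMap, map_pow]
  have := s36q_neg_mem_nonunits (O₂ j) _ hc
  rwa [neg_sub] at this

end Fermat.Agent.Lib.S36
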