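/-
S36 mega-project, layer (R2) (helper5), part 22: **helper8's targets `s36g_TriplePkg` / `s36g_GeoTriple`**
(`GLocal.lean`, `GLocalAsm.lean`) from the concrete triple package `QTripleGeo.lean`.

The only open input is (R-q) in helper3's shape `s36q_fi_CrossReg` (every point of chart 1 of `w₁` at
level `M q` on both components is a regular crossing).
-/
import Fermat.Agent.Lib.S36.QTripleGeo
import Fermat.Agent.Lib.S36.GLocalAsm

set_option autoImplicit false
set_option linter.unusedSectionVars false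
set_option linter.style.haveILetI false
set_option synthInstance.maxHeartbeats 400000

noncomputable section

namespace Fermat.Agent.Lib.S36

open ModularCurve AlgebraicCurve Polynomial Fermat.Agent.Lib.FF Fermat.Agent.Lib.S18
  Fermat.Agent.Lib.S37 Fermat.Agent.Lib.S34 Fermat.Agent.Lib.S35 IsLocalRing

local notation "Kb" => AlgebraicClosure ℚ

variable {K₀ : Type} [Field K₀] [Algebra ℚ K₀] [CharZero K₀] {κ : Type} [Field κ]
  (G : s18g_GaussData K₀ κ) [IsDiscreteValuationRing G.A]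
  (φ : K₀ →+* Kb) (M q : ℕ) [NeZero M] [NeZero q] (hq : q.Prime) (hqM : ¬ q ∣ M)
  [CharP κ q] [PerfectField κ]
  {V : Fin 3 → ValuationSubring (s34m_F K₀ (M * q * q))} {t : s34m_F K₀ (M * q * q)}

/-- **`s36g_TriplePkg` at a prime of chart 1 of level `M q²` on all three components.** -/
theorem s36q_triplePkg (hC : s36g_ValComap G φ M q hq hqM V)
    (hU : s36g_ValUnif G M q V t) (hR : s36g_ValRes G φ M q hq hqM V)
    (hCompl : s36g_ValComplete G φ M q hq hqM V) (hInd : s36g_ValIndep M q V)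
    (w₁ : s34m_F K₀ (M * q)) (hB : s35g_BaseData G φ M q hq hqM w₁)
    (hsat : ∀ Q : Place K₀ (s34m_F K₀ (M * q * q)),
      s36g_alpha M q w₁ ∈ Q.toValuationSubring ↔ s36g_beta M q w₁ ∈ Q.toValuationSubring)
    (hX : s36q_fi_CrossReg G φ M q hq hqM w₁) (hπ : Function.Surjective G.π)
    (𝔫 : Ideal (s34x_ring (L₀ := K₀) (s34x_infRing V) (s18_chart1 (s36g_alpha M q w₁))))
    [h𝔫 : 𝔫.IsPrime]
    (hthru : ∀ j, s36q_compThrough V (s18_chart1 (L₀ := K₀) (s36g_alpha M q w₁)) 𝔫 j) :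
    s36g_TriplePkg G φ M q hq hqM hC w₁ hB hsat 𝔫 := by
  have hp : q - 1 + 1 = q := Nat.sub_add_cancel hq.one_le
  obtain ⟨h1, h2, h3, h4, h5, h6⟩ :=
    s36q_tg_S G φ M q hq hqM hC hR w₁ hB hsat hX hπ (q - 1) hp 𝔫 hthru
  rw [hp] at h3 h6
  exact ⟨h1, h2, h3,
    s36q_tg_S4_alpha G φ M q hq hqM hC hU hR hCompl hInd w₁ hB hsat hX hπ 𝔫 hthru,
    h4, h5, h6,
    s36q_tg_S4_beta G φ M q hq hqM hC hU hR hCompl hInd w₁ hB hsat hX hπ 𝔫 hthru⟩

/-- **(TRIPLE)** = helper8's `s36g_GeoTriple`. -/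
theorem s36q_geoTriple (hC : s36g_ValComap G φ M q hq hqM V)
    (hU : s36g_ValUnif G M q V t) (hR : s36g_ValRes G φ M q hq hqM V)
    (hCompl : s36g_ValComplete G φ M q hq hqM V) (hInd : s36g_ValIndep M q V)
    (w₁ : s34m_F K₀ (M * q)) (hB : s35g_BaseData G φ M q hq hqM w₁)
    (hsat : ∀ Q : Place K₀ (s34m_F K₀ (M * q * q)),
      s36g_alpha M q w₁ ∈ Q.toValuationSubring ↔ s36g_beta M q w₁ ∈ Q.toValuationSubring)
    (hX : s36q_fi_CrossReg G φ M q hq hqM w₁) (hπ : Function.Surjective G.π) :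
    s36g_GeoTriple G φ M q hq hqM hC w₁ hB hsat := by
  intro 𝔫 h𝔫 _ hthru
  haveI := h𝔫.isPrime
  exact s36q_triplePkg G φ M q hq hqM hC hU hR hCompl hInd w₁ hB hsat hX hπ 𝔫 hthru

end Fermat.Agent.Lib.S36
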