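/-
S36 mega-project, layer (R2) (helper5), part 20: **the triple package [S1], [S2]** — the six
surjectivity statements consumed by helper8's `s36t_hmatch_chart` / `s36t_hmatch_consts`
(`hS1α0`, `hS1α1`, `hS2α`, `hS1β2`, `hS1β1`, `hS2β`) at a point `𝔫` of level `q²` whose images
`𝔫α = γα⁻¹𝔫`, `𝔫β = γβ⁻¹𝔫` are regular crossings of level `q`, from `s36q_S1_lit`, `s36q_S2_lit`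
and the six (FRAC) statements.
-/
import Fermat.Agent.Lib.S36.QSurjLit
import Fermat.Agent.Lib.S36.QTriple2

set_option autoImplicit false

noncomputable section

namespace Fermat.Agent.Lib.S36

open AlgebraicCurve Fermat.Agent.Lib.FF Fermat.Agent.Lib.S18 Fermat.Agent.Lib.S34 IsLocalRing

variable {L₀ 𝓕₁ 𝓕₂ : Type*} [Field L₀] [Field 𝓕₁] [Field 𝓕₂] [Algebra L₀ 𝓕₁] [Algebra L₀ 𝓕₂]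
variable {ι₁ : Type*} (O₁ : ι₁ → ValuationSubring 𝓕₁) (O₂ : Fin 3 → ValuationSubring 𝓕₂)
  (S₁ : Set (Place L₀ 𝓕₁)) (S₂ : Set (Place L₀ 𝓕₂)) (γα γβ : 𝓕₁ →+* 𝓕₂)
  (hγα : ∀ b ∈ s34x_ring (s34x_infRing O₁) S₁, γα b ∈ s34x_ring (s34x_infRing O₂) S₂)
  (hγβ : ∀ b ∈ s34x_ring (s34x_infRing O₁) S₁, γβ b ∈ s34x_ring (s34x_infRing O₂) S₂)
  (𝔫 : Ideal (s34x_ring (s34x_infRing O₂) S₂)) [h𝔫 : 𝔫.IsPrime]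
  [hB₁ : IsNoetherianRing (s34x_ring (s34x_infRing O₁) S₁)]

local notation "R₂" => Localization.AtPrime 𝔫
local notation "ι₂" => s34f_iota (s34x_infRing O₂) S₂ 𝔫
local notation "Rα" => Localization.AtPrime (s36q_pt O₁ O₂ S₁ S₂ γα hγα 𝔫)
local notation "Rβ" => Localization.AtPrime (s36q_pt O₁ O₂ S₁ S₂ γβ hγβ 𝔫)
local notation "aα" => s36q_locMap O₁ O₂ S₁ S₂ γα hγα 𝔫
local notation "aβ" => s36q_locMap O₁ O₂ S₁ S₂ γβ hγβ 𝔫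

/-- **the triple package [S1], [S2]** in the literal shapes of `s36t_hmatch_chart`. -/
theorem s36q_triple_S (iI i0 : ι₁) (π₁ : 𝓕₁)
    (hc0α : ∀ x, γα x ∈ O₂ 0 ↔ x ∈ O₁ iI) (hc0β : ∀ x, γβ x ∈ O₂ 0 ↔ x ∈ O₁ iI)
    (hc1α : ∀ x, γα x ∈ O₂ 1 ↔ x ∈ O₁ iI) (hc1β : ∀ x, γβ x ∈ O₂ 1 ↔ x ∈ O₁ i0)
    (hc2α : ∀ x, γα x ∈ O₂ 2 ↔ x ∈ O₁ i0) (hc2β : ∀ x, γβ x ∈ O₂ 2 ↔ x ∈ O₁ i0)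
    (hthru : ∀ j, s36q_compThrough O₂ S₂ 𝔫 j)
    (hXα : s36q_RegCross O₁ S₁ (s36q_pt O₁ O₂ S₁ S₂ γα hγα 𝔫) iI i0 π₁)
    (hXβ : s36q_RegCross O₁ S₁ (s36q_pt O₁ O₂ S₁ S₂ γβ hγβ 𝔫) iI i0 π₁)
    (q : ℕ)
    (hf0α : s36q_Frac O₁ O₂ S₁ γα iI 0) (hf1α : s36q_Frac O₁ O₂ S₁ γα iI 1)
    (hf2α : ∀ y ∈ O₂ 2, ∃ b c : s34x_ring (s34x_infRing O₁) S₁,
      (c : 𝓕₁) ∉ (O₁ i0).nonunits ∧ y ^ q * γα (c : 𝓕₁) - γα (b : 𝓕₁) ∈ (O₂ 2).nonunits)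
    (hf2β : s36q_Frac O₁ O₂ S₁ γβ i0 2) (hf1β : s36q_Frac O₁ O₂ S₁ γβ i0 1)
    (hf0β : ∀ y ∈ O₂ 0, ∃ b c : s34x_ring (s34x_infRing O₁) S₁,
      (c : 𝓕₁) ∉ (O₁ iI).nonunits ∧ y ^ q * γβ (c : 𝓕₁) - γβ (b : 𝓕₁) ∈ (O₂ 0).nonunits) :
    (∀ s : R₂, ∃ c : Rα, ι₂ (aα c - s) ∈ (O₂ 0).nonunits) ∧
    (∀ s : R₂, ∃ c : Rα, ι₂ (aα c - s) ∈ (O₂ 1).nonunits) ∧
    (∀ s : R₂, ∃ c : Rα, ι₂ (aα c - s ^ q) ∈ (O₂ 2).nonunits) ∧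
    (∀ s : R₂, ∃ c : Rβ, ι₂ (aβ c - s) ∈ (O₂ 2).nonunits) ∧
    (∀ s : R₂, ∃ c : Rβ, ι₂ (aβ c - s) ∈ (O₂ 1).nonunits) ∧
    (∀ s : R₂, ∃ c : Rβ, ι₂ (aβ c - s ^ q) ∈ (O₂ 0).nonunits) := by
  obtain ⟨uα, wα, -, -, huα, hwα, -, hmα⟩ := hXα
  obtain ⟨uβ, wβ, -, -, huβ, hwβ, -, hmβ⟩ := hXβ
  have hmα' : maximalIdeal Rα = Ideal.span {wα, uα} := by rw [hmα, Set.pair_comm]
  have hmβ' : maximalIdeal Rβ = Ideal.span {wβ, uβ} := by rw [hmβ, Set.pair_comm]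
  refine ⟨?_, ?_, ?_, ?_, ?_, ?_⟩
  · exact s36q_S1_lit O₁ O₂ S₁ S₂ γα hγα 𝔫 iI 0 hc0α (hthru 0) wα uα hmα' huα hf0α
  · exact s36q_S1_lit O₁ O₂ S₁ S₂ γα hγα 𝔫 iI 1 hc1α (hthru 1) wα uα hmα' huα hf1α
  · exact s36q_S2_lit O₁ O₂ S₁ S₂ γα hγα 𝔫 i0 2 hc2α (hthru 2) uα wα hmα hwα q hf2α
  · exact s36q_S1_lit O₁ O₂ S₁ S₂ γβ hγβ 𝔫 i0 2 hc2β (hthru 2) uβ wβ hmβ hwβ hf2β
  · exact s36q_S1_lit O₁ O₂ S₁ S₂ γβ hγβ 𝔫 i0 1 hc1β (hthru 1) uβ wβ hmβ hwβ hf1β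
  · exact s36q_S2_lit O₁ O₂ S₁ S₂ γβ hγβ 𝔫 iI 0 hc0β (hthru 0) wβ uβ hmβ' huβ q hf0β

end Fermat.Agent.Lib.S36
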