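/-
S36 mega-project, sub-layer (R-mid) (helper2, prefix `s36e_`), part 13: THE FUNCTION `Θ_t` AT A
CLOSED POINT OF LEVEL `M q` ON `C'_∞`, FOR AN EXPLICIT LEVEL-`M` COORDINATE `w`.

Concrete instantiation of helper3's abstract frame (`REllPt.lean`, `REllTheta.lean`): `w` a level-`M`
coordinate with the data of `s35g_ChartData` (EXPLICIT `w`, STRONG `β`-inclusion as in helper8's
`KNode.lean`) and the [HP] frame (`FFGen`, `hαM`).  `S` a chart of level `M q` of finite type,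
`𝔪'` a closed point of `S` containing `ϖ` through which `V'_∞` passes, non-cuspidal (`j` regular at
the horizontal places through `𝔪'`).

* `s36e_coord_theta` : there are `t ∈ B_M` with `θ (red t) ≠ 0` and `Θ ∈ V'_∞` a unit with
  `red_∞ Θ = (θ (red t))^(q-1)` and `ord_Q Θ = 0` at the places of `S` through `𝔪'`
  (the data `x, Θ` of helper3's `s36el_mid_localReg_of_theta`).
-/
import Fermat.Agent.Lib.S36.REllTheta
import Fermat.Agent.Lib.S36.REllMid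

set_option autoImplicit false
set_option linter.unusedSectionVars false
set_option linter.style.haveILetI false
set_option synthInstance.maxHeartbeats 400000
set_option maxHeartbeats 1600000

noncomputable section

namespace Fermat.Agent.Lib.S36

open ModularCurve AlgebraicCurve HahnSeries Polynomial Fermat.Agent.Lib.FF Fermat.Agent.Lib.S18
  Fermat.Agent.Lib.S37 Fermat.Agent.Lib.S34 Fermat.Agent.Lib.S35

local notation "Kb" => AlgebraicClosure ℚ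

variable {K₀ : Type} [Field K₀] [CharZero K₀] [Algebra ℚ K₀] {κ : Type} [Field κ]
  (G : s18g_GaussData K₀ κ) (φ : K₀ →+* Kb) (M q : ℕ) [NeZero M] [NeZero q]
  (hq : q.Prime) (hqM : ¬ q ∣ M) [CharP κ q] [PerfectField κ] [IsDiscreteValuationRing G.A]

local notation "𝓕M" => laurentBaseChange K₀ (modularFunctionFieldFull M)
local notation "hFM" => (fun (f : LaurentSeries K₀)
  (hf : f ∈ laurentBaseChange K₀ (modularFunctionFieldFull M)) => s18g_baseChange_mem_Frac G M hf)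

/-- **The function `Θ_t` at a non-cuspidal closed point of `C'_∞`.** -/
theorem s36e_coord_theta (hT : s18g_HT κ M)
    (hdegM : s18g_HDeg K₀ M) (w : ↥𝓕M) [FFGen K₀ w] (hwV : w ∈ s18g_V G 𝓕M hFM)
    (hαM : ∀ y ∈ s18g_V G 𝓕M hFM, ∃ s : G.A[X], s.map G.π ≠ 0 ∧
      (s18b_ev G 𝓕M w).IsIntegralElem (s18b_ev G 𝓕M w s * y))
    (hcoord : s37b_Coord κ q
      ((s18g_redF G M hFM hT hdegM ⟨w, hwV⟩ : ↥(modularFunctionFieldFullC κ M)) : LaurentSeries κ))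
    (hwtw : ∀ τ : κ ≃+* κ, coeffMap (τ : κ →+* κ)
      ((s18g_redF G M hFM hT hdegM ⟨w, hwV⟩ : ↥(modularFunctionFieldFullC κ M)) : LaurentSeries κ) =
      ((s18g_redF G M hFM hT hdegM ⟨w, hwV⟩ : ↥(modularFunctionFieldFullC κ M)) : LaurentSeries κ))
    (hmain : letI := s18f_algF G M hT hdegM w hwV
      ∀ z : ↥(modularFunctionFieldFullC κ M), IsIntegral κ[X] z →
        ∃ (b : ↥𝓕M) (hb : b ∈ s18_ring (L₀ := K₀) (s18g_V G 𝓕M hFM) (s18_chart1 w)),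
          s18g_redF G M hFM hT hdegM ⟨b, hb.1⟩ = z)
    (S : Set (Place K₀ (s34m_F K₀ (M * q))))
    (hαB : ∀ g ∈ (s18_ring (L₀ := K₀) (s34m_Vinf G M) (s18_chart1 w) : Set (s34m_F K₀ M)),
      heckeAlphaBar K₀ M q g ∈ s34x_ring (s34x_infRing (s34m_VV G φ M q hq hqM)) S)
    (hβB : ∀ g ∈ (s18_ring (L₀ := K₀) (s34m_Vinf G M) (s18_chart1 w) : Set (s34m_F K₀ M)),
      heckeBetaBar K₀ M q g ∈ s34x_ring (s34x_infRing (s34m_VV G φ M q hq hqM)) S)
    (hFT : @Algebra.FiniteType G.A (s34x_ring (s34x_infRing (s34m_VV G φ M q hq hqM)) S) _ _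
      (s34f_constHom G.A (s34x_infRing (s34m_VV G φ M q hq hqM))
        (s34x_inf_const_mem (s34m_VV G φ M q hq hqM) G.A
          (s34c_const_mem_VV G φ M q hq hqM)) S).toAlgebra)
    (h2 : nuTwo M = 0) (h3 : nuThree M = 0)
    (hπ : Function.Surjective G.π) (hπq : G.π ((q : ℕ) : G.A) = 0)
    (w₀ : s34m_F K₀ (M * q)) [FFGen K₀ w₀]
    (𝔪' : Ideal (s34x_ring (s34x_infRing (s34m_VV G φ M q hq hqM)) S)) [h𝔪' : 𝔪'.IsMaximal]
    (hϖ : s35gd_unifB G φ M q hq hqM S ∈ 𝔪')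
    (hth : s36q_compThrough (s34m_VV G φ M q hq hqM) S 𝔪' true)
    (hj : ∀ Q ∈ S, s34f_through (s34x_infRing (s34m_VV G φ M q hq hqM)) S 𝔪' Q →
      0 ≤ Q.ord (s18g_jF (K := K₀) (M * q))) :
    ∃ (t : s34m_F K₀ M)
      (ht : t ∈ (s18_ring (L₀ := K₀) (s34m_Vinf G M) (s18_chart1 w) : Set (s34m_F K₀ M)))
      (Θ : s34m_F K₀ (M * q)),
      ffd_theta (s34m_redInf G M ⟨t, ht.1⟩) ≠ 0 ∧ Θ ≠ 0 ∧ Θ⁻¹ ∈ s34m_Vinf G (M * q) ∧
      (∃ hΘV : Θ ∈ s34m_Vinf G (M * q), s34m_redInf G (M * q) ⟨Θ, hΘV⟩ =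
        ffd_theta (s34m_redInf G M ⟨t, ht.1⟩) ^ (q - 1)) ∧
      ∀ Q ∈ S, s34f_through (s34x_infRing (s34m_VV G φ M q hq hqM)) S 𝔪' Q → Q.ord Θ = 0 := by
  classical
  haveI : Fact q.Prime := ⟨hq⟩
  haveI : 𝔪'.IsPrime := h𝔪'.isPrime
  letI algF := s18f_algF G M hT hdegM w hwV
  have hA : ∀ p : κ[X], algebraMap κ[X] ↥(modularFunctionFieldFullC κ M) p =
      Polynomial.aeval (s18g_redF G M hFM hT hdegM ⟨w, hwV⟩) p :=
    s18f_algF_apply G M hT hdegM w hwV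
  obtain ⟨hDed, hFrac⟩ := s37b_dedekind_of_coord κ q M (s18g_redF G M hFM hT hdegM ⟨w, hwV⟩)
    hcoord hA
  haveI := hDed
  haveI := hFrac
  -- the reduction `ψ : BM ↠ D'`
  have hϖ0 : ((G.ϖ : G.A) : K₀) ≠ 0 := s18g_unifK_ne_zero G
  have hϖV : algebraMap K₀ ↥𝓕M ((G.ϖ : G.A) : K₀) ∈ s18g_V G 𝓕M hFM :=
    (s18g_algebraMap_mem_V_iff G 𝓕M hFM _).mpr (G.ϖ : G.A).2
  have hker : ∀ x : s18g_V G 𝓕M hFM, s18g_redF G M hFM hT hdegM x = 0 →
      ∃ y ∈ s18g_V G 𝓕M hFM, (x : ↥𝓕M) = algebraMap K₀ ↥𝓕M ((G.ϖ : G.A) : K₀) * y := by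
    intro x hx
    have hx' : x ∈ RingHom.ker (s18g_redF G M hFM hT hdegM) := hx
    rw [s18g_ker_redF, Ideal.mem_span_singleton'] at hx'
    obtain ⟨a, ha⟩ := hx'
    refine ⟨(a : ↥𝓕M), a.2, ?_⟩
    rw [← ha, mul_comm]
    rfl
  have hkerϖ : s18g_redF G M hFM hT hdegM ⟨algebraMap K₀ ↥𝓕M ((G.ϖ : G.A) : K₀), hϖV⟩ = 0 := by
    have : (⟨algebraMap K₀ ↥𝓕M ((G.ϖ : G.A) : K₀), hϖV⟩ : s18g_V G 𝓕M hFM) ∈
        RingHom.ker (s18g_redF G M hFM hT hdegM) := by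
      rw [s18g_ker_redF]
      exact Ideal.subset_span rfl
    exact this
  have hint : ∀ b : ↥𝓕M, ∀ hb : b ∈ s18_ring (L₀ := K₀) (s18g_V G 𝓕M hFM) (s18_chart1 w),
      IsIntegral κ[X] (s18g_redF G M hFM hT hdegM ⟨b, hb.1⟩) := fun b hb =>
    s18f_isIntegral_redF G M hT hdegM w hwV hA b hb.1
      (s18b_isIntegralElem_of_mem_ring G 𝓕M hFM w hαM b hb)
  set ψ : s18_ring (L₀ := K₀) (s34m_Vinf G M) (s18_chart1 w) →+*
      ↥(integralClosure κ[X] ↥(modularFunctionFieldFullC κ M)) :=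
    s18f_psi (s18g_V G 𝓕M hFM) (s18_chart1 (L₀ := K₀) w) (s18g_redF G M hFM hT hdegM) hint with hψ
  have hψs : Function.Surjective ψ := s18f_psi_surjective _ _ _ hint hmain
  set ϖM : s18_ring (L₀ := K₀) (s34m_Vinf G M) (s18_chart1 w) :=
    s18i_const (s18g_V G 𝓕M hFM) (s18_chart1 (L₀ := K₀) w) ((G.ϖ : G.A) : K₀) hϖV with hϖM
  have hψk : RingHom.ker ψ = Ideal.span {ϖM} :=
    s18f_ker_psi _ _ _ hϖ0 hϖV _ hker hkerϖ hint
  have hψc : ∀ g : s18_ring (L₀ := K₀) (s34m_Vinf G M) (s18_chart1 w),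
      (((ψ g : ↥(integralClosure κ[X] ↥(modularFunctionFieldFullC κ M))) :
        ↥(modularFunctionFieldFullC κ M)) : LaurentSeries κ) =
        s34m_redInf G M ⟨(g : s34m_F K₀ M), g.2.1⟩ := fun g => rfl
  -- the restrictions `a, b : BM →+* B₁` of `α, β`
  set a : s18_ring (L₀ := K₀) (s34m_Vinf G M) (s18_chart1 w) →+*
      s34x_ring (s34x_infRing (s34m_VV G φ M q hq hqM)) S :=
    (((heckeAlphaBar K₀ M q : s34m_F K₀ M →ₐ[K₀] s34m_F K₀ (M * q)) :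
        s34m_F K₀ M →+* s34m_F K₀ (M * q)).comp
      (s18_ring (L₀ := K₀) (s34m_Vinf G M) (s18_chart1 w)).subtype).codRestrict
      (s34x_ring (s34x_infRing (s34m_VV G φ M q hq hqM)) S) (fun g => hαB g g.2) with hadef
  set b : s18_ring (L₀ := K₀) (s34m_Vinf G M) (s18_chart1 w) →+*
      s34x_ring (s34x_infRing (s34m_VV G φ M q hq hqM)) S :=
    (((heckeBetaBar K₀ M q : s34m_F K₀ M →ₐ[K₀] s34m_F K₀ (M * q)) :
        s34m_F K₀ M →+* s34m_F K₀ (M * q)).comp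
      (s18_ring (L₀ := K₀) (s34m_Vinf G M) (s18_chart1 w)).subtype).codRestrict
      (s34x_ring (s34x_infRing (s34m_VV G φ M q hq hqM)) S) (fun g => hβB g g.2) with hbdef
  have ha : ∀ g : s18_ring (L₀ := K₀) (s34m_Vinf G M) (s18_chart1 w),
      ((a g : s34x_ring (s34x_infRing (s34m_VV G φ M q hq hqM)) S) : s34m_F K₀ (M * q)) =
        heckeAlphaBar K₀ M q (g : s34m_F K₀ M) := fun g => rfl
  have hb : ∀ g : s18_ring (L₀ := K₀) (s34m_Vinf G M) (s18_chart1 w),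
      ((b g : s34x_ring (s34x_infRing (s34m_VV G φ M q hq hqM)) S) : s34m_F K₀ (M * q)) =
        heckeBetaBar K₀ M q (g : s34m_F K₀ M) := fun g => rfl
  -- the algebra structures over `G.A` and Zariski's lemma
  letI algBM : Algebra G.A (s18_ring (L₀ := K₀) (s34m_Vinf G M) (s18_chart1 w)) :=
    (s36h_constHom G M w).toAlgebra
  letI algB : Algebra G.A (s34x_ring (s34x_infRing (s34m_VV G φ M q hq hqM)) S) :=
    (s34f_constHom G.A (s34x_infRing (s34m_VV G φ M q hq hqM))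
      (s34x_inf_const_mem (s34m_VV G φ M q hq hqM) G.A (s34c_const_mem_VV G φ M q hq hqM))
      S).toAlgebra
  haveI : Algebra.FiniteType G.A (s34x_ring (s34x_infRing (s34m_VV G φ M q hq hqM)) S) := hFT
  have hkerA : ∀ c : G.A, G.π c = 0 →
      algebraMap G.A (s34x_ring (s34x_infRing (s34m_VV G φ M q hq hqM)) S) c ∈ 𝔪' := by
    intro c hc
    obtain ⟨c', rfl⟩ := (G.π_eq_zero_iff c).mp hc
    rw [map_mul]
    exact Ideal.mul_mem_right _ _ hϖ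
  have hfa : ∀ c : G.A, a (algebraMap G.A _ c) =
      algebraMap G.A (s34x_ring (s34x_infRing (s34m_VV G φ M q hq hqM)) S) c := by
    intro c
    apply Subtype.ext
    rw [ha]
    exact (heckeAlphaBar K₀ M q).commutes _
  have hfb : ∀ c : G.A, b (algebraMap G.A _ c) =
      algebraMap G.A (s34x_ring (s34x_infRing (s34m_VV G φ M q hq hqM)) S) c := by
    intro c
    apply Subtype.ext
    rw [hb]
    exact (heckeBetaBar K₀ M q).commutes _
  haveI hmaxα : (𝔪'.comap a).IsMaximal :=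
    s36el_comap_isMaximal (A := G.A) G.π hπ a hfa 𝔪' hkerA
  haveI hmaxβ : (𝔪'.comap b).IsMaximal :=
    s36el_comap_isMaximal (A := G.A) G.π hπ b hfb 𝔪' hkerA
  have hϖα : ϖM ∈ 𝔪'.comap a := by
    rw [Ideal.mem_comap]
    have e : a ϖM = s35gd_unifB G φ M q hq hqM S := by
      apply Subtype.ext
      rw [ha]
      exact (heckeAlphaBar K₀ M q).commutes _
    rw [e]; exact hϖ
  have hϖβ : ϖM ∈ 𝔪'.comap b := by
    rw [Ideal.mem_comap]
    have e : b ϖM = s35gd_unifB G φ M q hq hqM S := by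
      apply Subtype.ext
      rw [hb]
      exact (heckeBetaBar K₀ M q).commutes _
    rw [e]; exact hϖ
  obtain ⟨t, t₂, ⟨htα, hgα⟩, ⟨htβ, hgβ⟩, hθ, hFr⟩ :=
    s36el_exists_coords G φ M q hq hqM w S a b ha hb 𝔪' hth
      (s18g_redF G M hFM hT hdegM ⟨w, hwV⟩) hA
      (s37b_transcendental_of_coe κ M _ hcoord.1) hwtw ψ hψs ϖM hψk hψc hϖα hϖβ
  -- regularity / centres of `α g`, `β g` at the places through `𝔪'`
  have hreg : ∀ (Q : Place K₀ (s34m_F K₀ (M * q))) (c : s34x_ring (s34x_infRing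
      (s34m_VV G φ M q hq hqM)) S), Q ∈ S → 0 ≤ Q.ord (c : s34m_F K₀ (M * q)) := by
    intro Q c hQ
    by_cases h0 : (c : s34m_F K₀ (M * q)) = 0
    · rw [h0, Place.ord_zero]
    · exact (ff_mem_iff_ord_nonneg Q h0).mp (c.2.2 Q hQ)
  have hthr : ∀ (Q : Place K₀ (s34m_F K₀ (M * q))) (c : s34x_ring (s34x_infRing
      (s34m_VV G φ M q hq hqM)) S),
      s34f_through (s34x_infRing (s34m_VV G φ M q hq hqM)) S 𝔪' Q →
      0 < Q.ord (c : s34m_F K₀ (M * q)) → c ∈ 𝔪' := by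
    intro Q c hQ hpos
    apply hQ c _ hpos
    intro h0
    rw [h0, Place.ord_zero] at hpos
    exact lt_irrefl _ hpos
  obtain ⟨Θ, hΘ0, hΘV', hΘr, hΘord⟩ := s36el_theta_unit G φ M q hq hqM h2 h3 hπ hπq w hwV hαM w₀
    (𝔪'.comap a) (𝔪'.comap b) ϖM t t₂ rfl hϖα htα hgα hϖβ htβ hgβ hθ hFr
    (fun Q => Q ∈ S ∧ s34f_through (s34x_infRing (s34m_VV G φ M q hq hqM)) S 𝔪' Q)
    (fun Q hQ => hj Q hQ.1 hQ.2)
    (fun Q hQ g => by rw [← ha g]; exact hreg Q (a g) hQ.1)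
    (fun Q hQ g hg => Ideal.mem_comap.mpr (hthr Q (a g) hQ.2 (by rw [ha g]; exact hg)))
    (fun Q hQ g => by rw [← hb g]; exact hreg Q (b g) hQ.1)
    (fun Q hQ g hg => Ideal.mem_comap.mpr (hthr Q (b g) hQ.2 (by rw [hb g]; exact hg)))
  exact ⟨(t : s34m_F K₀ M), t.2, Θ, hθ, hΘ0, hΘV', hΘr, fun Q hQ hQt => hΘord Q ⟨hQ, hQt⟩⟩

end Fermat.Agent.Lib.S36
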