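/-
S36 mega-project, sub-layer (R-mid) (helper2, prefix `s36e_`), part 14: `s36p_LocalReg` AT A
NON-CUSPIDAL CLOSED POINT LYING ON `V 1` ONLY, FOR AN EXPLICIT LEVEL-`M` COORDINATE `w`
(all `q`, any charts `S₁`, `S₂`).

`s36e_coord_reg` = helper3's `s36el_mid_localReg_of_theta` with the data `(x, Θ)` produced by
`s36e_coord_theta` (`REisCoord.lean`) and `ℓ := β'(β t) - α'(α t)` (an element of the chart ring `B₂`
by the two chart inclusions `hγ`, `hγβ`).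
-/
import Fermat.Agent.Lib.S36.REisCoord

set_option autoImplicit false
set_option linter.unusedSectionVars false
set_option linter.style.haveILetI false
set_option synthInstance.maxHeartbeats 400000
set_option maxHeartbeats 1600000

noncomputable section

namespace Fermat.Agent.Lib.S36

open ModularCurve AlgebraicCurve HahnSeries Polynomial Fermat.Agent.Lib.FF Fermat.Agent.Lib.S18
  Fermat.Agent.Lib.S37 Fermat.Agent.Lib.S34 Fermat.Agent.Lib.S35 IsLocalRing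

local notation "Kb" => AlgebraicClosure ℚ

variable {K₀ : Type} [Field K₀] [CharZero K₀] [Algebra ℚ K₀] {κ : Type} [Field κ]
  (G : s18g_GaussData K₀ κ) (φ : K₀ →+* Kb) (M q : ℕ) [NeZero M] [NeZero q]
  (hq : q.Prime) (hqM : ¬ q ∣ M) [CharP κ q] [PerfectField κ] [IsDiscreteValuationRing G.A]

local notation "𝓕M" => laurentBaseChange K₀ (modularFunctionFieldFull M)
local notation "hFM" => (fun (f : LaurentSeries K₀)
  (hf : f ∈ laurentBaseChange K₀ (modularFunctionFieldFull M)) => s18g_baseChange_mem_Frac G M hf)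

/-- **Regularity at a non-cuspidal `V 1`-only point, explicit level-`M` coordinate.** -/
theorem s36e_coord_reg (hT : s18g_HT κ M)
    (hdegM : s18g_HDeg K₀ M) (w : ↥𝓕M) [FFGen K₀ w] (hwV : w ∈ s18g_V G 𝓕M hFM)
    (hαM : ∀ y ∈ s18g_V G 𝓕M hFM, ∃ s : G.A[X], s.map G.π ≠ 0 ∧
      (s18b_ev G 𝓕M w).IsIntegralElem (s18b_ev G 𝓕M w s * y))
    (hcoord : s37b_Coord κ q
      ((s18g_redF G M hFM hT hdegM ⟨w, hwV⟩ : ↥(modularFunctionFieldFullC κ M)) : LaurentSeries κ))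
    (hwtw : ∀ τ : κ ≃+* κ, coeffMap (τ : κ →+* κ)
      ((s18g_redF G M hFM hT hdegM ⟨w, hwV⟩ : ↥(modularFunctionFieldFullC κ M)) : LaurentSeries κ) =
      ((s18g_redF G M hFM hT hdegM ⟨w, hwV⟩ : ↥(modularFunctionFieldFullC κ M)) : LaurentSeries κ))
    (hmain : letI := s18f_algF G M hT hdegM w hwV
      ∀ z : ↥(modularFunctionFieldFullC κ M), IsIntegral κ[X] z →
        ∃ (b : ↥𝓕M) (hb : b ∈ s18_ring (L₀ := K₀) (s18g_V G 𝓕M hFM) (s18_chart1 w)),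
          s18g_redF G M hFM hT hdegM ⟨b, hb.1⟩ = z)
    (V : Fin 3 → ValuationSubring (s34m_F K₀ (M * q * q)))
    (S₁ : Set (Place K₀ (s34m_F K₀ (M * q)))) (S₂ : Set (Place K₀ (s34m_F K₀ (M * q * q))))
    (hγ : ∀ b ∈ s34x_ring (s34x_infRing (s34m_VV G φ M q hq hqM)) S₁,
      s36g_alpha M q b ∈ s34x_ring (s34x_infRing V) S₂)
    (hγβ : ∀ b ∈ s34x_ring (s34x_infRing (s34m_VV G φ M q hq hqM)) S₁,
      s36g_beta M q b ∈ s34x_ring (s34x_infRing V) S₂)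
    (hαB : ∀ g ∈ (s18_ring (L₀ := K₀) (s34m_Vinf G M) (s18_chart1 w) : Set (s34m_F K₀ M)),
      heckeAlphaBar K₀ M q g ∈ s34x_ring (s34x_infRing (s34m_VV G φ M q hq hqM)) S₁)
    (hβB : ∀ g ∈ (s18_ring (L₀ := K₀) (s34m_Vinf G M) (s18_chart1 w) : Set (s34m_F K₀ M)),
      heckeBetaBar K₀ M q g ∈ s34x_ring (s34x_infRing (s34m_VV G φ M q hq hqM)) S₁)
    (hFT : @Algebra.FiniteType G.A (s34x_ring (s34x_infRing (s34m_VV G φ M q hq hqM)) S₁) _ _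
      (s34f_constHom G.A (s34x_infRing (s34m_VV G φ M q hq hqM))
        (s34x_inf_const_mem (s34m_VV G φ M q hq hqM) G.A
          (s34c_const_mem_VV G φ M q hq hqM)) S₁).toAlgebra)
    (hint : (s36q_chartMap (s34m_VV G φ M q hq hqM) V S₁ S₂ (s36g_alpha M q) hγ).IsIntegral)
    (h2 : nuTwo M = 0) (h3 : nuThree M = 0)
    (hπ : Function.Surjective G.π) (hπq : G.π ((q : ℕ) : G.A) = 0)
    (w₀ : s34m_F K₀ (M * q)) [FFGen K₀ w₀]
    (𝔫 : Ideal (s34x_ring (s34x_infRing V) S₂)) [h𝔫 : 𝔫.IsPrime] (hmax : 𝔫.IsMaximal)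
    (hC : s36g_ValComap G φ M q hq hqM V)
    (hU : s36g_ValUnif G M q V (s36m_t (K₀ := K₀) M q))
    (hRE : s36e_ValRedEis G φ M q hq hqM V)
    (hD₁ : s35f_Dict (s34m_VV G φ M q hq hqM) S₁) (hD₂ : s35f_Dict V S₂)
    (h1 : s36q_compThrough V S₂ 𝔫 1) (honly : ∀ k, s36q_compThrough V S₂ 𝔫 k → k = 1)
    (honly' : ∀ i, s36q_compThrough (s34m_VV G φ M q hq hqM) S₁
      (s36q_pt (s34m_VV G φ M q hq hqM) V S₁ S₂ (s36g_alpha M q) hγ 𝔫) i → i = true)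
    (u' w' : Localization.AtPrime
      (s36q_pt (s34m_VV G φ M q hq hqM) V S₁ S₂ (s36g_alpha M q) hγ 𝔫))
    (hm' : maximalIdeal (Localization.AtPrime
      (s36q_pt (s34m_VV G φ M q hq hqM) V S₁ S₂ (s36g_alpha M q) hγ 𝔫)) = Ideal.span {u', w'})
    (hw' : s34f_iota (s34x_infRing (s34m_VV G φ M q hq hqM)) S₁
      (s36q_pt (s34m_VV G φ M q hq hqM) V S₁ S₂ (s36g_alpha M q) hγ 𝔫) w' ∈
        (s34m_VV G φ M q hq hqM true).nonunits)
    (hu' : s34f_iota (s34x_infRing (s34m_VV G φ M q hq hqM)) S₁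
      (s36q_pt (s34m_VV G φ M q hq hqM) V S₁ S₂ (s36g_alpha M q) hγ 𝔫) u' ∉
        (s34m_VV G φ M q hq hqM true).nonunits)
    (hfrac : s36q_Frac (s34m_VV G φ M q hq hqM) V S₁ (s36g_alpha M q) true 1)
    (hj : ∀ Q ∈ S₁, s34f_through (s34x_infRing (s34m_VV G φ M q hq hqM)) S₁
      (s36q_pt (s34m_VV G φ M q hq hqM) V S₁ S₂ (s36g_alpha M q) hγ 𝔫) Q →
      0 ≤ Q.ord (s18g_jF (K := K₀) (M * q)))
    (m : ℕ) (hm : m ≠ 0) :
    s36p_LocalReg V S₂ 𝔫 m := by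
  classical
  set 𝔪' := s36q_pt (s34m_VV G φ M q hq hqM) V S₁ S₂ (s36g_alpha M q) hγ 𝔫 with h𝔪'
  haveI hmax' : 𝔪'.IsMaximal :=
    haveI := hmax
    Ideal.isMaximal_comap_of_isIntegral_of_isMaximal' _ hint 𝔫
  have hthi : s36q_compThrough (s34m_VV G φ M q hq hqM) S₁ 𝔪' true :=
    s36q_compThrough_comap (s34m_VV G φ M q hq hqM) V S₁ S₂ (s36g_alpha M q) hγ 𝔫 true 1
      (fun x => (s36b_alpha_mem_iff G φ M q hq hqM hC x).2.1) h1
  have hϖ : s35gd_unifB G φ M q hq hqM S₁ ∈ 𝔪' :=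
    hthi _ (s36e_unif_mem_nonunits_VV G φ M q hq hqM true)
  obtain ⟨t, ht, Θ, hθ, hΘ0, hΘV', ⟨hΘV, hΘr⟩, hΘord⟩ :=
    s36e_coord_theta G φ M q hq hqM hT hdegM w hwV hαM hcoord hwtw hmain S₁ hαB hβB hFT h2 h3 hπ
      hπq w₀ 𝔪' hϖ hthi hj
  -- the element `ℓ`
  have hℓmem : s36g_beta M q (heckeBetaBar K₀ M q t) - s36g_alpha M q (heckeAlphaBar K₀ M q t) ∈
      s34x_ring (s34x_infRing V) S₂ :=
    sub_mem (hγβ _ (hβB t ht)) (hγ _ (hαB t ht))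
  exact s36el_mid_localReg_of_theta G φ M q hq hqM V S₁ S₂ hγ 𝔫 hπ hC hU hRE hD₁ hD₂ h1 honly
    honly' u' w' hm' hw' hu' hfrac ⟨t, ht.1⟩ hθ
    (algebraMap (s34x_ring (s34x_infRing V) S₂) (Localization.AtPrime 𝔫) ⟨_, hℓmem⟩)
    (s34f_iota_algebraMap _ _ _ _) Θ hΘ0 hΘV' hΘV hΘr hΘord m hm

end Fermat.Agent.Lib.S36
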