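/-
S36 mega-project, sub-layer (R-mid) (helper2, prefix `s36e_`), part 12: THE EISENSTEIN CONTRACT FOR
EVERY VALUATION PACKAGE (the hypothesis `hRE` of `s36e_mid_reg`, `s36m_mc_reg`, `s36el_*` under the
leaf contract `s36g_LeafReg`): helper6's `s36m_exists_pkg_eis` + uniqueness of the package
(`s36e_valRedEis_transport`).
-/
import Fermat.Agent.Lib.S36.REisBridge
import Fermat.Agent.Lib.S36.MPkgFinal

set_option autoImplicit false
set_option linter.unusedSectionVars false

noncomputable section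

namespace Fermat.Agent.Lib.S36

open Fermat.Agent.Lib.S18 Fermat.Agent.Lib.S34

local notation "Kb" => AlgebraicClosure ℚ

variable {K₀ κ : Type} [Field K₀] [Algebra ℚ K₀] [Field κ] (G : s18g_GaussData K₀ κ)
  (φ : K₀ →+* Kb) (M q : ℕ) [NeZero M] [NeZero q] (hq : q.Prime) (hqM : ¬ q ∣ M)

/-- **`hRE` for every package.** -/
theorem s36e_valRedEis_of_pkg [CharP κ q]
    (hunr : ∃ u : G.A, IsUnit u ∧ ((q : ℕ) : G.A) = G.ϖ * u)
    (V : Fin 3 → ValuationSubring (s34m_F K₀ (M * q * q))) {t : s34m_F K₀ (M * q * q)}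
    (hP : s36g_ValPkg G φ M q hq hqM V t) : s36e_ValRedEis G φ M q hq hqM V := by
  obtain ⟨V', hP', hE'⟩ := s36m_exists_pkg_eis G φ M q hq hqM hunr
  exact s36e_valRedEis_transport G φ M q hq hqM V V' hP.2.2.2.1 hP.2.2.2.2.1 hP'.1 hE'

end Fermat.Agent.Lib.S36
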