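/-
S36 mega-project, sub-layer (R-mid) (helper2, prefix `s36e_`), part 2: THE CONSUMER FORM.

At a closed point `𝔫` of the chart of level `M q²` through which only the Eisenstein component `j`
passes (frame and hypotheses of `REisAbs.lean`), the three inputs `hLE`, `hℓ`, `hN` of helper3's
`s36y_loc_of_single` (`XLocLift.lean`) hold; hence (LOC) modulo the radical:
`∃ a ∈ L(E_{f,m}), ∃ s ∉ 𝔫, ∀ k, a - s ∈ 𝔪(O₂ k)` — the hypothesis `hloc` of lead's `s36x_zero_inf`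
at this point.
-/
import Fermat.Agent.Lib.S36.REisAbs
import Fermat.Agent.Lib.S36.XLocLift

set_option autoImplicit false

noncomputable section

namespace Fermat.Agent.Lib.S36

open AlgebraicCurve Fermat.Agent.Lib.FF Fermat.Agent.Lib.S18 Fermat.Agent.Lib.S34 IsLocalRing

variable {L₀ 𝓕₁ 𝓕₂ : Type*} [Field L₀] [Field 𝓕₁] [Field 𝓕₂] [Algebra L₀ 𝓕₁] [Algebra L₀ 𝓕₂]
variable {ι₁ ι₂ : Type*} (O₁ : ι₁ → ValuationSubring 𝓕₁) (O₂ : ι₂ → ValuationSubring 𝓕₂)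
  (S₁ : Set (Place L₀ 𝓕₁)) (S₂ : Set (Place L₀ 𝓕₂)) (γ : 𝓕₁ →+* 𝓕₂)
  (hγ : ∀ b ∈ s34x_ring (s34x_infRing O₁) S₁, γ b ∈ s34x_ring (s34x_infRing O₂) S₂)
  (𝔫 : Ideal (s34x_ring (s34x_infRing O₂) S₂)) [h𝔫 : 𝔫.IsPrime]
  (i : ι₁) (j : ι₂) (hcomap : ∀ x : 𝓕₁, γ x ∈ O₂ j ↔ x ∈ O₁ i)
  [hB₁ : IsNoetherianRing (s34x_ring (s34x_infRing O₁) S₁)] [Fintype ι₂]
  [hB₂ : IsNoetherianRing (s34x_ring (s34x_infRing O₂) S₂)]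

include hcomap in
/-- **(LOC) modulo the radical at a point on the Eisenstein component only.** -/
theorem s36e_loc_single (hA : s36q_Arch O₂) (hj : s36q_compThrough O₂ S₂ 𝔫 j)
    (honly : ∀ k, s36q_compThrough O₂ S₂ 𝔫 k → k = j)
    (F3 : ∀ y : 𝓕₂, y ≠ 0 → {Q : Place L₀ 𝓕₂ | Q ∈ S₂ ∧ Q.ord y ≠ 0}.Finite)
    (u' w' : Localization.AtPrime (s36q_pt O₁ O₂ S₁ S₂ γ hγ 𝔫))
    (hm' : maximalIdeal (Localization.AtPrime (s36q_pt O₁ O₂ S₁ S₂ γ hγ 𝔫)) =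
      Ideal.span {u', w'})
    (hw' : s34f_iota (s34x_infRing O₁) S₁ (s36q_pt O₁ O₂ S₁ S₂ γ hγ 𝔫) w' ∈ (O₁ i).nonunits)
    (hu' : s34f_iota (s34x_infRing O₁) S₁ (s36q_pt O₁ O₂ S₁ S₂ γ hγ 𝔫) u' ∉ (O₁ i).nonunits)
    (hfrac : ∀ y ∈ O₂ j, ∃ b c : s34x_ring (s34x_infRing O₁) S₁,
      (c : 𝓕₁) ∉ (O₁ i).nonunits ∧ y * γ (c : 𝓕₁) - γ (b : 𝓕₁) ∈ (O₂ j).nonunits)
    (ℓ : Localization.AtPrime 𝔫)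
    (hℓj : s34f_iota (s34x_infRing O₂) S₂ 𝔫 ℓ ∈ (O₂ j).nonunits)
    (hgen : ∀ y ∈ (O₂ j).nonunits, ∃ c ∈ O₂ j, y = s34f_iota (s34x_infRing O₂) S₂ 𝔫 ℓ * c)
    (e : ℕ) (he : e ≠ 0) (π : 𝓕₂) (hπ0 : π ≠ 0) (hπ : ∀ Q ∈ S₂, Q.ord π = 0)
    (z₁ : Localization.AtPrime 𝔫) (hz₁ : IsUnit z₁)
    (hcong : s34f_iota (s34x_infRing O₂) S₂ 𝔫 ℓ ^ e / π - s34f_iota (s34x_infRing O₂) S₂ 𝔫 z₁ ∈
      (O₂ j).nonunits)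
    (b : s34x_ring (s34x_infRing O₂) S₂) (hb : b ∈ 𝔫) (hb0 : (b : 𝓕₂) ≠ 0)
    (hbS : ∀ Q ∈ S₂, Q.ord (b : 𝓕₂) = 0)
    (F1 : ∀ Q ∈ S₂, ∃ u : s34x_ring (s34x_infRing O₂) S₂, Q.ord (u : 𝓕₂) = 1)
    (F2 : ∀ Q ∈ S₂, ∀ Q' ∈ S₂, Q' ≠ Q → ∃ y : s34x_ring (s34x_infRing O₂) S₂,
      0 < Q.ord (y : 𝓕₂) ∧ Q'.ord (y : 𝓕₂) = 0)
    (f : 𝓕₂) (hf0 : f ≠ 0) (m : ℕ) (hmR : IsUnit ((m : ℕ) : Localization.AtPrime 𝔫))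
    (hdiv : ∀ Q ∈ S₂, s34f_through (s34x_infRing O₂) S₂ 𝔫 Q → (m : ℤ) ∣ Q.ord f)
    (hf1 : ∀ k, s36q_compThrough O₂ S₂ 𝔫 k → f - 1 ∈ (O₂ k).nonunits) :
    ∃ a ∈ s34x_latSet (s34x_infRing O₂) S₂ (s18_E f m),
      ∃ s : s34x_ring (s34x_infRing O₂) S₂, s ∉ 𝔫 ∧ ∀ k, a - (s : 𝓕₂) ∈ (O₂ k).nonunits := by
  have hm0 : m ≠ 0 := by
    rintro rfl
    rw [Nat.cast_zero] at hmR
    exact not_isUnit_zero hmR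
  obtain ⟨-, -, -, -, -, hw0, -, hord, -⟩ := s36e_KD O₁ O₂ S₁ S₂ γ hγ 𝔫 i j hcomap hA hj
    honly F3 u' w' hm' hw' hu' hfrac ℓ hℓj hgen e he π hπ0 hπ z₁ hz₁ hcong
  have hℓ0 : s34f_iota (s34x_infRing O₂) S₂ 𝔫 ℓ ≠ 0 := by
    intro h
    apply hw0
    apply s34f_iota_injective (s34x_infRing O₂) S₂ 𝔫
    rw [h, map_zero]
  refine s36y_loc_of_single O₂ S₂ 𝔫 hA F3 f hf0 m hmR hdiv hf1 ?_
    (s36e_branch O₂ S₂ 𝔫 hA j honly ℓ hℓ0 hℓj hgen hord) ?_ ?_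
  · intro Q hQS hth _
    exact s36e_locEq O₁ O₂ S₁ S₂ γ hγ 𝔫 i j hcomap hA hj honly F3 u' w' hm' hw' hu' hfrac ℓ hℓj
      hgen e he π hπ0 hπ z₁ hz₁ hcong Q hQS hth b hb hb0 (hbS Q hQS) (F1 Q hQS) (F2 Q hQS)
  · intro k hk y hy a ha hya
    have hkj := honly k hk
    subst hkj
    obtain ⟨s, -, hs⟩ := s36e_normal O₁ O₂ S₁ S₂ γ hγ 𝔫 i k hcomap hj u' w' hm' hw' hfrac m hm0
      y hy a ha hya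
    exact ⟨s, hs⟩
  · intro k k' hk hk'
    rw [honly k hk, honly k' hk']

end Fermat.Agent.Lib.S36
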