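/-
S36 mega-project, sub-layer (R-mid), ELLIPTIC / GENERAL-COORDINATE case (helper3, prefix `s36el_`),
part 3: THE SPECIAL FIBRE OF LEVEL `M` (`κ` perfect of characteristic `q`).

`F̄ = F_κ(M) ⊂ κ((T))`, `D' =` the integral closure of `κ[X]` in `F̄` (`X ↦ x`, `x` a coordinate),
assumed Dedekind with fraction field `F̄` (`s37b_dedekind_of_coord`).

* `s36el_exists_not_mem_sq` : a maximal ideal `𝔭` of `D'` has an element `d ∈ 𝔭 ∖ 𝔭²`
  (`D'` is not a field as `x` is transcendental);
* `s36el_theta_ne_zero`     : **`θ d ≠ 0` for `d ∈ 𝔭 ∖ 𝔭²`** (`𝔭` a prime of `D'`): `d` is not a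
  `q`-th power, so `F̄ / κ(d)` is separable (`s18t_isSeparable_of_not_pow`), and a derivation killing
  `d` would kill `j̄`;
* `s36el_twist`             : the coefficientwise Frobenius twists `d ↦ Fr^{±1} d` on `D'` when `x` has
  Frobenius-fixed coefficients.
-/
import Fermat.Agent.Lib.S36.REllAbs
import Fermat.Agent.Lib.S36.REisThetaK
import Fermat.Agent.Lib.S34.DFibreD
import Fermat.Agent.Lib.S37.BGen
import Fermat.Agent.Lib.S18.TSep

set_option autoImplicit false
set_option linter.unusedSectionVars false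
set_option linter.style.haveILetI false

noncomputable section

namespace Fermat.Agent.Lib.S36

open ModularCurve AlgebraicCurve HahnSeries Polynomial IntermediateField
open Fermat.Agent.Lib.FF Fermat.Agent.Lib.S18 Fermat.Agent.Lib.S34 Fermat.Agent.Lib.S37

variable {κ : Type} [Field κ] (M : ℕ) [NeZero M]
  [algF : Algebra κ[X] ↥(modularFunctionFieldFullC κ M)]
  (x : ↥(modularFunctionFieldFullC κ M))
  (hA : ∀ p : κ[X], algebraMap κ[X] ↥(modularFunctionFieldFullC κ M) p = Polynomial.aeval x p)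

include hA in
/-- the scalar tower `κ → κ[X] → F̄`. -/
theorem s36el_tower : IsScalarTower κ κ[X] ↥(modularFunctionFieldFullC κ M) :=
  IsScalarTower.of_algebraMap_eq fun a => by
    rw [Polynomial.algebraMap_apply, hA, Polynomial.aeval_C]
    rfl

include hA in
/-- an element of `F̄` algebraic over `κ` whose inverse... : a nonzero element of a proper ideal of
`D'` is transcendental over `κ`. -/
theorem s36el_transcendental_of_mem
    (𝔭 : Ideal ↥(integralClosure κ[X] ↥(modularFunctionFieldFullC κ M))) (h𝔭 : 𝔭 ≠ ⊤)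
    (d : ↥(integralClosure κ[X] ↥(modularFunctionFieldFullC κ M))) (hd : d ∈ 𝔭) (hd0 : d ≠ 0) :
    Transcendental κ (d : ↥(modularFunctionFieldFullC κ M)) := by
  intro halg
  haveI := s36el_tower M x hA
  have hint : IsIntegral κ ((d : ↥(modularFunctionFieldFullC κ M)))⁻¹ := halg.inv.isIntegral
  have hint' : IsIntegral κ[X] ((d : ↥(modularFunctionFieldFullC κ M)))⁻¹ := hint.tower_top
  have hd0' : (d : ↥(modularFunctionFieldFullC κ M)) ≠ 0 := fun h => hd0 (Subtype.ext h)
  have h1 : d * ⟨_, hint'⟩ = 1 := Subtype.ext (mul_inv_cancel₀ hd0')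
  apply h𝔭
  rw [Ideal.eq_top_iff_one, ← h1]
  exact Ideal.mul_mem_right _ _ hd

variable [IsDedekindDomain ↥(integralClosure κ[X] ↥(modularFunctionFieldFullC κ M))]
  [IsFractionRing ↥(integralClosure κ[X] ↥(modularFunctionFieldFullC κ M))
    ↥(modularFunctionFieldFullC κ M)]

include hA in
/-- **A maximal ideal of `D'` has an element outside its square.** -/
theorem s36el_exists_not_mem_sq (hx : Transcendental κ x)
    (𝔭 : Ideal ↥(integralClosure κ[X] ↥(modularFunctionFieldFullC κ M))) [h𝔭 : 𝔭.IsMaximal] :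
    ∃ d ∈ 𝔭, d ∉ 𝔭 ^ 2 := by
  have hbot : 𝔭 ≠ ⊥ := by
    intro h0
    have hfield : IsField ↥(integralClosure κ[X] ↥(modularFunctionFieldFullC κ M)) := by
      rw [Ring.isField_iff_maximal_bot, ← h0]
      exact h𝔭
    have hinj : Function.Injective
        (algebraMap κ[X] ↥(integralClosure κ[X] ↥(modularFunctionFieldFullC κ M))) := by
      intro p₁ p₂ h
      have h' := congrArg (fun z : ↥(integralClosure κ[X] ↥(modularFunctionFieldFullC κ M)) =>
        (z : ↥(modularFunctionFieldFullC κ M))) h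
      have h'' : algebraMap κ[X] ↥(modularFunctionFieldFullC κ M) p₁ =
          algebraMap κ[X] ↥(modularFunctionFieldFullC κ M) p₂ := h'
      rw [hA, hA] at h''
      exact (transcendental_iff_injective.mp hx) h''
    exact Polynomial.not_isField κ (isField_of_isIntegral_of_isField hinj hfield)
  obtain ⟨d, hd, hd2⟩ := Ideal.exists_mem_pow_notMem_pow_succ 𝔭 hbot h𝔭.ne_top 1
  rw [pow_one] at hd
  exact ⟨d, hd, hd2⟩

variable (q : ℕ) [hqF : Fact q.Prime] [CharP κ q] [PerfectField κ]

include hA q in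
/-- **`θ d ≠ 0` for `d ∈ 𝔭 ∖ 𝔭²`.** -/
theorem s36el_theta_ne_zero
    (𝔭 : Ideal ↥(integralClosure κ[X] ↥(modularFunctionFieldFullC κ M))) [h𝔭 : 𝔭.IsPrime]
    (d : ↥(integralClosure κ[X] ↥(modularFunctionFieldFullC κ M))) (hd : d ∈ 𝔭)
    (hd2 : d ∉ 𝔭 ^ 2) :
    ffd_theta (((d : ↥(modularFunctionFieldFullC κ M)) : LaurentSeries κ)) ≠ 0 := by
  haveI : CharP ↥(modularFunctionFieldFullC κ M) q :=
    ((algebraMap κ ↥(modularFunctionFieldFullC κ M)).charP_iff_charP q).mp inferInstance
  have hd0 : d ≠ 0 := by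
    rintro rfl
    exact hd2 (Ideal.zero_mem _)
  -- `d` is not a `q`-th power
  have hpow : ∀ y : ↥(modularFunctionFieldFullC κ M),
      y ^ q ≠ (d : ↥(modularFunctionFieldFullC κ M)) :=
    s36el_not_pow_of_not_mem_sq 𝔭 d hd hd2 q hqF.out.two_le
  -- `d` is transcendental, hence a generator
  have htr := s36el_transcendental_of_mem M x hA 𝔭 h𝔭.ne_top d hd hd0
  haveI : FFGen κ (⟨jqModC κ, jqModC_mem_full κ M⟩ : ↥(modularFunctionFieldFullC κ M)) :=
    s37b_ffGen_jF κ M
  haveI : FFGen κ (d : ↥(modularFunctionFieldFullC κ M)) :=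
    ff_gen_of_transcendental (x := (⟨jqModC κ, jqModC_mem_full κ M⟩ :
      ↥(modularFunctionFieldFullC κ M))) htr
  haveI : FiniteDimensional ↥κ⟮(d : ↥(modularFunctionFieldFullC κ M))⟯
      ↥(modularFunctionFieldFullC κ M) := FFGen.finite
  haveI : Algebra.IsAlgebraic ↥κ⟮(d : ↥(modularFunctionFieldFullC κ M))⟯
      ↥(modularFunctionFieldFullC κ M) := Algebra.IsAlgebraic.of_finite _ _
  have hsep : IsSeparable ↥κ⟮(d : ↥(modularFunctionFieldFullC κ M))⟯
      (⟨jqModC κ, jqModC_mem_full κ M⟩ : ↥(modularFunctionFieldFullC κ M)) :=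
    s18t_isSeparable_of_not_pow q (d : ↥(modularFunctionFieldFullC κ M)) hpow _
      (Algebra.IsAlgebraic.isAlgebraic _)
  -- the derivation `θ`
  haveI := ffd_isScalarTower (modularFunctionFieldFullC κ M)
  let dθ : Derivation κ ↥(modularFunctionFieldFullC κ M) (LaurentSeries κ) :=
    (ffd_thetaDeriv (K := κ)).compAlgebraMap ↥(modularFunctionFieldFullC κ M)
  intro h0
  have hdθ : dθ (d : ↥(modularFunctionFieldFullC κ M)) = 0 := h0
  have := s36el_deriv_eq_zero_of_separable dθ (d : ↥(modularFunctionFieldFullC κ M)) hdθ _ hsep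
  exact s36e_theta_jqModC_ne_zero κ this

/-! ### The coefficientwise twists on `D'` -/

omit [IsDedekindDomain ↥(integralClosure κ[X] ↥(modularFunctionFieldFullC κ M))]
  [IsFractionRing ↥(integralClosure κ[X] ↥(modularFunctionFieldFullC κ M))
    ↥(modularFunctionFieldFullC κ M)] hqF [CharP κ q] [PerfectField κ] in
/-- the coefficientwise twist by `τ ∈ Aut κ` on `D'` (`x` has `τ`-fixed coefficients). -/
def s36el_twist (τ : κ ≃+* κ)
    (hτ : coeffMap (τ : κ →+* κ) (x : LaurentSeries κ) = (x : LaurentSeries κ)) :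
    ↥(integralClosure κ[X] ↥(modularFunctionFieldFullC κ M)) →+*
      ↥(integralClosure κ[X] ↥(modularFunctionFieldFullC κ M)) :=
  (((s37e_coeffRingAut M τ : ↥(modularFunctionFieldFullC κ M) ≃+* _) :
      ↥(modularFunctionFieldFullC κ M) →+* ↥(modularFunctionFieldFullC κ M)).comp
    (algebraMap ↥(integralClosure κ[X] ↥(modularFunctionFieldFullC κ M))
      ↥(modularFunctionFieldFullC κ M))).codRestrict
    (integralClosure κ[X] ↥(modularFunctionFieldFullC κ M))
    (fun d => s34df_isIntegral_twist M τ x hτ hA d d.2)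

theorem s36el_coe_twist (τ : κ ≃+* κ)
    (hτ : coeffMap (τ : κ →+* κ) (x : LaurentSeries κ) = (x : LaurentSeries κ))
    (d : ↥(integralClosure κ[X] ↥(modularFunctionFieldFullC κ M))) :
    (((s36el_twist M x hA τ hτ d : ↥(integralClosure κ[X] ↥(modularFunctionFieldFullC κ M))) :
      ↥(modularFunctionFieldFullC κ M)) : LaurentSeries κ) =
      coeffMap (τ : κ →+* κ) ((d : ↥(modularFunctionFieldFullC κ M)) : LaurentSeries κ) := rfl

end Fermat.Agent.Lib.S36
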