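/-
S36 mega-project, sub-layer (R-mid), ELLIPTIC / GENERAL-COORDINATE case (helper3, prefix `s36el_`),
part 4: **THE PAIR OF LOCAL COORDINATES `(t, t₂)` OF LEVEL `M`** at the two images of a closed point
of level `M q` lying on `C'_∞`.

Frame: `BM = s18_ring (V_M) (chart1 w)` the chart ring of level `M`, `ψ : BM ↠ D'` its reduction onto
the Dedekind ring `D'` of the special fibre (kernel `(ϖ)`), `a, b : BM →+* B₁` the restrictions of
`α, β` to the chart ring `B₁` of a chart `S` of level `M q`, `𝔪'` a prime of `B₁` through which `V'_∞`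
passes (`ker red_∞ ⊆ 𝔪'`), `𝔪_α = a⁻¹ 𝔪'`, `𝔪_β = b⁻¹ 𝔪'` (assumed maximal).

* `s36el_frob_iff`      : for `g, g₂ ∈ BM` with `red g₂ = Fr (red g)`: `g ∈ 𝔪_α ↔ g₂ ∈ 𝔪_β`
  (`red_∞ (β g₂) = (red g₂)(T^q) = (red g)^q = red_∞ ((α g)^q)`);
* **`s36el_exists_coords`** : there are `t ∈ 𝔪_α`, `t₂ ∈ 𝔪_β` with the element forms of
  `𝔪_α (BM)_{𝔪_α} = (t, ϖ)`, `𝔪_β (BM)_{𝔪_β} = (t₂, ϖ)`, `θ (red t) ≠ 0` and
  `red t₂ = Fr (red t)` (coefficientwise Frobenius).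
-/
import Fermat.Agent.Lib.S36.REllFibre
import Fermat.Agent.Lib.S36.REisPt

set_option autoImplicit false
set_option linter.unusedSectionVars false
set_option linter.style.haveILetI false
set_option maxHeartbeats 800000

noncomputable section

namespace Fermat.Agent.Lib.S36

open ModularCurve AlgebraicCurve HahnSeries Polynomial IntermediateField
open Fermat.Agent.Lib.FF Fermat.Agent.Lib.S18 Fermat.Agent.Lib.S34 Fermat.Agent.Lib.S35
  Fermat.Agent.Lib.S37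

local notation "Kb" => AlgebraicClosure ℚ

section Abs

/-- images of maximal ideals under a surjection with small kernel. -/
theorem s36el_map_isMaximal {B D : Type*} [CommRing B] [CommRing D] (ψ : B →+* D)
    (hψ : Function.Surjective ψ) (𝔪 : Ideal B) [h𝔪 : 𝔪.IsMaximal] (hk : RingHom.ker ψ ≤ 𝔪) :
    (𝔪.map ψ).IsMaximal ∧ Ideal.comap ψ (𝔪.map ψ) = 𝔪 := by
  have hcm : Ideal.comap ψ (𝔪.map ψ) = 𝔪 := by
    rw [Ideal.comap_map_of_surjective ψ hψ]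
    exact sup_eq_left.mpr hk
  refine ⟨?_, hcm⟩
  rcases Ideal.map_eq_top_or_isMaximal_of_surjective ψ hψ h𝔪 with h | h
  · exfalso
    rw [h, Ideal.comap_top] at hcm
    exact h𝔪.ne_top hcm.symm
  · exact h

end Abs

variable {K₀ : Type} [Field K₀] [CharZero K₀] [Algebra ℚ K₀] {κ : Type} [Field κ]
  (G : s18g_GaussData K₀ κ) (φ : K₀ →+* Kb) (M q : ℕ) [NeZero M] [NeZero q]
  (hq : q.Prime) (hqM : ¬ q ∣ M) [hqF : Fact q.Prime] [CharP κ q] [PerfectField κ]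
  (w : s34m_F K₀ M) (S : Set (Place K₀ (s34m_F K₀ (M * q))))
  (a b : s18_ring (L₀ := K₀) (s34m_Vinf G M) (s18_chart1 w) →+*
    s34x_ring (s34x_infRing (s34m_VV G φ M q hq hqM)) S)
  (ha : ∀ g : s18_ring (L₀ := K₀) (s34m_Vinf G M) (s18_chart1 w),
    ((a g : s34x_ring (s34x_infRing (s34m_VV G φ M q hq hqM)) S) : s34m_F K₀ (M * q)) =
      heckeAlphaBar K₀ M q (g : s34m_F K₀ M))
  (hb : ∀ g : s18_ring (L₀ := K₀) (s34m_Vinf G M) (s18_chart1 w),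
    ((b g : s34x_ring (s34x_infRing (s34m_VV G φ M q hq hqM)) S) : s34m_F K₀ (M * q)) =
      heckeBetaBar K₀ M q (g : s34m_F K₀ M))
  (𝔪' : Ideal (s34x_ring (s34x_infRing (s34m_VV G φ M q hq hqM)) S)) [h𝔪' : 𝔪'.IsPrime]
  (hth : s36q_compThrough (s34m_VV G φ M q hq hqM) S 𝔪' true)

include ha hb hth in
/-- **Frobenius relates the two images of a point of `C'_∞`.** -/
theorem s36el_frob_iff (g g₂ : s18_ring (L₀ := K₀) (s34m_Vinf G M) (s18_chart1 w))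
    (hg : s34m_redInf G M ⟨(g₂ : s34m_F K₀ M), g₂.2.1⟩ =
      coeffMap (frobenius κ q) (s34m_redInf G M ⟨(g : s34m_F K₀ M), g.2.1⟩)) :
    g ∈ 𝔪'.comap a ↔ g₂ ∈ 𝔪'.comap b := by
  have hαV : heckeAlphaBar K₀ M q (g : s34m_F K₀ M) ∈ s34m_Vinf G (M * q) :=
    s34m_alpha_mem_Vinf G M q g.2.1
  have hβV : heckeBetaBar K₀ M q (g₂ : s34m_F K₀ M) ∈ s34m_Vinf G (M * q) :=
    s34m_beta_mem_Vinf G M q g₂.2.1
  have hdV : heckeBetaBar K₀ M q (g₂ : s34m_F K₀ M) -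
      heckeAlphaBar K₀ M q (g : s34m_F K₀ M) ^ q ∈ s34m_Vinf G (M * q) :=
    sub_mem hβV (pow_mem hαV q)
  have hred : s34m_redInf G (M * q) ⟨_, hdV⟩ = 0 := by
    have e : (⟨_, hdV⟩ : s34m_Vinf G (M * q)) = ⟨_, hβV⟩ - ⟨_, hαV⟩ ^ q := rfl
    rw [e, map_sub, map_pow, s34m_redInf_beta G M q ⟨(g₂ : s34m_F K₀ M), g₂.2.1⟩,
      s34m_redInf_alpha G M q ⟨(g : s34m_F K₀ M), g.2.1⟩, hg, ← s37e_pow_char q, sub_self]
  have hnu : heckeBetaBar K₀ M q (g₂ : s34m_F K₀ M) -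
      heckeAlphaBar K₀ M q (g : s34m_F K₀ M) ^ q ∈ (s34m_VV G φ M q hq hqM true).nonunits := by
    obtain ⟨z, hz, e⟩ := (s34m_redInf_eq_zero_iff G (M * q) ⟨_, hdV⟩).mp hred
    exact (s36e_mem_nonunits_VV_iff G φ M q hq hqM true _ hdV).mpr ⟨z, hz, e⟩
  have hmem : b g₂ - a g ^ q ∈ 𝔪' := by
    apply hth
    have e : ((b g₂ - a g ^ q : s34x_ring (s34x_infRing (s34m_VV G φ M q hq hqM)) S) :
        s34m_F K₀ (M * q)) =
        ((b g₂ : s34x_ring (s34x_infRing (s34m_VV G φ M q hq hqM)) S) : s34m_F K₀ (M * q)) -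
          ((a g : s34x_ring (s34x_infRing (s34m_VV G φ M q hq hqM)) S) : s34m_F K₀ (M * q)) ^ q :=
      rfl
    rw [e, ha, hb]
    exact hnu
  rw [Ideal.mem_comap, Ideal.mem_comap]
  constructor
  · intro h
    have h2 : a g ^ q ∈ 𝔪' := Ideal.pow_mem_of_mem _ h q hq.pos
    have := 𝔪'.add_mem hmem h2
    rwa [sub_add_cancel] at this
  · intro h
    have h2 : a g ^ q ∈ 𝔪' := by
      have := 𝔪'.sub_mem h hmem
      rwa [sub_sub_cancel] at this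
    exact h𝔪'.mem_of_pow_mem q h2

variable [algF : Algebra κ[X] ↥(modularFunctionFieldFullC κ M)]
  (x : ↥(modularFunctionFieldFullC κ M))
  (hA : ∀ p : κ[X], algebraMap κ[X] ↥(modularFunctionFieldFullC κ M) p = Polynomial.aeval x p)
  [IsDedekindDomain ↥(integralClosure κ[X] ↥(modularFunctionFieldFullC κ M))]
  [IsFractionRing ↥(integralClosure κ[X] ↥(modularFunctionFieldFullC κ M))
    ↥(modularFunctionFieldFullC κ M)]
  (hxtr : Transcendental κ x)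
  (hxtw : ∀ τ : κ ≃+* κ, coeffMap (τ : κ →+* κ) (x : LaurentSeries κ) = (x : LaurentSeries κ))
  (ψ : s18_ring (L₀ := K₀) (s34m_Vinf G M) (s18_chart1 w) →+*
    ↥(integralClosure κ[X] ↥(modularFunctionFieldFullC κ M)))
  (hψs : Function.Surjective ψ)
  (ϖM : s18_ring (L₀ := K₀) (s34m_Vinf G M) (s18_chart1 w))
  (hψk : RingHom.ker ψ = Ideal.span {ϖM})
  (hψc : ∀ g : s18_ring (L₀ := K₀) (s34m_Vinf G M) (s18_chart1 w),
    (((ψ g : ↥(integralClosure κ[X] ↥(modularFunctionFieldFullC κ M))) :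
      ↥(modularFunctionFieldFullC κ M)) : LaurentSeries κ) =
      s34m_redInf G M ⟨(g : s34m_F K₀ M), g.2.1⟩)

include ha hb hth hA hxtr hxtw hψs hψk hψc in
/-- **The pair of local coordinates of level `M`.** -/
theorem s36el_exists_coords [hα : (𝔪'.comap a).IsMaximal] [hβ : (𝔪'.comap b).IsMaximal]
    (hϖα : ϖM ∈ 𝔪'.comap a) (hϖβ : ϖM ∈ 𝔪'.comap b) :
    ∃ t t₂ : s18_ring (L₀ := K₀) (s34m_Vinf G M) (s18_chart1 w),
      (t ∈ 𝔪'.comap a ∧ ∀ y ∈ 𝔪'.comap a, ∃ c, c ∉ 𝔪'.comap a ∧ ∃ z b', c * y = z * t + b' * ϖM) ∧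
      (t₂ ∈ 𝔪'.comap b ∧
        ∀ y ∈ 𝔪'.comap b, ∃ c, c ∉ 𝔪'.comap b ∧ ∃ z b', c * y = z * t₂ + b' * ϖM) ∧
      ffd_theta (s34m_redInf G M ⟨(t : s34m_F K₀ M), t.2.1⟩) ≠ 0 ∧
      s34m_redInf G M ⟨(t₂ : s34m_F K₀ M), t₂.2.1⟩ =
        coeffMap (frobenius κ q) (s34m_redInf G M ⟨(t : s34m_F K₀ M), t.2.1⟩) := by
  classical
  have hkα : RingHom.ker ψ ≤ 𝔪'.comap a := by
    rw [hψk, Ideal.span_le]
    intro y hy
    rw [Set.mem_singleton_iff] at hy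
    rw [hy]; exact hϖα
  have hkβ : RingHom.ker ψ ≤ 𝔪'.comap b := by
    rw [hψk, Ideal.span_le]
    intro y hy
    rw [Set.mem_singleton_iff] at hy
    rw [hy]; exact hϖβ
  obtain ⟨hmaxα, hcmα⟩ := s36el_map_isMaximal ψ hψs (𝔪'.comap a) hkα
  obtain ⟨hmaxβ, hcmβ⟩ := s36el_map_isMaximal ψ hψs (𝔪'.comap b) hkβ
  haveI := hmaxα
  haveI := hmaxβ
  -- the Frobenius and its inverse as automorphisms of `κ`
  set Fr : κ ≃+* κ := frobeniusEquiv κ q with hFr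
  have hFrc : ((Fr : κ ≃+* κ) : κ →+* κ) = frobenius κ q := RingHom.ext fun c => by
    rw [hFr]; rfl
  -- the coordinate at `𝔪_α`
  obtain ⟨d, hd, hd2⟩ := s36el_exists_not_mem_sq M x hA hxtr ((𝔪'.comap a).map ψ)
  obtain ⟨t, ht⟩ := hψs d
  obtain ⟨t₂, ht₂⟩ := hψs (s36el_twist M x hA Fr (hxtw Fr) d)
  have htα : t ∈ 𝔪'.comap a := by
    rw [← hcmα, Ideal.mem_comap, ht]; exact hd
  have hred₂ : s34m_redInf G M ⟨(t₂ : s34m_F K₀ M), t₂.2.1⟩ =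
      coeffMap (frobenius κ q) (s34m_redInf G M ⟨(t : s34m_F K₀ M), t.2.1⟩) := by
    rw [← hψc, ← hψc, ht, ht₂, s36el_coe_twist, hFrc]
  have htβ : t₂ ∈ 𝔪'.comap b :=
    (s36el_frob_iff G φ M q hq hqM w S a b ha hb 𝔪' hth t t₂ hred₂).mp htα
  -- `ψ t₂ ∉ (ψ 𝔪_β)²`
  have ht₂sq : ψ t₂ ∉ ((𝔪'.comap b).map ψ) ^ 2 := by
    intro hmem
    apply hd2
    set Ψ := s36el_twist M x hA Fr.symm (hxtw Fr.symm) with hΨ
    have hΨd : Ψ (ψ t₂) = d := by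
      apply Subtype.ext
      apply Subtype.ext
      rw [ht₂, hΨ, s36el_coe_twist, s36el_coe_twist, coeffMap_coeffMap,
        coeffMap_congr (g := RingHom.id κ) (RingHom.ext fun c => Fr.symm_apply_apply c), coeffMap_id]
    have hle : ((𝔪'.comap b).map ψ).map Ψ ≤ (𝔪'.comap a).map ψ := by
      rw [Ideal.map_le_iff_le_comap]
      intro e he
      obtain ⟨y₂, hy₂, rfl⟩ := (Ideal.mem_map_iff_of_surjective ψ hψs).mp he
      obtain ⟨y, hy⟩ := hψs (Ψ (ψ y₂))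
      rw [Ideal.mem_comap, ← hy]
      apply Ideal.mem_map_of_mem
      refine (s36el_frob_iff G φ M q hq hqM w S a b ha hb 𝔪' hth y y₂ ?_).mpr hy₂
      rw [← hψc, ← hψc, hy, hΨ, s36el_coe_twist, coeffMap_coeffMap, ← hFrc,
        coeffMap_congr (g := RingHom.id κ) (RingHom.ext fun c => Fr.apply_symm_apply c), coeffMap_id]
    have h1 : Ψ (ψ t₂) ∈ (((𝔪'.comap b).map ψ) ^ 2).map Ψ := Ideal.mem_map_of_mem Ψ hmem
    rw [Ideal.map_pow, hΨd] at h1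
    exact Ideal.pow_right_mono hle 2 h1
  have htsq : ψ t ∉ ((𝔪'.comap a).map ψ) ^ 2 := by rw [ht]; exact hd2
  refine ⟨t, t₂, ⟨htα, s36el_elem_of_dedekind ψ hψs ϖM hψk (𝔪'.comap a) hϖα t htα htsq⟩,
    ⟨htβ, s36el_elem_of_dedekind ψ hψs ϖM hψk (𝔪'.comap b) hϖβ t₂ htβ ht₂sq⟩, ?_, hred₂⟩
  rw [← hψc, ht]
  exact s36el_theta_ne_zero M x hA q ((𝔪'.comap a).map ψ) d hd hd2

end Fermat.Agent.Lib.S36
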