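/-
S36 (R-q), helper4, prefix `s36r_`: THICKNESS ONE AT THE CROSSING POINTS OF LEVEL `M q`
(concrete two-component frame of `Lib/S34/DFibre.lean`, `Lib/S35/GDich.lean`).

Part 1: elementary facts on the two reductions `r₁ = red_∞`, `r₂ = red_0` of the chart ring
`B = s34x_ring (V_∞ ⊓ V_0) S`: constants (`s36r_constB`, `s36r_r1_const`, `s36r_r2_const`),
`θ = T d/dT` as a `ℤ`-derivation (`s36r_thetaZ`), purity with `q` in place of `ϖ` (`s36r_purity_q`).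
Part 2: the function `A = (β t₂ - (α t₂')^q)/q` and `θ (red A)` (`s36r_exists_A`).
Part 3: `r_i (α g)`, `r_i (β g)`; Frobenius relation `Φ x = x'^q ⟹ Φ (θ x) = (θ x')^q`.
Part 4: **`s36r_regCross_df`**: in the frame of `s35gd_df_dichotomy` (with `β (BM) ⊆ B`, purity of
`BM`, `B` of finite type over `A`, a function with `θ ≠ 0`, finiteness of divisors on the chart, and
the horizontal regularity `hF5` of `d(α t)/d(β t₂)` at the places through `𝔫`), every MAXIMAL ideal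
`𝔫 ⊇ ker r₁ + ker r₂` is a regular crossing:
`s36q_RegCross (s34m_VV G φ M q hq hqM) S 𝔫 false true (s34m_unif G (M * q))`.
-/
import Fermat.Agent.Lib.S36.RThickAbs
import Fermat.Agent.Lib.S36.RTheta
import Fermat.Agent.Lib.S36.QTriple2
import Fermat.Agent.Lib.S35.GDich
import Fermat.Agent.Lib.S36.REisUnit

set_option autoImplicit false
set_option linter.unusedSectionVars false
set_option linter.style.haveILetI false

noncomputable section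

namespace Fermat.Agent.Lib.S36

open ModularCurve AlgebraicCurve HahnSeries Fermat.Agent.Lib.FF Fermat.Agent.Lib.S18
  Fermat.Agent.Lib.S34 Fermat.Agent.Lib.S35 Fermat.Agent.Lib.S37 KaehlerDifferential

local notation "Kb" => AlgebraicClosure ℚ

variable {K₀ : Type*} [Field K₀] [Algebra ℚ K₀] {κ : Type*} [Field κ] (G : s18g_GaussData K₀ κ)
variable (φ : K₀ →+* Kb) (M q : ℕ) [NeZero M] [NeZero q] (hq : q.Prime) (hqM : ¬ q ∣ M)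
variable (S : Set (Place K₀ (s34m_F K₀ (M * q))))

/-- The constants `A → B`. -/
abbrev s36r_constB : G.A →+* s34x_ring (s34x_infRing (s34m_VV G φ M q hq hqM)) S :=
  s34f_constHom G.A (s34x_infRing (s34m_VV G φ M q hq hqM))
    (s34x_inf_const_mem (s34m_VV G φ M q hq hqM) G.A (s34c_const_mem_VV G φ M q hq hqM)) S

theorem s36r_coe_constB (a : G.A) :
    ((s36r_constB G φ M q hq hqM S a : s34x_ring (s34x_infRing (s34m_VV G φ M q hq hqM)) S) :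
      s34m_F K₀ (M * q)) = algebraMap K₀ (s34m_F K₀ (M * q)) (a : K₀) := rfl

/-- `r₁` of a constant. -/
theorem s36r_r1_const (a : G.A) :
    s34df_r1 G φ M q hq hqM S (s36r_constB G φ M q hq hqM S a) = HahnSeries.C (G.π a) := by
  rw [s34df_r1_eq G φ M q hq hqM S _ (algebraMap K₀ (s34m_F K₀ (M * q)) (a : K₀))
    ((s18g_algebraMap_mem_V_iff G _ (s34m_hF G (M * q)) _).mpr a.2) rfl]
  exact s18g_redV_constV G _ (s34m_hF G (M * q)) a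

/-- `r₂` of a constant. -/
theorem s36r_r2_const (a : G.A) :
    s34df_r2 G φ M q hq hqM S (s36r_constB G φ M q hq hqM S a) = HahnSeries.C (G.π a) := by
  rw [s34df_r2_eq G φ M q hq hqM S _ (algebraMap K₀ (s34m_F K₀ (M * q)) (a : K₀))
    (s34c_const_mem_VV G φ M q hq hqM false a) rfl, s34m_redZero_apply]
  have e : (⟨s34m_al φ M q hq hqM (algebraMap K₀ (s34m_F K₀ (M * q)) (a : K₀)),
      s34c_const_mem_VV G φ M q hq hqM false a⟩ : s34m_Vinf G (M * q)) =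
      s18g_constV G _ (s34m_hF G (M * q)) a :=
    Subtype.ext ((s34m_al φ M q hq hqM).commutes _)
  rw [e]
  exact s18g_redV_constV G _ (s34m_hF G (M * q)) a

/-- `θ` kills constant series. -/
theorem s36r_theta_C (c : κ) : ffd_theta (HahnSeries.C c : LaurentSeries κ) = 0 := by
  have := ffd_theta_algebraMap (K := κ) c
  rwa [algebraMap_laurentSeries_eq_single] at this

/-- a `ℤ`-derivation of a field from an additive map with the Leibniz rule (with the instances of a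
generic `[Field L]`, as in `s36r_thick_abs`). -/
def s36r_derivOfAdd {L : Type*} [Field L] (f : L →+ L)
    (h : ∀ a b, f (a * b) = a * f b + b * f a) : Derivation ℤ L L :=
  Derivation.mk' f.toIntLinearMap (fun a b => by
    show f (a * b) = a • f b + b • f a
    rw [h, smul_eq_mul, smul_eq_mul])

/-- `θ = T d/dT` on `κ((T))` as a `ℤ`-derivation. -/
def s36r_thetaZ (κ' : Type*) [Field κ'] :=
  s36r_derivOfAdd (L := LaurentSeries κ') (ffd_thetaDeriv (K := κ')).toLinearMap.toAddMonoidHom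
    (fun a b => by
      show ffd_thetaDeriv (a * b) = a * ffd_thetaDeriv b + b * ffd_thetaDeriv a
      rw [Derivation.leibniz, smul_eq_mul, smul_eq_mul])

theorem s36r_thetaZ_apply (κ' : Type*) [Field κ'] (x : LaurentSeries κ') :
    s36r_thetaZ κ' x = ffd_theta x := rfl

/-- **Purity with `q` in place of `ϖ`** (unramified base). -/
theorem s36r_purity_q (hunr : ∃ ε : G.A, IsUnit ε ∧ ((q : ℕ) : G.A) = G.ϖ * ε)
    (b : s34x_ring (s34x_infRing (s34m_VV G φ M q hq hqM)) S)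
    (h1 : s34df_r1 G φ M q hq hqM S b = 0) (h2 : s34df_r2 G φ M q hq hqM S b = 0) :
    ((q : ℕ) : s34x_ring (s34x_infRing (s34m_VV G φ M q hq hqM)) S) ∣ b := by
  obtain ⟨ε, hε, hqε⟩ := hunr
  obtain ⟨ε', hε'⟩ := hε.exists_right_inv
  obtain ⟨c, hc⟩ := s34df_purity G φ M q hq hqM S (s35gd_unifB G φ M q hq hqM S)
    (s35gd_coe_unifB G φ M q hq hqM S) b h1 h2
  refine ⟨s36r_constB G φ M q hq hqM S ε' * c, ?_⟩
  have hq' : ((q : ℕ) : s34x_ring (s34x_infRing (s34m_VV G φ M q hq hqM)) S) =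
      s35gd_unifB G φ M q hq hqM S * s36r_constB G φ M q hq hqM S ε := by
    rw [← map_natCast (s36r_constB G φ M q hq hqM S), hqε, map_mul]
  rw [hc, hq']
  have h1' : s36r_constB G φ M q hq hqM S ε * s36r_constB G φ M q hq hqM S ε' = 1 := by
    rw [← map_mul, hε', map_one]
  calc s35gd_unifB G φ M q hq hqM S * c
      = s35gd_unifB G φ M q hq hqM S *
          (s36r_constB G φ M q hq hqM S ε * s36r_constB G φ M q hq hqM S ε') * c := by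
        rw [h1', mul_one]
    _ = _ := by ring

variable [CharZero K₀] [IsDiscreteValuationRing G.A]

omit [IsDiscreteValuationRing G.A] in
/-- `q = ϖ ε` in the function field. -/
theorem s36r_natCast_eq_unif_mul (ε : G.A) (hqε : ((q : ℕ) : G.A) = G.ϖ * ε) :
    ((q : ℕ) : s34m_F K₀ (M * q)) =
      s34m_unif G (M * q) * algebraMap K₀ (s34m_F K₀ (M * q)) ((ε : G.A) : K₀) := by
  rw [s34m_unif, ← map_mul, ← map_natCast (algebraMap K₀ (s34m_F K₀ (M * q)))]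
  congr 1
  have := congrArg (fun x : G.A => (x : K₀)) hqε
  simpa using this

/-- **The function `A = (β t₂ - (α t₂')^q) / q`** and the `θ`-derivative of its reduction. -/
theorem s36r_exists_A (hunr : ∃ ε : G.A, IsUnit ε ∧ ((q : ℕ) : G.A) = G.ϖ * ε)
    (t₂ t₂' : s34m_F K₀ M) (ht₂ : t₂ ∈ s34m_Vinf G M) (ht₂' : t₂' ∈ s34m_Vinf G M)
    (hrel : qExpand κ q (s34m_redInf G M ⟨t₂, ht₂⟩) = (s34m_redInf G M ⟨t₂', ht₂'⟩) ^ q) :
    ∃ (A : s34m_F K₀ (M * q)) (hA : A ∈ s34m_Vinf G (M * q)),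
      ((q : ℕ) : s34m_F K₀ (M * q)) * A =
        heckeBetaBar K₀ M q t₂ - (heckeAlphaBar K₀ M q t₂') ^ q ∧
      ffd_theta (s34m_redInf G (M * q) ⟨A, hA⟩) =
        qExpand κ q (ffd_theta (s34m_redInf G M ⟨t₂, ht₂⟩)) -
          (s34m_redInf G M ⟨t₂', ht₂'⟩) ^ (q - 1) * ffd_theta (s34m_redInf G M ⟨t₂', ht₂'⟩) := by
  obtain ⟨ε, hε, hqε⟩ := hunr
  obtain ⟨ε', hε'⟩ := hε.exists_right_inv
  -- `W = β t₂ - (α t₂')^q` has zero reduction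
  have hWV : heckeBetaBar K₀ M q t₂ - (heckeAlphaBar K₀ M q t₂') ^ q ∈ s34m_Vinf G (M * q) :=
    sub_mem (s34m_beta_mem_Vinf G M q ht₂)
      (pow_mem (s34m_alpha_mem_Vinf G M q ht₂') q)
  have hW0 : s34m_redInf G (M * q) ⟨_, hWV⟩ = 0 := by
    have e : (⟨_, hWV⟩ : s34m_Vinf G (M * q)) =
        ⟨heckeBetaBar K₀ M q t₂, s34m_beta_mem_Vinf G M q ht₂⟩ -
          ⟨heckeAlphaBar K₀ M q t₂', s34m_alpha_mem_Vinf G M q ht₂'⟩ ^ q := rfl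
    rw [e, map_sub, map_pow, s34m_redInf_beta G M q ⟨t₂, ht₂⟩, s34m_redInf_alpha G M q ⟨t₂', ht₂'⟩,
      hrel, sub_self]
  obtain ⟨z, hz, hWz⟩ := (s34m_redInf_eq_zero_iff G (M * q) ⟨_, hWV⟩).mp hW0
  simp only at hWz
  -- `A = ε' z`
  have hε'V : algebraMap K₀ (s34m_F K₀ (M * q)) ((ε' : G.A) : K₀) ∈ s34m_Vinf G (M * q) :=
    (s18g_algebraMap_mem_V_iff G _ (s34m_hF G (M * q)) _).mpr ε'.2
  have hAV : algebraMap K₀ (s34m_F K₀ (M * q)) ((ε' : G.A) : K₀) * z ∈ s34m_Vinf G (M * q) :=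
    mul_mem hε'V hz
  have hqA : ((q : ℕ) : s34m_F K₀ (M * q)) *
      (algebraMap K₀ (s34m_F K₀ (M * q)) ((ε' : G.A) : K₀) * z) =
      heckeBetaBar K₀ M q t₂ - (heckeAlphaBar K₀ M q t₂') ^ q := by
    rw [hWz]
    have h1 : ((q : ℕ) : s34m_F K₀ (M * q)) =
        s34m_unif G (M * q) * algebraMap K₀ (s34m_F K₀ (M * q)) ((ε : G.A) : K₀) := by
      rw [s34m_unif, ← map_mul, ← map_natCast (algebraMap K₀ (s34m_F K₀ (M * q)))]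
      congr 1
      have := congrArg (fun x : G.A => (x : K₀)) hqε
      simpa using this
    have h2 : algebraMap K₀ (s34m_F K₀ (M * q)) ((ε : G.A) : K₀) *
        algebraMap K₀ (s34m_F K₀ (M * q)) ((ε' : G.A) : K₀) = 1 := by
      rw [← map_mul]
      have := congrArg (fun x : G.A => (x : K₀)) hε'
      simp only [MulMemClass.coe_mul, OneMemClass.coe_one] at this
      rw [this, map_one]
    rw [h1]
    calc s34m_unif G (M * q) * algebraMap K₀ (s34m_F K₀ (M * q)) ((ε : G.A) : K₀) *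
          (algebraMap K₀ (s34m_F K₀ (M * q)) ((ε' : G.A) : K₀) * z)
        = s34m_unif G (M * q) * (algebraMap K₀ (s34m_F K₀ (M * q)) ((ε : G.A) : K₀) *
            algebraMap K₀ (s34m_F K₀ (M * q)) ((ε' : G.A) : K₀)) * z := by ring
      _ = s34m_unif G (M * q) * z := by rw [h2, mul_one]
  refine ⟨_, hAV, hqA, ?_⟩
  -- the series identity
  have hser := congrArg (fun x : s34m_F K₀ (M * q) => (x : LaurentSeries K₀)) hqA
  simp only [MulMemClass.coe_mul, AddSubgroupClass.coe_sub, SubmonoidClass.coe_pow,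
    coe_heckeBetaBar, coe_heckeAlphaBar] at hser
  have hnat : ((((q : ℕ) : s34m_F K₀ (M * q)) : s34m_F K₀ (M * q)) : LaurentSeries K₀) =
      ((q : ℕ) : LaurentSeries K₀) := by
    simp
  rw [hnat] at hser
  exact s36r_red_theta_A G q ⟨_, hAV⟩ ⟨(t₂ : LaurentSeries K₀), ht₂⟩
    ⟨(t₂' : LaurentSeries K₀), ht₂'⟩ hser

/-! ### Part 3: the four reductions of `α g`, `β g`, the Frobenius relation for `θ` -/

omit [CharZero K₀] [IsDiscreteValuationRing G.A] in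
/-- `r₁ (α g) = red_M g`. -/
theorem s36r_r1_alpha (g : s34m_F K₀ M) (hg : g ∈ s34m_Vinf G M)
    (hB : heckeAlphaBar K₀ M q g ∈ s34x_ring (s34x_infRing (s34m_VV G φ M q hq hqM)) S) :
    s34df_r1 G φ M q hq hqM S ⟨_, hB⟩ = s34m_redInf G M ⟨g, hg⟩ :=
  (s34df_r1_eq G φ M q hq hqM S _ _ (s34m_alpha_mem_Vinf G M q hg) rfl).trans
    (s34m_redInf_alpha G M q ⟨g, hg⟩)

omit [CharZero K₀] [IsDiscreteValuationRing G.A] in
/-- `r₂ (α g) = Φ (red_M g)`. -/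
theorem s36r_r2_alpha (g : s34m_F K₀ M) (hg : g ∈ s34m_Vinf G M)
    (hB : heckeAlphaBar K₀ M q g ∈ s34x_ring (s34x_infRing (s34m_VV G φ M q hq hqM)) S) :
    s34df_r2 G φ M q hq hqM S ⟨_, hB⟩ = qExpand κ q (s34m_redInf G M ⟨g, hg⟩) :=
  (s34df_r2_eq G φ M q hq hqM S _ _ (s34m_alpha_mem_Vzero G φ M q hq hqM hg) rfl).trans
    (s34m_redZero_alpha G φ M q hq hqM ⟨g, hg⟩)

omit [CharZero K₀] [IsDiscreteValuationRing G.A] in
/-- `r₁ (β g) = Φ (red_M g)`. -/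
theorem s36r_r1_beta (g : s34m_F K₀ M) (hg : g ∈ s34m_Vinf G M)
    (hB : heckeBetaBar K₀ M q g ∈ s34x_ring (s34x_infRing (s34m_VV G φ M q hq hqM)) S) :
    s34df_r1 G φ M q hq hqM S ⟨_, hB⟩ = qExpand κ q (s34m_redInf G M ⟨g, hg⟩) :=
  (s34df_r1_eq G φ M q hq hqM S _ _ (s34m_beta_mem_Vinf G M q hg) rfl).trans
    (s34m_redInf_beta G M q ⟨g, hg⟩)

omit [CharZero K₀] [IsDiscreteValuationRing G.A] in
/-- `r₂ (β g) = red_M g`. -/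
theorem s36r_r2_beta (g : s34m_F K₀ M) (hg : g ∈ s34m_Vinf G M)
    (hB : heckeBetaBar K₀ M q g ∈ s34x_ring (s34x_infRing (s34m_VV G φ M q hq hqM)) S) :
    s34df_r2 G φ M q hq hqM S ⟨_, hB⟩ = s34m_redInf G M ⟨g, hg⟩ :=
  (s34df_r2_eq G φ M q hq hqM S _ _ (s34m_beta_mem_Vzero G φ M q hq hqM hg) rfl).trans
    (s34m_redZero_beta G φ M q hq hqM ⟨g, hg⟩)

/-- In characteristic `q` (perfect): `Φ x = x' ^ q ⟹ Φ (θ x) = (θ x') ^ q`. -/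
theorem s36r_qExpand_theta_of_rel {κ' : Type*} [Field κ'] (p : ℕ) [Fact p.Prime] [CharP κ' p]
    [PerfectRing κ' p] (x x' : LaurentSeries κ') (h : qExpand κ' p x = x' ^ p) :
    qExpand κ' p (ffd_theta x) = (ffd_theta x') ^ p := by
  haveI : CharP (LaurentSeries κ') p :=
    (RingHom.charP_iff (HahnSeries.C : κ' →+* LaurentSeries κ') HahnSeries.C_injective p).mp
      inferInstance
  rw [s37e_qExpand_eq_pow p x] at h
  have h' : x' = coeffMap ((frobeniusEquiv κ' p).symm : κ' →+* κ') x :=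
    (frobenius_inj (LaurentSeries κ') p) h.symm
  rw [s36r_theta_qExpand_char p x, ← h']

/-- a multiple of the uniformiser is a non-unit of `V'_i`. -/
theorem s36r_unif_mul_mem_nonunits (i : Bool) (y : s34m_F K₀ (M * q))
    (hy : y ∈ s34m_VV G φ M q hq hqM i) :
    s34m_unif G (M * q) * y ∈ (s34m_VV G φ M q hq hqM i).nonunits := by
  have h := s36e_unif_mem_nonunits_VV G φ M q hq hqM i
  rw [ValuationSubring.mem_nonunits_iff] at h ⊢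
  rw [map_mul]
  have hy' : (s34m_VV G φ M q hq hqM i).valuation y ≤ 1 :=
    ((s34m_VV G φ M q hq hqM i).valuation_le_one_iff _).mpr hy
  calc _ ≤ (s34m_VV G φ M q hq hqM i).valuation (s34m_unif G (M * q)) * 1 := by gcongr
    _ < 1 := by rw [mul_one]; exact h

/-! ### Part 4: the main theorem -/

section Main

variable (Fb : IntermediateField κ (LaurentSeries κ))
  {D₁ D₂ : Type*} [CommRing D₁] [IsDedekindDomain D₁] [Algebra D₁ Fb] [IsFractionRing D₁ Fb]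
  [CommRing D₂] [IsDedekindDomain D₂] [Algebra D₂ Fb] [IsFractionRing D₂ Fb]

local notation "BB" => s34x_ring (s34x_infRing (s34m_VV G φ M q hq hqM)) S
local notation "R₁" => s34df_r1 G φ M q hq hqM S
local notation "R₂" => s34df_r2 G φ M q hq hqM S

/-- **THICKNESS ONE AT THE CROSSING POINTS OF LEVEL `M q`** (frame of `s35gd_df_dichotomy`). -/
theorem s36r_regCross_df [CharP κ q] [PerfectField κ]
    (hπ : Function.Surjective G.π)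
    (hunr : ∃ ε : G.A, IsUnit ε ∧ ((q : ℕ) : G.A) = G.ϖ * ε)
    (hF₁ : ∀ b, s34df_r1 G φ M q hq hqM S b ∈ Fb) (hF₂ : ∀ b, s34df_r2 G φ M q hq hqM S b ∈ Fb)
    (BM : Subring (s34m_F K₀ M)) (hBMV : ∀ g ∈ BM, g ∈ s34m_Vinf G M)
    (hpurM : ∀ g (hg : g ∈ BM), s34m_redInf G M ⟨g, hBMV g hg⟩ = 0 →
      ∃ g' ∈ BM, g = s34m_unif G M * g')
    (hαB : ∀ g ∈ BM, heckeAlphaBar K₀ M q g ∈ BB)
    (hβB : ∀ g ∈ BM, heckeBetaBar K₀ M q g ∈ BB)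
    (hlift₁ : ∀ d : D₁, ∃ g, ∃ hg : g ∈ BM,
      s34m_redInf G M ⟨g, hBMV g hg⟩ = ((algebraMap D₁ Fb d : Fb) : LaurentSeries κ))
    (hlift₂ : ∀ d : D₂, ∃ g, ∃ hg : g ∈ BM,
      s34m_redInf G M ⟨g, hBMV g hg⟩ = ((algebraMap D₂ Fb d : Fb) : LaurentSeries κ))
    (htw₁ : ∀ d : D₁, ∃ d' : D₂, qExpand κ q ((algebraMap D₁ Fb d : Fb) : LaurentSeries κ) =
      ((algebraMap D₂ Fb d' : Fb) : LaurentSeries κ) ^ q)
    (htw₂ : ∀ d : D₂, ∃ d' : D₁, qExpand κ q ((algebraMap D₂ Fb d : Fb) : LaurentSeries κ) =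
      ((algebraMap D₁ Fb d' : Fb) : LaurentSeries κ) ^ q)
    (hFT : @Algebra.FiniteType G.A BB _ _ (s36r_constB G φ M q hq hqM S).toAlgebra)
    (w₀ : s34m_F K₀ (M * q)) [FFGen K₀ w₀]
    (hcoord : ∃ g, ∃ hg : g ∈ BM, ffd_theta (s34m_redInf G M ⟨g, hBMV g hg⟩) ≠ 0)
    (hF3 : ∀ y : s34m_F K₀ (M * q), y ≠ 0 →
      {Q : Place K₀ (s34m_F K₀ (M * q)) | Q ∈ S ∧ Q.ord y ≠ 0}.Finite)
    (𝔫 : Ideal BB) [h𝔫 : 𝔫.IsMaximal]
    (h1 : RingHom.ker (s34df_r1 G φ M q hq hqM S) ≤ 𝔫)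
    (h2 : RingHom.ker (s34df_r2 G φ M q hq hqM S) ≤ 𝔫)
    (hF5 : ∀ t₂ (ht₂ : t₂ ∈ BM), (⟨_, hβB t₂ ht₂⟩ : BB) ∈ 𝔫 →
      (∀ y (hy : y ∈ BM), (⟨_, hβB y hy⟩ : BB) ∈ 𝔫 →
        ∃ c, ∃ hc : c ∈ BM, (⟨_, hβB c hc⟩ : BB) ∉ 𝔫 ∧
          ∃ z ∈ BM, ∃ b ∈ BM, c * y = z * t₂ + b * s34m_unif G M) →
      ∀ (x : BB) (c : s34m_F K₀ (M * q)),
        D K₀ (s34m_F K₀ (M * q)) (x : s34m_F K₀ (M * q)) =
          c • D K₀ (s34m_F K₀ (M * q)) (heckeBetaBar K₀ M q t₂) →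
        ∀ Q ∈ S, s34f_through (s34x_infRing (s34m_VV G φ M q hq hqM)) S 𝔫 Q → 0 ≤ Q.ord c) :
    s36q_RegCross (s34m_VV G φ M q hq hqM) S 𝔫 false true (s34m_unif G (M * q)) := by
  classical
  haveI : Fact q.Prime := ⟨hq⟩
  haveI h𝔫p : 𝔫.IsPrime := h𝔫.isPrime
  haveI hcharL : CharP (LaurentSeries κ) q :=
    (RingHom.charP_iff (HahnSeries.C : κ →+* LaurentSeries κ) HahnSeries.C_injective q).mp
      inferInstance
  obtain ⟨ε, hε, hqε⟩ := id hunr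
  have hq0 : ((q : ℕ) : s34m_F K₀ (M * q)) ≠ 0 := Nat.cast_ne_zero.mpr (NeZero.ne q)
  -- the `Fb`-valued reductions
  set r₁' : BB →+* Fb := (R₁).codRestrict Fb hF₁ with hr₁'
  set r₂' : BB →+* Fb := (R₂).codRestrict Fb hF₂ with hr₂'
  have hr₁c : ∀ b, ((r₁' b : Fb) : LaurentSeries κ) = R₁ b := fun _ => rfl
  have hr₂c : ∀ b, ((r₂' b : Fb) : LaurentSeries κ) = R₂ b := fun _ => rfl
  have hk₁ : RingHom.ker r₁' ≤ 𝔫 := fun b hb => h1 (by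
    rw [RingHom.mem_ker] at hb ⊢
    rw [← hr₁c, hb]; rfl)
  have hk₂ : RingHom.ker r₂' ≤ 𝔫 := fun b hb => h2 (by
    rw [RingHom.mem_ker] at hb ⊢
    rw [← hr₂c, hb]; rfl)
  have conv₁ : ∀ x, s34d_LocGenAt r₁' 𝔫 x → s34d_LocGenAt (R₁) 𝔫 x := fun x h =>
    ⟨h.1, fun y hy => by
      obtain ⟨c, hc, z, e⟩ := h.2 y hy
      exact ⟨c, hc, z, by rw [← hr₁c, ← hr₁c, e]⟩⟩
  have conv₂ : ∀ x, s34d_LocGenAt r₂' 𝔫 x → s34d_LocGenAt (R₂) 𝔫 x := fun x h =>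
    ⟨h.1, fun y hy => by
      obtain ⟨c, hc, z, e⟩ := h.2 y hy
      exact ⟨c, hc, z, by rw [← hr₂c, ← hr₂c, e]⟩⟩
  -- `γ = β : BM → B`
  let γ : BM →+* BB := ((heckeBetaBar K₀ M q : s34m_F K₀ M →ₐ[K₀] s34m_F K₀ (M * q)) :
    s34m_F K₀ M →+* s34m_F K₀ (M * q)).restrict BM BB hβB
  have hγ : ∀ g : BM, γ g = ⟨heckeBetaBar K₀ M q (g : s34m_F K₀ M), hβB g g.2⟩ := fun g => rfl
  -- side 1
  obtain ⟨d₁, hd₁⟩ := s34d_exists_locGenAt (D' := D₁) r₁' (fun d => by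
    obtain ⟨g, hg, e⟩ := hlift₁ d
    exact ⟨⟨_, hαB g hg⟩, Subtype.ext (by
      rw [hr₁c]
      exact (s36r_r1_alpha G φ M q hq hqM S g (hBMV g hg) (hαB g hg)).trans e)⟩) 𝔫 hk₁
  obtain ⟨t, ht, et⟩ := hlift₁ d₁
  have hU : s34d_LocGenAt (R₁) 𝔫 ⟨_, hαB t ht⟩ := conv₁ _ (hd₁ ⟨_, hαB t ht⟩ (Subtype.ext (by
    rw [hr₁c]
    exact (s36r_r1_alpha G φ M q hq hqM S t (hBMV t ht) (hαB t ht)).trans et)))
  obtain ⟨d₁', hd₁'⟩ := htw₁ d₁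
  obtain ⟨t', ht', et'⟩ := hlift₂ d₁'
  have hu₂ : R₂ ⟨_, hαB t ht⟩ = R₂ ⟨_, hβB t' ht'⟩ ^ q := by
    rw [s36r_r2_alpha G φ M q hq hqM S t (hBMV t ht) (hαB t ht),
      s36r_r2_beta G φ M q hq hqM S t' (hBMV t' ht') (hβB t' ht'), et, et', hd₁']
  -- side 2
  obtain ⟨d₂, hd₂⟩ := s34d_exists_locGenAt (D' := D₂) (r₂'.comp γ) (fun d => by
    obtain ⟨g, hg, e⟩ := hlift₂ d
    exact ⟨⟨g, hg⟩, Subtype.ext (by
      rw [RingHom.comp_apply, hr₂c, hγ]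
      exact (s36r_r2_beta G φ M q hq hqM S g (hBMV g hg) (hβB g hg)).trans e)⟩) (𝔫.comap γ)
    (fun g hg => by
      rw [Ideal.mem_comap]
      exact hk₂ (by rw [RingHom.mem_ker] at hg ⊢; exact hg))
  obtain ⟨d₂'', hd₂''⟩ := s34d_exists_locGenAt (D' := D₂) r₂' (fun d => by
    obtain ⟨g, hg, e⟩ := hlift₂ d
    exact ⟨⟨_, hβB g hg⟩, Subtype.ext (by
      rw [hr₂c]
      exact (s36r_r2_beta G φ M q hq hqM S g (hBMV g hg) (hβB g hg)).trans e)⟩) 𝔫 hk₂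
  obtain ⟨t₂, ht₂, et₂⟩ := hlift₂ d₂
  obtain ⟨t₀', ht₀', et₀'⟩ := hlift₂ d₂''
  have hW₀ : s34d_LocGenAt (r₂'.comp γ) (𝔫.comap γ) ⟨t₂, ht₂⟩ := hd₂ ⟨t₂, ht₂⟩ (Subtype.ext (by
    rw [RingHom.comp_apply, hr₂c, hγ]
    exact (s36r_r2_beta G φ M q hq hqM S t₂ (hBMV t₂ ht₂) (hβB t₂ ht₂)).trans et₂))
  have hW₁ : s34d_LocGenAt r₂' 𝔫 (γ ⟨t₀', ht₀'⟩) := hd₂'' _ (Subtype.ext (by
    rw [hr₂c, hγ]
    exact (s36r_r2_beta G φ M q hq hqM S t₀' (hBMV t₀' ht₀') (hβB t₀' ht₀')).trans et₀'))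
  have hW : s34d_LocGenAt (R₂) 𝔫 ⟨_, hβB t₂ ht₂⟩ :=
    conv₂ _ (s36r_locGenAt_of_comap γ r₂' 𝔫 hW₁ hW₀)
  obtain ⟨d₂', hd₂'⟩ := htw₂ d₂
  obtain ⟨t₂', ht₂', et₂'⟩ := hlift₁ d₂'
  have hrel : qExpand κ q (s34m_redInf G M ⟨t₂, hBMV t₂ ht₂⟩) =
      (s34m_redInf G M ⟨t₂', hBMV t₂' ht₂'⟩) ^ q := by rw [et₂, et₂', hd₂']
  have hw₁ : R₁ ⟨_, hβB t₂ ht₂⟩ = R₁ ⟨_, hαB t₂' ht₂'⟩ ^ q := by
    rw [s36r_r1_beta G φ M q hq hqM S t₂ (hBMV t₂ ht₂) (hβB t₂ ht₂),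
      s36r_r1_alpha G φ M q hq hqM S t₂' (hBMV t₂' ht₂') (hαB t₂' ht₂'), hrel]
  -- the derivation and the algebra structure
  set θ := s36r_thetaZ κ with hθdef
  have hθ : ∀ x, θ x = ffd_theta x := fun _ => rfl
  letI algB : Algebra G.A BB := (s36r_constB G φ M q hq hqM S).toAlgebra
  haveI : Algebra.FiniteType G.A BB := hFT
  have halg : ∀ a : G.A, algebraMap G.A BB a = s36r_constB G φ M q hq hqM S a := fun _ => rfl
  have hkerπ : ∀ a : G.A, G.π a = 0 → algebraMap G.A BB a ∈ 𝔫 := fun a ha => h1 (by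
    rw [RingHom.mem_ker, halg, s36r_r1_const, ha, map_zero])
  have hθA₁ : ∀ a : G.A, θ (R₁ (algebraMap G.A BB a)) = 0 := fun a => by
    rw [halg, s36r_r1_const, hθ, s36r_theta_C]
  have hθA₂ : ∀ a : G.A, θ (R₂ (algebraMap G.A BB a)) = 0 := fun a => by
    rw [halg, s36r_r2_const, hθ, s36r_theta_C]
  have hθq : ∀ x : LaurentSeries κ, θ (x ^ q) = 0 := fun x => by
    rw [hθ]; exact s36r_theta_pow_char q x
  have hq₁ : R₁ ((q : ℕ) : BB) = 0 := by rw [map_natCast]; exact CharP.cast_eq_zero _ q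
  have hq₂ : R₂ ((q : ℕ) : BB) = 0 := by rw [map_natCast]; exact CharP.cast_eq_zero _ q
  have hqB : ((q : ℕ) : BB) ∈ 𝔫 := h1 hq₁
  have hpur : ∀ b, R₁ b = 0 → R₂ b = 0 → ((q : ℕ) : BB) ∣ b :=
    s36r_purity_q G φ M q hq hqM S hunr
  -- the node
  obtain ⟨hb₁, hb₂, hUu, hWw, hu₂', hw₁', hdvd, hm3⟩ := s36r_node_setup ((q : ℕ) : BB) (R₁) (R₂)
    hpur q hq.two_le 𝔫 hqB h1 h2 ⟨_, hαB t ht⟩ ⟨_, hβB t' ht'⟩ ⟨_, hβB t₂ ht₂⟩ ⟨_, hαB t₂' ht₂'⟩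
    hu₂ hw₁ hU hW
  obtain ⟨-, H1b⟩ := s36r_H1_pair (κ := κ) G.π hπ 𝔫 hkerπ (R₁) (R₂) h1 h2 θ hθA₁ hθA₂ _ _
    ((q : ℕ) : BB) hu₂' hw₁' hq₁ hq₂ hm3
  obtain ⟨g₀, hg₀, hθg₀⟩ := hcoord
  have hθw := s36r_theta_gen_ne_zero 𝔫 (R₂) h2 θ _ H1b ⟨⟨_, hβB g₀ hg₀⟩, by
    rw [hθ, s36r_r2_beta G φ M q hq hqM S g₀ (hBMV g₀ hg₀) (hβB g₀ hg₀)]; exact hθg₀⟩
  have hred : ffd_theta (s34m_redInf G M ⟨t₂, hBMV t₂ ht₂⟩) ≠ 0 := by
    intro h0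
    apply hθw
    rw [map_sub, map_pow, map_sub, hθq, sub_zero, hθ,
      s36r_r2_beta G φ M q hq hqM S t₂ (hBMV t₂ ht₂) (hβB t₂ ht₂), h0]
  -- the function `Θ⁻¹`
  have hπq : G.π ((q : ℕ) : G.A) = 0 := by rw [hqε, map_mul, s18g_pi_unif, zero_mul]
  obtain ⟨c, hD, ⟨hyV, hyred⟩, ⟨hy0V, hy0red⟩⟩ := s36r_invTheta G φ M q hq hqM hπq w₀ t t₂
    (hBMV t ht) (hBMV t₂ ht₂) hred
  -- `t₂` is a local coordinate of level `M` at `β⁻¹ 𝔫`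
  have hcompγ : ∀ g : BM, (((r₂'.comp γ) g : Fb) : LaurentSeries κ) =
      s34m_redInf G M ⟨(g : s34m_F K₀ M), hBMV _ g.2⟩ := by
    intro g
    rw [RingHom.comp_apply, hr₂c, hγ]
    exact s36r_r2_beta G φ M q hq hqM S (g : s34m_F K₀ M) (hBMV _ g.2) (hβB _ g.2)
  have hcoordM : ∀ y (hy : y ∈ BM), (⟨_, hβB y hy⟩ : BB) ∈ 𝔫 →
      ∃ c, ∃ hc : c ∈ BM, (⟨_, hβB c hc⟩ : BB) ∉ 𝔫 ∧
        ∃ z ∈ BM, ∃ b ∈ BM, c * y = z * t₂ + b * s34m_unif G M := by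
    intro y hy hy𝔫
    have hy' : (⟨y, hy⟩ : BM) ∈ 𝔫.comap γ := Ideal.mem_comap.mpr (by rw [hγ]; exact hy𝔫)
    obtain ⟨c', hc', z', e⟩ := hW₀.2 ⟨y, hy⟩ hy'
    have hc'' : (⟨_, hβB (c' : s34m_F K₀ M) c'.2⟩ : BB) ∉ 𝔫 := fun h =>
      hc' (Ideal.mem_comap.mpr (by rw [hγ]; exact h))
    rw [map_mul, map_mul] at e
    have e1 := congrArg (fun x : Fb => (x : LaurentSeries κ)) e
    simp only [MulMemClass.coe_mul] at e1
    rw [hcompγ c', hcompγ ⟨y, hy⟩, hcompγ z', hcompγ ⟨t₂, ht₂⟩] at e1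
    have hcy : (c' : s34m_F K₀ M) * y ∈ BM := BM.mul_mem c'.2 hy
    have hzt : (z' : s34m_F K₀ M) * t₂ ∈ BM := BM.mul_mem z'.2 ht₂
    have e3 : s34m_redInf G M ⟨(c' : s34m_F K₀ M) * y - (z' : s34m_F K₀ M) * t₂,
        hBMV _ (BM.sub_mem hcy hzt)⟩ = 0 := by
      have : (⟨(c' : s34m_F K₀ M) * y - (z' : s34m_F K₀ M) * t₂,
          hBMV _ (BM.sub_mem hcy hzt)⟩ : s34m_Vinf G M) =
          (⟨(c' : s34m_F K₀ M), hBMV _ c'.2⟩ : s34m_Vinf G M) * ⟨y, hBMV y hy⟩ -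
            (⟨(z' : s34m_F K₀ M), hBMV _ z'.2⟩ : s34m_Vinf G M) * ⟨t₂, hBMV t₂ ht₂⟩ := rfl
      rw [this, map_sub, map_mul, map_mul, e1, sub_self]
    obtain ⟨b, hb, eb⟩ := hpurM _ (BM.sub_mem hcy hzt) e3
    exact ⟨c', c'.2, hc'', z', z'.2, b, hb, by linear_combination eb⟩
  have hreg := hF5 t₂ ht₂ hW.1 hcoordM ⟨_, hαB t ht⟩ c hD
  -- `y = q c` lies in the local ring
  have hcomp : ∀ i, s36q_compThrough (s34m_VV G φ M q hq hqM) S 𝔫 i →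
      ((q : ℕ) : s34m_F K₀ (M * q)) * c ∈ s34m_VV G φ M q hq hqM i := by
    intro i _
    cases i
    · exact hy0V
    · exact hyV
  have hpl : ∀ Q ∈ S, s34f_through (s34x_infRing (s34m_VV G φ M q hq hqM)) S 𝔫 Q →
      0 ≤ Q.ord (((q : ℕ) : s34m_F K₀ (M * q)) * c) := by
    intro Q hQ hth
    have hc := hreg Q hQ hth
    by_cases hc0 : c = 0
    · rw [hc0, mul_zero, Place.ord_zero]
    rw [Q.ord_mul hq0 hc0]
    have : Q.ord ((q : ℕ) : s34m_F K₀ (M * q)) = 0 := by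
      rw [← map_natCast (algebraMap K₀ (s34m_F K₀ (M * q)))]
      exact ff_ord_algebraMap Q _
    omega
  have hfin : {Q : Place K₀ (s34m_F K₀ (M * q)) | Q ∈ S ∧
      Q.ord (((q : ℕ) : s34m_F K₀ (M * q)) * c) < 0}.Finite := by
    by_cases hy0 : ((q : ℕ) : s34m_F K₀ (M * q)) * c = 0
    · rw [hy0]
      simp
    · exact (hF3 _ hy0).subset (fun Q hQ => ⟨hQ.1, ne_of_lt hQ.2⟩)
  obtain ⟨s, hs𝔫, hsy⟩ := s36q_mem_local (s34m_VV G φ M q hq hqM) S 𝔫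
    (s36e_arch_VV G φ M q hq hqM) _ hcomp hpl hfin
  have hsI : (s : s34m_F K₀ (M * q)) ∈ s34m_Vinf G (M * q) :=
    ((s34df_mem_O_iff G φ M q hq hqM _).mp s.2.1).1
  have hs0 : (s : s34m_F K₀ (M * q)) ∈ s34m_Vzero G φ M q hq hqM :=
    ((s34df_mem_O_iff G φ M q hq hqM _).mp s.2.1).2
  have hy0V' : ((q : ℕ) : s34m_F K₀ (M * q)) * c ∈ s34m_Vzero G φ M q hq hqM := hy0V
  have hy0red' : s34m_redZero G φ M q hq hqM ⟨((q : ℕ) : s34m_F K₀ (M * q)) * c, hy0V'⟩ = 0 :=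
    hy0red
  have hr₂a : R₂ ⟨_, hsy⟩ = 0 := by
    rw [s34df_r2_eq G φ M q hq hqM S ⟨_, hsy⟩
      ((s : s34m_F K₀ (M * q)) * (((q : ℕ) : s34m_F K₀ (M * q)) * c)) (mul_mem hs0 hy0V') rfl]
    have : (⟨(s : s34m_F K₀ (M * q)) * (((q : ℕ) : s34m_F K₀ (M * q)) * c), mul_mem hs0 hy0V'⟩ :
        s34m_Vzero G φ M q hq hqM) = (⟨(s : s34m_F K₀ (M * q)), hs0⟩ : s34m_Vzero G φ M q hq hqM) *
          ⟨((q : ℕ) : s34m_F K₀ (M * q)) * c, hy0V'⟩ := rfl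
    rw [this, map_mul, hy0red', mul_zero]
  have ha𝔫 : (⟨_, hsy⟩ : BB) ∈ 𝔫 := h2 hr₂a
  have hr₁a : R₁ ⟨_, hsy⟩ = R₁ s *
      s34m_redInf G (M * q) ⟨((q : ℕ) : s34m_F K₀ (M * q)) * c, hyV⟩ := by
    rw [s34df_r1_eq G φ M q hq hqM S ⟨_, hsy⟩
      ((s : s34m_F K₀ (M * q)) * (((q : ℕ) : s34m_F K₀ (M * q)) * c)) (mul_mem hsI hyV) rfl]
    have : (⟨(s : s34m_F K₀ (M * q)) * (((q : ℕ) : s34m_F K₀ (M * q)) * c), mul_mem hsI hyV⟩ :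
        s34m_Vinf G (M * q)) = (⟨(s : s34m_F K₀ (M * q)), hsI⟩ : s34m_Vinf G (M * q)) *
          ⟨((q : ℕ) : s34m_F K₀ (M * q)) * c, hyV⟩ := rfl
    rw [this, map_mul, s34df_r1_eq G φ M q hq hqM S s _ hsI rfl]
  -- `H3`
  have hFrob : qExpand κ q (ffd_theta (s34m_redInf G M ⟨t₂, hBMV t₂ ht₂⟩)) =
      (ffd_theta (s34m_redInf G M ⟨t₂', hBMV t₂' ht₂'⟩)) ^ q :=
    s36r_qExpand_theta_of_rel q _ _ hrel
  have H3 : ∃ a ∈ 𝔫, ∃ b, b ∉ 𝔫 ∧ (θ (R₁ ⟨_, hαB t₂' ht₂'⟩)) ^ q * R₁ a =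
      θ (R₁ ⟨_, hαB t ht⟩) * R₁ b := by
    refine ⟨⟨_, hsy⟩, ha𝔫, s, hs𝔫, ?_⟩
    rw [hθ, hθ, s36r_r1_alpha G φ M q hq hqM S t₂' (hBMV t₂' ht₂') (hαB t₂' ht₂'),
      s36r_r1_alpha G φ M q hq hqM S t (hBMV t ht) (hαB t ht), ← hFrob, hr₁a, ← hyred]
    ring
  -- the function `A`
  obtain ⟨A, hAV, hqA, hθA⟩ := s36r_exists_A G M q hunr t₂ t₂' (hBMV _ ht₂) (hBMV _ ht₂') hrel
  have H2 : θ (s34m_redInf G (M * q) ⟨A, hAV⟩) = (θ (R₁ ⟨_, hαB t₂' ht₂'⟩)) ^ q -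
      (R₁ ⟨_, hαB t₂' ht₂'⟩) ^ (q - 1) * θ (R₁ ⟨_, hαB t₂' ht₂'⟩) := by
    rw [hθ, hθ, s36r_r1_alpha G φ M q hq hqM S t₂' (hBMV t₂' ht₂') (hαB t₂' ht₂'), ← hFrob]
    exact hθA
  have hA' : ∀ β₀ : BB, ((⟨_, hαB t ht⟩ : BB) - ⟨_, hβB t' ht'⟩ ^ q) *
      ((⟨_, hβB t₂ ht₂⟩ : BB) - ⟨_, hαB t₂' ht₂'⟩ ^ q) = ((q : ℕ) : BB) * β₀ →
      R₁ β₀ = R₁ ((⟨_, hαB t ht⟩ : BB) - ⟨_, hβB t' ht'⟩ ^ q) *
        s34m_redInf G (M * q) ⟨A, hAV⟩ := by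
    intro β₀ e
    set u : BB := (⟨_, hαB t ht⟩ : BB) - ⟨_, hβB t' ht'⟩ ^ q with hu
    set w : BB := (⟨_, hβB t₂ ht₂⟩ : BB) - ⟨_, hαB t₂' ht₂'⟩ ^ q with hw
    have e' := congrArg (fun b : BB => (b : s34m_F K₀ (M * q))) e
    simp only [MulMemClass.coe_mul, SubringClass.coe_natCast] at e'
    have hw𝓕 : (w : s34m_F K₀ (M * q)) = ((q : ℕ) : s34m_F K₀ (M * q)) * A := by
      rw [hqA]; rfl
    have huI : (u : s34m_F K₀ (M * q)) ∈ s34m_Vinf G (M * q) :=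
      ((s34df_mem_O_iff G φ M q hq hqM _).mp u.2.1).1
    have hβ₀ : (β₀ : s34m_F K₀ (M * q)) = (u : s34m_F K₀ (M * q)) * A := by
      apply mul_left_cancel₀ hq0
      rw [← e', hw𝓕]
      ring
    rw [s34df_r1_eq G φ M q hq hqM S β₀ _ (mul_mem huI hAV) hβ₀]
    have : (⟨(u : s34m_F K₀ (M * q)) * A, mul_mem huI hAV⟩ : s34m_Vinf G (M * q)) =
        (⟨(u : s34m_F K₀ (M * q)), huI⟩ : s34m_Vinf G (M * q)) * ⟨A, hAV⟩ := rfl
    rw [this, map_mul, s34df_r1_eq G φ M q hq hqM S u _ huI rfl]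
  -- thickness one
  obtain ⟨β₀, huw, hβ₀, hm⟩ := s36r_thick_abs (κ := κ) G.π hπ 𝔫 hkerπ (R₁) (R₂) h1 h2 θ hθA₁ hθA₂
    q hq.two_le hθq ((q : ℕ) : BB) hqB hq₁ hq₂ hpur ⟨_, hαB t ht⟩ ⟨_, hβB t' ht'⟩
    ⟨_, hβB t₂ ht₂⟩ ⟨_, hαB t₂' ht₂'⟩ hu₂ hw₁ hU hW (s34m_redInf G (M * q) ⟨A, hAV⟩) hA' H2
    ⟨⟨_, hαB g₀ hg₀⟩, by
      rw [hθ, s36r_r1_alpha G φ M q hq hqM S g₀ (hBMV g₀ hg₀) (hαB g₀ hg₀)]; exact hθg₀⟩ H3
  -- packaging
  have hεβ : s36r_constB G φ M q hq hqM S ε * β₀ ∉ 𝔫 := by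
    intro hmem
    rcases h𝔫p.mem_or_mem hmem with h | h
    · exact h𝔫p.ne_top (Ideal.eq_top_of_isUnit_mem _ h (hε.map (s36r_constB G φ M q hq hqM S)))
    · exact hβ₀ h
  refine ⟨algebraMap BB _ ((⟨_, hαB t ht⟩ : BB) - ⟨_, hβB t' ht'⟩ ^ q),
    algebraMap BB _ ((⟨_, hβB t₂ ht₂⟩ : BB) - ⟨_, hαB t₂' ht₂'⟩ ^ q),
    algebraMap BB _ (s36r_constB G φ M q hq hqM S ε * β₀),
    IsLocalization.map_units (Localization.AtPrime 𝔫) (⟨_, hεβ⟩ : 𝔫.primeCompl), ?_, ?_, ?_, hm⟩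
  · rw [s34f_iota_algebraMap]
    obtain ⟨y', hy', e⟩ := (s35gd_r2_eq_zero_iff G φ M q hq hqM S _).mp hu₂'
    rw [e]
    exact s36r_unif_mul_mem_nonunits G φ M q hq hqM false y' hy'
  · rw [s34f_iota_algebraMap]
    obtain ⟨y', hy', e⟩ := (s35gd_r1_eq_zero_iff G φ M q hq hqM S _).mp hw₁'
    rw [e]
    exact s36r_unif_mul_mem_nonunits G φ M q hq hqM true y' hy'
  · rw [s34f_iota_algebraMap, s34f_iota_algebraMap, s34f_iota_algebraMap]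
    have e' := congrArg (fun b : BB => (b : s34m_F K₀ (M * q))) huw
    simp only [MulMemClass.coe_mul, SubringClass.coe_natCast] at e'
    rw [e', MulMemClass.coe_mul, s36r_coe_constB,
      s36r_natCast_eq_unif_mul G M q ε hqε]
    ring

end Main

end Fermat.Agent.Lib.S36
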