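/-
S36 (R-q), helper4, prefix `s36r_`: THE REGULAR CROSSINGS OF CHART 1 OF A BASE FUNCTION `α w`
FROM THE EXPLICIT LEVEL-`M` DATA.

`s36r_crossReg_of_explicit`: `s36k_Explicit G φ M q hq hqM w` (helper8's explicit level-`M` data of
chart 1 of `α w`) + `s35g_BaseData` for `α w` + "crossings are closed points" (`hmax`) + "crossings
are not cuspidal" (`hNC`) ⟹ `s36q_fi_CrossReg G φ M q hq hqM (α w)` (helper3/helper5's shape of (R-q)).
Proof: `s36r_regCross_df` (RThick.lean) with the frame of `s35gd_elem_of_chartData`; its horizontal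
input `hF5` is helper2's `s36e_hk_ratio_regular` (K2) at the maximal ideal `β⁻¹ 𝔫` of the level-`M`
chart ring (`s36el_comap_isMaximal`).
-/
import Fermat.Agent.Lib.S36.RThick
import Fermat.Agent.Lib.S36.KExplicit
import Fermat.Agent.Lib.S36.RHorizK
import Fermat.Agent.Lib.S36.REisPt
import Fermat.Agent.Lib.S36.REllAbs
import Fermat.Agent.Lib.S36.QFibInst

set_option autoImplicit false
set_option linter.unusedSectionVars false
set_option linter.style.haveILetI false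
set_option synthInstance.maxHeartbeats 400000

noncomputable section

namespace Fermat.Agent.Lib.S36

open ModularCurve AlgebraicCurve HahnSeries Polynomial Fermat.Agent.Lib.FF Fermat.Agent.Lib.S18
  Fermat.Agent.Lib.S37 Fermat.Agent.Lib.S34 Fermat.Agent.Lib.S35 KaehlerDifferential

local notation "Kb" => AlgebraicClosure ℚ

variable {K₀ : Type} [Field K₀] [CharZero K₀] [Algebra ℚ K₀] {κ : Type} [Field κ]
  (G : s18g_GaussData K₀ κ) (φ : K₀ →+* Kb) (M q : ℕ) [NeZero M] [NeZero q]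
  (hq : q.Prime) (hqM : ¬ q ∣ M) [CharP κ q] [PerfectField κ] [IsDiscreteValuationRing G.A]

local notation "𝓕M" => laurentBaseChange K₀ (modularFunctionFieldFull M)
local notation "hFM" => (fun (f : LaurentSeries K₀)
  (hf : f ∈ laurentBaseChange K₀ (modularFunctionFieldFull M)) => s18g_baseChange_mem_Frac G M hf)

/-- `θ x ≠ 0` for a series whose order is prime to the characteristic. -/
theorem s36r_theta_ne_zero_of_order (x : LaurentSeries κ) (hx : ¬ (q : ℤ) ∣ x.order) :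
    ffd_theta x ≠ 0 := by
  have hx0 : x ≠ 0 := by
    rintro rfl
    apply hx
    rw [HahnSeries.order_zero]
    exact dvd_zero _
  intro h0
  have h1 := congrArg (fun y : LaurentSeries κ => y.coeff x.order) h0
  simp only [ffd_theta_coeff, HahnSeries.coeff_zero] at h1
  rcases mul_eq_zero.mp h1 with h | h
  · exact hx ((CharP.intCast_eq_zero_iff κ q _).mp h)
  · exact hx0 (HahnSeries.coeff_order_eq_zero.mp h)

/-- purity of the level-`M` chart ring. -/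
theorem s36r_purM (w : s34m_F K₀ M) (g : s34m_F K₀ M)
    (hg : g ∈ s18_ring (L₀ := K₀) (s34m_Vinf G M) (s18_chart1 w))
    (h0 : s34m_redInf G M ⟨g, hg.1⟩ = 0) :
    ∃ g' ∈ s18_ring (L₀ := K₀) (s34m_Vinf G M) (s18_chart1 w), g = s34m_unif G M * g' := by
  obtain ⟨z, hz, e⟩ := (s34m_redInf_eq_zero_iff G M ⟨g, hg.1⟩).mp h0
  have hϖ0 : ((G.ϖ : G.A) : K₀) ≠ 0 := s18g_unifK_ne_zero G
  refine ⟨z, ⟨hz, fun Q hQ => ?_⟩, e⟩
  have hz' : z = algebraMap K₀ (s34m_F K₀ M) (((G.ϖ : G.A) : K₀)⁻¹) * g := by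
    have e' : g = s34m_unif G M * z := e
    rw [e', s34m_unif, ← mul_assoc, ← map_mul, inv_mul_cancel₀ hϖ0, map_one, one_mul]
  rw [hz']
  exact Q.toValuationSubring.mul_mem _ _ (Q.algebraMap_mem' _) (hg.2 Q hQ)

local notation "SS" w => s18_chart1 (L₀ := K₀) (heckeAlphaBar K₀ M q w)
local notation "BB" w => s34x_ring (L₀ := K₀) (s34x_infRing (s34m_VV G φ M q hq hqM))
  (s18_chart1 (L₀ := K₀) (heckeAlphaBar K₀ M q w))

/-- **(R-q) for chart 1 of `α w` from the explicit level-`M` data.** -/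
theorem s36r_crossReg_of_explicit (h2 : nuTwo M = 0) (h3 : nuThree M = 0)
    (hπ : Function.Surjective G.π)
    (hunr : ∃ ε : G.A, IsUnit ε ∧ ((q : ℕ) : G.A) = G.ϖ * ε)
    (w : ↥𝓕M) (hE : s36k_Explicit G φ M q hq hqM w)
    (hB : s35g_BaseData G φ M q hq hqM (heckeAlphaBar K₀ M q w))
    (hmax : ∀ (𝔫 : Ideal (BB w)) [𝔫.IsPrime],
      RingHom.ker (s34df_r1 G φ M q hq hqM (s18_chart1 (L₀ := K₀) (heckeAlphaBar K₀ M q w))) ≤ 𝔫 →
      RingHom.ker (s34df_r2 G φ M q hq hqM (s18_chart1 (L₀ := K₀) (heckeAlphaBar K₀ M q w))) ≤ 𝔫 →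
      𝔫.IsMaximal)
    (hNC : ∀ (𝔫 : Ideal (BB w)) [𝔫.IsPrime],
      RingHom.ker (s34df_r1 G φ M q hq hqM (s18_chart1 (L₀ := K₀) (heckeAlphaBar K₀ M q w))) ≤ 𝔫 →
      RingHom.ker (s34df_r2 G φ M q hq hqM (s18_chart1 (L₀ := K₀) (heckeAlphaBar K₀ M q w))) ≤ 𝔫 →
      ∀ Q ∈ s18_chart1 (L₀ := K₀) (heckeAlphaBar K₀ M q w),
        s34f_through (s34x_infRing (s34m_VV G φ M q hq hqM))
          (s18_chart1 (L₀ := K₀) (heckeAlphaBar K₀ M q w)) 𝔫 Q →
        0 ≤ Q.ord (heckeBetaBar K₀ M q (s18g_jF (K := K₀) M))) :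
    s36q_fi_CrossReg G φ M q hq hqM (heckeAlphaBar K₀ M q w) := by
  obtain ⟨hT, hdegM, hwV, hdeg, hgen, hαM, hcoord, hwtw, hmain, hαB, hβB⟩ := hE
  intro 𝔭 h𝔭 hthT hthF
  have h1 : RingHom.ker (s34df_r1 G φ M q hq hqM (SS w)) ≤ 𝔭 := fun b hb => hthT b (by
    obtain ⟨y, hy, e⟩ := (s35gd_r1_eq_zero_iff G φ M q hq hqM (SS w) b).mp hb
    rw [e]
    exact s36r_unif_mul_mem_nonunits G φ M q hq hqM true y hy)
  have h2' : RingHom.ker (s34df_r2 G φ M q hq hqM (SS w)) ≤ 𝔭 := fun b hb => hthF b (by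
    obtain ⟨y, hy, e⟩ := (s35gd_r2_eq_zero_iff G φ M q hq hqM (SS w) b).mp hb
    rw [e]
    exact s36r_unif_mul_mem_nonunits G φ M q hq hqM false y hy)
  haveI hmx : 𝔭.IsMaximal := hmax 𝔭 h1 h2'
  haveI : Fact q.Prime := ⟨hq⟩
  haveI := hgen
  letI algF := s18f_algF G M hT hdegM w hwV
  have hA : ∀ p : κ[X], algebraMap κ[X] ↥(modularFunctionFieldFullC κ M) p =
      Polynomial.aeval (s18g_redF G M hFM hT hdegM ⟨w, hwV⟩) p :=
    s18f_algF_apply G M hT hdegM w hwV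
  obtain ⟨hDed, hFrac⟩ := s37b_dedekind_of_coord κ q M (s18g_redF G M hFM hT hdegM ⟨w, hwV⟩)
    hcoord hA
  haveI := hDed
  haveI := hFrac
  have hBMV : ∀ g ∈ s18_ring (L₀ := K₀) (s34m_Vinf G M) (s18_chart1 w),
      g ∈ s34m_Vinf G M := fun g hg => hg.1
  have hlift : ∀ d : ↥(integralClosure κ[X] ↥(modularFunctionFieldFullC κ M)), ∃ g,
      ∃ hg : g ∈ s18_ring (L₀ := K₀) (s34m_Vinf G M) (s18_chart1 w),
      s34m_redInf G M ⟨g, hBMV g hg⟩ =
        ((algebraMap ↥(integralClosure κ[X] ↥(modularFunctionFieldFullC κ M))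
          ↥(modularFunctionFieldFullC κ M) d : ↥(modularFunctionFieldFullC κ M)) :
          LaurentSeries κ) := by
    intro d
    obtain ⟨b, hb, e⟩ := hmain (d : ↥(modularFunctionFieldFullC κ M)) d.2
    refine ⟨b, hb, ?_⟩
    have h1 := congrArg (fun z : ↥(modularFunctionFieldFullC κ M) => (z : LaurentSeries κ)) e
    exact h1
  have htw : ∀ d : ↥(integralClosure κ[X] ↥(modularFunctionFieldFullC κ M)),
      ∃ d' : ↥(integralClosure κ[X] ↥(modularFunctionFieldFullC κ M)),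
      qExpand κ q ((algebraMap ↥(integralClosure κ[X] ↥(modularFunctionFieldFullC κ M))
          ↥(modularFunctionFieldFullC κ M) d : ↥(modularFunctionFieldFullC κ M)) :
          LaurentSeries κ) =
        ((algebraMap ↥(integralClosure κ[X] ↥(modularFunctionFieldFullC κ M))
          ↥(modularFunctionFieldFullC κ M) d' : ↥(modularFunctionFieldFullC κ M)) :
          LaurentSeries κ) ^ q := fun d =>
    s34df_htw M q (s18g_redF G M hFM hT hdegM ⟨w, hwV⟩) (hwtw _) hA d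
  -- `θ (red w) ≠ 0`
  have hwBM : (w : s34m_F K₀ M) ∈ s18_ring (L₀ := K₀) (s34m_Vinf G M) (s18_chart1 w) :=
    ⟨hwV, fun Q hQ => hQ⟩
  have hθw : ffd_theta (s34m_redInf G M ⟨w, hBMV w hwBM⟩) ≠ 0 :=
    s36r_theta_ne_zero_of_order q _ hcoord.2.1
  have hFT := s36e_finiteType_chart1 G φ M q hq hqM (heckeAlphaBar K₀ M q w) hB
  have hF3 := (s35g_dict₁ G φ M q hq hqM (heckeAlphaBar K₀ M q w) hB).2.2.2
  obtain ⟨hw0, hgenN, hwO, hwO', hfix, hα, hα', hCD1, hCD2⟩ := hB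
  haveI := hgenN
  refine s36q_RegCross_symm _ _ _ false true _ (s36r_regCross_df G φ M q hq hqM (SS w)
    (modularFunctionFieldFullC κ M)
    (D₁ := ↥(integralClosure κ[X] ↥(modularFunctionFieldFullC κ M)))
    (D₂ := ↥(integralClosure κ[X] ↥(modularFunctionFieldFullC κ M))) hπ hunr
    (fun b => s34df_hF₁ G φ M q hq hqM (SS w) hdeg hT hdegM b)
    (fun b => s34df_hF₂ G φ M q hq hqM (SS w) hdeg hT hdegM b)
    (s18_ring (L₀ := K₀) (s34m_Vinf G M) (s18_chart1 w)) hBMV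
    (fun g hg h0 => s36r_purM G M w g hg h0) hαB hβB hlift hlift htw htw hFT
    (heckeAlphaBar K₀ M q w) ⟨w, hwBM, hθw⟩ hF3 𝔭 h1 h2' ?_)
  -- the horizontal input (K2)
  intro t₂ ht₂ ht₂𝔫 hcoordM x c hrel Q hQ hth
  let b : s18_ring (L₀ := K₀) (s34m_Vinf G M) (s18_chart1 w) →+* (BB w) :=
    ((heckeBetaBar K₀ M q : s34m_F K₀ M →ₐ[K₀] s34m_F K₀ (M * q)) :
      s34m_F K₀ M →+* s34m_F K₀ (M * q)).restrict
      (s18_ring (L₀ := K₀) (s34m_Vinf G M) (s18_chart1 w)) (BB w) hβB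
  have hb : ∀ g : s18_ring (L₀ := K₀) (s34m_Vinf G M) (s18_chart1 w),
      b g = ⟨heckeBetaBar K₀ M q (g : s34m_F K₀ M), hβB g g.2⟩ := fun g => rfl
  letI algBM : Algebra G.A (s18_ring (L₀ := K₀) (s34m_Vinf G M) (s18_chart1 w)) :=
    (s36h_constHom G M w).toAlgebra
  letI algBB : Algebra G.A (BB w) := (s36r_constB G φ M q hq hqM (SS w)).toAlgebra
  haveI : Algebra.FiniteType G.A (BB w) := hFT
  have hkerπ : ∀ a : G.A, G.π a = 0 → algebraMap G.A (BB w) a ∈ 𝔭 := fun a ha => h1 (by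
    rw [RingHom.mem_ker]
    show s34df_r1 G φ M q hq hqM (SS w) (s36r_constB G φ M q hq hqM (SS w) a) = 0
    rw [s36r_r1_const, ha, map_zero])
  haveI hm : (𝔭.comap b).IsMaximal := s36el_comap_isMaximal G.π hπ b (fun a => Subtype.ext (by
    show heckeBetaBar K₀ M q (algebraMap K₀ (s34m_F K₀ M) (a : K₀)) =
      algebraMap K₀ (s34m_F K₀ (M * q)) (a : K₀)
    exact AlgHom.commutes _ _)) 𝔭 hkerπ
  have hϖ𝔪 : s36h_constHom G M w G.ϖ ∈ 𝔭.comap b := Ideal.mem_comap.mpr (by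
    have e : b (s36h_constHom G M w G.ϖ) = s36r_constB G φ M q hq hqM (SS w) G.ϖ :=
      Subtype.ext (by
        show heckeBetaBar K₀ M q (algebraMap K₀ (s34m_F K₀ M) ((G.ϖ : G.A) : K₀)) =
          algebraMap K₀ (s34m_F K₀ (M * q)) ((G.ϖ : G.A) : K₀)
        exact AlgHom.commutes _ _)
    rw [e]
    exact hkerπ G.ϖ (s18g_pi_unif G))
  have ht𝔪 : (⟨t₂, ht₂⟩ : s18_ring (L₀ := K₀) (s34m_Vinf G M) (s18_chart1 w)) ∈ 𝔭.comap b :=
    Ideal.mem_comap.mpr (by rw [hb]; exact ht₂𝔫)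
  have ht : ∀ y ∈ 𝔭.comap b, ∃ c', c' ∉ 𝔭.comap b ∧ ∃ z b', c' * y =
      z * (⟨t₂, ht₂⟩ : s18_ring (L₀ := K₀) (s34m_Vinf G M) (s18_chart1 w)) +
        b' * s36h_constHom G M w G.ϖ := by
    intro y hy
    have hy' := Ideal.mem_comap.mp hy
    rw [hb] at hy'
    obtain ⟨c', hc', hc'𝔫, z, hz, b', hb', e⟩ := hcoordM y y.2 hy'
    refine ⟨⟨c', hc'⟩, fun h => hc'𝔫 ?_, ⟨z, hz⟩, ⟨b', hb'⟩, Subtype.ext e⟩
    have h' := Ideal.mem_comap.mp h
    rw [hb] at h'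
    exact h'
  refine s36e_hk_ratio_regular φ G M w q hq hqM h2 h3 hπ hwV hαM (𝔭.comap b)
    (s36h_constHom G M w G.ϖ) ⟨t₂, ht₂⟩ rfl hϖ𝔪 ht𝔪 ht Q (hNC 𝔭 h1 h2' Q hQ hth) ?_ ?_
    (x : s34m_F K₀ (M * q)) c (s34x_ord_nonneg_of_mem_ring _ _ x Q hQ) hrel
  · intro g
    exact s34x_ord_nonneg_of_mem_ring _ _ (⟨_, hβB g g.2⟩ : BB w) Q hQ
  · intro g hg
    refine Ideal.mem_comap.mpr ?_
    rw [hb]
    refine hth ⟨_, hβB g g.2⟩ ?_ hg
    intro h0
    have h0' : heckeBetaBar K₀ M q (g : s34m_F K₀ M) = 0 := h0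
    rw [h0', Place.ord_zero] at hg
    exact lt_irrefl _ hg

end Fermat.Agent.Lib.S36
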