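/-
S36 (R-q), helper4, prefix `s36r_`: THE LEAF `s36g_LeafCross` (`GInGeo.lean`).

`s36r_leafCross_of_max`: at a good level (`nuTwo M = nuThree M = 0`), `s36g_LeafCross M q hq hqM`
follows from the single remaining input "a prime of chart 1 of `α x` through which both components
pass is maximal" (`s36r_CrossMax`); everything else is on main:
`s36r_crossReg_of_explicit` (RLeafCross.lean) + helper7's `s36l_explicit_of_baseFull` + helper1's
`s36b_cross_noncusp_of_coe` + helper7's `s36l_coe_of_baseFull`.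
-/
import Fermat.Agent.Lib.S36.RLeafCross
import Fermat.Agent.Lib.S36.LExplicit
import Fermat.Agent.Lib.S36.LTripleLeaf
import Fermat.Agent.Lib.S36.XCrossNC
import Fermat.Agent.Lib.S36.GInGeo

set_option autoImplicit false
set_option linter.unusedSectionVars false
set_option linter.style.haveILetI false
set_option synthInstance.maxHeartbeats 400000

noncomputable section

namespace Fermat.Agent.Lib.S36

open ModularCurve AlgebraicCurve HahnSeries Polynomial Fermat.Agent.Lib.FF Fermat.Agent.Lib.S18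
  Fermat.Agent.Lib.S37 Fermat.Agent.Lib.S34 Fermat.Agent.Lib.S35

local notation "Kb" => AlgebraicClosure ℚ

variable (M q : ℕ) [NeZero M] [NeZero q] (hq : q.Prime) (hqM : ¬ q ∣ M)

/-- "Crossings are closed points": the only input of (R-q) not yet on main. -/
def s36r_CrossMax : Prop :=
  ∀ (K₀ : Type) [Field K₀] [NumberField K₀] (φ : K₀ →+* Kb)
    (κ : Type) [Field κ] [CharP κ q] [PerfectField κ]
    (G : s18g_GaussData K₀ κ) [IsDiscreteValuationRing G.A], Function.Surjective G.π →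
    ∀ (x : s34m_F K₀ M) (hx : x ∈ s34m_Vinf G M), s36g_BaseFull G φ M q hq hqM x hx →
    ∀ (𝔫 : Ideal (s34x_ring (L₀ := K₀) (s34x_infRing (s34m_VV G φ M q hq hqM))
      (s18_chart1 (L₀ := K₀) (heckeAlphaBar K₀ M q x)))) [𝔫.IsPrime],
      RingHom.ker (s34df_r1 G φ M q hq hqM
        (s18_chart1 (L₀ := K₀) (heckeAlphaBar K₀ M q x))) ≤ 𝔫 →
      RingHom.ker (s34df_r2 G φ M q hq hqM
        (s18_chart1 (L₀ := K₀) (heckeAlphaBar K₀ M q x))) ≤ 𝔫 → 𝔫.IsMaximal

/-- **The leaf (R-q)** from "crossings are closed points". -/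
theorem s36r_leafCross_of_max (h2 : nuTwo M = 0) (h3 : nuThree M = 0)
    (hmax : s36r_CrossMax M q hq hqM) : s36g_LeafCross M q hq hqM := by
  intro K₀ _ _ φ κ _ _ _ G _ hπ hϖ x hx hBF
  have hunr : ∃ ε : G.A, IsUnit ε ∧ ((q : ℕ) : G.A) = G.ϖ * ε := by
    refine ⟨1, isUnit_one, ?_⟩
    rw [mul_one]
    apply Subtype.ext
    rw [hϖ]
    simp
  have hcoe := s36l_coe_of_baseFull G φ M q hq hqM x hx hBF
  exact s36r_crossReg_of_explicit G φ M q hq hqM h2 h3 hπ hunr x
    (s36l_explicit_of_baseFull M q hq hqM K₀ φ κ G hπ x hx hBF) hBF.1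
    (fun 𝔫 _ h1 h2' => hmax K₀ φ κ G hπ x hx hBF 𝔫 h1 h2')
    (fun 𝔫 _ h1 h2' Q hQ hth =>
      (s36b_cross_noncusp_of_coe G φ M q hq hqM hπ x hBF.1 hcoe 𝔫 h1 h2' Q hQ hth).2)

end Fermat.Agent.Lib.S36
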