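/-
S36, layer (D) (helper7, prefix `s36v_`), part 2: GALOIS DESCENT BY AVERAGING for the function
fields `laurentBaseChange K F₀`.

`K / K₀` algebraic, `H` a finite group of `ℚ`-automorphisms of `K` fixing `K₀` pointwise and whose
fixed elements all come from `K₀`.  Then every `H`-invariant element of `laurentBaseChange K F₀`
comes from `laurentBaseChange K₀ F₀` (`s36v_descent_avg`): write `y = ∑ lᵢ ι(yᵢ)`
(`s34r_deg_span`) and average.
-/
import Mathlib
import Fermat.Agent.Lib.S34.RDeg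
import Fermat.Agent.Lib.S34.RDesc

set_option autoImplicit false
set_option linter.style.haveILetI false

noncomputable section

namespace Fermat.Agent.Lib.S36

open ModularCurve AlgebraicCurve Fermat.Agent.Lib.S18 Fermat.Agent.Lib.S34

section Avg

variable {K₀ K : Type*} [Field K₀] [Field K] [Algebra ℚ K₀] [Algebra ℚ K] [Algebra K₀ K]
variable (F₀ : IntermediateField ℚ (LaurentSeries ℚ))

/-- the coefficientwise action is semilinear over the constants -/
theorem s36v_smul_const_mul (τ : K ≃ₐ[ℚ] K) (a : K) (x : ↥(laurentBaseChange K F₀)) :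
    arithmeticGalois F₀ τ • (a • x) = τ a • (arithmeticGalois F₀ τ • x) := by
  rw [Algebra.smul_def, Algebra.smul_def, smul_mul', SemilinearAut.smul_algebraMap]
  rfl

/-- **Galois descent by averaging.** -/
theorem s36v_descent_avg [Algebra.IsAlgebraic K₀ K] (H : Subgroup (K ≃ₐ[ℚ] K)) [Finite H]
    (hK₀ : ∀ τ ∈ H, ∀ a : K₀, τ (algebraMap K₀ K a) = algebraMap K₀ K a)
    (hfix : ∀ a : K, (∀ τ ∈ H, τ a = a) → a ∈ Set.range (algebraMap K₀ K))
    (y : ↥(laurentBaseChange K F₀)) (hy : ∀ τ ∈ H, arithmeticGalois F₀ τ • y = y) :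
    y ∈ Set.range (s18q_map (algebraMap K₀ K) F₀) := by
  classical
  haveI : Fintype H := Fintype.ofFinite H
  haveI : CharZero K := algebraRat.charZero K
  set ι := s18q_map (algebraMap K₀ K) F₀ with hι
  -- `τ` fixes the image of `F_{K₀}`
  have hτι : ∀ τ ∈ H, ∀ x : ↥(laurentBaseChange K₀ F₀), arithmeticGalois F₀ τ • ι x = ι x := by
    intro τ hτ x
    have h := s34q_map_smul F₀ (algebraMap K₀ K) (1 : K₀ ≃ₐ[ℚ] K₀) τ
      (fun a => (hK₀ τ hτ a).symm) x
    rw [map_one, one_smul] at h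
    exact h.symm
  -- `ι` is `K₀`-semilinear
  have hιsmul : ∀ (b : K₀) (x : ↥(laurentBaseChange K₀ F₀)),
      algebraMap K₀ K b • ι x = ι (b • x) := by
    intro b x
    rw [Algebra.smul_def, Algebra.smul_def, map_mul, hι, s18q_map_algebraMap]
  obtain ⟨c, hc⟩ := Finsupp.mem_span_range_iff_exists_finsupp.mp (s34r_deg_span (K₀ := K₀) F₀ y)
  -- the averaged coefficients
  have havg : ∀ a : K, ∃ b : K₀, algebraMap K₀ K b = ∑ τ : H, (τ : K ≃ₐ[ℚ] K) a := by
    intro a
    obtain ⟨b, hb⟩ := hfix (∑ τ : H, (τ : K ≃ₐ[ℚ] K) a) (by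
      intro σ hσ
      rw [map_sum]
      exact Fintype.sum_bijective (fun τ : H => (⟨σ, hσ⟩ : H) * τ)
        (Group.mulLeft_bijective _) _ _ (fun τ => rfl))
    exact ⟨b, hb⟩
  choose b hb using havg
  have hcard : (Fintype.card H : K) ≠ 0 := Nat.cast_ne_zero.mpr Fintype.card_ne_zero
  -- sum over the group
  have hsum : (Fintype.card H : K) • y = ι (c.sum fun x a => b a • x) := by
    have h1 : (Fintype.card H : K) • y = ∑ τ : H, arithmeticGalois F₀ (τ : K ≃ₐ[ℚ] K) • y := by
      rw [Finset.sum_congr rfl (fun (τ : H) _ => hy (τ : K ≃ₐ[ℚ] K) τ.prop), Finset.sum_const, Finset.card_univ,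
        Nat.cast_smul_eq_nsmul]
    rw [h1]
    conv_lhs =>
      enter [2, τ]
      rw [← hc, Finsupp.sum, Finset.smul_sum]
    rw [Finset.sum_comm, Finsupp.sum, map_sum]
    refine Finset.sum_congr rfl fun x _ => ?_
    rw [← hιsmul, hb, Finset.sum_smul]
    refine Finset.sum_congr rfl fun τ _ => ?_
    rw [s36v_smul_const_mul, hτι (τ : K ≃ₐ[ℚ] K) τ.prop]
  refine ⟨(algebraMap K₀ ↥(laurentBaseChange K₀ F₀)
      ((Fintype.card H : K₀)⁻¹)) * (c.sum fun x a => b a • x), ?_⟩
  rw [map_mul, ← hsum, hι, s18q_map_algebraMap, map_inv₀, map_natCast, Algebra.smul_def,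
    ← mul_assoc, ← map_mul, inv_mul_cancel₀ hcard, map_one, one_mul]

end Avg

end Fermat.Agent.Lib.S36
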