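/-
S36, layer (D) (helper3 for helper7, prefix `s36v_`), piece (P1): **GALOIS DESCENT FROM `ℚ̄`.**

An element `x` of the function field `𝓕_{N,ℚ̄} = modularFunctionFieldBar N` which is fixed by the
coefficientwise action of `Gal(ℚ̄ / K₀)`, `K₀ ⊆ ℚ̄` a number field, comes from `𝓕_{N,K₀}`:

  `s36v_descent_big : (∀ ρ, ρ|K₀ = id → ρ • x = x) → x ∈ Set.range (s18q_incl N K₀)`.

Route: `x` is defined over a number field `L'` (`s18q_exists_field`); `L` := the normal closure of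
`L' ⊔ K₀` in `ℚ̄` (finite Galois over `ℚ`, contains `K₀`); `H := Gal(L / K₀)`; every `τ ∈ H` lifts to
`ℚ̄` (`AlgEquiv.liftNormal`), so `x_L` is `H`-invariant; the `H`-invariants of `L` are `K₀`
(infinite Galois correspondence + `AlgEquiv.restrictNormal`); conclude by helper7's
`s36v_descent_avg`.
-/
import Fermat.Agent.Lib.S36.VGD

set_option autoImplicit false
set_option linter.style.haveILetI false

noncomputable section

namespace Fermat.Agent.Lib.S36

open ModularCurve AlgebraicCurve Fermat.Agent.Lib.S18 Fermat.Agent.Lib.S34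

local notation "Qbar" => AlgebraicClosure ℚ
local notation "Γℚ" => (AlgebraicClosure ℚ ≃ₐ[ℚ] AlgebraicClosure ℚ)

/-- an element of `ℚ̄` fixed by `Gal(ℚ̄ / K₀)` lies in `K₀`. -/
theorem s36v_mem_of_fixed (K₀ : IntermediateField ℚ Qbar) (c : Qbar)
    (hc : ∀ ρ : Γℚ, (∀ a ∈ K₀, ρ a = a) → ρ c = c) : c ∈ K₀ := by
  haveI : IsAlgClosure ℚ Qbar := ⟨inferInstance, s18q_isAlgebraic_bar⟩
  haveI : IsGalois ℚ Qbar := IsAlgClosure.isGalois ℚ Qbar
  rw [← InfiniteGalois.fixedField_fixingSubgroup K₀, IntermediateField.mem_fixedField_iff]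
  intro τ hτ
  exact hc τ (fun a ha => (IntermediateField.mem_fixingSubgroup_iff K₀ τ).mp hτ a ha)

/-- **Galois descent from `ℚ̄` to a number field.** -/
theorem s36v_descent_big (N : ℕ) (K₀ : IntermediateField ℚ Qbar) [FiniteDimensional ℚ ↥K₀]
    (x : modularFunctionFieldBar N)
    (hx : ∀ ρ : Γℚ, (∀ a ∈ K₀, ρ a = a) →
      arithmeticGalois (modularFunctionFieldFull N) ρ • x = x) :
    x ∈ Set.range (s18q_incl N K₀) := by
  classical
  haveI : Algebra.IsAlgebraic ℚ Qbar := s18q_isAlgebraic_bar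
  haveI : Normal ℚ Qbar := by
    haveI : IsAlgClosure ℚ Qbar := ⟨inferInstance, s18q_isAlgebraic_bar⟩
    haveI : IsGalois ℚ Qbar := IsAlgClosure.isGalois ℚ Qbar
    infer_instance
  -- a number field of definition
  obtain ⟨L', hL'fin, hL'⟩ := s18q_exists_field N {x}
  haveI := hL'fin
  -- the normal closure of `L' ⊔ K₀`
  set L : IntermediateField ℚ Qbar := IntermediateField.normalClosure ℚ ↥(L' ⊔ K₀) Qbar with hL
  haveI hLfin : FiniteDimensional ℚ ↥L := normalClosure.is_finiteDimensional ℚ ↥(L' ⊔ K₀) Qbar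
  haveI hLnorm : Normal ℚ ↥L := normalClosure.normal ℚ ↥(L' ⊔ K₀) Qbar
  have hle0 : L' ⊔ K₀ ≤ L := IntermediateField.le_normalClosure (L' ⊔ K₀)
  have hL'L : L' ≤ L := le_trans le_sup_left hle0
  have hle : K₀ ≤ L := le_trans le_sup_right hle0
  obtain ⟨xL, hxL⟩ := s18q_incl_range_mono N hL'L (hL' x (Finset.mem_singleton_self x))
  -- the algebra structure `K₀ → L`
  letI aKL : Algebra ↥K₀ ↥L := (IntermediateField.inclusion hle).toRingHom.toAlgebra
  have hincl : ∀ a : ↥K₀, ((algebraMap ↥K₀ ↥L a : ↥L) : Qbar) = (a : Qbar) := fun a => rfl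
  haveI : IsScalarTower ℚ ↥K₀ ↥L := IsScalarTower.of_algebraMap_eq fun r => by
    apply Subtype.ext
    rw [hincl]
    rfl
  haveI : Algebra.IsAlgebraic ℚ ↥L := Algebra.IsAlgebraic.of_finite ℚ ↥L
  haveI : Algebra.IsAlgebraic ↥K₀ ↥L := Algebra.IsAlgebraic.tower_top (K := ℚ) ↥K₀
  -- the group `H = Gal(L / K₀)`
  let H : Subgroup (↥L ≃ₐ[ℚ] ↥L) :=
    { carrier := {τ | ∀ a : ↥K₀, τ (algebraMap ↥K₀ ↥L a) = algebraMap ↥K₀ ↥L a}
      mul_mem' := fun {σ τ} hσ hτ a => by
        show σ (τ (algebraMap ↥K₀ ↥L a)) = algebraMap ↥K₀ ↥L a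
        rw [hτ a, hσ a]
      one_mem' := fun a => rfl
      inv_mem' := fun {σ} hσ a => by
        have h1 : σ⁻¹ (σ (algebraMap ↥K₀ ↥L a)) = algebraMap ↥K₀ ↥L a :=
          σ.symm_apply_apply _
        rw [hσ a] at h1
        exact h1 }
  haveI : Finite (↥L ≃ₐ[ℚ] ↥L) := inferInstance
  haveI : Finite H := Subtype.finite
  -- `x_L` is `H`-invariant
  have hinv : ∀ τ ∈ H, arithmeticGalois (modularFunctionFieldFull N) τ • xL = xL := by
    intro τ hτ
    set ρ : Γℚ := τ.liftNormal Qbar with hρ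
    have hρL : ∀ a : ↥L, ρ (algebraMap ↥L Qbar a) = algebraMap ↥L Qbar (τ a) := fun a =>
      τ.liftNormal_commutes Qbar a
    have hρK : ∀ a ∈ K₀, ρ a = a := by
      intro a ha
      have h1 := hρL (algebraMap ↥K₀ ↥L ⟨a, ha⟩)
      rw [hτ ⟨a, ha⟩] at h1
      exact h1
    have h2 := s34q_map_smul (modularFunctionFieldFull N) (algebraMap ↥L Qbar) τ ρ
      (fun a => (hρL a).symm) xL
    apply s18q_incl_injective N L
    show s18q_map (algebraMap ↥L Qbar) (modularFunctionFieldFull N) _ =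
      s18q_map (algebraMap ↥L Qbar) (modularFunctionFieldFull N) xL
    rw [h2]
    have h3 : s18q_map (algebraMap ↥L Qbar) (modularFunctionFieldFull N) xL = x := hxL
    rw [h3]
    exact hx ρ hρK
  -- the `H`-invariants of `L` are `K₀`
  have hfix : ∀ a : ↥L, (∀ τ ∈ H, τ a = a) → a ∈ Set.range (algebraMap ↥K₀ ↥L) := by
    intro a ha
    have hmem : (a : Qbar) ∈ K₀ := by
      apply s36v_mem_of_fixed K₀
      intro ρ hρ
      set τ : ↥L ≃ₐ[ℚ] ↥L := ρ.restrictNormal ↥L with hτ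
      have hτc : ∀ b : ↥L, algebraMap ↥L Qbar (τ b) = ρ (algebraMap ↥L Qbar b) := fun b =>
        ρ.restrictNormal_commutes ↥L b
      have hτH : τ ∈ H := by
        intro b
        apply Subtype.ext
        have h1 := hτc (algebraMap ↥K₀ ↥L b)
        have h2 : ρ ((b : ↥K₀) : Qbar) = (b : Qbar) := hρ _ b.2
        exact h1.trans h2
      have h3 := hτc a
      rw [ha τ hτH] at h3
      exact h3.symm
    exact ⟨⟨(a : Qbar), hmem⟩, Subtype.ext rfl⟩
  obtain ⟨y₀, hy₀⟩ := s36v_descent_avg (K₀ := ↥K₀) (K := ↥L) (modularFunctionFieldFull N) H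
    (fun τ hτ a => hτ a) hfix xL hinv
  refine ⟨y₀, ?_⟩
  rw [← hxL, ← hy₀]
  show s18q_map (algebraMap ↥K₀ Qbar) (modularFunctionFieldFull N) y₀ =
    s18q_map (algebraMap ↥L Qbar) (modularFunctionFieldFull N)
      (s18q_map (algebraMap ↥K₀ ↥L) (modularFunctionFieldFull N) y₀)
  rw [s18q_map_comp]
  rfl

end Fermat.Agent.Lib.S36
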