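/-
S36, layer (D) (helper7, prefix `s36v_`), part 3: HILBERT 90 (Poincaré series) for a finite group of
coefficientwise automorphisms of `laurentBaseChange K F₀`.

`H ≤ Aut(K/ℚ)` finite, `h : H → F_K^×` a 1-cocycle (`h (σ τ) = h σ · σ (h τ)`).  Then there is
`g ≠ 0` with `h σ · σ g = g` for all `σ ∈ H` (`s36v_hilbert90`).
-/
import Mathlib
import Fermat.Prelude.Def_ModularCurve_ArithmeticGalois

set_option autoImplicit false
set_option linter.style.haveILetI false
set_option synthInstance.maxHeartbeats 400000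

noncomputable section

namespace Fermat.Agent.Lib.S36

open ModularCurve AlgebraicCurve

section H90

variable {K : Type*} [Field K] [Algebra ℚ K]
variable (F₀ : IntermediateField ℚ (LaurentSeries ℚ))

/-- the coefficientwise automorphism as a monoid homomorphism -/
def s36v_autHom (τ : K ≃ₐ[ℚ] K) : ↥(laurentBaseChange K F₀) →* ↥(laurentBaseChange K F₀) :=
  ((arithmeticRingAut F₀ τ : ↥(laurentBaseChange K F₀) ≃+* ↥(laurentBaseChange K F₀)) :
    ↥(laurentBaseChange K F₀) →+* ↥(laurentBaseChange K F₀))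

theorem s36v_autHom_apply (τ : K ≃ₐ[ℚ] K) (x : ↥(laurentBaseChange K F₀)) :
    s36v_autHom F₀ τ x = arithmeticGalois F₀ τ • x := rfl

theorem s36v_autHom_injective : Function.Injective (s36v_autHom (K := K) F₀) := by
  intro σ τ hστ
  ext a
  have h1 := DFunLike.congr_fun hστ (algebraMap K ↥(laurentBaseChange K F₀) a)
  rw [s36v_autHom_apply, s36v_autHom_apply, SemilinearAut.smul_algebraMap,
    SemilinearAut.smul_algebraMap] at h1
  exact (algebraMap K ↥(laurentBaseChange K F₀)).injective h1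

/-- **Hilbert 90** by Poincaré series. -/
theorem s36v_hilbert90 (H : Subgroup (K ≃ₐ[ℚ] K)) [Finite H]
    (h : H → ↥(laurentBaseChange K F₀)) (h0 : ∀ σ, h σ ≠ 0)
    (hcoc : ∀ σ τ : H, h (σ * τ) = h σ * (arithmeticGalois F₀ (σ : K ≃ₐ[ℚ] K) • h τ)) :
    ∃ g : ↥(laurentBaseChange K F₀), g ≠ 0 ∧
      ∀ σ : H, h σ * (arithmeticGalois F₀ (σ : K ≃ₐ[ℚ] K) • g) = g := by
  classical
  haveI : Fintype H := Fintype.ofFinite H
  -- Dedekind: the automorphisms are linearly independent
  have hli : LinearIndependent ↥(laurentBaseChange K F₀)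
      (fun τ : H => (s36v_autHom F₀ (τ : K ≃ₐ[ℚ] K) :
        ↥(laurentBaseChange K F₀) → ↥(laurentBaseChange K F₀))) := by
    have h1 := linearIndependent_monoidHom ↥(laurentBaseChange K F₀) ↥(laurentBaseChange K F₀)
    exact h1.comp (fun τ : H => s36v_autHom F₀ (τ : K ≃ₐ[ℚ] K))
      (fun σ τ hστ => Subtype.ext (s36v_autHom_injective F₀ hστ))
  -- a point where the Poincaré series does not vanish
  obtain ⟨x₀, hx₀⟩ : ∃ x₀ : ↥(laurentBaseChange K F₀),
      (∑ τ : H, h τ * (arithmeticGalois F₀ (τ : K ≃ₐ[ℚ] K) • x₀)) ≠ 0 := by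
    by_contra hcon
    push Not at hcon
    have h2 : (∑ τ : H, h τ • (s36v_autHom F₀ (τ : K ≃ₐ[ℚ] K) :
        ↥(laurentBaseChange K F₀) → ↥(laurentBaseChange K F₀))) = 0 := by
      funext x
      rw [Finset.sum_apply, Pi.zero_apply]
      simpa [s36v_autHom_apply] using hcon x
    exact h0 1 (Fintype.linearIndependent_iff.mp hli h h2 1)
  refine ⟨_, hx₀, fun σ => ?_⟩
  rw [Finset.smul_sum, Finset.mul_sum]
  refine Fintype.sum_bijective (fun τ : H => σ * τ) (Group.mulLeft_bijective σ) _ _ fun τ => ?_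
  rw [smul_mul', ← mul_assoc, ← hcoc, ← mul_smul, ← map_mul]
  rfl

end H90

end Fermat.Agent.Lib.S36
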