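/-
S36, layer (D) (helper7, prefix `s36v_`), part 1: LEADING COEFFICIENTS of `q`-expansions.

For a field `K`, `lc : K((T)) → K` is multiplicative, commutes with coefficientwise field
homomorphisms, and rigidifies `m`-th roots in characteristic zero:
`x ^ m = y ^ m`, `lc x = lc y ≠ 0` ⟹ `x = y`  (`s36v_eq_of_pow_eq`).
This is what makes all the "constants" in the descent to the inertia field disappear.
-/
import Mathlib
import Fermat.Prelude.Def_ModularCurve_LaurentCoeff

set_option autoImplicit false

noncomputable section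

namespace Fermat.Agent.Lib.S36

open ModularCurve HahnSeries

section Lead

variable {K : Type*} [Field K]

/-- the leading coefficient as a monoid-with-zero homomorphism -/
def s36v_lc : LaurentSeries K →*₀ K where
  toFun x := x.leadingCoeff
  map_zero' := HahnSeries.leadingCoeff_zero
  map_one' := HahnSeries.leadingCoeff_one
  map_mul' x y := HahnSeries.leadingCoeff_mul x y

theorem s36v_lc_apply (x : LaurentSeries K) : s36v_lc x = x.leadingCoeff := rfl

theorem s36v_lc_eq_zero {x : LaurentSeries K} : s36v_lc x = 0 ↔ x = 0 :=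
  HahnSeries.leadingCoeff_eq_zero

theorem s36v_lc_ne_zero {x : LaurentSeries K} (hx : x ≠ 0) : s36v_lc x ≠ 0 :=
  fun h => hx (s36v_lc_eq_zero.mp h)

theorem s36v_lc_algebraMap (c : K) : s36v_lc (algebraMap K (LaurentSeries K) c) = c := by
  rw [algebraMap_laurentSeries_eq_single, s36v_lc_apply, HahnSeries.leadingCoeff_of_single]

end Lead

section Map

variable {K₀ K : Type*} [Field K₀] [Field K] (φ : K₀ →+* K)

theorem s36v_coeffMap_eq_zero {x : LaurentSeries K₀} : coeffMap φ x = 0 ↔ x = 0 := by
  constructor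
  · intro h
    ext k
    have := congrArg (fun y => y.coeff k) h
    simp only [coeffMap_coeff, HahnSeries.coeff_zero] at this
    simpa using (map_eq_zero φ).mp this
  · rintro rfl
    exact map_zero _

theorem s36v_order_coeffMap (x : LaurentSeries K₀) : (coeffMap φ x).order = x.order := by
  rcases eq_or_ne x 0 with rfl | hx
  · rw [map_zero, HahnSeries.order_zero, HahnSeries.order_zero]
  have hx' : coeffMap φ x ≠ 0 := fun h => hx ((s36v_coeffMap_eq_zero φ).mp h)
  refine le_antisymm ?_ ?_
  · refine HahnSeries.order_le_of_coeff_ne_zero ?_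
    rw [coeffMap_coeff]
    exact (map_ne_zero φ).mpr (fun h => hx (HahnSeries.coeff_order_eq_zero.mp h))
  · refine HahnSeries.order_le_of_coeff_ne_zero ?_
    have h : (coeffMap φ x).coeff (coeffMap φ x).order ≠ 0 :=
      fun h => hx' (HahnSeries.coeff_order_eq_zero.mp h)
    rw [coeffMap_coeff] at h
    exact fun h0 => h (by rw [h0, map_zero])

/-- `lc` commutes with coefficientwise field homomorphisms. -/
theorem s36v_lc_coeffMap (x : LaurentSeries K₀) : s36v_lc (coeffMap φ x) = φ (s36v_lc x) := by
  rw [s36v_lc_apply, s36v_lc_apply, HahnSeries.leadingCoeff_eq, HahnSeries.leadingCoeff_eq,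
    s36v_order_coeffMap, coeffMap_coeff]

end Map

section Rigid

variable {K : Type*} [Field K]

/-- an `m`-th root of `1` has order `0`. -/
theorem s36v_order_eq_zero_of_pow_eq_one {x : LaurentSeries K} {m : ℕ} (hm : m ≠ 0)
    (h : x ^ m = 1) : x.order = 0 := by
  have hx : x ≠ 0 := by
    rintro rfl
    rw [zero_pow hm] at h
    exact zero_ne_one h
  have h1 : (x ^ m).order = m • x.order := HahnSeries.order_pow x m
  rw [h, HahnSeries.order_one] at h1
  have h2 : (m : ℤ) * x.order = 0 := by
    rw [← smul_eq_mul, natCast_zsmul]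
    exact h1.symm
  rcases mul_eq_zero.mp h2 with h3 | h3
  · exact absurd (Nat.cast_eq_zero.mp h3) hm
  · exact h3

variable [CharZero K]

/-- **Rigidity.**  In characteristic zero, an `m`-th root of `1` in `K((T))` with leading
coefficient `1` is `1`. -/
theorem s36v_eq_one_of_pow_eq_one {x : LaurentSeries K} {m : ℕ} (hm : m ≠ 0) (h : x ^ m = 1)
    (hlc : s36v_lc x = 1) : x = 1 := by
  have hx : x ≠ 0 := by
    rintro rfl
    rw [zero_pow hm] at h
    exact zero_ne_one h
  have hord : x.order = 0 := s36v_order_eq_zero_of_pow_eq_one hm h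
  -- every power of `x` has `0`-th coefficient `1`
  have hcoeff : ∀ i : ℕ, (x ^ i).coeff 0 = 1 := by
    intro i
    have h1 : (x ^ i).order = 0 := by
      rw [HahnSeries.order_pow, hord, smul_zero]
    have h2 : s36v_lc (x ^ i) = 1 := by rw [map_pow, hlc, one_pow]
    rw [s36v_lc_apply, HahnSeries.leadingCoeff_eq, h1] at h2
    exact h2
  have hsum : (∑ i ∈ Finset.range m, x ^ i) ≠ 0 := by
    intro h0
    have h1 := congrArg (fun y : LaurentSeries K => y.coeff 0) h0
    simp only [HahnSeries.coeff_sum, hcoeff, Finset.sum_const, Finset.card_range,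
      HahnSeries.coeff_zero, nsmul_eq_mul, mul_one] at h1
    exact hm (Nat.cast_eq_zero.mp h1)
  have hfac : (∑ i ∈ Finset.range m, x ^ i) * (x - 1) = 0 := by
    rw [geom_sum_mul, h, sub_self]
  rcases mul_eq_zero.mp hfac with h1 | h1
  · exact absurd h1 hsum
  · exact sub_eq_zero.mp h1

/-- **Uniqueness of normalised `m`-th roots.** -/
theorem s36v_eq_of_pow_eq {x y : LaurentSeries K} {m : ℕ} (hm : m ≠ 0) (hy : y ≠ 0)
    (h : x ^ m = y ^ m) (hlc : s36v_lc x = s36v_lc y) : x = y := by
  have h1 : (x / y) ^ m = 1 := by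
    rw [div_pow, h, div_self (pow_ne_zero m hy)]
  have h2 : s36v_lc (x / y) = 1 := by
    rw [map_div₀, hlc, div_self (s36v_lc_ne_zero hy)]
  have h3 := s36v_eq_one_of_pow_eq_one hm h1 h2
  rwa [div_eq_one_iff_eq hy] at h3

end Rigid

end Fermat.Agent.Lib.S36
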