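/-
S36, layer (D) (helper7, prefix `s36v_`), part 4: THE COCYCLE CORE of the descent to the inertia
field.

`I ≤ Gal(ℚ̄/ℚ)` a subgroup, `L ⊆ ℚ̄` a finite normal extension of `ℚ`, `K₀ ≤ L` with
`K₀ = L ∩ ℚ̄^I`.  Let `f ∈ F_L^×` be normalised (`lc f = 1`) such that for every `σ ∈ I` the quotient
`σ f / f` is an `m`-th power in `F_{ℚ̄}`.  Then there is `g ≠ 0` such that `f g ^ m` comes from
`F_{K₀}` (`s36v_core`).

Proof: the normalised `m`-th roots `h_σ` of `σ f / f` are unique, lie in `F_L`, form a 1-cocycle of the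
image `Ī` of `I` in `Gal(L/ℚ)`; Hilbert 90 gives `h_τ = g / τ g`; `f g ^ m` is `Ī`-invariant and descends
by averaging.
-/
import Mathlib
import Fermat.Agent.Lib.S36.VLead
import Fermat.Agent.Lib.S36.VGD
import Fermat.Agent.Lib.S36.VH90
import Fermat.Agent.Lib.S34.RDescRat

set_option autoImplicit false
set_option linter.style.haveILetI false
set_option synthInstance.maxHeartbeats 400000

noncomputable section

namespace Fermat.Agent.Lib.S36

open ModularCurve AlgebraicCurve Fermat.Agent.Lib.S18 Fermat.Agent.Lib.S34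

local notation "Qbar" => AlgebraicClosure ℚ
local notation "Γℚ" => (AlgebraicClosure ℚ ≃ₐ[ℚ] AlgebraicClosure ℚ)

/-- shortcut instance for applying `arithmeticGalois` (the generic `CoeFun` search is slow);
the elaborated terms are the usual `DFunLike.coe` ones. -/
@[reducible] def s36v_coeFunGal {K : Type*} [Field K] [Algebra ℚ K]
    (F₀ : IntermediateField ℚ (LaurentSeries ℚ)) :
    CoeFun ((K ≃ₐ[ℚ] K) →* SemilinearAut K ↥(laurentBaseChange K F₀))
      (fun _ => (K ≃ₐ[ℚ] K) → SemilinearAut K ↥(laurentBaseChange K F₀)) := ⟨DFunLike.coe⟩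

attribute [local instance 2000] s36v_coeFunGal

section LcF

variable {K₀ K : Type*} [Field K₀] [Field K] [Algebra ℚ K₀] [Algebra ℚ K]
variable (F₀ : IntermediateField ℚ (LaurentSeries ℚ))

/-- the leading coefficient of an element of the function field `laurentBaseChange K F₀` -/
def s36v_lcF (x : ↥(laurentBaseChange K F₀)) : K := s36v_lc (x : LaurentSeries K)

variable {F₀}

theorem s36v_lcF_mul (x y : ↥(laurentBaseChange K F₀)) :
    s36v_lcF F₀ (x * y) = s36v_lcF F₀ x * s36v_lcF F₀ y := by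
  unfold s36v_lcF
  rw [MulMemClass.coe_mul, map_mul]

theorem s36v_lcF_one : s36v_lcF F₀ (1 : ↥(laurentBaseChange K F₀)) = 1 := by
  unfold s36v_lcF
  rw [OneMemClass.coe_one, map_one]

theorem s36v_lcF_pow (x : ↥(laurentBaseChange K F₀)) (n : ℕ) :
    s36v_lcF F₀ (x ^ n) = s36v_lcF F₀ x ^ n := by
  unfold s36v_lcF
  rw [SubmonoidClass.coe_pow, map_pow]

theorem s36v_lcF_ne_zero {x : ↥(laurentBaseChange K F₀)} (hx : x ≠ 0) : s36v_lcF F₀ x ≠ 0 := by
  unfold s36v_lcF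
  refine s36v_lc_ne_zero fun h => hx (Subtype.ext h)

theorem s36v_lcF_algebraMap (c : K) :
    s36v_lcF F₀ (algebraMap K ↥(laurentBaseChange K F₀) c) = c := by
  unfold s36v_lcF
  exact s36v_lc_algebraMap c

theorem s36v_lcF_map (φ : K₀ →+* K) (x : ↥(laurentBaseChange K₀ F₀)) :
    s36v_lcF F₀ (s18q_map φ F₀ x) = φ (s36v_lcF F₀ x) := by
  unfold s36v_lcF
  rw [s18q_map_coe, s36v_lc_coeffMap]

theorem s36v_lcF_smul (τ : K ≃ₐ[ℚ] K) (x : ↥(laurentBaseChange K F₀)) :
    s36v_lcF F₀ (arithmeticGalois F₀ τ • x) = τ (s36v_lcF F₀ x) := by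
  unfold s36v_lcF
  rw [coe_arithmeticGalois_smul, s36v_lc_coeffMap]
  rfl

/-- rigidity in the function field -/
theorem s36v_lcF_rigid {x y : ↥(laurentBaseChange K F₀)} {m : ℕ} (hm : m ≠ 0) (hy : y ≠ 0)
    (h : x ^ m = y ^ m) (hlc : s36v_lcF F₀ x = s36v_lcF F₀ y) : x = y := by
  haveI : CharZero K := algebraRat.charZero K
  apply Subtype.ext
  refine s36v_eq_of_pow_eq hm (fun h0 => hy (Subtype.ext h0)) ?_ hlc
  have := congrArg (fun z : ↥(laurentBaseChange K F₀) => (z : LaurentSeries K)) h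
  simpa using this

/-- normalisation of an `m`-th root: if `h ^ m` has leading coefficient one, `h` can be replaced by
a root with leading coefficient one. -/
theorem s36v_exists_normalised {h : ↥(laurentBaseChange K F₀)} {m : ℕ} (h0 : h ≠ 0)
    (hlc : s36v_lcF F₀ (h ^ m) = 1) :
    ∃ h' : ↥(laurentBaseChange K F₀), h' ≠ 0 ∧ h' ^ m = h ^ m ∧ s36v_lcF F₀ h' = 1 := by
  have hc0 : s36v_lcF F₀ h ≠ 0 := s36v_lcF_ne_zero h0
  rw [s36v_lcF_pow] at hlc
  refine ⟨h * algebraMap K _ (s36v_lcF F₀ h)⁻¹, mul_ne_zero h0 ?_, ?_, ?_⟩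
  · rw [Ne, map_eq_zero]
    exact inv_ne_zero hc0
  · rw [mul_pow, ← map_pow, inv_pow, hlc, inv_one, map_one, mul_one]
  · rw [s36v_lcF_mul, s36v_lcF_algebraMap, mul_inv_cancel₀ hc0]

end LcF

section Core

variable (N : ℕ)

/-- the restriction of `σ` to a normal field `L` acts on `F_L` compatibly with `σ` on `F_{ℚ̄}`. -/
theorem s36v_incl_restrict (L : IntermediateField ℚ Qbar) [Normal ℚ ↥L] (σ : Γℚ)
    (x : ↥(laurentBaseChange ↥L (modularFunctionFieldFull N))) :
    s18q_incl N L (arithmeticGalois (modularFunctionFieldFull N) (σ.restrictNormal ↥L) • x) =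
      arithmeticGalois (modularFunctionFieldFull N) σ • s18q_incl N L x := by
  have h := s34q_map_smul (modularFunctionFieldFull N) (algebraMap ↥L Qbar) (σ.restrictNormal ↥L) σ
    (fun a => AlgEquiv.restrictNormal_commutes σ ↥L a) x
  exact h

/-- abstract: if `s = h ^ m * f` and a ring automorphism fixes `f` and `s`, it fixes `h ^ m`. -/
theorem s36v_pow_fixed {G F : Type*} [Monoid G] [Field F] [MulSemiringAction G F] (ρ : G)
    {h f s : F} {m : ℕ} (hf0 : f ≠ 0)
    (hs : s = h ^ m * f) (hρf : ρ • f = f) (hρs : ρ • s = s) : (ρ • h) ^ m = h ^ m := by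
  have e1 : ρ • s = (ρ • h) ^ m * f := by rw [hs, smul_mul', smul_pow', hρf]
  have e2 : (ρ • h) ^ m * f = h ^ m * f := by rw [← e1, hρs, hs]
  exact mul_right_cancel₀ hf0 e2

/-- Step A: the normalised root at finite level. -/
theorem s36v_core_root (L : IntermediateField ℚ Qbar) [Normal ℚ ↥L]
    (hbig : ∀ x : modularFunctionFieldBar N,
      (∀ ρ : Γℚ, (∀ a ∈ L, ρ a = a) →
        arithmeticGalois (modularFunctionFieldFull N) ρ • x = x) →
      x ∈ Set.range (s18q_incl N L))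
    (m : ℕ) (hm : m ≠ 0)
    (fL : ↥(laurentBaseChange ↥L (modularFunctionFieldFull N))) (hfL : fL ≠ 0)
    (hlc : s36v_lcF (modularFunctionFieldFull N) fL = 1) (σ : Γℚ)
    (hinv : ∃ h : modularFunctionFieldBar N, h ≠ 0 ∧
      arithmeticGalois (modularFunctionFieldFull N) σ • s18q_incl N L fL =
        h ^ m * s18q_incl N L fL) :
    ∃ hL : ↥(laurentBaseChange ↥L (modularFunctionFieldFull N)), hL ≠ 0 ∧
      s36v_lcF (modularFunctionFieldFull N) hL = 1 ∧
      arithmeticGalois (modularFunctionFieldFull N) (σ.restrictNormal ↥L) • fL = hL ^ m * fL := by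
  obtain ⟨h, h0, hh⟩ := hinv
  have hex : ∃ f : modularFunctionFieldBar N, f = s18q_incl N L fL := ⟨_, rfl⟩
  refine Exists.elim hex fun f hf => ?_
  rw [← hf] at hh
  have hf0 : f ≠ 0 := by
    rw [hf]
    exact (map_ne_zero (s18q_incl N L)).mpr hfL
  have hlcf : s36v_lcF (modularFunctionFieldFull N) f = 1 := by
    rw [hf]
    have := s36v_lcF_map (F₀ := modularFunctionFieldFull N) (algebraMap ↥L Qbar) fL
    rw [hlc, map_one] at this
    exact this
  -- the leading coefficient of `h ^ m`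
  have hlch : s36v_lcF (modularFunctionFieldFull N) (h ^ m) = 1 := by
    have h1 := congrArg (s36v_lcF (modularFunctionFieldFull N)) hh
    rw [s36v_lcF_smul, hlcf, map_one, s36v_lcF_mul, hlcf, mul_one] at h1
    exact h1.symm
  have hnorm := s36v_exists_normalised h0 hlch
  refine Exists.elim hnorm fun h' hh'all => ?_
  have h'0 := hh'all.1
  have hpow := hh'all.2.1
  have hlc' := hh'all.2.2
  have hh' : arithmeticGalois (modularFunctionFieldFull N) σ • f = h' ^ m * f := by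
    rw [hpow]
    exact hh
  -- `σ • f` comes from `F_L`
  have hσf : arithmeticGalois (modularFunctionFieldFull N) σ • f =
      s18q_incl N L (arithmeticGalois (modularFunctionFieldFull N) (σ.restrictNormal ↥L) • fL) := by
    rw [hf]
    exact (s36v_incl_restrict N L σ fL).symm
  -- `h'` is fixed by `Gal(ℚ̄/L)`
  have hfixed : ∀ ρ : Γℚ, (∀ a ∈ L, ρ a = a) →
      arithmeticGalois (modularFunctionFieldFull N) ρ • h' = h' := by
    intro ρ hρ
    have hρf : arithmeticGalois (modularFunctionFieldFull N) ρ • f = f := by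
      rw [hf]
      exact s34q_smul_incl N L ρ hρ fL
    have hρs : arithmeticGalois (modularFunctionFieldFull N) ρ •
        (arithmeticGalois (modularFunctionFieldFull N) σ • f) =
        arithmeticGalois (modularFunctionFieldFull N) σ • f := by
      rw [hσf]
      exact s34q_smul_incl N L ρ hρ _
    have hpowρ : (arithmeticGalois (modularFunctionFieldFull N) ρ • h') ^ m = h' ^ m :=
      s36v_pow_fixed (arithmeticGalois (modularFunctionFieldFull N) ρ) hf0 hh' hρf hρs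
    refine s36v_lcF_rigid hm h'0 hpowρ ?_
    rw [s36v_lcF_smul, hlc', map_one]
  refine Exists.elim (hbig h' hfixed) fun hL hhL => ?_
  have hhL0 : hL ≠ 0 := by
    rintro rfl
    rw [map_zero] at hhL
    exact h'0 hhL.symm
  refine ⟨hL, hhL0, ?_, ?_⟩
  · have h1 : s36v_lcF (modularFunctionFieldFull N) (s18q_incl N L hL) = 1 := by
      rw [hhL, hlc']
    have h2 := s36v_lcF_map (F₀ := modularFunctionFieldFull N) (algebraMap ↥L Qbar) hL
    have h3 : algebraMap ↥L Qbar (s36v_lcF (modularFunctionFieldFull N) hL) = 1 := h2.symm.trans h1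
    exact (algebraMap ↥L Qbar).injective (by rw [h3, map_one])
  · apply s18q_incl_injective N L
    rw [← hσf, hh', map_mul, map_pow, hhL, hf]

/-- abstract: the cocycle relation for `m`-th powers. -/
theorem s36v_cocycle_pow {G F : Type*} [Monoid G] [Field F] [MulSemiringAction G F] (σ : G)
    {f τf hσ hτ hστ : F} {m : ℕ}
    (hf0 : f ≠ 0) (h1 : σ • f = hσ ^ m * f) (h2 : τf = hτ ^ m * f) (h3 : σ • τf = hστ ^ m * f) :
    hστ ^ m = (hσ * σ • hτ) ^ m := by
  have e1 : σ • τf = (σ • hτ) ^ m * (hσ ^ m * f) := by rw [h2, smul_mul', smul_pow', h1]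
  have e2 : hστ ^ m * f = (hσ * σ • hτ) ^ m * f := by
    rw [← h3, e1]
    ring
  exact mul_right_cancel₀ hf0 e2

/-- abstract: invariance of `f g ^ m`. -/
theorem s36v_invariant_of_h90 {G F : Type*} [Monoid G] [Field F] [MulSemiringAction G F] (σ : G)
    {f h g : F} {m : ℕ}
    (h1 : σ • f = h ^ m * f) (h2 : h * σ • g = g) : σ • (f * g ^ m) = f * g ^ m := by
  have e : (h * σ • g) ^ m = g ^ m := by rw [h2]
  rw [smul_mul', smul_pow', h1, ← e]
  ring

/-- **The cocycle core.** -/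
theorem s36v_core (I : Subgroup Γℚ) (L : IntermediateField ℚ Qbar) [FiniteDimensional ℚ ↥L]
    [Normal ℚ ↥L] (K₀ : IntermediateField ℚ Qbar) (hle : K₀ ≤ L)
    (hK₀I : ∀ σ ∈ I, ∀ a ∈ K₀, σ a = a)
    (hK₀L : ∀ a ∈ L, (∀ σ ∈ I, σ a = a) → a ∈ K₀)
    (hbig : ∀ x : modularFunctionFieldBar N,
      (∀ ρ : Γℚ, (∀ a ∈ L, ρ a = a) →
        arithmeticGalois (modularFunctionFieldFull N) ρ • x = x) →
      x ∈ Set.range (s18q_incl N L))
    (m : ℕ) (hm : m ≠ 0)
    (fL : ↥(laurentBaseChange ↥L (modularFunctionFieldFull N))) (hfL : fL ≠ 0)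
    (hlc : s36v_lcF (modularFunctionFieldFull N) fL = 1)
    (hinv : ∀ σ ∈ I, ∃ h : modularFunctionFieldBar N, h ≠ 0 ∧
      arithmeticGalois (modularFunctionFieldFull N) σ • s18q_incl N L fL =
        h ^ m * s18q_incl N L fL) :
    ∃ (gL : ↥(laurentBaseChange ↥L (modularFunctionFieldFull N)))
      (f₀ : ↥(laurentBaseChange ↥K₀ (modularFunctionFieldFull N))),
      gL ≠ 0 ∧ s18q_incl N K₀ f₀ = s18q_incl N L (fL * gL ^ m) := by
  classical
  -- the image of `I` in `Gal(L/ℚ)`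
  set Ibar : Subgroup (↥L ≃ₐ[ℚ] ↥L) := I.map (AlgEquiv.restrictNormalHom ↥L) with hIbar
  have hroot : ∀ τ : ↥L ≃ₐ[ℚ] ↥L, τ ∈ Ibar →
      ∃ hL : ↥(laurentBaseChange ↥L (modularFunctionFieldFull N)), hL ≠ 0 ∧
        s36v_lcF (modularFunctionFieldFull N) hL = 1 ∧
        arithmeticGalois (modularFunctionFieldFull N) τ • fL = hL ^ m * fL := by
    intro τ hτ
    obtain ⟨σ, hσ, hστ⟩ := hτ
    rw [← hστ]
    exact s36v_core_root N L hbig m hm fL hfL hlc σ (hinv σ hσ)
  choose! h hh0 hhlc hhf using hroot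
  -- the cocycle relation
  have hcoc : ∀ σ τ : ↥Ibar, h ((σ * τ : ↥Ibar) : ↥L ≃ₐ[ℚ] ↥L) =
      h (σ : ↥L ≃ₐ[ℚ] ↥L) *
        (arithmeticGalois (modularFunctionFieldFull N) (σ : ↥L ≃ₐ[ℚ] ↥L) •
          h (τ : ↥L ≃ₐ[ℚ] ↥L)) := by
    intro σ τ
    have h3 : arithmeticGalois (modularFunctionFieldFull N) (σ : ↥L ≃ₐ[ℚ] ↥L) •
        (arithmeticGalois (modularFunctionFieldFull N) (τ : ↥L ≃ₐ[ℚ] ↥L) • fL) =
        h ((σ * τ : ↥Ibar) : ↥L ≃ₐ[ℚ] ↥L) ^ m * fL := by
      have e0 := hhf _ (σ * τ).2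
      have e1 : arithmeticGalois (modularFunctionFieldFull N) ((σ * τ : ↥Ibar) : ↥L ≃ₐ[ℚ] ↥L) =
          arithmeticGalois (modularFunctionFieldFull N) (σ : ↥L ≃ₐ[ℚ] ↥L) *
            arithmeticGalois (modularFunctionFieldFull N) (τ : ↥L ≃ₐ[ℚ] ↥L) :=
        map_mul _ _ _
      rw [e1, mul_smul] at e0
      exact e0
    have hpow := s36v_cocycle_pow
      (arithmeticGalois (modularFunctionFieldFull N) (σ : ↥L ≃ₐ[ℚ] ↥L)) hfL (hhf _ σ.2)
      (hhf _ τ.2) h3
    refine s36v_lcF_rigid hm ?_ hpow ?_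
    · refine mul_ne_zero (hh0 _ σ.2) ?_
      intro h0
      have := congrArg (fun x => (arithmeticGalois (modularFunctionFieldFull N)
        (σ : ↥L ≃ₐ[ℚ] ↥L))⁻¹ • x) h0
      simp only [inv_smul_smul, smul_zero] at this
      exact hh0 _ τ.2 this
    · have e0 := hhlc _ (σ * τ).2
      have e1 := s36v_lcF_mul (h (σ : ↥L ≃ₐ[ℚ] ↥L))
        (arithmeticGalois (modularFunctionFieldFull N) (σ : ↥L ≃ₐ[ℚ] ↥L) • h (τ : ↥L ≃ₐ[ℚ] ↥L))
      have e2 := hhlc _ σ.2
      have e3 := s36v_lcF_smul (F₀ := modularFunctionFieldFull N) (σ : ↥L ≃ₐ[ℚ] ↥L)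
        (h (τ : ↥L ≃ₐ[ℚ] ↥L))
      have e4 := hhlc _ τ.2
      have e5 : s36v_lcF (modularFunctionFieldFull N)
          (arithmeticGalois (modularFunctionFieldFull N) (σ : ↥L ≃ₐ[ℚ] ↥L) •
            h (τ : ↥L ≃ₐ[ℚ] ↥L)) = 1 :=
        e3.trans ((congrArg (fun x => (σ : ↥L ≃ₐ[ℚ] ↥L) x) e4).trans
          (map_one (σ : ↥L ≃ₐ[ℚ] ↥L)))
      exact e0.trans ((e1.trans ((congrArg₂ (· * ·) e2 e5).trans (one_mul 1))).symm)
  -- Hilbert 90
  have h90 := s36v_hilbert90 (modularFunctionFieldFull N) Ibar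
    (fun σ : ↥Ibar => h (σ : ↥L ≃ₐ[ℚ] ↥L)) (fun σ => hh0 _ σ.2) hcoc
  refine Exists.elim h90 fun gL hgL => ?_
  have hgL0 := hgL.1
  have hgLσ := hgL.2
  -- invariance of `f g ^ m`
  have hinvar : ∀ τ ∈ Ibar, arithmeticGalois (modularFunctionFieldFull N) τ • (fL * gL ^ m) =
      fL * gL ^ m := by
    intro τ hτ
    exact s36v_invariant_of_h90 (arithmeticGalois (modularFunctionFieldFull N) τ)
      (hhf τ hτ) (hgLσ ⟨τ, hτ⟩)
  -- descent by averaging
  letI : Algebra ↥K₀ ↥L := (IntermediateField.inclusion hle).toRingHom.toAlgebra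
  haveI : IsScalarTower ℚ ↥K₀ ↥L := IsScalarTower.of_algebraMap_eq fun r => rfl
  haveI : Module.Finite ↥K₀ ↥L := Module.Finite.of_restrictScalars_finite ℚ ↥K₀ ↥L
  haveI : Algebra.IsAlgebraic ↥K₀ ↥L := Algebra.IsAlgebraic.of_finite ↥K₀ ↥L
  have hres : ∀ (σ : Γℚ) (a : ↥L), ((AlgEquiv.restrictNormalHom ↥L σ) a : Qbar) = σ (a : Qbar) :=
    fun σ a => AlgEquiv.restrictNormal_commutes σ ↥L a
  have hdesc := s36v_descent_avg (K₀ := ↥K₀) (K := ↥L) (modularFunctionFieldFull N) Ibar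
    (by
      rintro τ ⟨σ, hσ, rfl⟩ a
      apply Subtype.ext
      rw [hres]
      exact hK₀I σ hσ _ a.2)
    (by
      intro a ha
      have haK : (a : Qbar) ∈ K₀ := by
        refine hK₀L _ a.2 fun σ hσ => ?_
        rw [← hres, ha _ ⟨σ, hσ, rfl⟩]
      exact ⟨⟨a, haK⟩, Subtype.ext rfl⟩)
    (fL * gL ^ m) hinvar
  refine Exists.elim hdesc fun f₀ hf₀ => ?_
  refine ⟨gL, f₀, hgL0, ?_⟩
  rw [← hf₀]
  have := s18q_map_comp (algebraMap ↥K₀ ↥L) (modularFunctionFieldFull N) (algebraMap ↥L Qbar) f₀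
  exact this.symm

end Core

end Fermat.Agent.Lib.S36
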