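import Mathlib
import Fermat.Agent.Lib.S36.VUnram
import Fermat.Agent.Lib.S35.TameFin
import Fermat.Agent.Lib.S30.Cyc
import Fermat.Agent.Lib.S18.QDvr

/-!
# S36, descent layer, piece (P2): the inertia field at finite level

`s36v_field_pkg` : `P` a valuation subring of `ℚ̄` over `q`, `φ` a Frobenius lift at `P`, `L ⊆ ℚ̄`
finite normal over `ℚ`.  The field `K₀ := L ∩ ℚ̄^{I_P}` is a number field fixed by inertia,
contains the roots of unity of `L` of order prime to `q`, is stable under `φ`, and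
`A₀ := P ∩ K₀` is a discrete valuation ring with uniformiser `q` on which `σ₀ := φ|K₀` is a
Frobenius.
-/

set_option autoImplicit false

namespace Fermat.Agent.Lib.S36

open Fermat.Agent.Lib.Frey Fermat.Agent.Lib.S35 Fermat.Agent.Lib.S30 Fermat.Agent.Lib.S29
  Fermat.Agent.Lib.S18

local notation "Qbar" => AlgebraicClosure ℚ
local notation "Γℚ" => AlgebraicClosure ℚ ≃ₐ[ℚ] AlgebraicClosure ℚ

/-- The inertia field of `P` inside `L`. -/
noncomputable def s36v_K0 (P : ValuationSubring Qbar) (L : IntermediateField ℚ Qbar) :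
    IntermediateField ℚ Qbar :=
  L ⊓ IntermediateField.fixedField (P.inertiaSubgroupIn ℚ)

theorem s36v_mem_K0 (P : ValuationSubring Qbar) (L : IntermediateField ℚ Qbar) (a : Qbar) :
    a ∈ s36v_K0 P L ↔ a ∈ L ∧ ∀ σ ∈ P.inertiaSubgroupIn ℚ, σ a = a := by
  rw [s36v_K0, IntermediateField.mem_inf, IntermediateField.mem_fixedField_iff]

/-- An element of the decomposition group maps the inertia field of a normal `L` into itself. -/
theorem s36v_map_mem_K0 (P : ValuationSubring Qbar) (L : IntermediateField ℚ Qbar)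
    [hL : Normal ℚ ↥L] (φ : Γℚ) (hφ : φ ∈ P.decompositionSubgroup ℚ) {a : Qbar}
    (ha : a ∈ s36v_K0 P L) : φ a ∈ s36v_K0 P L := by
  have hnormΩ : Normal ℚ Qbar := Fermat.Agent.Lib.CFT.cfg_isGalois_QBar.to_normal
  rw [s36v_mem_K0] at ha ⊢
  obtain ⟨haL, haI⟩ := ha
  refine ⟨?_, ?_⟩
  · have h := (IntermediateField.normal_iff_forall_map_le' (K := L)).mp hL φ
    exact h ⟨a, haL, rfl⟩
  · intro σ hσ
    have hconj : φ⁻¹ * σ * (φ⁻¹)⁻¹ ∈ P.inertiaSubgroupIn ℚ :=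
      s35t_conj_mem_inertia P φ⁻¹ σ (inv_mem hφ) hσ
    have h1 := haI _ hconj
    rw [inv_inv] at h1
    have h2 : φ ((φ⁻¹ * σ * φ) a) = φ a := by rw [h1]
    have h3 : φ ((φ⁻¹ * σ * φ) a) = σ (φ a) := by
      change φ (φ⁻¹ (σ (φ a))) = σ (φ a)
      exact φ.apply_symm_apply _
    rw [← h3, h2]

theorem s36v_field_pkg (P : ValuationSubring Qbar) (q : ℕ) (hq : q.Prime)
    (hP : P.LiesOverPrime q) (φ : Γℚ) (hφ : P.IsFrobeniusAt φ q)
    (L : IntermediateField ℚ Qbar) [FiniteDimensional ℚ ↥L] [Normal ℚ ↥L] :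
    ∃ K₀ : IntermediateField ℚ Qbar, K₀ ≤ L ∧ FiniteDimensional ℚ ↥K₀ ∧
      (∀ σ ∈ P.inertiaSubgroupIn ℚ, ∀ a ∈ K₀, σ a = a) ∧
      (∀ a ∈ L, (∀ σ ∈ P.inertiaSubgroupIn ℚ, σ a = a) → a ∈ K₀) ∧
      (∀ n : ℕ, 0 < n → ¬ q ∣ n → ∀ ζ ∈ L, ζ ^ n = 1 → ζ ∈ K₀) ∧
      ∃ σ₀ : ↥K₀ ≃ₐ[ℚ] ↥K₀,
        (∀ a : ↥K₀, algebraMap ↥K₀ Qbar (σ₀ a) = φ (algebraMap ↥K₀ Qbar a)) ∧
        IsDiscreteValuationRing ↥(P.comap (algebraMap ↥K₀ Qbar)) ∧
        ((q : ℕ) : ↥K₀) ∈ (P.comap (algebraMap ↥K₀ Qbar)).nonunits ∧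
        (∀ a ∈ (P.comap (algebraMap ↥K₀ Qbar)).nonunits,
          ∃ b ∈ P.comap (algebraMap ↥K₀ Qbar), a = ((q : ℕ) : ↥K₀) * b) ∧
        (∀ a : ↥K₀, σ₀ a ∈ P.comap (algebraMap ↥K₀ Qbar) ↔
          a ∈ P.comap (algebraMap ↥K₀ Qbar)) ∧
        (∀ a ∈ P.comap (algebraMap ↥K₀ Qbar),
          σ₀ a - a ^ q ∈ (P.comap (algebraMap ↥K₀ Qbar)).nonunits) := by
  classical
  have : Fact q.Prime := ⟨hq⟩
  have hPq : (q : Qbar) ∈ P.nonunits := hP
  obtain ⟨hD, hFr⟩ := s35t_frob_spec P φ q hφ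
  have hDinv : φ⁻¹ ∈ P.decompositionSubgroup ℚ := inv_mem hD
  have hle : s36v_K0 P L ≤ L := inf_le_left
  have hfd : FiniteDimensional ℚ ↥(s36v_K0 P L) :=
    Module.Finite.of_injective (IntermediateField.inclusion hle).toLinearMap
      (IntermediateField.inclusion_injective hle)
  have hfix : ∀ σ ∈ P.inertiaSubgroupIn ℚ, ∀ a ∈ s36v_K0 P L, σ a = a :=
    fun σ hσ a ha => ((s36v_mem_K0 P L a).mp ha).2 σ hσ
  -- `φ` restricted to `K₀`
  have hmap : (s36v_K0 P L).map (φ : Qbar →ₐ[ℚ] Qbar) = s36v_K0 P L := by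
    apply le_antisymm
    · rintro x ⟨a, ha, rfl⟩
      exact s36v_map_mem_K0 P L φ hD ha
    · intro x hx
      refine ⟨φ⁻¹ x, s36v_map_mem_K0 P L φ⁻¹ hDinv hx, ?_⟩
      exact φ.apply_symm_apply x
  let σ₀ : ↥(s36v_K0 P L) ≃ₐ[ℚ] ↥(s36v_K0 P L) :=
    (IntermediateField.intermediateFieldMap φ (s36v_K0 P L)).trans
      (IntermediateField.equivOfEq hmap)
  have hσ₀ : ∀ a : ↥(s36v_K0 P L),
      algebraMap ↥(s36v_K0 P L) Qbar (σ₀ a) = φ (algebraMap ↥(s36v_K0 P L) Qbar a) :=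
    fun a => rfl
  refine ⟨s36v_K0 P L, hle, hfd, hfix, ?_, ?_, σ₀, hσ₀, ?_, ?_, ?_, ?_, ?_⟩
  · intro a haL haI
    exact (s36v_mem_K0 P L a).mpr ⟨haL, haI⟩
  · intro n hn hqn ζ hζL hζn
    refine (s36v_mem_K0 P L ζ).mpr ⟨hζL, fun σ hσ => ?_⟩
    have hζP : ζ ∈ P := s29g_root_mem P hn.ne' hζn
    have h1 : σ ζ - ζ ∈ P.nonunits := s29g_inertia_congr P hσ hζP
    have h2 : (σ ζ) ^ n = 1 := by rw [← map_pow, hζn, map_one]
    have hcop : Nat.Coprime n q := ((Nat.Prime.coprime_iff_not_dvd hq).mpr hqn).symm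
    exact s30c_root_sep P hn.ne' hcop hPq h2 hζn h1
  · exact s18q_A0_dvr P (s36v_K0 P L) hP
  · rw [s36v_mem_nonunits_comap, map_natCast]
    exact hPq
  · exact s36v_unram P q hq hP (s36v_K0 P L) hfix
  · intro a
    rw [ValuationSubring.mem_comap, ValuationSubring.mem_comap, hσ₀]
    constructor
    · intro h
      have h2 := ford_decomposition_mem P φ⁻¹ hDinv _ h
      have h3 : φ⁻¹ (φ (algebraMap ↥(s36v_K0 P L) Qbar a)) = algebraMap ↥(s36v_K0 P L) Qbar a :=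
        φ.symm_apply_apply _
      rwa [h3] at h2
    · exact ford_decomposition_mem P φ hD _
  · intro a ha
    rw [s36v_mem_nonunits_comap, map_sub, map_pow, hσ₀]
    exact hFr _ ha

end Fermat.Agent.Lib.S36
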