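/-
S36, layer (D) "descent" (architect helper7, #1754), pieces (P3a) and (P3b) (lead, prefix `s36v_`):
translation between "the class of `D` in `Pic⁰` is fixed by `g`" and identities of functions, where
`m D = div f`.

* `s36v_fix_to_fun` : `g • [D] = [D]`  ⇒  `g • f = h ^ m * f` for some `h ≠ 0`
  (constants have `m`-th roots and functions without zeros or poles are constant);
* `s36v_fun_to_pic` : `(g • f / f) ^ C = c * x ^ m`  ⇒  `C • (g • [D] - [D]) = 0`.
-/
import Mathlib
import Fermat.Agent.Lib.S35.RTop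

set_option autoImplicit false
set_option linter.style.haveILetI false

noncomputable section

namespace Fermat.Agent.Lib.S36

open AlgebraicCurve Fermat.Agent.Lib.FF Fermat.Agent.Lib.S35

/-- **(P3a) fixed class ⇒ function identity.** -/
theorem s36v_fix_to_fun {K F : Type*} [Field K] [Field F] [Algebra K F] (g : SemilinearAut K F)
    (hconst : ∀ u : F, u ≠ 0 → (∀ v : Place K F, v.ord u = 0) → ∃ c : K, u = algebraMap K F c)
    (m : ℕ) (hroot : ∀ c : K, ∃ d : K, d ^ m = c)
    (D : Divisor.degZero (K := K) (F := F)) (f : F) (hf : f ≠ 0)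
    (hfD : ∀ v : Place K F, (m : ℤ) * (D : Divisor K F) v = v.ord f)
    (hfix : g • Pic0.mk D = Pic0.mk D) : ∃ h : F, h ≠ 0 ∧ g • f = h ^ m * f := by
  -- `D - g • D` is principal
  rw [SemilinearAut.pic0_smul_mk] at hfix
  have h1 : -(SemilinearAut.degZeroSMulHom g D) + D ∈
      (Divisor.principal (K := K) (F := F)).addSubgroupOf (Divisor.degZero (K := K) (F := F)) :=
    QuotientAddGroup.eq.mp hfix
  have h2 : (-(g • (D : Divisor K F)) + (D : Divisor K F)) ∈
      Divisor.principal (K := K) (F := F) := h1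
  obtain ⟨h₀, hh₀, hh₀D⟩ := h2
  have hgf : g • f ≠ 0 := s35r_smul_ne_zero g hf
  -- the quotient `u = g • f * h₀ ^ m / f` has no zeros or poles
  have hu0 : g • f * h₀ ^ m * f⁻¹ ≠ 0 :=
    mul_ne_zero (mul_ne_zero hgf (pow_ne_zero m hh₀)) (inv_ne_zero hf)
  obtain ⟨c, hc⟩ := hconst (g • f * h₀ ^ m * f⁻¹) hu0 (fun v => by
    have d1 := s35r_div_smul g m _ _ hfD v
    have d2 := hh₀D v
    rw [Finsupp.add_apply, Finsupp.neg_apply] at d2
    rw [v.ord_mul (mul_ne_zero hgf (pow_ne_zero m hh₀)) (inv_ne_zero hf),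
      v.ord_mul hgf (pow_ne_zero m hh₀), v.ord_inv, ← zpow_natCast h₀ m, v.ord_zpow, ← d1,
      ← hfD v, ← d2]
    ring)
  obtain ⟨d, hd⟩ := hroot c
  have hc0 : algebraMap K F c ≠ 0 := by rw [← hc]; exact hu0
  have hd0 : algebraMap K F d ≠ 0 := by
    intro h0
    apply hc0
    rw [← hd, map_pow, h0]
    rcases Nat.eq_zero_or_pos m with rfl | hm
    · exfalso
      obtain ⟨e, he⟩ := hroot 0
      rw [pow_zero] at he
      exact one_ne_zero he
    · exact zero_pow hm.ne'
  refine ⟨algebraMap K F d * h₀⁻¹, mul_ne_zero hd0 (inv_ne_zero hh₀), ?_⟩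
  rw [mul_pow, ← map_pow, hd, ← hc, inv_pow]
  have hp : h₀ ^ m ≠ 0 := pow_ne_zero m hh₀
  field_simp

/-- **(P3b) function identity ⇒ class killed.** -/
theorem s36v_fun_to_pic {K F : Type*} [Field K] [Field F] [Algebra K F] (g : SemilinearAut K F)
    (m : ℕ) (hm : m ≠ 0) (C : ℕ) (D : Divisor.degZero (K := K) (F := F)) (f : F) (hf : f ≠ 0)
    (hfD : ∀ v : Place K F, (m : ℤ) * (D : Divisor K F) v = v.ord f)
    (c : K) (x : F) (hx : x ≠ 0) (h : (g • f / f) ^ C = algebraMap K F c * x ^ m) :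
    C • (g • Pic0.mk D - Pic0.mk D) = 0 := by
  have hgf : g • f ≠ 0 := s35r_smul_ne_zero g hf
  have hq : g • f / f ≠ 0 := div_ne_zero hgf hf
  have hc : algebraMap K F c ≠ 0 := by
    intro h0
    rw [h0, zero_mul] at h
    exact pow_ne_zero C hq h
  -- the divisor `C (g D - D)` is the divisor of `x`
  have key : ∀ v : Place K F,
      (C • ((g • (D : Divisor K F)) - (D : Divisor K F))) v = v.ord x := by
    intro v
    have e1 := congrArg v.ord h
    have d1 := s35r_div_smul g m _ _ hfD v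
    rw [← zpow_natCast (g • f / f) C, v.ord_zpow, div_eq_mul_inv,
      v.ord_mul hgf (inv_ne_zero hf), v.ord_inv, v.ord_mul hc (pow_ne_zero m hx),
      ff_ord_algebraMap, zero_add, ← zpow_natCast x m, v.ord_zpow, ← d1, ← hfD v] at e1
    have hm' : (m : ℤ) ≠ 0 := by exact_mod_cast hm
    have e2 : (m : ℤ) * ((C : ℤ) * ((g • (D : Divisor K F)) v - (D : Divisor K F) v)) =
        (m : ℤ) * v.ord x := by
      push_cast at e1 ⊢
      linarith
    have e3 := mul_left_cancel₀ hm' e2
    rw [Finsupp.smul_apply, Finsupp.sub_apply, nsmul_eq_mul]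
    exact e3
  have hE : C • (g • Pic0.mk D - Pic0.mk D) =
      Pic0.mk (C • (SemilinearAut.degZeroSMulHom g D - D)) := by
    rw [SemilinearAut.pic0_smul_mk]
    rfl
  rw [hE]
  refine (QuotientAddGroup.eq_zero_iff _).mpr ?_
  show ((C • (SemilinearAut.degZeroSMulHom g D - D) :
      Divisor.degZero (K := K) (F := F)) : Divisor K F) ∈ Divisor.principal (K := K) (F := F)
  refine ⟨x, hx, fun v => ?_⟩
  rw [← key v]
  rfl

end Fermat.Agent.Lib.S36
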