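/-
S36, layer (D) (helper3 for helper7, prefix `s36v_`), piece (P5): **CONSTANTS AND `m`-TH ROOTS
DESCEND.**

If `u ∈ 𝓕_{N,K₀}` (`K₀ ⊆ ℚ̄` a number field) becomes `c · h ^ m` over `ℚ̄`, then already
`u = c₀ · h₀ ^ m` over `K₀` (`s36v_const_root_descent`).  Route (helper7 #1754): normalise `h` to
leading coefficient one, so `c = lc u ∈ K₀`; the normalised root is fixed by `Gal(ℚ̄ / K₀)` by
rigidity (`s36v_lcF_rigid`), hence descends (`s36v_descent_big`).
-/
import Fermat.Agent.Lib.S36.VBig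
import Fermat.Agent.Lib.S36.VCore

set_option autoImplicit false
set_option linter.style.haveILetI false
set_option synthInstance.maxHeartbeats 400000

noncomputable section

namespace Fermat.Agent.Lib.S36

open ModularCurve AlgebraicCurve Fermat.Agent.Lib.S18 Fermat.Agent.Lib.S34

local notation "Qbar" => AlgebraicClosure ℚ
local notation "Γℚ" => (AlgebraicClosure ℚ ≃ₐ[ℚ] AlgebraicClosure ℚ)

attribute [local instance 2000] s36v_coeFunGal

/-- abstract: an automorphism fixing `h ^ m` maps `h` to another `m`-th root of `h ^ m`. -/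
theorem s36v_smul_pow_eq {G F : Type*} [Monoid G] [Field F] [MulSemiringAction G F] (ρ : G)
    {h s : F} {m : ℕ} (hs : h ^ m = s) (hρs : ρ • s = s) : (ρ • h) ^ m = h ^ m := by
  rw [← smul_pow', hs, hρs]

/-- **(P5) constants and `m`-th roots descend.** -/
theorem s36v_const_root_descent (N : ℕ) (K₀ : IntermediateField ℚ Qbar)
    [FiniteDimensional ℚ ↥K₀] (m : ℕ) (hm : m ≠ 0)
    (u : ↥(laurentBaseChange ↥K₀ (modularFunctionFieldFull N))) (hu : u ≠ 0) (c : Qbar)
    (h : modularFunctionFieldBar N)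
    (hch : s18q_incl N K₀ u = algebraMap Qbar (modularFunctionFieldBar N) c * h ^ m) :
    ∃ (c₀ : ↥K₀) (h₀ : ↥(laurentBaseChange ↥K₀ (modularFunctionFieldFull N))),
      u = algebraMap ↥K₀ _ c₀ * h₀ ^ m := by
  have hiu0 : s18q_incl N K₀ u ≠ 0 := fun h0 =>
    hu (s18q_incl_injective N K₀ (by rw [h0, map_zero]))
  have hh0 : h ≠ 0 := by
    intro h0
    rw [h0, zero_pow hm, mul_zero] at hch
    exact hiu0 hch
  -- normalisation
  set ℓ : Qbar := s36v_lcF (modularFunctionFieldFull N) h with hℓ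
  have hℓ0 : ℓ ≠ 0 := s36v_lcF_ne_zero hh0
  have hex : ∃ h' : modularFunctionFieldBar N,
      h' = h * algebraMap Qbar (modularFunctionFieldBar N) ℓ⁻¹ := ⟨_, rfl⟩
  refine Exists.elim hex fun h' hh' => ?_
  have hh'0 : h' ≠ 0 := by
    rw [hh']
    refine mul_ne_zero hh0 ?_
    rw [Ne, map_eq_zero]
    exact inv_ne_zero hℓ0
  have hlc' : s36v_lcF (modularFunctionFieldFull N) h' = 1 := by
    rw [hh', s36v_lcF_mul, s36v_lcF_algebraMap, ← hℓ, mul_inv_cancel₀ hℓ0]
  have hch' : s18q_incl N K₀ u =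
      algebraMap Qbar (modularFunctionFieldBar N) (c * ℓ ^ m) * h' ^ m := by
    rw [hch, hh', mul_pow, ← map_pow, map_mul, inv_pow]
    have : algebraMap Qbar (modularFunctionFieldBar N) (ℓ ^ m) *
        algebraMap Qbar (modularFunctionFieldBar N) (ℓ ^ m)⁻¹ = 1 := by
      rw [← map_mul, mul_inv_cancel₀ (pow_ne_zero m hℓ0), map_one]
    calc algebraMap Qbar (modularFunctionFieldBar N) c * h ^ m
        = algebraMap Qbar (modularFunctionFieldBar N) c * h ^ m *
            (algebraMap Qbar (modularFunctionFieldBar N) (ℓ ^ m) *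
              algebraMap Qbar (modularFunctionFieldBar N) (ℓ ^ m)⁻¹) := by rw [this, mul_one]
      _ = _ := by ring
  -- the constant is the leading coefficient of `u`
  set c₀ : ↥K₀ := s36v_lcF (modularFunctionFieldFull N) u with hc₀
  have hc₀0 : c₀ ≠ 0 := s36v_lcF_ne_zero hu
  have hcc : c * ℓ ^ m = ((c₀ : ↥K₀) : Qbar) := by
    have h1 := congrArg (s36v_lcF (modularFunctionFieldFull N)) hch'
    rw [s36v_lcF_mul, s36v_lcF_algebraMap, s36v_lcF_pow, hlc', one_pow, mul_one] at h1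
    rw [← h1]
    exact s36v_lcF_map (algebraMap ↥K₀ Qbar) u
  -- `h' ^ m` comes from `K₀`
  have hpow : h' ^ m = s18q_incl N K₀ (u * algebraMap ↥K₀ _ c₀⁻¹) := by
    rw [map_mul, s18q_incl_algebraMap, hch', hcc]
    have : algebraMap Qbar (modularFunctionFieldBar N) ((c₀ : ↥K₀) : Qbar) *
        algebraMap Qbar (modularFunctionFieldBar N) (((c₀⁻¹ : ↥K₀) : ↥K₀) : Qbar) = 1 := by
      rw [← map_mul]
      have : ((c₀ : ↥K₀) : Qbar) * (((c₀⁻¹ : ↥K₀) : ↥K₀) : Qbar) = 1 := by
        rw [← MulMemClass.coe_mul, mul_inv_cancel₀ hc₀0]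
        rfl
      rw [this, map_one]
    calc h' ^ m = h' ^ m * (algebraMap Qbar (modularFunctionFieldBar N) ((c₀ : ↥K₀) : Qbar) *
          algebraMap Qbar (modularFunctionFieldBar N) (((c₀⁻¹ : ↥K₀) : ↥K₀) : Qbar)) := by
            rw [this, mul_one]
      _ = _ := by ring
  -- the normalised root is Galois invariant
  have hfix : ∀ ρ : Γℚ, (∀ a ∈ K₀, ρ a = a) →
      arithmeticGalois (modularFunctionFieldFull N) ρ • h' = h' := by
    intro ρ hρ
    have h1 : (arithmeticGalois (modularFunctionFieldFull N) ρ • h') ^ m = h' ^ m :=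
      s36v_smul_pow_eq _ hpow (s34q_smul_incl N K₀ ρ hρ _)
    refine s36v_lcF_rigid hm hh'0 h1 ?_
    rw [s36v_lcF_smul, hlc', map_one]
  obtain ⟨h₀, hh₀⟩ := s36v_descent_big N K₀ h' hfix
  refine ⟨c₀, h₀, s18q_incl_injective N K₀ ?_⟩
  rw [map_mul, map_pow, s18q_incl_algebraMap, hh₀, hch', hcc]

end Fermat.Agent.Lib.S36
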