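/-
S36, layer (D) (helper7, prefix `s36v_`), FINAL ASSEMBLY: `s36v_descent : s36g_Descent`.

From the number-field contract `s36g_NFCore M q (lam ^ k) C` (for all `k`) to `s36g_NN1At M q lam`:
a class `z ∈ J₀(M q²)[lam ^ k]`, fixed by the inertia group `I_P`, killed by `α_*` and `β_*`, is
represented by `m D = div f`; after multiplying `f` by an `m`-th power (Hilbert 90, `s36v_core`) it
is defined over a number field `K₀ ⊆ ℚ̄^{I_P}` which is unramified at `P` (`s36v_field_pkg`), the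
norm conditions descend (`s36v_norm_alpha_iota`, `s36v_const_root_descent`), the contract gives
`(φ f₀ / f₀) ^ C = c x ^ m`, hence `C (φ z - z) = 0`.
-/
import Mathlib
import Fermat.Agent.Lib.S36.GeoContracts
import Fermat.Agent.Lib.S36.VCore
import Fermat.Agent.Lib.S36.VBig
import Fermat.Agent.Lib.S36.VField
import Fermat.Agent.Lib.S36.VNormCompat
import Fermat.Agent.Lib.S36.VRoot
import Fermat.Agent.Lib.S36.VPic
import Fermat.Agent.Lib.S36.WFinite
import Fermat.Agent.Lib.S36.VDescA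

set_option autoImplicit false
set_option linter.style.haveILetI false
set_option linter.unusedSectionVars false
set_option synthInstance.maxHeartbeats 400000

noncomputable section

namespace Fermat.Agent.Lib.S36

open ModularCurve AlgebraicCurve Fermat.Agent.Lib.S18 Fermat.Agent.Lib.FF
  Fermat.Agent.Lib.S29 Fermat.Agent.Lib.S34 Fermat.Agent.Lib.S35 Fermat.Agent.Lib.S37

local notation "Qbar" => AlgebraicClosure ℚ
local notation "Γℚ" => (AlgebraicClosure ℚ ≃ₐ[ℚ] AlgebraicClosure ℚ)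

attribute [local instance 2000] s36v_coeFunGal

/-- shortcut instance (the generic search for `Algebra K₀ 𝓕_{K₀}` is very slow when `K₀` is the
coercion of an intermediate field); it is the usual `SubalgebraClass.toAlgebra` instance. -/
@[reducible] def s36v_algLBC {K : Type*} [Field K] [Algebra ℚ K]
    (F₀ : IntermediateField ℚ (LaurentSeries ℚ)) : Algebra K ↥(laurentBaseChange K F₀) :=
  inferInstance

attribute [local instance 2000] s36v_algLBC

section NormDescent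

/-- multiplicativity of the norm along an embedding -/
theorem s36v_normAlong_mul_pow {K F F₀ : Type*} [Field K] [Field F] [Field F₀] [Algebra K F]
    [Algebra K F₀] (ψ : F₀ →ₐ[K] F) (f g : F) (m : ℕ) :
    s35r_normAlong ψ (f * g ^ m) = s35r_normAlong ψ f * s35r_normAlong ψ g ^ m := by
  unfold s35r_normAlong
  letI := algebraAlong ψ
  rw [map_mul, map_pow]

variable (N N' : ℕ) [NeZero N] [NeZero N']

/-- **(C2) norm descent, generic**: if `ι f₀ = f g ^ m`, the norm of `f` is (constant) × (`m`-th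
power) over `ℚ̄` and the norm commutes with `ι`, then the norm of `f₀` is (constant) × (`m`-th
power) over `K₀`. -/
theorem s36v_norm_descent (K₀ : IntermediateField ℚ Qbar) [FiniteDimensional ℚ ↥K₀]
    (ψ₀ : s34m_F ↥K₀ N →ₐ[↥K₀] s34m_F ↥K₀ N') (ψ : ffi_F N →ₐ[ffi_K] ffi_F N')
    (hcompat : ∀ y : s34m_F ↥K₀ N', s18q_incl N K₀ (s35r_normAlong ψ₀ y) =
      s35r_normAlong ψ (s18q_incl N' K₀ y))
    (m : ℕ) (hm : m ≠ 0) (f₀ : s34m_F ↥K₀ N') (f g : ffi_F N')
    (hf₀ : s18q_incl N' K₀ f₀ = f * g ^ m)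
    (hn : ∃ (c : ffi_K) (h : ffi_F N),
      s35r_normAlong ψ f = algebraMap ffi_K (ffi_F N) c * h ^ m) :
    ∃ (c₀ : ↥K₀) (h₀ : s34m_F ↥K₀ N),
      s35r_normAlong ψ₀ f₀ = algebraMap ↥K₀ (s34m_F ↥K₀ N) c₀ * h₀ ^ m := by
  refine Exists.elim hn fun c hc => ?_
  refine Exists.elim hc fun h hh => ?_
  by_cases hu : s35r_normAlong ψ₀ f₀ = 0
  · exact ⟨0, 1, by rw [hu, map_zero, zero_mul]⟩
  · have e2 : s18q_incl N K₀ (s35r_normAlong ψ₀ f₀) =
        algebraMap Qbar (modularFunctionFieldBar N) c * (h * s35r_normAlong ψ g) ^ m := by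
      refine (hcompat f₀).trans ?_
      rw [hf₀, s36v_normAlong_mul_pow, hh, mul_pow, mul_assoc]
    exact s36v_const_root_descent N K₀ m hm _ hu c _ e2

end NormDescent

section Back

/-- abstract: from the ratio of `f g ^ m` to the ratio of `f`. -/
theorem s36v_ratio_pow {G F : Type*} [Group G] [Field F] [MulSemiringAction G F] (ρ : G)
    {f g : F} (hg : g ≠ 0) (m C : ℕ) (a x : F)
    (h : ((ρ • (f * g ^ m)) / (f * g ^ m)) ^ C = a * x ^ m) :
    ((ρ • f) / f) ^ C = a * (x * (g / (ρ • g)) ^ C) ^ m := by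
  have hρg : ρ • g ≠ 0 := (smul_ne_zero_iff_ne ρ).mpr hg
  have e : (ρ • (f * g ^ m)) / (f * g ^ m) = ((ρ • f) / f) * ((ρ • g) / g) ^ m := by
    rw [smul_mul', smul_pow', div_pow, mul_div_mul_comm]
  rw [e, mul_pow] at h
  have key : ((ρ • g) / g) * (g / (ρ • g)) = 1 := by
    rw [div_mul_div_comm, mul_comm, div_self (mul_ne_zero hg hρg)]
  calc ((ρ • f) / f) ^ C
      = ((ρ • f) / f) ^ C * (((ρ • g) / g) * (g / (ρ • g))) ^ (m * C) := by
        rw [key, one_pow, mul_one]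
    _ = (((ρ • f) / f) ^ C * (((ρ • g) / g) ^ m) ^ C) * ((g / (ρ • g)) ^ C) ^ m := by
        rw [mul_pow, pow_mul, pow_mul', mul_assoc]
    _ = a * (x * (g / (ρ • g)) ^ C) ^ m := by
        rw [h, mul_pow, mul_assoc]

/-- abstract: the end of the argument in the group. -/
theorem s36v_finish {A : Type*} [AddCommGroup A] (w : A) (lam C k : ℕ) (hlam : lam.Prime)
    (hC : C ≠ 0) (h1 : C • w = 0) (h2 : lam ^ k • w = 0) : lam ^ C • w = 0 := by
  have d1 : addOrderOf w ∣ C := addOrderOf_dvd_of_nsmul_eq_zero h1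
  have d2 : addOrderOf w ∣ lam ^ k := addOrderOf_dvd_of_nsmul_eq_zero h2
  obtain ⟨j, -, hj⟩ := (Nat.dvd_prime_pow hlam).mp d2
  have hle : lam ^ j ≤ C := Nat.le_of_dvd (Nat.pos_of_ne_zero hC) (hj ▸ d1)
  have hjC : j ≤ C := le_trans (Nat.lt_pow_self hlam.one_lt).le hle
  apply addOrderOf_dvd_iff_nsmul_eq_zero.mp
  rw [hj]
  exact pow_dvd_pow lam hjC

variable (N : ℕ) [NeZero N]

/-- **(C4) back to `ℚ̄`.** -/
theorem s36v_back (K₀ : IntermediateField ℚ Qbar) (σ₀ : ↥K₀ ≃ₐ[ℚ] ↥K₀) (φ : Γℚ)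
    (hσ₀ : ∀ a : ↥K₀, algebraMap ↥K₀ Qbar (σ₀ a) = φ (algebraMap ↥K₀ Qbar a))
    (m C : ℕ) (f₀ x₀ : s34m_F ↥K₀ N) (hf₀ : f₀ ≠ 0) (hx₀ : x₀ ≠ 0)
    (hx : ∀ Q : Place ↥K₀ (s34m_F ↥K₀ N),
      Q.ord (((arithmeticGalois (modularFunctionFieldFull N) σ₀ • f₀) / f₀) ^ C) ≤
        (m : ℤ) * Q.ord x₀) :
    ∃ c : Qbar, ((arithmeticGalois (modularFunctionFieldFull N) φ • s18q_incl N K₀ f₀) /
        s18q_incl N K₀ f₀) ^ C =
      algebraMap Qbar (modularFunctionFieldBar N) c * (s18q_incl N K₀ x₀) ^ m := by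
  refine Exists.elim (s18q_restrict_gen_bar (algebraMap ↥K₀ Qbar) (modularFunctionFieldFull N))
    fun ρ hρ => ?_
  have hs0 : arithmeticGalois (modularFunctionFieldFull N) σ₀ • f₀ ≠ 0 :=
    (smul_ne_zero_iff_ne _).mpr hf₀
  have hu0 : ((arithmeticGalois (modularFunctionFieldFull N) σ₀ • f₀) / f₀) ^ C ≠ 0 :=
    pow_ne_zero _ (div_ne_zero hs0 hf₀)
  refine Exists.elim (s18x_endgame (s18q_map (algebraMap ↥K₀ Qbar) (modularFunctionFieldFull N)) ρ
    hρ.2 (fun g hg => s18e_const_of_ord_nonpos N g hg) _ x₀ m hx₀ hu0 hx) fun c hc => ?_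
  refine ⟨c, ?_⟩
  have e := s34q_map_smul (modularFunctionFieldFull N) (algebraMap ↥K₀ Qbar) σ₀ φ hσ₀ f₀
  rw [map_pow, map_div₀, e] at hc
  exact hc

end Back

section Main

/-- **Layer (D).** -/
theorem s36v_descent : s36g_Descent := by
  intro M q lam C _ _ hlam hq hqlam hqM hC hNF
  refine ⟨C, fun P hP φ hφ k z hz hfix hα hβ => ?_⟩
  have hm : lam ^ k ≠ 0 := pow_ne_zero k hlam.out.ne_zero
  refine Exists.elim (Pic0.mk_surjective z) fun D hD => ?_
  subst hD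
  -- the function
  refine Exists.elim (s36v_exists_fun (M * q * q) (lam ^ k) D hz) fun f hf => ?_
  have hf0 := hf.1
  have hlc := hf.2.1
  have hfD := hf.2.2
  have hinv : ∀ σ ∈ P.inertiaSubgroupIn ℚ, ∃ h : ffi_F (M * q * q), h ≠ 0 ∧
      arithmeticGalois (modularFunctionFieldFull (M * q * q)) σ • f = h ^ (lam ^ k) * f :=
    fun σ hσ => s36v_inv_of_fixed (M * q * q) (lam ^ k) hm D hf0 hfD σ (hfix σ hσ)
  -- the contract
  refine Exists.elim (hNF k) fun n hn => ?_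
  have hn0 := hn.1
  have hqn := hn.2.1
  have hcore := hn.2.2
  -- the model
  refine Exists.elim (s36v_model (M * q * q) P q hq hP φ hφ (lam ^ k) hm n hn0 hqn f hf0 hlc hinv)
    fun K₀ hK₀ => ?_
  haveI hfd : FiniteDimensional ℚ ↥K₀ := hK₀.1
  have hζ := hK₀.2.1
  refine Exists.elim hK₀.2.2 fun σ₀ hσ => ?_
  have hσ₀ := hσ.1
  haveI hdvr : IsDiscreteValuationRing ↥(P.comap (algebraMap ↥K₀ Qbar)) := hσ.2.1
  have hqnon := hσ.2.2.1
  have hunr := hσ.2.2.2.1
  have hstab := hσ.2.2.2.2.1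
  have hfrob := hσ.2.2.2.2.2.1
  refine Exists.elim hσ.2.2.2.2.2.2 fun g hg => ?_
  refine Exists.elim hg fun f₀ hf₀ => ?_
  have hg0 := hf₀.1
  have hincl := hf₀.2
  haveI hnf : NumberField ↥K₀ := ⟨⟩
  have hf₀0 : f₀ ≠ 0 := by
    rintro rfl
    rw [map_zero] at hincl
    exact mul_ne_zero hf0 (pow_ne_zero _ hg0) hincl.symm
  -- divisibility of the divisor
  have hdiv : ∀ Q : Place ↥K₀ (s34m_F ↥K₀ (M * q * q)), ((lam ^ k : ℕ) : ℤ) ∣ Q.ord f₀ := by
    refine s18q_dvd_ord_descend (M * q * q) K₀ _ f₀ (fun v => ?_)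
    rw [hincl, v.ord_mul hf0 (pow_ne_zero _ hg0), ← zpow_natCast, v.ord_zpow, ← hfD v, ← mul_add]
    exact Dvd.intro _ rfl
  -- the norms
  have hnα := s36v_norm_descent (M * q) (M * q * q) K₀ (heckeAlphaBar ↥K₀ (M * q) q)
    (heckeAlphaBar Qbar (M * q) q)
    (fun y => s36v_norm_alpha_iota (algebraMap ↥K₀ Qbar) (M * q) q y) (lam ^ k) hm f₀ f g hincl
    (s36v_norm_alpha_of_push (M * q) q (lam ^ k) D hf0 hfD hα)
  have hnβ := s36v_norm_descent (M * q) (M * q * q) K₀ (heckeBetaBar ↥K₀ (M * q) q)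
    (heckeBetaBar Qbar (M * q) q)
    (fun y => s36v_norm_beta_iota (algebraMap ↥K₀ Qbar) (M * q) q y) (lam ^ k) hm f₀ f g hincl
    (s36v_norm_beta_of_push (M * q) q (lam ^ k) D hf0 hfD hβ)
  -- apply the contract
  refine Exists.elim (hcore ↥K₀ hζ (P.comap (algebraMap ↥K₀ Qbar)) hqnon hunr σ₀ hstab hfrob f₀
    hf₀0 hdiv hnα hnβ) fun x₀ hx₀ => ?_
  -- back to `ℚ̄`
  refine Exists.elim (s36v_back (M * q * q) K₀ σ₀ φ hσ₀ (lam ^ k) C f₀ x₀ hf₀0 hx₀.1 hx₀.2)
    fun c hc => ?_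
  rw [hincl] at hc
  have hc' := s36v_ratio_pow (arithmeticGalois (modularFunctionFieldFull (M * q * q)) φ) hg0
    (lam ^ k) C _ _ hc
  have hx0 : s18q_incl (M * q * q) K₀ x₀ *
      (g / (arithmeticGalois (modularFunctionFieldFull (M * q * q)) φ • g)) ^ C ≠ 0 := by
    refine mul_ne_zero ?_ (pow_ne_zero _ (div_ne_zero hg0 ((smul_ne_zero_iff_ne _).mpr hg0)))
    exact fun h0 => hx₀.1 (s18q_incl_injective (M * q * q) K₀ (by rw [h0, map_zero]))
  have h1 := s36v_fun_to_pic (arithmeticGalois (modularFunctionFieldFull (M * q * q)) φ) (lam ^ k)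
    hm C D f hf0 hfD c _ hx0 hc'
  -- the end
  have h2 : lam ^ k • (φ • (Pic0.mk D : JZero (M * q * q)) - Pic0.mk D) = 0 := by
    have e : lam ^ k • (φ • (Pic0.mk D : JZero (M * q * q))) = 0 := by
      have e' := (map_nsmul (DistribSMul.toAddMonoidHom (JZero (M * q * q)) φ) (lam ^ k)
        (Pic0.mk D)).symm
      rw [hz, map_zero] at e'
      exact e'
    rw [nsmul_sub, e, hz, sub_zero]
  exact s36v_finish _ lam C k hlam.out hC h1 h2

end Main

end Fermat.Agent.Lib.S36
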