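/-
S36, layer (D) (helper7, prefix `s36v_`), FINAL ASSEMBLY, part A (data, model).

From the number-field contract `s36g_NFCore M q (lam ^ k) C` (for all `k`) to `s36g_NN1At M q lam`:
a class `z ∈ J₀(M q²)[lam ^ k]`, fixed by the inertia group `I_P`, killed by `α_*` and `β_*`, is
represented by `m D = div f`; after multiplying `f` by an `m`-th power (Hilbert 90, `s36v_core`) it
is defined over a number field `K₀ ⊆ ℚ̄^{I_P}` which is unramified at `P` (`s36v_field_pkg`), the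
norm conditions descend (`s36v_norm_alpha_iota`, `s36v_const_root_descent`), the contract gives
`(φ f₀ / f₀) ^ C = c x ^ m`, hence `C (φ z - z) = 0`.
-/
import Mathlib
import Fermat.Agent.Lib.S36.GeoContracts
import Fermat.Agent.Lib.S36.VCore
import Fermat.Agent.Lib.S36.VBig
import Fermat.Agent.Lib.S36.VField
import Fermat.Agent.Lib.S36.VNormCompat
import Fermat.Agent.Lib.S36.VRoot
import Fermat.Agent.Lib.S36.VPic
import Fermat.Agent.Lib.S36.WFinite

set_option autoImplicit false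
set_option linter.style.haveILetI false
set_option linter.unusedSectionVars false
set_option synthInstance.maxHeartbeats 400000

noncomputable section

namespace Fermat.Agent.Lib.S36

open ModularCurve AlgebraicCurve Fermat.Agent.Lib.S18 Fermat.Agent.Lib.FF
  Fermat.Agent.Lib.S29 Fermat.Agent.Lib.S34 Fermat.Agent.Lib.S35 Fermat.Agent.Lib.S37

local notation "Qbar" => AlgebraicClosure ℚ
local notation "Γℚ" => (AlgebraicClosure ℚ ≃ₐ[ℚ] AlgebraicClosure ℚ)

attribute [local instance 2000] s36v_coeFunGal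

section Data

variable (N : ℕ) [NeZero N]

/-- functions without zeros and poles are constant -/
theorem s36v_hconst (u : ffi_F N) (_hu : u ≠ 0)
    (h : ∀ v : Place ffi_K (ffi_F N), v.ord u = 0) : ∃ c : ffi_K, u = algebraMap ffi_K (ffi_F N) c :=
  s18e_const_of_ord_nonpos N u (fun P => le_of_eq (h P))

/-- a torsion class is represented by a normalised function -/
theorem s36v_exists_fun (m : ℕ) (D : Divisor.degZero (K := ffi_K) (F := ffi_F N))
    (hz : m • Pic0.mk D = 0) :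
    ∃ f : ffi_F N, f ≠ 0 ∧ s36v_lcF (modularFunctionFieldFull N) f = 1 ∧
      ∀ v : Place ffi_K (ffi_F N), (m : ℤ) * (D : Divisor ffi_K (ffi_F N)) v = v.ord f := by
  have hmD : Pic0.mk (m • D) = 0 := by
    rw [← hz]
    exact map_nsmul (QuotientAddGroup.mk' _) m D
  have hmD' : ((m • D : Divisor.degZero (K := ffi_K) (F := ffi_F N)) :
      Divisor ffi_K (ffi_F N)) ∈ Divisor.principal (K := ffi_K) (F := ffi_F N) :=
    (QuotientAddGroup.eq_zero_iff (m • D)).mp hmD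
  refine Exists.elim hmD' fun f hf => ?_
  have hf0 := hf.1
  have hfD := hf.2
  have hc0 : s36v_lcF (modularFunctionFieldFull N) f ≠ 0 := s36v_lcF_ne_zero hf0
  have hcst : algebraMap ffi_K (ffi_F N) (s36v_lcF (modularFunctionFieldFull N) f)⁻¹ ≠ 0 := by
    rw [Ne, map_eq_zero]
    exact inv_ne_zero hc0
  refine ⟨f * algebraMap ffi_K (ffi_F N) (s36v_lcF (modularFunctionFieldFull N) f)⁻¹,
    mul_ne_zero hf0 hcst, ?_, fun v => ?_⟩
  · rw [s36v_lcF_mul, s36v_lcF_algebraMap, mul_inv_cancel₀ hc0]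
  · rw [v.ord_mul hf0 hcst, ff_ord_algebraMap, add_zero, ← hfD v, AddSubgroupClass.coe_nsmul,
      Finsupp.smul_apply, nsmul_eq_mul]

end Data

section Level

variable (M q : ℕ) [NeZero M] [NeZero q]

/-- the norm condition from `α_* z = 0` -/
theorem s36v_norm_alpha_of_push (m : ℕ) (D : Divisor.degZero (K := ffi_K) (F := ffi_F (M * q)))
    {f : ffi_F (M * q)} (hf : f ≠ 0)
    (hfD : ∀ v : Place ffi_K (ffi_F (M * q)),
      (m : ℤ) * (D : Divisor ffi_K (ffi_F (M * q))) v = v.ord f)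
    (h : s36w_alphaPush M q (Pic0.mk D) = 0) :
    ∃ (c : ffi_K) (h : ffi_F M),
      s35r_normAlong (heckeAlphaBar Qbar M q) f = algebraMap ffi_K (ffi_F M) c * h ^ m :=
  s35r_norm_of_pushforward (heckeAlphaBar Qbar M q) (s36w_alphaIntegral M q)
    (s36w_finite_alpha M q) (s37h_normFormulaAlong _ (s36w_finite_alpha M q)) (s36v_hconst M) m D
    hf hfD ((s36w_alphaPush_mk_eq_zero_iff' M q D).mp h)

/-- the norm condition from `β_* z = 0` -/
theorem s36v_norm_beta_of_push (m : ℕ) (D : Divisor.degZero (K := ffi_K) (F := ffi_F (M * q)))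
    {f : ffi_F (M * q)} (hf : f ≠ 0)
    (hfD : ∀ v : Place ffi_K (ffi_F (M * q)),
      (m : ℤ) * (D : Divisor ffi_K (ffi_F (M * q))) v = v.ord f)
    (h : s36w_betaPush M q (Pic0.mk D) = 0) :
    ∃ (c : ffi_K) (h : ffi_F M),
      s35r_normAlong (heckeBetaBar Qbar M q) f = algebraMap ffi_K (ffi_F M) c * h ^ m :=
  s35r_norm_of_pushforward (heckeBetaBar Qbar M q) (s36w_betaIntegral M q)
    (s36w_finite_beta M q) (s37h_normFormulaAlong _ (s36w_finite_beta M q)) (s36v_hconst M) m D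
    hf hfD ((s36w_betaPush_mk_eq_zero_iff' M q D).mp h)

end Level

section Inv

variable (N : ℕ) [NeZero N]

/-- a class fixed by `σ` gives `σ f = h ^ m f`. -/
theorem s36v_inv_of_fixed (m : ℕ) (hm : m ≠ 0)
    (D : Divisor.degZero (K := ffi_K) (F := ffi_F N)) {f : ffi_F N} (hf : f ≠ 0)
    (hfD : ∀ v : Place ffi_K (ffi_F N), (m : ℤ) * (D : Divisor ffi_K (ffi_F N)) v = v.ord f)
    (σ : Γℚ) (hσ : σ • (Pic0.mk D : JZero N) = Pic0.mk D) :
    ∃ h : ffi_F N, h ≠ 0 ∧ arithmeticGalois (modularFunctionFieldFull N) σ • f = h ^ m * f :=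
  s36v_fix_to_fun (arithmeticGalois (modularFunctionFieldFull N) σ) (s36v_hconst N) m
    (fun c => IsAlgClosed.exists_pow_nat_eq c (Nat.pos_of_ne_zero hm)) D f hf hfD hσ

end Inv

section Model

variable (N : ℕ)

/-- a finite normal field of definition containing a primitive `n`-th root of unity -/
theorem s36v_exists_L (f : ffi_F N) (n : ℕ) (hn : 0 < n) :
    ∃ L : IntermediateField ℚ Qbar, FiniteDimensional ℚ ↥L ∧ Normal ℚ ↥L ∧
      f ∈ Set.range (s18q_incl N L) ∧ ∃ ζ ∈ L, IsPrimitiveRoot ζ n := by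
  classical
  haveI : NeZero n := ⟨hn.ne'⟩
  obtain ⟨ζ, hζ⟩ := HasEnoughRootsOfUnity.exists_primitiveRoot Qbar n
  obtain ⟨L₁, hfd₁, hL₁⟩ := s18q_exists_field N {f}
  obtain ⟨L₂, hfd₂, hL₂⟩ := s35q_exists_field_const {ζ}
  let L₄ : IntermediateField ℚ Qbar := L₁ ⊔ L₂
  haveI hfd₄ : FiniteDimensional ℚ L₄ := by
    show FiniteDimensional ℚ ↥(L₁ ⊔ L₂)
    infer_instance
  let L : IntermediateField ℚ Qbar := IntermediateField.normalClosure ℚ ↥L₄ Qbar
  have hL₄ : L₄ ≤ L := IntermediateField.le_normalClosure L₄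
  haveI := s34q_isAlgClosure_bar
  haveI : Normal ℚ Qbar := IsAlgClosure.normal ℚ Qbar
  refine ⟨L, normalClosure.is_finiteDimensional ℚ ↥L₄ Qbar, normalClosure.normal ℚ ↥L₄ Qbar,
    ?_, ζ, ?_, hζ⟩
  · exact s18q_incl_range_mono N (le_trans le_sup_left hL₄) (hL₁ f (Finset.mem_singleton_self f))
  · exact hL₄ (le_sup_right (a := L₁) (hL₂ ζ (Finset.mem_singleton_self ζ)))

/-- **(C1) the model**: a normalised `f` with `σ f = h_σ ^ m f` for `σ ∈ I_P` becomes, after
multiplication by an `m`-th power, defined over a number field `K₀ ⊆ ℚ̄^{I_P}` unramified at `P`,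
containing the `n`-th roots of unity and stable under the Frobenius `φ`. -/
theorem s36v_model [NeZero N] (P : ValuationSubring Qbar) (q : ℕ) (hq : q.Prime)
    (hP : P.LiesOverPrime q) (φ : Γℚ) (hφ : P.IsFrobeniusAt φ q)
    (m : ℕ) (hm : m ≠ 0) (n : ℕ) (hn : 0 < n) (hqn : ¬ q ∣ n)
    (f : ffi_F N) (hf : f ≠ 0) (hlc : s36v_lcF (modularFunctionFieldFull N) f = 1)
    (hinv : ∀ σ ∈ P.inertiaSubgroupIn ℚ, ∃ h : ffi_F N, h ≠ 0 ∧
      arithmeticGalois (modularFunctionFieldFull N) σ • f = h ^ m * f) :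
    ∃ K₀ : IntermediateField ℚ Qbar, FiniteDimensional ℚ ↥K₀ ∧
      (∃ ζ : ↥K₀, IsPrimitiveRoot ζ n) ∧
      ∃ σ₀ : ↥K₀ ≃ₐ[ℚ] ↥K₀,
        (∀ a : ↥K₀, algebraMap ↥K₀ Qbar (σ₀ a) = φ (algebraMap ↥K₀ Qbar a)) ∧
        IsDiscreteValuationRing ↥(P.comap (algebraMap ↥K₀ Qbar)) ∧
        ((q : ℕ) : ↥K₀) ∈ (P.comap (algebraMap ↥K₀ Qbar)).nonunits ∧
        (∀ a ∈ (P.comap (algebraMap ↥K₀ Qbar)).nonunits,
          ∃ b ∈ P.comap (algebraMap ↥K₀ Qbar), a = ((q : ℕ) : ↥K₀) * b) ∧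
        (∀ a : ↥K₀, σ₀ a ∈ P.comap (algebraMap ↥K₀ Qbar) ↔
          a ∈ P.comap (algebraMap ↥K₀ Qbar)) ∧
        (∀ a ∈ P.comap (algebraMap ↥K₀ Qbar),
          σ₀ a - a ^ q ∈ (P.comap (algebraMap ↥K₀ Qbar)).nonunits) ∧
        ∃ (g : ffi_F N) (f₀ : ↥(laurentBaseChange ↥K₀ (modularFunctionFieldFull N))),
          g ≠ 0 ∧ s18q_incl N K₀ f₀ = f * g ^ m := by
  classical
  refine Exists.elim (s36v_exists_L N f n hn) fun L hL => ?_
  have hLfd := hL.1
  have hLn := hL.2.1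
  have hfL := hL.2.2.1
  have hζL := hL.2.2.2
  haveI := hLfd
  haveI := hLn
  refine Exists.elim hfL fun fL hfL' => ?_
  refine Exists.elim (s36v_field_pkg P q hq hP φ hφ L) fun K₀ hK₀ => ?_
  have hle := hK₀.1
  have hfd := hK₀.2.1
  have hfixI := hK₀.2.2.1
  have hfixL := hK₀.2.2.2.1
  have hroots := hK₀.2.2.2.2.1
  refine Exists.elim hK₀.2.2.2.2.2 fun σ₀ hσ₀ => ?_
  have hfL0 : fL ≠ 0 := by
    rintro rfl
    exact hf (by rw [← hfL', map_zero])
  have hlcL : s36v_lcF (modularFunctionFieldFull N) fL = 1 := by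
    have h1 : s36v_lcF (modularFunctionFieldFull N) (s18q_incl N L fL) =
        algebraMap ↥L Qbar (s36v_lcF (modularFunctionFieldFull N) fL) :=
      s36v_lcF_map (F₀ := modularFunctionFieldFull N) (algebraMap ↥L Qbar) fL
    rw [hfL', hlc] at h1
    exact (algebraMap ↥L Qbar).injective (h1.symm.trans (map_one _).symm)
  have hinvL : ∀ σ ∈ P.inertiaSubgroupIn ℚ, ∃ h : modularFunctionFieldBar N, h ≠ 0 ∧
      arithmeticGalois (modularFunctionFieldFull N) σ • s18q_incl N L fL =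
        h ^ m * s18q_incl N L fL := by
    rw [hfL']
    exact hinv
  refine Exists.elim (s36v_core N (P.inertiaSubgroupIn ℚ) L K₀ hle hfixI hfixL
    (fun x hx => s36v_descent_big N L x hx) m hm fL hfL0 hlcL hinvL) fun gL hgL => ?_
  refine Exists.elim hgL fun f₀ hf₀ => ?_
  refine ⟨K₀, hfd, ?_, σ₀, hσ₀.1, hσ₀.2.1, hσ₀.2.2.1, hσ₀.2.2.2.1, hσ₀.2.2.2.2.1,
    hσ₀.2.2.2.2.2, s18q_incl N L gL, f₀, ?_, ?_⟩
  · -- the primitive root lies in `K₀`
    refine Exists.elim hζL fun ζ hζ => ?_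
    have hζK : ζ ∈ K₀ := hroots n hn hqn ζ hζ.1 (hζ.2.pow_eq_one)
    refine ⟨⟨ζ, hζK⟩, ?_⟩
    exact IsPrimitiveRoot.of_map_of_injective (f := algebraMap ↥K₀ Qbar)
      (h := hζ.2) (algebraMap ↥K₀ Qbar).injective
  · intro h0
    exact hf₀.1 (s18q_incl_injective N L (by rw [h0, map_zero]))
  · rw [hf₀.2, map_mul, map_pow, hfL']

end Model

end Fermat.Agent.Lib.S36
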