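/-
S36 project (helper1, prefix `s36w_`): THE PARTIAL ATKIN–LEHNER INVOLUTION `w_Q` over `Q̄` for an
ARBITRARY coprime pair.

Level `L = N * Q` with `Q` coprime to `N` (`hL : L = N * Q`, so that `L` may be written in any
shape, e.g. `M * q * q` with `N = M`, `Q = q * q`).  Every `D ∣ L` is uniquely `D = a * d` with
`a = gcd D Q ∣ Q`, `d = gcd D N ∣ N`; `co D = (Q / a) * d`.

* `s36w_coQ` : the involution `D ↦ co D` of the divisors of `L`; `s36w_coQ_val_of_eq` (`D = a d`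
  with `a ∣ Q`, `d ∣ N` ⇒ `co D = (Q / a) d`), `s36w_coQ_coQ`;
* `s36w_exists_alQH` : the analytic input `W z = γ₀ • (Q z)`, `γ₀ = (1, -y; N, Q x)`,
  `Q x + N y = 1`: `j(D · W z) = j(co(D) · z)`;
* `s36w_alQ L N Q hL hcop : ffi_F L ≃ₐ[Q̄] ffi_F L`, `j(q^D) ↦ j(q^(co D))`, an involution
  (`s36w_alQ_alQ`, `s36w_alQ_gen`).

Instances: `Q = q * q`, `N = M` (`q ∤ M`): `w_{q²}` of level `M q²`; `N = 1`: the full Fricke
involution `j(q^d) ↦ j(q^(L/d))`; `Q = q` prime: `s37w_al`.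
-/
import Fermat.Agent.Lib.S37.WAtkin

set_option autoImplicit false

namespace Fermat.Agent.Lib.S36

open UpperHalfPlane hiding I
open Complex ModularCurve Fermat.Agent.Lib.FF Fermat.Agent.Lib.S28 Fermat.Agent.Lib.S37
open scoped MatrixGroups

noncomputable section

set_option linter.unusedSectionVars false

local notation "Kb" => AlgebraicClosure ℚ

variable (L N Q : ℕ) [NeZero L] (hL : L = N * Q) (hcop : Nat.Coprime Q N)

include hL in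
theorem s36w_N_ne_zero : N ≠ 0 := by
  intro h
  apply NeZero.ne L
  rw [hL, h, zero_mul]

include hL in
theorem s36w_Q_ne_zero : Q ≠ 0 := by
  intro h
  apply NeZero.ne L
  rw [hL, h, mul_zero]

include hL hcop in
/-- every divisor of `L = N Q` is `gcd D Q * gcd D N`. -/
theorem s36w_gcd_mul_gcd {D : ℕ} (hD : D ∣ L) : Nat.gcd D Q * Nat.gcd D N = D := by
  rw [← Nat.Coprime.gcd_mul D hcop, mul_comm Q N, ← hL]
  exact Nat.gcd_eq_left hD

include hcop in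
/-- the two gcd's of `D = a * d`, `a ∣ Q`, `d ∣ N`. -/
theorem s36w_gcd_of_eq {D a d : ℕ} (ha : a ∣ Q) (hd : d ∣ N) (hD : D = a * d) :
    Nat.gcd D Q = a ∧ Nat.gcd D N = d := by
  have hdQ : Nat.Coprime d Q := (Nat.Coprime.coprime_dvd_left hd hcop.symm)
  have haN : Nat.Coprime a N := (Nat.Coprime.coprime_dvd_left ha hcop)
  constructor
  · rw [hD, Nat.Coprime.gcd_mul_right_cancel a hdQ]
    exact Nat.gcd_eq_left ha
  · rw [hD, Nat.Coprime.gcd_mul_left_cancel d haN]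
    exact Nat.gcd_eq_left hd

include hL in
/-- `(Q / gcd D Q) * gcd D N` divides `L`. -/
theorem s36w_coQ_dvd (D : ℕ) : Q / Nat.gcd D Q * Nat.gcd D N ∣ L := by
  rw [hL, mul_comm N Q]
  exact Nat.mul_dvd_mul (Nat.div_dvd_of_dvd (Nat.gcd_dvd_right D Q)) (Nat.gcd_dvd_right D N)

/-- **The Atkin–Lehner involution on the divisors of `L = N Q`**:
`D = a d ↦ (Q / a) d` (`a = gcd D Q`, `d = gcd D N`). -/
def s36w_coQ (D : s28w_Idx L) : s28w_Idx L :=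
  ⟨Q / Nat.gcd D.1 Q * Nat.gcd D.1 N, s36w_coQ_dvd L N Q hL D.1⟩

include hcop in
theorem s36w_coQ_val_of_eq (D : s28w_Idx L) {a d : ℕ} (ha : a ∣ Q) (hd : d ∣ N)
    (hD : D.1 = a * d) : (s36w_coQ L N Q hL D).1 = Q / a * d := by
  obtain ⟨h1, h2⟩ := s36w_gcd_of_eq N Q hcop ha hd hD
  show Q / Nat.gcd D.1 Q * Nat.gcd D.1 N = Q / a * d
  rw [h1, h2]

include hcop in
theorem s36w_coQ_coQ (D : s28w_Idx L) : s36w_coQ L N Q hL (s36w_coQ L N Q hL D) = D := by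
  apply Subtype.ext
  have hQ0 : 0 < Q := Nat.pos_of_ne_zero (s36w_Q_ne_zero L N Q hL)
  have ha : Nat.gcd D.1 Q ∣ Q := Nat.gcd_dvd_right _ _
  have hd : Nat.gcd D.1 N ∣ N := Nat.gcd_dvd_right _ _
  have h1 : (s36w_coQ L N Q hL D).1 = Q / Nat.gcd D.1 Q * Nat.gcd D.1 N := rfl
  rw [s36w_coQ_val_of_eq L N Q hL hcop (s36w_coQ L N Q hL D)
    (Nat.div_dvd_of_dvd ha) hd h1, Nat.div_div_self ha hQ0.ne']
  exact s36w_gcd_mul_gcd L N Q hL hcop D.2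

include hcop in
/-- **The analytic Atkin–Lehner substitution** for `Q ∥ L`: a map `W : ℍ → ℍ` with
`j(D · W z) = j(co(D) · z)` for every `D ∣ L`. -/
theorem s36w_exists_alQH :
    ∃ W : ℍ → ℍ, ∀ (D : s28w_Idx L) (z : ℍ),
      ffb_jd D.1 (W z) = ffb_jd (s36w_coQ L N Q hL D).1 z := by
  haveI : NeZero Q := ⟨s36w_Q_ne_zero L N Q hL⟩
  -- Bezout
  obtain ⟨x, y, hxy⟩ : ∃ x y : ℤ, (Q : ℤ) * x + (N : ℤ) * y = 1 := by
    have h := Int.gcd_eq_gcd_ab (Q : ℤ) (N : ℤ)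
    have hg : Int.gcd (Q : ℤ) (N : ℤ) = 1 := by
      rw [Int.gcd_natCast_natCast]; exact hcop
    rw [hg] at h
    exact ⟨Int.gcdA Q N, Int.gcdB Q N, by rw [← h]; rfl⟩
  let γ₀ : SL(2, ℤ) := ⟨!![1, -y; (N : ℤ), (Q : ℤ) * x], by
    rw [Matrix.det_fin_two_of]; linear_combination hxy⟩
  refine ⟨fun z => γ₀ • ffb_dmul Q z, fun D z => ?_⟩
  have g00 : γ₀ 0 0 = 1 := rfl
  have g01 : γ₀ 0 1 = -y := rfl
  have g10 : γ₀ 1 0 = (N : ℤ) := rfl
  have g11 : γ₀ 1 1 = (Q : ℤ) * x := rfl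
  -- `D = a d`, `Q = a a'`, `N = d c'`
  set a := Nat.gcd D.1 Q with ha
  set d := Nat.gcd D.1 N with hd
  have hDad : D.1 = a * d := (s36w_gcd_mul_gcd L N Q hL hcop D.2).symm
  obtain ⟨a', ha'⟩ : a ∣ Q := Nat.gcd_dvd_right _ _
  obtain ⟨c', hc'⟩ : d ∣ N := Nat.gcd_dvd_right _ _
  have ha0 : a ≠ 0 := fun h0 => NeZero.ne D.1 (by rw [hDad, h0, zero_mul])
  have hco : (s36w_coQ L N Q hL D).1 = a' * d := by
    show Q / a * d = a' * d
    rw [ha', Nat.mul_div_cancel_left a' (Nat.pos_of_ne_zero ha0)]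
  have hne : NeZero (a' * d) := ⟨by rw [← hco]; exact NeZero.ne _⟩
  have hQz : (Q : ℤ) = (a : ℤ) * (a' : ℤ) := by exact_mod_cast ha'
  have hNz : (N : ℤ) = (d : ℤ) * (c' : ℤ) := by exact_mod_cast hc'
  let γ' : SL(2, ℤ) := ⟨!![(a : ℤ), -((d : ℤ) * y); (c' : ℤ), (a' : ℤ) * x], by
    rw [Matrix.det_fin_two_of]
    rw [hQz, hNz] at hxy
    linear_combination hxy⟩
  have key : ffb_dmul D.1 (γ₀ • ffb_dmul Q z) = γ' • ffb_dmul (a' * d) z := by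
    refine s37w_dmul_smul_dmul D.1 Q (a' * d) γ₀ γ' (a : ℤ)
      (Int.natCast_ne_zero.mpr ha0) ?_ ?_ ?_ ?_ z
    · rw [g00]
      show (D.1 : ℤ) * 1 * (Q : ℤ) = (a : ℤ) * ((a : ℤ) * ((a' * d : ℕ) : ℤ))
      rw [hDad, hQz]; push_cast; ring
    · rw [g01]
      show (D.1 : ℤ) * -y = (a : ℤ) * -((d : ℤ) * y)
      rw [hDad]; push_cast; ring
    · rw [g10]
      show (N : ℤ) * (Q : ℤ) = (a : ℤ) * ((c' : ℤ) * ((a' * d : ℕ) : ℤ))
      rw [hQz, hNz]; push_cast; ring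
    · rw [g11]
      show (Q : ℤ) * x = (a : ℤ) * ((a' : ℤ) * x)
      rw [hQz]; ring
  have e1 : ffb_jd (s36w_coQ L N Q hL D).1 z = ffb_jd (a' * d) z := by
    congr 1
  rw [e1, ffb_jd_apply, ffb_jd_apply, key, ffj_smul]

/-- **The partial Atkin–Lehner involution** `w_Q` of `F̄(L)`, `L = N Q`, `Q` coprime to `N`. -/
def s36w_alQ : ffi_F L ≃ₐ[Kb] ffi_F L :=
  s37w_substEquiv L (s36w_coQ L N Q hL) (s36w_exists_alQH L N Q hL hcop).choose
    (s36w_exists_alQH L N Q hL hcop).choose_spec (s36w_coQ_coQ L N Q hL hcop)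

theorem s36w_alQ_alQ (x : ffi_F L) :
    s36w_alQ L N Q hL hcop (s36w_alQ L N Q hL hcop x) = x :=
  s37w_substEquiv_substEquiv _ _ _ _ _ x

theorem s36w_alQ_gen (D : s28w_Idx L) (x : ffi_F L)
    (hx : (x : LaurentSeries Kb) = s37w_gen L D) :
    ((s36w_alQ L N Q hL hcop x : ffi_F L) : LaurentSeries Kb) =
      s37w_gen L (s36w_coQ L N Q hL D) :=
  s37w_substEquiv_gen _ _ _ _ _ D x hx

/-- on the generator `j(q^D)`, `D = a d` (`a ∣ Q`, `d ∣ N`): `w_Q j(q^(a d)) = j(q^((Q/a) d))`. -/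
theorem s36w_alQ_gen_of_eq (D D' : s28w_Idx L) {a d : ℕ} (ha : a ∣ Q) (hd : d ∣ N)
    (hD : D.1 = a * d) (hD' : D'.1 = Q / a * d) (x : ffi_F L)
    (hx : (x : LaurentSeries Kb) = s37w_gen L D) :
    ((s36w_alQ L N Q hL hcop x : ffi_F L) : LaurentSeries Kb) = s37w_gen L D' := by
  rw [s36w_alQ_gen L N Q hL hcop D x hx]
  congr 1
  apply Subtype.ext
  rw [s36w_coQ_val_of_eq L N Q hL hcop D ha hd hD, hD']

end

end Fermat.Agent.Lib.S36
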