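/-
S36 project (helper1, prefix `s36w_`): THE ATKIN–LEHNER INVOLUTION `w_{q²}` OF LEVEL `M q²` over
`Q̄` (`q` prime, `q ∤ M`) and its compatibility with the degeneracy maps of the last step
`α', β' : F̄(M q) → F̄(M q q)` and the involution `w_q = s37w_al M q` of level `M q`:

* `s36w_al2 M q hq hqM : ffi_F (M * q * q) ≃ₐ[Q̄] ffi_F (M * q * q)`,
  `j(q^(qⁱ d)) ↦ j(q^(q^(2-i) d))` (`d ∣ M`), an involution (`s36w_al2_al2`);
* `s36w_al2_alpha : w_{q²} (α' y) = β' (w_q y)`, `s36w_al2_beta : w_{q²} (β' y) = α' (w_q y)`.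
-/
import Fermat.Agent.Lib.S36.WAtkinQ

set_option autoImplicit false

namespace Fermat.Agent.Lib.S36

open ModularCurve Fermat.Agent.Lib.FF Fermat.Agent.Lib.S28 Fermat.Agent.Lib.S37

noncomputable section

set_option linter.unusedSectionVars false

local notation "Kb" => AlgebraicClosure ℚ

variable (M q : ℕ) [NeZero M] [NeZero q]

theorem s36w_coprime_sq (hq : q.Prime) (hqM : ¬ q ∣ M) : Nat.Coprime (q * q) M :=
  Nat.Coprime.mul_left ((Nat.Prime.coprime_iff_not_dvd hq).mpr hqM)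
    ((Nat.Prime.coprime_iff_not_dvd hq).mpr hqM)

/-- **The Atkin–Lehner involution `w_{q²}`** of `F̄(M q²)` (`q` prime, `q ∤ M`). -/
def s36w_al2 (hq : q.Prime) (hqM : ¬ q ∣ M) : ffi_F (M * q * q) ≃ₐ[Kb] ffi_F (M * q * q) :=
  s36w_alQ (M * q * q) M (q * q) (mul_assoc M q q) (s36w_coprime_sq M q hq hqM)

theorem s36w_al2_al2 (hq : q.Prime) (hqM : ¬ q ∣ M) (x : ffi_F (M * q * q)) :
    s36w_al2 M q hq hqM (s36w_al2 M q hq hqM x) = x :=
  s36w_alQ_alQ _ _ _ _ _ x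

/-- on generators: for `D = a d`, `a ∣ q²`, `d ∣ M`: `w_{q²} j(q^(a d)) = j(q^((q²/a) d))`. -/
theorem s36w_al2_gen (hq : q.Prime) (hqM : ¬ q ∣ M) (D D' : s28w_Idx (M * q * q)) {a d : ℕ}
    (ha : a ∣ q * q) (hd : d ∣ M) (hD : D.1 = a * d) (hD' : D'.1 = q * q / a * d)
    (x : ffi_F (M * q * q)) (hx : (x : LaurentSeries Kb) = s37w_gen (M * q * q) D) :
    ((s36w_al2 M q hq hqM x : ffi_F (M * q * q)) : LaurentSeries Kb) =
      s37w_gen (M * q * q) D' :=
  s36w_alQ_gen_of_eq _ _ _ _ _ D D' ha hd hD hD' x hx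

/-- **`w_{q²} ∘ α' = β' ∘ w_q`.** -/
theorem s36w_al2_alpha (hq : q.Prime) (hqM : ¬ q ∣ M) (y : ffi_F (M * q)) :
    s36w_al2 M q hq hqM (heckeAlphaBar Kb (M * q) q y) =
      heckeBetaBar Kb (M * q) q (s37w_al M q hq hqM y) := by
  have key : ((s36w_al2 M q hq hqM : ffi_F (M * q * q) →ₐ[Kb] ffi_F (M * q * q)).comp
      (heckeAlphaBar Kb (M * q) q)) =
      (heckeBetaBar Kb (M * q) q).comp
        (s37w_al M q hq hqM : ffi_F (M * q) →ₐ[Kb] ffi_F (M * q)) := by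
    refine s37w_algHom_ext (M * q) _ _ fun δ x hx => ?_
    apply Subtype.ext
    rw [AlgHom.comp_apply, AlgHom.comp_apply]
    -- the right-hand side
    have hR : ((heckeBetaBar Kb (M * q) q (s37w_al M q hq hqM x) : ffi_F (M * q * q)) :
        LaurentSeries Kb) =
        coeffEmb Kb (qExpand ℚ ((s37w_alCo M q hq δ).1 * q) jq) := by
      rw [coe_heckeBetaBar]
      have h1 := s37w_al_gen M q hq hqM δ x hx
      show qExpand Kb q ((s37w_al M q hq hqM x : ffi_F (M * q)) : LaurentSeries Kb) = _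
      rw [h1, s37w_gen_qExpand]
    -- the left-hand side
    let D : s28w_Idx (M * q * q) := ⟨δ.1, δ.2.trans (dvd_mul_right (M * q) q)⟩
    have hL1 : ((heckeAlphaBar Kb (M * q) q x : ffi_F (M * q * q)) : LaurentSeries Kb) =
        s37w_gen (M * q * q) D := by
      rw [coe_heckeAlphaBar, hx]; rfl
    let D' : s28w_Idx (M * q * q) := ⟨(s37w_alCo M q hq δ).1 * q,
      Nat.mul_dvd_mul_right (s37w_alCo M q hq δ).2 q⟩
    refine Eq.trans ?_ hR.symm
    show ((s36w_al2 M q hq hqM (heckeAlphaBar Kb (M * q) q x) : ffi_F (M * q * q)) :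
      LaurentSeries Kb) = s37w_gen (M * q * q) D'
    by_cases h : q ∣ δ.1
    · -- `δ = q d`
      have hd : δ.1 / q ∣ M := s37w_div_dvd_of_dvd M q hq δ h
      have hD : D.1 = q * (δ.1 / q) := (Nat.mul_div_cancel' h).symm
      have hD' : D'.1 = q * q / q * (δ.1 / q) := by
        show (s37w_alCo M q hq δ).1 * q = _
        rw [s37w_alCo_of_dvd M q hq δ h, Nat.mul_div_cancel _ hq.pos, mul_comm]
      exact s36w_al2_gen M q hq hqM D D' (dvd_mul_right q q) hd hD hD' _ hL1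
    · -- `δ = d ∣ M`
      have hd : δ.1 ∣ M := s37w_dvd_of_not_dvd M q hq δ h
      have hD : D.1 = 1 * δ.1 := (one_mul _).symm
      have hD' : D'.1 = q * q / 1 * δ.1 := by
        show (s37w_alCo M q hq δ).1 * q = _
        rw [s37w_alCo_of_not_dvd M q hq δ h, Nat.div_one]
        ring
      exact s36w_al2_gen M q hq hqM D D' (one_dvd _) hd hD hD' _ hL1
  exact AlgHom.congr_fun key y

/-- **`w_{q²} ∘ β' = α' ∘ w_q`.** -/
theorem s36w_al2_beta (hq : q.Prime) (hqM : ¬ q ∣ M) (y : ffi_F (M * q)) :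
    s36w_al2 M q hq hqM (heckeBetaBar Kb (M * q) q y) =
      heckeAlphaBar Kb (M * q) q (s37w_al M q hq hqM y) := by
  have h1 := s36w_al2_alpha M q hq hqM (s37w_al M q hq hqM y)
  rw [s37w_al_al] at h1
  rw [← h1, s36w_al2_al2]

end

end Fermat.Agent.Lib.S36
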