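/-
S36 project, WIRING side (helper1, prefix `s36w_`), [B3′]: **the eigen-module of a newform of
level `M q` dies under `α_*` and `β_*`, with NO hypothesis `q ∤ M`.**

* `s36w_alphaT`, `s36w_betaT : s30a_TJ (M * q) lam →ₗ[ℤ_[lam]] s30a_TJ M lam` — the push-forwards
  of `Defs.lean` on the Tate modules; Galois equivariance `s36w_alphaT_rho`, `s36w_betaT_rho`;
  Hecke equivariance on eigenvectors `s36w_alphaT_eigen`, `s36w_betaT_eigen` (Frobenius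
  subtraction `s35c_TpMap_hecke` of S35, which is level-agnostic).
* `s36w_B3` : for a newform `g` of level `M * q` (`q` prime, `M` ARBITRARY) every joint
  eigenvector `w ∈ O' ⊗ T_lam J₀(M q)` for the eigenvalues of `g` satisfies
  `(1 ⊗ α_*) w = 0 = (1 ⊗ β_*) w`.  Same proof as `s35c_B3` (S35): (CONV) + descent of the
  character to `ℂ` + eigenform + strong multiplicity one against newness.
-/
import Fermat.Agent.Lib.S36.WFinite
import Fermat.Agent.Lib.S35.B3Final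
import Fermat.Agent.Lib.S35.ParTate

set_option autoImplicit false
set_option linter.unusedSectionVars false
set_option linter.style.haveILetI false

open ModularFormClass CongruenceSubgroup
open scoped TensorProduct

noncomputable section

namespace Fermat.Agent.Lib.S36

open ModularCurve AlgebraicCurve Fermat.Agent.Lib.S29 Fermat.Agent.Lib.S30 Fermat.Agent.Lib.S35

/-- **(CONV)** is a theorem (same proof as `s35c_conv`; restated here to keep the import closure of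
the S36 wiring independent of the S35 geometry). -/
theorem s36w_conv : s35c_Conv :=
  s35c_conv_of_parInf (fun N _ p _ x => s35p_kinf_parabolic N p x)

section Tate

variable (M q : ℕ) [NeZero M] [NeZero q] (lam : ℕ) [Fact lam.Prime]

/-- **`α_*` on the Tate modules** (arbitrary `M, q`). -/
def s36w_alphaT : s30a_TJ (M * q) lam →ₗ[ℤ_[lam]] s30a_TJ M lam :=
  s35c_TpMap (s36w_alphaPush M q)

/-- **`β_*` on the Tate modules** (arbitrary `M, q`). -/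
def s36w_betaT : s30a_TJ (M * q) lam →ₗ[ℤ_[lam]] s30a_TJ M lam :=
  s35c_TpMap (s36w_betaPush M q)

@[simp] theorem s36w_alphaT_coe (x : s30a_TJ (M * q) lam) (n : ℕ) :
    ((s36w_alphaT M q lam x : s30a_TJ M lam) : ℕ → JZero M) n =
      s36w_alphaPush M q ((x : ℕ → JZero (M * q)) n) := rfl

@[simp] theorem s36w_betaT_coe (x : s30a_TJ (M * q) lam) (n : ℕ) :
    ((s36w_betaT M q lam x : s30a_TJ M lam) : ℕ → JZero M) n =
      s36w_betaPush M q ((x : ℕ → JZero (M * q)) n) := rfl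

/-- `α_* x = 0` on the Tate module iff all components die. -/
theorem s36w_alphaT_eq_zero_iff (x : s30a_TJ (M * q) lam) :
    s36w_alphaT M q lam x = 0 ↔ ∀ n, s36w_alphaPush M q ((x : ℕ → JZero (M * q)) n) = 0 :=
  s35c_TpMap_eq_zero_iff _ x

/-- `β_* x = 0` on the Tate module iff all components die. -/
theorem s36w_betaT_eq_zero_iff (x : s30a_TJ (M * q) lam) :
    s36w_betaT M q lam x = 0 ↔ ∀ n, s36w_betaPush M q ((x : ℕ → JZero (M * q)) n) = 0 :=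
  s35c_TpMap_eq_zero_iff _ x

/-- `α_*` commutes with the Galois action on the Tate modules. -/
theorem s36w_alphaT_rho (σ : s29k_G) (x : s30a_TJ (M * q) lam) :
    s36w_alphaT M q lam (s30a_rho (M * q) lam σ x) =
      s30a_rho M lam σ (s36w_alphaT M q lam x) := by
  refine s30a_ext fun n => ?_
  show s36w_alphaPush M q (σ • (x : ℕ → JZero (M * q)) n) =
    σ • s36w_alphaPush M q ((x : ℕ → JZero (M * q)) n)
  exact s36w_alphaPush_smul M q σ _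

/-- `β_*` commutes with the Galois action on the Tate modules. -/
theorem s36w_betaT_rho (σ : s29k_G) (x : s30a_TJ (M * q) lam) :
    s36w_betaT M q lam (s30a_rho (M * q) lam σ x) =
      s30a_rho M lam σ (s36w_betaT M q lam x) := by
  refine s30a_ext fun n => ?_
  show s36w_betaPush M q (σ • (x : ℕ → JZero (M * q)) n) =
    σ • s36w_betaPush M q ((x : ℕ → JZero (M * q)) n)
  exact s36w_betaPush_smul M q σ _

variable (𝒪 : Type*) [CommRing 𝒪] [Algebra ℤ_[lam] 𝒪]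

/-- `α_*` maps eigenvectors of `T_ℓ` at level `M q` to eigenvectors of `T_ℓ` at level `M`. -/
theorem s36w_alphaT_eigen (ℓ : Nat.Primes) (hℓ : ¬ (ℓ : ℕ) ∣ M * q * lam) (a : 𝒪)
    (w : 𝒪 ⊗[ℤ_[lam]] s30a_TJ (M * q) lam)
    (hw : (s30a_Tz (M * q) lam ℓ).baseChange 𝒪 w = a • w) :
    (s30a_Tz M lam ℓ).baseChange 𝒪 ((s36w_alphaT M q lam).baseChange 𝒪 w) =
      a • (s36w_alphaT M q lam).baseChange 𝒪 w :=
  s35c_eigen_of_hecke 𝒪 _ _ _
    (s35c_TpMap_hecke M q lam _ (s36w_alphaPush_smul M q) ℓ hℓ) a w hw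

/-- `β_*` maps eigenvectors of `T_ℓ` at level `M q` to eigenvectors of `T_ℓ` at level `M`. -/
theorem s36w_betaT_eigen (ℓ : Nat.Primes) (hℓ : ¬ (ℓ : ℕ) ∣ M * q * lam) (a : 𝒪)
    (w : 𝒪 ⊗[ℤ_[lam]] s30a_TJ (M * q) lam)
    (hw : (s30a_Tz (M * q) lam ℓ).baseChange 𝒪 w = a • w) :
    (s30a_Tz M lam ℓ).baseChange 𝒪 ((s36w_betaT M q lam).baseChange 𝒪 w) =
      a • (s36w_betaT M q lam).baseChange 𝒪 w :=
  s35c_eigen_of_hecke 𝒪 _ _ _
    (s35c_TpMap_hecke M q lam _ (s36w_betaPush_smul M q) ℓ hℓ) a w hw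

end Tate

section Main

variable (M q : ℕ) [NeZero M] [NeZero q] (hq : q.Prime)
variable {g : CuspForm (Gamma0 (M * q)) 2} (hg : g.IsNewform)
variable (lam : ℕ) [Fact lam.Prime] (S : Finset ℕ)
variable (O' : Type) [CommRing O'] [IsDomain O'] [CharZero O'] [Algebra ℤ_[lam] O']
variable (chig : CuspForm.heckeAlgebra (M * q) 2 (↑S : Set ℕ) →+* ℂ)
  (hchig : ∀ (ℓ : ℕ) (hℓ : ℓ.Prime) (hℓM : ¬ ℓ ∣ M * q) (hℓS : ℓ ∉ (↑S : Set ℕ)),
    chig (CuspForm.heckeAlgebra.T hℓ hℓM hℓS) = qCoeff g ℓ)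
  (iota : chig.range →+* O')
  (hlamS : lam ∈ S) (hMS : ∀ p : ℕ, p.Prime → p ∣ M * q → p ∈ S)

include hq hg hchig hlamS hMS in
/-- the common core of the two halves of [B3′]: a Tate-module map
`f : T_lam J₀(M q) → T_lam J₀(M)` which sends `T_ℓ`-eigenvectors to `T_ℓ`-eigenvectors (for
`ℓ ∤ M q lam`) kills the eigen-module of the newform `g` (`M` arbitrary). -/
theorem s36w_B3_aux (f : s30a_TJ (M * q) lam →ₗ[ℤ_[lam]] s30a_TJ M lam)
    (hf : ∀ (ℓ : Nat.Primes), ¬ (ℓ : ℕ) ∣ M * q * lam → ∀ (a : O')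
      (w : O' ⊗[ℤ_[lam]] s30a_TJ (M * q) lam),
      (s30a_Tz (M * q) lam ℓ).baseChange O' w = a • w →
      (s30a_Tz M lam ℓ).baseChange O' (f.baseChange O' w) = a • f.baseChange O' w)
    (w : O' ⊗[ℤ_[lam]] s30a_TJ (M * q) lam)
    (hw : ∀ (ℓ : ℕ) (hℓ : ℓ.Prime) (hℓM : ¬ ℓ ∣ M * q) (hℓS : ℓ ∉ (↑S : Set ℕ)),
      (s30a_Tz (M * q) lam ⟨ℓ, hℓ⟩).baseChange O' w =
        (iota.comp chig.rangeRestrict) (CuspForm.heckeAlgebra.T hℓ hℓM hℓS) • w) :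
    f.baseChange O' w = 0 := by
  classical
  by_contra hne
  -- the eigenvalues, as elements of `chig.range`
  set cR : ℕ → chig.range := fun ℓ =>
    if h : ℓ.Prime ∧ ¬ ℓ ∣ M * q ∧ ℓ ∉ (↑S : Set ℕ) then
      chig.rangeRestrict (CuspForm.heckeAlgebra.T h.1 h.2.1 h.2.2) else 0 with hcR
  have hcR_pos : ∀ (ℓ : ℕ) (hℓ : ℓ.Prime) (hℓM : ¬ ℓ ∣ M * q) (hℓS : ℓ ∉ (↑S : Set ℕ)),
      cR ℓ = chig.rangeRestrict (CuspForm.heckeAlgebra.T hℓ hℓM hℓS) := by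
    intro ℓ hℓ hℓM hℓS
    rw [hcR]
    exact dif_pos ⟨hℓ, hℓM, hℓS⟩
  -- primes outside `S`
  have hgood : ∀ ℓ : ℕ, ℓ.Prime → ℓ ∉ (↑S : Set ℕ) → ¬ ℓ ∣ M * q ∧ ¬ ℓ ∣ M * q * lam := by
    intro ℓ hℓ hℓS
    have h1 : ¬ ℓ ∣ M * q := fun h => hℓS (Finset.mem_coe.mpr (hMS ℓ hℓ h))
    refine ⟨h1, fun h => ?_⟩
    rcases (Nat.Prime.dvd_mul hℓ).mp h with h2 | h2
    · exact h1 h2
    · have : ℓ = lam := (Nat.prime_dvd_prime_iff_eq hℓ (Fact.out : lam.Prime)).mp h2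
      exact hℓS (this ▸ Finset.mem_coe.mpr hlamS)
  have hNS : ∀ p : ℕ, p.Prime → p ∣ M → p ∈ (↑S : Set ℕ) := fun p hp hpM =>
    Finset.mem_coe.mpr (hMS p hp (Dvd.dvd.mul_right hpM q))
  -- `w' = (1 ⊗ f) w` is a joint eigenvector at level `M`
  have hw' : ∀ (ℓ : ℕ) (hℓ : ℓ.Prime), ¬ ℓ ∣ M → ℓ ∉ (↑S : Set ℕ) →
      (s30a_Tz M lam ⟨ℓ, hℓ⟩).baseChange O' (f.baseChange O' w) =
        iota (cR ℓ) • f.baseChange O' w := by
    intro ℓ hℓ _ hℓS
    obtain ⟨h1, h2⟩ := hgood ℓ hℓ hℓS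
    rw [hcR_pos ℓ hℓ h1 hℓS]
    exact hf ⟨ℓ, hℓ⟩ h2 _ w (hw ℓ hℓ h1 hℓS)
  -- (CONV)
  obtain ⟨χ', hχ'⟩ := s36w_conv M lam (↑S : Set ℕ) hNS O' (fun ℓ => iota (cR ℓ))
    (f.baseChange O' w) hne hw'
  -- descent to `ℂ`
  obtain ⟨χ, hχ⟩ := s35c_char_descend chig iota hNS cR χ' hχ'
  -- a cusp form of level `M` with this eigen-system
  obtain ⟨h, hh0, hh⟩ := s35c_exists_form_of_char (↑S : Set ℕ) χ
  obtain ⟨g', hg', hg'c⟩ := s35c_exists_eigenform (↑S : Set ℕ) (fun ℓ => (cR ℓ : ℂ)) h hh0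
    (fun ℓ hℓ hℓM hℓS => by rw [hh ℓ hℓ hℓM hℓS, hχ ℓ hℓ hℓM hℓS])
  -- strong multiplicity one against newness
  have hMq0 : M * q ≠ 0 := NeZero.ne (M * q)
  have hMne : M ≠ M * q := by
    intro h0
    have h1 : M * 1 = M * q := by rw [mul_one]; exact h0
    have h2 := Nat.eq_of_mul_eq_mul_left (Nat.pos_of_ne_zero (NeZero.ne M)) h1
    exact hq.one_lt.ne h2
  refine s35e_not_newform hMq0 hg hg' (Dvd.intro q rfl) hMne S ?_
  intro ℓ hℓ hℓMq hℓS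
  have hℓS' : ℓ ∉ (↑S : Set ℕ) := fun h0 => hℓS (Finset.mem_coe.mp h0)
  have hℓM : ¬ ℓ ∣ M := fun h0 => hℓMq (Dvd.dvd.mul_right h0 q)
  rw [hg'c ℓ hℓ hℓM hℓS', hcR_pos ℓ hℓ hℓMq hℓS', ← hchig ℓ hℓ hℓMq hℓS']
  rfl

include hq hg hchig hlamS hMS in
/-- **[B3′]**: the eigen-module of a newform of level `M q` (`q` prime, `M` arbitrary) dies under
`α_*` and `β_*`. -/
theorem s36w_B3 (w : O' ⊗[ℤ_[lam]] s30a_TJ (M * q) lam)
    (hw : ∀ (ℓ : ℕ) (hℓ : ℓ.Prime) (hℓM : ¬ ℓ ∣ M * q) (hℓS : ℓ ∉ (↑S : Set ℕ)),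
      (s30a_Tz (M * q) lam ⟨ℓ, hℓ⟩).baseChange O' w =
        (iota.comp chig.rangeRestrict) (CuspForm.heckeAlgebra.T hℓ hℓM hℓS) • w) :
    (s36w_alphaT M q lam).baseChange O' w = 0 ∧
      (s36w_betaT M q lam).baseChange O' w = 0 :=
  ⟨s36w_B3_aux M q hq hg lam S O' chig hchig iota hlamS hMS _
      (fun ℓ hℓ a w hw => s36w_alphaT_eigen M q lam O' ℓ hℓ a w hw) w hw,
    s36w_B3_aux M q hq hg lam S O' chig hchig iota hlamS hMS _
      (fun ℓ hℓ a w hw => s36w_betaT_eigen M q lam O' ℓ hℓ a w hw) w hw⟩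

end Main

end Fermat.Agent.Lib.S36
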