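/-
S36 project, layer (M), contract (C1) for helper6 (helper1, prefix `s36w_`), part 1:
GENERAL SUBSTITUTION EMBEDDINGS of `F̄(L) = Q̄(j(q^d) : d ∣ L) ⊆ Q̄((q))` into `Q̄((q))`
(generalisation of `Lib/S37/WSubst.lean`: the images of the generators are arbitrary Laurent series).

Input: target series `g d ∈ Q̄((q))`, functions `Gf d : ℍ → ℂ` with Laurent expansion `g d`, and a
SURJECTIVE map `H : ℍ → ℍ` with `j(d · H z) = Gf d z`.  Output: the `Q̄`-algebra embedding
`s36w_substHomG : F̄(L) →ₐ Q̄((q))` with `j(q^d) ↦ g d` ("expansion of `f ∘ H`").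
-/
import Fermat.Agent.Lib.S37.WSubst

set_option autoImplicit false

namespace Fermat.Agent.Lib.S36

open UpperHalfPlane hiding I
open Complex ModularCurve Fermat.Agent.Lib.FF Fermat.Agent.Lib.S28 Fermat.Agent.Lib.S37
open scoped MatrixGroups

noncomputable section

set_option linter.unusedSectionVars false

local notation "Kb" => AlgebraicClosure ℚ

variable (L : ℕ) [NeZero L] (g : s28w_Idx L → LaurentSeries Kb) (Gf : s28w_Idx L → ℍ → ℂ)

/-- Evaluation `X_d ↦ g d`. -/
def s36w_evG : MvPolynomial (s28w_Idx L) Kb →ₐ[Kb] LaurentSeries Kb :=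
  MvPolynomial.aeval g

/-- The functions `z ↦ P(Gf d z)`. -/
def s36w_fnG (P : MvPolynomial (s28w_Idx L) Kb) : ℍ → ℂ := fun z =>
  MvPolynomial.eval₂ ffb_iota (fun d : s28w_Idx L => Gf d z) P

variable (hG : ∀ d, ffb_IsLaurent (Gf d) (coeffMap ffb_iota (g d)))

include hG in
theorem s36w_isLaurent_fnG (P : MvPolynomial (s28w_Idx L) Kb) :
    ffb_IsLaurent (s36w_fnG L Gf P) (coeffMap ffb_iota (s36w_evG L g P)) := by
  induction P using MvPolynomial.induction_on with
  | C a =>
    have h1 : s36w_fnG L Gf (MvPolynomial.C a) = fun _ => ffb_iota a := by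
      funext z
      simp [s36w_fnG]
    have h2 : s36w_evG L g (MvPolynomial.C a) = algebraMap Kb (LaurentSeries Kb) a := by
      simp [s36w_evG]
    rw [h1, h2, ffb_coeffMap_iota_algebraMap]
    exact ffb_IsLaurent.const _
  | add p q hp hq =>
    have h1 : s36w_fnG L Gf (p + q) = s36w_fnG L Gf p + s36w_fnG L Gf q := by
      funext z
      simp [s36w_fnG]
    rw [h1, map_add, map_add]
    exact hp.add hq
  | mul_X p d hp =>
    have h1 : s36w_fnG L Gf (p * MvPolynomial.X d) = s36w_fnG L Gf p * Gf d := by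
      funext z
      simp [s36w_fnG]
    have h2 : s36w_evG L g (p * MvPolynomial.X d) = s36w_evG L g p * g d := by
      simp [s36w_evG]
    rw [h1, h2, map_mul]
    exact hp.mul (hG d)

variable (H : ℍ → ℍ) (hH : ∀ (d : s28w_Idx L) (z : ℍ), ffb_jd d.1 (H z) = Gf d z)

include hH in
theorem s36w_fnG_eq (P : MvPolynomial (s28w_Idx L) Kb) (z : ℍ) :
    s36w_fnG L Gf P z = s37w_fn L P (H z) := by
  unfold s36w_fnG s37w_fn
  simp only [hH]

include hG hH in
/-- relations between the `j(q^d)` are relations between the `g d`. -/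
theorem s36w_kerG_le (P : MvPolynomial (s28w_Idx L) Kb) (h : s37w_ev L P = 0) :
    s36w_evG L g P = 0 := by
  have h1 := s37w_isLaurent_fn L P
  rw [h, map_zero] at h1
  have h2 : s37w_fn L P = 0 := h1.eq_zero
  have h3 : s36w_fnG L Gf P = 0 := by
    funext z
    rw [s36w_fnG_eq L Gf H hH, h2]
    rfl
  have h4 := s36w_isLaurent_fnG L g Gf hG P
  rw [h3] at h4
  have h6 := h4.unique ffg_isLaurent_zero
  apply ffb_coeffMap_injective _ ffb_iota_injective
  rw [h6, map_zero]

variable (hsurj : Function.Surjective H)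

include hG hH hsurj in
/-- conversely (`H` surjective). -/
theorem s36w_kerG_ge (P : MvPolynomial (s28w_Idx L) Kb) (h : s36w_evG L g P = 0) :
    s37w_ev L P = 0 := by
  have h4 := s36w_isLaurent_fnG L g Gf hG P
  rw [h, map_zero] at h4
  have h3 : s36w_fnG L Gf P = 0 := h4.eq_zero
  have h2 : s37w_fn L P = 0 := by
    funext z
    obtain ⟨z', rfl⟩ := hsurj z
    rw [← s36w_fnG_eq L Gf H hH, h3]
    rfl
  have h1 := s37w_isLaurent_fn L P
  rw [h2] at h1
  have h6 := h1.unique ffg_isLaurent_zero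
  apply ffb_coeffMap_injective _ ffb_iota_injective
  rw [h6, map_zero]

/-- The substitution map on `B = Q̄[j(q^d) : d ∣ L]`. -/
def s36w_gBG : ffg_A L →ₐ[Kb] LaurentSeries Kb :=
  AlgHom.liftOfSurjective (s37w_evB L) (s37w_evB_surjective L) (s36w_evG L g) (by
    intro P hP
    rw [RingHom.mem_ker] at hP ⊢
    have h1 : s37w_ev L P = 0 := by
      have := congrArg (fun b : ffg_A L => (b : LaurentSeries Kb)) hP
      exact this
    exact s36w_kerG_le L g Gf hG H hH P h1)

theorem s36w_gBG_evB (P : MvPolynomial (s28w_Idx L) Kb) :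
    s36w_gBG L g Gf hG H hH (s37w_evB L P) = s36w_evG L g P :=
  AlgHom.liftOfSurjective_apply _ _ _ _ P

include hsurj in
theorem s36w_gBG_injective : Function.Injective (s36w_gBG L g Gf hG H hH) := by
  rw [injective_iff_map_eq_zero]
  intro b hb
  obtain ⟨P, rfl⟩ := s37w_evB_surjective L b
  rw [s36w_gBG_evB] at hb
  apply Subtype.ext
  rw [s37w_evB_coe, s36w_kerG_ge L g Gf hG H hH hsurj P hb]
  rfl

/-- **The substitution embedding** `F̄(L) → Q̄((q))`, `j(q^d) ↦ g d`. -/
def s36w_substHomG : ffi_F L →ₐ[Kb] LaurentSeries Kb :=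
  IsFractionRing.liftAlgHom (A := ffg_A L) (K := ffi_F L) (g := s36w_gBG L g Gf hG H hH)
    (s36w_gBG_injective L g Gf hG H hH hsurj)

theorem s36w_substHomG_algebraMap (b : ffg_A L) :
    s36w_substHomG L g Gf hG H hH hsurj (algebraMap (ffg_A L) (ffi_F L) b) =
      s36w_gBG L g Gf hG H hH b := by
  unfold s36w_substHomG
  rw [IsFractionRing.liftAlgHom_apply, IsFractionRing.lift_algebraMap]
  rfl

theorem s36w_gBG_gen (d : s28w_Idx L) :
    s36w_gBG L g Gf hG H hH ⟨s37w_gen L d, s37w_gen_mem_A L d⟩ = g d := by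
  have h1 : (⟨s37w_gen L d, s37w_gen_mem_A L d⟩ : ffg_A L) =
      s37w_evB L (MvPolynomial.X d) := by
    apply Subtype.ext
    rw [s37w_evB_coe]
    simp [s37w_ev]
  rw [h1, s36w_gBG_evB]
  simp [s36w_evG]

/-- **On generators**: `j(q^d) ↦ g d`. -/
theorem s36w_substHomG_gen (d : s28w_Idx L)
    (x : ffi_F L) (hx : (x : LaurentSeries Kb) = s37w_gen L d) :
    s36w_substHomG L g Gf hG H hH hsurj x = g d := by
  have h1 : x = algebraMap (ffg_A L) (ffi_F L) ⟨s37w_gen L d, s37w_gen_mem_A L d⟩ := by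
    apply Subtype.ext
    rw [hx]
    rfl
  rw [h1, s36w_substHomG_algebraMap, s36w_gBG_gen]

end

end Fermat.Agent.Lib.S36
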