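/-
S36 project, layer (M), contract (C1) for helper6 (helper1, prefix `s36w_`), part 2:
THE `q`-EXPANSION AT THE MIDDLE CUSP `1/(qM)` OF LEVEL `M q²` OVER `Q̄`.

For `γ = (1,0; q M a, 1) ∈ SL₂(ℤ)` (`a` chosen below) one has `j(D γ z) = j(D z)` for `D ∣ M q` and
`j(q² d γ z) = j(d (z + k/q))` for `d ∣ M` (`k M a ≡ 1 mod q`); the expansion of `f ∘ γ` is the
embedding `ι̂ : F̄(M q q) → Q̄((T))`, `j(T^D) ↦ j(T^D)`, `j(T^(d q q)) ↦ j((ξ T)^d)`, where
`ξ ∈ Q̄` is ANY primitive `q`-th root of unity (`ffb_iota ξ = exp(2πi k/q)` defines `k`).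

Export: `s36m_cuspEmb : s36m_CuspEmb M q` (helper6's contract, `MContracts.lean`).
-/
import Fermat.Agent.Lib.S37.WAtkin
import Fermat.Agent.Lib.S28.MBridge
import Fermat.Agent.Lib.S36.MContracts
import Fermat.Agent.Lib.S36.WSubstGen

set_option autoImplicit false

namespace Fermat.Agent.Lib.S36

open UpperHalfPlane hiding I
open Complex ModularCurve Fermat.Agent.Lib.FF Fermat.Agent.Lib.S28 Fermat.Agent.Lib.S37
open scoped MatrixGroups

noncomputable section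

set_option linter.unusedSectionVars false

local notation "Kb" => AlgebraicClosure ℚ

/-! ### Small tools -/

theorem s36w_dmul_one (z : ℍ) : ffb_dmul 1 z = z := by
  apply UpperHalfPlane.ext
  rw [ffb_dmul_coe]
  simp

theorem s36w_qExpand_congr {a b : ℕ} [NeZero a] [NeZero b] (h : a = b) (x : LaurentSeries ℚ) :
    qExpand ℚ a x = qExpand ℚ b x := by
  subst h
  rfl

theorem s36w_jd_congr {a b : ℕ} [NeZero a] [NeZero b] (h : a = b) (z : ℍ) :
    ffb_jd a z = ffb_jd b z := by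
  subst h
  rfl

/-- helper6's twist is helper9's twist. -/
theorem s36w_twist_eq_tw {K : Type*} [Field K] (ξ : Kˣ) (x : LaurentSeries K) :
    s36m_twist ξ x = s28m_tw ξ x := by
  ext n
  rw [s36m_twist_coeff, s28m_tw_coeff]

theorem s36w_coeffMap_twist (ξ : Kbˣ) (x : LaurentSeries Kb) :
    coeffMap ffb_iota (s36m_twist ξ x) =
      s28m_tw (Units.map (ffb_iota : Kb →* ℂ) ξ) (coeffMap ffb_iota x) := by
  rw [s36w_twist_eq_tw, s28m_coeffMap_tw]

/-- the index `d` of `D = d q²` with a built-in `NeZero` instance. -/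
def s36w_midE (q D : ℕ) : ℕ := D / (q * q) - 1 + 1

instance s36w_midE_neZero (q D : ℕ) : NeZero (s36w_midE q D) := ⟨Nat.succ_ne_zero _⟩

theorem s36w_midE_mul (q d : ℕ) [NeZero q] [NeZero d] : s36w_midE q (d * q * q) = d := by
  have hq : 0 < q * q := Nat.mul_pos (NeZero.pos q) (NeZero.pos q)
  have hd : 0 < d := NeZero.pos d
  rw [s36w_midE, mul_assoc, Nat.mul_div_cancel _ hq]
  omega

/-- divisors of `M q²` not dividing `M q` are `d q²`, `d ∣ M`. -/
theorem s36w_mid_classify (M q : ℕ) (hq : q.Prime) (D : ℕ) (hD : D ∣ M * q * q)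
    (hD' : ¬ D ∣ M * q) : ∃ d, d ∣ M ∧ D = d * q * q := by
  rw [mul_assoc] at hD
  obtain ⟨d, e, hd, he, rfl⟩ := Nat.dvd_mul.mp hD
  rw [← pow_two] at he
  obtain ⟨k, hk, rfl⟩ := (Nat.dvd_prime_pow hq).mp he
  interval_cases k
  · exfalso
    apply hD'
    rw [pow_zero, mul_one]
    exact hd.mul_right q
  · exfalso
    apply hD'
    rw [pow_one]
    exact Nat.mul_dvd_mul_right hd q
  · exact ⟨d, hd, by rw [pow_two, mul_assoc]⟩

/-! ### The two matrix identities -/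

/-- `D · (γ z) = γ' (D z)` for `γ = (1,0;n,1)`, `n = c D`, `γ' = (1,0;c,1)`. -/
theorem s36w_mid_low (D : ℕ) [NeZero D] (n c : ℤ) (hn : n = c * D) (γ γ' : SL(2, ℤ))
    (g00 : γ 0 0 = 1) (g01 : γ 0 1 = 0) (g10 : γ 1 0 = n) (g11 : γ 1 1 = 1)
    (g00' : γ' 0 0 = 1) (g01' : γ' 0 1 = 0) (g10' : γ' 1 0 = c) (g11' : γ' 1 1 = 1) (z : ℍ) :
    ffb_jd D (γ • z) = ffb_jd D z := by
  have key : ffb_dmul D (γ • ffb_dmul 1 z) = γ' • ffb_dmul D z := by
    refine s37w_dmul_smul_dmul D 1 D γ γ' 1 one_ne_zero ?_ ?_ ?_ ?_ z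
    · rw [g00, g00']; push_cast; ring
    · rw [g01, g01']; ring
    · rw [g10, g10', hn]; push_cast; ring
    · rw [g11, g11']; ring
  rw [s36w_dmul_one] at key
  rw [ffb_jd_apply, ffb_jd_apply, key, ffj_smul]

/-- `q² d · (γ z) = A (d (z + k/q))` for `γ = (1,0;q m,1)`, `m = d c'`, `q y + k m = 1`,
`A = (q, -k d; c', y)`. -/
theorem s36w_mid_high (d q k : ℕ) [NeZero d] [NeZero q] (m c' y : ℤ) (hm : m = d * c')
    (hbez : (q : ℤ) * y + k * m = 1) (γ A : SL(2, ℤ))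
    (g00 : γ 0 0 = 1) (g01 : γ 0 1 = 0) (g10 : γ 1 0 = q * m) (g11 : γ 1 1 = 1)
    (a00 : A 0 0 = q) (a01 : A 0 1 = -(k * d)) (a10 : A 1 0 = c') (a11 : A 1 1 = y) (z : ℍ) :
    ffb_jd (d * q * q) (γ • z) = ffb_jd d (((k : ℝ) / (q : ℝ)) +ᵥ z) := by
  have key : ffb_dmul (d * q * q) (γ • z) = A • ffb_dmul d (((k : ℝ) / (q : ℝ)) +ᵥ z) := by
    apply UpperHalfPlane.ext
    rw [ffb_dmul_coe, coe_specialLinearGroup_apply, coe_specialLinearGroup_apply, ffb_dmul_coe,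
      UpperHalfPlane.coe_vadd]
    simp only [algebraMap_int_eq, Int.coe_castRingHom, ofReal_intCast]
    rw [g00, g01, g10, g11, a00, a01, a10, a11]
    have hA : (((q : ℤ) * m : ℤ) : ℂ) * (z : ℂ) + ((1 : ℤ) : ℂ) ≠ 0 := by
      have := UpperHalfPlane.denom_ne_zero γ z
      simpa [UpperHalfPlane.denom, g10, g11] using this
    have hB : ((c' : ℤ) : ℂ) * ((d : ℂ) * ((((k : ℝ) / (q : ℝ) : ℝ) : ℂ) + (z : ℂ))) +
        ((y : ℤ) : ℂ) ≠ 0 := by
      have := UpperHalfPlane.denom_ne_zero A (ffb_dmul d (((k : ℝ) / (q : ℝ)) +ᵥ z))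
      simpa [UpperHalfPlane.denom, a10, a11, UpperHalfPlane.coe_vadd] using this
    have hq0 : (q : ℂ) ≠ 0 := Nat.cast_ne_zero.mpr (NeZero.ne q)
    set r' : ℂ := (((k : ℝ) / (q : ℝ) : ℝ) : ℂ) with hr'
    have hr : (q : ℂ) * r' = (k : ℂ) := by
      rw [hr']
      push_cast
      field_simp
    have hmC : ((m : ℤ) : ℂ) = (d : ℂ) * ((c' : ℤ) : ℂ) := by
      rw [hm]; push_cast; ring
    have hbezC : (q : ℂ) * ((y : ℤ) : ℂ) + ((q : ℂ) * r') * ((d : ℂ) * ((c' : ℤ) : ℂ)) = 1 := by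
      rw [hr, ← hmC]
      exact_mod_cast congrArg (Int.cast : ℤ → ℂ) hbez
    rw [mul_div_assoc', div_eq_div_iff hA hB]
    push_cast
    rw [hmC, ← hr]
    linear_combination ((d : ℂ) * (q : ℂ) * (z : ℂ)) * hbezC
  rw [ffb_jd_apply, ffb_jd_apply, key, ffj_smul]

/-! ### The data of the middle cusp and the assembly -/

section Assembly

variable (M q : ℕ) [NeZero M] [NeZero q] (ξ : Kbˣ) (r : ℝ)

open Classical in
/-- the target series: `j(T^D)` for `D ∣ M q`, `j((ξ T)^d)` for `D = d q²`. -/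
def s36w_midG (D : s28w_Idx (M * q * q)) : LaurentSeries Kb :=
  if D.1 ∣ M * q then s37w_gen (M * q * q) D
  else s36m_twist ξ (coeffEmb Kb (qExpand ℚ (s36w_midE q D.1) jq))

open Classical in
/-- the target functions: `j(D z)` for `D ∣ M q`, `j(d (z + r))` for `D = d q²`. -/
def s36w_midF (D : s28w_Idx (M * q * q)) : ℍ → ℂ :=
  if D.1 ∣ M * q then ffb_jd D.1 else fun z => ffb_jd (s36w_midE q D.1) (r +ᵥ z)

theorem s36w_midF_isLaurent (hξr : Units.map (ffb_iota : Kb →* ℂ) ξ = s28m_eUnit r)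
    (D : s28w_Idx (M * q * q)) :
    ffb_IsLaurent (s36w_midF M q r D) (coeffMap ffb_iota (s36w_midG M q ξ D)) := by
  by_cases h : D.1 ∣ M * q
  · rw [s36w_midF, s36w_midG, if_pos h, if_pos h, s37w_coeffMap_gen]
    exact ffb_isLaurent_jd D.1
  · rw [s36w_midF, s36w_midG, if_neg h, if_neg h, s36w_coeffMap_twist, hξr,
      ffb_coeffMap_iota_coeffEmb]
    exact s28m_isLaurent_vadd (ffb_isLaurent_jd (s36w_midE q D.1)) r

/-- **Contract (C1)**: the `q`-expansion at the middle cusp of level `M q²` over `Q̄`. -/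
theorem s36m_cuspEmb (hq : q.Prime) (hqM : ¬ q ∣ M) : s36m_CuspEmb M q := by
  classical
  -- a primitive `q`-th root of unity of `Q̄`
  obtain ⟨ξ0, hξ0⟩ := HasEnoughRootsOfUnity.exists_primitiveRoot Kb q
  have hξ0ne : ξ0 ≠ 0 := hξ0.ne_zero (NeZero.ne q)
  set ξ : Kbˣ := Units.mk0 ξ0 hξ0ne with hξdef
  have hξ : IsPrimitiveRoot (ξ : Kb) q := by rw [hξdef, Units.val_mk0]; exact hξ0
  -- its exponent `k`
  have hιξ : IsPrimitiveRoot (ffb_iota (ξ : Kb)) q := hξ.map_of_injective ffb_iota_injective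
  obtain ⟨k, -, hkcop, hk⟩ := (Complex.isPrimitiveRoot_iff _ q (NeZero.ne q)).mp hιξ
  set r : ℝ := (k : ℝ) / (q : ℝ) with hr
  have hξr : Units.map (ffb_iota : Kb →* ℂ) ξ = s28m_eUnit r := by
    apply Units.ext
    rw [s28m_eUnit_coe, hr]
    push_cast
    exact hk.symm
  -- Bezout
  have hcop : Nat.Coprime q (k * M) :=
    Nat.Coprime.mul_right hkcop.symm ((Nat.Prime.coprime_iff_not_dvd hq).mpr hqM)
  obtain ⟨y, a, hbez⟩ : ∃ y a : ℤ, (q : ℤ) * y + (k : ℤ) * ((M : ℤ) * a) = 1 := by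
    have h := Int.gcd_eq_gcd_ab (q : ℤ) ((k * M : ℕ) : ℤ)
    have hg : Int.gcd (q : ℤ) ((k * M : ℕ) : ℤ) = 1 := by
      rw [Int.gcd_natCast_natCast]; exact hcop
    rw [hg] at h
    refine ⟨Int.gcdA q ((k * M : ℕ) : ℤ), Int.gcdB q ((k * M : ℕ) : ℤ), ?_⟩
    have h' : (1 : ℤ) = (q : ℤ) * Int.gcdA q ((k * M : ℕ) : ℤ) +
        ((k * M : ℕ) : ℤ) * Int.gcdB q ((k * M : ℕ) : ℤ) := by exact_mod_cast h
    rw [h']
    push_cast
    ring
  set m : ℤ := (M : ℤ) * a with hm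
  let γ : SL(2, ℤ) := ⟨!![1, 0; (q : ℤ) * m, 1], by
    rw [Matrix.det_fin_two_of]; ring⟩
  have g00 : γ 0 0 = 1 := rfl
  have g01 : γ 0 1 = 0 := rfl
  have g10 : γ 1 0 = (q : ℤ) * m := rfl
  have g11 : γ 1 1 = 1 := rfl
  have hH : ∀ (D : s28w_Idx (M * q * q)) (z : ℍ),
      ffb_jd D.1 ((fun z : ℍ => γ • z) z) = s36w_midF M q r D z := by
    intro D z
    show ffb_jd D.1 (γ • z) = s36w_midF M q r D z
    by_cases h : D.1 ∣ M * q
    · rw [s36w_midF, if_pos h]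
      obtain ⟨c'', hc''⟩ := h
      let γ' : SL(2, ℤ) := ⟨!![1, 0; (c'' : ℤ) * a, 1], by
        rw [Matrix.det_fin_two_of]; ring⟩
      refine s36w_mid_low D.1 ((q : ℤ) * m) ((c'' : ℤ) * a) ?_ γ γ' g00 g01 g10 g11 rfl rfl rfl rfl z
      have hc : ((M * q : ℕ) : ℤ) = (D.1 : ℤ) * (c'' : ℤ) := by exact_mod_cast hc''
      rw [hm]
      push_cast at hc
      linear_combination a * hc
    · rw [s36w_midF, if_neg h]
      obtain ⟨d, hd, hD⟩ := s36w_mid_classify M q hq D.1 D.2 h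
      have : NeZero d := ⟨fun h0 => NeZero.ne M (by
        obtain ⟨c, hc⟩ := hd
        rw [hc, h0, zero_mul])⟩
      obtain ⟨c', hc'⟩ := hd
      let A : SL(2, ℤ) := ⟨!![(q : ℤ), -((k : ℤ) * (d : ℤ)); (c' : ℤ) * a, y], by
        rw [Matrix.det_fin_two_of]
        have hM : (M : ℤ) = (d : ℤ) * (c' : ℤ) := by exact_mod_cast hc'
        have hb := hbez
        rw [hm, hM] at hb
        linear_combination hb⟩
      have h1 := s36w_mid_high d q k m ((c' : ℤ) * a) y (by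
          have hM : (M : ℤ) = (d : ℤ) * (c' : ℤ) := by exact_mod_cast hc'
          rw [hm, hM]; ring) hbez γ A g00 g01 g10 g11 rfl rfl rfl rfl z
      have hE : s36w_midE q D.1 = d := by rw [hD]; exact s36w_midE_mul q d
      show ffb_jd D.1 (γ • z) = ffb_jd (s36w_midE q D.1) (r +ᵥ z)
      rw [s36w_jd_congr hD, s36w_jd_congr hE]
      exact h1
  have hsurj : Function.Surjective (fun z : ℍ => γ • z) := fun z => ⟨γ⁻¹ • z, smul_inv_smul γ z⟩
  refine ⟨ξ, hξ, s36w_substHomG (M * q * q) (s36w_midG M q ξ) (s36w_midF M q r)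
    (s36w_midF_isLaurent M q ξ r hξr) (fun z : ℍ => γ • z) hH hsurj, ?_, ?_⟩
  · intro D _ hD x hx
    have hDL : D ∣ M * q * q := hD.trans (dvd_mul_right _ q)
    have h1 := s36w_substHomG_gen (M * q * q) (s36w_midG M q ξ) (s36w_midF M q r)
      (s36w_midF_isLaurent M q ξ r hξr) (fun z : ℍ => γ • z) hH hsurj ⟨D, hDL⟩ x hx
    rw [h1, s36w_midG, if_pos hD]
    rfl
  · intro d _ hd x hx
    have hDL : d * q * q ∣ M * q * q := Nat.mul_dvd_mul_right (Nat.mul_dvd_mul_right hd q) q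
    have hnot : ¬ d * q * q ∣ M * q := by
      intro h
      apply hqM
      have h2 : d * q ∣ M := Nat.dvd_of_mul_dvd_mul_right hq.pos h
      exact (dvd_mul_left q d).trans h2
    have h1 := s36w_substHomG_gen (M * q * q) (s36w_midG M q ξ) (s36w_midF M q r)
      (s36w_midF_isLaurent M q ξ r hξr) (fun z : ℍ => γ • z) hH hsurj ⟨d * q * q, hDL⟩ x hx
    rw [h1, s36w_midG, if_neg hnot, s36w_qExpand_congr (s36w_midE_mul q d)]

end Assembly

end

end Fermat.Agent.Lib.S36
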