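/-
S36 project, WIRING side (helper1, prefix `s36w_`), [W4]: DESCENT `O' ⊗ Λ → Λ → J[lam^n]`.

* generic (`R` a PID, `A` a torsion-free `R`-algebra, e.g. `ℤ_[lam] → O'`):
  `s36w_exists_indep_repr` : every `w ∈ A ⊗[R] Λ` is `∑ e_k ⊗ x_k` with `(e_k)` LINEARLY INDEPENDENT
  over `R`; `s36w_eq_zero_of_sum_tmul` : for such `e` and a free `Λ'`, `∑ e_k ⊗ x_k = 0` forces all
  `x_k = 0`; `s36w_descent` : if on `Λ` the common kernel of a family of endomorphisms `fs i` and of
  two maps `α, β : Λ → Λ₁` is killed by an endomorphism `h`, then the same holds after `A ⊗ -`.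
  (No finiteness of `A` over `R` and no finiteness of the family is needed.)
* `s36w_tate_frobFix` : [NN₁] on the Tate module: `x ∈ T_lam J₀(M' q²)` fixed by the inertia group
  of `P ∣ q` and killed by `α_*, β_*` is fixed by every Frobenius lift at `P`.
* `s36w_baseChange_frobFix` : the same on `O' ⊗ T_lam J₀(M' q²)`.
-/
import Fermat.Agent.Lib.S36.WB3
import Fermat.Agent.Lib.S35.Bridge
import Fermat.Agent.Lib.S30.TateKinf

set_option autoImplicit false
set_option linter.unusedSectionVars false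
set_option linter.style.haveILetI false

open scoped TensorProduct

noncomputable section

namespace Fermat.Agent.Lib.S36

open ModularCurve AlgebraicCurve Fermat.Agent.Lib.S29 Fermat.Agent.Lib.S30 Fermat.Agent.Lib.S35

/-! ### Generic descent -/

section Generic

variable {R : Type} [CommRing R]

/-- over a free module with a finite basis `b`, every tensor is `∑ b_k ⊗ x_k`. -/
theorem s36w_exists_repr_of_basis {C : Type} [AddCommGroup C] [Module R C] {κ : Type} [Fintype κ]
    (b : Module.Basis κ R C) {Λ : Type} [AddCommGroup Λ] [Module R Λ] (w : C ⊗[R] Λ) :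
    ∃ x : κ → Λ, w = ∑ k, b k ⊗ₜ[R] x k := by
  induction w using TensorProduct.induction_on with
  | zero => exact ⟨0, by simp⟩
  | tmul c y =>
    refine ⟨fun k => b.repr c k • y, ?_⟩
    conv_lhs => rw [← b.sum_repr c]
    rw [TensorProduct.sum_tmul]
    refine Finset.sum_congr rfl fun k _ => ?_
    rw [TensorProduct.smul_tmul]
  | add w₁ w₂ h₁ h₂ =>
    obtain ⟨x₁, rfl⟩ := h₁
    obtain ⟨x₂, rfl⟩ := h₂
    refine ⟨x₁ + x₂, ?_⟩
    rw [← Finset.sum_add_distrib]
    refine Finset.sum_congr rfl fun k _ => ?_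
    rw [Pi.add_apply, TensorProduct.tmul_add]

variable [IsDomain R] [IsPrincipalIdealRing R]
  {A : Type} [CommRing A] [Algebra R A] [Module.IsTorsionFree R A]

/-- every element of `A ⊗[R] Λ` is `∑ e_k ⊗ x_k` with `(e_k)` linearly independent over `R`. -/
theorem s36w_exists_indep_repr {Λ : Type} [AddCommGroup Λ] [Module R Λ] (w : A ⊗[R] Λ) :
    ∃ (κ : Type) (_ : Fintype κ) (e : κ → A) (x : κ → Λ),
      LinearIndependent R e ∧ w = ∑ k, e k ⊗ₜ[R] x k := by
  obtain ⟨C, hfin, hC⟩ := TensorProduct.exists_finite_submodule_left_of_setFinite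
    ({w} : Set (A ⊗[R] Λ)) (Set.finite_singleton w)
  obtain ⟨w', hw'⟩ := hC (Set.mem_singleton w)
  haveI := hfin
  haveI : Module.Free R C := Module.free_of_finite_type_torsion_free'
  let b := Module.Free.chooseBasis R C
  obtain ⟨x, hx⟩ := s36w_exists_repr_of_basis b w'
  refine ⟨Module.Free.ChooseBasisIndex R C, inferInstance, fun k => (b k : A), x, ?_, ?_⟩
  · exact b.linearIndependent.map' C.subtype (Submodule.ker_subtype C)
  · rw [← hw', hx, map_sum]
    refine Finset.sum_congr rfl fun k _ => ?_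
    rw [LinearMap.rTensor_tmul]
    rfl

omit [IsDomain R] [IsPrincipalIdealRing R] [Module.IsTorsionFree R A] in
/-- if `(e_k)` is linearly independent over `R` and `Λ'` is free, `∑ e_k ⊗ x_k = 0` in `A ⊗ Λ'`
forces `x_k = 0` for all `k`. -/
theorem s36w_eq_zero_of_sum_tmul {κ : Type} [Fintype κ] (e : κ → A) (he : LinearIndependent R e)
    {Λ' : Type} [AddCommGroup Λ'] [Module R Λ'] [Module.Free R Λ'] (x : κ → Λ')
    (h : ∑ k, e k ⊗ₜ[R] x k = 0) (k : κ) : x k = 0 := by
  classical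
  let b := Module.Free.chooseBasis R Λ'
  let B := Algebra.TensorProduct.basis A b
  apply b.repr.injective
  rw [map_zero]
  ext i
  rw [Finsupp.zero_apply]
  have hi : B.repr (∑ k, e k ⊗ₜ[R] x k) i = 0 := by rw [h, map_zero, Finsupp.zero_apply]
  rw [map_sum, Finsupp.finset_sum_apply] at hi
  have hi' : ∑ k, (b.repr (x k) i) • e k = 0 := by
    rw [← hi]
    refine Finset.sum_congr rfl fun k _ => ?_
    rw [Algebra.TensorProduct.basis_repr_tmul, Finsupp.smul_apply, Finsupp.mapRange_apply,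
      smul_eq_mul, Algebra.smul_def, mul_comm]
  exact Fintype.linearIndependent_iff.mp he (fun k => b.repr (x k) i) hi' k

/-- **generic descent**: if on `Λ` the common kernel of the endomorphisms `fs i` and of
`α, β : Λ → Λ₁` is killed by `h`, then so it is on `A ⊗[R] Λ`. -/
theorem s36w_descent {Λ Λ₁ : Type} [AddCommGroup Λ] [Module R Λ] [Module.Free R Λ]
    [AddCommGroup Λ₁] [Module R Λ₁] [Module.Free R Λ₁]
    {ι : Type*} (fs : ι → Module.End R Λ) (α β : Λ →ₗ[R] Λ₁) (h : Module.End R Λ)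
    (hker : ∀ x : Λ, (∀ i, fs i x = 0) → α x = 0 → β x = 0 → h x = 0)
    (w : A ⊗[R] Λ) (hfs : ∀ i, (fs i).baseChange A w = 0) (hα : α.baseChange A w = 0)
    (hβ : β.baseChange A w = 0) : h.baseChange A w = 0 := by
  obtain ⟨κ, _, e, x, he, rfl⟩ := s36w_exists_indep_repr (A := A) w
  have hbc : ∀ {Λ₂ : Type} [AddCommGroup Λ₂] [Module R Λ₂] (f : Λ →ₗ[R] Λ₂),
      f.baseChange A (∑ k, e k ⊗ₜ[R] x k) = ∑ k, e k ⊗ₜ[R] f (x k) := by
    intro Λ₂ _ _ f
    rw [map_sum]
    refine Finset.sum_congr rfl fun k _ => ?_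
    rw [LinearMap.baseChange_tmul]
  have h1 : ∀ i k, fs i (x k) = 0 := fun i k =>
    s36w_eq_zero_of_sum_tmul e he (fun k => fs i (x k)) (by rw [← hbc]; exact hfs i) k
  have h2 : ∀ k, α (x k) = 0 := fun k =>
    s36w_eq_zero_of_sum_tmul e he (fun k => α (x k)) (by rw [← hbc]; exact hα) k
  have h3 : ∀ k, β (x k) = 0 := fun k =>
    s36w_eq_zero_of_sum_tmul e he (fun k => β (x k)) (by rw [← hbc]; exact hβ) k
  rw [hbc]
  refine Finset.sum_eq_zero fun k _ => ?_
  rw [hker (x k) (fun i => h1 i k) (h2 k) (h3 k), TensorProduct.tmul_zero]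

end Generic

/-! ### [NN₁] on the Tate module -/

section Tate

variable (hNN : s36_NN1) (M' q lam : ℕ) [NeZero M'] [NeZero q] [Fact lam.Prime]
  (hq : q.Prime) (hql : q ≠ lam) (hqM' : ¬ q ∣ M')
  (P : ValuationSubring (AlgebraicClosure ℚ)) (hP : P.LiesOverPrime q)
  (φ : s29k_G) (hφ : P.IsFrobeniusAt φ q)

include hNN hq hql hqM' hP hφ in
/-- **[NN₁] on the Tate module**: an element of `T_lam J₀(M' q²)` fixed by the inertia group of
`P ∣ q` and killed by `α_*`, `β_*` is fixed by every Frobenius lift at `P`. -/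
theorem s36w_tate_frobFix (x : s30a_TJ (M' * q * q) lam)
    (hI : ∀ σ ∈ P.inertiaSubgroupIn ℚ, s30a_rho (M' * q * q) lam σ x = x)
    (hα : s36w_alphaT (M' * q) q lam x = 0) (hβ : s36w_betaT (M' * q) q lam x = 0) :
    s30a_rho (M' * q * q) lam φ x = x := by
  obtain ⟨c, hc⟩ := hNN M' q lam hq hql hqM'
  have hα' := (s36w_alphaT_eq_zero_iff (M' * q) q lam x).mp hα
  have hβ' := (s36w_betaT_eq_zero_iff (M' * q) q lam x).mp hβ
  have key : ∀ m : ℕ, (lam ^ c) • (φ • (x : ℕ → JZero (M' * q * q)) m -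
      (x : ℕ → JZero (M' * q * q)) m) = 0 := by
    intro m
    refine hc P hP φ hφ m ((x : ℕ → JZero (M' * q * q)) m) (s30a_pow_smul x m) ?_ (hα' m) (hβ' m)
    intro σ hσ
    have h1 := congrArg (fun y : s30a_TJ (M' * q * q) lam => (y : ℕ → JZero (M' * q * q)) m)
      (hI σ hσ)
    exact h1
  refine s30a_ext fun n => ?_
  rw [s30a_rho_apply]
  have h1 := key (c + n)
  have h2 : (lam ^ c) • (φ • (x : ℕ → JZero (M' * q * q)) (c + n)) =
      φ • (x : ℕ → JZero (M' * q * q)) n := by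
    rw [← s30a_pow_smul_add x c n, smul_comm]
  rw [nsmul_sub, h2, s30a_pow_smul_add x c n, sub_eq_zero] at h1
  exact h1

variable (O' : Type) [CommRing O'] [IsDomain O'] [CharZero O'] [Algebra ℤ_[lam] O']

include hNN hq hql hqM' hP hφ in
/-- **[NN₁] on `O' ⊗ T_lam J₀(M' q²)`**. -/
theorem s36w_baseChange_frobFix (w : O' ⊗[ℤ_[lam]] s30a_TJ (M' * q * q) lam)
    (hI : ∀ σ ∈ P.inertiaSubgroupIn ℚ, (s30a_rho (M' * q * q) lam σ).baseChange O' w = w)
    (hα : (s36w_alphaT (M' * q) q lam).baseChange O' w = 0)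
    (hβ : (s36w_betaT (M' * q) q lam).baseChange O' w = 0) :
    (s30a_rho (M' * q * q) lam φ).baseChange O' w = w := by
  haveI : Module.IsTorsionFree ℤ_[lam] O' := s35k_padic_torsionFree lam O'
  have hsub : ∀ f : Module.End ℤ_[lam] (s30a_TJ (M' * q * q) lam),
      (f - 1).baseChange O' w = f.baseChange O' w - w := by
    intro f
    rw [LinearMap.baseChange_sub, LinearMap.sub_apply, LinearMap.baseChange_one,
      Module.End.one_apply]
  have hmain := s36w_descent (A := O')
    (fun σ : {σ : s29k_G // σ ∈ P.inertiaSubgroupIn ℚ} =>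
      (s30a_rho (M' * q * q) lam σ.1 - 1 : Module.End ℤ_[lam] (s30a_TJ (M' * q * q) lam)))
    (s36w_alphaT (M' * q) q lam) (s36w_betaT (M' * q) q lam)
    (s30a_rho (M' * q * q) lam φ - 1)
    (by
      intro x hx hαx hβx
      rw [LinearMap.sub_apply, Module.End.one_apply, sub_eq_zero]
      refine s36w_tate_frobFix hNN M' q lam hq hql hqM' P hP φ hφ x ?_ hαx hβx
      intro σ hσ
      have := hx ⟨σ, hσ⟩
      rw [LinearMap.sub_apply, Module.End.one_apply, sub_eq_zero] at this
      exact this)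
    w
    (by
      intro σ
      rw [hsub, sub_eq_zero]
      exact hI σ.1 σ.2)
    hα hβ
  rw [hsub, sub_eq_zero] at hmain
  exact hmain

end Tate

end Fermat.Agent.Lib.S36
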