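/-
S36 project, WIRING side (helper1): the INTERNAL contract between the two wiring seats.

* `s36_FrobFix` : **[FROB-FIX]** for a newform `g` of level `M`, a prime `q ≠ lam` with
  `M.factorization q = 2`, a place `P ∣ q` of `ℚ̄` and a Frobenius lift `φ` at `P`: every joint
  eigenvector `w ∈ O' ⊗ T_lam J₀(M)` for the eigenvalues of `g` (at the good primes `ℓ ∉ S`) which
  is fixed by the inertia group of `P` is fixed by `φ`.
  (The `ℤ_[lam]`-algebra structure of `O'` is an arbitrary instance argument, as in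
  `s35_WeakLocal`.)
  - PRODUCED by helper1: `s36w_frobFix_of_NN1 : s36_NN1 → s36_FrobFix`
    ([B3′] at `q ∣ M` puts the eigen-module into `ker α_* ∩ ker β_*`, descent `O' ⊗ Λ → Λ → J[lam^n]`,
    then [NN₁] componentwise).
  - CONSUMED by helper3: `s36_of_frobFix : s36_FrobFix → <frozen S36>`
    (Skel variant exporting `t, d`, anticommutation chain, tame relation, `hres`).
-/
import Fermat.Agent.Lib.S30.TateDatum
import Fermat.Prelude.Def_CuspForm_Newforms

set_option autoImplicit false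

open scoped TensorProduct

namespace Fermat.Agent.Lib.S36

open Fermat.Agent.Lib.S29 Fermat.Agent.Lib.S30

/-- **[FROB-FIX]**, the contract between the two halves of the S36 wiring. -/
def s36_FrobFix : Prop :=
  ∀ {M : ℕ} [NeZero M] {g : CuspForm (CongruenceSubgroup.Gamma0 M) 2} (_ : g.IsNewform)
    (lam : ℕ) [Fact lam.Prime] (S : Finset ℕ)
    (O' : Type) [CommRing O'] [IsDomain O'] [IsDiscreteValuationRing O']
    [IsAdicComplete (IsLocalRing.maximalIdeal O') O'] [Finite (IsLocalRing.ResidueField O')]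
    [CharZero O'] [Algebra ℤ_[lam] O'] (_ : (lam : O') ∈ IsLocalRing.maximalIdeal O')
    (chig : CuspForm.heckeAlgebra M 2 (↑S : Set ℕ) →+* ℂ)
    (_ : ∀ (ℓ : ℕ) (hℓ : ℓ.Prime) (hℓM : ¬ ℓ ∣ M) (hℓS : ℓ ∉ (↑S : Set ℕ)),
      chig (CuspForm.heckeAlgebra.T hℓ hℓM hℓS) = ModularFormClass.qCoeff g ℓ)
    (iota : chig.range →+* O')
    (_ : lam ∈ S) (_ : ∀ q : ℕ, q.Prime → q ∣ M → q ∈ S)
    (q : ℕ), q.Prime → q ≠ lam → M.factorization q = 2 →
    ∀ P : ValuationSubring (AlgebraicClosure ℚ), P.LiesOverPrime q →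
      ∀ φ : s29k_G, P.IsFrobeniusAt φ q →
        ∀ w : O' ⊗[ℤ_[lam]] (s30u_tateDatum M lam).Λ,
          (∀ (ℓ : ℕ) (hℓ : ℓ.Prime) (hℓM : ¬ ℓ ∣ M) (hℓS : ℓ ∉ (↑S : Set ℕ)),
            ((s30u_tateDatum M lam).T ⟨ℓ, hℓ⟩).baseChange O' w =
              (iota.comp chig.rangeRestrict) (CuspForm.heckeAlgebra.T hℓ hℓM hℓS) • w) →
          (∀ σ ∈ P.inertiaSubgroupIn ℚ, ((s30u_tateDatum M lam).ρ σ).baseChange O' w = w) →
          ((s30u_tateDatum M lam).ρ φ).baseChange O' w = w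

end Fermat.Agent.Lib.S36
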