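/-
S36 project, WIRING side (helper1, prefix `s36w_`): **`s36w_frobFix_of_NN1 : s36_NN1 → s36_FrobFix`**.

For a newform `g` of level `M` with `M.factorization q = 2` write `M = M' * q * q`, `q ∤ M'`.
[B3′] (`s36w_B3`, level `(M' q) q`) puts every joint eigenvector `w ∈ O' ⊗ T_lam J₀(M)` for the
eigenvalues of `g` into `ker (1 ⊗ α_*) ∩ ker (1 ⊗ β_*)`; if moreover `w` is fixed by the inertia
group of `P ∣ q`, the descent `s36w_baseChange_frobFix` and [NN₁] give `φ w = w` for every Frobenius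
lift `φ` at `P`.
-/
import Fermat.Agent.Lib.S36.WDescent
import Fermat.Agent.Lib.S36.WIface

set_option autoImplicit false
set_option linter.unusedSectionVars false
set_option linter.style.haveILetI false

open scoped TensorProduct

noncomputable section

namespace Fermat.Agent.Lib.S36

open ModularCurve AlgebraicCurve Fermat.Agent.Lib.S29 Fermat.Agent.Lib.S30 Fermat.Agent.Lib.S35

/-- `M.factorization q = 2` means `M = M' q²` with `q ∤ M'`. -/
theorem s36w_exists_level {M q : ℕ} (hM : M ≠ 0) (hq : q.Prime) (hfac : M.factorization q = 2) :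
    ∃ M' : ℕ, M = M' * q * q ∧ ¬ q ∣ M' := by
  refine ⟨M / q ^ M.factorization q, ?_, Nat.not_dvd_ordCompl hq hM⟩
  have h := Nat.ordProj_mul_ordCompl_eq_self M q
  rw [hfac] at h ⊢
  rw [← h]
  have hq2 : 0 < q ^ 2 := pow_pos hq.pos 2
  rw [Nat.mul_div_cancel_left _ hq2]
  ring

/-- **[FROB-FIX] from [NN₁].** -/
theorem s36w_frobFix_of_NN1 (hNN : s36_NN1) : s36_FrobFix := by
  intro M _ g hg lam _ S O' _ _ _ _ _ _ _ _ chig hchig iota hlamS hMS q hq hql hfac P hP φ hφ w hw hI
  obtain ⟨M', hM', hqM'⟩ := s36w_exists_level (NeZero.ne M) hq hfac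
  subst hM'
  haveI : NeZero q := ⟨hq.ne_zero⟩
  haveI : NeZero M' := ⟨fun h0 => by
    apply NeZero.ne (M' * q * q)
    rw [h0, zero_mul, zero_mul]⟩
  obtain ⟨hα, hβ⟩ := s36w_B3 (M' * q) q hq hg lam S O' chig hchig iota hlamS hMS w hw
  exact s36w_baseChange_frobFix hNN M' q lam hq hql hqM' P hP φ hφ O' w hI hα hβ

end Fermat.Agent.Lib.S36
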