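/-
S36 mega-project, layer (X1) (helper1), part 16: **the base function with EVERYTHING**: lead's
`s36qf_base_full` (`QFracBase.lean`) + which `q`-expansion was chosen (request (R1) of helper6,
board #1804) + its Hauptmodul relation + the `ℓ` of the Eisenstein package at the polar points of
the middle component (`XMidHaupt.lean`, `XBaseEll.lean`).

* `s36b_hauptRel_of_coe` : the relation `j xᵃ = P(x)` from the `q`-expansion of `x`;
* **`s36b_base_full_all`** : `∃ x hx`, [the five conjuncts of `s36qf_base_full`] ∧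
  `((x : K₀((T))) = j ∨ (q = 3 ∧ (x : K₀((T))) = t₂) ∨ (q = 2 ∧ (x : K₀((T))) = t₃))` ∧
  `s36b_HauptRel M x` ∧ `s36b_MidEll G φ M q hq hqM (α'(α x))`.
-/
import Fermat.Agent.Lib.S36.XBaseEll

set_option autoImplicit false
set_option linter.unusedSectionVars false
set_option linter.style.haveILetI false
set_option synthInstance.maxHeartbeats 400000

noncomputable section

namespace Fermat.Agent.Lib.S36

open ModularCurve AlgebraicCurve Polynomial Fermat.Agent.Lib.FF Fermat.Agent.Lib.S18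
  Fermat.Agent.Lib.S28 Fermat.Agent.Lib.S37 Fermat.Agent.Lib.S34 Fermat.Agent.Lib.S35

local notation "Kb" => AlgebraicClosure ℚ

/-- the Hauptmodul relation from the `q`-expansion. -/
theorem s36b_hauptRel_of_coe {K₀ : Type} [Field K₀] [Algebra ℚ K₀] [CharZero K₀] (M : ℕ)
    [NeZero M] (x : s34m_F K₀ M)
    (h : (x : LaurentSeries K₀) = jqModC K₀ ∨ (x : LaurentSeries K₀) = s18u_t2 K₀ ∨
      (x : LaurentSeries K₀) = s18u_t3 K₀) : s36b_HauptRel M x := by
  rcases h with h | h | h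
  · exact ⟨X, 0, monic_X, natDegree_X,
      s34e_cusp_rel_of_coe M X 0 (jqModC K₀) (by rw [pow_zero, mul_one, aeval_X]) x h⟩
  · have hH := s18b_haupt_two K₀
    exact ⟨_, 2, hH.monic, hH.deg, s34e_cusp_rel_of_coe M _ 2 (s18u_t2 K₀) hH.rel x h⟩
  · have hH := s18b_haupt_three K₀
    exact ⟨_, 3, hH.monic, hH.deg, s34e_cusp_rel_of_coe M _ 3 (s18u_t3 K₀) hH.rel x h⟩

variable (K₀ : Type) [Field K₀] [NumberField K₀] (φ : K₀ →+* Kb)

/-- **The base function with all its global properties, its `q`-expansion, its Hauptmodul relation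
and the `ℓ` of the Eisenstein package at the polar points of the middle component.** -/
theorem s36b_base_full_all (M q : ℕ) [NeZero M] [NeZero q] (hq : q.Prime) (hqM : ¬ q ∣ M)
    (h : 5 ≤ q ∨ (q = 3 ∧ 2 ∣ M) ∨ (q = 2 ∧ 3 ∣ M))
    (κ : Type) [Field κ] [CharP κ q] [PerfectField κ]
    (G : s18g_GaussData K₀ κ) [IsDiscreteValuationRing G.A] (hπ : Function.Surjective G.π) :
    ∃ (x : s34m_F K₀ M) (hx : x ∈ s34m_Vinf G M),
      s35g_BaseData G φ M q hq hqM (heckeAlphaBar K₀ M q x) ∧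
      (∀ Q : Place K₀ (s34m_F K₀ (M * q * q)),
        s36g_alpha M q (heckeAlphaBar K₀ M q x) ∈ Q.toValuationSubring ↔
          s36g_beta M q (heckeAlphaBar K₀ M q x) ∈ Q.toValuationSubring) ∧
      qExpand κ q (s34m_redInf G M ⟨x, hx⟩) = s34m_redInf G M ⟨x, hx⟩ ^ q ∧
      (∀ Q : Place K₀ (s34m_F K₀ (M * q * q)),
        (s36g_alpha M q (heckeAlphaBar K₀ M q x))⁻¹ ∈ Q.toValuationSubring →
        s36g_alpha M q (heckeBetaBar K₀ M q x) *
            (s36g_alpha M q (heckeAlphaBar K₀ M q x))⁻¹ ^ q ∈ Q.toValuationSubring ∧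
          s36g_beta M q (heckeBetaBar K₀ M q x) *
            (s36g_alpha M q (heckeAlphaBar K₀ M q x))⁻¹ ^ (q * q) ∈ Q.toValuationSubring) ∧
      Transcendental κ (s34m_redInf G M ⟨x, hx⟩) ∧
      ((x : LaurentSeries K₀) = jqModC K₀ ∨ (q = 3 ∧ (x : LaurentSeries K₀) = s18u_t2 K₀) ∨
        (q = 2 ∧ (x : LaurentSeries K₀) = s18u_t3 K₀)) ∧
      s36b_HauptRel M x ∧
      s36b_MidEll G φ M q hq hqM (s36g_alpha M q (heckeAlphaBar K₀ M q x)) := by
  haveI : Fact q.Prime := ⟨hq⟩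
  -- the first six conjuncts, branch by branch (the proof of `s36qf_base_full` + the expansion)
  have key : ∃ (x : s34m_F K₀ M) (hx : x ∈ s34m_Vinf G M),
      s35g_BaseData G φ M q hq hqM (heckeAlphaBar K₀ M q x) ∧
      (∀ Q : Place K₀ (s34m_F K₀ (M * q * q)),
        s36g_alpha M q (heckeAlphaBar K₀ M q x) ∈ Q.toValuationSubring ↔
          s36g_beta M q (heckeAlphaBar K₀ M q x) ∈ Q.toValuationSubring) ∧
      qExpand κ q (s34m_redInf G M ⟨x, hx⟩) = s34m_redInf G M ⟨x, hx⟩ ^ q ∧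
      (∀ Q : Place K₀ (s34m_F K₀ (M * q * q)),
        (s36g_alpha M q (heckeAlphaBar K₀ M q x))⁻¹ ∈ Q.toValuationSubring →
        s36g_alpha M q (heckeBetaBar K₀ M q x) *
            (s36g_alpha M q (heckeAlphaBar K₀ M q x))⁻¹ ^ q ∈ Q.toValuationSubring ∧
          s36g_beta M q (heckeBetaBar K₀ M q x) *
            (s36g_alpha M q (heckeAlphaBar K₀ M q x))⁻¹ ^ (q * q) ∈ Q.toValuationSubring) ∧
      Transcendental κ (s34m_redInf G M ⟨x, hx⟩) ∧
      ((x : LaurentSeries K₀) = jqModC K₀ ∨ (q = 3 ∧ (x : LaurentSeries K₀) = s18u_t2 K₀) ∨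
        (q = 2 ∧ (x : LaurentSeries K₀) = s18u_t3 K₀)) := by
    rcases h with h5 | ⟨rfl, h2M⟩ | ⟨rfl, h3M⟩
    · have hdeg : s18g_HDeg K₀ (M * q) := fun n b hb hn =>
        s18g_exists_relation (M * q) φ hn b hb
      have e : heckeAlphaBar K₀ M q (s18g_jF (K := K₀) M) = s18g_jF (K := K₀) (M * q) :=
        s34d2_alpha_j M q
      refine ⟨s18g_jF (K := K₀) M, s34m_jF_mem_Vinf G M, ?_, ?_, ?_,
        fun Q hQ => s36p_reg_j φ M q hq hqM Q hQ, ?_, Or.inl (s18g_coe_jF (K := K₀) M)⟩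
      · rw [e]
        exact ⟨s18g_jF_ne_zero (M * q), s18b_ffGen_jF (M * q) hdeg,
          s34m_jF_mem_VV G φ M q hq hqM, s34m_jF_inv_mem_VV G φ M q hq hqM,
          fun σ₀ => s34f_galois_jF (M * q) σ₀, s34f_alpha_j G φ M q hq hqM,
          s34f_alpha_inv G φ M q hq hqM, s35g_chartData_five_j1 M q hq hqM K₀ φ κ G hπ h5,
          s35g_chartData_five_j2 M q hq hqM K₀ φ κ G hπ h5⟩
      · rw [e]
        exact s36p_sat_j φ M q hq
      · rw [s34m_redInf_jF]
        exact s34df_qExpand_jqModC q hq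
      · rw [s34m_redInf_jF]
        exact s28v_transcendental_jqModC κ
    · obtain ⟨tM, htM, ⟨hwV, hred⟩, hwinvV, hgen, hgeninv, hwt, hw0, hgenN, hwO, hwO', hfix, hα,
        hα'⟩ := s34m_base_t2 G φ M 3 hq hqM h2M (by norm_num)
      haveI := hgen
      haveI := hgeninv
      have hred' : s34m_redInf G M ⟨tM, hwV⟩ = s18u_t2 κ := hred
      refine ⟨tM, hwV, ⟨hw0, hgenN, hwO, hwO', hfix, hα, hα',
        s35g_chartData_t2_1 M 3 hq hqM K₀ φ κ G hπ rfl h2M tM htM hwV hred,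
        s35g_chartData_t2_2 M 3 hq hqM K₀ φ κ G hπ rfl h2M tM htM hwV hwinvV hred⟩,
        s36p_sat_t2 G φ M 3 hq (by norm_num) _ hwt, ?_,
        fun Q hQ => s36p_reg_t2 φ M 3 hq hqM Q tM htM hQ, ?_, Or.inr (Or.inl ⟨rfl, htM⟩)⟩
      · rw [hred']
        exact s34e_cusp_frob_t2 3
      · rw [hred']
        exact s18b_transcendental_t2 κ
    · obtain ⟨tM, htM, ⟨hwV, hred⟩, hwinvV, hgen, hgeninv, hwt, hw0, hgenN, hwO, hwO', hfix, hα,
        hα'⟩ := s34m_base_t3 G φ M 2 hq hqM h3M (by norm_num)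
      haveI := hgen
      haveI := hgeninv
      have hred' : s34m_redInf G M ⟨tM, hwV⟩ = s18u_t3 κ := hred
      refine ⟨tM, hwV, ⟨hw0, hgenN, hwO, hwO', hfix, hα, hα',
        s35g_chartData_t3_1 M 2 hq hqM K₀ φ κ G hπ rfl h3M tM htM hwV hred,
        s35g_chartData_t3_2 M 2 hq hqM K₀ φ κ G hπ rfl h3M tM htM hwV hwinvV hred⟩,
        s36p_sat_t3 G φ M 2 hq (by norm_num) _ hwt, ?_,
        fun Q hQ => s36p_reg_t3 φ M 2 hq hqM Q tM htM hQ, ?_, Or.inr (Or.inr ⟨rfl, htM⟩)⟩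
      · rw [hred']
        exact s34e_cusp_frob_t3 2
      · rw [hred']
        exact s18b_transcendental_t3 κ
  obtain ⟨x, hx, hB, hsat, hfrob, hreg, htr, hcoe⟩ := key
  have hH : s36b_HauptRel M x := s36b_hauptRel_of_coe M x (by
    rcases hcoe with h1 | ⟨-, h2⟩ | ⟨-, h3⟩
    · exact Or.inl h1
    · exact Or.inr (Or.inl h2)
    · exact Or.inr (Or.inr h3))
  exact ⟨x, hx, hB, hsat, hfrob, hreg, htr, hcoe, hH,
    s36b_midEll_of_base G φ M q hq hqM x hB hH⟩

end Fermat.Agent.Lib.S36
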