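/-
S36 mega-project, layer (X1) (helper1), part 27: **THE GEOMETRY LAYER `s36g_Core` IS PROVED.**

* `s36b_midTheta` : the contract `s36b_MidTheta` (`XLeafMidGlue.lean`) = helper4's
  `s36r_mid_theta_of_explicit` (`RMidTheta.lean`);
* `s36b_leafMid` : the last leaf `s36m_LeafMid` (= `s36g_GeoRegOnly … m 1`) at the levels with
  `ν₂(M) = ν₃(M) = 0`;
* **`s36b_core : s36g_Core`** (helper6's `s36m_core_of_leafMid`);
* **`s36b_NN1 : s36_NN1`** (`s36g_NN1_of_layers` with helper9's `s36p_levelRaise` and helper7's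
  `s36v_descent`).
-/
import Fermat.Agent.Lib.S36.XLeafMidGlue
import Fermat.Agent.Lib.S36.RMidTheta
import Fermat.Agent.Lib.S36.MLeafFinal
import Fermat.Agent.Lib.S36.PRaise
import Fermat.Agent.Lib.S36.VDesc

set_option autoImplicit false
set_option linter.unusedSectionVars false
set_option linter.style.haveILetI false
set_option synthInstance.maxHeartbeats 400000

noncomputable section

namespace Fermat.Agent.Lib.S36

open Polynomial ModularCurve AlgebraicCurve HahnSeries Fermat.Agent.Lib.FF Fermat.Agent.Lib.S18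
  Fermat.Agent.Lib.S28 Fermat.Agent.Lib.S37 Fermat.Agent.Lib.S34 Fermat.Agent.Lib.S35 IsLocalRing

local notation "Kb" => AlgebraicClosure ℚ

/-- the level-`M q` datum `(t, Θ_t)` (helper4). -/
theorem s36b_midTheta (M q : ℕ) [NeZero M] [NeZero q] (hq : q.Prime) (hqM : ¬ q ∣ M) :
    s36b_MidTheta M q hq hqM :=
  fun G φ _ _ _ h2 h3 hπ hπq w hE hB 𝔪' _ hϖ hth hj =>
    s36r_mid_theta_of_explicit G φ M q hq hqM h2 h3 hπ hπq w hE hB 𝔪' hϖ hth hj

/-- **the last leaf**: `V_mid`-only points of chart 1. -/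
theorem s36b_leafMid (M q : ℕ) [NeZero M] [NeZero q] (hq : q.Prime) (hqM : ¬ q ∣ M)
    (h2 : nuTwo M = 0) (h3 : nuThree M = 0) : s36m_LeafMid M q hq hqM :=
  s36b_leafMid_of_theta M q hq hqM h2 h3 (s36b_midTheta M q hq hqM)

/-- **THE GEOMETRY LAYER.** -/
theorem s36b_core : s36g_Core :=
  s36m_core_of_leafMid fun M q _ _ hq hqM hgood =>
    s36b_leafMid M q hq hqM hgood.2.1 hgood.2.2.1

/-- **[NN₁].** -/
theorem s36b_NN1 : s36_NN1 :=
  s36g_NN1_of_layers s36p_levelRaise s36v_descent s36b_core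

end Fermat.Agent.Lib.S36
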