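/-
S36 mega-project, layer (X1) (helper1), part 25 (board #1848, pieces (M4) and (M6)): **the leaf
`s36m_LeafMid` (= `s36g_GeoRegOnly … m 1`) from its non-cuspidal half.**

Notation: `w₁ = α x`, `S₁ = chart1 w₁` (level `M q`), `S₂ = chart1 (α' w₁)` (level `M q²`),
`𝔪' = s36q_pt … 𝔫 = (α')⁻¹ 𝔫` the image point of a prime `𝔫` of `B₂(S₂)`.

* `s36b_mid_noncusp_j` (M4) : if `5 ≤ q` or `α' w₁ ∉ 𝔫` (non-cuspidal point), then `j` is regular at the
  places of `S₁` through `𝔪'`;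
* `s36b_MidNonCusp` : the contract of the non-cuspidal half (helper8's `s36k_mid_noncusp`, (M5)), in
  the binder shape of `s36m_LeafMid`;
* **`s36b_leafMid_of_noncusp`** (M6) : `s36b_MidNonCusp → s36m_LeafMid` (cuspidal points, `q ∈ {2,3}`:
  helper6's `s36m_geoRegOnly_cusp_of_baseFull`).
-/
import Fermat.Agent.Lib.S36.XMidNC
import Fermat.Agent.Lib.S36.MLeafReg
import Fermat.Agent.Lib.S36.MMidCuspInst
import Fermat.Agent.Lib.S36.GGeoInst

set_option autoImplicit false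
set_option linter.unusedSectionVars false
set_option linter.style.haveILetI false
set_option synthInstance.maxHeartbeats 400000

noncomputable section

namespace Fermat.Agent.Lib.S36

open Polynomial ModularCurve AlgebraicCurve HahnSeries Fermat.Agent.Lib.FF Fermat.Agent.Lib.S18
  Fermat.Agent.Lib.S28 Fermat.Agent.Lib.S37 Fermat.Agent.Lib.S34 Fermat.Agent.Lib.S35 IsLocalRing

local notation "Kb" => AlgebraicClosure ℚ

section Conc

variable {K₀ : Type} [Field K₀] [Algebra ℚ K₀] [CharZero K₀] {κ : Type} [Field κ]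
  (G : s18g_GaussData K₀ κ) [IsDiscreteValuationRing G.A]
  (φ : K₀ →+* Kb) (M q : ℕ) [NeZero M] [NeZero q] (hq : q.Prime) (hqM : ¬ q ∣ M)
  {V : Fin 3 → ValuationSubring (s34m_F K₀ (M * q * q))}

/-- **(M4)**: `j` is regular at the places through the image point of a non-cuspidal prime. -/
theorem s36b_mid_noncusp_j {t : s34m_F K₀ (M * q * q)} (hP : s36g_ValPkg G φ M q hq hqM V t)
    (x : s34m_F K₀ M) (hx : x ∈ s34m_Vinf G M) (hBF : s36g_BaseFull G φ M q hq hqM x hx)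
    (𝔫 : Ideal (s34x_ring (L₀ := K₀) (s34x_infRing V)
      (s18_chart1 (s36g_alpha M q (heckeAlphaBar K₀ M q x))))) [h𝔫 : 𝔫.IsPrime]
    (hnc : 5 ≤ q ∨ ¬ ∃ b ∈ 𝔫, (b : s34m_F K₀ (M * q * q)) =
      s36g_alpha M q (heckeAlphaBar K₀ M q x)) :
    ∀ Q ∈ s18_chart1 (L₀ := K₀) (heckeAlphaBar K₀ M q x),
      s34f_through (s34x_infRing (s34m_VV G φ M q hq hqM))
        (s18_chart1 (L₀ := K₀) (heckeAlphaBar K₀ M q x))
        (s36q_pt (s34m_VV G φ M q hq hqM) V (s18_chart1 (L₀ := K₀) (heckeAlphaBar K₀ M q x))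
          (s18_chart1 (L₀ := K₀) (s36g_alpha M q (heckeAlphaBar K₀ M q x))) (s36g_alpha M q)
          (s36p_chart1_alpha G φ M q hq hqM hP.1 (heckeAlphaBar K₀ M q x) hBF.1) 𝔫) Q →
      0 ≤ Q.ord (s18g_jF (K := K₀) (M * q)) := by
  intro Q hQ hth
  obtain ⟨hB, -, -, -, -, hbr, hR⟩ := id hBF
  obtain ⟨hw0, -, hwO, -⟩ := id hB
  have hx0 : x ≠ 0 := by
    rintro rfl
    exact hw0 (map_zero _)
  by_cases hxj : x = s18g_jF (K := K₀) M
  · exact s36b_thr_j_of_eq M q x hxj Q hQ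
  · have hnc' : ¬ ∃ b ∈ 𝔫, (b : s34m_F K₀ (M * q * q)) =
        s36g_alpha M q (heckeAlphaBar K₀ M q x) := by
      rcases hnc with h5 | h
      · exfalso
        rcases hbr with ⟨-, h1⟩ | ⟨h3, -, -⟩ | ⟨h2, -, -⟩
        · exact hxj h1
        · omega
        · omega
      · exact h
    refine s36b_thr_j G φ M q hq hqM x _ hx0 hR hwO ?_ Q hQ hth
    intro hmem
    exact hnc' ((s36b_pt_mem_iff (s34m_VV G φ M q hq hqM) V _ _ (s36g_alpha M q) _ 𝔫 _).mp hmem)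

end Conc

variable (M q : ℕ) [NeZero M] [NeZero q] (hq : q.Prime) (hqM : ¬ q ∣ M)

/-- **The non-cuspidal half of `s36m_LeafMid`** ((M5), helper8's `s36k_mid_noncusp`): the local
package at a `V 1`-only closed point of chart 1 at whose image point `j` is regular. -/
def s36b_MidNonCusp : Prop :=
  ∀ (K₀ : Type) [Field K₀] [NumberField K₀] (φ : K₀ →+* Kb)
    (κ : Type) [Field κ] [CharP κ q] [PerfectField κ]
    (G : s18g_GaussData K₀ κ) [IsDiscreteValuationRing G.A], Function.Surjective G.π →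
    ((G.ϖ : G.A) : K₀) = (q : K₀) →
    ∀ (V : Fin 3 → ValuationSubring (s34m_F K₀ (M * q * q)))
      (hP : s36g_ValPkg G φ M q hq hqM V (s36m_t M q))
      (x : s34m_F K₀ M) (hx : x ∈ s34m_Vinf G M) (hBF : s36g_BaseFull G φ M q hq hqM x hx),
      s36q_fi_CrossReg G φ M q hq hqM (heckeAlphaBar K₀ M q x) →
      ∀ m : ℕ, m ≠ 0 →
      ∀ (𝔫 : Ideal (s34x_ring (L₀ := K₀) (s34x_infRing V)
          (s18_chart1 (s36g_alpha M q (heckeAlphaBar K₀ M q x)))))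
        (h𝔫 : 𝔫.IsMaximal),
        s34x_const (s34x_infRing V)
          (s18_chart1 (L₀ := K₀) (s36g_alpha M q (heckeAlphaBar K₀ M q x))) ((G.ϖ : G.A) : K₀)
          (s34x_inf_const_mem V G.A (s36b_const_mem G φ M q hq hqM hP.1) G.ϖ) ∈ 𝔫 →
        s36q_compThrough V
          (s18_chart1 (L₀ := K₀) (s36g_alpha M q (heckeAlphaBar K₀ M q x))) 𝔫 1 →
        (∀ k, s36q_compThrough V
          (s18_chart1 (L₀ := K₀) (s36g_alpha M q (heckeAlphaBar K₀ M q x))) 𝔫 k → k = 1) →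
        (∀ Q ∈ s18_chart1 (L₀ := K₀) (heckeAlphaBar K₀ M q x),
          s34f_through (s34x_infRing (s34m_VV G φ M q hq hqM))
            (s18_chart1 (L₀ := K₀) (heckeAlphaBar K₀ M q x))
            (s36q_pt (s34m_VV G φ M q hq hqM) V
              (s18_chart1 (L₀ := K₀) (heckeAlphaBar K₀ M q x))
              (s18_chart1 (L₀ := K₀) (s36g_alpha M q (heckeAlphaBar K₀ M q x))) (s36g_alpha M q)
              (s36p_chart1_alpha G φ M q hq hqM hP.1 (heckeAlphaBar K₀ M q x) hBF.1) 𝔫) Q →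
          0 ≤ Q.ord (s18g_jF (K := K₀) (M * q))) →
        s36p_LocalReg V (s18_chart1 (L₀ := K₀) (s36g_alpha M q (heckeAlphaBar K₀ M q x))) 𝔫
          (h𝔫 := h𝔫.isPrime) m

/-- **(M6): `s36m_LeafMid` from its non-cuspidal half.** -/
theorem s36b_leafMid_of_noncusp (h2 : nuTwo M = 0) (h3 : nuThree M = 0)
    (hM5 : s36b_MidNonCusp M q hq hqM) : s36m_LeafMid M q hq hqM := by
  intro K₀ _ _ φ κ _ _ _ G _ hπ hϖ V hP x hx hBF hX m hm0 𝔫 h𝔫 hϖ𝔫 h1 honly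
  haveI := h𝔫.isPrime
  by_cases h5 : 5 ≤ q
  · exact hM5 K₀ φ κ G hπ hϖ V hP x hx hBF hX m hm0 𝔫 h𝔫 hϖ𝔫 h1 honly
      (s36b_mid_noncusp_j G φ M q hq hqM hP x hx hBF 𝔫 (Or.inl h5))
  · by_cases hcusp : ∃ b ∈ 𝔫, (b : s34m_F K₀ (M * q * q)) =
        s36g_alpha M q (heckeAlphaBar K₀ M q x)
    · exact s36m_geoRegOnly_cusp_of_baseFull G φ M q hq hqM h2 h3 hπ hϖ hP x hx hBF
        (s36g_geoFib_of_crossReg G φ M q hq hqM hπ hP _ hBF.1 hBF.2.1 hX) h5 m hm0 𝔫 h𝔫 hϖ𝔫 h1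
        honly hcusp
    · exact hM5 K₀ φ κ G hπ hϖ V hP x hx hBF hX m hm0 𝔫 h𝔫 hϖ𝔫 h1 honly
        (s36b_mid_noncusp_j G φ M q hq hqM hP x hx hBF 𝔫 (Or.inr hcusp))

end Fermat.Agent.Lib.S36
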