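/-
S36 mega-project, layer (G) (helper2, prefix `s36g_`), part 1: DEGREE-FREE LOCAL EQUATIONS.

Frame of `Lib/S34/FLocal.lean`: `B = s34x_ring O S` a chart ring, `𝔫` a prime of `B`,
`R = Localization.AtPrime 𝔫 ⊂ 𝓕` (via `s34f_iota`).  For a place `Q ∈ S` of ARBITRARY degree through
`𝔫` the functions of `R` vanishing at `Q` form a prime ideal `𝔭_Q = s36g_primeOf` of `R`, different
from `𝔪_R` as soon as some element of `𝔫` does not vanish at `Q` (e.g. the constant uniformiser `ϖ`).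
No section `R → A₀` is needed (over an unramified base there is none at the interesting points).

* `s36g_primeOf`, `s36g_mem_primeOf`, `s36g_primeOf_isPrime`, `s36g_primeOf_ne_maximalIdeal`;
* `s36g_locEq_of_principal` : if `𝔭_Q` is principal then `Q` has a local equation at `𝔫`
  (`s34f_LocEq`), given a uniformiser of `Q` in `B` (F1) and separation of places by `B` (F2) —
  the degree-free twin of `s34f_locEq_of_LN`;
* `s36g_locEq_of_two_free` : `𝔪_R = (w, s)`, `(w)` a nonzero prime, `s ∉ (w)` ⇒ EVERY place through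
  `𝔫` has a local equation (via lead's `s36c_prime_isPrincipal`);
* `s36g_locEq_of_two_free_red` : the same with `(w) = ker r` for a reduction map `r : R →+* κ`;
* `s36g_locEq_of_two_free_const`, `s36g_locEq_of_two_free_red_const` : the same in the frame
  `A₀ O hAO S 𝔫 ϖ hπ𝔫` of `s34f_locEq_of_smooth` (the witness of `𝔭_Q ≠ 𝔪_R` is the constant `ϖ`).
-/
import Fermat.Agent.Lib.S34.FLocal
import Fermat.Agent.Lib.S36.CPrincipal

set_option autoImplicit false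
set_option linter.unusedSectionVars false
set_option linter.style.haveILetI false

noncomputable section

namespace Fermat.Agent.Lib.S36

open IsLocalRing AlgebraicCurve Fermat.Agent.Lib.FF Fermat.Agent.Lib.S18 Fermat.Agent.Lib.S34

variable {L₀ 𝓕 : Type*} [Field L₀] [Field 𝓕] [Algebra L₀ 𝓕]

section Prime

variable (O : Subring 𝓕) (S : Set (Place L₀ 𝓕))
  (𝔫 : Ideal (s34x_ring O S)) [h𝔫 : 𝔫.IsPrime]
  (Q : Place L₀ 𝓕) (hQS : Q ∈ S) (hth : s34f_through O S 𝔫 Q)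

include hQS hth in
/-- elements of `B_𝔫` are regular at the places through `𝔫`. -/
theorem s36g_iota_mem (x : Localization.AtPrime 𝔫) :
    s34f_iota O S 𝔫 x ∈ Q.toValuationSubring := by
  by_cases hx0 : s34f_iota O S 𝔫 x = 0
  · rw [hx0]; exact Q.toValuationSubring.zero_mem
  · exact (ff_mem_iff_ord_nonneg Q hx0).mpr (s34f_iota_ord_nonneg O S 𝔫 x Q hQS hth)

include hQS hth in
/-- **The prime ideal `𝔭_Q` of `B_𝔫`**: the functions vanishing at the place `Q` (of arbitrary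
degree) through `𝔫`. -/
def s36g_primeOf : Ideal (Localization.AtPrime 𝔫) where
  carrier := {x | s34f_van Q (s34f_iota O S 𝔫 x)}
  add_mem' := by
    intro x y hx hy
    show s34f_van Q (s34f_iota O S 𝔫 (x + y))
    rw [map_add]
    exact s34f_van_add Q hx hy
  zero_mem' := by
    show s34f_van Q (s34f_iota O S 𝔫 0)
    rw [map_zero]
    exact s34f_van_zero Q
  smul_mem' := by
    intro c x hx
    show s34f_van Q (s34f_iota O S 𝔫 (c • x))
    rw [smul_eq_mul, map_mul]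
    exact s34f_van_mul Q (s36g_iota_mem O S 𝔫 Q hQS hth c) hx

theorem s36g_mem_primeOf (x : Localization.AtPrime 𝔫) :
    x ∈ s36g_primeOf O S 𝔫 Q hQS hth ↔ s34f_van Q (s34f_iota O S 𝔫 x) := Iff.rfl

/-- an element of the chart ring lies in `𝔭_Q` iff it vanishes at `Q`. -/
theorem s36g_algebraMap_mem_primeOf (b : s34x_ring O S) :
    algebraMap (s34x_ring O S) (Localization.AtPrime 𝔫) b ∈ s36g_primeOf O S 𝔫 Q hQS hth ↔
      s34f_van Q (b : 𝓕) := by
  rw [s36g_mem_primeOf, s34f_iota_algebraMap]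

instance s36g_primeOf_isPrime : (s36g_primeOf O S 𝔫 Q hQS hth).IsPrime := by
  constructor
  · intro htop
    have h1 : (1 : Localization.AtPrime 𝔫) ∈ s36g_primeOf O S 𝔫 Q hQS hth := by
      rw [htop]; exact Submodule.mem_top
    rw [s36g_mem_primeOf, map_one] at h1
    rcases h1 with h | h
    · exact one_ne_zero h
    · rw [Place.ord_one] at h
      exact lt_irrefl _ h
  · intro x y hxy
    rw [s36g_mem_primeOf, map_mul] at hxy
    by_cases hx0 : s34f_iota O S 𝔫 x = 0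
    · exact Or.inl (Or.inl hx0)
    by_cases hy0 : s34f_iota O S 𝔫 y = 0
    · exact Or.inr (Or.inl hy0)
    rcases hxy with h | h
    · exact absurd h (mul_ne_zero hx0 hy0)
    · rw [Q.ord_mul hx0 hy0] at h
      have h1 := s34f_iota_ord_nonneg O S 𝔫 x Q hQS hth
      have h2 := s34f_iota_ord_nonneg O S 𝔫 y Q hQS hth
      by_cases hx : 0 < Q.ord (s34f_iota O S 𝔫 x)
      · exact Or.inl (Or.inr hx)
      · exact Or.inr (Or.inr (by omega))

/-- `𝔭_Q ≠ 𝔪` as soon as some element of `𝔫` does not vanish at `Q`. -/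
theorem s36g_primeOf_ne_maximalIdeal (c : s34x_ring O S) (hc𝔫 : c ∈ 𝔫)
    (hcQ : ¬ s34f_van Q (c : 𝓕)) :
    s36g_primeOf O S 𝔫 Q hQS hth ≠ maximalIdeal (Localization.AtPrime 𝔫) := by
  intro h
  apply hcQ
  rw [← s36g_algebraMap_mem_primeOf O S 𝔫 Q hQS hth, h]
  exact (IsLocalization.AtPrime.to_map_mem_maximal_iff (Localization.AtPrime 𝔫) 𝔫 c).mpr hc𝔫

/-- **Bridge: a generator of `𝔭_Q` is a local equation of `Q` at `𝔫`.**
(F1) a uniformiser of `Q` in `B`; (F2) separation of `Q` from the other places of the chart. -/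
theorem s36g_locEq_of_generator
    (F1 : ∃ u : s34x_ring O S, Q.ord (u : 𝓕) = 1)
    (F2 : ∀ Q' ∈ S, Q' ≠ Q → s34f_through O S 𝔫 Q' →
      ∃ y : s34x_ring O S, 0 < Q.ord (y : 𝓕) ∧ Q'.ord (y : 𝓕) = 0)
    (φ : Localization.AtPrime 𝔫)
    (hφ : s36g_primeOf O S 𝔫 Q hQS hth = Ideal.span {φ}) :
    s34f_LocEq O S 𝔫 Q := by
  -- every element of `B` vanishing at `Q` is a multiple of `φ`
  have key : ∀ y : s34x_ring O S, s34f_van Q (y : 𝓕) →
      ∃ z : Localization.AtPrime 𝔫, (y : 𝓕) = s34f_iota O S 𝔫 φ * s34f_iota O S 𝔫 z := by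
    intro y hy
    have h1 : algebraMap (s34x_ring O S) (Localization.AtPrime 𝔫) y ∈
        s36g_primeOf O S 𝔫 Q hQS hth := (s36g_algebraMap_mem_primeOf O S 𝔫 Q hQS hth y).mpr hy
    rw [hφ, Ideal.mem_span_singleton'] at h1
    obtain ⟨z, hz⟩ := h1
    refine ⟨z, ?_⟩
    have h2 := congrArg (s34f_iota O S 𝔫) hz
    rw [map_mul, s34f_iota_algebraMap] at h2
    rw [← h2, mul_comm]
  have hφmem : φ ∈ s36g_primeOf O S 𝔫 Q hQS hth := by
    rw [hφ]; exact Ideal.subset_span rfl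
  obtain ⟨u, hu⟩ := F1
  have hu0 : (u : 𝓕) ≠ 0 := by
    intro h
    rw [h, Place.ord_zero] at hu
    exact zero_ne_one hu
  obtain ⟨z, hz⟩ := key u (Or.inr (by rw [hu]; exact zero_lt_one))
  have hφ0 : s34f_iota O S 𝔫 φ ≠ 0 := by
    intro h
    rw [h, zero_mul] at hz
    exact hu0 hz
  have hz0 : s34f_iota O S 𝔫 z ≠ 0 := by
    intro h
    rw [h, mul_zero] at hz
    exact hu0 hz
  refine ⟨s34f_iota O S 𝔫 φ, hφ0, ?_, ?_⟩
  · have h1 : Q.ord (u : 𝓕) = 1 := hu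
    rw [hz, Q.ord_mul hφ0 hz0] at h1
    have h2 : 0 < Q.ord (s34f_iota O S 𝔫 φ) :=
      ((s36g_mem_primeOf O S 𝔫 Q hQS hth φ).mp hφmem).resolve_left hφ0
    have h3 := s34f_iota_ord_nonneg O S 𝔫 z Q hQS hth
    omega
  · intro Q' hQ'S hne hth'
    obtain ⟨y, hy1, hy2⟩ := F2 Q' hQ'S hne hth'
    have hy0 : (y : 𝓕) ≠ 0 := by
      intro h
      rw [h, Place.ord_zero] at hy1
      exact lt_irrefl _ hy1
    obtain ⟨z', hz'⟩ := key y (Or.inr hy1)
    have hz'0 : s34f_iota O S 𝔫 z' ≠ 0 := by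
      intro h
      rw [h, mul_zero] at hz'
      exact hy0 hz'
    have h1 : Q'.ord (y : 𝓕) = 0 := hy2
    rw [hz', Q'.ord_mul hφ0 hz'0] at h1
    have h2 := s34f_iota_ord_nonneg O S 𝔫 φ Q' hQ'S hth'
    have h3 := s34f_iota_ord_nonneg O S 𝔫 z' Q' hQ'S hth'
    omega

/-- **Bridge, principal form**: if `𝔭_Q` is a principal ideal, `Q` has a local equation. -/
theorem s36g_locEq_of_principal
    (F1 : ∃ u : s34x_ring O S, Q.ord (u : 𝓕) = 1)
    (F2 : ∀ Q' ∈ S, Q' ≠ Q → s34f_through O S 𝔫 Q' →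
      ∃ y : s34x_ring O S, 0 < Q.ord (y : 𝓕) ∧ Q'.ord (y : 𝓕) = 0)
    (hP : Submodule.IsPrincipal (s36g_primeOf O S 𝔫 Q hQS hth)) :
    s34f_LocEq O S 𝔫 Q := by
  obtain ⟨⟨φ, hφ⟩⟩ := hP
  exact s36g_locEq_of_generator O S 𝔫 Q hQS hth F1 F2 φ hφ

/-- `B_𝔫` is a domain. -/
theorem s36g_isDomain : IsDomain (Localization.AtPrime 𝔫) :=
  (s34f_iota_injective O S 𝔫).isDomain (s34f_iota O S 𝔫)

variable [hB : IsNoetherianRing (s34x_ring O S)]

include hQS hth in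
/-- **Degree-free local equations at a point with `𝔪 = (w, s)`** (`(w)` a nonzero prime,
`s ∉ (w)`): every place `Q ∈ S` through `𝔫`, of any degree, has a local equation.  `c` is any
element of `𝔫` not vanishing at `Q` (in the applications the constant uniformiser). -/
theorem s36g_locEq_of_two_free (w s : Localization.AtPrime 𝔫)
    (hm : maximalIdeal (Localization.AtPrime 𝔫) = Ideal.span {w, s})
    (hw : (Ideal.span {w}).IsPrime) (hw0 : w ≠ 0) (hs : s ∉ Ideal.span {w})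
    (c : s34x_ring O S) (hc𝔫 : c ∈ 𝔫) (hcQ : ¬ s34f_van Q (c : 𝓕))
    (F1 : ∃ u : s34x_ring O S, Q.ord (u : 𝓕) = 1)
    (F2 : ∀ Q' ∈ S, Q' ≠ Q → s34f_through O S 𝔫 Q' →
      ∃ y : s34x_ring O S, 0 < Q.ord (y : 𝓕) ∧ Q'.ord (y : 𝓕) = 0) :
    s34f_LocEq O S 𝔫 Q := by
  haveI : IsDomain (Localization.AtPrime 𝔫) := s36g_isDomain O S 𝔫
  haveI : IsNoetherianRing (Localization.AtPrime 𝔫) :=
    IsLocalization.isNoetherianRing 𝔫.primeCompl _ hB
  exact s36g_locEq_of_principal O S 𝔫 Q hQS hth F1 F2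
    (s36c_prime_isPrincipal w s hm hw hw0 hs _
      (s36g_primeOf_ne_maximalIdeal O S 𝔫 Q hQS hth c hc𝔫 hcQ))

include hQS hth in
/-- The same with `(w) = ker r` for a reduction map `r` into a domain: `hK`, `hrw`, `hrs`. -/
theorem s36g_locEq_of_two_free_red {κ : Type*} [CommRing κ] [IsDomain κ]
    (r : Localization.AtPrime 𝔫 →+* κ) (w s : Localization.AtPrime 𝔫)
    (hm : maximalIdeal (Localization.AtPrime 𝔫) = Ideal.span {w, s})
    (hK : ∀ a, r a = 0 → ∃ c, a = w * c) (hrw : r w = 0) (hw0 : w ≠ 0) (hrs : r s ≠ 0)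
    (c : s34x_ring O S) (hc𝔫 : c ∈ 𝔫) (hcQ : ¬ s34f_van Q (c : 𝓕))
    (F1 : ∃ u : s34x_ring O S, Q.ord (u : 𝓕) = 1)
    (F2 : ∀ Q' ∈ S, Q' ≠ Q → s34f_through O S 𝔫 Q' →
      ∃ y : s34x_ring O S, 0 < Q.ord (y : 𝓕) ∧ Q'.ord (y : 𝓕) = 0) :
    s34f_LocEq O S 𝔫 Q := by
  haveI : IsDomain (Localization.AtPrime 𝔫) := s36g_isDomain O S 𝔫
  haveI : IsNoetherianRing (Localization.AtPrime 𝔫) :=
    IsLocalization.isNoetherianRing 𝔫.primeCompl _ hB
  exact s36g_locEq_of_principal O S 𝔫 Q hQS hth F1 F2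
    (s36c_prime_isPrincipal_of_red r w s hm hK hrw hw0 hrs _
      (s36g_primeOf_ne_maximalIdeal O S 𝔫 Q hQS hth c hc𝔫 hcQ))

end Prime

section Const

variable (A₀ : ValuationSubring L₀) (O : Subring 𝓕)
  (hAO : ∀ a : A₀, algebraMap L₀ 𝓕 (a : L₀) ∈ O) (S : Set (Place L₀ 𝓕))
  (𝔫 : Ideal (s34x_ring O S)) [h𝔫 : 𝔫.IsPrime]
  (ϖ : A₀) (hϖ0 : ϖ ≠ 0) (hπ𝔫 : s34f_constHom A₀ O hAO S ϖ ∈ 𝔫)
  (Q : Place L₀ 𝓕) (hQS : Q ∈ S) (hth : s34f_through O S 𝔫 Q)

include hϖ0 in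
/-- a nonzero constant of `A₀` does not vanish at any place. -/
theorem s36g_not_van_const : ¬ s34f_van Q ((s34f_constHom A₀ O hAO S ϖ : s34x_ring O S) : 𝓕) := by
  rw [s34f_constHom_coe]
  apply s34f_not_van_algebraMap Q
  exact fun h => hϖ0 (Subtype.ext h)

variable [hB : IsNoetherianRing (s34x_ring O S)]

include hϖ0 hπ𝔫 hQS hth in
/-- **Degree-free (E3), frame of `s34f_locEq_of_smooth`**: `ϖ ∈ 𝔫` a nonzero constant,
`𝔪(B_𝔫) = (w, s)`, `(w)` a nonzero prime, `s ∉ (w)` ⇒ every place through `𝔫` has a local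
equation. -/
theorem s36g_locEq_of_two_free_const (w s : Localization.AtPrime 𝔫)
    (hm : maximalIdeal (Localization.AtPrime 𝔫) = Ideal.span {w, s})
    (hw : (Ideal.span {w}).IsPrime) (hw0 : w ≠ 0) (hs : s ∉ Ideal.span {w})
    (F1 : ∃ u : s34x_ring O S, Q.ord (u : 𝓕) = 1)
    (F2 : ∀ Q' ∈ S, Q' ≠ Q → ∃ y : s34x_ring O S, 0 < Q.ord (y : 𝓕) ∧ Q'.ord (y : 𝓕) = 0) :
    s34f_LocEq O S 𝔫 Q :=
  s36g_locEq_of_two_free O S 𝔫 Q hQS hth w s hm hw hw0 hs _ hπ𝔫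
    (s36g_not_van_const A₀ O hAO S ϖ hϖ0 Q) F1 (fun Q' hQ' hne _ => F2 Q' hQ' hne)

include hϖ0 hπ𝔫 hQS hth in
/-- The same with `(w) = ker r` for a reduction map `r` into a domain. -/
theorem s36g_locEq_of_two_free_red_const {κ : Type*} [CommRing κ] [IsDomain κ]
    (r : Localization.AtPrime 𝔫 →+* κ) (w s : Localization.AtPrime 𝔫)
    (hm : maximalIdeal (Localization.AtPrime 𝔫) = Ideal.span {w, s})
    (hK : ∀ a, r a = 0 → ∃ c, a = w * c) (hrw : r w = 0) (hw0 : w ≠ 0) (hrs : r s ≠ 0)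
    (F1 : ∃ u : s34x_ring O S, Q.ord (u : 𝓕) = 1)
    (F2 : ∀ Q' ∈ S, Q' ≠ Q → ∃ y : s34x_ring O S, 0 < Q.ord (y : 𝓕) ∧ Q'.ord (y : 𝓕) = 0) :
    s34f_LocEq O S 𝔫 Q :=
  s36g_locEq_of_two_free_red O S 𝔫 Q hQS hth r w s hm hK hrw hw0 hrs _ hπ𝔫
    (s36g_not_van_const A₀ O hAO S ϖ hϖ0 Q) F1 (fun Q' hQ' hne _ => F2 Q' hQ' hne)

end Const

end Fermat.Agent.Lib.S36
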