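/-
S36 mega-project, layer (X-loc) (helper3, prefix `s36y_`), part 4: **Theorem X₀ modulo the radical
with the local generator contract `s36y_NodeGenRad` at every closed point of the special fibre of
both charts** — lead's `s36x_zero_inf` (`Lib/S36/XRad.lean`) fed by `s36y_loc_of_nodeGenRad`
(`Lib/S36/XLocRad.lean`).  Twin of helper2's `s36z_zero_nodeGen` in the radical frame: all
congruences are only asked modulo the non-units of the `O i` (no Newton step on the component of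
multiplicity `q - 1`).
-/
import Fermat.Agent.Lib.S36.XRad
import Fermat.Agent.Lib.S36.XLocRad

set_option autoImplicit false
set_option linter.style.haveILetI false

noncomputable section

namespace Fermat.Agent.Lib.S36

open AlgebraicCurve Fermat.Agent.Lib.FF Fermat.Agent.Lib.S18 Fermat.Agent.Lib.S34

variable {L₀ 𝓕 : Type*} [Field L₀] [Field 𝓕] [Algebra L₀ 𝓕]

/-- **Theorem X₀ modulo the radical from NodeGenRad at every closed point.** -/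
theorem s36y_zero_nodeGenRad {ι : Type*} [Nonempty ι] [Fintype ι] (A₀ : ValuationSubring L₀)
    [IsNoetherianRing A₀]
    (O : ι → ValuationSubring 𝓕) (hAO : ∀ i, ∀ a : A₀, algebraMap L₀ 𝓕 (a : L₀) ∈ O i)
    (ϖ : A₀) (hϖ0 : (ϖ : L₀) ≠ 0)
    (hϖ : ∀ i, algebraMap L₀ 𝓕 (ϖ : L₀) ∈ (O i).nonunits)
    (e : ℕ) (hJe : ∀ i, ∀ l : Fin e → 𝓕, (∀ k, l k ∈ (O i).nonunits) →
      ∃ y ∈ O i, ∏ k, l k = algebraMap L₀ 𝓕 (ϖ : L₀) * y)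
    (hA : s36q_Arch O)
    (t f : 𝓕) (hf0 : f ≠ 0) (m : ℕ) (hm0 : m ≠ 0) (hmA : ((m : L₀))⁻¹ ∈ A₀) (hmL : (m : L₀) ≠ 0)
    (hdiv : ∀ Q : Place L₀ 𝓕, (m : ℤ) ∣ Q.ord f)
    (hf1 : ∀ i, f - 1 ∈ (O i).nonunits)
    (F31 : ∀ y : 𝓕, y ≠ 0 →
      {Q : Place L₀ 𝓕 | Q ∈ s18_chart1 (L₀ := L₀) t ∧ Q.ord y ≠ 0}.Finite)
    (F32 : ∀ y : 𝓕, y ≠ 0 →
      {Q : Place L₀ 𝓕 | Q ∈ s18_chart2 (L₀ := L₀) t ∧ Q.ord y ≠ 0}.Finite)
    (hloc1 : ∀ 𝔫 : Ideal (s34x_ring (s34x_infRing O) (s18_chart1 (L₀ := L₀) t)), 𝔫.IsMaximal →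
      s34x_const (s34x_infRing O) (s18_chart1 (L₀ := L₀) t) (ϖ : L₀)
        (s34x_inf_const_mem O A₀ hAO ϖ) ∈ 𝔫 →
      s36y_NodeGenRad O (s18_chart1 (L₀ := L₀) t) 𝔫 (s18_E f m))
    (hloc2 : ∀ 𝔫 : Ideal (s34x_ring (s34x_infRing O) (s18_chart2 (L₀ := L₀) t)), 𝔫.IsMaximal →
      s34x_const (s34x_infRing O) (s18_chart2 (L₀ := L₀) t) (ϖ : L₀)
        (s34x_inf_const_mem O A₀ hAO ϖ) ∈ 𝔫 →
      s36y_NodeGenRad O (s18_chart2 (L₀ := L₀) t) 𝔫 (s18_E f m))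
    (hH : ∃ G : Submodule A₀ 𝓕, G.FG ∧
      s34x_lat A₀ (s34x_infRing O) (s34x_inf_const_mem O A₀ hAO) (s18_chart12 t) (s18_E f m) ≤
        G ⊔ (s34x_lat A₀ (s34x_infRing O) (s34x_inf_const_mem O A₀ hAO) (s18_chart1 t) (s18_E f m) ⊔
          s34x_lat A₀ (s34x_infRing O) (s34x_inf_const_mem O A₀ hAO) (s18_chart2 t)
            (s18_E f m))) :
    ∃ x : 𝓕, x ≠ 0 ∧ (∀ i, x ∈ O i) ∧ ∀ Q : Place L₀ 𝓕, Q.ord f ≤ (m : ℤ) * Q.ord x :=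
  s36x_zero_inf A₀ O hAO ϖ hϖ0 hϖ e hJe t f m hm0 hmA hmL hdiv hf1
    (fun 𝔫 h𝔫 hπ => by
      haveI := h𝔫.isPrime
      exact s36y_loc_of_nodeGenRad O _ 𝔫 hA F31 f hf0 m (hloc1 𝔫 h𝔫 hπ))
    (fun 𝔫 h𝔫 hπ => by
      haveI := h𝔫.isPrime
      exact s36y_loc_of_nodeGenRad O _ 𝔫 hA F32 f hf0 m (hloc2 𝔫 h𝔫 hπ))
    hH

end Fermat.Agent.Lib.S36
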