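/-
S36 mega-project, layer (X1) (helper1), part 23 (for helper9's (D), board #1841): **a non-unit
criterion in `B_𝔫` at a polar point**.

Abstract chart frame (`O : ι → ValuationSubring 𝓕`, `B = s34x_ring (⨅ O) S`, `𝔫` a prime of `B`).
If `𝔫` contains an element `b ≠ 0` which is a unit of every component through `𝔫` (e.g. `b = 1/w` at a
polar point of chart 2 of a base function `w`), then
* `s36b_exists_place_through` : some place of the chart passes through `𝔫` (and is a zero of `b`);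
* **`s36b_mem_max_of_pos`** : `z ∈ B_𝔫` with `0 < ord_Q (ι z)` at every place `Q` of the chart through
  `𝔫` lies in the maximal ideal of `B_𝔫`.
-/
import Fermat.Agent.Lib.S36.QMem

set_option autoImplicit false
set_option linter.unusedSectionVars false

noncomputable section

namespace Fermat.Agent.Lib.S36

open AlgebraicCurve Fermat.Agent.Lib.FF Fermat.Agent.Lib.S18 Fermat.Agent.Lib.S34 IsLocalRing

variable {L₀ 𝓕 : Type*} [Field L₀] [Field 𝓕] [Algebra L₀ 𝓕]
variable {ι : Type*} [Fintype ι] (O : ι → ValuationSubring 𝓕) (S : Set (Place L₀ 𝓕))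
  (𝔫 : Ideal (s34x_ring (s34x_infRing O) S)) [h𝔫 : 𝔫.IsPrime]

/-- **a place of the chart passes through a prime containing a "horizontal" element.** -/
theorem s36b_exists_place_through (hA : s36q_Arch O)
    (b : s34x_ring (s34x_infRing O) S) (hb : b ∈ 𝔫) (hb0 : (b : 𝓕) ≠ 0)
    (hbu : ∀ i, s36q_compThrough O S 𝔫 i → (b : 𝓕) ∉ (O i).nonunits)
    (hfin : {Q : Place L₀ 𝓕 | Q ∈ S ∧ Q.ord (b : 𝓕) ≠ 0}.Finite) :
    ∃ Q ∈ S, s34f_through (s34x_infRing O) S 𝔫 Q ∧ 0 < Q.ord (b : 𝓕) := by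
  have hz0 : algebraMap _ (Localization.AtPrime 𝔫) b ≠ 0 := by
    intro h
    apply hb0
    have := congrArg (s34f_iota (s34x_infRing O) S 𝔫) h
    rwa [s34f_iota_algebraMap, map_zero] at this
  have hznu : ¬ IsUnit (algebraMap _ (Localization.AtPrime 𝔫) b) := fun hu =>
    (mem_nonunits_iff.mp ((mem_maximalIdeal _).mp
      ((IsLocalization.AtPrime.to_map_mem_maximal_iff (Localization.AtPrime 𝔫) 𝔫 b).mpr hb))) hu
  rcases s36q_nonunit_vanishes O S 𝔫 hA _ hz0 hznu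
    (by rw [s34f_iota_algebraMap]; exact hfin) with ⟨i, hi, hmem⟩ | ⟨Q, hQ, hth, hpos⟩
  · rw [s34f_iota_algebraMap] at hmem
    exact absurd hmem (hbu i hi)
  · rw [s34f_iota_algebraMap] at hpos
    exact ⟨Q, hQ, hth, hpos⟩

/-- **non-unit criterion**: positive order at all places through `𝔫` ⇒ in the maximal ideal. -/
theorem s36b_mem_max_of_pos (hA : s36q_Arch O)
    (b : s34x_ring (s34x_infRing O) S) (hb : b ∈ 𝔫) (hb0 : (b : 𝓕) ≠ 0)
    (hbu : ∀ i, s36q_compThrough O S 𝔫 i → (b : 𝓕) ∉ (O i).nonunits)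
    (hfin : {Q : Place L₀ 𝓕 | Q ∈ S ∧ Q.ord (b : 𝓕) ≠ 0}.Finite)
    (z : Localization.AtPrime 𝔫)
    (h : ∀ Q ∈ S, s34f_through (s34x_infRing O) S 𝔫 Q →
      0 < Q.ord (s34f_iota (s34x_infRing O) S 𝔫 z)) :
    z ∈ maximalIdeal (Localization.AtPrime 𝔫) := by
  obtain ⟨Q, hQ, hth, -⟩ := s36b_exists_place_through O S 𝔫 hA b hb hb0 hbu hfin
  rw [mem_maximalIdeal, mem_nonunits_iff]
  intro hu
  obtain ⟨v, hv⟩ := hu.exists_right_inv
  have h1 := congrArg (s34f_iota (s34x_infRing O) S 𝔫) hv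
  rw [map_mul, map_one] at h1
  have hz0 : s34f_iota (s34x_infRing O) S 𝔫 z ≠ 0 := left_ne_zero_of_mul_eq_one h1
  have hv' : s34f_iota (s34x_infRing O) S 𝔫 v = (s34f_iota (s34x_infRing O) S 𝔫 z)⁻¹ :=
    eq_inv_of_mul_eq_one_right h1
  have h2 := s34f_iota_ord_nonneg (s34x_infRing O) S 𝔫 v Q hQ hth
  rw [hv', Q.ord_inv] at h2
  have h3 := h Q hQ hth
  omega

end Fermat.Agent.Lib.S36
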