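/-
S36 mega-project, layer (X0) (helper2, prefix `s36z_`), part 1: the SMOOTH-POINT (LOC) with the
maximality hypothesis `hmax` LOCALISED AT THE ONE COMPONENT THROUGH THE POINT.

Twin of `Lib/S35/FSmooth.lean` (helper9).  There `hmax : ∀ i, ∀ y ∈ O i, (∃ z ∈ O i, y = π z) ∨
y⁻¹ ∈ O i` (the constant uniformiser `π` generates the maximal ideal of EVERY component) was a
global hypothesis, although only `hmax` for the single component `i₀` through the smooth point is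
ever used.  At level `q²N'` the middle component has multiplicity `q - 1` (`π = unit · s₃^(q-1)`),
so the global `hmax` fails; here the hypothesis is `hmax : ∀ y ∈ O i₀, …` only.

* `s36z_iota_mem`, `s36z_mem_span_of_iota`, `s36z_iota_of_mem_span`, `s36z_span_isPrime` : the local
  dictionary `R = B_𝔫 ⊆ O i₀`, `R ∩ π (O i₀) = π R`, `π R` prime;
* `s36z_nodeGen_smooth` : **the local generator contract `s35f_NodeGen` at a smooth point** lying on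
  one component of multiplicity one, for every `F ≡ 1 mod π (O i₀)` with `m ∣ ord_Q F` on `S`;
* `s36z_loc_smooth` : (LOC) at such a point (= `s35f_loc_smooth` with the local `hmax`).
-/
import Fermat.Agent.Lib.S35.FSmooth
import Fermat.Agent.Lib.S35.FNode

set_option autoImplicit false
set_option linter.style.haveILetI false
set_option linter.unusedSectionVars false

noncomputable section

namespace Fermat.Agent.Lib.S36

open AlgebraicCurve Fermat.Agent.Lib.FF Fermat.Agent.Lib.S18 Fermat.Agent.Lib.S34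
  Fermat.Agent.Lib.S35 IsLocalRing

variable {L₀ 𝓕 : Type*} [Field L₀] [Field 𝓕] [Algebra L₀ 𝓕]

section Dict

variable {ι : Type*} (O : ι → ValuationSubring 𝓕) (S : Set (Place L₀ 𝓕)) (π : 𝓕)
  (hπ0 : π ≠ 0) (hπO : ∀ i, π ∈ O i) (hπL : ∀ Q : Place L₀ 𝓕, Q.ord π = 0)
  (πB : s34x_ring (s34x_infRing O) S) (hπB : (πB : 𝓕) = π)
variable [Fintype ι] (hU : ∀ i, ∀ y : 𝓕, ∃ k : ℕ, π ^ k * y ∈ O i)
  (𝔫 : Ideal (s34x_ring (s34x_infRing O) S)) [h𝔫 : 𝔫.IsPrime] (i₀ : ι)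
  (honly : ∀ j, j ≠ i₀ → ∃ b : s34x_ring (s34x_infRing O) S,
    (∃ y ∈ O j, (b : 𝓕) = π * y) ∧ b ∉ 𝔫)
variable (hπ𝔫 : πB ∈ 𝔫)
variable (hmax : ∀ y ∈ O i₀, (∃ z ∈ O i₀, y = π * z) ∨ y⁻¹ ∈ O i₀)

include hπ0 hπO hπL hπB hU honly hπ𝔫 hmax in
/-- `R = B_𝔫 ⊆ O i₀`. -/
theorem s36z_iota_mem (z : Localization.AtPrime 𝔫) :
    s34f_iota (s34x_infRing O) S 𝔫 z ∈ O i₀ := by
  obtain ⟨b, s, hs, h⟩ := s34f_exists_frac (s34x_infRing O) S 𝔫 z
  have h1 := congrArg (s34f_iota (s34x_infRing O) S 𝔫) h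
  rw [map_mul, s34f_iota_algebraMap, s34f_iota_algebraMap] at h1
  have hBO : ∀ (x : s34x_ring (s34x_infRing O) S) (i : ι), (x : 𝓕) ∈ O i := fun x i =>
    (s34x_mem_infRing O _).mp x.2.1 i
  have hs0 : (s : 𝓕) ≠ 0 := by
    intro h0
    apply hs
    have : s = 0 := Subtype.ext h0
    rw [this]; exact 𝔫.zero_mem
  have hsinv : ((s : 𝓕))⁻¹ ∈ O i₀ := by
    rcases hmax (s : 𝓕) (hBO s i₀) with hdiv | hinv
    · exact absurd (s35f_comp_through O S π hπ0 hπO hπL πB hπB hU 𝔫 i₀ honly hπ𝔫 s hdiv) hs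
    · exact hinv
  have : s34f_iota (s34x_infRing O) S 𝔫 z = (b : 𝓕) * ((s : 𝓕))⁻¹ := by
    rw [← h1, mul_assoc, mul_inv_cancel₀ hs0, mul_one]
  rw [this]
  exact (O i₀).mul_mem _ _ (hBO b i₀) hsinv

include hπ0 hπO hπL hπB hU honly hπ𝔫 hmax in
/-- `R ∩ π (O i₀) = π R`. -/
theorem s36z_mem_span_of_iota (z : Localization.AtPrime 𝔫)
    (hz : ∃ y ∈ O i₀, s34f_iota (s34x_infRing O) S 𝔫 z = π * y) :
    z ∈ (Ideal.span {algebraMap (s34x_ring (s34x_infRing O) S) (Localization.AtPrime 𝔫) πB} :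
      Ideal (Localization.AtPrime 𝔫)) := by
  classical
  obtain ⟨b, s, hs, h⟩ := s34f_exists_frac (s34x_infRing O) S 𝔫 z
  have h1 := congrArg (s34f_iota (s34x_infRing O) S 𝔫) h
  rw [map_mul, s34f_iota_algebraMap, s34f_iota_algebraMap] at h1
  have hBO : ∀ (x : s34x_ring (s34x_infRing O) S) (i : ι), (x : 𝓕) ∈ O i := fun x i =>
    (s34x_mem_infRing O _).mp x.2.1 i
  obtain ⟨c, hc𝔫, hc⟩ := s35f_exists_other O S π hU 𝔫 i₀ honly
  obtain ⟨y, hy, e⟩ := hz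
  obtain ⟨b', hb'⟩ := s35f_purity O S π hπ0 hπL πB hπB (c * b) (by
    intro j
    by_cases hj : j = i₀
    · subst hj
      refine ⟨(c : 𝓕) * (y * (s : 𝓕)), (O j).mul_mem _ _ (hBO c j)
        ((O j).mul_mem _ _ hy (hBO s j)), ?_⟩
      push_cast
      rw [← h1, e]; ring
    · obtain ⟨y', hy', e'⟩ := hc j hj
      refine ⟨y' * (b : 𝓕), (O j).mul_mem _ _ hy' (hBO b j), ?_⟩
      push_cast
      rw [e']; ring)
  have hu : IsUnit (algebraMap (s34x_ring (s34x_infRing O) S) (Localization.AtPrime 𝔫) (c * s)) :=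
    IsLocalization.map_units (Localization.AtPrime 𝔫)
      (⟨c * s, fun hmem => (h𝔫.mem_or_mem hmem).elim hc𝔫 hs⟩ : 𝔫.primeCompl)
  obtain ⟨v, hv⟩ := hu.exists_right_inv
  rw [Ideal.mem_span_singleton]
  refine ⟨algebraMap _ (Localization.AtPrime 𝔫) b' * v, ?_⟩
  have h2 : z * algebraMap (s34x_ring (s34x_infRing O) S) (Localization.AtPrime 𝔫) (c * s) =
      algebraMap _ (Localization.AtPrime 𝔫) πB * algebraMap _ (Localization.AtPrime 𝔫) b' := by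
    rw [← map_mul, ← hb', map_mul, map_mul, ← h]; ring
  calc z = z * (algebraMap (s34x_ring (s34x_infRing O) S) (Localization.AtPrime 𝔫) (c * s) * v) := by
        rw [hv, mul_one]
    _ = _ := by rw [← mul_assoc, h2]; ring

include hπ0 hπO hπL hπB hU honly hπ𝔫 hmax in
/-- Elements of `π R` are divisible by `π` in `O i₀`. -/
theorem s36z_iota_of_mem_span (z : Localization.AtPrime 𝔫)
    (hz : z ∈ (Ideal.span {algebraMap (s34x_ring (s34x_infRing O) S) (Localization.AtPrime 𝔫) πB} :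
      Ideal (Localization.AtPrime 𝔫))) :
    ∃ y ∈ O i₀, s34f_iota (s34x_infRing O) S 𝔫 z = π * y := by
  rw [Ideal.mem_span_singleton] at hz
  obtain ⟨z', rfl⟩ := hz
  refine ⟨s34f_iota (s34x_infRing O) S 𝔫 z',
    s36z_iota_mem O S π hπ0 hπO hπL πB hπB hU 𝔫 i₀ honly hπ𝔫 hmax z', ?_⟩
  rw [map_mul, s34f_iota_algebraMap, hπB]

include hπ0 hπO hπL hπB hU honly hπ𝔫 hmax in
/-- **`π R` is a prime ideal of `R = B_𝔫`.** -/
theorem s36z_span_isPrime :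
    (Ideal.span {algebraMap (s34x_ring (s34x_infRing O) S) (Localization.AtPrime 𝔫) πB} :
      Ideal (Localization.AtPrime 𝔫)).IsPrime := by
  refine ⟨?_, ?_⟩
  · intro htop
    have h1 : algebraMap (s34x_ring (s34x_infRing O) S) (Localization.AtPrime 𝔫) πB ∈
        maximalIdeal (Localization.AtPrime 𝔫) :=
      (IsLocalization.AtPrime.to_map_mem_maximal_iff (Localization.AtPrime 𝔫) 𝔫 πB).mpr hπ𝔫
    have h2 : (Ideal.span {algebraMap (s34x_ring (s34x_infRing O) S)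
        (Localization.AtPrime 𝔫) πB} : Ideal (Localization.AtPrime 𝔫)) ≤
        maximalIdeal (Localization.AtPrime 𝔫) := by
      rw [Ideal.span_le]
      rintro z rfl
      exact h1
    rw [htop] at h2
    exact (maximalIdeal.isMaximal (Localization.AtPrime 𝔫)).ne_top (top_le_iff.mp h2)
  · intro z₁ z₂ h12
    by_cases hz₁ : z₁ = 0
    · left; rw [hz₁]; exact Ideal.zero_mem _
    have hι₁0 : s34f_iota (s34x_infRing O) S 𝔫 z₁ ≠ 0 := fun h0 =>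
      hz₁ (s34f_iota_injective (s34x_infRing O) S 𝔫 (by rw [h0, map_zero]))
    obtain ⟨y, hy, e⟩ := s36z_iota_of_mem_span O S π hπ0 hπO hπL πB hπB hU 𝔫 i₀ honly hπ𝔫 hmax _ h12
    rw [map_mul] at e
    rcases hmax _ (s36z_iota_mem O S π hπ0 hπO hπL πB hπB hU 𝔫 i₀ honly hπ𝔫 hmax z₁) with
      hdiv | hinv
    · left
      exact s36z_mem_span_of_iota O S π hπ0 hπO hπL πB hπB hU 𝔫 i₀ honly hπ𝔫 hmax z₁ hdiv
    · right
      apply s36z_mem_span_of_iota O S π hπ0 hπO hπL πB hπB hU 𝔫 i₀ honly hπ𝔫 hmax z₂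
      refine ⟨(s34f_iota (s34x_infRing O) S 𝔫 z₁)⁻¹ * y, (O i₀).mul_mem _ _ hinv hy, ?_⟩
      have : s34f_iota (s34x_infRing O) S 𝔫 z₂ =
          (s34f_iota (s34x_infRing O) S 𝔫 z₁)⁻¹ *
            (s34f_iota (s34x_infRing O) S 𝔫 z₁ * s34f_iota (s34x_infRing O) S 𝔫 z₂) := by
        rw [← mul_assoc, inv_mul_cancel₀ hι₁0, one_mul]
      rw [this, e]; ring

end Dict

section Main

variable {ι : Type*} [Fintype ι] (O : ι → ValuationSubring 𝓕) (S : Set (Place L₀ 𝓕)) (π : 𝓕)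
  (hπ0 : π ≠ 0) (hπO : ∀ i, π ∈ O i) (hπL : ∀ Q : Place L₀ 𝓕, Q.ord π = 0)
  (πB : s34x_ring (s34x_infRing O) S) (hπB : (πB : 𝓕) = π)
  (hU : ∀ i, ∀ y : 𝓕, ∃ k : ℕ, π ^ k * y ∈ O i)
  [hB : IsNoetherianRing (s34x_ring (s34x_infRing O) S)]
  (F1 : ∀ Q ∈ S, ∃ u : s34x_ring (s34x_infRing O) S, Q.ord (u : 𝓕) = 1)
  (F2 : ∀ Q ∈ S, ∀ Q' ∈ S, Q' ≠ Q →
    ∃ y : s34x_ring (s34x_infRing O) S, 0 < Q.ord (y : 𝓕) ∧ Q'.ord (y : 𝓕) = 0)
  (F3 : ∀ y : 𝓕, y ≠ 0 → {Q : Place L₀ 𝓕 | Q ∈ S ∧ Q.ord y ≠ 0}.Finite)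
  (𝔫 : Ideal (s34x_ring (s34x_infRing O) S)) [h𝔫 : 𝔫.IsPrime] (hπ𝔫 : πB ∈ 𝔫)
  (t : s34x_ring (s34x_infRing O) S)
  (hm : maximalIdeal (Localization.AtPrime 𝔫) =
    Ideal.span {algebraMap (s34x_ring (s34x_infRing O) S) (Localization.AtPrime 𝔫) t,
      algebraMap (s34x_ring (s34x_infRing O) S) (Localization.AtPrime 𝔫) πB})
  (i₀ : ι)
  (honly : ∀ j, j ≠ i₀ → ∃ b : s34x_ring (s34x_infRing O) S,
    (∃ y ∈ O j, (b : 𝓕) = π * y) ∧ b ∉ 𝔫)
  (hmax : ∀ y ∈ O i₀, (∃ z ∈ O i₀, y = π * z) ∨ y⁻¹ ∈ O i₀)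

include hπ0 hπO hπL hπB hU hmax F1 F2 F3 hπ𝔫 hm honly in
/-- **The local generator contract at a smooth point** lying on one component `i₀` of multiplicity
one (generic: no automorphism, places of arbitrary degree).  If `F ≡ 1 mod π (O i₀)` and
`m ∣ ord_Q F` on the chart, `div F / m` has a local generator at `𝔫` which is `≡ 1 mod π (O i₀)`. -/
theorem s36z_nodeGen_smooth (F : 𝓕) (hF0 : F ≠ 0) (m : ℕ) (hm0 : m ≠ 0)
    (hdiv : ∀ Q ∈ S, (m : ℤ) ∣ Q.ord F) (hF1 : ∃ y ∈ O i₀, F - 1 = π * y) :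
    s35f_NodeGen O S π 𝔫 (s18_E F m) := by
  classical
  haveI : IsNoetherianRing (Localization.AtPrime 𝔫) :=
    IsLocalization.isNoetherianRing 𝔫.primeCompl _ hB
  have hmZ : (m : ℤ) ≠ 0 := by exact_mod_cast hm0
  set R := Localization.AtPrime 𝔫 with hR
  set ιR := s34f_iota (s34x_infRing O) S 𝔫 with hιR
  set πR : R := algebraMap (s34x_ring (s34x_infRing O) S) (Localization.AtPrime 𝔫) πB with hπR
  have hprime : (Ideal.span {πR} : Ideal R).IsPrime :=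
    s36z_span_isPrime O S π hπ0 hπO hπL πB hπB hU 𝔫 i₀ honly hπ𝔫 hmax
  have hιmem : ∀ z : R, ιR z ∈ O i₀ :=
    s36z_iota_mem O S π hπ0 hπO hπL πB hπB hU 𝔫 i₀ honly hπ𝔫 hmax
  have hspan_of : ∀ z : R, (∃ y ∈ O i₀, ιR z = π * y) → z ∈ (Ideal.span {πR} : Ideal R) :=
    s36z_mem_span_of_iota O S π hπ0 hπO hπL πB hπB hU 𝔫 i₀ honly hπ𝔫 hmax
  have hof_span : ∀ z : R, z ∈ (Ideal.span {πR} : Ideal R) → ∃ y ∈ O i₀, ιR z = π * y :=
    s36z_iota_of_mem_span O S π hπ0 hπO hπL πB hπB hU 𝔫 i₀ honly hπ𝔫 hmax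
  have hιinj : Function.Injective ιR := s34f_iota_injective (s34x_infRing O) S 𝔫
  -- `π` is not a unit of `O i₀`
  have hπnu : ¬ ∃ y ∈ O i₀, (1 : 𝓕) = π * y := by
    intro h
    have : (1 : s34x_ring (s34x_infRing O) S) ∈ 𝔫 :=
      s35f_comp_through O S π hπ0 hπO hπL πB hπB hU 𝔫 i₀ honly hπ𝔫 1 (by simpa using h)
    exact h𝔫.ne_top ((Ideal.eq_top_iff_one _).mpr this)
  -- elements of `R` outside `π R` are units of `O i₀`
  have hinvmem : ∀ z : R, z ∉ (Ideal.span {πR} : Ideal R) → (ιR z)⁻¹ ∈ O i₀ := by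
    intro z hz
    rcases hmax _ (hιmem z) with hdv | hinv
    · exact absurd (hspan_of z hdv) hz
    · exact hinv
  have hne0 : ∀ z : R, z ∉ (Ideal.span {πR} : Ideal R) → ιR z ≠ 0 := by
    intro z hz h0
    apply hz
    have : z = 0 := hιinj (by rw [h0, map_zero])
    rw [this]; exact Ideal.zero_mem _
  -- units of `R` have order zero at the places through `𝔫`
  have hunitord : ∀ c : R, IsUnit c → ∀ Q ∈ S, s34f_through (s34x_infRing O) S 𝔫 Q →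
      Q.ord (ιR c) = 0 := by
    intro c hc Q hQS hth
    obtain ⟨c', hc'⟩ := hc.exists_right_inv
    have h1 := congrArg ιR hc'
    rw [map_mul, map_one] at h1
    have hc0 : ιR c ≠ 0 := left_ne_zero_of_mul_eq_one h1
    have hc'0 : ιR c' ≠ 0 := right_ne_zero_of_mul_eq_one h1
    have h2 := Q.ord_mul hc0 hc'0
    rw [h1, Place.ord_one] at h2
    have h3 : 0 ≤ Q.ord (ιR c) := s34f_iota_ord_nonneg (s34x_infRing O) S 𝔫 c Q hQS hth
    have h4 : 0 ≤ Q.ord (ιR c') := s34f_iota_ord_nonneg (s34x_infRing O) S 𝔫 c' Q hQS hth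
    omega
  -- the exponents
  set e : Place L₀ 𝓕 → ℤ := fun P => P.ord F / (m : ℤ) with he
  have hme : ∀ P ∈ S, P.ord F = (m : ℤ) * e P := fun P hP =>
    (Int.mul_ediv_cancel' (hdiv P hP)).symm
  have he0 : ∀ P : Place L₀ 𝓕, P.ord F = 0 → e P = 0 := by
    intro P h0
    show P.ord F / (m : ℤ) = 0
    rw [h0, Int.zero_ediv]
  -- the places of the support of `F` through `𝔫`
  have hfinF := F3 F hF0
  set T : Finset (Place L₀ 𝓕) := hfinF.toFinset.filter fun P =>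
    s34f_through (s34x_infRing O) S 𝔫 P with hT
  have hTmem : ∀ P, P ∈ T ↔ (P ∈ S ∧ P.ord F ≠ 0) ∧ s34f_through (s34x_infRing O) S 𝔫 P := by
    intro P
    rw [hT, Finset.mem_filter, Set.Finite.mem_toFinset]
    rfl
  have hchoose : ∀ P : Place L₀ 𝓕, ∃ φ : R, P ∈ T →
      (φ ∉ (Ideal.span {πR} : Ideal R) ∧ ιR φ ≠ 0 ∧ P.ord (ιR φ) = 1 ∧
        ∀ Q' ∈ S, Q' ≠ P → s34f_through (s34x_infRing O) S 𝔫 Q' → Q'.ord (ιR φ) = 0) := by
    intro P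
    by_cases hP : P ∈ T
    · obtain ⟨⟨hPS, -⟩, hth⟩ := (hTmem P).mp hP
      obtain ⟨φ, h1, h2, h3, h4⟩ := s35f_locEq_smooth (s34x_infRing O) S 𝔫 P hPS hth π hπ0 hπL
        πB t hπB hm hprime (F1 P hPS) (F2 P hPS)
      exact ⟨φ, fun _ => ⟨h1, h2, h3, h4⟩⟩
    · exact ⟨0, fun h => absurd h hP⟩
  choose φ hφ using hchoose
  set a : Place L₀ 𝓕 → ℕ := fun P => (e P).toNat with ha
  set b : Place L₀ 𝓕 → ℕ := fun P => (- e P).toNat with hb
  have hab : ∀ P, ((a P : ℕ) : ℤ) - (b P : ℕ) = e P := fun P => Int.toNat_sub_toNat_neg (e P)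
  set A : R := ∏ P ∈ T, φ P ^ a P with hA
  set B' : R := ∏ P ∈ T, φ P ^ b P with hB'
  have hAnot : A ∉ (Ideal.span {πR} : Ideal R) := by
    intro hmem
    rw [hA, hprime.prod_mem_iff] at hmem
    obtain ⟨P, hP, hPm⟩ := hmem
    exact (hφ P hP).1 (hprime.mem_of_pow_mem _ hPm)
  have hB'not : B' ∉ (Ideal.span {πR} : Ideal R) := by
    intro hmem
    rw [hB', hprime.prod_mem_iff] at hmem
    obtain ⟨P, hP, hPm⟩ := hmem
    exact (hφ P hP).1 (hprime.mem_of_pow_mem _ hPm)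
  have hιA : ιR A = ∏ P ∈ T, ιR (φ P) ^ ((a P : ℕ) : ℤ) := by
    rw [hA, map_prod]
    refine Finset.prod_congr rfl fun P _ => ?_
    rw [map_pow, zpow_natCast]
  have hιB' : ιR B' = ∏ P ∈ T, ιR (φ P) ^ ((b P : ℕ) : ℤ) := by
    rw [hB', map_prod]
    refine Finset.prod_congr rfl fun P _ => ?_
    rw [map_pow, zpow_natCast]
  have hφ0 : ∀ P ∈ T, ιR (φ P) ≠ 0 := fun P hP => (hφ P hP).2.1
  have hA0 : ιR A ≠ 0 := hne0 A hAnot
  have hB'0 : ιR B' ≠ 0 := hne0 B' hB'not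
  -- orders at the places through `𝔫`
  have hord : ∀ (c : Place L₀ 𝓕 → ℕ) (Q : Place L₀ 𝓕), Q ∈ S →
      s34f_through (s34x_infRing O) S 𝔫 Q →
      Q.ord (∏ P ∈ T, ιR (φ P) ^ ((c P : ℕ) : ℤ)) = if Q ∈ T then ((c Q : ℕ) : ℤ) else 0 := by
    intro c Q hQS hth
    rw [s18i_ord_prod_zpow Q T (fun P => ιR (φ P)) (fun P => ((c P : ℕ) : ℤ)) hφ0]
    by_cases hQT : Q ∈ T
    · rw [if_pos hQT, Finset.sum_eq_single_of_mem Q hQT, (hφ Q hQT).2.2.1, mul_one]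
      intro P hP hne
      rw [(hφ P hP).2.2.2 Q hQS (Ne.symm hne) hth, mul_zero]
    · rw [if_neg hQT]
      refine Finset.sum_eq_zero fun P hP => ?_
      have hne : Q ≠ P := fun h => hQT (h ▸ hP)
      rw [(hφ P hP).2.2.2 Q hQS hne hth, mul_zero]
  have hordAB : ∀ Q ∈ S, s34f_through (s34x_infRing O) S 𝔫 Q →
      Q.ord (ιR A) - Q.ord (ιR B') = e Q := by
    intro Q hQS hth
    rw [hιA, hιB', hord a Q hQS hth, hord b Q hQS hth]
    by_cases hQT : Q ∈ T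
    · rw [if_pos hQT, if_pos hQT]; exact hab Q
    · rw [if_neg hQT, if_neg hQT, sub_zero]
      have : Q.ord F = 0 := by
        by_contra hne
        exact hQT ((hTmem Q).mpr ⟨⟨hQS, hne⟩, hth⟩)
      exact (he0 Q this).symm
  -- `F` is a unit of `O i₀`
  obtain ⟨yF, hyF, eF⟩ := hF1
  have hFeq : F = 1 + π * yF := by rw [← eF]; ring
  have hFO : F ∈ O i₀ := by
    rw [hFeq]; exact (O i₀).add_mem _ _ (O i₀).one_mem ((O i₀).mul_mem _ _ (hπO i₀) hyF)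
  have hFinv : F⁻¹ ∈ O i₀ := by
    rw [hFeq]
    exact s34x_val_one_add_inv_mem (O i₀) π (hπO i₀) hπnu hyF
  -- the unit `y₀ = F B'^m / A^m`
  set y₀ : 𝓕 := F * ιR B' ^ m * (ιR A ^ m)⁻¹ with hy₀
  have hy₀0 : y₀ ≠ 0 :=
    mul_ne_zero (mul_ne_zero hF0 (pow_ne_zero _ hB'0)) (inv_ne_zero (pow_ne_zero _ hA0))
  have hy₀ord : ∀ Q ∈ S, s34f_through (s34x_infRing O) S 𝔫 Q → Q.ord y₀ = 0 := by
    intro Q hQS hth
    have h1 : Q.ord ((ιR A ^ m)⁻¹) = - ((m : ℤ) * Q.ord (ιR A)) := by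
      have := Q.ord_zpow (ιR A ^ m) (-1)
      rw [zpow_neg_one] at this
      rw [this, s18i_ord_pow]; ring
    rw [hy₀, Q.ord_mul (mul_ne_zero hF0 (pow_ne_zero _ hB'0)) (inv_ne_zero (pow_ne_zero _ hA0)),
      Q.ord_mul hF0 (pow_ne_zero _ hB'0), s18i_ord_pow, h1, hme Q hQS]
    have := hordAB Q hQS hth
    have h2 : (m : ℤ) * e Q + (m : ℤ) * Q.ord (ιR B') + -((m : ℤ) * Q.ord (ιR A)) =
        (m : ℤ) * (e Q - (Q.ord (ιR A) - Q.ord (ιR B'))) := by ring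
    rw [h2, this, sub_self, mul_zero]
  have hy₀O : y₀ ∈ O i₀ := by
    rw [hy₀, ← inv_pow]
    exact (O i₀).mul_mem _ _ ((O i₀).mul_mem _ _ hFO ((O i₀).pow_mem (hιmem B') m))
      ((O i₀).pow_mem (hinvmem A hAnot) m)
  have hy₀invO : y₀⁻¹ ∈ O i₀ := by
    have : y₀⁻¹ = F⁻¹ * ((ιR B')⁻¹) ^ m * ιR A ^ m := by
      rw [hy₀, mul_inv, mul_inv, inv_inv, inv_pow]
    rw [this]
    exact (O i₀).mul_mem _ _ ((O i₀).mul_mem _ _ hFinv ((O i₀).pow_mem (hinvmem B' hB'not) m))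
      ((O i₀).pow_mem (hιmem A) m)
  obtain ⟨r₀, hr₀⟩ := s35f_exists_of_regular O S π hπ0 hπO hU 𝔫 i₀ honly F3 y₀ hy₀0 hy₀O
    (fun Q hQS hth => (hy₀ord Q hQS hth).ge)
  obtain ⟨r₀', hr₀'⟩ := s35f_exists_of_regular O S π hπ0 hπO hU 𝔫 i₀ honly F3 y₀⁻¹
    (inv_ne_zero hy₀0) hy₀invO (fun Q hQS hth => by
      have := Q.ord_zpow y₀ (-1)
      rw [zpow_neg_one, hy₀ord Q hQS hth] at this
      rw [this]; simp)
  have hr₀u : IsUnit r₀ := by
    refine IsUnit.of_mul_eq_one r₀' (hιinj ?_)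
    rw [map_mul, map_one, hr₀, hr₀', mul_inv_cancel₀ hy₀0]
  -- the congruence `r₀ A^m ≡ B'^m`
  have hcong : r₀ * A ^ m - B' ^ m ∈ (Ideal.span {πR} : Ideal R) := by
    apply hspan_of
    refine ⟨yF * ιR B' ^ m, (O i₀).mul_mem _ _ hyF ((O i₀).pow_mem (hιmem B') m), ?_⟩
    rw [map_sub, map_mul, map_pow, map_pow, hr₀, hy₀, hFeq]
    have hAm0 : ιR A ^ m ≠ 0 := pow_ne_zero _ hA0
    field_simp
    ring
  obtain ⟨c, hcu, hc⟩ := s35f_root_unit _ _ hm hprime A B' r₀ hr₀u m hm0 hAnot hB'not hcong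
  -- the generator
  set g : 𝓕 := ιR A * ιR c * (ιR B')⁻¹ with hg
  have hc0 : ιR c ≠ 0 := by
    intro h0
    have : c = 0 := hιinj (by rw [h0, map_zero])
    rw [this] at hcu
    exact not_isUnit_zero hcu
  have hg0 : g ≠ 0 := mul_ne_zero (mul_ne_zero hA0 hc0) (inv_ne_zero hB'0)
  refine ⟨g, hg0, ?_, ?_⟩
  · intro Q hQS hth
    have h1 : Q.ord ((ιR B')⁻¹) = - Q.ord (ιR B') := by
      have := Q.ord_zpow (ιR B') (-1)
      rw [zpow_neg_one] at this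
      rw [this]; ring
    rw [hg, Q.ord_mul (mul_ne_zero hA0 hc0) (inv_ne_zero hB'0), Q.ord_mul hA0 hc0,
      hunitord c hcu Q hQS hth, h1]
    have := hordAB Q hQS hth
    show e Q ≤ _
    omega
  · intro i hi
    by_cases hii : i = i₀
    · subst hii
      obtain ⟨y', hy', e'⟩ := hof_span _ hc
      refine ⟨- (y' * (ιR B')⁻¹), (O i).neg_mem _ ((O i).mul_mem _ _ hy' (hinvmem B' hB'not)), ?_⟩
      rw [map_sub, map_mul] at e'
      rw [hg]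
      field_simp
      linear_combination (-1 : 𝓕) * e'
    · exfalso
      obtain ⟨b₁, hb₁, hb₁𝔫⟩ := honly i hii
      exact hb₁𝔫 (hi b₁ hb₁)

include hπ0 hπO hπL hπB hU hmax F1 F2 F3 hπ𝔫 hm honly in
/-- **(LOC) at a smooth point** lying on one component of multiplicity one (twin of
`s35f_loc_smooth` with `hmax` only at `i₀`). -/
theorem s36z_loc_smooth (F : 𝓕) (hF0 : F ≠ 0) (m : ℕ) (hm0 : m ≠ 0)
    (hdiv : ∀ Q ∈ S, (m : ℤ) ∣ Q.ord F) (hF1 : ∃ y ∈ O i₀, F - 1 = π * y) :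
    ∃ a ∈ s34x_latSet (s34x_infRing O) S (s18_E F m),
      ∃ s : s34x_ring (s34x_infRing O) S, s ∉ 𝔫 ∧
        ∃ y ∈ s34x_infRing O, a - (s : 𝓕) = π * y :=
  s35f_loc_of_nodeGen O S π hπ0 hπO hU F3 𝔫 F hF0 m
    (s36z_nodeGen_smooth O S π hπ0 hπO hπL πB hπB hU F1 F2 F3 𝔫 hπ𝔫 t hm i₀ honly hmax F hF0 m hm0
      hdiv hF1)

end Main

end Fermat.Agent.Lib.S36
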