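/-
S36 mega-project, layer (X1) (helper1), part 17: **a triple point is not cuspidal** — the input
`htreg : s36l_TReg` of helper7's `s36l_geoRegTriple` (`LTripleInst.lean`) for ALL base functions.

Let `w = α'(α x)`, `x` of Hauptmodul type `j xᵃ = P(x)` with `a ≥ 1` and `P(0)` a constant of `A` with
nonzero residue (`x = t₂`, `q = 3`: `P(0) = 256³`; `x = t₃`, `q = 2`: `P(0) = 27 · 243³`).  If a place
`Q` of chart 1 of `w` through a prime `𝔫 ∋ ϖ` is a pole of `j₀`, then `w ∈ 𝔫`, `P(w) ∉ 𝔫`,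
`1/j₀ = wᵃ / P(w) ∈ 𝔪(B_𝔫)`, so at most one component passes through `𝔫` (`s36b_cusp_single`).

* `s36b_j0_reg_of_two` : at a prime through which two components pass, `j₀` is regular at the places
  through it;
* `s36b_tReg_haupt`, `s36b_tReg_t2`, `s36b_tReg_t3`, **`s36b_tReg_of_coe`** : `s36l_TReg`.
-/
import Fermat.Agent.Lib.S36.XMidHaupt
import Fermat.Agent.Lib.S36.LTripleInst
import Fermat.Agent.Lib.S36.REisMid

set_option autoImplicit false
set_option linter.unusedSectionVars false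
set_option linter.style.haveILetI false

noncomputable section

namespace Fermat.Agent.Lib.S36

open Polynomial ModularCurve AlgebraicCurve HahnSeries Fermat.Agent.Lib.FF Fermat.Agent.Lib.S18
  Fermat.Agent.Lib.S28 Fermat.Agent.Lib.S37 Fermat.Agent.Lib.S34 Fermat.Agent.Lib.S35 IsLocalRing

local notation "Kb" => AlgebraicClosure ℚ

variable {K₀ : Type} [Field K₀] [Algebra ℚ K₀] [CharZero K₀] {κ : Type} [Field κ]
  (G : s18g_GaussData K₀ κ) [IsDiscreteValuationRing G.A]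
  (φ : K₀ →+* Kb) (M q : ℕ) [NeZero M] [NeZero q] (hq : q.Prime) (hqM : ¬ q ∣ M)
  {V : Fin 3 → ValuationSubring (s34m_F K₀ (M * q * q))} [CharP κ q]

include φ hq hqM in
/-- **`j₀` is regular at the places through a point lying on two components** of chart 1 of
`w = α'(α x)`, `x` of Hauptmodul type. -/
theorem s36b_j0_reg_of_two (hC : s36g_ValComap G φ M q hq hqM V)
    (hU : s36g_ValUnif G M q V (s36m_t (K₀ := K₀) M q)) (hπ : Function.Surjective G.π)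
    (x : s34m_F K₀ M) (hx0 : x ≠ 0)
    (hxO : ∀ i, heckeAlphaBar K₀ M q x ∈ s34m_VV G φ M q hq hqM i)
    (hxO' : ∀ i, (heckeAlphaBar K₀ M q x)⁻¹ ∈ s34m_VV G φ M q hq hqM i)
    (P : K₀[X]) (a : ℕ) (ha : 0 < a) (rM : s18g_jF (K := K₀) M * x ^ a = aeval x P)
    (c : G.A) (hc : G.π c ≠ 0) (hPc : P.coeff 0 = (c : K₀))
    (𝔫 : Ideal (s34x_ring (s34x_infRing V)
      (s18_chart1 (L₀ := K₀) (s36g_alpha M q (heckeAlphaBar K₀ M q x))))) [h𝔫 : 𝔫.IsPrime]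
    (hϖ : s34x_const (s34x_infRing V)
      (s18_chart1 (L₀ := K₀) (s36g_alpha M q (heckeAlphaBar K₀ M q x))) ((G.ϖ : G.A) : K₀)
      (s34x_inf_const_mem V G.A (s36b_const_mem G φ M q hq hqM hC) G.ϖ) ∈ 𝔫)
    (i k : Fin 3) (hik : i ≠ k)
    (hi : s36q_compThrough V (s18_chart1 (L₀ := K₀) (s36g_alpha M q (heckeAlphaBar K₀ M q x))) 𝔫 i)
    (hk : s36q_compThrough V (s18_chart1 (L₀ := K₀) (s36g_alpha M q (heckeAlphaBar K₀ M q x))) 𝔫 k)
    (Q : Place K₀ (s34m_F K₀ (M * q * q)))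
    (hQ : Q ∈ s18_chart1 (L₀ := K₀) (s36g_alpha M q (heckeAlphaBar K₀ M q x)))
    (hth : s34f_through (s34x_infRing V)
      (s18_chart1 (L₀ := K₀) (s36g_alpha M q (heckeAlphaBar K₀ M q x))) 𝔫 Q) :
    s18g_jF (K := K₀) (M * q * q) ∈ Q.toValuationSubring := by
  by_contra hj
  have r₀ := s36b_hauptRel_level (K₀ := K₀) M q x P a rM
  have hw0 : s36g_alpha M q (heckeAlphaBar K₀ M q x) ≠ 0 :=
    (_root_.map_ne_zero (s36g_alpha M q)).mpr
      ((_root_.map_ne_zero (heckeAlphaBar K₀ M q)).mpr hx0)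
  obtain ⟨hU0, -, -⟩ := s36b_j_units G φ M q hq hqM hC
  have hwV : ∀ k, s36g_alpha M q (heckeAlphaBar K₀ M q x) ∈ V k := fun k =>
    s36b_alpha_mem G φ M q hq hqM hC _ hxO k
  have hwV' : ∀ k, (s36g_alpha M q (heckeAlphaBar K₀ M q x))⁻¹ ∈ V k := fun k => by
    rw [← map_inv₀]; exact s36b_alpha_mem G φ M q hq hqM hC _ hxO' k
  -- abbreviations
  generalize hwdef : s36g_alpha M q (heckeAlphaBar K₀ M q x) = w at *
  have hwQ : w ∈ Q.toValuationSubring := hQ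
  have hwinv : ¬ w⁻¹ ∈ Q.toValuationSubring := fun h =>
    hj (s36p_j_mem_of_unit Q.toValuationSubring Q.algebraMap_mem' P a _ w hw0 r₀ hwQ h)
  have hpos : 0 < Q.ord w := by
    by_contra hcon
    apply hwinv
    rw [ff_mem_iff_ord_nonneg Q (inv_ne_zero hw0), Q.ord_inv]
    omega
  have hwB : w ∈ s34x_ring (s34x_infRing V) (s18_chart1 (L₀ := K₀) w) :=
    ⟨(s34x_mem_infRing V _).mpr hwV, fun Q hQ => hQ⟩
  have hw𝔫 : (⟨w, hwB⟩ : s34x_ring (s34x_infRing V) (s18_chart1 (L₀ := K₀) w)) ∈ 𝔫 :=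
    hth ⟨w, hwB⟩ hw0 hpos
  have hpoly : ∀ (R : K₀[X]) (Q : Place K₀ (s34m_F K₀ (M * q * q))),
      Q ∈ s18_chart1 (L₀ := K₀) w → aeval w R ∈ Q.toValuationSubring := fun R Q hQ =>
    s36u_cusp_aeval_mem Q.toValuationSubring Q.algebraMap_mem' _ hQ R
  have hPB : aeval w P ∈ s34x_ring (s34x_infRing V) (s18_chart1 (L₀ := K₀) w) :=
    ⟨(s34x_mem_infRing V _).mpr fun k => by
      rw [← r₀]; exact (V k).mul_mem _ _ (hU0 k).1 (pow_mem (hwV k) a), fun Q hQ => hpoly P Q hQ⟩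
  have hR : aeval w P = aeval w P.divX * w +
      algebraMap K₀ (s34m_F K₀ (M * q * q)) (P.coeff 0) := by
    conv_lhs => rw [← Polynomial.divX_mul_X_add P]
    rw [map_add, map_mul, aeval_X, aeval_C]
  have hcV : ∀ k, algebraMap K₀ (s34m_F K₀ (M * q * q)) (P.coeff 0) ∈ V k := fun k => by
    rw [hPc]; exact s36b_const_mem G φ M q hq hqM hC k c
  have hRB : aeval w P.divX ∈ s34x_ring (s34x_infRing V) (s18_chart1 (L₀ := K₀) w) :=
    ⟨(s34x_mem_infRing V _).mpr fun k => by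
      have e : aeval w P.divX = (aeval w P -
          algebraMap K₀ (s34m_F K₀ (M * q * q)) (P.coeff 0)) * w⁻¹ := by
        rw [hR, add_sub_cancel_right]
        exact (mul_inv_cancel_right₀ hw0 _).symm
      rw [e]
      exact (V k).mul_mem _ _ ((V k).sub_mem ((s34x_mem_infRing V _).mp hPB.1 k) (hcV k))
        (hwV' k), fun Q hQ => hpoly _ Q hQ⟩
  have hc𝔫 := s36e_const_not_mem G φ M q hq hqM V hC hπ (s18_chart1 (L₀ := K₀) w) 𝔫 hϖ c hc
  have hP𝔫 : (⟨aeval w P, hPB⟩ : s34x_ring (s34x_infRing V) (s18_chart1 (L₀ := K₀) w)) ∉ 𝔫 := by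
    intro hmem
    apply hc𝔫
    have e : s34x_const (s34x_infRing V) (s18_chart1 (L₀ := K₀) w) (c : K₀)
        (s34x_inf_const_mem V G.A (s36b_const_mem G φ M q hq hqM hC) c) =
        ⟨aeval w P, hPB⟩ - ⟨aeval w P.divX, hRB⟩ * ⟨w, hwB⟩ := by
      apply Subtype.ext
      show algebraMap K₀ (s34m_F K₀ (M * q * q)) (c : K₀) = aeval w P - aeval w P.divX * w
      rw [hR, hPc, add_sub_cancel_left]
    rw [e]
    exact 𝔫.sub_mem hmem (𝔫.mul_mem_left _ hw𝔫)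
  -- `z₀ = wᵃ / P(w)`
  have huu : IsUnit (algebraMap _ (Localization.AtPrime 𝔫)
      (⟨aeval w P, hPB⟩ : s34x_ring (s34x_infRing V) (s18_chart1 (L₀ := K₀) w))) :=
    IsLocalization.map_units (Localization.AtPrime 𝔫) (⟨_, hP𝔫⟩ : 𝔫.primeCompl)
  obtain ⟨v, hv⟩ := huu.exists_right_inv
  have h1 := congrArg (s34f_iota (s34x_infRing V) (s18_chart1 (L₀ := K₀) w) 𝔫) hv
  rw [map_mul, s34f_iota_algebraMap, map_one] at h1
  have hP0 : aeval w P ≠ 0 := left_ne_zero_of_mul_eq_one h1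
  have hv' : s34f_iota (s34x_infRing V) (s18_chart1 (L₀ := K₀) w) 𝔫 v = (aeval w P)⁻¹ :=
    eq_inv_of_mul_eq_one_right h1
  have hwa𝔫 : (⟨w, hwB⟩ : s34x_ring (s34x_infRing V) (s18_chart1 (L₀ := K₀) w)) ^ a ∈ 𝔫 := by
    obtain ⟨a', rfl⟩ : ∃ a', a = a' + 1 := ⟨a - 1, by omega⟩
    rw [pow_succ]
    exact 𝔫.mul_mem_left _ hw𝔫
  have hz₀m : algebraMap _ (Localization.AtPrime 𝔫)
      ((⟨w, hwB⟩ : s34x_ring (s34x_infRing V) (s18_chart1 (L₀ := K₀) w)) ^ a) * v ∈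
      maximalIdeal (Localization.AtPrime 𝔫) :=
    Ideal.mul_mem_right _ _
      ((IsLocalization.AtPrime.to_map_mem_maximal_iff (Localization.AtPrime 𝔫) 𝔫 _).mpr hwa𝔫)
  have hz₀ : s34f_iota (s34x_infRing V) (s18_chart1 (L₀ := K₀) w) 𝔫
      (algebraMap _ (Localization.AtPrime 𝔫)
        ((⟨w, hwB⟩ : s34x_ring (s34x_infRing V) (s18_chart1 (L₀ := K₀) w)) ^ a) * v) =
      (s36b_j0 (K₀ := K₀) M q)⁻¹ := by
    rw [map_mul, s34f_iota_algebraMap, hv', ← r₀]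
    show w ^ a * (s36b_j0 (K₀ := K₀) M q * w ^ a)⁻¹ = (s36b_j0 (K₀ := K₀) M q)⁻¹
    rw [mul_inv_rev, ← mul_assoc, mul_inv_cancel₀ (pow_ne_zero _ hw0), one_mul]
  exact hik (s36b_cusp_single G φ M q hq hqM hC hU _ (s36b_finite_chart (K₀ := K₀) φ M q _) 𝔫 _
    hz₀m hz₀ i k hi hk)

include φ hq hqM in
/-- **`s36l_TReg` for a base function of Hauptmodul type.** -/
theorem s36b_tReg_haupt (hC : s36g_ValComap G φ M q hq hqM V)
    (hU : s36g_ValUnif G M q V (s36m_t (K₀ := K₀) M q)) (hπ : Function.Surjective G.π)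
    (x : s34m_F K₀ M) (hB : s35g_BaseData G φ M q hq hqM (heckeAlphaBar K₀ M q x))
    (P : K₀[X]) (a : ℕ) (ha : 0 < a) (rM : s18g_jF (K := K₀) M * x ^ a = aeval x P)
    (c : G.A) (hc : G.π c ≠ 0) (hPc : P.coeff 0 = (c : K₀)) :
    s36l_TReg G φ M q hq hqM hC (heckeAlphaBar K₀ M q x) (s36m_t (K₀ := K₀) M q) := by
  obtain ⟨hw0, -, hwO, hwO', -⟩ := hB
  have hx0 : x ≠ 0 := by
    rintro rfl
    exact hw0 (map_zero _)
  intro 𝔫 h𝔫max hϖ hall Q hQ hth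
  haveI := h𝔫max.isPrime
  exact s36l_t_reg_j φ M q hq Q (s36b_j0_reg_of_two G φ M q hq hqM hC hU hπ x hx0 hwO hwO' P a ha
    rM c hc hPc 𝔫 hϖ 0 1 (by decide) (hall 0) (hall 1) Q hQ hth)

include φ hq hqM in
/-- **`s36l_TReg` for a base function with series `t₂`** (`q = 3`). -/
theorem s36b_tReg_t2 (hq3 : q = 3) (hC : s36g_ValComap G φ M q hq hqM V)
    (hU : s36g_ValUnif G M q V (s36m_t (K₀ := K₀) M q)) (hπ : Function.Surjective G.π)
    (x : s34m_F K₀ M) (hB : s35g_BaseData G φ M q hq hqM (heckeAlphaBar K₀ M q x))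
    (hcoe : (x : LaurentSeries K₀) = s18u_t2 K₀) :
    s36l_TReg G φ M q hq hqM hC (heckeAlphaBar K₀ M q x) (s36m_t (K₀ := K₀) M q) := by
  have hH := s18b_haupt_two K₀
  refine s36b_tReg_haupt G φ M q hq hqM hC hU hπ x hB _ 2 (by norm_num)
    (s34e_cusp_rel_of_coe M _ 2 (s18u_t2 K₀) hH.rel x hcoe) ((256 ^ 3 : ℕ) : G.A) ?_ ?_
  · rw [map_natCast]
    intro h0
    have h1 := (CharP.cast_eq_zero_iff κ q _).mp h0
    rw [hq3] at h1
    norm_num at h1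
  · have e : ((((256 ^ 3 : ℕ) : G.A)) : K₀) = ((256 ^ 3 : ℕ) : K₀) :=
      map_natCast G.A.subtype _
    rw [e, Polynomial.coeff_zero_eq_eval_zero]
    norm_num

include φ hq hqM in
/-- **`s36l_TReg` for a base function with series `t₃`** (`q = 2`). -/
theorem s36b_tReg_t3 (hq2 : q = 2) (hC : s36g_ValComap G φ M q hq hqM V)
    (hU : s36g_ValUnif G M q V (s36m_t (K₀ := K₀) M q)) (hπ : Function.Surjective G.π)
    (x : s34m_F K₀ M) (hB : s35g_BaseData G φ M q hq hqM (heckeAlphaBar K₀ M q x))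
    (hcoe : (x : LaurentSeries K₀) = s18u_t3 K₀) :
    s36l_TReg G φ M q hq hqM hC (heckeAlphaBar K₀ M q x) (s36m_t (K₀ := K₀) M q) := by
  have hH := s18b_haupt_three K₀
  refine s36b_tReg_haupt G φ M q hq hqM hC hU hπ x hB _ 3 (by norm_num)
    (s34e_cusp_rel_of_coe M _ 3 (s18u_t3 K₀) hH.rel x hcoe) ((27 * 243 ^ 3 : ℕ) : G.A) ?_ ?_
  · rw [map_natCast]
    intro h0
    have h1 := (CharP.cast_eq_zero_iff κ q _).mp h0
    rw [hq2] at h1
    norm_num at h1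
  · have e : ((((27 * 243 ^ 3 : ℕ) : G.A)) : K₀) = ((27 * 243 ^ 3 : ℕ) : K₀) :=
      map_natCast G.A.subtype _
    rw [e, Polynomial.coeff_zero_eq_eval_zero]
    norm_num

include φ hq hqM in
/-- **`s36l_TReg` for the base function of `s36b_base_full_all`**, whichever branch. -/
theorem s36b_tReg_of_coe (hC : s36g_ValComap G φ M q hq hqM V)
    (hU : s36g_ValUnif G M q V (s36m_t (K₀ := K₀) M q)) (hπ : Function.Surjective G.π)
    (x : s34m_F K₀ M) (hB : s35g_BaseData G φ M q hq hqM (heckeAlphaBar K₀ M q x))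
    (hcoe : (x : LaurentSeries K₀) = jqModC K₀ ∨ (q = 3 ∧ (x : LaurentSeries K₀) = s18u_t2 K₀) ∨
      (q = 2 ∧ (x : LaurentSeries K₀) = s18u_t3 K₀)) :
    s36l_TReg G φ M q hq hqM hC (heckeAlphaBar K₀ M q x) (s36m_t (K₀ := K₀) M q) := by
  rcases hcoe with h | ⟨hq3, h⟩ | ⟨hq2, h⟩
  · have hx : x = s18g_jF (K := K₀) M := Subtype.ext h
    rw [hx, s34d2_alpha_j M q]
    exact s36l_tReg_j G φ M q hq hqM hC
  · exact s36b_tReg_t2 G φ M q hq hqM hq3 hC hU hπ x hB h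
  · exact s36b_tReg_t3 G φ M q hq hqM hq2 hC hU hπ x hB h

end Fermat.Agent.Lib.S36
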