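/-
S36 mega-project, layer (X0) (helper2, prefix `s36z_`), part 2: GENERIC ASSEMBLY WITH
MULTIPLICITIES — Theorem X₀ for a function `Pf` with an approximate `m`-th root `x`, for a family
of components `O : ι → ValuationSubring 𝓕` in which the constant uniformiser `ϖ` need NOT generate
the maximal ideal of every `O i` (level `q²N'`: `ϖ = unit · s₃^(q-1)` on the middle component).

Twin of `Lib/S35/FZero.lean` (`s35f_zero`): the global hypothesis `hmax` has disappeared; it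
survives only inside the smooth-point datum `s36z_SmoothAt` (for the ONE component through the point,
which has multiplicity one).  Everything else (`hϖO`, `hU`, the dictionaries `s35f_Dict`, the local
generator contract `s35f_NodeGen`, the Čech input `hH`, `hF1` with the FULL `ϖ` on every component)
is unchanged.

* `s36z_SmoothAt` : a smooth point `𝔪 = (t, ϖ)` lying on one component `i₀` only, with
  `ϖ (O i₀)` the maximal ideal of `O i₀`;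
* `s36z_smoothAt_of_s35` : from `s35f_SmoothAt`-data plus the local `hmax`;
* `s36z_nodeGen_of_smoothAt` : `s36z_SmoothAt` ⇒ `s35f_NodeGen` (so that, if preferred, ALL closed
  points can be treated through `s35f_NodeGen`);
* `s36z_hloc` : (LOC) on one chart;
* `s36z_zero` : **Theorem X₀ with multiplicities**;
* `s36z_zero_nodeGen` : the same with `s35f_NodeGen` at EVERY closed point of the special fibre;
* adaptors from uniformiser data: `s36z_hmax_of_unit_mul`, `s36z_hmax_of_decomp`,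
  `s36z_hU_of_decomp`, `s36z_not_unit_of_decomp`.
-/
import Fermat.Agent.Lib.S36.XSmooth
import Fermat.Agent.Lib.S35.FZero

set_option autoImplicit false
set_option linter.style.haveILetI false
set_option linter.unusedSectionVars false

noncomputable section

namespace Fermat.Agent.Lib.S36

open AlgebraicCurve Fermat.Agent.Lib.FF Fermat.Agent.Lib.S18 Fermat.Agent.Lib.S34
  Fermat.Agent.Lib.S35 IsLocalRing

variable {L₀ 𝓕 : Type*} [Field L₀] [Field 𝓕] [Algebra L₀ 𝓕]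

section Adaptors

variable (V : ValuationSubring 𝓕)

/-- If `t` generates the maximal ideal of `V` and `π = u t` with `u` a unit of `V`, then `π`
generates the maximal ideal of `V` (a component of multiplicity one). -/
theorem s36z_hmax_of_unit_mul (π t u : 𝓕) (hπ0 : π ≠ 0) (hu : u ∈ V) (hu' : u⁻¹ ∈ V)
    (hπ : π = u * t)
    (ht : ∀ y ∈ V, (∃ z ∈ V, y = t * z) ∨ y⁻¹ ∈ V) :
    ∀ y ∈ V, (∃ z ∈ V, y = π * z) ∨ y⁻¹ ∈ V := by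
  have hu0 : u ≠ 0 := by
    rintro rfl
    rw [zero_mul] at hπ
    exact hπ0 hπ
  intro y hy
  rcases ht y hy with ⟨z, hz, e⟩ | h
  · left
    refine ⟨u⁻¹ * z, V.mul_mem _ _ hu' hz, ?_⟩
    rw [hπ, e]
    field_simp
  · exact Or.inr h

/-- From a decomposition `U = t ^ n · unit` of every nonzero element (`t` a non-unit of `V`): `t`
generates the maximal ideal of `V`. -/
theorem s36z_hmax_of_decomp (t : 𝓕) (ht : t ∈ V) (htinv : t⁻¹ ∉ V)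
    (hdec : ∀ U : 𝓕, U ≠ 0 → ∃ (n : ℤ) (v : 𝓕), v ∈ V ∧ v⁻¹ ∈ V ∧ U = t ^ n * v) :
    ∀ y ∈ V, (∃ z ∈ V, y = t * z) ∨ y⁻¹ ∈ V := by
  intro y hy
  by_cases hy0 : y = 0
  · exact Or.inl ⟨0, V.zero_mem, by rw [hy0, mul_zero]⟩
  have ht0 : t ≠ 0 := by
    rintro rfl
    exact htinv (by rw [inv_zero]; exact V.zero_mem)
  obtain ⟨n, v, hv, hv', e⟩ := hdec y hy0
  have hv0 : v ≠ 0 := by
    rintro rfl
    rw [mul_zero] at e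
    exact hy0 e
  rcases lt_trichotomy n 0 with hn | hn | hn
  · -- impossible: `t⁻¹ = t ^ (-n-1) * y * v⁻¹ ∈ V`
    exfalso
    apply htinv
    obtain ⟨k, hk⟩ : ∃ k : ℕ, -n - 1 = (k : ℤ) := ⟨(-n - 1).toNat, by omega⟩
    have h1 : t⁻¹ = t ^ k * y * v⁻¹ := by
      rw [e, ← zpow_natCast, ← hk]
      have : t ^ (-n - 1) * (t ^ n * v) * v⁻¹ = t ^ (-n - 1) * t ^ n := by
        field_simp
      rw [this, ← zpow_add₀ ht0]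
      have : -n - 1 + n = -1 := by ring
      rw [this, zpow_neg_one]
    rw [h1]
    exact V.mul_mem _ _ (V.mul_mem _ _ (V.pow_mem ht k) hy) hv'
  · right
    rw [e, hn, zpow_zero, one_mul]
    exact hv'
  · left
    obtain ⟨k, hk⟩ : ∃ k : ℕ, n = (k : ℤ) + 1 := ⟨(n - 1).toNat, by omega⟩
    refine ⟨t ^ k * v, V.mul_mem _ _ (V.pow_mem ht k) hv, ?_⟩
    rw [e, hk, zpow_add₀ ht0, zpow_natCast, zpow_one]
    ring

/-- From a decomposition `U = t ^ n · unit` and `π = u t ^ e` (`e ≥ 1`, `u` a unit of `V`): every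
element is moved into `V` by a power of `π`. -/
theorem s36z_hU_of_decomp (π t u : 𝓕) (e : ℕ) (he : 0 < e) (ht : t ∈ V) (ht0 : t ≠ 0)
    (hu : u ∈ V) (hπ : π = u * t ^ e)
    (hdec : ∀ U : 𝓕, U ≠ 0 → ∃ (n : ℤ) (v : 𝓕), v ∈ V ∧ v⁻¹ ∈ V ∧ U = t ^ n * v) :
    ∀ y : 𝓕, ∃ k : ℕ, π ^ k * y ∈ V := by
  intro y
  by_cases hy0 : y = 0
  · exact ⟨0, by rw [hy0, mul_zero]; exact V.zero_mem⟩
  obtain ⟨n, v, hv, -, ey⟩ := hdec y hy0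
  refine ⟨n.natAbs, ?_⟩
  obtain ⟨j, hj⟩ : ∃ j : ℕ, (e : ℤ) * (n.natAbs : ℤ) + n = (j : ℤ) := by
    refine ⟨((e : ℤ) * (n.natAbs : ℤ) + n).toNat, ?_⟩
    have h1 : (1 : ℤ) ≤ (e : ℤ) := by exact_mod_cast he
    have h2 : (0 : ℤ) ≤ (n.natAbs : ℤ) := Int.natCast_nonneg _
    have h3 : -n ≤ (n.natAbs : ℤ) := by omega
    have h4 : (n.natAbs : ℤ) ≤ (e : ℤ) * (n.natAbs : ℤ) := by nlinarith
    omega
  have h2 : (t ^ j : 𝓕) = t ^ (e * n.natAbs) * t ^ n := by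
    have hcast : ((e * n.natAbs : ℕ) : ℤ) = (e : ℤ) * (n.natAbs : ℤ) := by push_cast; rfl
    rw [← zpow_natCast t j, ← hj, zpow_add₀ ht0, ← hcast, zpow_natCast]
  have h1 : π ^ n.natAbs * y = u ^ n.natAbs * v * t ^ j := by
    rw [hπ, ey, mul_pow, ← pow_mul, h2]
    ring
  rw [h1]
  exact V.mul_mem _ _ (V.mul_mem _ _ (V.pow_mem hu _) hv) (V.pow_mem ht j)

/-- `π = u t ^ e` with `e ≥ 1` and `t` a non-unit of `V` is a non-unit of `V`. -/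
theorem s36z_not_unit_of_decomp (π t u : 𝓕) (e : ℕ) (he : 0 < e) (ht : t ∈ V) (htinv : t⁻¹ ∉ V)
    (hu : u ∈ V) (hπ0 : π ≠ 0) (hπ : π = u * t ^ e) :
    ¬ ∃ y ∈ V, (1 : 𝓕) = π * y := by
  rintro ⟨y, hy, e1⟩
  apply htinv
  have ht0 : t ≠ 0 := by
    rintro rfl
    rw [zero_pow (by omega), mul_zero] at hπ
    exact hπ0 hπ
  obtain ⟨k, rfl⟩ : ∃ k, e = k + 1 := ⟨e - 1, by omega⟩
  have : t⁻¹ = u * t ^ k * y := by
    have h2 : (1 : 𝓕) = t * (u * t ^ k * y) := by rw [e1, hπ, pow_succ]; ring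
    field_simp
    rw [h2]; ring
  rw [this]
  exact V.mul_mem _ _ (V.mul_mem _ _ hu (V.pow_mem ht k)) hy

end Adaptors

section Chart

variable (A₀ : ValuationSubring L₀) {ι : Type*} (O : ι → ValuationSubring 𝓕)
  (hAO : ∀ i, ∀ a : A₀, algebraMap L₀ 𝓕 (a : L₀) ∈ O i) (ϖ : A₀) (S : Set (Place L₀ 𝓕))

/-- **A smooth point lying on one component of multiplicity one**: `𝔪_{B_𝔫} = (t, ϖ)`, every
component but `i₀` misses `𝔫`, and `ϖ` generates the maximal ideal of `O i₀`. -/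
def s36z_SmoothAt (𝔫 : Ideal (s34x_ring (s34x_infRing O) S)) [𝔫.IsPrime] : Prop :=
  ∃ (t : s34x_ring (s34x_infRing O) S) (i₀ : ι),
    maximalIdeal (Localization.AtPrime 𝔫) =
      Ideal.span {algebraMap _ (Localization.AtPrime 𝔫) t,
        algebraMap _ (Localization.AtPrime 𝔫)
          (s34f_constHom A₀ (s34x_infRing O) (s34x_inf_const_mem O A₀ hAO) S ϖ)} ∧
    (∀ j, j ≠ i₀ → ∃ b : s34x_ring (s34x_infRing O) S,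
      (∃ y ∈ O j, (b : 𝓕) = algebraMap L₀ 𝓕 (ϖ : L₀) * y) ∧ b ∉ 𝔫) ∧
    ∀ y ∈ O i₀, (∃ z ∈ O i₀, y = algebraMap L₀ 𝓕 (ϖ : L₀) * z) ∨ y⁻¹ ∈ O i₀

/-- From the S35 datum, when `ϖ` generates the maximal ideal of every component which can be the
only one through a point (e.g. of every component of multiplicity one, if the components of higher
multiplicity never carry a point `𝔪 = (t, ϖ)` alone — or simply of all components). -/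
theorem s36z_smoothAt_of_s35 (𝔫 : Ideal (s34x_ring (s34x_infRing O) S)) [𝔫.IsPrime]
    (h : s35f_SmoothAt A₀ O hAO ϖ S 𝔫)
    (hmax : ∀ i₀, (∀ j, j ≠ i₀ → ∃ b : s34x_ring (s34x_infRing O) S,
        (∃ y ∈ O j, (b : 𝓕) = algebraMap L₀ 𝓕 (ϖ : L₀) * y) ∧ b ∉ 𝔫) →
      ∀ y ∈ O i₀, (∃ z ∈ O i₀, y = algebraMap L₀ 𝓕 (ϖ : L₀) * z) ∨ y⁻¹ ∈ O i₀) :
    s36z_SmoothAt A₀ O hAO ϖ S 𝔫 := by
  obtain ⟨t, i₀, hm, honly⟩ := h
  exact ⟨t, i₀, hm, honly, hmax i₀ honly⟩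

variable [IsDiscreteValuationRing A₀] [Fintype ι]

/-- **A smooth point satisfies the local generator contract.** -/
theorem s36z_nodeGen_of_smoothAt (hϖ : Irreducible ϖ)
    (hU : ∀ i, ∀ y : 𝓕, ∃ k : ℕ, algebraMap L₀ 𝓕 (ϖ : L₀) ^ k * y ∈ O i)
    (hD : s35f_Dict O S)
    (F : 𝓕) (hF0 : F ≠ 0) (m : ℕ) (hm0 : m ≠ 0) (hdiv : ∀ Q ∈ S, (m : ℤ) ∣ Q.ord F)
    (hF1 : ∀ i, ∃ y ∈ O i, F - 1 = algebraMap L₀ 𝓕 (ϖ : L₀) * y)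
    (𝔫 : Ideal (s34x_ring (s34x_infRing O) S)) [h𝔫 : 𝔫.IsPrime]
    (hπ𝔫 : s34x_const (s34x_infRing O) S (ϖ : L₀) (s34x_inf_const_mem O A₀ hAO ϖ) ∈ 𝔫)
    (hsm : s36z_SmoothAt A₀ O hAO ϖ S 𝔫) :
    s35f_NodeGen O S (algebraMap L₀ 𝓕 (ϖ : L₀)) 𝔫 (s18_E F m) := by
  obtain ⟨hnoeth, F1, F2, F3⟩ := hD
  haveI := hnoeth
  have hπ0 : algebraMap L₀ 𝓕 (ϖ : L₀) ≠ 0 := s34f_unif_ne_zero (𝓕 := 𝓕) A₀ ϖ hϖ
  have hπ𝔫' : s34f_constHom A₀ (s34x_infRing O) (s34x_inf_const_mem O A₀ hAO) S ϖ ∈ 𝔫 := hπ𝔫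
  obtain ⟨t, i₀, hm, honly, hmax⟩ := hsm
  exact s36z_nodeGen_smooth O S (algebraMap L₀ 𝓕 (ϖ : L₀)) hπ0 (fun i => hAO i ϖ)
    (fun Q => ff_ord_algebraMap Q _)
    (s34f_constHom A₀ (s34x_infRing O) (s34x_inf_const_mem O A₀ hAO) S ϖ) rfl hU F1 F2 F3
    𝔫 hπ𝔫' t hm i₀ honly hmax F hF0 m hm0 hdiv (hF1 i₀)

/-- **(LOC) on one chart.** -/
theorem s36z_hloc (hϖ : Irreducible ϖ)
    (hU : ∀ i, ∀ y : 𝓕, ∃ k : ℕ, algebraMap L₀ 𝓕 (ϖ : L₀) ^ k * y ∈ O i)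
    (hD : s35f_Dict O S)
    (F : 𝓕) (hF0 : F ≠ 0) (m : ℕ) (hm0 : m ≠ 0) (hdiv : ∀ Q ∈ S, (m : ℤ) ∣ Q.ord F)
    (hF1 : ∀ i, ∃ y ∈ O i, F - 1 = algebraMap L₀ 𝓕 (ϖ : L₀) * y)
    (𝔫 : Ideal (s34x_ring (s34x_infRing O) S)) [h𝔫 : 𝔫.IsPrime]
    (hπ𝔫 : s34x_const (s34x_infRing O) S (ϖ : L₀) (s34x_inf_const_mem O A₀ hAO ϖ) ∈ 𝔫)
    (hcase : s36z_SmoothAt A₀ O hAO ϖ S 𝔫 ∨
      s35f_NodeGen O S (algebraMap L₀ 𝓕 (ϖ : L₀)) 𝔫 (s18_E F m)) :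
    ∃ a ∈ s34x_latSet (s34x_infRing O) S (s18_E F m),
      ∃ s : s34x_ring (s34x_infRing O) S, s ∉ 𝔫 ∧
        ∃ y ∈ s34x_infRing O, a - (s : 𝓕) = algebraMap L₀ 𝓕 (ϖ : L₀) * y := by
  have hπ0 : algebraMap L₀ 𝓕 (ϖ : L₀) ≠ 0 := s34f_unif_ne_zero (𝓕 := 𝓕) A₀ ϖ hϖ
  have hgen : s35f_NodeGen O S (algebraMap L₀ 𝓕 (ϖ : L₀)) 𝔫 (s18_E F m) := by
    rcases hcase with hsm | hgen
    · exact s36z_nodeGen_of_smoothAt A₀ O hAO ϖ S hϖ hU hD F hF0 m hm0 hdiv hF1 𝔫 hπ𝔫 hsm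
    · exact hgen
  exact s35f_loc_of_nodeGen O S (algebraMap L₀ 𝓕 (ϖ : L₀)) hπ0 (fun i => hAO i ϖ) hU hD.2.2.2 𝔫 F
    hF0 m hgen

end Chart

/-- **Theorem X₀ with multiplicities, for `Pf` with an approximate root `x`**: from the two chart
dictionaries, the local data at every closed point of the special fibre (a smooth point on one
component of multiplicity one, or a local generator) and the Čech input.  No global `hmax`. -/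
theorem s36z_zero {ι : Type*} [Fintype ι] [Nonempty ι] (A₀ : ValuationSubring L₀)
    [IsDiscreteValuationRing A₀]
    (O : ι → ValuationSubring 𝓕) (hAO : ∀ i, ∀ a : A₀, algebraMap L₀ 𝓕 (a : L₀) ∈ O i)
    (ϖ : A₀) (hϖ : Irreducible ϖ)
    (hϖO : ∀ i, ¬ ∃ y ∈ O i, (1 : 𝓕) = algebraMap L₀ 𝓕 (ϖ : L₀) * y)
    (hU : ∀ i, ∀ y : 𝓕, ∃ k : ℕ, algebraMap L₀ 𝓕 (ϖ : L₀) ^ k * y ∈ O i)
    (t : 𝓕)
    (hD1 : s35f_Dict O (s18_chart1 (L₀ := L₀) t))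
    (hD2 : s35f_Dict O (s18_chart2 (L₀ := L₀) t))
    (Pf x : 𝓕) (hPf0 : Pf ≠ 0) (hx0 : x ≠ 0)
    (m : ℕ) (hm0 : m ≠ 0) (hmA : ((m : L₀))⁻¹ ∈ A₀) (hmL : (m : L₀) ≠ 0)
    (hdiv : ∀ Q : Place L₀ 𝓕, (m : ℤ) ∣ Q.ord Pf)
    (hF1 : ∀ i, ∃ y ∈ O i, Pf / x ^ m - 1 = algebraMap L₀ 𝓕 (ϖ : L₀) * y)
    (hloc1 : ∀ (𝔫 : Ideal (s34x_ring (s34x_infRing O) (s18_chart1 (L₀ := L₀) t))) [𝔫.IsMaximal],
      s34x_const (s34x_infRing O) (s18_chart1 (L₀ := L₀) t) (ϖ : L₀)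
        (s34x_inf_const_mem O A₀ hAO ϖ) ∈ 𝔫 →
      s36z_SmoothAt A₀ O hAO ϖ (s18_chart1 (L₀ := L₀) t) 𝔫 ∨
        s35f_NodeGen O (s18_chart1 (L₀ := L₀) t) (algebraMap L₀ 𝓕 (ϖ : L₀)) 𝔫
          (s18_E (Pf / x ^ m) m))
    (hloc2 : ∀ (𝔫 : Ideal (s34x_ring (s34x_infRing O) (s18_chart2 (L₀ := L₀) t))) [𝔫.IsMaximal],
      s34x_const (s34x_infRing O) (s18_chart2 (L₀ := L₀) t) (ϖ : L₀)
        (s34x_inf_const_mem O A₀ hAO ϖ) ∈ 𝔫 →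
      s36z_SmoothAt A₀ O hAO ϖ (s18_chart2 (L₀ := L₀) t) 𝔫 ∨
        s35f_NodeGen O (s18_chart2 (L₀ := L₀) t) (algebraMap L₀ 𝓕 (ϖ : L₀)) 𝔫
          (s18_E (Pf / x ^ m) m))
    (hH : ∃ G : Submodule A₀ 𝓕, G.FG ∧
      s34x_lat A₀ (s34x_infRing O) (s34x_inf_const_mem O A₀ hAO) (s18_chart12 t)
          (s18_E (Pf / x ^ m) m) ≤
        G ⊔ (s34x_lat A₀ (s34x_infRing O) (s34x_inf_const_mem O A₀ hAO) (s18_chart1 t)
            (s18_E (Pf / x ^ m) m) ⊔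
          s34x_lat A₀ (s34x_infRing O) (s34x_inf_const_mem O A₀ hAO) (s18_chart2 t)
            (s18_E (Pf / x ^ m) m))) :
    ∃ x' : 𝓕, x' ≠ 0 ∧ (∀ i, x' ∈ O i) ∧
      ∀ Q : Place L₀ 𝓕, Q.ord Pf ≤ (m : ℤ) * Q.ord (x * x') := by
  have hϖ0 : ((ϖ : A₀) : L₀) ≠ 0 := by
    have h1 : (ϖ : A₀) ≠ 0 := hϖ.ne_zero
    exact fun h => h1 (Subtype.ext h)
  have hxm0 : x ^ m ≠ 0 := pow_ne_zero _ hx0
  have hF0 : Pf / x ^ m ≠ 0 := div_ne_zero hPf0 hxm0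
  have hordF : ∀ Q : Place L₀ 𝓕, Q.ord (Pf / x ^ m) = Q.ord Pf - (m : ℤ) * Q.ord x := by
    intro Q
    rw [div_eq_mul_inv, Q.ord_mul hPf0 (inv_ne_zero hxm0)]
    have h1 := Q.ord_zpow (x ^ m) (-1)
    rw [zpow_neg_one] at h1
    have h2 : Q.ord (x ^ m) = (m : ℤ) * Q.ord x := by
      have := Q.ord_zpow x m
      rwa [zpow_natCast] at this
    rw [h1, h2]; ring
  have hdivF : ∀ Q : Place L₀ 𝓕, (m : ℤ) ∣ Q.ord (Pf / x ^ m) := by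
    intro Q
    rw [hordF]
    exact dvd_sub (hdiv Q) (dvd_mul_right _ _)
  have key : ∃ x' : 𝓕, x' ≠ 0 ∧ (∀ i, x' ∈ O i) ∧
      ∀ Q : Place L₀ 𝓕, Q.ord (Pf / x ^ m) ≤ (m : ℤ) * Q.ord x' := by
    refine s34x_zero_inf A₀ O hAO ϖ hϖ0 hϖO t (Pf / x ^ m) m hm0 hmA hmL hdivF hF1 ?_ ?_ hH
    · intro 𝔫 h𝔫 hπ𝔫
      haveI := h𝔫
      haveI : 𝔫.IsPrime := h𝔫.isPrime
      exact s36z_hloc A₀ O hAO ϖ _ hϖ hU hD1 (Pf / x ^ m) hF0 m hm0 (fun Q _ => hdivF Q) hF1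
        𝔫 hπ𝔫 (hloc1 𝔫 hπ𝔫)
    · intro 𝔫 h𝔫 hπ𝔫
      haveI := h𝔫
      haveI : 𝔫.IsPrime := h𝔫.isPrime
      exact s36z_hloc A₀ O hAO ϖ _ hϖ hU hD2 (Pf / x ^ m) hF0 m hm0 (fun Q _ => hdivF Q) hF1
        𝔫 hπ𝔫 (hloc2 𝔫 hπ𝔫)
  obtain ⟨x', hx'0, hx'O, hx'⟩ := key
  refine ⟨x', hx'0, hx'O, fun Q => ?_⟩
  have h1 := hx' Q
  rw [hordF] at h1
  rw [Q.ord_mul hx0 hx'0]
  linarith

/-- **Theorem X₀ with multiplicities, local generators everywhere**: the same with the contract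
`s35f_NodeGen` at EVERY closed point of the special fibre of both charts. -/
theorem s36z_zero_nodeGen {ι : Type*} [Fintype ι] [Nonempty ι] (A₀ : ValuationSubring L₀)
    [IsDiscreteValuationRing A₀]
    (O : ι → ValuationSubring 𝓕) (hAO : ∀ i, ∀ a : A₀, algebraMap L₀ 𝓕 (a : L₀) ∈ O i)
    (ϖ : A₀) (hϖ : Irreducible ϖ)
    (hϖO : ∀ i, ¬ ∃ y ∈ O i, (1 : 𝓕) = algebraMap L₀ 𝓕 (ϖ : L₀) * y)
    (hU : ∀ i, ∀ y : 𝓕, ∃ k : ℕ, algebraMap L₀ 𝓕 (ϖ : L₀) ^ k * y ∈ O i)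
    (t : 𝓕)
    (hD1 : s35f_Dict O (s18_chart1 (L₀ := L₀) t))
    (hD2 : s35f_Dict O (s18_chart2 (L₀ := L₀) t))
    (Pf x : 𝓕) (hPf0 : Pf ≠ 0) (hx0 : x ≠ 0)
    (m : ℕ) (hm0 : m ≠ 0) (hmA : ((m : L₀))⁻¹ ∈ A₀) (hmL : (m : L₀) ≠ 0)
    (hdiv : ∀ Q : Place L₀ 𝓕, (m : ℤ) ∣ Q.ord Pf)
    (hF1 : ∀ i, ∃ y ∈ O i, Pf / x ^ m - 1 = algebraMap L₀ 𝓕 (ϖ : L₀) * y)
    (hloc1 : ∀ (𝔫 : Ideal (s34x_ring (s34x_infRing O) (s18_chart1 (L₀ := L₀) t))) [𝔫.IsMaximal],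
      s34x_const (s34x_infRing O) (s18_chart1 (L₀ := L₀) t) (ϖ : L₀)
        (s34x_inf_const_mem O A₀ hAO ϖ) ∈ 𝔫 →
        s35f_NodeGen O (s18_chart1 (L₀ := L₀) t) (algebraMap L₀ 𝓕 (ϖ : L₀)) 𝔫
          (s18_E (Pf / x ^ m) m))
    (hloc2 : ∀ (𝔫 : Ideal (s34x_ring (s34x_infRing O) (s18_chart2 (L₀ := L₀) t))) [𝔫.IsMaximal],
      s34x_const (s34x_infRing O) (s18_chart2 (L₀ := L₀) t) (ϖ : L₀)
        (s34x_inf_const_mem O A₀ hAO ϖ) ∈ 𝔫 →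
        s35f_NodeGen O (s18_chart2 (L₀ := L₀) t) (algebraMap L₀ 𝓕 (ϖ : L₀)) 𝔫
          (s18_E (Pf / x ^ m) m))
    (hH : ∃ G : Submodule A₀ 𝓕, G.FG ∧
      s34x_lat A₀ (s34x_infRing O) (s34x_inf_const_mem O A₀ hAO) (s18_chart12 t)
          (s18_E (Pf / x ^ m) m) ≤
        G ⊔ (s34x_lat A₀ (s34x_infRing O) (s34x_inf_const_mem O A₀ hAO) (s18_chart1 t)
            (s18_E (Pf / x ^ m) m) ⊔
          s34x_lat A₀ (s34x_infRing O) (s34x_inf_const_mem O A₀ hAO) (s18_chart2 t)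
            (s18_E (Pf / x ^ m) m))) :
    ∃ x' : 𝓕, x' ≠ 0 ∧ (∀ i, x' ∈ O i) ∧
      ∀ Q : Place L₀ 𝓕, Q.ord Pf ≤ (m : ℤ) * Q.ord (x * x') :=
  s36z_zero A₀ O hAO ϖ hϖ hϖO hU t hD1 hD2 Pf x hPf0 hx0 m hm0 hmA hmL hdiv hF1
    (fun 𝔫 _ h => Or.inr (hloc1 𝔫 h)) (fun 𝔫 _ h => Or.inr (hloc2 𝔫 h)) hH

end Fermat.Agent.Lib.S36
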